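/-
S56 (Taylor–Wiles) — helper1, leaf (K) "killing lemma", part 2: cyclotomic characters mod `m` of
`G_ℚ`, their kernels (open), and their values on Frobenius elements.
-/
import Mathlib
import Fermat.Prelude.Def_ExtCitation_AdmissibleExtension
import Fermat.Prelude.Def_EllipticCurve_FrobeniusTrace
import Fermat.Agent.CFT.S14.Cyclo_helper5

set_option autoImplicit false
set_option linter.unusedSectionVars false

namespace Fermat.Agent.TW.Kill

/-- `Ω = AlgebraicClosure ℚ`. -/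
local notation "Ω" => AlgebraicClosure ℚ
/-- `GQ = Gal(Ω/ℚ)`. -/
local notation "GQ" => (AlgebraicClosure ℚ ≃ₐ[ℚ] AlgebraicClosure ℚ)

/-- the mod `m` cyclotomic character of `G_ℚ` -/
noncomputable def cyc (m : ℕ) [NeZero m] : GQ →* (ZMod m)ˣ :=
  (modularCyclotomicCharacter Ω (IsAlgClosed.card_rootsOfUnity_eq Ω m)).comp
    (MulSemiringAction.toRingAut GQ Ω)

theorem cyc_spec (m : ℕ) [NeZero m] (σ : GQ) {t : Ωˣ} (ht : t ∈ rootsOfUnity m Ω) :
    σ (t : Ω) = (t : Ω) ^ ((cyc m σ : ZMod m)).val :=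
  modularCyclotomicCharacter.spec Ω (IsAlgClosed.card_rootsOfUnity_eq Ω m)
    (MulSemiringAction.toRingAut GQ Ω σ) ht

theorem cyc_spec' (m : ℕ) [NeZero m] (σ : GQ) {t : Ω} (ht : t ^ m = 1) :
    σ t = t ^ ((cyc m σ : ZMod m)).val := by
  have hu : IsUnit t := IsUnit.of_pow_eq_one ht (NeZero.ne m)
  obtain ⟨u, rfl⟩ := hu
  refine cyc_spec m σ ?_
  rw [mem_rootsOfUnity]
  exact Units.ext (by rw [Units.val_pow_eq_pow_val, ht, Units.val_one])

theorem cyc_unique (m : ℕ) [NeZero m] (σ : GQ) {c : ZMod m}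
    (hc : ∀ t : Ω, t ^ m = 1 → σ t = t ^ c.val) : (cyc m σ : ZMod m) = c := by
  symm
  refine modularCyclotomicCharacter.unique Ω (IsAlgClosed.card_rootsOfUnity_eq Ω m)
    (MulSemiringAction.toRingAut GQ Ω σ) fun t ht => ?_
  refine hc t ?_
  rw [mem_rootsOfUnity] at ht
  rw [← Units.val_pow_eq_pow_val, ht, Units.val_one]

theorem pow_val_one {m : ℕ} [NeZero m] {t : Ω} (ht : t ^ m = 1) : t ^ (1 : ZMod m).val = t := by
  rcases Nat.lt_or_ge 1 m with h | h
  · have : Fact (1 < m) := ⟨h⟩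
    rw [ZMod.val_one, pow_one]
  · have hm : m = 1 := le_antisymm h (Nat.one_le_iff_ne_zero.2 (NeZero.ne m))
    subst hm
    rw [pow_one] at ht
    rw [ht, one_pow]

theorem cyc_eq_one_iff (m : ℕ) [NeZero m] (σ : GQ) :
    cyc m σ = 1 ↔ ∀ t : Ω, t ^ m = 1 → σ t = t := by
  constructor
  · intro h t ht
    rw [cyc_spec' m σ ht, h, Units.val_one, pow_val_one ht]
  · intro h
    apply Units.ext
    rw [Units.val_one]
    exact cyc_unique m σ fun t ht => by rw [h t ht, pow_val_one ht]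

/-- triviality mod a multiple implies triviality mod a divisor -/
theorem cyc_eq_one_of_dvd {m m' : ℕ} [NeZero m] [NeZero m'] (hd : m ∣ m') {σ : GQ}
    (h : cyc m' σ = 1) : cyc m σ = 1 := by
  rw [cyc_eq_one_iff] at h ⊢
  intro t ht
  refine h t ?_
  obtain ⟨d, rfl⟩ := hd
  rw [pow_mul, ht, one_pow]

/-- the mod `m` character is trivial on an element fixing a primitive `m`-th root of unity -/
theorem cyc_eq_one_of_fix {m : ℕ} [NeZero m] {ζ : Ω} (hζ : IsPrimitiveRoot ζ m) {σ : GQ}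
    (h : σ ζ = ζ) : cyc m σ = 1 := by
  rw [cyc_eq_one_iff]
  intro t ht
  obtain ⟨i, -, rfl⟩ := hζ.eq_pow_of_pow_eq_one ht
  rw [map_pow, h]

theorem exists_primitiveRoot (m : ℕ) [NeZero m] : ∃ ζ : Ω, IsPrimitiveRoot ζ m :=
  HasEnoughRootsOfUnity.exists_primitiveRoot Ω m

/-- the kernel of the mod `m` cyclotomic character contains the fixing subgroup of a finite
extension -/
theorem exists_finiteDimensional_cyc_eq_one (m : ℕ) [NeZero m] :
    ∃ F : IntermediateField ℚ Ω, FiniteDimensional ℚ F ∧ ∀ σ ∈ F.fixingSubgroup, cyc m σ = 1 := by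
  obtain ⟨ζ, hζ⟩ := exists_primitiveRoot m
  have hint : IsIntegral ℚ ζ := (Algebra.IsAlgebraic.isAlgebraic ζ).isIntegral
  refine ⟨IntermediateField.adjoin ℚ {ζ}, IntermediateField.adjoin.finiteDimensional hint,
    fun σ hσ => cyc_eq_one_of_fix hζ ?_⟩
  exact (IntermediateField.mem_fixingSubgroup_iff _ _).1 hσ ζ
    (IntermediateField.mem_adjoin_simple_self ℚ ζ)

theorem cyc_eq_chi (p : ℕ) [Fact p.Prime] :
    haveI : NeZero p := ⟨(Fact.out : p.Prime).ne_zero⟩
    cyc p = Fermat.Agent.CFT.S14.chi p := rfl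

theorem cyc_surjective (p : ℕ) [Fact p.Prime] [NeZero p] : Function.Surjective (cyc p) :=
  Fermat.Agent.CFT.S14.chi_surjective p

section Frobenius

variable {P : ValuationSubring Ω}

theorem mem_of_isIntegral_int (P : ValuationSubring Ω) {x : Ω} (hx : IsIntegral ℤ x) : x ∈ P := by
  have h1 : IsIntegral P x := hx.tower_top
  obtain ⟨y, rfl⟩ := IsIntegrallyClosedIn.isIntegral_iff.mp h1
  exact y.2

theorem valuation_natCast_le_one (P : ValuationSubring Ω) (n : ℕ) :
    P.valuation (n : Ω) ≤ 1 :=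
  (P.valuation_le_one_iff _).2 (natCast_mem P n)

theorem valuation_intCast_le_one (P : ValuationSubring Ω) (n : ℤ) :
    P.valuation (n : Ω) ≤ 1 :=
  (P.valuation_le_one_iff _).2 (intCast_mem P n)

/-- an integer prime to `q` is a unit at every place over `q` -/
theorem valuation_natCast_eq_one {q m : ℕ} (hq : q.Prime) (hqm : ¬ q ∣ m)
    (hP : P.LiesOverPrime q) : P.valuation (m : Ω) = 1 := by
  refine le_antisymm (valuation_natCast_le_one P m) ?_
  by_contra hlt
  rw [not_le] at hlt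
  have hcop : IsCoprime (m : ℤ) (q : ℤ) := by
    rw [Int.isCoprime_iff_gcd_eq_one, Int.gcd_natCast_natCast]
    exact Nat.Coprime.symm ((Nat.Prime.coprime_iff_not_dvd hq).2 hqm)
  obtain ⟨a, b, hab⟩ := hcop
  have hq1 : P.valuation (q : Ω) < 1 := P.mem_nonunits_iff.1 hP
  have h1 : (a : Ω) * (m : Ω) + (b : Ω) * (q : Ω) = 1 := by
    have := congrArg (fun z : ℤ => (z : Ω)) hab
    push_cast at this
    exact this
  have h2 : P.valuation ((a : Ω) * (m : Ω) + (b : Ω) * (q : Ω)) < 1 := by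
    refine lt_of_le_of_lt (P.valuation.map_add _ _) (max_lt ?_ ?_)
    · rw [map_mul]
      calc P.valuation (a : Ω) * P.valuation (m : Ω) ≤ 1 * P.valuation (m : Ω) :=
            mul_le_mul_left (valuation_intCast_le_one P a) _
        _ < 1 := by rw [one_mul]; exact hlt
    · rw [map_mul]
      calc P.valuation (b : Ω) * P.valuation (q : Ω) ≤ 1 * P.valuation (q : Ω) :=
            mul_le_mul_left (valuation_intCast_le_one P b) _
        _ < 1 := by rw [one_mul]; exact hq1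
  rw [h1, map_one] at h2
  exact lt_irrefl _ h2

/-- `1 - ζ^j` is a unit at `P` when `ζ` is a primitive `m`-th root of unity, `m ∤ j` and `m` is a
unit at `P` -/
theorem valuation_one_sub_pow_eq_one {m : ℕ} {ζ : Ω} (hζ : IsPrimitiveRoot ζ m)
    (hm : P.valuation (m : Ω) = 1) {j : ℕ} (hj : ¬ m ∣ j) :
    P.valuation (1 - ζ ^ j) = 1 := by
  have hm0 : m ≠ 0 := by
    rintro rfl
    exact hj (Nat.zero_dvd.2 (Nat.eq_zero_of_zero_dvd (by
      have : P.valuation ((0 : ℕ) : Ω) = 1 := hm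
      rw [Nat.cast_zero, map_zero] at this
      exact absurd this zero_ne_one)))
  obtain ⟨n, rfl⟩ : ∃ n, m = n + 1 := ⟨m - 1, (Nat.succ_pred_eq_of_pos (Nat.pos_of_ne_zero hm0)).symm⟩
  have hprod := hζ.prod_one_sub_pow_eq_order
  have h1 := congrArg P.valuation hprod
  rw [map_prod] at h1
  have hcast : P.valuation ((n : Ω) + 1) = 1 := by
    have : ((n + 1 : ℕ) : Ω) = (n : Ω) + 1 := by push_cast; rfl
    rw [← this]; exact hm
  rw [hcast] at h1
  have hle : ∀ i ∈ Finset.range n, P.valuation (1 - ζ ^ (i + 1)) ≤ 1 := by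
    intro i _
    refine (P.valuation_le_one_iff _).2 (P.sub_mem (P.one_mem) (P.pow_mem ?_ _))
    exact mem_of_isIntegral_int P (hζ.isIntegral (Nat.succ_pos n))
  have hall := (Finset.prod_eq_one_iff_of_le_one' hle).1 h1
  -- reduce `j` mod `n + 1`
  have hjr : ζ ^ j = ζ ^ (j % (n + 1)) := by
    conv_lhs => rw [← Nat.div_add_mod j (n + 1), pow_add, pow_mul, hζ.pow_eq_one, one_pow, one_mul]
  have hpos : 0 < j % (n + 1) := Nat.pos_of_ne_zero fun h => hj (Nat.dvd_of_mod_eq_zero h)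
  have hlt : j % (n + 1) < n + 1 := Nat.mod_lt _ (Nat.succ_pos n)
  obtain ⟨i, hi⟩ : ∃ i, j % (n + 1) = i + 1 := ⟨j % (n + 1) - 1, by omega⟩
  rw [hjr, hi]
  exact hall i (Finset.mem_range.2 (by omega))

/-- **Frobenius elements and the cyclotomic character**: if a Frobenius element at a place over
`q ∤ m` fixes a primitive `m`-th root of unity then `q ≡ 1 mod m`. -/
theorem dvd_sub_one_of_isFrobeniusAt {q m : ℕ} (hq : q.Prime) (hqm : ¬ q ∣ m)
    (hP : P.LiesOverPrime q) {φ : GQ} (hφ : P.IsFrobeniusAt φ q) {ζ : Ω}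
    (hζ : IsPrimitiveRoot ζ m) (hfix : φ ζ = ζ) : m ∣ q - 1 := by
  by_contra hnd
  have hm0 : m ≠ 0 := by
    rintro rfl
    exact hqm (dvd_zero q)
  have hζP : ζ ∈ P := mem_of_isIntegral_int P (hζ.isIntegral (Nat.pos_of_ne_zero hm0))
  obtain ⟨hφD, hfrob⟩ := hφ
  set z : P := ⟨ζ, hζP⟩ with hz
  have h1 := hfrob (IsLocalRing.residue P z)
  rw [← IsLocalRing.ResidueField.residue_smul, ← map_pow, ← sub_eq_zero, ← map_sub,
    IsLocalRing.residue_eq_zero_iff, P.valuation_lt_one_iff] at h1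
  have h2 : P.valuation (φ ζ - ζ ^ q) < 1 := h1
  rw [hfix] at h2
  have hq1 : q = (q - 1) + 1 := (Nat.succ_pred_eq_of_pos hq.pos).symm
  have h3 : ζ - ζ ^ q = ζ * (1 - ζ ^ (q - 1)) := by
    conv_lhs => rw [hq1, pow_succ]
    ring
  have hv1 : P.valuation ζ = 1 := by
    have hpow : P.valuation ζ ^ m = 1 := by rw [← map_pow, hζ.pow_eq_one, map_one]
    exact (pow_eq_one_iff_of_nonneg zero_le hm0).1 hpow
  rw [h3, map_mul, hv1, one_mul,
    valuation_one_sub_pow_eq_one hζ (valuation_natCast_eq_one hq hqm hP) hnd] at h2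
  exact lt_irrefl _ h2

end Frobenius

end Fermat.Agent.TW.Kill
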