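/-
S56 (Taylor–Wiles) — helper1, leaf (K) "killing lemma", part 5: existence of a Frobenius element at
a GIVEN valuation subring of `ℚ̄` over a prime (the proof of `S54.exists_frobenius_general` is
generic in the valuation subring), and the place `padicPlace q` lies over `q`.
-/
import Fermat.Agent.S54_Frobenius
import Fermat.Prelude.Def_GaloisRep_CompletionBridge

set_option autoImplicit false
set_option linter.unusedVariables false
set_option linter.style.haveILetI false

namespace Fermat.Agent.TW.Kill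

open Fermat.Agent.S54 Polynomial IsLocalRing Pointwise

noncomputable section

section Main

attribute [local instance] Fermat.Agent.S54.galActionInt

variable {L : Type*} [Field L] [Algebra ℚ L] [IsAlgClosed L] [Algebra.IsAlgebraic ℚ L]

theorem exists_isFrobeniusAt_general (A : ValuationSubring L) {l : ℕ} (hl : l.Prime)
    (hlA : A.LiesOverPrime l) : ∃ σ : L ≃ₐ[ℚ] L, A.IsFrobeniusAt σ l := by
  haveI : CharZero L := algebraRat.charZero L
  haveI : IsAlgClosure ℚ L := ⟨inferInstance, inferInstance⟩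
  haveI : IsGalois ℚ L := IsAlgClosure.isGalois ℚ L
  let P : Ideal ℤ := (primeOf A).under ℤ
  haveI : (primeOf A).LiesOver P := ⟨rfl⟩
  letI : TopologicalSpace (integralClosure ℤ L) := ⊥
  haveI : DiscreteTopology (integralClosure ℤ L) := ⟨rfl⟩
  haveI : ContinuousSMul (L ≃ₐ[ℚ] L) (integralClosure ℤ L) := continuousSMul_galActionInt
  haveI : Algebra.IsInvariant ℤ (integralClosure ℤ L) (L ≃ₐ[ℚ] L) := isInvariant_galActionInt
  let frobAlg : (integralClosure ℤ L ⧸ primeOf A) ≃ₐ[ℤ ⧸ P] (integralClosure ℤ L ⧸ primeOf A) :=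
    AlgEquiv.ofRingEquiv (f := frobEquiv A hl hlA) (by
      intro x
      obtain ⟨n, rfl⟩ := Ideal.Quotient.mk_surjective x
      have h1 : (Ideal.Quotient.mk P n) = ((n : ℤ) : ℤ ⧸ P) := by simp
      rw [h1, map_intCast, map_intCast])
  obtain ⟨⟨σ, hσ⟩, hσ'⟩ :=
    Ideal.Quotient.stabilizerHom_surjective_of_profinite (G := L ≃ₐ[ℚ] L) P (primeOf A) frobAlg
  have hσQ : σ • primeOf A = primeOf A := hσ
  have hσinvQ : σ⁻¹ • primeOf A = primeOf A := by
    conv_lhs => rw [← hσQ]
    rw [inv_smul_smul]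
  -- the congruence on `B`
  have hcong : ∀ b : integralClosure ℤ L, A.valuation (σ (b : L) - (b : L) ^ l) < 1 := by
    intro b
    have h1 : Ideal.Quotient.stabilizerHom (primeOf A) P (L ≃ₐ[ℚ] L) ⟨σ, hσ⟩
        (Ideal.Quotient.mk _ b) = frobAlg (Ideal.Quotient.mk _ b) := by rw [hσ']
    rw [Ideal.Quotient.stabilizerHom_apply] at h1
    have h2 : frobAlg (Ideal.Quotient.mk _ b) = Ideal.Quotient.mk _ (b ^ l) := by
      show frobEquiv A hl hlA (Ideal.Quotient.mk _ b) = _
      rw [frobEquiv_apply, map_pow]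
    rw [h2, Ideal.Quotient.eq, mem_primeOf] at h1
    exact h1
  refine ⟨σ, ?_⟩
  have hσA : σ ∈ A.decompositionSubgroup ℚ := by
    rw [MulAction.mem_stabilizer_iff]
    ext x
    rw [ValuationSubring.mem_pointwise_smul_iff_inv_smul_mem]
    constructor
    · intro h
      have := map_mem_of_smul_primeOf_eq A hl hlA σ hσQ h
      simpa [AlgEquiv.smul_def] using this
    · intro h
      exact map_mem_of_smul_primeOf_eq A hl hlA σ⁻¹ hσinvQ h
  refine ⟨hσA, ?_⟩
  intro xbar
  obtain ⟨a, rfl⟩ := IsLocalRing.residue_surjective xbar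
  rw [← IsLocalRing.ResidueField.residue_smul, ← map_pow]
  rw [← sub_eq_zero, ← map_sub, IsLocalRing.residue_eq_zero_iff, A.valuation_lt_one_iff]
  show A.valuation (σ (a : L) - (a : L) ^ l) < 1
  have hxalg : IsAlgebraic ℤ (a : L) :=
    (IsFractionRing.isAlgebraic_iff ℤ ℚ L).mpr (Algebra.IsAlgebraic.isAlgebraic (a : L))
  obtain ⟨s, hs, hsv, hsx⟩ := exists_fraction A hl hlA hxalg a.2
  have h1 := hcong ⟨s, hs⟩
  have h2 := hcong ⟨s * a, hsx⟩
  simp only at h1 h2
  have hσa : A.valuation (σ (a : L)) ≤ 1 :=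
    (A.valuation_le_one_iff _).mpr (map_mem_of_smul_primeOf_eq A hl hlA σ hσQ a.2)
  have key : s ^ l * (σ (a : L) - (a : L) ^ l) =
      -(σ s - s ^ l) * σ (a : L) + (σ (s * (a : L)) - (s * (a : L)) ^ l) := by
    rw [map_mul]; ring
  have h3 : A.valuation (s ^ l * (σ (a : L) - (a : L) ^ l)) < 1 := by
    rw [key]
    refine lt_of_le_of_lt (A.valuation.map_add _ _) (max_lt ?_ h2)
    rw [map_mul, Valuation.map_neg]
    exact mul_lt_one_of_lt_of_le h1 hσa
  rwa [map_mul, map_pow, hsv, one_pow, one_mul] at h3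

end Main

/-- Existence of a Frobenius element at every valuation subring of `ℚ̄` over a prime. -/
theorem exists_isFrobeniusAt (A : ValuationSubring (AlgebraicClosure ℚ)) {l : ℕ} (hl : l.Prime)
    (hlA : A.LiesOverPrime l) :
    ∃ σ : AlgebraicClosure ℚ ≃ₐ[ℚ] AlgebraicClosure ℚ, A.IsFrobeniusAt σ l := by
  have e : (AlgebraicClosure.instAlgebra ℚ : Algebra ℚ (AlgebraicClosure ℚ)) =
      DivisionRing.toRatAlgebra := Subsingleton.elim _ _
  have h : @Algebra.IsAlgebraic ℚ (AlgebraicClosure ℚ) _ _ (AlgebraicClosure.instAlgebra ℚ) :=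
    AlgebraicClosure.isAlgebraic ℚ
  haveI : Algebra.IsAlgebraic ℚ (AlgebraicClosure ℚ) := e ▸ h
  exact exists_isFrobeniusAt_general A hl hlA

/-- the place `padicPlace q` lies over `q` -/
theorem padicPlace_liesOverPrime (q : ℕ) [Fact q.Prime] : (padicPlace q).LiesOverPrime q := by
  have hq : q.Prime := Fact.out
  change ((q : ℕ) : AlgebraicClosure ℚ) ∈ (padicPlace q).nonunits
  rw [ValuationSubring.mem_nonunits_iff_or]
  right
  rw [mem_padicPlace_iff, map_inv₀, map_natCast, nnnorm_inv, not_le]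
  have h1 : ‖((q : ℕ) : PadicAlgCl q)‖₊ < 1 := by
    have h2 : ((q : ℕ) : PadicAlgCl q) = algebraMap ℚ_[q] (PadicAlgCl q) (q : ℚ_[q]) := by
      rw [map_natCast]
    rw [h2, ← NNReal.coe_lt_coe, coe_nnnorm, PadicAlgCl.norm_extends]
    exact Padic.norm_p_lt_one
  have h0 : ‖((q : ℕ) : PadicAlgCl q)‖₊ ≠ 0 := by
    rw [nnnorm_ne_zero_iff]
    exact_mod_cast hq.ne_zero
  exact one_lt_inv₀ (pos_iff_ne_zero.2 h0) |>.2 h1

end

end Fermat.Agent.TW.Kill
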