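import Mathlib

set_option autoImplicit false

open Polynomial Module TensorProduct nonZeroDivisors

namespace Fermat.Agent.TW.EC

section Perm

variable {Ω : Type*} [Fintype Ω] [DecidableEq Ω]

omit [Fintype Ω] [DecidableEq Ω] in
theorem funLeft_pow (R : Type*) [CommRing R] (s : Equiv.Perm Ω) (d : ℕ) :
    (LinearMap.funLeft R R s) ^ d = LinearMap.funLeft R R (s ^ d : Equiv.Perm Ω) := by
  induction d with
  | zero =>
    apply LinearMap.ext; intro F; ext ω; simp [LinearMap.funLeft_apply]
  | succ d ih =>
    rw [pow_succ, ih]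
    apply LinearMap.ext; intro F; ext ω
    simp [LinearMap.funLeft_apply, pow_succ']

/-- the integral permutation matrix of `s`. -/
def permMat (s : Equiv.Perm Ω) : Matrix Ω Ω ℤ := Matrix.of fun i j => if s i = j then 1 else 0

theorem charpoly_funLeft (R : Type*) [CommRing R] (s : Equiv.Perm Ω) :
    (LinearMap.funLeft R R s).charpoly = (permMat s).charpoly.map (Int.castRingHom R) := by
  rw [← Matrix.charpoly_map, ← LinearMap.charpoly_toMatrix _ (Pi.basisFun R Ω),
    LinearMap.toMatrix_eq_toMatrix']
  congr 1
  ext i j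
  simp [LinearMap.toMatrix'_apply, LinearMap.funLeft_apply, permMat, Pi.single_apply, eq_comm]

omit [DecidableEq Ω] in
theorem finrank_ker_funLeft_sub_one (K : Type*) [Field K] (t : Equiv.Perm Ω) :
    finrank K (LinearMap.ker (LinearMap.funLeft K K t - 1)) =
      Nat.card (MulAction.orbitRel.Quotient (Subgroup.zpowers t) Ω) := by
  classical
  let Q := MulAction.orbitRel.Quotient (Subgroup.zpowers t) Ω
  let mk : Ω → Q := Quotient.mk''
  have hmk : Function.Surjective mk := Quotient.mk''_surjective
  let Φ : (Q → K) →ₗ[K] (Ω → K) := LinearMap.funLeft K K mk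
  have hΦ : Function.Injective Φ := LinearMap.funLeft_injective_of_surjective K K mk hmk
  have hrange : LinearMap.range Φ = LinearMap.ker (LinearMap.funLeft K K t - 1) := by
    apply le_antisymm
    · rintro _ ⟨G, rfl⟩
      rw [LinearMap.mem_ker]
      ext ω
      simp only [LinearMap.sub_apply, LinearMap.funLeft_apply, Module.End.one_apply, Pi.sub_apply,
        Pi.zero_apply, Φ]
      have : mk (t ω) = mk ω := by
        apply Quotient.sound'
        rw [MulAction.orbitRel_apply]
        exact ⟨⟨t, Subgroup.mem_zpowers t⟩, rfl⟩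
      rw [this, sub_self]
    · intro F hF
      rw [LinearMap.mem_ker] at hF
      have hF' : ∀ ω, F (t ω) = F ω := by
        intro ω
        have := congrFun hF ω
        simpa [LinearMap.funLeft_apply, sub_eq_zero] using this
      let H : Subgroup (Equiv.Perm Ω) :=
        { carrier := {g | ∀ ω, F (g ω) = F ω}
          one_mem' := fun ω => rfl
          mul_mem' := fun {a b} ha hb ω => by
            rw [Equiv.Perm.mul_apply, ha, hb]
          inv_mem' := fun {a} ha ω => by
            have := ha (a⁻¹ ω)
            have h2 : a (a⁻¹ ω) = ω := by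
              rw [← Equiv.Perm.mul_apply, mul_inv_cancel, Equiv.Perm.one_apply]
            rw [h2] at this
            exact this.symm }
      have hH : Subgroup.zpowers t ≤ H := by
        rw [Subgroup.zpowers_le]
        exact hF'
      have hconst : ∀ a b : Ω, (MulAction.orbitRel (Subgroup.zpowers t) Ω) a b → F a = F b := by
        intro a b hab
        rw [MulAction.orbitRel_apply] at hab
        obtain ⟨⟨g, hg⟩, rfl⟩ := hab
        exact hH hg b
      refine ⟨Quotient.lift F hconst, ?_⟩
      ext ω
      rfl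
  rw [← hrange, LinearMap.finrank_range_of_inj hΦ]
  let _ : Fintype Q := Fintype.ofFinite Q
  rw [Module.finrank_fintype_fun_eq_card, Nat.card_eq_fintype_card]

end Perm

section Rank

variable {A : Type*} [AddCommGroup A]

/-- the `ℚ`-dimension of the kernel of `ℚ ⊗ g` is the `ℤ`-rank of the kernel of `g`. -/
theorem finrank_ker_baseChange (g : A →ₗ[ℤ] A) :
    finrank ℚ (LinearMap.ker (g.baseChange ℚ)) = finrank ℤ (LinearMap.ker g) := by
  let f : A →ₗ[ℤ] ℚ ⊗[ℤ] A := TensorProduct.mk ℤ ℚ A 1
  have hloc : IsLocalizedModule ℤ⁰ f := IsLocalization.tensorProduct_isLocalizedModule ℤ⁰ ℚ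
  have hmap : ∀ x, IsLocalizedModule.map ℤ⁰ f f g x = g.baseChange ℚ x := by
    intro x
    have h1 : IsLocalizedModule.map ℤ⁰ f f g = (g.baseChange ℚ).restrictScalars ℤ := by
      apply IsLocalizedModule.linearMap_ext ℤ⁰ f f
      ext a
      simp only [LinearMap.coe_comp, Function.comp_apply, IsLocalizedModule.map_apply,
        LinearMap.coe_restrictScalars]
      exact (LinearMap.baseChange_tmul (A := ℚ) g (1 : ℚ) a).symm
    rw [h1]; rfl
  have hker := LinearMap.toKerLocalized_isLocalizedModule ℚ ℤ⁰ f f g
  have h1 : finrank ℤ (LinearMap.ker (IsLocalizedModule.map ℤ⁰ f f g)) =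
      finrank ℤ (LinearMap.ker g) :=
    IsLocalizedModule.finrank_eq ℤ⁰ (LinearMap.toKerIsLocalized ℤ⁰ f f g) le_rfl
  have h2 : finrank ℚ (LinearMap.ker (g.baseChange ℚ)) =
      finrank ℤ (LinearMap.ker (g.baseChange ℚ)) :=
    IsLocalization.finrank_eq ℚ ℤ⁰ le_rfl
  rw [h2, ← h1]
  let e : (LinearMap.ker (g.baseChange ℚ)) ≃ₗ[ℤ] (LinearMap.ker (IsLocalizedModule.map ℤ⁰ f f g)) :=
    { toFun := fun x => ⟨x.1, by rw [LinearMap.mem_ker, hmap]; exact x.2⟩
      invFun := fun x => ⟨x.1, by
        have := x.2
        rw [LinearMap.mem_ker, hmap] at this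
        exact this⟩
      left_inv := fun x => rfl
      right_inv := fun x => rfl
      map_add' := fun x y => rfl
      map_smul' := fun c x => rfl }
  exact e.finrank_eq

end Rank

end Fermat.Agent.TW.EC
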