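/-
S56 / EC-D1 (helper5): the characteristic polynomial of a block diagonal matrix, and of the
permutation endomorphism of a disjoint union of permutations.
-/
import Fermat.Agent.TW.ECA_helper5_Perm

set_option autoImplicit false

open Polynomial Matrix

namespace Fermat.Agent.TW.EC

section Block

variable {R : Type*} [CommRing R] {o : Type*} [DecidableEq o]
  {m' : o → Type*}

theorem toSquareBlock_blockDiagonal'_ECD1 (N : ∀ i, Matrix (m' i) (m' i) R) (a : o) :
    (blockDiagonal' N).toSquareBlock Sigma.fst a =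
      (N a).submatrix (Equiv.sigmaSubtype a) (Equiv.sigmaSubtype a) := by
  ext ⟨⟨i, x⟩, hi⟩ ⟨⟨j, y⟩, hj⟩
  cases hi
  cases hj
  simp [toSquareBlock_def, blockDiagonal'_apply_eq]

variable [Fintype o] [∀ i, Fintype (m' i)] [∀ i, DecidableEq (m' i)]

theorem det_blockDiagonal'_ECD1 (N : ∀ i, Matrix (m' i) (m' i) R) :
    (blockDiagonal' N).det = ∏ i, (N i).det := by
  let _ : LinearOrder o := LinearOrder.lift' (Fintype.equivFin o) (Equiv.injective _)
  rw [(blockTriangular_blockDiagonal' N).det_fintype]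
  refine Finset.prod_congr rfl fun a _ => ?_
  rw [toSquareBlock_blockDiagonal'_ECD1, det_submatrix_equiv_self]

theorem charpoly_blockDiagonal'_ECD1 (N : ∀ i, Matrix (m' i) (m' i) R) :
    (blockDiagonal' N).charpoly = ∏ i, (N i).charpoly := by
  unfold Matrix.charpoly
  rw [← det_blockDiagonal'_ECD1]
  congr 1
  ext ⟨i, x⟩ ⟨j, y⟩
  by_cases h : i = j
  · subst h
    rw [blockDiagonal'_apply_eq]
    by_cases hxy : x = y
    · subst hxy
      simp
    · have : (⟨i, x⟩ : Σ i, m' i) ≠ ⟨i, y⟩ := fun h => hxy (by cases h; rfl)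
      simp [hxy, this, blockDiagonal'_apply_eq]
  · have : (⟨i, x⟩ : Σ i, m' i) ≠ ⟨j, y⟩ := fun h' => h (by cases h'; rfl)
    rw [blockDiagonal'_apply_ne _ _ _ h]
    simp [this, blockDiagonal'_apply_ne _ _ _ h]

omit [Fintype o] [∀ i, Fintype (m' i)] in
theorem permMat_sigmaCongrRight (σ : ∀ i, Equiv.Perm (m' i)) :
    permMat (Equiv.sigmaCongrRight σ) = blockDiagonal' (fun i => permMat (σ i)) := by
  ext ⟨i, x⟩ ⟨j, y⟩
  by_cases h : i = j
  · subst h
    rw [blockDiagonal'_apply_eq]
    simp [permMat]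
  · rw [blockDiagonal'_apply_ne _ _ _ h]
    have : (⟨i, (σ i) x⟩ : Σ i, m' i) ≠ ⟨j, y⟩ := fun h' => h (by cases h'; rfl)
    simp [permMat, this]

end Block

section Sigma

theorem charpoly_funLeft_sigmaCongrRight (R : Type*) [CommRing R] {ι : Type*} [Fintype ι]
    {X : ι → Type*} [∀ i, Finite (X i)] (σ : ∀ i, Equiv.Perm (X i)) :
    (LinearMap.funLeft R R (Equiv.sigmaCongrRight σ)).charpoly =
      ∏ i, (LinearMap.funLeft R R (σ i)).charpoly := by
  classical
  have : ∀ i, Fintype (X i) := fun i => Fintype.ofFinite (X i)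
  rw [charpoly_funLeft, permMat_sigmaCongrRight, charpoly_blockDiagonal'_ECD1, Polynomial.map_prod]
  refine Finset.prod_congr rfl fun i _ => ?_
  rw [charpoly_funLeft]

end Sigma

end Fermat.Agent.TW.EC
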