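/-
TW (S56) — helper6 — tame inertia is pro-cyclic: for a valuation subring `P` of `ℚ̄` over `q`, the
image of the inertia group `I_P` under a homomorphism `f` factoring through a finite level, all of
whose values on `I_P` have order prime to `q`, is cyclic (`exists_generator_of_inertia`).
-/
import Mathlib
import Fermat.Agent.EC.Conjugacy_helper5

set_option autoImplicit false
set_option linter.unusedSectionVars false
set_option linter.style.haveILetI false

noncomputable section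

namespace Fermat.Agent.TW

open Fermat.Agent.CFT.S14 Fermat.Agent.Tate Fermat.Agent.EC IsLocalRing

section OneUnits

variable {P : ValuationSubring Qbar}

/-- `u ≡ 1` modulo the maximal ideal of `P`. -/
def IsOneUnitAt (P : ValuationSubring Qbar) (u : Qbar) : Prop := P.valuation (u - 1) < 1

theorem IsOneUnitAt.valuation_eq_one {u : Qbar} (h : IsOneUnitAt P u) : P.valuation u = 1 := by
  have h1 : u = 1 + (u - 1) := by ring
  rw [h1, Valuation.map_add_eq_of_lt_left]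
  · exact map_one _
  · rw [map_one]; exact h

theorem isOneUnitAt_one : IsOneUnitAt P 1 := by
  unfold IsOneUnitAt
  rw [sub_self, map_zero]
  exact zero_lt_one

theorem IsOneUnitAt.mul {u u' : Qbar} (h : IsOneUnitAt P u) (h' : IsOneUnitAt P u') :
    IsOneUnitAt P (u * u') := by
  unfold IsOneUnitAt at *
  have e : u * u' - 1 = u * (u' - 1) + (u - 1) := by ring
  rw [e]
  refine lt_of_le_of_lt (Valuation.map_add _ _ _) (max_lt ?_ h)
  rw [map_mul, IsOneUnitAt.valuation_eq_one (P := P) (u := u) h, one_mul]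
  exact h'

theorem IsOneUnitAt.ne_zero {u : Qbar} (h : IsOneUnitAt P u) : u ≠ 0 := by
  intro h0
  have := h.valuation_eq_one
  rw [h0, map_zero] at this
  exact zero_ne_one this

theorem IsOneUnitAt.inv {u : Qbar} (h : IsOneUnitAt P u) : IsOneUnitAt P u⁻¹ := by
  have hu := h.valuation_eq_one
  have hu0 := h.ne_zero
  unfold IsOneUnitAt at *
  have e : u⁻¹ - 1 = -(u - 1) * u⁻¹ := by field_simp; ring
  rw [e, map_mul, map_inv₀, hu, inv_one, mul_one, Valuation.map_neg]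
  exact h

theorem IsOneUnitAt.pow {u : Qbar} (h : IsOneUnitAt P u) (n : ℕ) : IsOneUnitAt P (u ^ n) := by
  induction n with
  | zero => rw [pow_zero]; exact isOneUnitAt_one
  | succ n ih => rw [pow_succ]; exact ih.mul h

theorem IsOneUnitAt.zpow {u : Qbar} (h : IsOneUnitAt P u) (n : ℤ) : IsOneUnitAt P (u ^ n) := by
  cases n with
  | ofNat n => rw [Int.ofNat_eq_natCast, zpow_natCast]; exact h.pow n
  | negSucc n => rw [zpow_negSucc]; exact (h.pow (n + 1)).inv

end OneUnits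

section Inertia

variable {P : ValuationSubring Qbar} {q : ℕ}

theorem isOneUnitAt_map_div_of_unit {σ : GQ} (hσ : σ ∈ P.inertiaSubgroupIn ℚ) {u : Qbar}
    (hu : P.valuation u = 1) : IsOneUnitAt P (σ u / u) := by
  have huP : u ∈ P := (P.valuation_le_one_iff u).mp hu.le
  have h := (inertia_map_mem_and_sub_mem hσ huP).2
  rw [P.mem_nonunits_iff] at h
  have hu0 : u ≠ 0 := by
    intro h0; rw [h0, map_zero] at hu; exact zero_ne_one hu
  unfold IsOneUnitAt
  have e : σ u / u - 1 = (σ u - u) / u := by field_simp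
  rw [e, map_div₀, hu, div_one]
  exact h

theorem map_mem_of_normal (F : IntermediateField ℚ Qbar) [Normal ℚ F] (σ : GQ) {x : Qbar}
    (hx : x ∈ F) : σ x ∈ F := by
  have h := AlgEquiv.restrictNormal_commutes σ F ⟨x, hx⟩
  have h' : σ x = ((σ.restrictNormal F ⟨x, hx⟩ : F) : Qbar) := h.symm
  rw [h']
  exact (σ.restrictNormal F ⟨x, hx⟩).2

theorem pow_map_mem_of_normal (F : IntermediateField ℚ Qbar) [Normal ℚ F] (σ : GQ) (i : ℕ)
    {x : Qbar} (hx : x ∈ F) : (σ ^ i) x ∈ F := map_mem_of_normal F (σ ^ i) hx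

/-- **Wild inertia is a pro-`q` group** (key step): an automorphism which moves every nonzero
element of `F` by a one-unit, and a prime-to-`q` power of which fixes `F`, fixes `F`. -/
theorem map_eq_of_pow_map_eq (hq : q.Prime) (hP : P.LiesOverPrime q)
    (F : IntermediateField ℚ Qbar) [Normal ℚ F] {σ : GQ}
    (hone : ∀ i : ℕ, ∀ y ∈ F, y ≠ 0 → IsOneUnitAt P ((σ ^ i) y / y))
    {m : ℕ} (hm : ¬ q ∣ m) (hσm : ∀ x ∈ F, (σ ^ m) x = x) : ∀ x ∈ F, σ x = x := by
  intro x hx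
  by_contra hne
  set y := σ x - x with hy
  have hy0 : y ≠ 0 := sub_ne_zero.mpr hne
  have hyF : y ∈ F := F.sub_mem (map_mem_of_normal F σ hx) hx
  -- telescoping sum
  have htel : ∑ i ∈ Finset.range m, (σ ^ i) y = (σ ^ m) x - x := by
    have h1 : ∀ i : ℕ, (σ ^ i) y = (σ ^ (i + 1)) x - (σ ^ i) x := by
      intro i
      rw [hy, map_sub, pow_succ]
      rfl
    simp only [h1]
    rw [Finset.sum_range_sub (fun i => (σ ^ i) x), pow_zero]
    rfl
  rw [hσm x hx, sub_self] at htel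
  have hsum : ∑ i ∈ Finset.range m, (σ ^ i) y =
      y * ((m : Qbar) + ∑ i ∈ Finset.range m, ((σ ^ i) y / y - 1)) := by
    rw [Finset.sum_sub_distrib, Finset.sum_const, Finset.card_range, nsmul_eq_mul, mul_one,
      add_sub_cancel, Finset.mul_sum]
    refine Finset.sum_congr rfl fun i _ => ?_
    field_simp
  rw [hsum] at htel
  have h2 : (m : Qbar) + ∑ i ∈ Finset.range m, ((σ ^ i) y / y - 1) = 0 :=
    (mul_eq_zero.mp htel).resolve_left hy0
  have h3 : P.valuation (∑ i ∈ Finset.range m, ((σ ^ i) y / y - 1)) < 1 :=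
    Valuation.map_sum_lt _ one_ne_zero fun i _ => hone i y hyF hy0
  have h4 : P.valuation ((m : ℤ) : Qbar) = 1 :=
    val_intCast_eq_one P hq hP (by exact_mod_cast hm)
  have h5 : (m : Qbar) = -∑ i ∈ Finset.range m, ((σ ^ i) y / y - 1) := eq_neg_of_add_eq_zero_left h2
  rw [Int.cast_natCast, h5, Valuation.map_neg] at h4
  rw [h4] at h3
  exact lt_irrefl _ h3

end Inertia

section ValueGroup

variable {P : ValuationSubring Qbar} {q : ℕ}

theorem logVal_finset_prod (L : LogVal P) {ι : Type*} (s : Finset ι) (f : ι → Qbar)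
    (hf : ∀ i ∈ s, f i ≠ 0) : L.w (∏ i ∈ s, f i) = ∑ i ∈ s, L.w (f i) := by
  classical
  induction s using Finset.induction_on with
  | empty => simp
  | insert a s ha ih =>
    rw [Finset.prod_insert ha, Finset.sum_insert ha,
      L.map_mul (hf a (Finset.mem_insert_self a s))
        (Finset.prod_ne_zero_iff.mpr fun i hi => hf i (Finset.mem_insert_of_mem hi)),
      ih fun i hi => hf i (Finset.mem_insert_of_mem hi)]

/-- The image of the inertia group in the Galois group of a finite normal level. -/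
def inertiaImage (P : ValuationSubring Qbar) (F : IntermediateField ℚ Qbar) [Normal ℚ F] :
    Subgroup (F ≃ₐ[ℚ] F) :=
  (P.inertiaSubgroupIn ℚ).map (AlgEquiv.restrictNormalHom F)

theorem coe_restrictNormalHom_apply (F : IntermediateField ℚ Qbar) [Normal ℚ F] (σ : GQ) (x : F) :
    ((AlgEquiv.restrictNormalHom F σ x : F) : Qbar) = σ (x : Qbar) :=
  AlgEquiv.restrictNormal_commutes σ F x

/-- **The value group of a finite level is discrete**: `N · w(x) ∈ ℤ` for all `x ∈ Fˣ`, where `N`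
is the order of the image of inertia in `Gal(F/ℚ)`. -/
theorem exists_int_eq_card_mul_logVal (hq : q.Prime) (hP : P.LiesOverPrime q) (L : LogVal P)
    (hL : L.w (q : Qbar) = 1) (F : IntermediateField ℚ Qbar) [FiniteDimensional ℚ F]
    [Normal ℚ F] (x : F) (hx : x ≠ 0) :
    ∃ c : ℤ, (Nat.card (inertiaImage P F) : ℚ) * L.w (x : Qbar) = c := by
  classical
  haveI : Fintype (inertiaImage P F) := Fintype.ofFinite _
  set y : Qbar := ∏ g : inertiaImage P F, (((g : F ≃ₐ[ℚ] F) x : F) : Qbar) with hy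
  have hgx : ∀ g : inertiaImage P F, (((g : F ≃ₐ[ℚ] F) x : F) : Qbar) ≠ 0 := by
    intro g h
    apply hx
    have : (g : F ≃ₐ[ℚ] F) x = 0 := Subtype.ext h
    exact (map_eq_zero_iff _ (g : F ≃ₐ[ℚ] F).injective).mp this
  have hy0 : y ≠ 0 := Finset.prod_ne_zero_iff.mpr fun g _ => hgx g
  -- `y` is fixed by inertia
  have hfix : ∀ σ ∈ P.inertiaSubgroupIn ℚ, σ y = y := by
    intro σ hσ
    have hmem : AlgEquiv.restrictNormalHom F σ ∈ inertiaImage P F := ⟨σ, hσ, rfl⟩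
    rw [hy, map_prod]
    refine Fintype.prod_equiv (Equiv.mulLeft (⟨_, hmem⟩ : inertiaImage P F)) _ _ fun g => ?_
    rw [← coe_restrictNormalHom_apply F σ]
    rfl
  -- the valuation of `y`
  have hw : L.w y = (Nat.card (inertiaImage P F) : ℚ) * L.w (x : Qbar) := by
    rw [hy, logVal_finset_prod L _ _ fun g _ => hgx g]
    have h1 : ∀ g : inertiaImage P F, L.w (((g : F ≃ₐ[ℚ] F) x : F) : Qbar) = L.w (x : Qbar) := by
      rintro ⟨g, σ, hσ, rfl⟩
      show L.w ((AlgEquiv.restrictNormalHom F σ x : F) : Qbar) = _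
      rw [coe_restrictNormalHom_apply]
      exact logVal_map_eq_of_mem_decompositionSubgroup L hq hP
        (inertiaSubgroupIn_le_decompositionSubgroup' P hσ)
        (fun h => hx (Subtype.ext h))
    rw [Finset.sum_congr rfl fun g _ => h1 g, Finset.sum_const, Finset.card_univ,
      Nat.card_eq_fintype_card, nsmul_eq_mul]
  obtain ⟨c, hc⟩ := logVal_eq_intCast_of_fixed L hq hP hL y hy0 hfix
  exact ⟨c, by rw [← hw, hc]⟩

end ValueGroup

section TameChar

variable {P : ValuationSubring Qbar} {q : ℕ}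

theorem residue_eq_of_sub_mem {a b : P} (h : ((a : Qbar) - (b : Qbar)) ∈ P.nonunits) :
    residue P a = residue P b := by
  rw [← sub_eq_zero, ← map_sub, residue_eq_zero_iff, P.valuation_lt_one_iff]
  rw [P.mem_nonunits_iff] at h
  exact h

theorem map_div_mem (hq : q.Prime) (hP : P.LiesOverPrime q) (ϖ : Qbar) {σ : GQ}
    (hσ : σ ∈ P.inertiaSubgroupIn ℚ) : σ ϖ / ϖ ∈ P := by
  rw [← P.valuation_le_one_iff, map_div₀,
    valuation_map_eq_of_mem_decompositionSubgroup hq hP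
      (inertiaSubgroupIn_le_decompositionSubgroup' P hσ)]
  exact div_self_le_one _

/-- The tame character `σ ↦ σ ϖ / ϖ mod 𝔪_P` of the inertia group. -/
def tameChar (hq : q.Prime) (hP : P.LiesOverPrime q) (ϖ : Qbar) (hϖ : ϖ ≠ 0) :
    (P.inertiaSubgroupIn ℚ) →* ResidueField P where
  toFun σ := residue P ⟨(σ : GQ) ϖ / ϖ, map_div_mem hq hP ϖ σ.2⟩
  map_one' := by
    have : (⟨((1 : P.inertiaSubgroupIn ℚ) : GQ) ϖ / ϖ, map_div_mem hq hP ϖ
        (1 : P.inertiaSubgroupIn ℚ).2⟩ : P) = 1 := by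
      apply Subtype.ext
      show (1 : GQ) ϖ / ϖ = 1
      rw [AlgEquiv.one_apply, div_self hϖ]
    rw [this, map_one]
  map_mul' σ τ := by
    rw [← map_mul]
    apply residue_eq_of_sub_mem
    show ((σ : GQ) * (τ : GQ)) ϖ / ϖ - ((σ : GQ) ϖ / ϖ) * ((τ : GQ) ϖ / ϖ) ∈ P.nonunits
    have hτmem := map_div_mem hq hP ϖ τ.2
    have h1 := (inertia_map_mem_and_sub_mem σ.2 hτmem).2
    have hσϖ : (σ : GQ) ϖ ≠ 0 := (map_ne_zero _).mpr hϖ
    have e : ((σ : GQ) * (τ : GQ)) ϖ / ϖ - ((σ : GQ) ϖ / ϖ) * ((τ : GQ) ϖ / ϖ) =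
        ((σ : GQ) ϖ / ϖ) * ((σ : GQ) ((τ : GQ) ϖ / ϖ) - (τ : GQ) ϖ / ϖ) := by
      rw [AlgEquiv.mul_apply, map_div₀]
      field_simp
    rw [e]
    rw [P.mem_nonunits_iff] at h1 ⊢
    rw [map_mul]
    have h2 : P.valuation ((σ : GQ) ϖ / ϖ) ≤ 1 :=
      (P.valuation_le_one_iff _).mpr (map_div_mem hq hP ϖ σ.2)
    rw [mul_comm]
    exact mul_lt_one_of_lt_of_le h1 h2

theorem tameChar_eq_one_iff (hq : q.Prime) (hP : P.LiesOverPrime q) (ϖ : Qbar) (hϖ : ϖ ≠ 0)
    (σ : P.inertiaSubgroupIn ℚ) :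
    tameChar hq hP ϖ hϖ σ = 1 ↔ IsOneUnitAt P ((σ : GQ) ϖ / ϖ) := by
  show residue P ⟨(σ : GQ) ϖ / ϖ, map_div_mem hq hP ϖ σ.2⟩ = 1 ↔ _
  rw [← sub_eq_zero, ← map_one (residue P), ← map_sub, residue_eq_zero_iff,
    P.valuation_lt_one_iff]
  rfl

theorem tameChar_pow_eq_one (hq : q.Prime) (hP : P.LiesOverPrime q) (ϖ : Qbar) (hϖ : ϖ ≠ 0)
    {N : ℕ} (hN : ϖ ^ N = (q : Qbar)) (σ : P.inertiaSubgroupIn ℚ) :
    tameChar hq hP ϖ hϖ σ ^ N = 1 := by
  show (residue P ⟨(σ : GQ) ϖ / ϖ, map_div_mem hq hP ϖ σ.2⟩) ^ N = 1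
  rw [← map_pow]
  have : (⟨(σ : GQ) ϖ / ϖ, map_div_mem hq hP ϖ σ.2⟩ : P) ^ N = 1 := by
    apply Subtype.ext
    show ((σ : GQ) ϖ / ϖ) ^ N = 1
    rw [div_pow, ← map_pow, hN, map_natCast, div_self]
    exact_mod_cast hq.ne_zero
  rw [this, map_one]

end TameChar

section Main

variable {P : ValuationSubring Qbar} {q : ℕ}

theorem zpow_eq_pow_toNat_emod {G : Type*} [Group G] {g : G} {N : ℕ} (hN : N ≠ 0)
    (hg : g ^ N = 1) (n : ℤ) : g ^ n = g ^ (n % (N : ℤ)).toNat := by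
  have hN0 : (N : ℤ) ≠ 0 := by exact_mod_cast hN
  have hnn : 0 ≤ n % (N : ℤ) := Int.emod_nonneg n hN0
  have hgN : g ^ (N : ℤ) = 1 := by rw [zpow_natCast]; exact hg
  conv_lhs => rw [← Int.emod_add_mul_ediv n (N : ℤ), zpow_add, zpow_mul, hgN, one_zpow, mul_one]
  conv_lhs => rw [← Int.toNat_of_nonneg hnn, zpow_natCast]

/-- Elements of the kernel of the tame character (for `ϖ ^ N = q`, `N` the order of the image of
inertia in `Gal(F/ℚ)`) move the nonzero elements of `F` by one-units. -/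
theorem isOneUnitAt_map_div_of_tameChar_eq_one (hq : q.Prime) (hP : P.LiesOverPrime q)
    (L : LogVal P) (hL : L.w (q : Qbar) = 1) (F : IntermediateField ℚ Qbar)
    [FiniteDimensional ℚ F] [Normal ℚ F] (ϖ : Qbar) (hϖ : ϖ ≠ 0)
    (hN : ϖ ^ Nat.card (inertiaImage P F) = (q : Qbar)) (σ : P.inertiaSubgroupIn ℚ)
    (hσ : tameChar hq hP ϖ hϖ σ = 1) {x : Qbar} (hxF : x ∈ F) (hx : x ≠ 0) :
    IsOneUnitAt P ((σ : GQ) x / x) := by
  set N := Nat.card (inertiaImage P F) with hNdef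
  have hNpos : 0 < N := Nat.card_pos
  have hN0 : (N : ℚ) ≠ 0 := by exact_mod_cast hNpos.ne'
  obtain ⟨c, hc⟩ := exists_int_eq_card_mul_logVal hq hP L hL F ⟨x, hxF⟩
    (fun h => hx (congrArg Subtype.val h))
  have hwϖ : (N : ℚ) * L.w ϖ = 1 := by
    rw [← L.map_pow hϖ, hN, hL]
  set u := x / ϖ ^ c with hu
  have hϖc : ϖ ^ c ≠ 0 := zpow_ne_zero c hϖ
  have hu0 : u ≠ 0 := div_ne_zero hx hϖc
  have hwu : L.w u = 0 := by
    rw [hu, L.map_div hx hϖc, L.map_zpow hϖ]
    have h1 : L.w (x : Qbar) = c / N := by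
      rw [eq_div_iff hN0, mul_comm]; exact hc
    have h2 : L.w ϖ = 1 / N := by
      rw [eq_div_iff hN0, mul_comm]; exact hwϖ
    rw [h1, h2]; ring
  obtain ⟨huP, huP'⟩ := (L.eq_zero_iff hu0).mp hwu
  have hvu : P.valuation u = 1 := by
    refine le_antisymm ((P.valuation_le_one_iff u).mpr huP) ?_
    have h1 : P.valuation u⁻¹ ≤ 1 := (P.valuation_le_one_iff _).mpr huP'
    rw [map_inv₀] at h1
    exact (inv_le_one₀ (zero_lt_iff.mpr ((Valuation.ne_zero_iff _).mpr hu0))).mp h1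
  have hx' : x = u * ϖ ^ c := by rw [hu, div_mul_cancel₀ _ hϖc]
  have e : (σ : GQ) x / x = ((σ : GQ) u / u) * ((σ : GQ) ϖ / ϖ) ^ c := by
    conv_lhs => rw [hx']
    rw [map_mul, map_zpow₀, div_zpow]
    field_simp
  rw [e]
  exact (isOneUnitAt_map_div_of_unit σ.2 hvu).mul
    (((tameChar_eq_one_iff hq hP ϖ hϖ σ).mp hσ).zpow c)

/-- **Tame inertia is pro-cyclic.**  Let `f` be a homomorphism from `G_ℚ` to a monoid which is
trivial on the automorphisms fixing the finite normal extension `F`, and such that every `f σ`,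
`σ ∈ I_P`, is killed by a power prime to the residue characteristic `q`.  Then `f(I_P)` is
generated by one element. -/
theorem exists_generator_of_inertia (hq : q.Prime) (hP : P.LiesOverPrime q) {M : Type*}
    [Monoid M] (f : GQ →* M) (F : IntermediateField ℚ Qbar) [FiniteDimensional ℚ F]
    [Normal ℚ F] (hF : ∀ σ : GQ, (∀ x ∈ F, σ x = x) → f σ = 1)
    (hcop : ∀ σ ∈ P.inertiaSubgroupIn ℚ, ∃ m : ℕ, m.Coprime q ∧ f σ ^ m = 1) :
    ∃ τ₀ ∈ P.inertiaSubgroupIn ℚ, ∀ τ ∈ P.inertiaSubgroupIn ℚ, ∃ n : ℕ, f τ = f τ₀ ^ n := by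
  classical
  obtain ⟨L, hL⟩ := exists_logVal P hq hP
  set N := Nat.card (inertiaImage P F) with hNdef
  have hNpos : 0 < N := Nat.card_pos
  haveI : NeZero N := ⟨hNpos.ne'⟩
  obtain ⟨ϖ, hϖN⟩ := IsAlgClosed.exists_pow_nat_eq (q : Qbar) hNpos
  have hq0 : (q : Qbar) ≠ 0 := by exact_mod_cast hq.ne_zero
  have hϖ : ϖ ≠ 0 := by
    rintro rfl
    rw [zero_pow hNpos.ne'] at hϖN
    exact hq0 hϖN.symm
  -- the tame character, with values in the `N`-th roots of unity of the residue field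
  set ϑ : (P.inertiaSubgroupIn ℚ) →* (ResidueField P)ˣ := (tameChar hq hP ϖ hϖ).toHomUnits with hϑ
  have hϑ1 : ∀ σ, ϑ σ = 1 ↔ tameChar hq hP ϖ hϖ σ = 1 := by
    intro σ
    rw [← Units.val_inj]
    rfl
  have hϑmem : ∀ σ, ϑ σ ∈ rootsOfUnity N (ResidueField P) := by
    intro σ
    rw [mem_rootsOfUnity, ← Units.val_inj, Units.val_pow_eq_pow_val]
    exact tameChar_pow_eq_one hq hP ϖ hϖ hϖN σ
  set ϑ' : (P.inertiaSubgroupIn ℚ) →* rootsOfUnity N (ResidueField P) :=
    ϑ.codRestrict _ hϑmem with hϑ'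
  haveI : IsCyclic (rootsOfUnity N (ResidueField P)) := rootsOfUnity.isCyclic _ N
  obtain ⟨⟨g, τ₀, rfl⟩, hg⟩ := IsCyclic.exists_generator (α := ϑ'.range)
  have hτ₀N : ϑ' τ₀ ^ N = 1 := by
    apply Subtype.ext
    have := (mem_rootsOfUnity N _).mp (ϑ' τ₀).2
    simpa using this
  -- the kernel of `ϑ` acts trivially through `f`
  have hker : ∀ w : P.inertiaSubgroupIn ℚ, ϑ w = 1 → f (w : GQ) = 1 := by
    intro w hw
    -- order of the image of `w` in `Gal(F/ℚ)`
    set d := orderOf (AlgEquiv.restrictNormalHom F (w : GQ)) with hd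
    have hd0 : d ≠ 0 := (orderOf_pos _).ne'
    obtain ⟨a, m, hm, hdm⟩ := Nat.exists_eq_pow_mul_and_not_dvd hd0 q hq.ne_one
    set w' : P.inertiaSubgroupIn ℚ := w ^ q ^ a with hw'
    have hw'1 : ∀ i : ℕ, tameChar hq hP ϖ hϖ (w' ^ i) = 1 := by
      intro i
      rw [← hϑ1, map_pow, hw', map_pow, hw, one_pow, one_pow]
    have hone : ∀ i : ℕ, ∀ y ∈ F, y ≠ 0 → IsOneUnitAt P (((w' : GQ) ^ i) y / y) := by
      intro i y hy hy0
      have := isOneUnitAt_map_div_of_tameChar_eq_one hq hP L hL F ϖ hϖ hϖN (w' ^ i) (hw'1 i) hy hy0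
      simpa using this
    have hfix : ∀ x ∈ F, ((w' : GQ) ^ m) x = x := by
      intro x hx
      have h1 : AlgEquiv.restrictNormalHom F ((w' : GQ) ^ m) = 1 := by
        rw [hw']
        simp only [SubgroupClass.coe_pow]
        rw [← pow_mul, map_pow, ← hdm]
        exact pow_orderOf_eq_one _
      have h2 := coe_restrictNormalHom_apply F ((w' : GQ) ^ m) ⟨x, hx⟩
      rw [h1] at h2
      exact h2.symm
    have h3 := map_eq_of_pow_map_eq hq hP F hone hm hfix
    have h4 : f (w' : GQ) = 1 := hF _ h3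
    have h5 : f (w : GQ) ^ q ^ a = 1 := by
      rw [← map_pow]
      have : ((w : GQ) ^ q ^ a) = (w' : GQ) := by rw [hw']; simp
      rw [this, h4]
    obtain ⟨m', hm', h6⟩ := hcop w w.2
    have hcop' : Nat.Coprime (q ^ a) m' := (Nat.Coprime.pow_left a hm'.symm)
    have h7 := (pow_gcd_eq_one (a := f (w : GQ)) (m := q ^ a) (n := m')).mpr ⟨h5, h6⟩
    rw [hcop'.gcd_eq_one, pow_one] at h7
    exact h7
  refine ⟨τ₀, τ₀.2, fun τ hτ => ?_⟩
  obtain ⟨n, hn⟩ := Subgroup.mem_zpowers_iff.mp (hg ⟨ϑ' ⟨τ, hτ⟩, ⟨τ, hτ⟩, rfl⟩)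
  have hn' : ϑ' τ₀ ^ n = ϑ' ⟨τ, hτ⟩ := by
    have := congrArg Subtype.val hn
    simpa using this
  rw [zpow_eq_pow_toNat_emod hNpos.ne' hτ₀N] at hn'
  set n' := (n % (N : ℤ)).toNat with hn'def
  refine ⟨n', ?_⟩
  set w : P.inertiaSubgroupIn ℚ := (τ₀ ^ n')⁻¹ * ⟨τ, hτ⟩ with hw
  have hw1 : ϑ w = 1 := by
    have : ϑ' w = 1 := by
      rw [hw, map_mul, map_inv, map_pow, hn', inv_mul_cancel]
    have h2 := congrArg Subtype.val this
    simpa [hϑ'] using h2
  have hfw := hker w hw1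
  have hτeq : τ = (τ₀ : GQ) ^ n' * (w : GQ) := by
    rw [hw]
    simp
  rw [hτeq, map_mul, hfw, mul_one, map_pow]

end Main

end Fermat.Agent.TW
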