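/-
TW (S56) — helper6 — the Prelude's flatness condition `GaloisRepAdic.IsFlatAt`, repackaged as a
property of abstract Galois modules.

`IsFlatGaloisModule p M act`: the abelian group `M` with the action `act` of `Gal(ℚ̄/ℚ)` is,
Galois-equivariantly, the group of `ℚ̄`-points of a finite flat cocommutative Hopf algebra over
`ℤ_(p)`.  Then `ρ.IsFlatAt p` says that all finite quotients `V / I V` are flat Galois modules
(`isFlatAt_iff`), and flatness of Galois modules is invariant under equivariant additive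
isomorphisms (`IsFlatGaloisModule.of_equiv`).
-/
import Mathlib
import Fermat.Prelude.Def_GaloisRep_Flat

set_option autoImplicit false
set_option linter.unusedSectionVars false

noncomputable section

namespace Fermat.Agent.TW

open IsLocalRing GaloisRepAdic

/-- `M` with the action `act` of the absolute Galois group is the group of `ℚ̄`-points of a finite
flat cocommutative Hopf algebra over `ℤ_(p)` (Galois acting through the coefficients). -/
def IsFlatGaloisModule (p : ℕ) (M : Type) [AddCommGroup M]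
    (act : (AlgebraicClosure ℚ ≃ₐ[ℚ] AlgebraicClosure ℚ) → M → M) : Prop :=
  ∃ (H : Type) (_ : CommRing H) (_ : HopfAlgebra (GaloisRep.ratLocalizedAt p) H),
    Module.Finite (GaloisRep.ratLocalizedAt p) H ∧
    Module.Flat (GaloisRep.ratLocalizedAt p) H ∧
    Coalgebra.IsCocomm (GaloisRep.ratLocalizedAt p) H ∧
    ∃ e : WithConv (H →ₐ[GaloisRep.ratLocalizedAt p] AlgebraicClosure ℚ) ≃ M,
      (∀ f g : WithConv (H →ₐ[GaloisRep.ratLocalizedAt p] AlgebraicClosure ℚ),
        e (f * g) = e f + e g) ∧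
      ∀ (σ : AlgebraicClosure ℚ ≃ₐ[ℚ] AlgebraicClosure ℚ)
        (f g : WithConv (H →ₐ[GaloisRep.ratLocalizedAt p] AlgebraicClosure ℚ)),
        (∀ h : H, g h = σ (f h)) → e g = act σ (e f)

theorem isFlatAt_iff {A : Type} [CommRing A] [IsLocalRing A] (ρ : GaloisRepAdic A) (p : ℕ) :
    ρ.IsFlatAt p ↔ Finite (ResidueField A) ∧ ∀ I : Ideal A, Finite (A ⧸ I) →
      IsFlatGaloisModule p (ρ.V ⧸ (I • (⊤ : Submodule A ρ.V))) (fun σ => ρ.levelAction I σ) :=
  Iff.rfl

/-- Flatness is invariant under equivariant additive isomorphisms. -/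
theorem IsFlatGaloisModule.of_equiv {p : ℕ} {M M' : Type} [AddCommGroup M] [AddCommGroup M']
    {act : (AlgebraicClosure ℚ ≃ₐ[ℚ] AlgebraicClosure ℚ) → M → M}
    {act' : (AlgebraicClosure ℚ ≃ₐ[ℚ] AlgebraicClosure ℚ) → M' → M'}
    (φ : M ≃+ M') (hφ : ∀ σ x, φ (act σ x) = act' σ (φ x))
    (h : IsFlatGaloisModule p M act) : IsFlatGaloisModule p M' act' := by
  obtain ⟨H, i1, i2, h1, h2, h3, e, he1, he2⟩ := h
  refine ⟨H, i1, i2, h1, h2, h3, e.trans φ.toEquiv, fun f g => ?_, fun σ f g hfg => ?_⟩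
  · show φ (e (f * g)) = φ (e f) + φ (e g)
    rw [he1, map_add]
  · show φ (e g) = act' σ (φ (e f))
    rw [he2 σ f g hfg, hφ]

end Fermat.Agent.TW
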