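/-
TW (S56) — helper6 — (A4, part 1) the local conditions of S56 are invariant under equivalence of
`GaloisRepAdic`s.
-/
import Mathlib
import Fermat.Prelude.Def_GaloisRep_LocalConditions
import Fermat.Prelude.Def_GaloisRep_StrictOrdinary
import Fermat.Prelude.Def_GaloisRep_Flat
import Fermat.Agent.TW.FlatModule_helper6

set_option autoImplicit false
set_option linter.unusedSectionVars false

noncomputable section

namespace Fermat.Agent.TW

open IsLocalRing GaloisRepAdic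

section Equiv

variable {A : Type} [CommRing A] [IsLocalRing A] {ρ ρ' : GaloisRepAdic A}

/-- Under an equivalence the actions are conjugate. -/
theorem equiv_ρ_eq_conj (e : GaloisRepAdic.Equiv ρ ρ')
    (σ : AlgebraicClosure ℚ ≃ₐ[ℚ] AlgebraicClosure ℚ) :
    ρ'.ρ σ = e.toLinearEquiv.conj (ρ.ρ σ) := by
  apply LinearMap.ext
  intro x
  rw [LinearEquiv.conj_apply]
  simp only [LinearMap.comp_apply, LinearEquiv.coe_coe]
  rw [e.map_apply, LinearEquiv.apply_symm_apply]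

theorem det_eq_of_equiv (e : GaloisRepAdic.Equiv ρ ρ')
    (σ : AlgebraicClosure ℚ ≃ₐ[ℚ] AlgebraicClosure ℚ) :
    LinearMap.det (ρ'.ρ σ) = LinearMap.det (ρ.ρ σ) := by
  rw [equiv_ρ_eq_conj e σ, LinearEquiv.conj_apply, LinearMap.comp_assoc, LinearMap.det_conj]

theorem charpoly_eq_of_equiv (e : GaloisRepAdic.Equiv ρ ρ')
    (σ : AlgebraicClosure ℚ ≃ₐ[ℚ] AlgebraicClosure ℚ) :
    LinearMap.charpoly (ρ'.ρ σ) = LinearMap.charpoly (ρ.ρ σ) := by
  rw [equiv_ρ_eq_conj e σ, LinearEquiv.charpoly_conj]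

theorem detIsCyclotomic_of_equiv (e : GaloisRepAdic.Equiv ρ ρ') {p : ℕ}
    (h : ρ.DetIsCyclotomic p) : ρ'.DetIsCyclotomic p :=
  ⟨h.1, fun n σ a ha => by rw [det_eq_of_equiv e σ]; exact h.2 n σ a ha⟩

theorem isUnramifiedAt_of_equiv (e : GaloisRepAdic.Equiv ρ ρ') {q : ℕ}
    (h : ρ.IsUnramifiedAt q) : ρ'.IsUnramifiedAt q := by
  intro P hP σ hσ
  rw [equiv_ρ_eq_conj e σ, h P hP σ hσ]
  apply LinearMap.ext
  intro x
  rw [LinearEquiv.conj_apply]
  simp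

theorem isUnipotentOnInertiaAt_of_equiv (e : GaloisRepAdic.Equiv ρ ρ') {q : ℕ}
    (h : ρ.IsUnipotentOnInertiaAt q) : ρ'.IsUnipotentOnInertiaAt q := by
  intro P hP σ hσ
  rw [charpoly_eq_of_equiv e σ]
  exact h P hP σ hσ

theorem isStrictOrdinaryAt_of_equiv (e : GaloisRepAdic.Equiv ρ ρ') {p : ℕ}
    (h : ρ.IsStrictOrdinaryAt p) : ρ'.IsStrictOrdinaryAt p := by
  refine ⟨h.1, fun P hP => ?_⟩
  obtain ⟨L, ⟨b, hb⟩, hD, hI, hchar⟩ := h.2 P hP
  have hconj : ∀ σ (y : ρ'.V), ρ'.ρ σ y = e.toLinearEquiv (ρ.ρ σ (e.toLinearEquiv.symm y)) := by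
    intro σ y
    rw [e.map_apply, LinearEquiv.apply_symm_apply]
  have hmem : ∀ y : ρ'.V, y ∈ L.map (e.toLinearEquiv : ρ.V →ₗ[A] ρ'.V) ↔
      e.toLinearEquiv.symm y ∈ L := by
    intro y
    constructor
    · rintro ⟨x, hx, rfl⟩
      simpa using hx
    · intro hy
      exact ⟨_, hy, by simp⟩
  refine ⟨L.map (e.toLinearEquiv : ρ.V →ₗ[A] ρ'.V), ⟨b.map e.toLinearEquiv, ?_⟩, ?_, ?_, ?_⟩
  · rw [hb, Submodule.map_span, Set.image_singleton]
    simp
  · intro σ hσ v hv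
    rw [hmem] at hv ⊢
    rw [hconj, LinearEquiv.symm_apply_apply]
    exact hD σ hσ _ hv
  · intro σ hσ v
    rw [hmem, hconj, map_sub, LinearEquiv.symm_apply_apply]
    exact hI σ hσ _
  · intro σ hσ
    obtain ⟨x, z, h1, h2, h3⟩ := hchar σ hσ
    refine ⟨x, z, ?_, ?_, h3⟩
    · intro w hw
      rw [hmem] at hw
      rw [hconj, h1 _ hw, map_smul, LinearEquiv.apply_symm_apply]
    · intro v
      rw [hmem, hconj, map_sub, LinearEquiv.symm_apply_apply, map_smul]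
      exact h2 _

/-- The reduction `V / I V ≃ V' / I V'` induced by an equivalence. -/
def quotEquivOfEquiv (e : GaloisRepAdic.Equiv ρ ρ') (I : Ideal A) :
    (ρ.V ⧸ (I • (⊤ : Submodule A ρ.V))) ≃ₗ[A] (ρ'.V ⧸ (I • (⊤ : Submodule A ρ'.V))) :=
  Submodule.Quotient.equiv _ _ e.toLinearEquiv (by
    rw [Submodule.map_smul'']
    congr 1
    rw [Submodule.map_top]
    exact LinearMap.range_eq_top.mpr e.toLinearEquiv.surjective)

theorem quotEquivOfEquiv_levelAction (e : GaloisRepAdic.Equiv ρ ρ') (I : Ideal A)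
    (σ : AlgebraicClosure ℚ ≃ₐ[ℚ] AlgebraicClosure ℚ) (x : ρ.V ⧸ (I • (⊤ : Submodule A ρ.V))) :
    quotEquivOfEquiv e I (ρ.levelAction I σ x) = ρ'.levelAction I σ (quotEquivOfEquiv e I x) := by
  obtain ⟨v, rfl⟩ := Submodule.Quotient.mk_surjective _ x
  simp only [quotEquivOfEquiv, GaloisRepAdic.levelAction, Submodule.mapQ_apply,
    Submodule.Quotient.equiv_apply]
  exact congrArg _ (e.map_apply σ v)

theorem isFlatAt_of_equiv (e : GaloisRepAdic.Equiv ρ ρ') {p : ℕ}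
    (h : ρ.IsFlatAt p) : ρ'.IsFlatAt p := by
  rw [isFlatAt_iff] at h ⊢
  refine ⟨h.1, fun I hI => ?_⟩
  exact IsFlatGaloisModule.of_equiv (quotEquivOfEquiv e I).toAddEquiv
    (fun σ x => quotEquivOfEquiv_levelAction e I σ x) (h.2 I hI)

end Equiv

section Conditions

variable {𝒪 : Type} [CommRing 𝒪] {A : Type} [CommRing A] [IsLocalRing A] [Algebra 𝒪 A]
  {ρ ρ' : GaloisRepAdic A}

theorem strictOrdinaryCondition_of_equiv (e : GaloisRepAdic.Equiv ρ ρ') {p : ℕ} {S : Finset ℕ}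
    (h : GaloisRep.strictOrdinaryCondition 𝒪 p S ρ) :
    GaloisRep.strictOrdinaryCondition 𝒪 p S ρ' :=
  ⟨detIsCyclotomic_of_equiv e h.1, isStrictOrdinaryAt_of_equiv e h.2.1,
    fun q hq hqS => isUnramifiedAt_of_equiv e (h.2.2 q hq hqS)⟩

theorem flatCondition_of_equiv (e : GaloisRepAdic.Equiv ρ ρ') {p : ℕ} {S : Finset ℕ}
    (h : GaloisRep.flatCondition 𝒪 p S ρ) :
    GaloisRep.flatCondition 𝒪 p S ρ' :=
  ⟨detIsCyclotomic_of_equiv e h.1, isFlatAt_of_equiv e h.2.1,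
    fun q hq hqS => isUnramifiedAt_of_equiv e (h.2.2 q hq hqS)⟩

/-- The strict-ordinary deformation condition of S56 is invariant under equivalence. -/
theorem twStrictOrdinary_of_isEquiv {p : ℕ} {S Smin : Finset ℕ} (he : ρ.IsEquiv ρ')
    (h : GaloisRep.strictOrdinaryCondition 𝒪 p S ρ ∧
      ∀ q ∈ Smin, q.Prime → q ≠ p → ρ.IsUnipotentOnInertiaAt q) :
    GaloisRep.strictOrdinaryCondition 𝒪 p S ρ' ∧
      ∀ q ∈ Smin, q.Prime → q ≠ p → ρ'.IsUnipotentOnInertiaAt q := by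
  obtain ⟨e⟩ := he
  exact ⟨strictOrdinaryCondition_of_equiv e h.1,
    fun q hq hq' hqp => isUnipotentOnInertiaAt_of_equiv e (h.2 q hq hq' hqp)⟩

/-- The flat deformation condition of S56 is invariant under equivalence. -/
theorem twFlat_of_isEquiv {p : ℕ} {S Smin : Finset ℕ} (he : ρ.IsEquiv ρ')
    (h : GaloisRep.flatCondition 𝒪 p S ρ ∧
      ∀ q ∈ Smin, q.Prime → q ≠ p → ρ.IsUnipotentOnInertiaAt q) :
    GaloisRep.flatCondition 𝒪 p S ρ' ∧
      ∀ q ∈ Smin, q.Prime → q ≠ p → ρ'.IsUnipotentOnInertiaAt q := by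
  obtain ⟨e⟩ := he
  exact ⟨flatCondition_of_equiv e h.1,
    fun q hq hq' hqp => isUnipotentOnInertiaAt_of_equiv e (h.2 q hq hq' hqp)⟩

end Conditions

end Fermat.Agent.TW
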