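/-
TW (S56) — helper6 — (A4, part 2) the local conditions of S56 are stable under base change
`ρ ↦ ρ.baseChangeAlong f hf` (flatness: along surjective `f`).
-/
import Mathlib
import Fermat.Prelude.Def_GaloisRep_LocalConditions
import Fermat.Prelude.Def_GaloisRep_StrictOrdinary
import Fermat.Prelude.Def_GaloisRep_Flat
import Fermat.Agent.S53.L0_helper3_Matrix
import Fermat.Agent.TW.FlatModule_helper6
import Fermat.Agent.TW.CondEquiv_helper6

set_option autoImplicit false
set_option linter.unusedSectionVars false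
set_option linter.style.haveILetI false

noncomputable section

namespace Fermat.Agent.TW

open IsLocalRing GaloisRepAdic
open scoped TensorProduct

section Abstract

variable {A B : Type} [CommRing A] [CommRing B] [Algebra A B] {V : Type} [AddCommGroup V]
  [Module A V]

theorem baseChange_mem_of_stable (φ : Module.End A V) (L : Submodule A V)
    (h : ∀ v ∈ L, φ v ∈ L) (w : B ⊗[A] V) (hw : w ∈ L.baseChange B) :
    φ.baseChange B w ∈ L.baseChange B := by
  rw [Submodule.baseChange_eq_span] at hw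
  refine Submodule.span_induction (p := fun w _ => φ.baseChange B w ∈ L.baseChange B)
    ?_ ?_ ?_ ?_ hw
  · rintro _ ⟨l, hl, rfl⟩
    show φ.baseChange B ((1 : B) ⊗ₜ[A] l) ∈ _
    rw [LinearMap.baseChange_tmul]
    exact Submodule.tmul_mem_baseChange_of_mem _ (h l hl)
  · rw [map_zero]; exact Submodule.zero_mem _
  · intro x y _ _ hx hy
    rw [map_add]; exact Submodule.add_mem _ hx hy
  · intro c x _ hx
    rw [map_smul]; exact Submodule.smul_mem _ _ hx

theorem baseChange_eq_smul_of (φ : Module.End A V) (L : Submodule A V) (x : A)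
    (h : ∀ w ∈ L, φ w = x • w) (w : B ⊗[A] V) (hw : w ∈ L.baseChange B) :
    φ.baseChange B w = algebraMap A B x • w := by
  rw [Submodule.baseChange_eq_span] at hw
  refine Submodule.span_induction (p := fun w _ => φ.baseChange B w = algebraMap A B x • w)
    ?_ ?_ ?_ ?_ hw
  · rintro _ ⟨l, hl, rfl⟩
    show φ.baseChange B ((1 : B) ⊗ₜ[A] l) = algebraMap A B x • ((1 : B) ⊗ₜ[A] l)
    rw [LinearMap.baseChange_tmul, h l hl, TensorProduct.tmul_smul, TensorProduct.smul_tmul',
      Algebra.smul_def, mul_one, TensorProduct.smul_tmul', smul_eq_mul, mul_one]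
  · rw [map_zero, smul_zero]
  · intro x' y' _ _ hx' hy'
    rw [map_add, hx', hy', smul_add]
  · intro c x' _ hx'
    rw [map_smul, hx', smul_comm]

theorem baseChange_sub_smul_mem (φ : Module.End A V) (L : Submodule A V) (z : A)
    (h : ∀ v, φ v - z • v ∈ L) (w : B ⊗[A] V) :
    φ.baseChange B w - algebraMap A B z • w ∈ L.baseChange B := by
  induction w using TensorProduct.induction_on with
  | zero => rw [map_zero, smul_zero, sub_zero]; exact Submodule.zero_mem _
  | tmul c v =>
    have : algebraMap A B z • (c ⊗ₜ[A] v) = c ⊗ₜ[A] (z • v) := by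
      rw [TensorProduct.tmul_smul, TensorProduct.smul_tmul', TensorProduct.smul_tmul',
        Algebra.smul_def, Algebra.smul_def]
      rfl
    rw [LinearMap.baseChange_tmul, this, ← TensorProduct.tmul_sub]
    exact Submodule.tmul_mem_baseChange_of_mem _ (h v)
  | add x' y' hx' hy' =>
    rw [map_add, smul_add, add_sub_add_comm]
    exact Submodule.add_mem _ hx' hy'

theorem baseChange_sub_mem (φ : Module.End A V) (L : Submodule A V)
    (h : ∀ v, φ v - v ∈ L) (w : B ⊗[A] V) :
    φ.baseChange B w - w ∈ L.baseChange B := by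
  have := baseChange_sub_smul_mem (B := B) φ L 1 (by simpa using h) w
  simpa using this

theorem baseChange_span_basis_zero (b : Module.Basis (Fin 2) A V) :
    (Submodule.span A {b 0}).baseChange B = Submodule.span B {(b.baseChange B) 0} := by
  rw [Submodule.baseChange_span, Set.image_singleton, Module.Basis.baseChange_apply]
  rfl

end Abstract

section AbstractQuot

variable {A B : Type} [CommRing A] [CommRing B] [Algebra A B] {V : Type} [AddCommGroup V]
  [Module A V]

/-- `v ↦ [1 ⊗ v]`, from `V` to `(B ⊗ V) / I'(B ⊗ V)`. -/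
def tensorQuotMap (I' : Ideal B) :
    V →ₗ[A] ((B ⊗[A] V) ⧸ (I' • (⊤ : Submodule B (B ⊗[A] V)))) :=
  ((I' • (⊤ : Submodule B (B ⊗[A] V))).mkQ.restrictScalars A).comp (TensorProduct.mk A B V 1)

theorem tensorQuotMap_apply (I' : Ideal B) (v : V) :
    tensorQuotMap (A := A) I' v = Submodule.Quotient.mk ((1 : B) ⊗ₜ[A] v) := rfl

theorem tensorQuotMap_surjective (hsurj : Function.Surjective (algebraMap A B)) (I' : Ideal B) :
    Function.Surjective (tensorQuotMap (A := A) (V := V) I') := by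
  intro y
  obtain ⟨w, rfl⟩ := Submodule.Quotient.mk_surjective _ y
  obtain ⟨v, rfl⟩ := TensorProduct.mk_surjective A V B hsurj w
  exact ⟨v, rfl⟩

theorem one_tmul_mem_smul_top_iff {ι : Type} [Fintype ι] (b : Module.Basis ι A V) (I' : Ideal B)
    (v : V) :
    (1 : B) ⊗ₜ[A] v ∈ I' • (⊤ : Submodule B (B ⊗[A] V)) ↔
      v ∈ (I'.comap (algebraMap A B)) • (⊤ : Submodule A V) := by
  rw [Fermat.Agent.S53.mem_smul_top_iff_repr (b.baseChange B),
    Fermat.Agent.S53.mem_smul_top_iff_repr b]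
  refine forall_congr' fun i => ?_
  rw [Module.Basis.baseChange_repr_tmul, Ideal.mem_comap, Algebra.smul_def, mul_one]

theorem ker_tensorQuotMap {ι : Type} [Fintype ι] (b : Module.Basis ι A V) (I' : Ideal B) :
    LinearMap.ker (tensorQuotMap (A := A) (V := V) I') =
      (I'.comap (algebraMap A B)) • (⊤ : Submodule A V) := by
  ext v
  rw [LinearMap.mem_ker, tensorQuotMap_apply, Submodule.Quotient.mk_eq_zero,
    one_tmul_mem_smul_top_iff b]

/-- For surjective `A → B` and `V` free of finite rank: `V / I V ≃ (B ⊗ V) / I' (B ⊗ V)`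
where `I` is the preimage of `I'`. -/
def tensorQuotEquiv {ι : Type} [Fintype ι] (b : Module.Basis ι A V)
    (hsurj : Function.Surjective (algebraMap A B)) (I' : Ideal B) :
    (V ⧸ ((I'.comap (algebraMap A B)) • (⊤ : Submodule A V))) ≃ₗ[A]
      ((B ⊗[A] V) ⧸ (I' • (⊤ : Submodule B (B ⊗[A] V)))) :=
  LinearEquiv.ofBijective
    (Submodule.liftQ _ (tensorQuotMap (A := A) (V := V) I') (ker_tensorQuotMap b I').ge)
    ⟨by
      rw [← LinearMap.ker_eq_bot]
      exact Submodule.ker_liftQ_eq_bot _ _ _ (ker_tensorQuotMap b I').le,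
     by
      rw [← LinearMap.range_eq_top, Submodule.range_liftQ, LinearMap.range_eq_top]
      exact tensorQuotMap_surjective hsurj I'⟩

theorem tensorQuotEquiv_mk {ι : Type} [Fintype ι] (b : Module.Basis ι A V)
    (hsurj : Function.Surjective (algebraMap A B)) (I' : Ideal B) (v : V) :
    tensorQuotEquiv b hsurj I' (Submodule.Quotient.mk v) =
      Submodule.Quotient.mk ((1 : B) ⊗ₜ[A] v) := rfl

end AbstractQuot

section BaseChange

variable {A B : Type} [CommRing A] [IsLocalRing A] [CommRing B] [IsLocalRing B]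
  (f : A →+* B) (hf : IsLocalHom f) (ρ : GaloisRepAdic A)

theorem baseChangeAlong_ρ_tmul (σ : AlgebraicClosure ℚ ≃ₐ[ℚ] AlgebraicClosure ℚ) (b : B)
    (v : ρ.V) :
    letI : Algebra A B := f.toAlgebra
    (ρ.baseChangeAlong f hf).ρ σ (b ⊗ₜ[A] v) = b ⊗ₜ[A] (ρ.ρ σ v) := by
  letI : Algebra A B := f.toAlgebra
  exact LinearMap.baseChange_tmul _ _ _

theorem det_baseChangeAlong (σ : AlgebraicClosure ℚ ≃ₐ[ℚ] AlgebraicClosure ℚ) :
    LinearMap.det ((ρ.baseChangeAlong f hf).ρ σ) = f (LinearMap.det (ρ.ρ σ)) := by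
  letI : Algebra A B := f.toAlgebra
  exact LinearMap.det_baseChange (ρ.ρ σ)

theorem charpoly_baseChangeAlong (σ : AlgebraicClosure ℚ ≃ₐ[ℚ] AlgebraicClosure ℚ) :
    LinearMap.charpoly ((ρ.baseChangeAlong f hf).ρ σ) = (LinearMap.charpoly (ρ.ρ σ)).map f := by
  letI : Algebra A B := f.toAlgebra
  exact LinearMap.charpoly_baseChange (ρ.ρ σ) B

include hf in
theorem natCast_mem_maximalIdeal_of_isLocalHom {p : ℕ} (hp : (p : A) ∈ maximalIdeal A) :
    (p : B) ∈ maximalIdeal B := by
  have : (p : B) = f (p : A) := (map_natCast f p).symm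
  rw [this]
  haveI := hf
  exact map_nonunit f _ hp

theorem map_mem_span_natCast {x : A} {m : ℕ} (hx : x ∈ Ideal.span {((m : ℕ) : A)}) :
    f x ∈ Ideal.span {((m : ℕ) : B)} := by
  rw [Ideal.mem_span_singleton] at hx ⊢
  obtain ⟨c, rfl⟩ := hx
  exact ⟨f c, by rw [map_mul, map_natCast]⟩

theorem detIsCyclotomic_baseChangeAlong {p : ℕ} (h : ρ.DetIsCyclotomic p) :
    (ρ.baseChangeAlong f hf).DetIsCyclotomic p := by
  refine ⟨natCast_mem_maximalIdeal_of_isLocalHom f hf h.1, fun n σ a ha => ?_⟩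
  rw [det_baseChangeAlong]
  have := map_mem_span_natCast f (h.2 n σ a ha)
  rwa [map_sub, map_natCast] at this

theorem isUnramifiedAt_baseChangeAlong {q : ℕ} (h : ρ.IsUnramifiedAt q) :
    (ρ.baseChangeAlong f hf).IsUnramifiedAt q := by
  intro P hP σ hσ
  letI : Algebra A B := f.toAlgebra
  show (ρ.ρ σ).baseChange B = 1
  rw [h P hP σ hσ]
  exact LinearMap.baseChange_one _ _

theorem isUnipotentOnInertiaAt_baseChangeAlong {q : ℕ} (h : ρ.IsUnipotentOnInertiaAt q) :
    (ρ.baseChangeAlong f hf).IsUnipotentOnInertiaAt q := by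
  intro P hP σ hσ
  rw [charpoly_baseChangeAlong, h P hP σ hσ]
  simp

theorem isStrictOrdinaryAt_baseChangeAlong {p : ℕ} (h : ρ.IsStrictOrdinaryAt p) :
    (ρ.baseChangeAlong f hf).IsStrictOrdinaryAt p := by
  refine ⟨natCast_mem_maximalIdeal_of_isLocalHom f hf h.1, fun P hP => ?_⟩
  obtain ⟨L, ⟨b, hb⟩, hD, hI, hchar⟩ := h.2 P hP
  letI : Algebra A B := f.toAlgebra
  refine ⟨(Submodule.baseChange B L : Submodule B (B ⊗[A] ρ.V)),
    ⟨Fermat.Agent.S53.baseChangeBasis f hf ρ b, ?_⟩, ?_, ?_, ?_⟩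
  · rw [hb]
    exact baseChange_span_basis_zero b
  · intro σ hσ v hv
    exact baseChange_mem_of_stable (ρ.ρ σ) L (hD σ hσ) v hv
  · intro σ hσ v
    exact baseChange_sub_mem (ρ.ρ σ) L (hI σ hσ) v
  · intro σ hσ
    obtain ⟨x, z, h1, h2, h3⟩ := hchar σ hσ
    refine ⟨f x, f z, ?_, ?_, ?_⟩
    · intro w hw
      exact baseChange_eq_smul_of (ρ.ρ σ) L x h1 w hw
    · intro v
      exact baseChange_sub_smul_mem (ρ.ρ σ) L z h2 v
    · intro n a ha
      have := map_mem_span_natCast f (h3 n a ha)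
      rwa [map_sub, map_mul, map_natCast] at this

theorem isFlatAt_baseChangeAlong_of_surjective (hsurj : Function.Surjective f) {p : ℕ}
    (h : ρ.IsFlatAt p) : (ρ.baseChangeAlong f hf).IsFlatAt p := by
  rw [isFlatAt_iff] at h ⊢
  letI : Algebra A B := f.toAlgebra
  refine ⟨?_, fun I' hI' => ?_⟩
  · haveI := h.1
    haveI := hf
    refine Finite.of_surjective (IsLocalRing.ResidueField.map f) fun y => ?_
    obtain ⟨b, rfl⟩ := IsLocalRing.residue_surjective y
    obtain ⟨a, rfl⟩ := hsurj b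
    exact ⟨IsLocalRing.residue A a, IsLocalRing.ResidueField.map_residue f a⟩
  · have hfin : Finite (A ⧸ I'.comap f) := by
      haveI := hI'
      exact Finite.of_injective (Ideal.quotientMap I' f le_rfl) Ideal.quotientMap_injective
    have h2 := h.2 (I'.comap f) hfin
    refine IsFlatGaloisModule.of_equiv
      (tensorQuotEquiv (Fermat.Agent.S53.someBasis ρ) hsurj I').toAddEquiv ?_ h2
    intro σ x
    obtain ⟨v, rfl⟩ := Submodule.Quotient.mk_surjective _ x
    show tensorQuotEquiv (Fermat.Agent.S53.someBasis ρ) hsurj I'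
        (Submodule.Quotient.mk (ρ.ρ σ v)) =
      Submodule.Quotient.mk ((ρ.ρ σ).baseChange B ((1 : B) ⊗ₜ[A] v))
    rw [tensorQuotEquiv_mk, LinearMap.baseChange_tmul]

end BaseChange

section Conditions

variable {𝒪 : Type} [CommRing 𝒪] {A B : Type} [CommRing A] [IsLocalRing A] [Algebra 𝒪 A]
  [CommRing B] [IsLocalRing B] [Algebra 𝒪 B] (f : A →+* B) (hf : IsLocalHom f)
  {ρ : GaloisRepAdic A}

/-- The strict-ordinary deformation condition of S56 is stable under base change. -/
theorem twStrictOrdinary_baseChangeAlong {p : ℕ} {S Smin : Finset ℕ}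
    (h : GaloisRep.strictOrdinaryCondition 𝒪 p S ρ ∧
      ∀ q ∈ Smin, q.Prime → q ≠ p → ρ.IsUnipotentOnInertiaAt q) :
    GaloisRep.strictOrdinaryCondition 𝒪 p S (ρ.baseChangeAlong f hf) ∧
      ∀ q ∈ Smin, q.Prime → q ≠ p → (ρ.baseChangeAlong f hf).IsUnipotentOnInertiaAt q :=
  ⟨⟨detIsCyclotomic_baseChangeAlong f hf ρ h.1.1,
      isStrictOrdinaryAt_baseChangeAlong f hf ρ h.1.2.1,
      fun q hq hqS => isUnramifiedAt_baseChangeAlong f hf ρ (h.1.2.2 q hq hqS)⟩,
    fun q hq hq' hqp => isUnipotentOnInertiaAt_baseChangeAlong f hf ρ (h.2 q hq hq' hqp)⟩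

/-- The flat deformation condition of S56 is stable under base change along surjections. -/
theorem twFlat_baseChangeAlong_of_surjective (hsurj : Function.Surjective f) {p : ℕ}
    {S Smin : Finset ℕ}
    (h : GaloisRep.flatCondition 𝒪 p S ρ ∧
      ∀ q ∈ Smin, q.Prime → q ≠ p → ρ.IsUnipotentOnInertiaAt q) :
    GaloisRep.flatCondition 𝒪 p S (ρ.baseChangeAlong f hf) ∧
      ∀ q ∈ Smin, q.Prime → q ≠ p → (ρ.baseChangeAlong f hf).IsUnipotentOnInertiaAt q :=
  ⟨⟨detIsCyclotomic_baseChangeAlong f hf ρ h.1.1,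
      isFlatAt_baseChangeAlong_of_surjective f hf ρ hsurj h.1.2.1,
      fun q hq hqS => isUnramifiedAt_baseChangeAlong f hf ρ (h.1.2.2 q hq hqS)⟩,
    fun q hq hq' hqp => isUnipotentOnInertiaAt_baseChangeAlong f hf ρ (h.2 q hq hq' hqp)⟩

end Conditions

end Fermat.Agent.TW
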