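/-
S56 (Taylor–Wiles) — helper9. THE HUB between the Poitou–Tate engine (Ext groups in `SmRep`) and
explicit cocycles on the abstract groups `G_ℚ`, `G_v`.

* `clsH1 X : Ext (smUnit ℤ 𝒰) X 1 →+ groupCohomology.H1 X.obj` — injective, with image the classes of
  level-constant cocycles, compatible with restriction along continuous homomorphisms and with
  morphisms of coefficients;
* `locCond`: local conditions given as subgroups of Mathlib's `H1` of the abstract local group,
  pulled back to `Ext^1`.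
-/
import Fermat.Agent.CFT.Bridge.LowDeg_helper6
import Fermat.Agent.CFT.Bridge.Scalars_helper6
import Fermat.Agent.CFT.Bridge.Smooth_helper6
import Fermat.Agent.CFT.Sm.Compare_helper9
import Fermat.Agent.CFT.Sm.Compare_helper5_Delta
import Fermat.Prelude.Def_GaloisRep_Residual

set_option autoImplicit false

open CategoryTheory CategoryTheory.Abelian groupCohomology

namespace Fermat.Agent.TW

open Fermat.Agent.CFT.Sm Fermat.Agent.CFT.Bridge Fermat.Agent.CFT.Arith

variable {Γ : Type} [Group Γ] {𝒰 : OpenBasis Γ}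

section ClsH1

/-- **The class map** from the `Ext¹` of the engine to Mathlib's `H¹` of the abstract group. -/
noncomputable def clsH1 (X : SmRep ℤ 𝒰) : Ext (smUnit ℤ 𝒰) X 1 →+ H1 X.obj :=
  (smHToH X 1).toAddMonoidHom.comp (smUnitCompare X 1).toAddMonoidHom

lemma clsH1_apply (X : SmRep ℤ 𝒰) (e : Ext (smUnit ℤ 𝒰) X 1) :
    clsH1 X e = smHToH X 1 (smUnitCompare X 1 e) := rfl

lemma clsH1_injective (X : SmRep ℤ 𝒰) : Function.Injective (clsH1 X) := by
  intro a b h
  exact (smUnitCompare X 1).injective (smHToH_one_injective X h)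

/-- the image of `clsH1`: the classes of level-constant cocycles -/
lemma mem_range_clsH1_iff (X : SmRep ℤ 𝒰) (x : H1 X.obj) :
    x ∈ (clsH1 X).range ↔
      ∃ c : cocycles₁ X.obj, IsLC₁ 𝒰 (c : Γ → X.obj.V) ∧ (H1π X.obj).hom c = x := by
  rw [← mem_range_smHToH_one_iff]
  constructor
  · rintro ⟨e, rfl⟩
    exact ⟨smUnitCompare X 1 e, rfl⟩
  · rintro ⟨y, rfl⟩
    exact ⟨(smUnitCompare X 1).symm y, by rw [clsH1_apply, AddEquiv.apply_symm_apply]⟩

/-- the class of a level-constant cocycle, as an element of `Ext¹(𝟙, X)` -/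
noncomputable def extOfCocycle (X : SmRep ℤ 𝒰) (c : cocycles₁ X.obj)
    (hc : IsLC₁ 𝒰 (c : Γ → X.obj.V)) : Ext (smUnit ℤ 𝒰) X 1 :=
  (smUnitCompare X 1).symm (smHmk X 1 (mkLcCocycle₁ X c hc))

lemma clsH1_extOfCocycle (X : SmRep ℤ 𝒰) (c : cocycles₁ X.obj)
    (hc : IsLC₁ 𝒰 (c : Γ → X.obj.V)) :
    clsH1 X (extOfCocycle X c hc) = (H1π X.obj).hom c := by
  rw [clsH1_apply, extOfCocycle, AddEquiv.apply_symm_apply]
  exact smHToH_one_mk X c hc

variable {Γ' : Type} [Group Γ'] {𝒰' : OpenBasis Γ'} (ψ : Γ' →* Γ) (hψ : 𝒰'.Finer (𝒰.comap ψ))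

/-- **compatibility with restriction** -/
lemma clsH1_res (X : SmRep ℤ 𝒰) (e : Ext (smUnit ℤ 𝒰) X 1) :
    clsH1 ((resSm ℤ ψ hψ).obj X) (extUnitRes ψ hψ X 1 e) =
      (groupCohomology.map ψ (𝟙 (Rep.res ψ X.obj)) 1).hom (clsH1 X e) := by
  rw [clsH1_apply, smUnitCompare_res, clsH1_apply]
  exact smHToH_natural X ψ hψ ((resSm ℤ ψ hψ).obj X) (𝟙 _) 1 _

/-- a local (or global) condition given on Mathlib's `H¹` of the abstract group, pulled back to
`Ext¹(𝟙, X)` -/
noncomputable def locCond (X : SmRep ℤ 𝒰) (𝓛 : AddSubgroup (H1 X.obj)) :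
    AddSubgroup (Ext (smUnit ℤ 𝒰) X 1) :=
  𝓛.comap (clsH1 X)

lemma mem_locCond (X : SmRep ℤ 𝒰) (𝓛 : AddSubgroup (H1 X.obj)) (e : Ext (smUnit ℤ 𝒰) X 1) :
    e ∈ locCond X 𝓛 ↔ clsH1 X e ∈ 𝓛 := Iff.rfl

end ClsH1

section Ad

variable {G : Type} [Group G] {k : Type} [Field k]

/-- trace-zero `2 × 2` matrices -/
def sl2 (k : Type) [Field k] : Submodule k (Matrix (Fin 2) (Fin 2) k) :=
  LinearMap.ker (Matrix.traceLinearMap (Fin 2) k k)

lemma mem_sl2_iff (w : Matrix (Fin 2) (Fin 2) k) : w ∈ sl2 k ↔ w.trace = 0 := Iff.rfl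

lemma conj_mem_sl2 (r : G →* Matrix (Fin 2) (Fin 2) k) (g : G) {w : Matrix (Fin 2) (Fin 2) k}
    (hw : w ∈ sl2 k) : r g * w * r g⁻¹ ∈ sl2 k := by
  rw [mem_sl2_iff] at hw ⊢
  rw [Matrix.trace_mul_comm, ← mul_assoc, ← map_mul, inv_mul_cancel, map_one, one_mul, hw]

/-- the adjoint action on trace-zero matrices -/
noncomputable def adRepresentation (r : G →* Matrix (Fin 2) (Fin 2) k) :
    Representation k G (sl2 k) where
  toFun g :=
    { toFun := fun w => ⟨r g * w.1 * r g⁻¹, conj_mem_sl2 r g w.2⟩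
      map_add' := fun a b => by
        apply Subtype.ext
        change r g * (a.1 + b.1) * r g⁻¹ = r g * a.1 * r g⁻¹ + r g * b.1 * r g⁻¹
        rw [mul_add, add_mul]
      map_smul' := fun c a => by
        apply Subtype.ext
        change r g * (c • a.1) * r g⁻¹ = c • (r g * a.1 * r g⁻¹)
        rw [Matrix.mul_smul, Matrix.smul_mul] }
  map_one' := by
    apply LinearMap.ext
    intro w
    apply Subtype.ext
    change r 1 * w.1 * r 1⁻¹ = w.1
    rw [inv_one, map_one, one_mul, mul_one]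
  map_mul' g h := by
    apply LinearMap.ext
    intro w
    apply Subtype.ext
    change r (g * h) * w.1 * r (g * h)⁻¹ = r g * (r h * w.1 * r h⁻¹) * r g⁻¹
    rw [mul_inv_rev, map_mul, map_mul]
    simp only [mul_assoc]

lemma adRepresentation_apply_coe (r : G →* Matrix (Fin 2) (Fin 2) k) (g : G) (w : sl2 k) :
    ((adRepresentation r g w : sl2 k) : Matrix (Fin 2) (Fin 2) k) = r g * w.1 * r g⁻¹ := rfl

/-- `ad⁰` as a `k`-linear representation -/
noncomputable def adRepK (r : G →* Matrix (Fin 2) (Fin 2) k) : Rep.{0} k G :=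
  Rep.of (adRepresentation r)

/-- `ad⁰` as a `ℤ`-linear representation (same carrier `↥(sl2 k)`) -/
noncomputable def adRep (r : G →* Matrix (Fin 2) (Fin 2) k) : Rep.{0} ℤ G := intRep (adRepK r)

lemma adRep_ρ_apply_coe (r : G →* Matrix (Fin 2) (Fin 2) k) (g : G) (w : sl2 k) :
    ((show sl2 k from ((adRep r).ρ g : (adRep r).V →ₗ[ℤ] (adRep r).V) w) :
      Matrix (Fin 2) (Fin 2) k) = r g * w.1 * r g⁻¹ := rfl

/-- if `r g = 1` then `g` acts trivially on `ad⁰` -/
lemma adRep_ρ_eq_one_of (r : G →* Matrix (Fin 2) (Fin 2) k) (g : G) (hg : r g = 1) :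
    (adRep r).ρ g = 1 := by
  apply LinearMap.ext
  intro w
  apply Subtype.ext
  change r g * (show sl2 k from w).1 * r g⁻¹ = (show sl2 k from w).1
  rw [map_inv_eq_one_of r g hg, hg, one_mul, mul_one]
where
  map_inv_eq_one_of (r : G →* Matrix (Fin 2) (Fin 2) k) (g : G) (hg : r g = 1) : r g⁻¹ = 1 := by
    have h : r g⁻¹ * r g = 1 := by rw [← map_mul, inv_mul_cancel, map_one]
    rwa [hg, mul_one] at h

instance instFiniteSl2 [Finite k] : Finite (sl2 k) := Subtype.finite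

instance instFiniteAdRep [Finite k] (r : G →* Matrix (Fin 2) (Fin 2) k) : Finite (adRep r).V :=
  inferInstanceAs (Finite (sl2 k))

/-- `ad⁰` is killed by the characteristic -/
lemma nsmul_adRep (p : ℕ) [CharP k p] (r : G →* Matrix (Fin 2) (Fin 2) k) (w : (adRep r).V) :
    p • w = 0 := by
  have h : (p : k) • (show sl2 k from w) = 0 := by rw [CharP.cast_eq_zero k p, zero_smul]
  exact (Nat.cast_smul_eq_nsmul k p (show sl2 k from w)).symm.trans h

end Ad

section Arith

variable {k : Type} [Field k]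

/-- `Γ = Gal(ℚ̄/ℚ)`. -/
local notation "GQ" => (AlgebraicClosure ℚ ≃ₐ[ℚ] AlgebraicClosure ℚ)

/-- `ad⁰` of a matrix representation of `G_ℚ` of finite level which is unramified outside `S` is
smooth for `𝒰_S`. -/
theorem isSmooth_adRep (S : Finset Nat.Primes) (r : GQ →* Matrix (Fin 2) (Fin 2) k)
    (hfac : GaloisFactorsThroughFiniteLevel r)
    (hur : ∀ q : Nat.Primes, q ∉ S → ∀ A : ValuationSubring (AlgebraicClosure ℚ),
      A.LiesOverPrime (q : ℕ) → ∀ g ∈ A.inertiaSubgroupIn ℚ, r g = 1) :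
    IsSmooth (levelBasis S) (adRep r) := by
  refine isSmooth_of_unramified S (adRep r) (fun m => ?_) (fun q hq A hA g hg => ?_)
  · obtain ⟨L, hL, h⟩ := hfac
    refine ⟨L, hL, fun s hs => ?_⟩
    have h1 : r s = 1 := h s (fun x hx => hs ⟨x, hx⟩)
    rw [adRep_ρ_eq_one_of r s h1]
    rfl
  · exact adRep_ρ_eq_one_of r g (hur q hq A hA g hg)

/-- `ad⁰` as an object of `SmRep ℤ 𝒰_S` -/
noncomputable def adSm (S : Finset Nat.Primes) (r : GQ →* Matrix (Fin 2) (Fin 2) k)
    (h : IsSmooth (levelBasis S) (adRep r)) : SmRep ℤ (levelBasis S) :=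
  mkSm (levelBasis S) (adRep r) h

end Arith

end Fermat.Agent.TW
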