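/-
S56 (Taylor–Wiles) — helper1, small leaf (ODD), part 1: complex conjugation.

* complex conjugation inverts roots of unity;
* for a residual representation with cyclotomic determinant in odd characteristic, the image of
  complex conjugation has determinant `-1`, trace `0` and characteristic polynomial
  `(X - 1) (X + 1)`.
-/
import Fermat.Agent.TW.Hub_helper9
import Fermat.Agent.S53.L0_helper3_Matrix
import Fermat.Prelude.Def_GaloisRep_ComplexConjugation
import Fermat.Prelude.Def_GaloisRep_LocalConditions

set_option autoImplicit false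
set_option linter.unusedSectionVars false

open Polynomial Matrix

namespace Fermat.Agent.TW.Odd

open Fermat.Agent.S53

/-- `Ω = AlgebraicClosure ℚ`. -/
local notation "Ω" => AlgebraicClosure ℚ
/-- `GQ = Gal(Ω/ℚ)`. -/
local notation "GQ" => (AlgebraicClosure ℚ ≃ₐ[ℚ] AlgebraicClosure ℚ)

/-- complex conjugation inverts the roots of unity. -/
theorem complexConjugation_of_pow_eq_one {μ : Ω} {n : ℕ} (hn : n ≠ 0) (h : μ ^ n = 1) :
    complexConjugation μ = μ⁻¹ := by
  apply complexEmbedding.toRingHom.injective
  change complexEmbedding (complexConjugation μ) = complexEmbedding μ⁻¹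
  rw [complexEmbedding_complexConjugation, map_inv₀]
  have h1 : (complexEmbedding μ) ^ n = 1 := by rw [← map_pow, h, map_one]
  exact (Complex.inv_eq_conj (Complex.norm_eq_one_of_pow_eq_one h1 hn)).symm

/-- complex conjugation acts on the `p`-th roots of unity by `μ ↦ μ ^ (p - 1)`. -/
theorem complexConjugation_eq_pow {p : ℕ} (hp : 0 < p) {μ : Ω} (h : μ ^ p = 1) :
    complexConjugation μ = μ ^ (p - 1) := by
  rw [complexConjugation_of_pow_eq_one hp.ne' h]
  have hμ0 : μ ≠ 0 := by
    rintro rfl
    rw [zero_pow hp.ne'] at h
    exact zero_ne_one h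
  apply inv_eq_of_mul_eq_one_right
  rw [← pow_succ', Nat.sub_add_cancel hp, h]

section Matrix2

variable {k : Type} [Field k]

/-- an involution of determinant `-1` has trace `0`. -/
theorem trace_eq_zero_of_sq_eq_one (M : Matrix (Fin 2) (Fin 2) k) (hM : M * M = 1)
    (hdet : M.det = -1) : M.trace = 0 := by
  have hCH := Matrix.aeval_self_charpoly M
  rw [Matrix.charpoly_fin_two, hdet] at hCH
  simp only [map_sub, map_add, map_mul, map_pow, aeval_X, aeval_C, map_neg, map_one] at hCH
  rw [sq, hM] at hCH
  have h1 : (algebraMap k (Matrix (Fin 2) (Fin 2) k)) M.trace * M = 0 := by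
    have : (1 : Matrix (Fin 2) (Fin 2) k) - (algebraMap k (Matrix (Fin 2) (Fin 2) k)) M.trace * M
        + -1 = 0 := hCH
    have h2 : (algebraMap k (Matrix (Fin 2) (Fin 2) k)) M.trace * M =
        -((1 : Matrix (Fin 2) (Fin 2) k) - (algebraMap k (Matrix (Fin 2) (Fin 2) k)) M.trace * M
          + -1) := by abel
    rw [h2, this, neg_zero]
  have h3 : (algebraMap k (Matrix (Fin 2) (Fin 2) k)) M.trace = 0 := by
    have := congrArg (fun X => X * M) h1
    simp only [mul_assoc, hM, mul_one, zero_mul] at this
    exact this
  by_contra hne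
  have h4 := congrArg (fun X : Matrix (Fin 2) (Fin 2) k => X 0 0) h3
  simp only [Matrix.algebraMap_matrix_apply, if_true, Matrix.zero_apply] at h4
  exact hne (by simpa using h4)

/-- the characteristic polynomial of an involution of determinant `-1`. -/
theorem charpoly_of_sq_eq_one (M : Matrix (Fin 2) (Fin 2) k) (hM : M * M = 1)
    (hdet : M.det = -1) : M.charpoly = (X - C (1 : k)) * (X - C (-1 : k)) := by
  rw [Matrix.charpoly_fin_two, trace_eq_zero_of_sq_eq_one M hM hdet, hdet]
  simp only [map_zero, zero_mul, sub_zero, map_neg, map_one]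
  ring

end Matrix2

section Residual

variable {k : Type} [Field k]

/-- the determinant of the image of complex conjugation is `-1` (cyclotomic determinant). -/
theorem det_complexConjugation (p : ℕ) [Fact p.Prime] (ρbar : ResidualGaloisRep k)
    (hdet : (GaloisRepAdic.ofResidualGaloisRep ρbar).DetIsCyclotomic p) :
    LinearMap.det (ρbar.ρ complexConjugation) = -1 := by
  have hp : p.Prime := Fact.out
  have hpk : (p : k) = 0 := by
    have h1 := hdet.1
    rw [IsLocalRing.maximalIdeal_eq_bot, Ideal.mem_bot] at h1
    exact h1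
  have h1 := hdet.2 1 complexConjugation (p - 1) (fun μ hμ => by
    rw [pow_one] at hμ
    exact complexConjugation_eq_pow hp.pos hμ)
  rw [pow_one, hpk, Ideal.span_singleton_zero, Ideal.mem_bot, sub_eq_zero] at h1
  have h2 : (((p - 1 : ℕ)) : k) = -1 := by
    rw [Nat.cast_sub hp.one_le, hpk, Nat.cast_one, zero_sub]
  rw [← h2, ← h1]
  rfl

variable (ρbar : ResidualGaloisRep k) (β : Module.Basis (Fin 2) k ρbar.V)

theorem resMatrixOf_complexConjugation_mul_self :
    resMatrixOf ρbar β complexConjugation * resMatrixOf ρbar β complexConjugation = 1 := by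
  rw [← map_mul, complexConjugation_mul_self, map_one]

theorem resMatrixOf_complexConjugation_inv :
    resMatrixOf ρbar β complexConjugation⁻¹ = resMatrixOf ρbar β complexConjugation := by
  rw [complexConjugation_inv]

theorem det_resMatrixOf_complexConjugation (p : ℕ) [Fact p.Prime]
    (hdet : (GaloisRepAdic.ofResidualGaloisRep ρbar).DetIsCyclotomic p) :
    (resMatrixOf ρbar β complexConjugation).det = -1 := by
  rw [resMatrixOf_eq_toMatrix, LinearMap.det_toMatrix]
  exact det_complexConjugation p ρbar hdet

theorem trace_resMatrixOf_complexConjugation (p : ℕ) [Fact p.Prime]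
    (hdet : (GaloisRepAdic.ofResidualGaloisRep ρbar).DetIsCyclotomic p) :
    (resMatrixOf ρbar β complexConjugation).trace = 0 :=
  trace_eq_zero_of_sq_eq_one _ (resMatrixOf_complexConjugation_mul_self ρbar β)
    (det_resMatrixOf_complexConjugation ρbar β p hdet)

/-- **(ODD.1)**: the image of complex conjugation has characteristic polynomial
`(X - 1) (X + 1)`. -/
theorem charpoly_resMatrixOf_complexConjugation (p : ℕ) [Fact p.Prime]
    (hdet : (GaloisRepAdic.ofResidualGaloisRep ρbar).DetIsCyclotomic p) :
    (resMatrixOf ρbar β complexConjugation).charpoly = (X - C (1 : k)) * (X - C (-1 : k)) :=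
  charpoly_of_sq_eq_one _ (resMatrixOf_complexConjugation_mul_self ρbar β)
    (det_resMatrixOf_complexConjugation ρbar β p hdet)

/-- the same for the endomorphism itself. -/
theorem charpoly_complexConjugation (p : ℕ) [Fact p.Prime]
    (hdet : (GaloisRepAdic.ofResidualGaloisRep ρbar).DetIsCyclotomic p) :
    LinearMap.charpoly (ρbar.ρ complexConjugation) = (X - C (1 : k)) * (X - C (-1 : k)) := by
  rw [← charpoly_resMatrixOf_complexConjugation ρbar
    (Module.finBasisOfFinrankEq k ρbar.V ρbar.finrank_eq) p hdet, resMatrixOf_eq_toMatrix,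
    LinearMap.charpoly_toMatrix]

end Residual

end Fermat.Agent.TW.Odd
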