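/-
TW (S56) — helper6 — the `p`-th cyclotomic field is ramified at `p`: for an odd prime `p` and a
valuation subring `P` of `ℚ̄` over `p`, the inertia group `I_P` acts nontrivially on `μ_p`.
Consequence: a residual representation with cyclotomic determinant is ramified at `p`, and the
line of a (strictly) ordinary structure at `p` is unique.
-/
import Mathlib
import Fermat.Agent.EC.Conjugacy_helper5
import Fermat.Agent.S53.Defs
import Fermat.Agent.CFT.S14.Cyclo_helper5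

set_option autoImplicit false
set_option linter.unusedSectionVars false
set_option linter.style.haveILetI false

noncomputable section

namespace Fermat.Agent.TW

open Fermat.Agent.CFT.S14 Fermat.Agent.Tate Fermat.Agent.EC Fermat.Agent.S53 IsLocalRing Finset

section Cyclotomic

variable {P : ValuationSubring Qbar} {p : ℕ}

theorem mem_of_isIntegral_int (P : ValuationSubring Qbar) {x : Qbar} (hx : IsIntegral ℤ x) :
    x ∈ P := by
  have h1 : IsIntegral P x := hx.tower_top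
  obtain ⟨y, rfl⟩ := IsIntegrallyClosedIn.isIntegral_iff.mp h1
  exact y.2

/-- `v(ζ^j - 1) = v(ζ - 1)` for `j` prime to `p`. -/
theorem valuation_pow_sub_one_eq (hp : p.Prime) {ζ : Qbar} (hζ : IsPrimitiveRoot ζ p) {j : ℕ}
    (hj : j.Coprime p) : P.valuation (ζ ^ j - 1) = P.valuation (ζ - 1) := by
  have hζP : ζ ∈ P := mem_of_isIntegral_int P (hζ.isIntegral hp.pos)
  set ζP : P := ⟨ζ, hζP⟩ with hζPdef
  have hprim : IsPrimitiveRoot ζP p :=
    IsPrimitiveRoot.of_map_of_injective (f := P.subtype) (show IsPrimitiveRoot (P.subtype ζP) p from hζ)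
      Subtype.val_injective
  obtain ⟨u, hu⟩ := hprim.associated_sub_one_pow_sub_one_of_coprime hj
  have h1 : P.valuation ((((ζP - 1) * (u : P) : P)) : Qbar) = P.valuation (((ζP ^ j - 1 : P)) : Qbar) :=
    congrArg (fun x : P => P.valuation (x : Qbar)) hu
  have h2 : ((((ζP - 1) * (u : P) : P)) : Qbar) = (ζ - 1) * ((u : P) : Qbar) := by
    push_cast; rfl
  have h3 : (((ζP ^ j - 1 : P)) : Qbar) = ζ ^ j - 1 := by
    push_cast; rfl
  rw [h2, h3, map_mul, P.valuation_unit u, mul_one] at h1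
  exact h1.symm

/-- `v(ζ - 1)^(p-1) = v(p)`. -/
theorem valuation_sub_one_pow_eq (hp : p.Prime) {ζ : Qbar} (hζ : IsPrimitiveRoot ζ p) :
    P.valuation (ζ - 1) ^ (p - 1) = P.valuation (p : Qbar) := by
  obtain ⟨n, rfl⟩ : ∃ n, p = n + 1 := ⟨p - 1, (Nat.succ_pred_eq_of_pos hp.pos).symm⟩
  have h := hζ.prod_one_sub_pow_eq_order
  have h1 := congrArg P.valuation h
  rw [map_prod] at h1
  have h2 : ∀ k ∈ range n, P.valuation (1 - ζ ^ (k + 1)) = P.valuation (ζ - 1) := by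
    intro k hk
    rw [← Valuation.map_neg, neg_sub]
    apply valuation_pow_sub_one_eq hp hζ
    rw [Nat.coprime_comm, hp.coprime_iff_not_dvd]
    intro hdvd
    have := Nat.le_of_dvd (Nat.succ_pos k) hdvd
    have := mem_range.mp hk
    omega
  rw [prod_congr rfl h2, prod_const, card_range] at h1
  rw [Nat.add_sub_cancel, h1]
  push_cast
  rfl

/-- **`ℚ(μ_p)` is ramified at `p`** (`p` odd): some element of the inertia group `I_P` moves a
primitive `p`-th root of unity. -/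
theorem exists_mem_inertia_map_ne (hp : p.Prime) (hp2 : p ≠ 2) (hP : P.LiesOverPrime p)
    {ζ : Qbar} (hζ : IsPrimitiveRoot ζ p) : ∃ σ ∈ P.inertiaSubgroupIn ℚ, σ ζ ≠ ζ := by
  by_contra hcon
  push Not at hcon
  have hζ1 : ζ - 1 ≠ 0 := sub_ne_zero.mpr (hζ.ne_one hp.one_lt)
  have hfix : ∀ σ ∈ P.inertiaSubgroupIn ℚ, σ (ζ - 1) = ζ - 1 := by
    intro σ hσ
    rw [map_sub, map_one, hcon σ hσ]
  obtain ⟨m, hm⟩ := exists_zpow_valuation_eq_of_fixed hp hP (ζ - 1) hζ1 hfix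
  have h1 := valuation_sub_one_pow_eq (P := P) hp hζ
  rw [hm, ← zpow_natCast, ← zpow_mul] at h1
  have hvp0 : 0 < P.valuation (p : Qbar) := val_q_pos P hp
  have hvp1 : P.valuation (p : Qbar) < 1 := val_q_lt_one P hp hP
  have h2 : m * ((p - 1 : ℕ) : ℤ) = 1 := by
    have h3 : P.valuation (p : Qbar) ^ (m * ((p - 1 : ℕ) : ℤ)) = P.valuation (p : Qbar) ^ (1 : ℤ) := by
      rw [h1, zpow_one]
    exact (zpow_right_strictAnti₀ hvp0 hvp1).injective h3
  have h4 : ((p - 1 : ℕ) : ℤ) ∣ 1 := Dvd.intro_left m h2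
  have h5 : (p - 1 : ℕ) ∣ 1 := by exact_mod_cast h4
  have h6 := Nat.le_of_dvd one_pos h5
  have := hp.two_le
  omega

end Cyclotomic

section Consequences

variable {k : Type} [Field k] {p : ℕ}

/-- A representation with cyclotomic determinant is ramified at `p` (`p` odd): its determinant is
nontrivial on every inertia group over `p`. -/
theorem exists_mem_inertia_det_ne_one (hp : p.Prime) (hp2 : p ≠ 2) (hpk : (p : k) = 0)
    (rbar : Gal →* M2 k)
    (hdet : ∀ (σ : Gal) (a : ℕ), (∀ μ : Qbar, μ ^ p = 1 → σ μ = μ ^ a) → (rbar σ).det = a)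
    {P : ValuationSubring Qbar} (hP : P.LiesOverPrime p) :
    ∃ σ ∈ P.inertiaSubgroupIn ℚ, (rbar σ).det ≠ 1 := by
  haveI : Fact p.Prime := ⟨hp⟩
  haveI : CharP k p := (CharP.charP_iff_prime_eq_zero hp).mpr hpk
  obtain ⟨ζ, hζ⟩ := exists_primitiveRoot_Qbar p
  obtain ⟨σ, hσ, hσζ⟩ := exists_mem_inertia_map_ne hp hp2 hP hζ
  refine ⟨σ, hσ, fun h1 => hσζ ?_⟩
  obtain ⟨e, he⟩ := rootsOfUnity.integer_power_of_ringEquiv (L := Qbar) p (σ : Qbar ≃+* Qbar)
  -- a natural exponent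
  set a : ℕ := (e % (p : ℤ)).toNat with ha
  have hp0 : (p : ℤ) ≠ 0 := by exact_mod_cast hp.ne_zero
  have hnn : 0 ≤ e % (p : ℤ) := Int.emod_nonneg e hp0
  have hpow : ∀ μ : Qbar, μ ^ p = 1 → σ μ = μ ^ a := by
    intro μ hμ
    have hμ0 : μ ≠ 0 := by
      rintro rfl
      rw [zero_pow hp.ne_zero] at hμ
      exact zero_ne_one hμ
    let t : rootsOfUnity p Qbar := ⟨Units.mk0 μ hμ0, by
      rw [mem_rootsOfUnity]; ext; simpa using hμ⟩
    have h1 := he t
    have h2 : ((t : Qbarˣ) : Qbar) = μ := rfl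
    rw [h2] at h1
    have h3 : (σ : Qbar ≃+* Qbar) μ = σ μ := rfl
    rw [h3] at h1
    rw [h1]
    have htm : (t : Qbarˣ) ^ (p : ℤ) = 1 := by
      rw [zpow_natCast]; exact (mem_rootsOfUnity _ _).1 t.2
    have h4 : ((t : Qbarˣ) ^ e : Qbarˣ) = (t : Qbarˣ) ^ a := by
      conv_lhs => rw [← Int.emod_add_mul_ediv e (p : ℤ), zpow_add, zpow_mul, htm, one_zpow, mul_one]
      conv_lhs => rw [← Int.toNat_of_nonneg hnn, zpow_natCast]
    rw [h4]
    simp [h2]
  have hdeta := hdet σ a hpow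
  rw [h1] at hdeta
  have hmod : a ≡ 1 [MOD p] := by
    rw [← CharP.natCast_eq_natCast k p]
    rw [Nat.cast_one]
    exact hdeta.symm
  rw [hpow ζ hζ.pow_eq_one, ← pow_mod_orderOf, ← hζ.eq_orderOf, hmod, Nat.mod_eq_of_lt hp.one_lt,
    pow_one]

/-- Uniqueness of the ordinary line: if inertia acts trivially on `k² / k e₀` and on `k² / k e₀'`
and nontrivially on `k²`, then `k e₀ = k e₀'`. -/
theorem exists_smul_eq_of_inertia_quotient_trivial {rbar : Gal →* M2 k} {SI : Set Gal}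
    {e₀ e₀' : Fin 2 → k}
    (h : ∀ σ ∈ SI, ∀ u : Fin 2 → k, ∃ t : k, (rbar σ).mulVec u - u = t • e₀)
    (h' : ∀ σ ∈ SI, ∀ u : Fin 2 → k, ∃ t : k, (rbar σ).mulVec u - u = t • e₀')
    (hne : ∃ σ ∈ SI, rbar σ ≠ 1) : ∃ c : k, c ≠ 0 ∧ e₀' = c • e₀ := by
  obtain ⟨σ, hσ, hσ1⟩ := hne
  have : ∃ u : Fin 2 → k, (rbar σ).mulVec u - u ≠ 0 := by
    by_contra hall
    push Not at hall
    apply hσ1
    apply Matrix.toLin'.injective
    apply LinearMap.ext
    intro u
    rw [Matrix.toLin'_apply, Matrix.toLin'_one]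
    exact sub_eq_zero.mp (hall u)
  obtain ⟨u, hu⟩ := this
  obtain ⟨t, ht⟩ := h σ hσ u
  obtain ⟨t', ht'⟩ := h' σ hσ u
  have ht0 : t ≠ 0 := by
    rintro rfl
    rw [zero_smul] at ht
    exact hu ht
  have ht0' : t' ≠ 0 := by
    rintro rfl
    rw [zero_smul] at ht'
    exact hu ht'
  refine ⟨t'⁻¹ * t, mul_ne_zero (inv_ne_zero ht0') ht0, ?_⟩
  rw [mul_smul, ← ht, ht', smul_smul, inv_mul_cancel₀ ht0', one_smul]

end Consequences

end Fermat.Agent.TW
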