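/-
F2 Part A.5: facts on the Prelude ring `GaloisRep.ratLocalizedAt p = ℤ_(p) ⊆ ℚ`:
it is a localization of `ℤ` (hence Noetherian), every ring homomorphism between
`ℤ_(p)`-algebras is `ℤ_(p)`-linear, its elements have `p`-adic norm `≤ 1`, and finite flat
modules over it are projective.  Also: elements of `PadicAlgCl p` integral over a subring of
norm-`≤ 1` elements have norm `≤ 1`.
-/
import Mathlib
import Fermat.Prelude.Def_GaloisRep_Flat

set_option autoImplicit false
set_option linter.unusedSectionVars false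
set_option linter.style.haveILetI false

namespace Fermat.Agent.TW.Flat

open GaloisRep Polynomial

variable (p : ℕ) [Fact p.Prime]

/-- integers prime to `p`. -/
def coprimeSubmonoid : Submonoid ℤ where
  carrier := {n | n.natAbs.Coprime p}
  mul_mem' {a b} ha hb := by
    show (a * b).natAbs.Coprime p
    rw [Int.natAbs_mul]
    exact Nat.Coprime.mul_left ha hb
  one_mem' := by
    show (1 : ℤ).natAbs.Coprime p
    simp

lemma mem_coprimeSubmonoid {n : ℤ} : n ∈ coprimeSubmonoid p ↔ n.natAbs.Coprime p := Iff.rfl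

lemma ne_zero_of_mem_coprimeSubmonoid {n : ℤ} (hn : n ∈ coprimeSubmonoid p) : n ≠ 0 := by
  rintro rfl
  have : Nat.Coprime 0 p := hn
  rw [Nat.coprime_zero_left] at this
  exact (Fact.out : p.Prime).one_lt.ne' this

lemma coe_algebraMap_int_ratLoc (n : ℤ) :
    ((algebraMap ℤ (ratLocalizedAt p) n : ratLocalizedAt p) : ℚ) = (n : ℚ) := by
  rw [eq_intCast, Subring.coe_intCast]

instance ratLoc_isLocalization : IsLocalization (coprimeSubmonoid p) (ratLocalizedAt p) where
  map_units := by
    rintro ⟨y, hy⟩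
    have hy0 : y ≠ 0 := ne_zero_of_mem_coprimeSubmonoid p hy
    have hmem : ((y : ℚ))⁻¹ ∈ ratLocalizedAt p := by
      show ((y : ℚ))⁻¹.den.Coprime p
      rw [Rat.inv_intCast_den, if_neg hy0]
      exact hy
    refine IsUnit.of_mul_eq_one ⟨(y : ℚ)⁻¹, hmem⟩ ?_
    apply Subtype.ext
    rw [Subring.coe_mul, coe_algebraMap_int_ratLoc, Subring.coe_one]
    exact mul_inv_cancel₀ (Int.cast_ne_zero.mpr hy0)
  surj := by
    rintro ⟨q, hq⟩
    have hden : (q.den : ℤ) ∈ coprimeSubmonoid p := by
      show ((q.den : ℤ)).natAbs.Coprime p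
      rw [Int.natAbs_natCast]
      exact hq
    refine ⟨(q.num, ⟨(q.den : ℤ), hden⟩), ?_⟩
    apply Subtype.ext
    rw [Subring.coe_mul, coe_algebraMap_int_ratLoc, coe_algebraMap_int_ratLoc]
    simpa using Rat.mul_den_eq_num q
  exists_of_eq := by
    intro x y hxy
    refine ⟨1, ?_⟩
    have := congrArg (fun z : ratLocalizedAt p => (z : ℚ)) hxy
    simp only [coe_algebraMap_int_ratLoc] at this
    rw [Int.cast_inj.mp this]

instance ratLoc_isNoetherianRing : IsNoetherianRing (ratLocalizedAt p) :=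
  IsLocalization.isNoetherianRing (coprimeSubmonoid p) (ratLocalizedAt p) inferInstance

/-- finite flat modules over `ℤ_(p)` are projective. -/
theorem ratLoc_projective_of_finite_flat (M : Type*) [AddCommGroup M]
    [Module (ratLocalizedAt p) M] [Module.Finite (ratLocalizedAt p) M]
    [Module.Flat (ratLocalizedAt p) M] : Module.Projective (ratLocalizedAt p) M := by
  haveI : Module.FinitePresentation (ratLocalizedAt p) M :=
    Module.finitePresentation_of_finite (ratLocalizedAt p) M
  exact Module.Flat.projective_of_finitePresentation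

/-- every ring homomorphism between `ℤ_(p)`-algebras is `ℤ_(p)`-linear. -/
theorem ratLoc_ringHom_commutes {A B : Type*} [Ring A] [Ring B] [Algebra (ratLocalizedAt p) A]
    [Algebra (ratLocalizedAt p) B] (f : A →+* B) (r : ratLocalizedAt p) :
    f (algebraMap (ratLocalizedAt p) A r) = algebraMap (ratLocalizedAt p) B r := by
  have : f.comp (algebraMap (ratLocalizedAt p) A) = algebraMap (ratLocalizedAt p) B :=
    IsLocalization.ringHom_ext (coprimeSubmonoid p) (RingHom.ext_int _ _)
  exact RingHom.congr_fun this r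

/-- a ring homomorphism between `ℤ_(p)`-algebras, as an algebra homomorphism. -/
def ratLocAlgHom {A B : Type*} [Ring A] [Ring B] [Algebra (ratLocalizedAt p) A]
    [Algebra (ratLocalizedAt p) B] (f : A →+* B) : A →ₐ[ratLocalizedAt p] B :=
  { f with commutes' := ratLoc_ringHom_commutes p f }

@[simp] lemma ratLocAlgHom_apply {A B : Type*} [Ring A] [Ring B] [Algebra (ratLocalizedAt p) A]
    [Algebra (ratLocalizedAt p) B] (f : A →+* B) (a : A) : ratLocAlgHom p f a = f a := rfl

lemma norm_algebraMap_ratLoc_le_one (r : ratLocalizedAt p) :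
    ‖algebraMap (ratLocalizedAt p) (PadicAlgCl p) r‖ ≤ 1 := by
  have h1 : algebraMap (ratLocalizedAt p) (PadicAlgCl p) r
      = algebraMap ℚ_[p] (PadicAlgCl p) ((r : ℚ) : ℚ_[p]) := rfl
  rw [h1, PadicAlgCl.norm_extends]
  refine Padic.norm_rat_le_one ?_
  have hr : (r : ℚ).den.Coprime p := r.2
  intro hdvd
  have := Nat.Coprime.eq_one_of_dvd hr.symm hdvd
  exact (Fact.out : p.Prime).one_lt.ne' this

/-- integral elements over a ring of norm-`≤ 1` scalars have norm `≤ 1`. -/
theorem norm_le_one_of_isIntegral {O : Type*} [CommRing O] [Algebra O (PadicAlgCl p)]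
    (hO : ∀ o : O, ‖algebraMap O (PadicAlgCl p) o‖ ≤ 1) {x : PadicAlgCl p}
    (hx : IsIntegral O x) : ‖x‖ ≤ 1 := by
  obtain ⟨f, hm, hf⟩ := hx
  by_contra hlt
  have hlt : 1 < ‖x‖ := not_le.mp hlt
  by_cases hn : f.natDegree = 0
  · rw [Polynomial.natDegree_eq_zero] at hn
    obtain ⟨c, rfl⟩ := hn
    have hc : c = 1 := by simpa using hm.leadingCoeff
    rw [hc] at hf
    simp at hf
  · rw [Polynomial.eval₂_eq_sum_range, Finset.sum_range_succ, hm.coeff_natDegree, map_one,
      one_mul, add_eq_zero_iff_eq_neg] at hf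
    have h1 : ‖x ^ f.natDegree‖ = ‖x‖ ^ f.natDegree := norm_pow _ _
    have h2 : ‖∑ i ∈ Finset.range f.natDegree, algebraMap O (PadicAlgCl p) (f.coeff i) * x ^ i‖
        ≤ ‖x‖ ^ (f.natDegree - 1) := by
      refine IsUltrametricDist.norm_sum_le_of_forall_le_of_nonneg (by positivity) fun i hi => ?_
      rw [norm_mul, norm_pow]
      have hi' : i ≤ f.natDegree - 1 := by
        have := Finset.mem_range.mp hi
        omega
      calc ‖algebraMap O (PadicAlgCl p) (f.coeff i)‖ * ‖x‖ ^ i ≤ 1 * ‖x‖ ^ i :=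
            mul_le_mul_of_nonneg_right (hO _) (by positivity)
        _ = ‖x‖ ^ i := one_mul _
        _ ≤ ‖x‖ ^ (f.natDegree - 1) := pow_le_pow_right₀ hlt.le hi'
    have h3 : ‖x‖ ^ (f.natDegree - 1) < ‖x‖ ^ f.natDegree :=
      pow_lt_pow_right₀ hlt (by omega)
    rw [hf, norm_neg] at h2
    linarith

end Fermat.Agent.TW.Flat
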