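/-
F2 (flat local condition at p), reducible case — algebraic prerequisites for the construction of a
function model (`Ram.FunModel`) from a finite flat bialgebra over `ℤ_(p)`:

* `ℤ_(p) = GaloisRep.ratLocalizedAt p` is a principal ideal domain with fraction field `ℚ`;
* `linearIndependent_of_equivariant` : equivariant functions which are linearly independent over
  the fixed field are linearly independent (Artin);
* `span_eval_eq_top` : the evaluation functions `m ↦ x_m (h)` at finitely many distinct algebra
  homomorphisms span all functions (Dedekind).
-/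
import Mathlib
import Fermat.Agent.TW.Flat_helper7_RatLoc

set_option autoImplicit false
set_option linter.unusedSectionVars false

namespace Fermat.Agent.TW.Flat

open GaloisRep

section RatLoc

variable (p : ℕ) [Fact p.Prime]

lemma coprimeSubmonoid_eq_primeCompl :
    coprimeSubmonoid p = (Ideal.span {(p : ℤ)}).primeCompl := by
  have hp : p.Prime := Fact.out
  ext n
  rw [mem_coprimeSubmonoid, Ideal.mem_primeCompl_iff, Ideal.mem_span_singleton]
  rw [Nat.coprime_comm, hp.coprime_iff_not_dvd, Int.natCast_dvd]

instance isPrime_span_p : (Ideal.span {(p : ℤ)}).IsPrime := by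
  have hp : p.Prime := Fact.out
  rw [Ideal.span_singleton_prime (by exact_mod_cast hp.ne_zero)]
  exact Nat.prime_iff_prime_int.mp hp

instance ratLoc_isLocalization_atPrime :
    IsLocalization.AtPrime (ratLocalizedAt p) (Ideal.span {(p : ℤ)}) := by
  have h := ratLoc_isLocalization p
  rw [coprimeSubmonoid_eq_primeCompl] at h
  exact h

instance ratLoc_isDiscreteValuationRing : IsDiscreteValuationRing (ratLocalizedAt p) := by
  have hp : p.Prime := Fact.out
  have hne : Ideal.span {(p : ℤ)} ≠ ⊥ := by
    rw [Ne, Ideal.span_singleton_eq_bot]
    exact_mod_cast hp.ne_zero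
  exact IsLocalization.AtPrime.isDiscreteValuationRing_of_dedekind_domain ℤ hne (ratLocalizedAt p)

instance ratLoc_isFractionRing : IsFractionRing (ratLocalizedAt p) ℚ :=
  IsFractionRing.isFractionRing_of_isDomain_of_isLocalization (Ideal.span {(p : ℤ)}).primeCompl
    (ratLocalizedAt p) ℚ

end RatLoc

section Artin

/-- **Artin.** Equivariant functions with values in a field `F`, linearly independent over a
subfield `K` containing the fixed field of the acting group, are linearly independent over `F`. -/
theorem linearIndependent_of_equivariant {G : Type*} [Group G] {F : Type*} [Field F]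
    [MulSemiringAction G F] (K : Type*) [Field K] [Algebra K F]
    (hK : ∀ z : F, (∀ g : G, g • z = z) → z ∈ Set.range (algebraMap K F))
    {V : Type*} [MulAction G V] {ι : Type*} (f : ι → V → F)
    (hf : ∀ (g : G) (i : ι) (y : V), f i (g • y) = g • f i y)
    (hind : LinearIndependent K f) : LinearIndependent F f := by
  classical
  rw [linearIndependent_iff']
  -- strong induction on the size of the support
  have key : ∀ n : ℕ, ∀ s : Finset ι, s.card = n → ∀ c : ι → F, ∑ i ∈ s, c i • f i = 0 →
      ∀ i ∈ s, c i = 0 := by
    intro n
    induction n using Nat.strong_induction_on with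
    | _ n ih =>
      intro s hs c hc
      by_contra hcon
      push Not at hcon
      obtain ⟨i₀, hi₀s, hi₀⟩ := hcon
      -- normalise
      obtain ⟨c', hc'⟩ : ∃ c' : ι → F, c' = fun i => c i / c i₀ := ⟨_, rfl⟩
      have hc'0 : c' i₀ = 1 := by rw [hc']; exact div_self hi₀
      have hrel : ∀ y, ∑ i ∈ s, c' i * f i y = 0 := by
        intro y
        have h1 := congrFun hc y
        rw [Finset.sum_apply] at h1
        simp only [Pi.smul_apply, smul_eq_mul, Pi.zero_apply] at h1
        have h2 : ∑ i ∈ s, c' i * f i y = (∑ i ∈ s, c i * f i y) / c i₀ := by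
          rw [Finset.sum_div, hc']
          exact Finset.sum_congr rfl fun i _ => by ring
        rw [h2, h1, zero_div]
      -- the transformed relation
      have hrelg : ∀ (g : G) y, ∑ i ∈ s, (g • c' i) * f i y = 0 := by
        intro g y
        have h1 := congrArg (fun z => g • z) (hrel (g⁻¹ • y))
        simp only [smul_zero, Finset.smul_sum, smul_mul'] at h1
        rw [← h1]
        refine Finset.sum_congr rfl fun i _ => ?_
        rw [← hf, smul_inv_smul]
      -- the difference has smaller support
      have hfix : ∀ (g : G), ∀ i ∈ s, g • c' i = c' i := by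
        intro g
        have h1 : ∑ i ∈ s.erase i₀, (g • c' i - c' i) • f i = 0 := by
          funext y
          rw [Finset.sum_apply, Pi.zero_apply]
          simp only [Pi.smul_apply, smul_eq_mul]
          have h2 : ∑ i ∈ s, (g • c' i - c' i) * f i y = 0 := by
            simp only [sub_mul, Finset.sum_sub_distrib, hrelg g y, hrel y, sub_self]
          rw [← Finset.add_sum_erase s _ hi₀s, hc'0, smul_one, sub_self, zero_mul, zero_add] at h2
          exact h2
        have hcard : (s.erase i₀).card < n := by
          rw [Finset.card_erase_of_mem hi₀s, hs]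
          have : 0 < s.card := Finset.card_pos.mpr ⟨i₀, hi₀s⟩
          omega
        have h3 := ih _ hcard (s.erase i₀) rfl (fun i => g • c' i - c' i) h1
        intro i hi
        by_cases hii : i = i₀
        · rw [hii, hc'0, smul_one]
        · exact sub_eq_zero.mp (h3 i (Finset.mem_erase.mpr ⟨hii, hi⟩))
      -- so the coefficients lie in `K`
      have hmem : ∀ i ∈ s, ∃ k : K, algebraMap K F k = c' i :=
        fun i hi => hK _ fun g => hfix g i hi
      have h4 := (linearIndependent_iff'.mp hind) s
        (fun i => if h : i ∈ s then Classical.choose (hmem i h) else 0) (by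
          funext y
          rw [Finset.sum_apply, Pi.zero_apply, ← hrel y]
          refine Finset.sum_congr rfl fun i hi => ?_
          rw [dif_pos hi, Pi.smul_apply, Algebra.smul_def, Classical.choose_spec (hmem i hi)]) i₀ hi₀s
      rw [dif_pos hi₀s] at h4
      have h5 : c' i₀ = 0 := by
        rw [← Classical.choose_spec (hmem i₀ hi₀s), h4, map_zero]
      rw [hc'0] at h5
      exact one_ne_zero h5
  intro s c hc i hi
  exact key s.card s rfl c hc i hi

end Artin

section Dedekind

/-- **Dedekind.** The evaluation functions at finitely many distinct multiplicative maps span the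
space of all functions. -/
theorem span_eval_eq_top {H : Type*} [Monoid H] {F : Type*} [Field F] {M : Type*} [Finite M]
    (x : M → H →* F) (hx : Function.Injective x) :
    Submodule.span F (Set.range fun h : H => fun m : M => x m h) = ⊤ := by
  classical
  have := Fintype.ofFinite M
  by_contra hne
  obtain ⟨φ, hφ0, hφ⟩ := Submodule.exists_le_ker_of_lt_top _ (lt_top_iff_ne_top.mpr hne)
  apply hφ0
  -- the coefficients of `φ`
  have hφsum : ∀ f : M → F, φ f = ∑ m, f m * φ (Pi.single m 1) := by
    intro f
    have h1 : f = ∑ m, f m • (Pi.single m (1 : F) : M → F) := by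
      funext m'
      rw [Finset.sum_apply]
      simp [Pi.single_apply]
    conv_lhs => rw [h1]
    rw [map_sum]
    exact Finset.sum_congr rfl fun m _ => by rw [map_smul, smul_eq_mul]
  have hli := linearIndependent_monoidHom H F
  have hli' : LinearIndependent F (fun m : M => (x m : H → F)) :=
    hli.comp x hx
  have hzero : ∑ m, φ (Pi.single m 1) • (x m : H → F) = 0 := by
    funext h
    rw [Finset.sum_apply, Pi.zero_apply]
    have h2 : (fun m : M => x m h) ∈ LinearMap.ker φ :=
      hφ (Submodule.subset_span ⟨h, rfl⟩)
    rw [LinearMap.mem_ker, hφsum] at h2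
    rw [← h2]
    exact Finset.sum_congr rfl fun m _ => by simp [mul_comm]
  have hcoef := (linearIndependent_iff'.mp hli') Finset.univ _ hzero
  apply LinearMap.ext
  intro f
  rw [hφsum, LinearMap.zero_apply]
  exact Finset.sum_eq_zero fun m _ => by rw [hcoef m (Finset.mem_univ m), mul_zero]

end Dedekind

end Fermat.Agent.TW.Flat
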