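/-
TW (S56) — helper6 — (A2) deformations to the dual numbers in matrix form.

`k` a field, `k[ε] = DualNumber k`, `Gal = Gal(ℚ̄/ℚ)`, `M2 A` the `2 × 2` matrices (helper3's
`S53/L0_helper3_Matrix`).  A matrix over `k[ε]` is `ofParts A B = A + ε B` with `A = fstM`,
`B = sndM`.  A homomorphism `r : Gal →* M2 k[ε]` with `fstM ∘ r = rbar` is the same thing as a
*twisted cocycle* `b = sndM ∘ r : Gal → M2 k`,

  `b (σ τ) = b σ * rbar τ + rbar σ * b τ`

(the usual `ad`-valued cocycle is `c σ = b σ * (rbar σ)⁻¹`), and two such are conjugate by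
`1 + ε X` iff the cocycles differ by the twisted coboundary `σ ↦ X * rbar σ - rbar σ * X`.
-/
import Mathlib
import Fermat.Agent.S53.L0_helper3_Matrix
import Fermat.Agent.S53.Tangent

set_option autoImplicit false
set_option linter.unusedSectionVars false

noncomputable section

namespace Fermat.Agent.TW

open Fermat.Agent.S53 TrivSqZeroExt

section Parts

variable {k : Type} [Field k]

/-- The constant part of a matrix over the dual numbers. -/
def fstM (P : M2 (DualNumber k)) : M2 k := P.map TrivSqZeroExt.fst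

/-- The `ε`-part of a matrix over the dual numbers. -/
def sndM (P : M2 (DualNumber k)) : M2 k := P.map TrivSqZeroExt.snd

/-- The matrix `A + ε B` over the dual numbers. -/
def ofParts (A B : M2 k) : M2 (DualNumber k) :=
  Matrix.of fun i j => (TrivSqZeroExt.inl (A i j) + TrivSqZeroExt.inr (B i j) : DualNumber k)

@[simp] theorem fstM_apply (P : M2 (DualNumber k)) (i j : Fin 2) : fstM P i j = (P i j).fst := rfl

@[simp] theorem sndM_apply (P : M2 (DualNumber k)) (i j : Fin 2) : sndM P i j = (P i j).snd := rfl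

@[simp] theorem ofParts_apply (A B : M2 k) (i j : Fin 2) :
    ofParts A B i j = TrivSqZeroExt.inl (A i j) + TrivSqZeroExt.inr (B i j) := rfl

@[simp] theorem fstM_ofParts (A B : M2 k) : fstM (ofParts A B) = A := by
  ext i j; simp

@[simp] theorem sndM_ofParts (A B : M2 k) : sndM (ofParts A B) = B := by
  ext i j; simp

theorem ofParts_fstM_sndM (P : M2 (DualNumber k)) : ofParts (fstM P) (sndM P) = P := by
  ext i j
  · simp
  · simp

theorem ext_parts {P Q : M2 (DualNumber k)} (h1 : fstM P = fstM Q) (h2 : sndM P = sndM Q) :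
    P = Q := by
  rw [← ofParts_fstM_sndM P, ← ofParts_fstM_sndM Q, h1, h2]

theorem fstM_mul (P Q : M2 (DualNumber k)) : fstM (P * Q) = fstM P * fstM Q := by
  ext i j
  simp only [fstM_apply, Matrix.mul_apply, TrivSqZeroExt.fst_sum, TrivSqZeroExt.fst_mul]

theorem sndM_mul (P Q : M2 (DualNumber k)) :
    sndM (P * Q) = fstM P * sndM Q + sndM P * fstM Q := by
  ext i j
  simp only [sndM_apply, fstM_apply, Matrix.mul_apply, Matrix.add_apply, TrivSqZeroExt.snd_sum,
    TrivSqZeroExt.snd_mul, smul_eq_mul, MulOpposite.smul_eq_mul_unop, MulOpposite.unop_op,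
    Finset.sum_add_distrib]

@[simp] theorem fstM_one : fstM (1 : M2 (DualNumber k)) = 1 := by
  ext i j
  by_cases h : i = j
  · subst h; simp
  · simp [Matrix.one_apply_ne h]

@[simp] theorem sndM_one : sndM (1 : M2 (DualNumber k)) = 0 := by
  ext i j
  by_cases h : i = j
  · subst h; simp
  · simp [Matrix.one_apply_ne h]

theorem ofParts_one_zero : ofParts (1 : M2 k) 0 = 1 :=
  ext_parts (by simp) (by simp)

theorem ofParts_mul (A B A' B' : M2 k) :
    ofParts A B * ofParts A' B' = ofParts (A * A') (A * B' + B * A') :=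
  ext_parts (by rw [fstM_mul]; simp) (by rw [sndM_mul]; simp)

end Parts

section Cocycle

variable {k : Type} [Field k]

/-- Twisted cocycles: `b (σ τ) = b σ * rbar τ + rbar σ * b τ`. -/
def IsTwCocycle (rbar : Gal →* M2 k) (b : Gal → M2 k) : Prop :=
  ∀ σ τ, b (σ * τ) = b σ * rbar τ + rbar σ * b τ

/-- The twisted coboundary of `X`. -/
def twCoboundary (rbar : Gal →* M2 k) (X : M2 k) : Gal → M2 k :=
  fun σ => X * rbar σ - rbar σ * X

theorem isTwCocycle_twCoboundary (rbar : Gal →* M2 k) (X : M2 k) :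
    IsTwCocycle rbar (twCoboundary rbar X) := by
  intro σ τ
  simp only [twCoboundary, map_mul]
  noncomm_ring

theorem IsTwCocycle.map_one {rbar : Gal →* M2 k} {b : Gal → M2 k} (hb : IsTwCocycle rbar b) :
    b 1 = 0 := by
  have h := hb 1 1
  rw [mul_one, _root_.map_one, mul_one, one_mul] at h
  have : b 1 + 0 = b 1 + b 1 := by rw [add_zero]; exact h
  exact (add_left_cancel this).symm

theorem IsTwCocycle.add {rbar : Gal →* M2 k} {b b' : Gal → M2 k} (hb : IsTwCocycle rbar b)
    (hb' : IsTwCocycle rbar b') : IsTwCocycle rbar (b + b') := by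
  intro σ τ
  simp only [Pi.add_apply, hb σ τ, hb' σ τ]
  noncomm_ring

theorem IsTwCocycle.smul {rbar : Gal →* M2 k} {b : Gal → M2 k} (hb : IsTwCocycle rbar b) (a : k) :
    IsTwCocycle rbar (a • b) := by
  intro σ τ
  simp only [Pi.smul_apply, hb σ τ, smul_add, Matrix.smul_mul, Matrix.mul_smul]

/-- A function on the Galois group is smooth if it vanishes on an open subgroup
(for a twisted cocycle `b` of a representation of finite level this means that `b` factors
through a finite quotient). -/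
def IsSmoothFun {M : Type*} [Zero M] (b : Gal → M) : Prop :=
  ∃ L : IntermediateField ℚ (AlgebraicClosure ℚ), FiniteDimensional ℚ L ∧
    ∀ σ : Gal, (∀ x ∈ L, σ x = x) → b σ = 0

/-- The homomorphism `σ ↦ rbar σ + ε b σ` attached to a twisted cocycle. -/
def defOfCocycle (rbar : Gal →* M2 k) (b : Gal → M2 k) (hb : IsTwCocycle rbar b) :
    Gal →* M2 (DualNumber k) where
  toFun σ := ofParts (rbar σ) (b σ)
  map_one' := by
    have h1 : b 1 = 0 := IsTwCocycle.map_one hb
    rw [_root_.map_one rbar, h1, ofParts_one_zero]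
  map_mul' σ τ := by rw [ofParts_mul, map_mul, hb σ τ, add_comm]

@[simp] theorem defOfCocycle_apply (rbar : Gal →* M2 k) (b : Gal → M2 k) (hb : IsTwCocycle rbar b)
    (σ : Gal) : defOfCocycle rbar b hb σ = ofParts (rbar σ) (b σ) := rfl

/-- The twisted cocycle of a homomorphism to `M2 k[ε]`. -/
def cocycleOf (r : Gal →* M2 (DualNumber k)) : Gal → M2 k := fun σ => sndM (r σ)

theorem isTwCocycle_cocycleOf {rbar : Gal →* M2 k} {r : Gal →* M2 (DualNumber k)}
    (h : ∀ σ, fstM (r σ) = rbar σ) : IsTwCocycle rbar (cocycleOf r) := by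
  intro σ τ
  simp only [cocycleOf, map_mul, sndM_mul, h]
  rw [add_comm]

theorem defOfCocycle_cocycleOf {rbar : Gal →* M2 k} {r : Gal →* M2 (DualNumber k)}
    (h : ∀ σ, fstM (r σ) = rbar σ) :
    defOfCocycle rbar (cocycleOf r) (isTwCocycle_cocycleOf h) = r := by
  ext σ : 1
  rw [defOfCocycle_apply, ← h σ]
  exact ofParts_fstM_sndM (r σ)

theorem cocycleOf_defOfCocycle (rbar : Gal →* M2 k) (b : Gal → M2 k) (hb : IsTwCocycle rbar b) :
    cocycleOf (defOfCocycle rbar b hb) = b := by
  funext σ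
  simp [cocycleOf]

theorem fstM_defOfCocycle (rbar : Gal →* M2 k) (b : Gal → M2 k) (hb : IsTwCocycle rbar b) (σ : Gal) :
    fstM (defOfCocycle rbar b hb σ) = rbar σ := by simp

end Cocycle

section Cont

open IsLocalRing

variable {k : Type} [Field k]

theorem mem_maximalIdeal_dualNumber_iff (x : DualNumber k) :
    x ∈ maximalIdeal (DualNumber k) ↔ x.fst = 0 := by
  rw [mem_maximalIdeal, mem_nonunits_iff, TrivSqZeroExt.isUnit_iff_isUnit_fst, isUnit_iff_ne_zero,
    not_not]

theorem maximalIdeal_dualNumber_sq : maximalIdeal (DualNumber k) ^ 2 = ⊥ := by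
  rw [eq_bot_iff, pow_two, Ideal.mul_le]
  intro x hx y hy
  rw [mem_maximalIdeal_dualNumber_iff] at hx hy
  rw [Ideal.mem_bot]
  apply TrivSqZeroExt.ext
  · rw [TrivSqZeroExt.fst_mul, hx, zero_mul, TrivSqZeroExt.fst_zero]
  · rw [TrivSqZeroExt.snd_mul, hx, hy, zero_smul, MulOpposite.op_zero, zero_smul, add_zero,
      TrivSqZeroExt.snd_zero]

/-- The deformation attached to a smooth twisted cocycle of a representation of finite level has
finite level. -/
theorem factors_defOfCocycle {rbar : Gal →* M2 k} (hrbar : GaloisFactorsThroughFiniteLevel rbar)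
    {b : Gal → M2 k} (hb : IsTwCocycle rbar b) (hsm : IsSmoothFun b) :
    GaloisFactorsThroughFiniteLevel (defOfCocycle rbar b hb) := by
  obtain ⟨L₁, hL₁, h1⟩ := hrbar
  obtain ⟨L₂, hL₂, h2⟩ := hsm
  refine ⟨L₁ ⊔ L₂, IntermediateField.finiteDimensional_sup L₁ L₂, fun σ hσ => ?_⟩
  have hσ1 : ∀ x ∈ L₁, σ x = x := fun x hx => hσ x ((le_sup_left : L₁ ≤ L₁ ⊔ L₂) hx)
  have hσ2 : ∀ x ∈ L₂, σ x = x := fun x hx => hσ x ((le_sup_right : L₂ ≤ L₁ ⊔ L₂) hx)
  rw [defOfCocycle_apply, h1 σ hσ1, h2 σ hσ2, ofParts_one_zero]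

theorem matCont_defOfCocycle {rbar : Gal →* M2 k} (hrbar : GaloisFactorsThroughFiniteLevel rbar)
    {b : Gal → M2 k} (hb : IsTwCocycle rbar b) (hsm : IsSmoothFun b) :
    MatCont (defOfCocycle rbar b hb) :=
  matCont_of_factors _ (factors_defOfCocycle hrbar hb hsm)

/-- The cocycle of a continuous homomorphism to `M2 k[ε]` is smooth. -/
theorem isSmoothFun_cocycleOf {r : Gal →* M2 (DualNumber k)} (hr : MatCont r) :
    IsSmoothFun (cocycleOf r) := by
  obtain ⟨L, hL, h⟩ := factors_of_matCont maximalIdeal_dualNumber_sq r hr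
  refine ⟨L, hL, fun σ hσ => ?_⟩
  rw [cocycleOf, h σ hσ, sndM_one]

/-- Deformations whose cocycles differ by a twisted coboundary are equivalent
(conjugate by `1 + ε X`). -/
theorem isEquiv_ofMatrix_of_coboundary {rbar : Gal →* M2 k} {b b' : Gal → M2 k}
    (hb : IsTwCocycle rbar b) (hb' : IsTwCocycle rbar b')
    (hc : MatCont (defOfCocycle rbar b hb)) (hc' : MatCont (defOfCocycle rbar b' hb'))
    (X : M2 k) (hX : ∀ σ, b' σ - b σ = X * rbar σ - rbar σ * X) :
    (ofMatrix (defOfCocycle rbar b hb) hc).IsEquiv (ofMatrix (defOfCocycle rbar b' hb') hc') := by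
  rw [isEquiv_ofMatrix_iff]
  have h1 : ofParts (1 : M2 k) X * ofParts 1 (-X) = 1 := by
    rw [ofParts_mul]; simp [ofParts_one_zero]
  have h2 : ofParts (1 : M2 k) (-X) * ofParts 1 X = 1 := by
    rw [ofParts_mul]; simp [ofParts_one_zero]
  refine ⟨⟨ofParts 1 X, ofParts 1 (-X), h1, h2⟩, fun σ => ?_⟩
  show ofParts 1 X * ofParts (rbar σ) (b σ) = ofParts (rbar σ) (b' σ) * ofParts 1 X
  rw [ofParts_mul, ofParts_mul, one_mul, mul_one, one_mul, mul_one]
  congr 1
  have := hX σ
  have h3 : b' σ = b σ + (X * rbar σ - rbar σ * X) := by rw [← this]; abel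
  rw [h3]
  abel

end Cont

section Strict

open IsLocalRing

variable {𝒪 : Type} [CommRing 𝒪] [IsLocalRing 𝒪]

attribute [local instance] PS.dualNumberAlgebra

/-- Over the dual numbers a strict lift of `rbar` is a homomorphism with constant part `rbar`. -/
theorem isStrictLift_dualNumber_iff (rbar : Gal → M2 (ResidueField 𝒪))
    (r : Gal → M2 (DualNumber (ResidueField 𝒪))) :
    IsStrictLift 𝒪 rbar r ↔ ∀ σ, fstM (r σ) = rbar σ := by
  constructor
  · intro h σ
    ext i j
    obtain ⟨a, ha⟩ := residue_surjective (rbar σ i j)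
    have h1 := h σ i j a ha
    rw [mem_maximalIdeal_dualNumber_iff, TrivSqZeroExt.fst_sub, PS.dualNumber_algebraMap_apply,
      TrivSqZeroExt.fst_inl, sub_eq_zero] at h1
    rw [fstM_apply, h1, ha]
  · intro h σ i j a ha
    rw [mem_maximalIdeal_dualNumber_iff, TrivSqZeroExt.fst_sub, PS.dualNumber_algebraMap_apply,
      TrivSqZeroExt.fst_inl, sub_eq_zero, ha, ← h σ, fstM_apply]

end Strict

end Fermat.Agent.TW
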