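/-
TW (S56) — helper6 — leaf (I), part 1: from twisted cocycles `b` (deformations `rbar + ε b`) to
`1`-cocycles of `ad⁰ rbar` in Mathlib's sense (carrier of helper9's hub), level-constancy, and
injectivity modulo twisted coboundaries.
-/
import Mathlib
import Fermat.Agent.TW.Hub_helper9
import Fermat.Agent.TW.Deform_helper6

set_option autoImplicit false
set_option linter.unusedSectionVars false
set_option linter.style.haveILetI false

noncomputable section

namespace Fermat.Agent.TW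

open Fermat.Agent.S53 Fermat.Agent.CFT.Sm Fermat.Agent.CFT.Bridge Fermat.Agent.CFT.Arith
  groupCohomology Matrix CategoryTheory CategoryTheory.Abelian

section AdCocycle

variable {k : Type} [Field k]

theorem map_inv_eq_inv (rbar : Gal →* M2 k) (σ : Gal) : rbar σ⁻¹ = (rbar σ)⁻¹ := by
  symm
  apply Matrix.inv_eq_right_inv
  rw [← map_mul, mul_inv_cancel, map_one]

theorem map_mul_map_inv (rbar : Gal →* M2 k) (σ : Gal) : rbar σ * rbar σ⁻¹ = 1 := by
  rw [← map_mul, mul_inv_cancel, map_one]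

theorem map_inv_mul_map (rbar : Gal →* M2 k) (σ : Gal) : rbar σ⁻¹ * rbar σ = 1 := by
  rw [← map_mul, inv_mul_cancel, map_one]

/-- The `ad⁰`-valued function `σ ↦ b σ * (rbar σ)⁻¹` attached to a twisted cocycle with
trace-zero values. -/
def adCocycleFun (rbar : Gal →* M2 k) (b : Gal → M2 k)
    (htr : ∀ σ, Matrix.trace (b σ * rbar σ⁻¹) = 0) : Gal → (adRep rbar).V :=
  fun σ => (⟨b σ * rbar σ⁻¹, (mem_sl2_iff _).2 (htr σ)⟩ : sl2 k)

theorem adCocycleFun_coe (rbar : Gal →* M2 k) (b : Gal → M2 k)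
    (htr : ∀ σ, Matrix.trace (b σ * rbar σ⁻¹) = 0) (σ : Gal) :
    ((show sl2 k from adCocycleFun rbar b htr σ) : M2 k) = b σ * rbar σ⁻¹ := rfl

theorem adCocycleFun_mem_cocycles₁ {rbar : Gal →* M2 k} {b : Gal → M2 k}
    (hb : IsTwCocycle rbar b) (htr : ∀ σ, Matrix.trace (b σ * rbar σ⁻¹) = 0) :
    adCocycleFun rbar b htr ∈ cocycles₁ (adRep rbar) := by
  rw [mem_cocycles₁_iff]
  intro g h
  apply Subtype.ext
  show b (g * h) * rbar (g * h)⁻¹ = rbar g * (b h * rbar h⁻¹) * rbar g⁻¹ + b g * rbar g⁻¹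
  rw [hb g h, _root_.mul_inv_rev, map_mul, add_mul, add_comm, ← mul_assoc, ← mul_assoc, mul_assoc (b g)]
  congr 1
  · simp only [mul_assoc]
  · rw [map_mul_map_inv, mul_one]

/-- The `1`-cocycle of `ad⁰ rbar` attached to a twisted cocycle with trace-zero values. -/
def adCocycle {rbar : Gal →* M2 k} {b : Gal → M2 k} (hb : IsTwCocycle rbar b)
    (htr : ∀ σ, Matrix.trace (b σ * rbar σ⁻¹) = 0) : cocycles₁ (adRep rbar) :=
  ⟨adCocycleFun rbar b htr, adCocycleFun_mem_cocycles₁ hb htr⟩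

theorem adCocycle_apply_coe {rbar : Gal →* M2 k} {b : Gal → M2 k} (hb : IsTwCocycle rbar b)
    (htr : ∀ σ, Matrix.trace (b σ * rbar σ⁻¹) = 0) (σ : Gal) :
    ((show sl2 k from adCocycle hb htr σ) : M2 k) = b σ * rbar σ⁻¹ := rfl

/-- **Injectivity modulo coboundaries**: if the `ad⁰`-cocycles of `b` and `b'` have the same
class in `H¹(G_ℚ, ad⁰)` then `b' - b` is a twisted coboundary. -/
theorem exists_twCoboundary_of_H1π_eq {rbar : Gal →* M2 k} {b b' : Gal → M2 k}
    (hb : IsTwCocycle rbar b) (hb' : IsTwCocycle rbar b')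
    (htr : ∀ σ, Matrix.trace (b σ * rbar σ⁻¹) = 0)
    (htr' : ∀ σ, Matrix.trace (b' σ * rbar σ⁻¹) = 0)
    (h : H1π (adRep rbar) (adCocycle hb htr) = H1π (adRep rbar) (adCocycle hb' htr')) :
    ∃ X : M2 k, ∀ σ, b' σ - b σ = X * rbar σ - rbar σ * X := by
  rw [H1π_eq_iff] at h
  obtain ⟨w, hw⟩ := h
  refine ⟨(show sl2 k from w).1, fun σ => ?_⟩
  have h1 := congrFun hw σ
  have h2 : rbar σ * (show sl2 k from w).1 * rbar σ⁻¹ - (show sl2 k from w).1 =
      b σ * rbar σ⁻¹ - b' σ * rbar σ⁻¹ := congrArg Subtype.val h1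
  have h3 := congrArg (fun M => M * rbar σ) h2
  simp only [sub_mul, mul_assoc, map_inv_mul_map, mul_one] at h3
  rw [← neg_sub (b σ), ← h3, neg_sub]

end AdCocycle

section LevelConstant

variable {k : Type} [Field k]

/-- `Ω = AlgebraicClosure ℚ`. -/
local notation "Ω" => AlgebraicClosure ℚ

/-- A subgroup of `G_ℚ` containing the fixing subgroup of a finite extension and all inertia
groups outside `S` is open for `𝒰_S`. -/
theorem isOpen_levelBasis_of_unramified (S : Finset Nat.Primes) (H : Subgroup Gal)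
    (hfin : ∃ F : IntermediateField ℚ Ω, FiniteDimensional ℚ F ∧ F.fixingSubgroup ≤ H)
    (hur : ∀ q : Nat.Primes, q ∉ S → ∀ A : ValuationSubring Ω, A.LiesOverPrime (q : ℕ) →
      A.inertiaSubgroupIn ℚ ≤ H) : (levelBasis S).IsOpen H := by
  obtain ⟨F, hFfin, hle⟩ := hfin
  have hopen : IsOpen (H : Set Gal) :=
    Subgroup.isOpen_mono hle (IntermediateField.fixingSubgroup_isOpen F)
  have hclosed : IsClosed (H : Set Gal) := (⟨H, hopen⟩ : OpenSubgroup Gal).isClosed
  have hHeq : (IntermediateField.fixedField H).fixingSubgroup = H :=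
    InfiniteGalois.fixingSubgroup_fixedField ⟨H, hclosed⟩
  have hEle : IntermediateField.fixedField H ≤ F := by
    have h1 := IntermediateField.fixedField_antitone hle
    rwa [InfiniteGalois.fixedField_fixingSubgroup] at h1
  have hEunr : (IntermediateField.fixedField H).IsUnramifiedOutside S := by
    refine ⟨?_, fun q hq A hA g hg => ?_⟩
    · exact FiniteDimensional.of_injective (IntermediateField.inclusion hEle).toLinearMap
        (IntermediateField.inclusion_injective hEle)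
    · rw [hHeq]
      exact hur q hq A hA hg
  have := isOpen_fixingSubgroup (S := S) hEunr
  rwa [hHeq] at this

/-- The subgroup on which both `rbar` and `b` are trivial. -/
def trivSubgroup {rbar : Gal →* M2 k} {b : Gal → M2 k} (hb : IsTwCocycle rbar b) :
    Subgroup Gal where
  carrier := {s | rbar s = 1 ∧ b s = 0}
  one_mem' := ⟨map_one _, hb.map_one⟩
  mul_mem' := by
    rintro s t ⟨hs1, hs2⟩ ⟨ht1, ht2⟩
    exact ⟨by rw [map_mul, hs1, ht1, one_mul], by rw [hb s t, hs2, ht2, zero_mul, mul_zero, add_zero]⟩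
  inv_mem' := by
    rintro s ⟨hs1, hs2⟩
    have h1 : rbar s⁻¹ = 1 := by
      have := map_inv_mul_map rbar s
      rwa [hs1, mul_one] at this
    refine ⟨h1, ?_⟩
    have h2 := hb s⁻¹ s
    rw [inv_mul_cancel, hb.map_one, hs1, hs2, mul_one, mul_zero, add_zero] at h2
    exact h2.symm

theorem mem_trivSubgroup {rbar : Gal →* M2 k} {b : Gal → M2 k} (hb : IsTwCocycle rbar b)
    (s : Gal) : s ∈ trivSubgroup hb ↔ rbar s = 1 ∧ b s = 0 := Iff.rfl

/-- The `ad⁰`-cocycle of a smooth twisted cocycle which is unramified outside `S` is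
level-constant for `𝒰_S`. -/
theorem isLC₁_adCocycle (S : Finset Nat.Primes) {rbar : Gal →* M2 k} {b : Gal → M2 k}
    (hrbar : GaloisFactorsThroughFiniteLevel rbar) (hb : IsTwCocycle rbar b)
    (hsm : IsSmoothFun b) (htr : ∀ σ, Matrix.trace (b σ * rbar σ⁻¹) = 0)
    (hur : ∀ q : Nat.Primes, q ∉ S → ∀ A : ValuationSubring Ω, A.LiesOverPrime (q : ℕ) →
      ∀ g ∈ A.inertiaSubgroupIn ℚ, rbar g = 1 ∧ b g = 0) :
    IsLC₁ (levelBasis S) (adCocycle hb htr : Gal → (adRep rbar).V) := by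
  refine ⟨trivSubgroup hb, isOpen_levelBasis_of_unramified S _ ?_ hur, fun g s hs => ?_⟩
  · obtain ⟨L₁, hL₁, h1⟩ := hrbar
    obtain ⟨L₂, hL₂, h2⟩ := hsm
    haveI := hL₁
    haveI := hL₂
    refine ⟨L₁ ⊔ L₂, inferInstance, fun s hs => ?_⟩
    rw [IntermediateField.mem_fixingSubgroup_iff] at hs
    exact ⟨h1 s fun x hx => hs x ((le_sup_left : L₁ ≤ L₁ ⊔ L₂) hx),
      h2 s fun x hx => hs x ((le_sup_right : L₂ ≤ L₁ ⊔ L₂) hx)⟩
  · obtain ⟨hs1, hs2⟩ := hs
    apply Subtype.ext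
    show b (g * s) * rbar (g * s)⁻¹ = b g * rbar g⁻¹
    have hs1' : rbar s⁻¹ = 1 := by
      have := map_inv_mul_map rbar s
      rwa [hs1, mul_one] at this
    rw [hb g s, hs1, hs2, mul_one, mul_zero, add_zero, _root_.mul_inv_rev, map_mul, hs1', one_mul]

end LevelConstant

section Class

variable {k : Type} [Field k]

/-- The class in `Ext¹(𝟙, ad⁰)` (in `SmRep ℤ 𝒰_S`) of a level-constant twisted cocycle. -/
def clsOfCocycle (S : Finset Nat.Primes) {rbar : Gal →* M2 k}
    (hS : IsSmooth (levelBasis S) (adRep rbar)) {b : Gal → M2 k} (hb : IsTwCocycle rbar b)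
    (htr : ∀ σ, Matrix.trace (b σ * rbar σ⁻¹) = 0)
    (hlc : IsLC₁ (levelBasis S) (adCocycle hb htr : Gal → (adRep rbar).V)) :
    Ext (smUnit ℤ (levelBasis S)) (adSm S rbar hS) 1 :=
  extOfCocycle (adSm S rbar hS) (adCocycle hb htr) hlc

theorem clsH1_clsOfCocycle (S : Finset Nat.Primes) {rbar : Gal →* M2 k}
    (hS : IsSmooth (levelBasis S) (adRep rbar)) {b : Gal → M2 k} (hb : IsTwCocycle rbar b)
    (htr : ∀ σ, Matrix.trace (b σ * rbar σ⁻¹) = 0)
    (hlc : IsLC₁ (levelBasis S) (adCocycle hb htr : Gal → (adRep rbar).V)) :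
    clsH1 (adSm S rbar hS) (clsOfCocycle S hS hb htr hlc) =
      (H1π (adRep rbar)).hom (adCocycle hb htr) :=
  clsH1_extOfCocycle (adSm S rbar hS) (adCocycle hb htr) hlc

/-- **Injectivity modulo coboundaries** of `b ↦ clsOfCocycle b`. -/
theorem exists_twCoboundary_of_clsOfCocycle_eq (S : Finset Nat.Primes) {rbar : Gal →* M2 k}
    (hS : IsSmooth (levelBasis S) (adRep rbar)) {b b' : Gal → M2 k} (hb : IsTwCocycle rbar b)
    (hb' : IsTwCocycle rbar b') (htr : ∀ σ, Matrix.trace (b σ * rbar σ⁻¹) = 0)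
    (htr' : ∀ σ, Matrix.trace (b' σ * rbar σ⁻¹) = 0)
    (hlc : IsLC₁ (levelBasis S) (adCocycle hb htr : Gal → (adRep rbar).V))
    (hlc' : IsLC₁ (levelBasis S) (adCocycle hb' htr' : Gal → (adRep rbar).V))
    (h : clsOfCocycle S hS hb htr hlc = clsOfCocycle S hS hb' htr' hlc') :
    ∃ X : M2 k, ∀ σ, b' σ - b σ = X * rbar σ - rbar σ * X := by
  have h1 := congrArg (clsH1 (adSm S rbar hS)) h
  rw [clsH1_clsOfCocycle, clsH1_clsOfCocycle] at h1
  exact exists_twCoboundary_of_H1π_eq hb hb' htr htr' h1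

end Class

end Fermat.Agent.TW
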