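/-
TW (S56) — helper6 — (A4, part 3a) the conditions of S56 for a matrix representation
`ofMatrix r hr`, and for the deformation `defOfCocycle rbar b` attached to a twisted cocycle:
unramifiedness, determinant, unipotence on inertia, flatness.
-/
import Mathlib
import Fermat.Prelude.Def_GaloisRep_LocalConditions
import Fermat.Prelude.Def_GaloisRep_StrictOrdinary
import Fermat.Prelude.Def_GaloisRep_Flat
import Fermat.Agent.TW.Deform_helper6
import Fermat.Agent.TW.FlatModule_helper6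

set_option autoImplicit false
set_option linter.unusedSectionVars false

noncomputable section

namespace Fermat.Agent.TW

open IsLocalRing GaloisRepAdic Fermat.Agent.S53 Polynomial

section MatrixRep

variable {A : Type} [CommRing A] [IsLocalRing A] (r : Gal →* M2 A) (hr : MatCont r)

theorem ofMatrix_ρ_eq_toLin' (σ : Gal) : (ofMatrix r hr).ρ σ = Matrix.toLin' (r σ) := rfl

theorem ofMatrix_ρ_eq_one_iff (σ : Gal) : (ofMatrix r hr).ρ σ = 1 ↔ r σ = 1 := by
  rw [ofMatrix_ρ_eq_toLin']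
  constructor
  · intro h
    have : Matrix.toLin' (r σ) = Matrix.toLin' (1 : M2 A) := by rw [h, Matrix.toLin'_one]; rfl
    exact Matrix.toLin'.injective this
  · intro h
    rw [h, Matrix.toLin'_one]; rfl

theorem det_ofMatrix (σ : Gal) : LinearMap.det ((ofMatrix r hr).ρ σ) = (r σ).det :=
  LinearMap.det_toLin' (r σ)

theorem charpoly_ofMatrix (σ : Gal) :
    LinearMap.charpoly ((ofMatrix r hr).ρ σ) = (r σ).charpoly :=
  Matrix.charpoly_toLin' (r σ)

theorem isUnramifiedAt_ofMatrix_iff (q : ℕ) :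
    (ofMatrix r hr).IsUnramifiedAt q ↔
      ∀ P : ValuationSubring (AlgebraicClosure ℚ), P.LiesOverPrime q →
        ∀ σ ∈ P.inertiaSubgroupIn ℚ, r σ = 1 := by
  unfold GaloisRepAdic.IsUnramifiedAt
  simp only [ofMatrix_ρ_eq_one_iff]

theorem isUnipotentOnInertiaAt_ofMatrix_iff (q : ℕ) :
    (ofMatrix r hr).IsUnipotentOnInertiaAt q ↔
      ∀ P : ValuationSubring (AlgebraicClosure ℚ), P.LiesOverPrime q →
        ∀ σ ∈ P.inertiaSubgroupIn ℚ, (r σ).charpoly = (X - 1) ^ 2 := by
  unfold GaloisRepAdic.IsUnipotentOnInertiaAt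
  simp only [charpoly_ofMatrix]

theorem detIsCyclotomic_ofMatrix_iff (p : ℕ) :
    (ofMatrix r hr).DetIsCyclotomic p ↔ (p : A) ∈ maximalIdeal A ∧
      ∀ (n : ℕ) (σ : Gal) (a : ℕ),
        (∀ μ : AlgebraicClosure ℚ, μ ^ p ^ n = 1 → σ μ = μ ^ a) →
          (r σ).det - (a : A) ∈ Ideal.span {((p ^ n : ℕ) : A)} := by
  unfold GaloisRepAdic.DetIsCyclotomic
  simp only [det_ofMatrix]

end MatrixRep

section Cyclotomic

/-- Every Galois automorphism acts on the `p^n`-th roots of unity by a power map. -/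
theorem exists_cyclotomic_exponent (m : ℕ) [NeZero m] (σ : Gal) :
    ∃ a : ℕ, ∀ μ : AlgebraicClosure ℚ, μ ^ m = 1 → σ μ = μ ^ a := by
  obtain ⟨e, he⟩ := rootsOfUnity.integer_power_of_ringEquiv (L := AlgebraicClosure ℚ) m
    (σ : AlgebraicClosure ℚ ≃+* AlgebraicClosure ℚ)
  refine ⟨(e % (m : ℤ)).toNat, fun μ hμ => ?_⟩
  have hm0 : (m : ℤ) ≠ 0 := by exact_mod_cast NeZero.ne m
  have hμ0 : μ ≠ 0 := by
    rintro rfl
    rw [zero_pow (NeZero.ne m)] at hμ
    exact zero_ne_one hμ
  let t : rootsOfUnity m (AlgebraicClosure ℚ) := ⟨Units.mk0 μ hμ0, by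
    rw [mem_rootsOfUnity]; ext; simpa using hμ⟩
  have h1 := he t
  have h2 : ((t : (AlgebraicClosure ℚ)ˣ) : AlgebraicClosure ℚ) = μ := rfl
  rw [h2] at h1
  have h3 : (σ : AlgebraicClosure ℚ ≃+* AlgebraicClosure ℚ) μ = σ μ := rfl
  rw [h3] at h1
  rw [h1]
  have hnn : 0 ≤ e % (m : ℤ) := Int.emod_nonneg e hm0
  have h4 : ((t : (AlgebraicClosure ℚ)ˣ) ^ e : (AlgebraicClosure ℚ)ˣ) =
      (t : (AlgebraicClosure ℚ)ˣ) ^ (e % (m : ℤ)).toNat := by
    have htm : (t : (AlgebraicClosure ℚ)ˣ) ^ (m : ℤ) = 1 := by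
      rw [zpow_natCast]; exact (mem_rootsOfUnity _ _).1 t.2
    conv_lhs => rw [← Int.emod_add_mul_ediv e (m : ℤ), zpow_add, zpow_mul, htm, one_zpow, mul_one]
    conv_lhs => rw [← Int.toNat_of_nonneg hnn, zpow_natCast]
  rw [h4]
  simp [h2]

end Cyclotomic

section DualNumbers

variable {k : Type} [Field k]

open TrivSqZeroExt Matrix

theorem det_ofParts (A B : M2 k) :
    (ofParts A B).det = (inl A.det + inr (Matrix.trace (B * A.adjugate)) : DualNumber k) := by
  rw [Matrix.det_fin_two, Matrix.det_fin_two, Matrix.adjugate_fin_two, Matrix.trace_fin_two]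
  apply TrivSqZeroExt.ext
  · simp [ofParts]
  · simp [ofParts, Matrix.mul_apply, Fin.sum_univ_two]
    ring

theorem trace_ofParts (A B : M2 k) :
    Matrix.trace (ofParts A B) = (inl (Matrix.trace A) + inr (Matrix.trace B) : DualNumber k) := by
  rw [Matrix.trace_fin_two, Matrix.trace_fin_two, Matrix.trace_fin_two]
  apply TrivSqZeroExt.ext
  · simp [ofParts]
  · simp [ofParts]

/-- A `2 × 2` matrix over a commutative ring has characteristic polynomial `(X - 1)^2` iff it has
trace `2` and determinant `1`. -/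
theorem charpoly_eq_X_sub_one_sq_iff {R : Type*} [CommRing R] [Nontrivial R]
    (M : Matrix (Fin 2) (Fin 2) R) :
    M.charpoly = (X - 1) ^ 2 ↔ M.trace = 2 ∧ M.det = 1 := by
  rw [Matrix.charpoly_fin_two]
  constructor
  · intro h
    have h1 := congrArg (fun f => Polynomial.coeff f 1) h
    have h0 := congrArg (fun f => Polynomial.coeff f 0) h
    have e : ((X : R[X]) - 1) ^ 2 = X ^ 2 - C 2 * X + C 1 := by
      simp only [map_ofNat, map_one]; ring
    rw [e] at h1 h0
    simp only [coeff_add, coeff_sub, coeff_X_pow, coeff_C_mul, coeff_X_one, coeff_X_zero,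
      coeff_C] at h1 h0
    norm_num at h1 h0
    exact ⟨h1, h0⟩
  · rintro ⟨h1, h2⟩
    rw [h1, h2]
    simp only [map_ofNat, map_one]; ring

theorem two_dualNumber_eq : (2 : DualNumber k) = inl 2 := by
  have : (2 : DualNumber k) = ((2 : ℕ) : DualNumber k) := by norm_num
  rw [this, ← TrivSqZeroExt.inl_natCast]
  norm_num

theorem charpoly_ofParts_eq_iff (A B : M2 k) :
    (ofParts A B).charpoly = (X - 1) ^ 2 ↔
      (A.trace = 2 ∧ A.det = 1) ∧ B.trace = 0 ∧ Matrix.trace (B * A.adjugate) = 0 := by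
  rw [charpoly_eq_X_sub_one_sq_iff, trace_ofParts, det_ofParts, two_dualNumber_eq]
  constructor
  · rintro ⟨h1, h2⟩
    have h1f := congrArg TrivSqZeroExt.fst h1
    have h1s := congrArg TrivSqZeroExt.snd h1
    have h2f := congrArg TrivSqZeroExt.fst h2
    have h2s := congrArg TrivSqZeroExt.snd h2
    simp at h1f h1s h2f h2s
    exact ⟨⟨h1f, h2f⟩, h1s, h2s⟩
  · rintro ⟨⟨h1, h2⟩, h3, h4⟩
    rw [h1, h2, h3, h4]
    constructor
    · apply TrivSqZeroExt.ext <;> simp
    · apply TrivSqZeroExt.ext <;> simp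

end DualNumbers

section Cocycle

variable {k : Type} [Field k] {rbar : Gal →* M2 k} {b : Gal → M2 k} (hb : IsTwCocycle rbar b)
  (hc : MatCont (defOfCocycle rbar b hb))

open TrivSqZeroExt Matrix

theorem defOfCocycle_eq_one_iff (σ : Gal) :
    defOfCocycle rbar b hb σ = 1 ↔ rbar σ = 1 ∧ b σ = 0 := by
  rw [defOfCocycle_apply]
  constructor
  · intro h
    have h1 := congrArg fstM h
    have h2 := congrArg sndM h
    rw [← ofParts_one_zero] at h1 h2
    simpa using And.intro h1 h2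
  · rintro ⟨h1, h2⟩
    rw [h1, h2, ofParts_one_zero]

/-- The deformation attached to `b` is unramified at `q` iff `rbar` is and `b` vanishes on all
inertia groups over `q`. -/
theorem isUnramifiedAt_defOfCocycle_iff (q : ℕ) :
    (ofMatrix (defOfCocycle rbar b hb) hc).IsUnramifiedAt q ↔
      ∀ P : ValuationSubring (AlgebraicClosure ℚ), P.LiesOverPrime q →
        ∀ σ ∈ P.inertiaSubgroupIn ℚ, rbar σ = 1 ∧ b σ = 0 := by
  rw [isUnramifiedAt_ofMatrix_iff]
  simp only [defOfCocycle_eq_one_iff]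

/-- The deformation attached to `b` is unipotent on inertia at `q` iff `rbar` is and `b` satisfies
the two trace conditions on all inertia groups over `q`. -/
theorem isUnipotentOnInertiaAt_defOfCocycle_iff (q : ℕ) :
    (ofMatrix (defOfCocycle rbar b hb) hc).IsUnipotentOnInertiaAt q ↔
      ∀ P : ValuationSubring (AlgebraicClosure ℚ), P.LiesOverPrime q →
        ∀ σ ∈ P.inertiaSubgroupIn ℚ, ((rbar σ).trace = 2 ∧ (rbar σ).det = 1) ∧
          (b σ).trace = 0 ∧ Matrix.trace (b σ * (rbar σ).adjugate) = 0 := by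
  rw [isUnipotentOnInertiaAt_ofMatrix_iff]
  simp only [defOfCocycle_apply, charpoly_ofParts_eq_iff]

/-- If the deformation attached to `b` has cyclotomic determinant then the cocycle
`σ ↦ b σ * (rbar σ)⁻¹` has trace zero. -/
theorem trace_mul_adjugate_eq_zero_of_detIsCyclotomic {p : ℕ} [Fact p.Prime] (hpk : (p : k) = 0)
    (h : (ofMatrix (defOfCocycle rbar b hb) hc).DetIsCyclotomic p) (σ : Gal) :
    Matrix.trace (b σ * (rbar σ).adjugate) = 0 := by
  rw [detIsCyclotomic_ofMatrix_iff] at h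
  have : NeZero (p ^ 1) := ⟨pow_ne_zero 1 (Fact.out : p.Prime).ne_zero⟩
  obtain ⟨a, ha⟩ := exists_cyclotomic_exponent (p ^ 1) σ
  have h1 := h.2 1 σ a ha
  have hp0 : ((p ^ 1 : ℕ) : DualNumber k) = 0 := by
    rw [pow_one, ← TrivSqZeroExt.inl_natCast, hpk, TrivSqZeroExt.inl_zero]
  rw [hp0, Ideal.span_singleton_eq_bot.mpr rfl, Ideal.mem_bot, sub_eq_zero, defOfCocycle_apply,
    det_ofParts] at h1
  have h2 := congrArg TrivSqZeroExt.snd h1
  simpa using h2

theorem trace_mul_inv_eq_zero_of_detIsCyclotomic {p : ℕ} [Fact p.Prime] (hpk : (p : k) = 0)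
    (h : (ofMatrix (defOfCocycle rbar b hb) hc).DetIsCyclotomic p) (σ : Gal) :
    Matrix.trace (b σ * (rbar σ)⁻¹) = 0 := by
  rw [Matrix.inv_def, Matrix.mul_smul, Matrix.trace_smul,
    trace_mul_adjugate_eq_zero_of_detIsCyclotomic hb hc hpk h σ, smul_zero]

end Cocycle

section FlatMatrix

variable {A : Type} [CommRing A] [IsLocalRing A] (r : Gal →* M2 A) (hr : MatCont r)

/-- For a finite coefficient ring, flatness of `ofMatrix r` says that `A²` itself is a flat Galois
module. -/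
theorem isFlatGaloisModule_of_isFlatAt_ofMatrix [Finite A] {p : ℕ}
    (h : (ofMatrix r hr).IsFlatAt p) :
    IsFlatGaloisModule p (Fin 2 → A) (fun σ v => (r σ).mulVec v) := by
  rw [isFlatAt_iff] at h
  have hfin : Finite (A ⧸ (⊥ : Ideal A)) := Finite.of_surjective _ Ideal.Quotient.mk_surjective
  have h2 := h.2 ⊥ hfin
  have hbot : (⊥ : Ideal A) • (⊤ : Submodule A (Fin 2 → A)) = ⊥ := Submodule.bot_smul _
  refine IsFlatGaloisModule.of_equiv
    (Submodule.quotEquivOfEqBot _ hbot).toAddEquiv ?_ h2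
  intro σ x
  obtain ⟨v, rfl⟩ := Submodule.Quotient.mk_surjective _ x
  rfl

end FlatMatrix

end Fermat.Agent.TW
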