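/-
TW (S56) — helper6 — (A4, part 3c) the strict-ordinary condition at `p` on a deformation
`rbar + ε b` to the dual numbers: after subtracting a twisted coboundary, the cocycle restricted to
the decomposition group takes values in `W⁰ = Hom(V̄/L̄, L̄)`.
-/
import Mathlib
import Fermat.Agent.TW.CondCocycle_helper6

set_option autoImplicit false
set_option linter.unusedSectionVars false
set_option linter.unusedSimpArgs false
set_option linter.style.haveILetI false

noncomputable section

namespace Fermat.Agent.TW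

open IsLocalRing GaloisRepAdic Fermat.Agent.S53 Polynomial Matrix TrivSqZeroExt

section Vectors

variable {k : Type} [Field k]

/-- The constant part of a vector over the dual numbers. -/
def fstV (v : Fin 2 → DualNumber k) : Fin 2 → k := fun i => (v i).fst

/-- The `ε`-part of a vector over the dual numbers. -/
def sndV (v : Fin 2 → DualNumber k) : Fin 2 → k := fun i => (v i).snd

/-- The vector `u` over `k`, viewed over the dual numbers. -/
def inlV (u : Fin 2 → k) : Fin 2 → DualNumber k := fun i => inl (u i)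

@[simp] theorem fstV_inlV (u : Fin 2 → k) : fstV (inlV u) = u := by ext i; simp [fstV, inlV]

@[simp] theorem sndV_inlV (u : Fin 2 → k) : sndV (inlV u) = 0 := by ext i; simp [sndV, inlV]

theorem fstV_sub (v w : Fin 2 → DualNumber k) : fstV (v - w) = fstV v - fstV w := by
  ext i; simp [fstV]

theorem sndV_sub (v w : Fin 2 → DualNumber k) : sndV (v - w) = sndV v - sndV w := by
  ext i; simp [sndV]

theorem fstV_smul (c : DualNumber k) (v : Fin 2 → DualNumber k) :
    fstV (c • v) = c.fst • fstV v := by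
  ext i; simp [fstV]

theorem sndV_smul (c : DualNumber k) (v : Fin 2 → DualNumber k) :
    sndV (c • v) = c.fst • sndV v + c.snd • fstV v := by
  ext i; simp [sndV, fstV, mul_comm]

theorem fstV_mulVec_ofParts (A B : M2 k) (v : Fin 2 → DualNumber k) :
    fstV ((ofParts A B).mulVec v) = A.mulVec (fstV v) := by
  ext i
  simp [fstV, Matrix.mulVec, dotProduct, Fin.sum_univ_two, ofParts]

theorem sndV_mulVec_ofParts (A B : M2 k) (v : Fin 2 → DualNumber k) :
    sndV ((ofParts A B).mulVec v) = A.mulVec (sndV v) + B.mulVec (fstV v) := by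
  ext i
  simp only [fstV, sndV, Matrix.mulVec, dotProduct, Fin.sum_univ_two, ofParts, Pi.add_apply,
    Matrix.of_apply, snd_add, snd_mul, fst_add, fst_inl, fst_inr, snd_inl, snd_inr, add_zero,
    zero_add, smul_eq_mul, MulOpposite.smul_eq_mul_unop, MulOpposite.unop_op]
  ring

end Vectors

section Triangular

variable {R : Type*} [CommRing R] {V : Type*} [AddCommGroup V] [Module R V]

/-- The determinant of an endomorphism which is triangular in a basis. -/
theorem det_eq_mul_of_triangular (bs : Module.Basis (Fin 2) R V) (f : V →ₗ[R] V) (x z : R)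
    (h0 : f (bs 0) = x • bs 0) (h1 : f (bs 1) - z • bs 1 ∈ Submodule.span R {bs 0}) :
    LinearMap.det f = x * z := by
  obtain ⟨μ, hμ⟩ := Submodule.mem_span_singleton.mp h1
  have h1' : f (bs 1) = μ • bs 0 + z • bs 1 := by rw [hμ]; abel
  rw [← LinearMap.det_toMatrix bs, Matrix.det_fin_two]
  simp only [LinearMap.toMatrix_apply, h0, h1', map_add, map_smul, Module.Basis.repr_self,
    Finsupp.smul_single, smul_eq_mul, mul_one, Finsupp.add_apply, Finsupp.single_apply]
  simp

end Triangular

section Ordinary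

variable {k : Type} [Field k]

/-- A matrix sending a given nonzero vector to a given vector. -/
theorem exists_matrix_mulVec_eq {e₀ : Fin 2 → k} (he₀ : e₀ ≠ 0) (e₁ : Fin 2 → k) :
    ∃ X : M2 k, ∀ u : Fin 2 → k, ∃ t : k, X.mulVec u = t • e₁ ∧ (u = e₀ → t = 1) := by
  obtain ⟨i, hi⟩ : ∃ i, e₀ i ≠ 0 := by
    by_contra h
    push Not at h
    exact he₀ (funext h)
  refine ⟨Matrix.vecMulVec e₁ (Pi.single i (e₀ i)⁻¹), fun u => ⟨(e₀ i)⁻¹ * u i, ?_, ?_⟩⟩
  · rw [Matrix.vecMulVec_mulVec]
    ext j
    simp [dotProduct, Pi.single_apply, mul_comm]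
  · rintro rfl
    exact inv_mul_cancel₀ hi

/-- Normal form of a strictly ordinary deformation to the dual numbers, in matrix language. -/
theorem ordinary_normal_form_aux {p : ℕ} [Fact p.Prime] (h2 : (2 : k) ≠ 0) (hpk : (p : k) = 0)
    {rbar : Gal →* M2 k} {b : Gal → M2 k} (hb : IsTwCocycle rbar b)
    (SD SI : Set Gal)
    (L : Submodule (DualNumber k) (Fin 2 → DualNumber k))
    (bs : Module.Basis (Fin 2) (DualNumber k) (Fin 2 → DualNumber k))
    (hL : L = Submodule.span (DualNumber k) {bs 0})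
    (hI : ∀ σ ∈ SI, ∀ v : Fin 2 → DualNumber k, (ofParts (rbar σ) (b σ)).mulVec v - v ∈ L)
    (hchar : ∀ σ ∈ SD, ∃ x z : DualNumber k,
      (∀ w ∈ L, (ofParts (rbar σ) (b σ)).mulVec w = x • w) ∧
      (∀ v : Fin 2 → DualNumber k, (ofParts (rbar σ) (b σ)).mulVec v - z • v ∈ L) ∧
      ∀ (n a : ℕ), (∀ μ : AlgebraicClosure ℚ, μ ^ p ^ n = 1 → σ μ = μ ^ a) →
        x - (a : DualNumber k) * z ∈ Ideal.span {((p ^ n : ℕ) : DualNumber k)})
    (hdet : ∀ (n : ℕ) (σ : Gal) (a : ℕ),
      (∀ μ : AlgebraicClosure ℚ, μ ^ p ^ n = 1 → σ μ = μ ^ a) →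
        (ofParts (rbar σ) (b σ)).det - (a : DualNumber k) ∈
          Ideal.span {((p ^ n : ℕ) : DualNumber k)}) :
    ∃ (e₀ : Fin 2 → k) (X : M2 k), e₀ ≠ 0 ∧
      (∀ σ ∈ SD, ∃ x₀ : k, (rbar σ).mulVec e₀ = x₀ • e₀) ∧
      (∀ σ ∈ SI, ∀ u : Fin 2 → k, ∃ t : k, (rbar σ).mulVec u - u = t • e₀) ∧
      ∀ σ ∈ SD,
        (b σ - (X * rbar σ - rbar σ * X)).mulVec e₀ = 0 ∧
        ∀ u : Fin 2 → k, ∃ t : k, (b σ - (X * rbar σ - rbar σ * X)).mulVec u = t • e₀ := by
  classical
  let e : Fin 2 → DualNumber k := bs 0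
  have hmemL : ∀ l : Fin 2 → DualNumber k, l ∈ L ↔ ∃ c : DualNumber k, l = c • e := by
    intro l
    rw [hL, Submodule.mem_span_singleton]
    constructor <;> rintro ⟨c, hc⟩ <;> exact ⟨c, hc.symm⟩
  have heL : e ∈ L := (hmemL e).2 ⟨1, (one_smul _ _).symm⟩
  -- the reduction of `e` is nonzero
  have he₀ : fstV e ≠ 0 := by
    intro h0
    have h1 : (inr 1 : DualNumber k) • e = 0 := by
      ext i
      · simp
      · have := congrFun h0 i
        simp only [fstV, Pi.zero_apply] at this
        simp [this]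
    have h3 : bs.repr ((inr 1 : DualNumber k) • bs 0) = 0 := by
      show bs.repr ((inr 1 : DualNumber k) • e) = 0
      rw [h1, map_zero]
    rw [map_smul, Module.Basis.repr_self, Finsupp.smul_single, smul_eq_mul, mul_one,
      Finsupp.single_eq_zero] at h3
    have := congrArg TrivSqZeroExt.snd h3
    simp at this
  obtain ⟨X, hX⟩ := exists_matrix_mulVec_eq he₀ (sndV e)
  have hXe : X.mulVec (fstV e) = sndV e := by
    obtain ⟨t, ht, ht1⟩ := hX (fstV e)
    rw [ht, ht1 rfl, one_smul]
  have hp0 : ((p ^ 1 : ℕ) : DualNumber k) = 0 := by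
    rw [pow_one, ← TrivSqZeroExt.inl_natCast, hpk, TrivSqZeroExt.inl_zero]
  have hbot : Ideal.span {((p ^ 1 : ℕ) : DualNumber k)} = ⊥ := by
    rw [hp0]; exact Ideal.span_singleton_eq_bot.mpr rfl
  have : NeZero (p ^ 1) := ⟨pow_ne_zero 1 (Fact.out : p.Prime).ne_zero⟩
  -- the quotient relation for constant vectors
  have hquot : ∀ σ (z : DualNumber k),
      (∀ v : Fin 2 → DualNumber k, (ofParts (rbar σ) (b σ)).mulVec v - z • v ∈ L) →
      ∀ u : Fin 2 → k, ∃ c : DualNumber k,
        (rbar σ).mulVec u - z.fst • u = c.fst • fstV e ∧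
        (b σ).mulVec u - z.snd • u = c.fst • sndV e + c.snd • fstV e := by
    intro σ z hz u
    obtain ⟨c, hc'⟩ := (hmemL _).1 (hz (inlV u))
    refine ⟨c, ?_, ?_⟩
    · have := congrArg fstV hc'
      rw [fstV_sub, fstV_mulVec_ofParts, fstV_smul, fstV_smul, fstV_inlV] at this
      exact this
    · have := congrArg sndV hc'
      rw [sndV_sub, sndV_mulVec_ofParts, sndV_smul, sndV_smul, fstV_inlV, sndV_inlV,
        Matrix.mulVec_zero, smul_zero, zero_add, zero_add] at this
      exact this
  refine ⟨fstV e, X, he₀, ?_, ?_, ?_⟩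
  · intro σ hσ
    obtain ⟨x, z, hx, -, -⟩ := hchar σ hσ
    refine ⟨x.fst, ?_⟩
    have := congrArg fstV (hx e heL)
    rw [fstV_mulVec_ofParts, fstV_smul] at this
    exact this
  · intro σ hσ u
    obtain ⟨c, hc'⟩ := (hmemL _).1 (hI σ hσ (inlV u))
    refine ⟨c.fst, ?_⟩
    have := congrArg fstV hc'
    rw [fstV_sub, fstV_mulVec_ofParts, fstV_smul, fstV_inlV] at this
    exact this
  · intro σ hσ
    obtain ⟨x, z, hx, hz, hcyc⟩ := hchar σ hσ
    -- the two relations on the line
    have hx0 : (rbar σ).mulVec (fstV e) = x.fst • fstV e := by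
      have := congrArg fstV (hx e heL)
      rw [fstV_mulVec_ofParts, fstV_smul] at this
      exact this
    have hx1 : (rbar σ).mulVec (sndV e) + (b σ).mulVec (fstV e) =
        x.fst • sndV e + x.snd • fstV e := by
      have := congrArg sndV (hx e heL)
      rw [sndV_mulVec_ofParts, sndV_smul] at this
      exact this
    -- determinant and the characters
    obtain ⟨a, ha⟩ := exists_cyclotomic_exponent (p ^ 1) σ
    have hd1 := hdet 1 σ a ha
    rw [hbot, Ideal.mem_bot, sub_eq_zero] at hd1
    have hd2 : (ofParts (rbar σ) (b σ)).det = x * z := by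
      rw [← LinearMap.det_toLin']
      refine det_eq_mul_of_triangular bs _ x z (hx e heL) ?_
      rw [← hL]
      exact hz (bs 1)
    have hxz := hcyc 1 a ha
    rw [hbot, Ideal.mem_bot, sub_eq_zero] at hxz
    have haz : (a : DualNumber k) * (z * z) = (a : DualNumber k) := by
      calc (a : DualNumber k) * (z * z) = ((a : DualNumber k) * z) * z := by ring
        _ = x * z := by rw [← hxz]
        _ = (a : DualNumber k) := by rw [← hd2, hd1]
    have hunit : IsUnit (a : DualNumber k) := by
      rw [← hd1]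
      have h1 : defOfCocycle rbar b hb σ * defOfCocycle rbar b hb σ⁻¹ = 1 := by
        rw [← map_mul, mul_inv_cancel, map_one]
      have h2' : (defOfCocycle rbar b hb σ).det * (defOfCocycle rbar b hb σ⁻¹).det = 1 := by
        rw [← Matrix.det_mul, h1, Matrix.det_one]
      exact IsUnit.of_mul_eq_one _ h2'
    have hzz : z * z = 1 := hunit.mul_left_cancel (haz.trans (mul_one _).symm)
    have hz0 : z.fst ≠ 0 := by
      intro h
      have := congrArg TrivSqZeroExt.fst hzz
      simp [h] at this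
    have hz1 : z.snd = 0 := by
      have := congrArg TrivSqZeroExt.snd hzz
      simp only [snd_mul, snd_one, smul_eq_mul, MulOpposite.smul_eq_mul_unop,
        MulOpposite.unop_op] at this
      have h3 : (2 : k) * z.fst * z.snd = 0 := by linear_combination this
      rcases mul_eq_zero.mp h3 with h4 | h4
      · exact absurd h4 (mul_ne_zero h2 hz0)
      · exact h4
    have hx1' : x.snd = 0 := by
      rw [hxz]
      simp [hz1]
    constructor
    · rw [Matrix.sub_mulVec, Matrix.sub_mulVec, ← Matrix.mulVec_mulVec, ← Matrix.mulVec_mulVec,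
        hx0, Matrix.mulVec_smul, hXe]
      have : (b σ).mulVec (fstV e) = x.fst • sndV e + x.snd • fstV e - (rbar σ).mulVec (sndV e) :=
        eq_sub_of_add_eq' hx1
      rw [this, hx1', zero_smul]
      abel
    · intro u
      obtain ⟨c, hc1, hc2⟩ := hquot σ z hz u
      obtain ⟨c', hc1', -⟩ := hquot σ z hz (X.mulVec u)
      refine ⟨c.snd + c'.fst, ?_⟩
      have e1 : (rbar σ).mulVec u = z.fst • u + c.fst • fstV e := by
        rw [← hc1]; abel
      have e2 : (b σ).mulVec u = c.fst • sndV e + c.snd • fstV e := by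
        rw [← hc2, hz1, zero_smul, sub_zero]
      have e3 : (rbar σ).mulVec (X.mulVec u) = z.fst • X.mulVec u + c'.fst • fstV e := by
        rw [← hc1']; abel
      rw [Matrix.sub_mulVec, Matrix.sub_mulVec, ← Matrix.mulVec_mulVec, ← Matrix.mulVec_mulVec,
        e1, e2, e3, Matrix.mulVec_add, Matrix.mulVec_smul, Matrix.mulVec_smul, hXe, add_smul]
      abel

/-- **(A4, strict-ordinary case)** Normal form of a strictly ordinary deformation to the dual
numbers: there are a line `k e₀` stable under `rbar (D_P)`, with trivial inertia action on the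
quotient, and a matrix `X` such that the modified cocycle `b' = b - ∂X` kills `e₀` and maps
everything into `k e₀`, on the whole decomposition group. -/
theorem exists_ordinary_normal_form {p : ℕ} [Fact p.Prime] (h2 : (2 : k) ≠ 0) (hpk : (p : k) = 0)
    {rbar : Gal →* M2 k} {b : Gal → M2 k} (hb : IsTwCocycle rbar b)
    (hc : MatCont (defOfCocycle rbar b hb))
    (hdet : (ofMatrix (defOfCocycle rbar b hb) hc).DetIsCyclotomic p)
    (hord : (ofMatrix (defOfCocycle rbar b hb) hc).IsStrictOrdinaryAt p)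
    {P : ValuationSubring (AlgebraicClosure ℚ)} (hP : P.LiesOverPrime p) :
    ∃ (e₀ : Fin 2 → k) (X : M2 k), e₀ ≠ 0 ∧
      (∀ σ ∈ P.decompositionSubgroup ℚ, ∃ x₀ : k, (rbar σ).mulVec e₀ = x₀ • e₀) ∧
      (∀ σ ∈ P.inertiaSubgroupIn ℚ, ∀ u : Fin 2 → k, ∃ t : k, (rbar σ).mulVec u - u = t • e₀) ∧
      ∀ σ ∈ P.decompositionSubgroup ℚ,
        (b σ - (X * rbar σ - rbar σ * X)).mulVec e₀ = 0 ∧
        ∀ u : Fin 2 → k, ∃ t : k, (b σ - (X * rbar σ - rbar σ * X)).mulVec u = t • e₀ := by
  obtain ⟨L, ⟨bs, hL⟩, -, hI, hchar⟩ := hord.2 P hP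
  exact ordinary_normal_form_aux h2 hpk hb (P.decompositionSubgroup ℚ : Set Gal)
    (P.inertiaSubgroupIn ℚ : Set Gal) L bs hL hI hchar
    ((detIsCyclotomic_ofMatrix_iff _ hc p).1 hdet).2

end Ordinary

end Fermat.Agent.TW
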