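/-
TW (S56) — helper6 — (A4, part 3b) the condition `IsUnipotentOnInertiaAt q` (`q ≠ p`) on a
deformation to the dual numbers of a residual representation which is ramified at `q`: the
cocycle is a twisted coboundary on the inertia group (so its class lies in `H¹_unr`).
-/
import Mathlib
import Fermat.Agent.TW.TameCyclic_helper6
import Fermat.Agent.TW.CondCocycle_helper6

set_option autoImplicit false
set_option linter.unusedSectionVars false
set_option linter.unusedSimpArgs false
set_option linter.style.haveILetI false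

noncomputable section

namespace Fermat.Agent.TW

open IsLocalRing GaloisRepAdic Fermat.Agent.S53 Polynomial Matrix

section LinearAlgebra

variable {k : Type} [Field k]

/-- A unipotent `2 × 2` matrix `A ≠ 1`: every `B` satisfying the two trace conditions is a
commutator `X A - A X`. -/
theorem exists_commutator_eq (A B : M2 k) (hA : A ≠ 1) (htr : A.trace = 2) (hdet : A.det = 1)
    (hB : B.trace = 0) (hBA : Matrix.trace (B * A.adjugate) = 0) :
    ∃ X : M2 k, X * A - A * X = B := by
  rw [Matrix.trace_fin_two] at htr hB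
  rw [Matrix.det_fin_two] at hdet
  rw [Matrix.trace_fin_two, Matrix.adjugate_fin_two] at hBA
  simp only [Matrix.mul_apply, Fin.sum_univ_two, Matrix.of_apply, Matrix.cons_val', Matrix.cons_val_zero,
    Matrix.cons_val_one, Matrix.empty_val', Matrix.cons_val_fin_one] at hBA
  by_cases hb : A 0 1 = 0
  · by_cases hc : A 1 0 = 0
    · exfalso
      apply hA
      rw [hb, hc] at hdet
      have h1 : (A 0 0 - 1) ^ 2 = 0 := by
        have : A 1 1 = 2 - A 0 0 := by linear_combination htr
        rw [this] at hdet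
        linear_combination -hdet
      have h2 : A 0 0 = 1 := by
        have := pow_eq_zero_iff (two_ne_zero) |>.mp h1
        linear_combination this
      have h3 : A 1 1 = 1 := by linear_combination htr - h2
      ext i j
      fin_cases i <;> fin_cases j <;> simp [h2, h3, hb, hc]
    · refine ⟨!![0, B 0 0 / A 1 0; 0, B 1 0 / A 1 0], ?_⟩
      ext i j
      fin_cases i <;> fin_cases j
      · simp only [Matrix.sub_apply, Matrix.mul_apply, Fin.sum_univ_two, Matrix.of_apply, Matrix.cons_val',
        Matrix.cons_val_zero, Matrix.cons_val_one, Matrix.empty_val', Matrix.cons_val_fin_one,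
        Fin.zero_eta, Fin.mk_one]
        field_simp
        ring
      · simp only [Matrix.sub_apply, Matrix.mul_apply, Fin.sum_univ_two, Matrix.of_apply, Matrix.cons_val',
        Matrix.cons_val_zero, Matrix.cons_val_one, Matrix.empty_val', Matrix.cons_val_fin_one,
        Fin.zero_eta, Fin.mk_one]
        field_simp
        linear_combination hBA - (A 0 0) * hB
      · simp only [Matrix.sub_apply, Matrix.mul_apply, Fin.sum_univ_two, Matrix.of_apply, Matrix.cons_val',
        Matrix.cons_val_zero, Matrix.cons_val_one, Matrix.empty_val', Matrix.cons_val_fin_one,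
        Fin.zero_eta, Fin.mk_one]
        field_simp
        ring
      · simp only [Matrix.sub_apply, Matrix.mul_apply, Fin.sum_univ_two, Matrix.of_apply, Matrix.cons_val',
        Matrix.cons_val_zero, Matrix.cons_val_one, Matrix.empty_val', Matrix.cons_val_fin_one,
        Fin.zero_eta, Fin.mk_one]
        field_simp
        linear_combination (-(A 1 0)) * hB
  · refine ⟨!![B 0 1 / A 0 1, 0; B 1 1 / A 0 1, 0], ?_⟩
    ext i j
    fin_cases i <;> fin_cases j
    · simp only [Matrix.sub_apply, Matrix.mul_apply, Fin.sum_univ_two, Matrix.of_apply, Matrix.cons_val',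
        Matrix.cons_val_zero, Matrix.cons_val_one, Matrix.empty_val', Matrix.cons_val_fin_one,
        Fin.zero_eta, Fin.mk_one]
      field_simp
      linear_combination (-(A 0 1)) * hB
    · simp only [Matrix.sub_apply, Matrix.mul_apply, Fin.sum_univ_two, Matrix.of_apply, Matrix.cons_val',
        Matrix.cons_val_zero, Matrix.cons_val_one, Matrix.empty_val', Matrix.cons_val_fin_one,
        Fin.zero_eta, Fin.mk_one]
      field_simp
      ring
    · simp only [Matrix.sub_apply, Matrix.mul_apply, Fin.sum_univ_two, Matrix.of_apply, Matrix.cons_val',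
        Matrix.cons_val_zero, Matrix.cons_val_one, Matrix.empty_val', Matrix.cons_val_fin_one,
        Fin.zero_eta, Fin.mk_one]
      field_simp
      linear_combination hBA - (A 1 1) * hB
    · simp only [Matrix.sub_apply, Matrix.mul_apply, Fin.sum_univ_two, Matrix.of_apply, Matrix.cons_val',
        Matrix.cons_val_zero, Matrix.cons_val_one, Matrix.empty_val', Matrix.cons_val_fin_one,
        Fin.zero_eta, Fin.mk_one]
      field_simp
      ring

end LinearAlgebra

section Unipotent

theorem one_add_pow_of_mul_self_eq_zero {R : Type*} [Ring R] (N : R) (hN : N * N = 0) (n : ℕ) :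
    (1 + N) ^ n = 1 + n • N := by
  induction n with
  | zero => simp
  | succ n ih =>
    rw [pow_succ, ih, succ_nsmul, mul_add, mul_one, add_mul, one_mul, smul_mul_assoc, hN,
      smul_zero, add_zero, add_assoc]

/-- A `2 × 2` matrix with characteristic polynomial `(X - 1)²` over a ring in which `p = 0` has
`p`-th power `1`. -/
theorem pow_eq_one_of_charpoly_eq {R : Type*} [CommRing R] {p : ℕ} (hp : (p : R) = 0)
    (M : Matrix (Fin 2) (Fin 2) R) (hM : M.charpoly = (X - 1) ^ 2) : M ^ p = 1 := by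
  have h1 : (M - 1) * (M - 1) = 0 := by
    have := Matrix.aeval_self_charpoly M
    rw [hM] at this
    simpa [pow_two] using this
  have h2 : M = 1 + (M - 1) := by abel
  rw [h2, one_add_pow_of_mul_self_eq_zero _ h1]
  have h3 : p • (M - 1) = 0 := by
    rw [← Nat.cast_smul_eq_nsmul R, hp, zero_smul]
  rw [h3, add_zero]

variable {k : Type} [Field k]

theorem IsTwCocycle.eq_on_pow {rbar : Gal →* M2 k} {b₁ b₂ : Gal → M2 k}
    (h₁ : IsTwCocycle rbar b₁) (h₂ : IsTwCocycle rbar b₂) {τ₀ : Gal} (h : b₁ τ₀ = b₂ τ₀) (n : ℕ) :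
    b₁ (τ₀ ^ n) = b₂ (τ₀ ^ n) := by
  induction n with
  | zero => rw [pow_zero, h₁.map_one, h₂.map_one]
  | succ n ih => rw [pow_succ, h₁ _ _, h₂ _ _, ih, h]

/-- **Unipotent inertia ⇒ unramified class.**  Let `b` be a smooth twisted cocycle such that the
deformation `rbar + ε b` has characteristic polynomial `(X - 1)²` on the inertia group `I_P`
(`P` over `q ≠ p`), and assume `rbar` is ramified at `P`.  Then `b` is a twisted coboundary on
`I_P`. -/
theorem exists_coboundary_on_inertia {p : ℕ} (hpk : (p : k) = 0) {rbar : Gal →* M2 k}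
    (hrbar : GaloisFactorsThroughFiniteLevel rbar) {b : Gal → M2 k} (hb : IsTwCocycle rbar b)
    (hsm : IsSmoothFun b) {q : ℕ} (hq : q.Prime) (hpq : p.Coprime q)
    {P : ValuationSubring (AlgebraicClosure ℚ)} (hP : P.LiesOverPrime q)
    (hunip : ∀ σ ∈ P.inertiaSubgroupIn ℚ, ((rbar σ).trace = 2 ∧ (rbar σ).det = 1) ∧
      (b σ).trace = 0 ∧ Matrix.trace (b σ * (rbar σ).adjugate) = 0)
    (hram : ∃ σ ∈ P.inertiaSubgroupIn ℚ, rbar σ ≠ 1) :
    ∃ X : M2 k, ∀ σ ∈ P.inertiaSubgroupIn ℚ, b σ = X * rbar σ - rbar σ * X := by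
  classical
  set r := defOfCocycle rbar b hb with hr
  obtain ⟨L, hL, hfac⟩ := factors_defOfCocycle hrbar hb hsm
  -- a finite normal level
  let F : IntermediateField ℚ (AlgebraicClosure ℚ) :=
    IntermediateField.normalClosure ℚ L (AlgebraicClosure ℚ)
  haveI : FiniteDimensional ℚ F := normalClosure.is_finiteDimensional ℚ L (AlgebraicClosure ℚ)
  haveI : Normal ℚ F := normalClosure.normal ℚ L (AlgebraicClosure ℚ)
  have hLF : L ≤ F := IntermediateField.le_normalClosure L
  have hF : ∀ σ : Gal, (∀ x ∈ F, σ x = x) → r σ = 1 := fun σ hσ =>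
    hfac σ fun x hx => hσ x (hLF hx)
  have hp0 : ((p : ℕ) : DualNumber k) = 0 := by
    rw [← TrivSqZeroExt.inl_natCast, hpk, TrivSqZeroExt.inl_zero]
  have hcop : ∀ σ ∈ P.inertiaSubgroupIn ℚ, ∃ m : ℕ, m.Coprime q ∧ r σ ^ m = 1 := by
    intro σ hσ
    refine ⟨p, hpq, pow_eq_one_of_charpoly_eq hp0 _ ?_⟩
    rw [hr, defOfCocycle_apply, charpoly_ofParts_eq_iff]
    exact hunip σ hσ
  obtain ⟨τ₀, hτ₀, hgen⟩ := exists_generator_of_inertia hq hP r F hF hcop
  -- consequences for `rbar` and `b`
  have hgen' : ∀ τ ∈ P.inertiaSubgroupIn ℚ, ∃ n : ℕ, rbar τ = rbar (τ₀ ^ n) ∧ b τ = b (τ₀ ^ n) := by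
    intro τ hτ
    obtain ⟨n, hn⟩ := hgen τ hτ
    refine ⟨n, ?_, ?_⟩
    · have := congrArg fstM hn
      rw [← map_pow] at this
      simpa [hr] using this
    · have := congrArg sndM hn
      rw [← map_pow] at this
      simpa [hr] using this
  have hne : rbar τ₀ ≠ 1 := by
    intro h1
    obtain ⟨σ, hσ, hσ1⟩ := hram
    obtain ⟨n, hn, -⟩ := hgen' σ hσ
    apply hσ1
    rw [hn, map_pow, h1, one_pow]
  obtain ⟨⟨h1, h2⟩, h3, h4⟩ := hunip τ₀ hτ₀
  obtain ⟨X, hX⟩ := exists_commutator_eq (rbar τ₀) (b τ₀) hne h1 h2 h3 h4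
  refine ⟨X, fun σ hσ => ?_⟩
  obtain ⟨n, hn1, hn2⟩ := hgen' σ hσ
  have hcob := IsTwCocycle.eq_on_pow hb (isTwCocycle_twCoboundary rbar X)
    (τ₀ := τ₀) (by rw [twCoboundary, hX]) n
  rw [hn2, hcob, twCoboundary, hn1]

end Unipotent

section Ramified

variable {k : Type} [Field k]

/-- If `rbar` is ramified at some valuation subring over `q` then it is ramified at all of them
(conjugacy). -/
theorem exists_mem_inertia_ne_one {M : Type*} [Monoid M] (rbar : Gal →* M) {q : ℕ} (hq : q.Prime)
    (hnot : ¬ ∀ P : ValuationSubring (AlgebraicClosure ℚ), P.LiesOverPrime q →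
      ∀ σ ∈ P.inertiaSubgroupIn ℚ, rbar σ = 1)
    {P : ValuationSubring (AlgebraicClosure ℚ)} (hP : P.LiesOverPrime q) :
    ∃ σ ∈ P.inertiaSubgroupIn ℚ, rbar σ ≠ 1 := by
  push Not at hnot
  obtain ⟨P', hP', σ, hσ, hσ1⟩ := hnot
  obtain ⟨τ, hτ⟩ := Fermat.Agent.EC.exists_conj_inertia hq P P' hP hP'
  refine ⟨τ⁻¹ * σ * τ, hτ σ hσ, fun h => hσ1 ?_⟩
  have h1 : rbar σ = rbar (τ * (τ⁻¹ * σ * τ) * τ⁻¹) := by congr 1; group
  rw [h1, map_mul, map_mul, h, mul_one, ← map_mul, mul_inv_cancel, map_one]

theorem resMatrixOf_eq_one_iff (ρbar : ResidualGaloisRep k)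
    (β : Module.Basis (Fin 2) k ρbar.V) (σ : Gal) :
    resMatrixOf ρbar β σ = 1 ↔ ρbar.ρ σ = 1 := by
  rw [resMatrixOf_eq_toMatrix]
  constructor
  · intro h
    apply (LinearMap.toMatrix β β).injective
    rw [h]
    exact (LinearMap.toMatrix_one β).symm
  · intro h
    rw [h]
    exact LinearMap.toMatrix_one β

theorem isUnramifiedAt_iff_resMatrixOf (ρbar : ResidualGaloisRep k)
    (β : Module.Basis (Fin 2) k ρbar.V) (q : ℕ) :
    ρbar.IsUnramifiedAt q ↔ ∀ P : ValuationSubring (AlgebraicClosure ℚ), P.LiesOverPrime q →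
      ∀ σ ∈ P.inertiaSubgroupIn ℚ, resMatrixOf ρbar β σ = 1 := by
  unfold ResidualGaloisRep.IsUnramifiedAt
  simp only [resMatrixOf_eq_one_iff]

/-- **(A4, unipotent case)** For a deformation `rbar + ε b` of a residual representation which is
ramified at `q ≠ p`: if it is unipotent on inertia at `q` then, for every valuation subring `P`
over `q`, the cocycle `b` is a twisted coboundary on `I_P`. -/
theorem exists_coboundary_on_inertia_of_isUnipotentOnInertiaAt {p : ℕ} (hpk : (p : k) = 0)
    (ρbar : ResidualGaloisRep k) (β : Module.Basis (Fin 2) k ρbar.V) {b : Gal → M2 k}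
    (hb : IsTwCocycle (resMatrixOf ρbar β) b) (hsm : IsSmoothFun b) {q : ℕ} (hq : q.Prime)
    (hpq : p.Coprime q) (hram : ¬ ρbar.IsUnramifiedAt q)
    (h : (ofMatrix (defOfCocycle (resMatrixOf ρbar β) b hb)
      (matCont_defOfCocycle (resMatrixOf_factors ρbar β) hb hsm)).IsUnipotentOnInertiaAt q)
    {P : ValuationSubring (AlgebraicClosure ℚ)} (hP : P.LiesOverPrime q) :
    ∃ X : M2 k, ∀ σ ∈ P.inertiaSubgroupIn ℚ,
      b σ = X * resMatrixOf ρbar β σ - resMatrixOf ρbar β σ * X := by
  rw [isUnipotentOnInertiaAt_defOfCocycle_iff] at h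
  rw [isUnramifiedAt_iff_resMatrixOf ρbar β] at hram
  exact exists_coboundary_on_inertia hpk (resMatrixOf_factors ρbar β) hb hsm hq hpq hP (h P hP)
    (exists_mem_inertia_ne_one _ hq hram hP)

end Ramified

end Fermat.Agent.TW
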