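/-
TW (S56) — helper6 — leaf (I), local side.  Local conditions as subgroups of Mathlib's `H¹` of the
abstract local Galois group `G_v = primeLocalGaloisGroup v`:
* `vanishCond Y I` — classes having a representative cocycle vanishing on the subgroup `I`
  (`unrCond v Y` for `I = locInertia v`: the unramified classes);
* `valuedCond Y Y₀` — classes having a representative with values in the subgroup `Y₀ ≤ Y`
  (the image of `H¹(Y₀) → H¹(Y)`).
Membership of the restrictions of the `ad⁰`-class of a deformation `rbar + ε b`: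
* unipotent on inertia at `q` (`rbar` ramified at `q ≠ p`) ⇒ `res_q ∈ unrCond`;
* strictly ordinary at `p` ⇒ `res_p ∈ valuedCond (W⁰)`, `W⁰ = Hom(V / L̄, L̄)`.
-/
import Mathlib
import Fermat.Agent.TW.AdCocycle_helper6
import Fermat.Agent.TW.CondUnip_helper6
import Fermat.Agent.TW.CondOrd_helper6
import Fermat.Agent.TW.CycloRam_helper6

set_option autoImplicit false
set_option linter.unusedSectionVars false
set_option linter.style.haveILetI false

noncomputable section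

namespace Fermat.Agent.TW

open Fermat.Agent.S53 Fermat.Agent.CFT.Sm Fermat.Agent.CFT.Bridge Fermat.Agent.CFT.Arith
  groupCohomology Matrix CategoryTheory ExtCitation

section Abstract

variable {G : Type} [Group G]

/-- classes having a representative cocycle vanishing on the subgroup `I` -/
def vanishCond (Y : Rep.{0} ℤ G) (I : Subgroup G) : AddSubgroup (H1 Y) where
  carrier := {x | ∃ c : cocycles₁ Y, (∀ g ∈ I, (c : G → Y.V) g = 0) ∧ (H1π Y).hom c = x}
  zero_mem' := ⟨0, fun _ _ => rfl, map_zero _⟩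
  add_mem' := by
    rintro _ _ ⟨c, hc, rfl⟩ ⟨c', hc', rfl⟩
    refine ⟨c + c', fun g hg => ?_, map_add _ _ _⟩
    show (c : G → Y.V) g + (c' : G → Y.V) g = 0
    rw [hc g hg, hc' g hg, add_zero]
  neg_mem' := by
    rintro _ ⟨c, hc, rfl⟩
    refine ⟨-c, fun g hg => ?_, map_neg _ _⟩
    show -(c : G → Y.V) g = 0
    rw [hc g hg, neg_zero]

theorem mem_vanishCond (Y : Rep.{0} ℤ G) (I : Subgroup G) (x : H1 Y) :
    x ∈ vanishCond Y I ↔
      ∃ c : cocycles₁ Y, (∀ g ∈ I, (c : G → Y.V) g = 0) ∧ (H1π Y).hom c = x := Iff.rfl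

/-- classes having a representative cocycle with values in the subgroup `Y₀` -/
def valuedCond (Y : Rep.{0} ℤ G) (Y₀ : AddSubgroup Y.V) : AddSubgroup (H1 Y) where
  carrier := {x | ∃ c : cocycles₁ Y, (∀ g, (c : G → Y.V) g ∈ Y₀) ∧ (H1π Y).hom c = x}
  zero_mem' := ⟨0, fun _ => Y₀.zero_mem, map_zero _⟩
  add_mem' := by
    rintro _ _ ⟨c, hc, rfl⟩ ⟨c', hc', rfl⟩
    exact ⟨c + c', fun g => Y₀.add_mem (hc g) (hc' g), map_add _ _ _⟩
  neg_mem' := by
    rintro _ ⟨c, hc, rfl⟩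
    exact ⟨-c, fun g => Y₀.neg_mem (hc g), map_neg _ _⟩

theorem mem_valuedCond (Y : Rep.{0} ℤ G) (Y₀ : AddSubgroup Y.V) (x : H1 Y) :
    x ∈ valuedCond Y Y₀ ↔
      ∃ c : cocycles₁ Y, (∀ g, (c : G → Y.V) g ∈ Y₀) ∧ (H1π Y).hom c = x := Iff.rfl

variable {G' : Type} [Group G'] (ψ : G' →* G) (X : Rep.{0} ℤ G)

/-- the restriction of a cocycle along `ψ`, corrected by the coboundary of `w` -/
def resCocycleSub (c : cocycles₁ X) (w : X.V) : cocycles₁ (Rep.res ψ X) :=
  mapCocycles₁ ψ (𝟙 (Rep.res ψ X)) c +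
    ⟨(d₀₁ (Rep.res ψ X)).hom w, d₀₁_apply_mem_cocycles₁ (A := Rep.res ψ X) w⟩

theorem resCocycleSub_apply (c : cocycles₁ X) (w : X.V) (g : G') :
    (resCocycleSub ψ X c w : G' → X.V) g = (c : G → X.V) (ψ g) + (X.ρ (ψ g) w - w) := rfl

theorem H1π_resCocycleSub (c : cocycles₁ X) (w : X.V) :
    (H1π (Rep.res ψ X)).hom (resCocycleSub ψ X c w) =
      (groupCohomology.map ψ (𝟙 (Rep.res ψ X)) 1).hom ((H1π X).hom c) := by
  have h1 : (H1π (Rep.res ψ X)).hom
      (⟨(d₀₁ (Rep.res ψ X)).hom w, d₀₁_apply_mem_cocycles₁ (A := Rep.res ψ X) w⟩ :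
        cocycles₁ (Rep.res ψ X)) = 0 :=
    (H1π_eq_zero_iff _).2 ⟨w, rfl⟩
  unfold resCocycleSub
  rw [map_add, h1, add_zero]
  exact (H1π_comp_map_apply ψ (𝟙 (Rep.res ψ X)) c).symm

/-- if the restriction of `c` along `ψ` is, on `I`, the coboundary of `-w`, then the restricted
class has a representative vanishing on `I` -/
theorem map_H1π_mem_vanishCond (I : Subgroup G') (c : cocycles₁ X) (w : X.V)
    (hw : ∀ g ∈ I, (c : G → X.V) (ψ g) + (X.ρ (ψ g) w - w) = 0) :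
    (groupCohomology.map ψ (𝟙 (Rep.res ψ X)) 1).hom ((H1π X).hom c) ∈
      vanishCond (Rep.res ψ X) I :=
  ⟨resCocycleSub ψ X c w, fun g hg => hw g hg, H1π_resCocycleSub ψ X c w⟩

/-- if the restriction of `c` along `ψ`, corrected by the coboundary of `w`, takes values in `Y₀`,
then the restricted class lies in `valuedCond Y₀` -/
theorem map_H1π_mem_valuedCond (Y₀ : AddSubgroup X.V) (c : cocycles₁ X) (w : X.V)
    (hw : ∀ g, (c : G → X.V) (ψ g) + (X.ρ (ψ g) w - w) ∈ Y₀) :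
    (groupCohomology.map ψ (𝟙 (Rep.res ψ X)) 1).hom ((H1π X).hom c) ∈
      valuedCond (Rep.res ψ X) Y₀ :=
  ⟨resCocycleSub ψ X c w, fun g => hw g, H1π_resCocycleSub ψ X c w⟩

end Abstract

section Place

/-- `Ω = AlgebraicClosure ℚ`. -/
local notation "Ω" => AlgebraicClosure ℚ

/-- the inertia subgroup of the local Galois group `G_v` -/
def locInertia (v : Nat.Primes) : Subgroup (primeLocalGaloisGroup v) :=
  ((primeLocalPlace v).inertiaSubgroupIn ℚ).comap (primeLocalToGlobal v)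

theorem mem_locInertia (v : Nat.Primes) (τ : primeLocalGaloisGroup v) :
    τ ∈ locInertia v ↔ primeLocalToGlobal v τ ∈ (primeLocalPlace v).inertiaSubgroupIn ℚ := Iff.rfl

theorem primeLocalToGlobal_mem_decompositionSubgroup (v : Nat.Primes)
    (τ : primeLocalGaloisGroup v) :
    primeLocalToGlobal v τ ∈ (primeLocalPlace v).decompositionSubgroup ℚ :=
  letI : Fact ((v : ℕ)).Prime := ⟨v.2⟩
  localGaloisToGlobal_mem_decompositionSubgroup (v : ℕ) τ

theorem primeLocalPlace_liesOverPrime (v : Nat.Primes) :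
    (primeLocalPlace v).LiesOverPrime (v : ℕ) := by
  letI : Fact ((v : ℕ)).Prime := ⟨v.2⟩
  have hv0 : ((v : ℕ) : Ω) ≠ 0 := Nat.cast_ne_zero.2 v.2.ne_zero
  show ((v : ℕ) : Ω) ∈ (padicPlace (v : ℕ)).nonunits
  rw [ValuationSubring.mem_nonunits_iff]
  apply lt_of_not_ge
  intro h1
  have h2 : (padicPlace (v : ℕ)).valuation (((v : ℕ) : Ω)⁻¹) ≤ 1 := by
    rw [map_inv₀]
    exact inv_le_one_of_one_le₀ h1
  rw [ValuationSubring.valuation_le_one_iff, mem_padicPlace_iff, map_inv₀, map_natCast,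
    nnnorm_inv] at h2
  have h3 : ‖((v : ℕ) : PadicAlgCl (v : ℕ))‖₊ = 1 / ((v : ℕ) : NNReal) := by
    rw [← PadicAlgCl.valuation_def]
    exact PadicAlgCl.valuation_p (v : ℕ)
  rw [h3, one_div, inv_inv] at h2
  have h4 : (1 : NNReal) < ((v : ℕ) : NNReal) := by exact_mod_cast v.2.one_lt
  exact absurd h2 (not_le.2 h4)

/-- the unramified classes in `H¹(G_v, Y)` -/
def unrCond (v : Nat.Primes) (Y : Rep.{0} ℤ (primeLocalGaloisGroup v)) : AddSubgroup (H1 Y) :=
  vanishCond Y (locInertia v)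

end Place

section Membership

variable {k : Type} [Field k]

/-- the trace-zero part of a matrix (`2` invertible) -/
def trZeroPart (h2 : (2 : k) ≠ 0) (X : M2 k) : sl2 k :=
  ⟨X - ((2 : k)⁻¹ * Matrix.trace X) • (1 : M2 k), by
    rw [mem_sl2_iff, Matrix.trace_sub, Matrix.trace_smul, Matrix.trace_one, Fintype.card_fin,
      smul_eq_mul]
    push_cast
    field_simp
    ring⟩

theorem trZeroPart_coe (h2 : (2 : k) ≠ 0) (X : M2 k) :
    ((trZeroPart h2 X : sl2 k) : M2 k) = X - ((2 : k)⁻¹ * Matrix.trace X) • (1 : M2 k) := rfl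

theorem conj_trZeroPart_sub (h2 : (2 : k) ≠ 0) (rbar : Gal →* M2 k) (σ : Gal) (X : M2 k) :
    rbar σ * ((trZeroPart h2 X : sl2 k) : M2 k) * rbar σ⁻¹ - ((trZeroPart h2 X : sl2 k) : M2 k) =
      rbar σ * X * rbar σ⁻¹ - X := by
  rw [trZeroPart_coe, mul_sub, sub_mul, Matrix.mul_smul, Matrix.smul_mul, mul_one,
    map_mul_map_inv]
  abel

/-- **(I), unipotent case.** For a deformation `rbar + ε b` of a residual representation ramified
at `q ≠ p` which is unipotent on inertia at `q`, the restriction to `G_q` of its `ad⁰`-class is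
unramified. -/
theorem res_adCocycle_mem_unrCond {p : ℕ} (hpk : (p : k) = 0) (h2 : (2 : k) ≠ 0)
    (ρbar : ResidualGaloisRep k) (β : Module.Basis (Fin 2) k ρbar.V) {b : Gal → M2 k}
    (hb : IsTwCocycle (resMatrixOf ρbar β) b) (hsm : IsSmoothFun b) (q : Nat.Primes)
    (hpq : p.Coprime (q : ℕ)) (hram : ¬ ρbar.IsUnramifiedAt (q : ℕ))
    (h : (ofMatrix (defOfCocycle (resMatrixOf ρbar β) b hb)
      (matCont_defOfCocycle (resMatrixOf_factors ρbar β) hb hsm)).IsUnipotentOnInertiaAt (q : ℕ))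
    (htr : ∀ σ, Matrix.trace (b σ * resMatrixOf ρbar β σ⁻¹) = 0) :
    (groupCohomology.map (primeLocalToGlobal q)
        (𝟙 (Rep.res (primeLocalToGlobal q) (adRep (resMatrixOf ρbar β)))) 1).hom
      ((H1π (adRep (resMatrixOf ρbar β))).hom (adCocycle hb htr)) ∈
      unrCond q (Rep.res (primeLocalToGlobal q) (adRep (resMatrixOf ρbar β))) := by
  obtain ⟨X, hX⟩ := exists_coboundary_on_inertia_of_isUnipotentOnInertiaAt hpk ρbar β hb hsm q.2
    hpq hram h (primeLocalPlace_liesOverPrime q)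
  refine map_H1π_mem_vanishCond (primeLocalToGlobal q) (adRep (resMatrixOf ρbar β))
    (locInertia q) (adCocycle hb htr) (trZeroPart h2 X) fun τ hτ => ?_
  apply Subtype.ext
  have hX' := hX _ ((mem_locInertia q τ).1 hτ)
  set σ := primeLocalToGlobal q τ
  show b σ * resMatrixOf ρbar β σ⁻¹ +
    (resMatrixOf ρbar β σ * ((trZeroPart h2 X : sl2 k) : M2 k) * resMatrixOf ρbar β σ⁻¹ -
      ((trZeroPart h2 X : sl2 k) : M2 k)) = 0
  rw [conj_trZeroPart_sub, hX', sub_mul, mul_assoc X, map_mul_map_inv, mul_one]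
  abel

/-- `W⁰ = Hom(V / L̄, L̄) ⊆ ad⁰`, for the line `L̄ = k e₀` -/
def W0 (e₀ : Fin 2 → k) : AddSubgroup (sl2 k) where
  carrier := {w | (w : M2 k).mulVec e₀ = 0 ∧ ∀ u : Fin 2 → k, ∃ t : k, (w : M2 k).mulVec u = t • e₀}
  zero_mem' := ⟨Matrix.zero_mulVec _, fun u => ⟨0, by rw [zero_smul]; exact Matrix.zero_mulVec _⟩⟩
  add_mem' := by
    rintro w w' ⟨h1, h2⟩ ⟨h1', h2'⟩
    refine ⟨?_, fun u => ?_⟩
    · show ((w : M2 k) + (w' : M2 k)).mulVec e₀ = 0
      rw [Matrix.add_mulVec, h1, h1', add_zero]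
    · obtain ⟨t, ht⟩ := h2 u
      obtain ⟨t', ht'⟩ := h2' u
      refine ⟨t + t', ?_⟩
      show ((w : M2 k) + (w' : M2 k)).mulVec u = (t + t') • e₀
      rw [Matrix.add_mulVec, ht, ht', add_smul]
  neg_mem' := by
    rintro w ⟨h1, h2⟩
    refine ⟨?_, fun u => ?_⟩
    · show (-(w : M2 k)).mulVec e₀ = 0
      rw [Matrix.neg_mulVec, h1, neg_zero]
    · obtain ⟨t, ht⟩ := h2 u
      refine ⟨-t, ?_⟩
      show (-(w : M2 k)).mulVec u = (-t) • e₀
      rw [Matrix.neg_mulVec, ht, neg_smul]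

theorem mem_W0 (e₀ : Fin 2 → k) (w : sl2 k) :
    w ∈ W0 e₀ ↔ (w : M2 k).mulVec e₀ = 0 ∧
      ∀ u : Fin 2 → k, ∃ t : k, (w : M2 k).mulVec u = t • e₀ := Iff.rfl

theorem W0_smul (e₀ : Fin 2 → k) {c : k} (hc : c ≠ 0) : W0 (c • e₀) = W0 e₀ := by
  ext w
  rw [mem_W0, mem_W0]
  constructor
  · rintro ⟨h1, h2⟩
    refine ⟨?_, fun u => ?_⟩
    · rw [Matrix.mulVec_smul] at h1
      exact (smul_eq_zero.1 h1).resolve_left hc
    · obtain ⟨t, ht⟩ := h2 u
      exact ⟨t * c, by rw [ht, smul_smul]⟩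
  · rintro ⟨h1, h2⟩
    refine ⟨?_, fun u => ?_⟩
    · rw [Matrix.mulVec_smul, h1, smul_zero]
    · obtain ⟨t, ht⟩ := h2 u
      exact ⟨t * c⁻¹, by rw [ht, smul_smul, mul_assoc, inv_mul_cancel₀ hc, mul_one]⟩

/-- the residual determinant of a deformation with cyclotomic determinant -/
theorem det_eq_of_detIsCyclotomic_defOfCocycle {p : ℕ} [Fact p.Prime] (hpk : (p : k) = 0)
    {rbar : Gal →* M2 k} {b : Gal → M2 k} (hb : IsTwCocycle rbar b)
    (hc : MatCont (defOfCocycle rbar b hb))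
    (hdet : (ofMatrix (defOfCocycle rbar b hb) hc).DetIsCyclotomic p) (σ : Gal) (a : ℕ)
    (ha : ∀ μ : AlgebraicClosure ℚ, μ ^ p = 1 → σ μ = μ ^ a) : (rbar σ).det = a := by
  have h1 := ((detIsCyclotomic_ofMatrix_iff _ hc p).1 hdet).2 1 σ a (by simpa using ha)
  have h0 : (((p ^ 1 : ℕ) : ℕ) : DualNumber k) = 0 := by
    rw [pow_one]
    have : ((p : ℕ) : DualNumber k) = TrivSqZeroExt.inl ((p : ℕ) : k) := by
      simp
    rw [this, hpk, TrivSqZeroExt.inl_zero]
  rw [h0, Ideal.span_singleton_zero, Ideal.mem_bot, sub_eq_zero, defOfCocycle_apply,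
    det_ofParts] at h1
  have h2 := congrArg TrivSqZeroExt.fst h1
  simpa using h2

/-- **(I), strictly ordinary case.** For a strictly ordinary deformation `rbar + ε b` with
cyclotomic determinant, the restriction to `G_p` of its `ad⁰`-class comes from
`W⁰ = Hom(V / L̄, L̄)`, `L̄ = k e₀` the ordinary line of `rbar`. -/
theorem res_adCocycle_mem_valuedCond_W0 {p : ℕ} [hp : Fact p.Prime] (hp2 : p ≠ 2)
    (hpk : (p : k) = 0)
    (ρbar : ResidualGaloisRep k) (β : Module.Basis (Fin 2) k ρbar.V) {b : Gal → M2 k}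
    (hb : IsTwCocycle (resMatrixOf ρbar β) b) (hsm : IsSmoothFun b)
    (hdet : (ofMatrix (defOfCocycle (resMatrixOf ρbar β) b hb)
      (matCont_defOfCocycle (resMatrixOf_factors ρbar β) hb hsm)).DetIsCyclotomic p)
    (hord : (ofMatrix (defOfCocycle (resMatrixOf ρbar β) b hb)
      (matCont_defOfCocycle (resMatrixOf_factors ρbar β) hb hsm)).IsStrictOrdinaryAt p)
    (htr : ∀ σ, Matrix.trace (b σ * resMatrixOf ρbar β σ⁻¹) = 0) (e₀ : Fin 2 → k)
    (he₀ : ∀ σ ∈ (primeLocalPlace (pPrime p)).inertiaSubgroupIn ℚ, ∀ u : Fin 2 → k,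
      ∃ t : k, (resMatrixOf ρbar β σ).mulVec u - u = t • e₀) :
    (groupCohomology.map (primeLocalToGlobal (pPrime p))
        (𝟙 (Rep.res (primeLocalToGlobal (pPrime p)) (adRep (resMatrixOf ρbar β)))) 1).hom
      ((H1π (adRep (resMatrixOf ρbar β))).hom (adCocycle hb htr)) ∈
      valuedCond (Rep.res (primeLocalToGlobal (pPrime p)) (adRep (resMatrixOf ρbar β)))
        (W0 e₀) := by
  set rbar := resMatrixOf ρbar β with hrbar
  haveI : CharP k p := (CharP.charP_iff_prime_eq_zero hp.out).mpr hpk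
  have h2 : (2 : k) ≠ 0 := by
    intro h
    have h3 : ((2 : ℕ) : k) = 0 := by exact_mod_cast h
    have h4 := (CharP.cast_eq_zero_iff k p 2).1 h3
    exact hp2 ((Nat.prime_dvd_prime_iff_eq hp.out Nat.prime_two).1 h4)
  have hP := primeLocalPlace_liesOverPrime (pPrime p)
  obtain ⟨e₀', X, -, hD, hI, hN⟩ := exists_ordinary_normal_form h2 hpk hb
    (matCont_defOfCocycle (resMatrixOf_factors ρbar β) hb hsm) hdet hord hP
  obtain ⟨σ₀, hσ₀, hσ₀det⟩ := exists_mem_inertia_det_ne_one hp.out hp2 hpk rbar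
    (det_eq_of_detIsCyclotomic_defOfCocycle hpk hb _ hdet) hP
  have hne : ∃ σ ∈ ((primeLocalPlace (pPrime p)).inertiaSubgroupIn ℚ : Set Gal), rbar σ ≠ 1 :=
    ⟨σ₀, hσ₀, fun h => hσ₀det (by rw [h, Matrix.det_one])⟩
  obtain ⟨c, hc0, hc⟩ := exists_smul_eq_of_inertia_quotient_trivial
    (SI := ((primeLocalPlace (pPrime p)).inertiaSubgroupIn ℚ : Set Gal)) he₀ hI hne
  rw [← W0_smul e₀ hc0, ← hc]
  refine map_H1π_mem_valuedCond (primeLocalToGlobal (pPrime p)) (adRep rbar) (W0 e₀')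
    (adCocycle hb htr) (trZeroPart h2 X) fun τ => ?_
  have hσD := primeLocalToGlobal_mem_decompositionSubgroup (pPrime p) τ
  set σ := primeLocalToGlobal (pPrime p) τ
  obtain ⟨x₁, hx₁⟩ := hD σ⁻¹ (inv_mem hσD)
  obtain ⟨hN1, hN2⟩ := hN σ hσD
  have key : ∀ w : sl2 k, (w : M2 k) = (b σ - (X * rbar σ - rbar σ * X)) * rbar σ⁻¹ →
      w ∈ W0 e₀' := by
    intro w hw
    rw [mem_W0, hw]
    refine ⟨?_, fun u => ?_⟩
    · rw [← Matrix.mulVec_mulVec, hx₁, Matrix.mulVec_smul, hN1, smul_zero]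
    · rw [← Matrix.mulVec_mulVec]
      exact hN2 _
  refine key _ ?_
  show b σ * rbar σ⁻¹ + (rbar σ * ((trZeroPart h2 X : sl2 k) : M2 k) * rbar σ⁻¹ -
    ((trZeroPart h2 X : sl2 k) : M2 k)) = _
  rw [conj_trZeroPart_sub, sub_mul, sub_mul, mul_assoc X, map_mul_map_inv, mul_one]
  abel

end Membership

end Fermat.Agent.TW
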