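/-
S56 (leaf LQ, ad⁰ specialization) — helper4.
**`#H¹(G_q, ad⁰ρ̄) ≤ #H⁰(G_q, ad⁰ρ̄) · |k|`** for `p ∣ q - 1`, `ρ̄` unramified at `q` with
`ρ̄(Frob_q)` having distinct eigenvalues in `k`.  Input: the general bound
`loc_card_ext_one_le_sq` (LocForm/LQMain), the surjectivity of `G_q → D_q` at finite level
(LocForm/DecLift), the existence of Frobenius elements (LocForm/FrobAt), and elementary facts on
`2 × 2` matrices: the trace-zero centralizer of a matrix with distinct eigenvalues is a line, and a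
matrix of `p`-power order commuting with it is trivial.
-/
import Fermat.Agent.TW.LocalCond_helper6
import Fermat.Agent.CFT.LocForm.LQMain_helper4
import Fermat.Agent.CFT.LocForm.DecLift_helper4
import Fermat.Agent.CFT.LocForm.FrobAt_helper4

set_option autoImplicit false
set_option linter.unusedSectionVars false
set_option linter.style.haveILetI false

open Polynomial CategoryTheory CategoryTheory.Abelian groupCohomology ExtCitation

namespace Fermat.Agent.TW

open Fermat.Agent.CFT.Sm Fermat.Agent.CFT.Bridge Fermat.Agent.CFT.Arith Fermat.Agent.CFT.LocForm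

section TwoByTwo

variable {k : Type} [Field k]

/-- trace and determinant from a split characteristic polynomial. -/
lemma trace_det_of_charpoly_split (A : Matrix (Fin 2) (Fin 2) k) {α β : k}
    (hA : A.charpoly = (X - C α) * (X - C β)) : A.trace = α + β ∧ A.det = α * β := by
  rw [Matrix.charpoly_fin_two] at hA
  have h0 := congrArg (Polynomial.eval 0) hA
  have h1 := congrArg (Polynomial.eval 1) hA
  simp only [eval_add, eval_sub, eval_mul, eval_pow, eval_X, eval_C] at h0 h1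
  have hdet : A.det = α * β := by linear_combination h0
  refine ⟨?_, hdet⟩
  linear_combination (-1 : k) * h1 + hdet

/-- the normalized generator of the trace-zero part of the centralizer of a matrix with distinct
eigenvalues `α, β`. -/
noncomputable def centGen (A : Matrix (Fin 2) (Fin 2) k) (α β : k) : Matrix (Fin 2) (Fin 2) k :=
  (α - β)⁻¹ • ((2 : k) • A - (α + β) • (1 : Matrix (Fin 2) (Fin 2) k))

variable {A : Matrix (Fin 2) (Fin 2) k} {α β : k}

lemma centGen_disc_eq (htr : A.trace = α + β) (hdet : A.det = α * β) :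
    (A 0 0 - A 1 1) ^ 2 + 4 * (A 0 1 * A 1 0) = (α - β) ^ 2 := by
  rw [Matrix.trace_fin_two] at htr
  rw [Matrix.det_fin_two] at hdet
  linear_combination (A 0 0 + A 1 1 + α + β) * htr - 4 * hdet

lemma centGen_apply (htr : A.trace = α + β) :
    centGen A α β 0 0 = (α - β)⁻¹ * (A 0 0 - A 1 1) ∧
    centGen A α β 0 1 = (α - β)⁻¹ * (2 * A 0 1) ∧
    centGen A α β 1 0 = (α - β)⁻¹ * (2 * A 1 0) ∧
    centGen A α β 1 1 = (α - β)⁻¹ * (A 1 1 - A 0 0) := by
  rw [Matrix.trace_fin_two] at htr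
  refine ⟨?_, ?_, ?_, ?_⟩
  · simp only [centGen, Matrix.smul_apply, Matrix.sub_apply, Matrix.one_apply_eq, smul_eq_mul]
    rw [← htr]; ring
  · simp only [centGen, Matrix.smul_apply, Matrix.sub_apply, smul_eq_mul,
      Matrix.one_apply_ne (show (0 : Fin 2) ≠ 1 by decide)]
    ring
  · simp only [centGen, Matrix.smul_apply, Matrix.sub_apply, smul_eq_mul,
      Matrix.one_apply_ne (show (1 : Fin 2) ≠ 0 by decide)]
    ring
  · simp only [centGen, Matrix.smul_apply, Matrix.sub_apply, Matrix.one_apply_eq, smul_eq_mul]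
    rw [← htr]; ring

/-- **the trace-zero centralizer of a matrix with distinct eigenvalues is a line.** -/
lemma eq_smul_centGen_of_commute (hαβ : α ≠ β) (htr : A.trace = α + β) (hdet : A.det = α * β)
    (w : Matrix (Fin 2) (Fin 2) k) (hw0 : w.trace = 0) (hw : w * A = A * w) :
    w = ((α - β)⁻¹ * (w 0 0 * (A 0 0 - A 1 1) + w 0 1 * A 1 0 + w 1 0 * A 0 1)) •
      centGen A α β := by
  have hd : α - β ≠ 0 := sub_ne_zero.2 hαβ
  have hdisc := centGen_disc_eq htr hdet
  obtain ⟨e00, e01, e10, e11⟩ := centGen_apply (A := A) (α := α) (β := β) htr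
  rw [Matrix.trace_fin_two] at hw0
  have h00 := congrFun (congrFun hw 0) 0
  have h01 := congrFun (congrFun hw 0) 1
  have h10 := congrFun (congrFun hw 1) 0
  simp only [Matrix.mul_apply, Fin.sum_univ_two] at h00 h01 h10
  have hw11 : w 1 1 = - w 0 0 := by linear_combination hw0
  rw [hw11] at h01 h10
  obtain ⟨T, hT⟩ : ∃ T : k, T = w 0 0 * (A 0 0 - A 1 1) + w 0 1 * A 1 0 + w 1 0 * A 0 1 :=
    ⟨_, rfl⟩
  rw [← hT]
  have key00 : w 0 0 * (α - β) ^ 2 = T * (A 0 0 - A 1 1) := by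
    rw [hT]
    linear_combination (-(w 0 0)) * hdisc + (A 1 0) * h01 - (A 0 1) * h10
  have key01 : w 0 1 * (α - β) ^ 2 = T * (2 * A 0 1) := by
    rw [hT]
    linear_combination (-(w 0 1)) * hdisc - (A 0 0 - A 1 1) * h01 + 2 * A 0 1 * h00
  have key10 : w 1 0 * (α - β) ^ 2 = T * (2 * A 1 0) := by
    rw [hT]
    linear_combination (-(w 1 0)) * hdisc + (A 0 0 - A 1 1) * h10 - 2 * A 1 0 * h00
  have hfin : ∀ x y : k, x * (α - β) ^ 2 = T * y → x = (α - β)⁻¹ * T * ((α - β)⁻¹ * y) := by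
    intro x y h
    have : (α - β)⁻¹ * T * ((α - β)⁻¹ * y) = ((α - β)⁻¹) ^ 2 * (T * y) := by ring
    rw [this, ← h]
    field_simp
  ext i j
  fin_cases i <;> fin_cases j
  · change w 0 0 = ((α - β)⁻¹ * T) * centGen A α β 0 0
    rw [e00]
    exact hfin _ _ key00
  · change w 0 1 = ((α - β)⁻¹ * T) * centGen A α β 0 1
    rw [e01]
    exact hfin _ _ key01
  · change w 1 0 = ((α - β)⁻¹ * T) * centGen A α β 1 0
    rw [e10]
    exact hfin _ _ key10
  · change w 1 1 = ((α - β)⁻¹ * T) * centGen A α β 1 1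
    rw [e11, hw11]
    have := hfin _ _ key00
    rw [this]
    ring

/-- `centGen` squares to one. -/
lemma centGen_mul_self (hαβ : α ≠ β) (htr : A.trace = α + β) (hdet : A.det = α * β) :
    centGen A α β * centGen A α β = 1 := by
  have hd : α - β ≠ 0 := sub_ne_zero.2 hαβ
  have hdisc := centGen_disc_eq htr hdet
  obtain ⟨e00, e01, e10, e11⟩ := centGen_apply (A := A) (α := α) (β := β) htr
  have hinv : (α - β)⁻¹ * (α - β)⁻¹ * (α - β) ^ 2 = 1 := by field_simp
  ext i j
  fin_cases i <;> fin_cases j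
  · change (centGen A α β * centGen A α β) 0 0 = (1 : Matrix (Fin 2) (Fin 2) k) 0 0
    rw [Matrix.mul_apply, Fin.sum_univ_two, e00, e01, e10, Matrix.one_apply_eq, ← hinv, ← hdisc]
    ring
  · change (centGen A α β * centGen A α β) 0 1 = (1 : Matrix (Fin 2) (Fin 2) k) 0 1
    rw [Matrix.mul_apply, Fin.sum_univ_two, e00, e01, e11,
      Matrix.one_apply_ne (show (0 : Fin 2) ≠ 1 by decide)]
    ring
  · change (centGen A α β * centGen A α β) 1 0 = (1 : Matrix (Fin 2) (Fin 2) k) 1 0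
    rw [Matrix.mul_apply, Fin.sum_univ_two, e00, e10, e11,
      Matrix.one_apply_ne (show (1 : Fin 2) ≠ 0 by decide)]
    ring
  · change (centGen A α β * centGen A α β) 1 1 = (1 : Matrix (Fin 2) (Fin 2) k) 1 1
    rw [Matrix.mul_apply, Fin.sum_univ_two, e11, e01, e10, Matrix.one_apply_eq, ← hinv, ← hdisc]
    ring

end TwoByTwo

section CharP

variable {k : Type} [Field k] {A : Matrix (Fin 2) (Fin 2) k} {α β : k}

/-- **a matrix of `p`-power order commuting with a matrix with distinct eigenvalues is trivial**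
(characteristic `p`). -/
lemma eq_one_of_pow_char_eq_one_of_commute (p : ℕ) [hp : Fact p.Prime] [CharP k p] (hαβ : α ≠ β)
    (htr : A.trace = α + β) (hdet : A.det = α * β) (B : Matrix (Fin 2) (Fin 2) k)
    (hBA : B * A = A * B) (hBp : B ^ p = 1) : B = 1 := by
  haveI : CharP (Matrix (Fin 2) (Fin 2) k) p := Matrix.charP p
  obtain ⟨N, hN⟩ : ∃ N : Matrix (Fin 2) (Fin 2) k, N = B - 1 := ⟨_, rfl⟩
  have hNp : N ^ p = 0 := by
    rw [hN, sub_pow_char_of_commute p (Commute.one_right B), hBp, one_pow, sub_self]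
  have hNtr : N.trace = 0 :=
    (Matrix.isNilpotent_trace_of_isNilpotent ⟨p, hNp⟩).eq_zero
  have hNA : N * A = A * N := by
    rw [hN, sub_mul, mul_sub, hBA, one_mul, mul_one]
  have h1 := eq_smul_centGen_of_commute hαβ htr hdet N hNtr hNA
  obtain ⟨t, ht⟩ : ∃ t : k, t = (α - β)⁻¹ * (N 0 0 * (A 0 0 - A 1 1) + N 0 1 * A 1 0 +
    N 1 0 * A 0 1) := ⟨_, rfl⟩
  rw [← ht] at h1
  have h2 : N * N = (t * t) • (1 : Matrix (Fin 2) (Fin 2) k) := by
    conv_lhs => rw [h1]
    rw [smul_mul_smul_comm, centGen_mul_self hαβ htr hdet]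
  have h3 : (N * N) ^ p = 0 := by
    rw [(Commute.refl N).mul_pow, hNp, zero_mul]
  rw [h2, _root_.smul_pow, one_pow] at h3
  have h4 := congrFun (congrFun h3 0) 0
  rw [Matrix.smul_apply, Matrix.one_apply_eq, Matrix.zero_apply, smul_eq_mul, mul_one] at h4
  have ht0 : t = 0 := by
    have := pow_eq_zero_iff (hp.out.ne_zero) |>.1 h4
    exact mul_self_eq_zero.1 this
  rw [ht0, zero_smul] at h1
  rw [h1] at hN
  exact (sub_eq_zero.1 hN.symm)

end CharP

section Frobenius

/-- `Ω = AlgebraicClosure ℚ`. -/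
local notation "Ω" => AlgebraicClosure ℚ
/-- `GQ = Gal(Ω/ℚ)`. -/
local notation "GQ" => (AlgebraicClosure ℚ ≃ₐ[ℚ] AlgebraicClosure ℚ)

/-- **a Frobenius element commutes with the decomposition group modulo inertia**: for a
homomorphism `r` trivial on the inertia group of `A`, `r(σ)` and `r(φ)` commute for `σ` in the
decomposition group and `φ` a Frobenius element. -/
theorem mul_comm_of_isFrobeniusAt {M : Type} [Monoid M] (A : ValuationSubring Ω) (r : GQ →* M)
    (hur : ∀ σ ∈ A.inertiaSubgroupIn ℚ, r σ = 1) {φ : GQ} {q : ℕ} (hφ : A.IsFrobeniusAt φ q)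
    {σ : GQ} (hσ : σ ∈ A.decompositionSubgroup ℚ) : r σ * r φ = r φ * r σ := by
  obtain ⟨hφD, hφx⟩ := hφ
  obtain ⟨s, hs⟩ : ∃ s : A.decompositionSubgroup ℚ, s = ⟨σ, hσ⟩ := ⟨_, rfl⟩
  obtain ⟨f, hf⟩ : ∃ f : A.decompositionSubgroup ℚ, f = ⟨φ, hφD⟩ := ⟨_, rfl⟩
  rw [← hf] at hφx
  have hcomm : ∀ x : IsLocalRing.ResidueField A, (s * f) • x = (f * s) • x := by
    intro x
    rw [mul_smul, mul_smul, hφx, hφx, smul_pow']
  have h1 : MulSemiringAction.toRingAut (A.decompositionSubgroup ℚ) (IsLocalRing.ResidueField A)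
      (s * f) = MulSemiringAction.toRingAut (A.decompositionSubgroup ℚ)
        (IsLocalRing.ResidueField A) (f * s) := RingEquiv.ext hcomm
  have hker : s * f * s⁻¹ * f⁻¹ ∈ A.inertiaSubgroup ℚ := by
    change MulSemiringAction.toRingAut (A.decompositionSubgroup ℚ) (IsLocalRing.ResidueField A)
      (s * f * s⁻¹ * f⁻¹) = 1
    have h2 : s * f * s⁻¹ * f⁻¹ = (s * f) * (f * s)⁻¹ := by group
    rw [h2, map_mul, map_inv, h1, mul_inv_cancel]
  have hmem : σ * φ * σ⁻¹ * φ⁻¹ ∈ A.inertiaSubgroupIn ℚ := by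
    refine ⟨s * f * s⁻¹ * f⁻¹, hker, ?_⟩
    rw [hs, hf]
    rfl
  have h3 := hur _ hmem
  have h4 : σ * φ = (σ * φ * σ⁻¹ * φ⁻¹) * (φ * σ) := by group
  calc r σ * r φ = r (σ * φ) := (map_mul r σ φ).symm
    _ = r ((σ * φ * σ⁻¹ * φ⁻¹) * (φ * σ)) := by rw [← h4]
    _ = r φ * r σ := by rw [map_mul, h3, one_mul, map_mul]

end Frobenius

section Assembly

/-- `Ω = AlgebraicClosure ℚ`. -/
local notation "Ω" => AlgebraicClosure ℚ
/-- `GQ = Gal(Ω/ℚ)`. -/
local notation "GQ" => (AlgebraicClosure ℚ ≃ₐ[ℚ] AlgebraicClosure ℚ)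

/-- two elements of `G_ℚ` agreeing on a level through which `r` factors have the same image. -/
lemma map_eq_of_agree_on_level {M : Type} [Monoid M] (r : GQ →* M) (L : IntermediateField ℚ Ω)
    (hL : ∀ s : GQ, (∀ x ∈ L, s x = x) → r s = 1) {g g' : GQ} (h : ∀ x ∈ L, g x = g' x) :
    r g = r g' := by
  have h1 : r (g'⁻¹ * g) = 1 := hL _ (fun x hx => by
    rw [AlgEquiv.mul_apply, h x hx]
    exact g'.symm_apply_apply x)
  calc r g = r (g' * (g'⁻¹ * g)) := by rw [mul_inv_cancel_left]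
    _ = r g' := by rw [map_mul, h1, mul_one]

variable (q : Nat.Primes) (p : ℕ) [hp : Fact p.Prime] {k : Type} [Field k] [Finite k] [CharP k p]

/-- **(LQ)** for `p ∣ q - 1`, `rbar` unramified at `q` with `rbar(Frob_q)` having distinct
eigenvalues in `k`: `#H¹(G_q, ad⁰) ≤ #H⁰(G_q, ad⁰) · |k|`. -/
theorem loc_card_ext_one_le_ad (hpq : p ∣ (q : ℕ) - 1) (rbar : GQ →* Matrix (Fin 2) (Fin 2) k)
    (hfac : GaloisFactorsThroughFiniteLevel rbar)
    (hur : ∀ σ ∈ (primeLocalPlace q).inertiaSubgroupIn ℚ, rbar σ = 1)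
    (hfrob : ∀ φ : GQ, (primeLocalPlace q).IsFrobeniusAt φ q →
      ∃ α β : k, α ≠ β ∧ (rbar φ).charpoly = (X - C α) * (X - C β))
    (hsm : IsSmooth (locBasis q) (Rep.res (primeLocalToGlobal q) (adRep rbar))) :
    Nat.card (Ext (smUnit ℤ (locBasis q))
        (mkSm (locBasis q) (Rep.res (primeLocalToGlobal q) (adRep rbar)) hsm) 1) ≤
      Nat.card (Ext (smUnit ℤ (locBasis q))
        (mkSm (locBasis q) (Rep.res (primeLocalToGlobal q) (adRep rbar)) hsm) 0) * Nat.card k := by
  classical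
  set Y : SmRep ℤ (locBasis q) :=
    mkSm (locBasis q) (Rep.res (primeLocalToGlobal q) (adRep rbar)) hsm with hY
  -- a Frobenius element and its eigenvalues
  obtain ⟨φ, hφ⟩ := exists_isFrobeniusAt (primeLocalPlace q) q.2 (primeLocalPlace_liesOverPrime q)
  obtain ⟨α, β, hαβ, hchar⟩ := hfrob φ hφ
  obtain ⟨htr, hdet⟩ := trace_det_of_charpoly_split _ hchar
  obtain ⟨L, hLfd, hL⟩ := hfac
  haveI := hLfd
  -- the Frobenius lifts to `G_q` at the level of `rbar`
  obtain ⟨τ₀, hτ₀⟩ := exists_primeLocal_lift q φ hφ.mem_decompositionSubgroup L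
  have hτ₀A : rbar (primeLocalToGlobal q τ₀) = rbar φ := map_eq_of_agree_on_level rbar L hL hτ₀
  -- the image of `G_q` commutes with `rbar φ`
  have hcomm : ∀ τ : primeLocalGaloisGroup q,
      rbar (primeLocalToGlobal q τ) * rbar φ = rbar φ * rbar (primeLocalToGlobal q τ) := fun τ =>
    mul_comm_of_isFrobeniusAt _ rbar hur hφ (primeLocalToGlobal_mem_decompositionSubgroup q τ)
  -- the kernel of `rbar` on `G_q`
  obtain ⟨f, hf⟩ : ∃ f : primeLocalGaloisGroup q →* Matrix (Fin 2) (Fin 2) k,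
      f = rbar.comp (primeLocalToGlobal q) := ⟨_, rfl⟩
  have hfapp : ∀ τ, f τ = rbar (primeLocalToGlobal q τ) := fun τ => by rw [hf]; rfl
  obtain ⟨U, hU⟩ : ∃ U : Subgroup (primeLocalGaloisGroup q), U = f.ker := ⟨_, rfl⟩
  haveI hUn : U.Normal := by rw [hU]; exact MonoidHom.normal_ker f
  have hUmem : ∀ τ, τ ∈ U ↔ rbar (primeLocalToGlobal q τ) = 1 := fun τ => by
    rw [hU, MonoidHom.mem_ker, hfapp]
  have hUopen : (locBasis q).IsOpen U := by
    obtain ⟨L', hL', hLL'⟩ := exists_isFullLevel_ge L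
    refine ⟨L'.fixingSubgroup.comap (primeLocalToGlobal q), ⟨_, ⟨L', hL', rfl⟩, rfl⟩,
      fun τ hτ => ?_⟩
    rw [hUmem]
    exact hL _ (fun x hx => (IntermediateField.mem_fixingSubgroup_iff _ _).1 hτ x (hLL' hx))
  haveI : U.FiniteIndex := hUopen.finiteIndex
  have hidx : ¬ p ∣ U.index := by
    intro hdvd
    rw [Subgroup.index_eq_card] at hdvd
    obtain ⟨x, hx⟩ := exists_prime_orderOf_dvd_card' p hdvd
    obtain ⟨g, rfl⟩ := QuotientGroup.mk_surjective x
    have hgp : g ^ p ∈ U := by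
      rw [← QuotientGroup.eq_one_iff, QuotientGroup.mk_pow, ← hx, pow_orderOf_eq_one]
    have hg1 : g ∉ U := by
      intro h
      have h1 : (QuotientGroup.mk g : primeLocalGaloisGroup q ⧸ U) = 1 :=
        (QuotientGroup.eq_one_iff g).2 h
      rw [h1, orderOf_one] at hx
      exact hp.out.one_lt.ne hx
    have hB : rbar (primeLocalToGlobal q g) = 1 :=
      eq_one_of_pow_char_eq_one_of_commute p hαβ htr hdet _ (hcomm g) (by
        rw [← map_pow, ← map_pow]
        exact (hUmem _).1 hgp)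
    exact hg1 ((hUmem g).2 hB)
  have hUY : ∀ u ∈ U, ∀ y : Y.obj.V, Y.obj.ρ u y = y := by
    intro u hu y
    have h1 := adRep_ρ_eq_one_of rbar (primeLocalToGlobal q u) ((hUmem u).1 hu)
    exact congrArg (fun F : (adRep rbar).V →ₗ[ℤ] (adRep rbar).V => F y) h1
  haveI : Finite Y.obj.V := (inferInstance : Finite (adRep rbar).V)
  have hpY : ∀ y : Y.obj.V, p • y = 0 := fun y => nsmul_adRep p rbar y
  have hmain := loc_card_ext_one_le_sq q p hpq Y hpY U hUopen hidx hUY
  -- the invariants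
  have hH0 : Nat.card (Ext (smUnit ℤ (locBasis q)) Y 0) ≤ Nat.card k := by
    rw [card_ext_zero_eq]
    let mat : smInvariants Y → Matrix (Fin 2) (Fin 2) k := fun w =>
      ((show sl2 k from (w.1 : (adRep rbar).V)) : Matrix (Fin 2) (Fin 2) k)
    have hmat_inj : Function.Injective mat := fun w w' h =>
      Subtype.ext (Subtype.ext h)
    let t : smInvariants Y → k := fun w =>
      (α - β)⁻¹ * (mat w 0 0 * (rbar φ 0 0 - rbar φ 1 1) + mat w 0 1 * rbar φ 1 0 +
        mat w 1 0 * rbar φ 0 1)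
    have hline : ∀ w : smInvariants Y, mat w = t w • centGen (rbar φ) α β := by
      intro w
      refine eq_smul_centGen_of_commute hαβ htr hdet (mat w) ?_ ?_
      · exact (mem_sl2_iff _).1 (show sl2 k from (w.1 : (adRep rbar).V)).2
      · have h1 := w.2 τ₀
        have h2 : rbar (primeLocalToGlobal q τ₀) * mat w * rbar (primeLocalToGlobal q τ₀)⁻¹ =
            mat w := congrArg (fun z : (adRep rbar).V =>
              ((show sl2 k from z) : Matrix (Fin 2) (Fin 2) k)) h1
        rw [hτ₀A] at h2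
        have h3 : rbar (primeLocalToGlobal q τ₀)⁻¹ * rbar φ = 1 := by
          rw [← hτ₀A, ← map_mul, inv_mul_cancel, map_one]
        calc mat w * rbar φ
            = rbar φ * mat w * rbar (primeLocalToGlobal q τ₀)⁻¹ * rbar φ := by rw [h2]
          _ = rbar φ * mat w := by rw [mul_assoc, h3, mul_one]
    have ht_inj : Function.Injective t := by
      intro w w' h
      apply hmat_inj
      rw [hline w, hline w', h]
    exact Nat.card_le_card_of_injective t ht_inj
  calc Nat.card (Ext (smUnit ℤ (locBasis q)) Y 1)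
      ≤ Nat.card (Ext (smUnit ℤ (locBasis q)) Y 0) ^ 2 := hmain
    _ = Nat.card (Ext (smUnit ℤ (locBasis q)) Y 0) * Nat.card (Ext (smUnit ℤ (locBasis q)) Y 0) :=
        sq _
    _ ≤ Nat.card (Ext (smUnit ℤ (locBasis q)) Y 0) * Nat.card k := Nat.mul_le_mul_left _ hH0

/-- **(LQ)**, for the matrix form `resMatrixOf ρbar β` of a residual representation, with the
literal hypotheses of the Taylor–Wiles primes of S56. -/
theorem loc_card_ext_one_le_ad_residual (hpq : p ∣ (q : ℕ) - 1) (ρbar : ResidualGaloisRep k)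
    (β : Module.Basis (Fin 2) k ρbar.V) (hunr : ρbar.IsUnramifiedAt (q : ℕ))
    (hfrob : ∀ P : ValuationSubring Ω, P.LiesOverPrime (q : ℕ) → ∀ φ : GQ,
      P.IsFrobeniusAt φ (q : ℕ) → ∃ a b : k, a ≠ b ∧
        LinearMap.charpoly (ρbar.ρ φ) = (X - C a) * (X - C b))
    (hsm : IsSmooth (locBasis q)
      (Rep.res (primeLocalToGlobal q) (adRep (Fermat.Agent.S53.resMatrixOf ρbar β)))) :
    Nat.card (Ext (smUnit ℤ (locBasis q)) (mkSm (locBasis q)
        (Rep.res (primeLocalToGlobal q) (adRep (Fermat.Agent.S53.resMatrixOf ρbar β))) hsm) 1) ≤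
      Nat.card (Ext (smUnit ℤ (locBasis q)) (mkSm (locBasis q)
        (Rep.res (primeLocalToGlobal q) (adRep (Fermat.Agent.S53.resMatrixOf ρbar β))) hsm) 0) *
        Nat.card k := by
  refine loc_card_ext_one_le_ad q p hpq _ (Fermat.Agent.S53.resMatrixOf_factors ρbar β) ?_ ?_ hsm
  · intro σ hσ
    rw [Fermat.Agent.S53.resMatrixOf_eq_toMatrix,
      hunr _ (primeLocalPlace_liesOverPrime q) σ hσ]
    exact LinearMap.toMatrix_one β
  · intro φ hφ
    obtain ⟨a, b, hab, h⟩ := hfrob _ (primeLocalPlace_liesOverPrime q) φ hφ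
    refine ⟨a, b, hab, ?_⟩
    rw [Fermat.Agent.S53.resMatrixOf_eq_toMatrix, LinearMap.charpoly_toMatrix]
    exact h

end Assembly

end Fermat.Agent.TW
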