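/-
TW (S56) — helper6 — leaf (LU), arithmetic part 1: the residue field of `PadicAlgCl q`.
* `exists_pow_eq_of_isPrimitiveRoot`: every `ℚ_q`-automorphism of `PadicAlgCl q` acts on a primitive
  `m`-th root of unity (`q ∤ m`) by a power of the Frobenius `ζ ↦ ζ ^ q`;
* `norm_sub_lt_one_of_fixes_roots`: an automorphism fixing all roots of unity of order prime to `q`
  acts trivially on the residue field.
-/
import Mathlib
import Fermat.Agent.Ram.Padic_helper8
import Fermat.Prelude.Def_GaloisRep_CompletionBridge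

set_option autoImplicit false
set_option linter.unusedSectionVars false
set_option linter.style.haveILetI false

noncomputable section

namespace Fermat.Agent.TW

open Fermat.Agent.Ram Polynomial

variable (q : ℕ) [hq : Fact q.Prime]

instance isIsometricSMul_padicAlgCl_helper6 :
    IsIsometricSMul (PadicAlgCl q ≃ₐ[ℚ_[q]] PadicAlgCl q) (PadicAlgCl q) :=
  ⟨fun σ => AddMonoidHomClass.isometry_of_norm
    (MulSemiringAction.toRingHom (PadicAlgCl q ≃ₐ[ℚ_[q]] PadicAlgCl q) (PadicAlgCl q) σ)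
    (fun x => by
      have := nnnorm_padicAlgCl_algEquiv q σ x
      exact congrArg NNReal.toReal this)⟩

variable {q}

theorem norm_algEquiv_padicAlgCl (g : PadicAlgCl q ≃ₐ[ℚ_[q]] PadicAlgCl q) (x : PadicAlgCl q) :
    ‖g x‖ = ‖x‖ := congrArg NNReal.toReal (nnnorm_padicAlgCl_algEquiv q g x)

theorem norm_natCast_padicAlgCl_le (n : ℕ) : ‖(n : PadicAlgCl q)‖ ≤ 1 := by
  have h : (n : PadicAlgCl q) = algebraMap ℚ_[q] (PadicAlgCl q) (n : ℚ_[q]) := by simp
  rw [h, PadicAlgCl.norm_extends]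
  have := Padic.norm_int_le_one (p := q) (n : ℤ)
  simpa using this

theorem norm_prime_padicAlgCl : ‖(q : PadicAlgCl q)‖ = (q : ℝ)⁻¹ := by
  have h : (q : PadicAlgCl q) = algebraMap ℚ_[q] (PadicAlgCl q) (q : ℚ_[q]) := by simp
  rw [h, PadicAlgCl.norm_extends, Padic.norm_p]

theorem norm_natCast_padicAlgCl_eq_one {m : ℕ} (hm : m.Coprime q) : ‖(m : PadicAlgCl q)‖ = 1 := by
  have h : (m : PadicAlgCl q) = algebraMap ℚ_[q] (PadicAlgCl q) (m : ℚ_[q]) := by simp
  rw [h, PadicAlgCl.norm_extends, Padic.norm_natCast_eq_one_iff]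
  exact hm.symm

/-! ### The residue field `κ = Res (PadicAlgCl q)` -/

section Residue

/-- `κ`, the residue field of `PadicAlgCl q` -/
local notation "κ" => Res (PadicAlgCl q)

theorem res_prime_eq_zero : ((q : ℕ) : Res (PadicAlgCl q)) = 0 := by
  have h1 : ((q : ℕ) : Res (PadicAlgCl q)) = res (PadicAlgCl q) ((q : ℕ) : intRing (PadicAlgCl q)) :=
    (map_natCast (res (PadicAlgCl q)) q).symm
  rw [h1, res_eq_zero_iff]
  have h2 : (((q : ℕ) : intRing (PadicAlgCl q)) : PadicAlgCl q) = (q : PadicAlgCl q) := by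
    simp
  rw [h2, norm_prime_padicAlgCl]
  exact inv_lt_one_of_one_lt₀ (by exact_mod_cast hq.out.one_lt)

instance charP_res_padicAlgCl_helper6 : CharP (Res (PadicAlgCl q)) q :=
  (CharP.charP_iff_prime_eq_zero hq.out).mpr res_prime_eq_zero

/-- In a field of characteristic `q`, the fixed points of the Frobenius are the natural numbers. -/
theorem exists_natCast_eq_of_pow_eq {F : Type*} [Field F] [CharP F q] {x : F} (hx : x ^ q = x) :
    ∃ n : ℕ, x = n := by
  classical
  by_contra hcon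
  push Not at hcon
  have hq1 : 1 < q := hq.out.one_lt
  set P : F[X] := X ^ q - X with hP
  have hP0 : P ≠ 0 := FiniteField.X_pow_card_sub_X_ne_zero F hq1
  have hdeg : P.natDegree = q := FiniteField.X_pow_card_sub_X_natDegree_eq F hq1
  let S : Finset F := (Finset.range q).image (fun n : ℕ => (n : F))
  have hScard : S.card = q := by
    rw [Finset.card_image_of_injOn, Finset.card_range]
    intro a ha b hb hab
    have ha' : a < q := Finset.mem_range.1 ha
    have hb' : b < q := Finset.mem_range.1 hb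
    have := (CharP.natCast_eq_natCast F q).1 hab
    exact Nat.ModEq.eq_of_lt_of_lt this ha' hb'
  have hSroots : insert x S ⊆ P.roots.toFinset := by
    intro y hy
    rw [Multiset.mem_toFinset, mem_roots hP0, IsRoot.def, hP, eval_sub, eval_pow, eval_X, sub_eq_zero]
    rcases Finset.mem_insert.1 hy with rfl | hy
    · exact hx
    · obtain ⟨n, -, rfl⟩ := Finset.mem_image.1 hy
      rw [← Nat.cast_pow]
      have : ((n ^ q : ℕ) : ZMod q) = (n : ZMod q) := by
        rw [Nat.cast_pow, ZMod.pow_card]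
      exact (CharP.natCast_eq_natCast F q).2 ((ZMod.natCast_eq_natCast_iff _ _ _).1 this)
  have hxS : x ∉ S := by
    intro h
    obtain ⟨n, -, hn⟩ := Finset.mem_image.1 h
    exact hcon n hn.symm
  have h1 : (insert x S).card = q + 1 := by rw [Finset.card_insert_of_notMem hxS, hScard]
  have h2 := Finset.card_le_card hSroots
  have h3 : P.roots.toFinset.card ≤ q := by
    calc P.roots.toFinset.card ≤ Multiset.card P.roots := Multiset.toFinset_card_le _
      _ ≤ P.natDegree := card_roots' P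
      _ = q := hdeg
  omega

/-- the ring endomorphism of the residue field induced by a Galois automorphism fixes the natural
numbers -/
theorem resHom_natCast (g : PadicAlgCl q ≃ₐ[ℚ_[q]] PadicAlgCl q) (n : ℕ) :
    resHom (L := PadicAlgCl q) g (n : Res (PadicAlgCl q)) = n := map_natCast _ n

theorem norm_eq_one_of_pow_eq_one {m : ℕ} (hm0 : 0 < m) {η : PadicAlgCl q} (h1 : η ^ m = 1) :
    ‖η‖ = 1 := by
  have h2 : ‖η‖ ^ m = 1 := by rw [← norm_pow, h1, norm_one]
  exact (pow_eq_one_iff_of_nonneg (norm_nonneg η) hm0.ne').1 h2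

/-- a root of unity of order prime to `q` which is `≡ 1` modulo the maximal ideal is `1` -/
theorem eq_one_of_norm_sub_one_lt {m : ℕ} (hm : m.Coprime q) {η : PadicAlgCl q}
    (h1 : η ^ m = 1) (h : ‖η - 1‖ < 1) : η = 1 := by
  have hm0 : 0 < m := by
    rcases Nat.eq_zero_or_pos m with rfl | h0
    · rw [Nat.coprime_zero_left] at hm
      exact absurd hm hq.out.one_lt.ne'
    · exact h0
  by_contra hne
  have hd : IsPrimitiveRoot η (orderOf η) := IsPrimitiveRoot.orderOf η
  have hdm : orderOf η ∣ m := orderOf_dvd_of_pow_eq_one h1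
  have hd0 : orderOf η ≠ 0 := fun h0 => by rw [h0, zero_dvd_iff] at hdm; omega
  have hd1 : orderOf η ≠ 1 := fun h0 => hne (orderOf_eq_one_iff.1 h0)
  obtain ⟨n, hn⟩ : ∃ n, orderOf η = n + 2 := ⟨orderOf η - 2, by omega⟩
  rw [hn] at hd
  have hprod := hd.prod_one_sub_pow_eq_order
  have hnorm := congrArg norm hprod
  rw [norm_prod] at hnorm
  have hη : ‖η‖ = 1 := norm_eq_one_of_pow_eq_one hm0 h1
  have hle : ∀ k : ℕ, ‖1 - η ^ (k + 1)‖ ≤ 1 := by
    intro k
    rw [sub_eq_add_neg]
    refine (IsUltrametricDist.norm_add_le_max _ _).trans ?_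
    rw [norm_neg, norm_one, norm_pow, hη, one_pow, max_self]
  have hrhs : ‖((n + 1 : ℕ) : PadicAlgCl q) + 1‖ = 1 := by
    have hcop : (n + 2).Coprime q := Nat.Coprime.coprime_dvd_left (hn ▸ hdm) hm
    have := norm_natCast_padicAlgCl_eq_one hcop
    rw [← this]
    congr 1
    push_cast
    ring
  rw [hrhs, Finset.prod_range_succ'] at hnorm
  have h0 : ‖1 - η ^ (0 + 1)‖ < 1 := by
    rw [zero_add, pow_one, ← norm_neg, neg_sub]
    exact h
  have h2 : ∏ k ∈ Finset.range n, ‖1 - η ^ (k + 1 + 1)‖ ≤ 1 :=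
    Finset.prod_le_one (fun k _ => norm_nonneg _) (fun k _ => hle (k + 1))
  have h3 : (∏ k ∈ Finset.range n, ‖1 - η ^ (k + 1 + 1)‖) * ‖1 - η ^ (0 + 1)‖ < 1 := by
    calc _ ≤ 1 * ‖1 - η ^ (0 + 1)‖ :=
          mul_le_mul_of_nonneg_right h2 (norm_nonneg _)
      _ < 1 := by rw [one_mul]; exact h0
  rw [hnorm] at h3
  exact lt_irrefl _ h3

/-- reduction modulo the maximal ideal is injective on roots of unity of order prime to `q` -/
theorem eq_of_norm_sub_lt_one_of_pow_eq_one {m : ℕ} (hm : m.Coprime q) {ξ ξ' : PadicAlgCl q}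
    (h1 : ξ ^ m = 1) (h2 : ξ' ^ m = 1) (h : ‖ξ - ξ'‖ < 1) : ξ = ξ' := by
  have hm0 : 0 < m := by
    rcases Nat.eq_zero_or_pos m with rfl | h0
    · rw [Nat.coprime_zero_left] at hm
      exact absurd hm hq.out.one_lt.ne'
    · exact h0
  have hξ' : ‖ξ'‖ = 1 := norm_eq_one_of_pow_eq_one hm0 h2
  have hξ'0 : ξ' ≠ 0 := by
    intro h0
    rw [h0, norm_zero] at hξ'
    exact zero_ne_one hξ'
  have h3 : (ξ / ξ') ^ m = 1 := by rw [div_pow, h1, h2, div_one]
  have h4 : ‖ξ / ξ' - 1‖ < 1 := by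
    have : ξ / ξ' - 1 = (ξ - ξ') / ξ' := by field_simp
    rw [this, norm_div, hξ', div_one]
    exact h
  have h5 := eq_one_of_norm_sub_one_lt hm h3 h4
  exact (div_eq_one_iff_eq hξ'0).1 h5

/-- **Galois automorphisms act on roots of unity of order prime to `q` by powers of the
Frobenius.** -/
theorem exists_pow_eq_of_isPrimitiveRoot {m : ℕ} (hm : m.Coprime q) {ζ : PadicAlgCl q}
    (hζ : IsPrimitiveRoot ζ m) (g : PadicAlgCl q ≃ₐ[ℚ_[q]] PadicAlgCl q) :
    ∃ k : ℕ, g ζ = ζ ^ (q ^ k) := by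
  have hm0 : 0 < m := by
    rcases Nat.eq_zero_or_pos m with rfl | h0
    · rw [Nat.coprime_zero_left] at hm
      exact absurd hm hq.out.one_lt.ne'
    · exact h0
  -- the order of `q` modulo `m`
  set f := Nat.totient m with hf
  have hf0 : 0 < f := Nat.totient_pos.2 hm0
  have hqf : ζ ^ (q ^ f) = ζ := by
    have h1 : q ^ f ≡ 1 [MOD m] := Nat.ModEq.pow_totient hm.symm
    have h2 : m ∣ q ^ f - 1 := (Nat.modEq_iff_dvd' (Nat.one_le_pow _ _ hq.out.pos)).1 h1.symm
    obtain ⟨t, ht⟩ := h2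
    have h3 : q ^ f = 1 + m * t := by
      have := Nat.one_le_pow f q hq.out.pos
      omega
    rw [h3, pow_add, pow_one, pow_mul, hζ.pow_eq_one, one_pow, mul_one]
  have hζn : ‖ζ‖ = 1 := norm_eq_one_of_pow_eq_one hm0 hζ.pow_eq_one
  let ζ' : intRing (PadicAlgCl q) := ⟨ζ, hζn.le⟩
  set z : Res (PadicAlgCl q) := res (PadicAlgCl q) ζ' with hz
  have hzf : z ^ (q ^ f) = z := by
    rw [hz, ← map_pow]
    congr 1
    exact Subtype.ext hqf
  -- the orbit polynomial
  set P : (Res (PadicAlgCl q))[X] := ∏ j ∈ Finset.range f, (X - C (z ^ (q ^ j))) with hP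
  have hfrob : P.map (frobenius (Res (PadicAlgCl q)) q) = P := by
    rw [hP, Polynomial.map_prod]
    have h1 : ∀ j ∈ Finset.range f,
        (X - C (z ^ (q ^ j))).map (frobenius (Res (PadicAlgCl q)) q) =
          X - C (z ^ (q ^ (j + 1))) := by
      intro j _
      rw [Polynomial.map_sub, Polynomial.map_X, Polynomial.map_C, frobenius_def, ← pow_mul,
        ← pow_succ]
    rw [Finset.prod_congr rfl h1]
    have h2 := Finset.prod_range_succ' (fun j => (X - C (z ^ (q ^ j)) : (Res (PadicAlgCl q))[X])) f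
    have h3 := Finset.prod_range_succ (fun j => (X - C (z ^ (q ^ j)) : (Res (PadicAlgCl q))[X])) f
    rw [h2] at h3
    simp only [hzf, pow_zero, pow_one] at h3
    exact mul_right_cancel₀ (X_sub_C_ne_zero z) h3
  have hcoeff : ∀ i, ∃ n : ℕ, P.coeff i = n := by
    intro i
    apply exists_natCast_eq_of_pow_eq (q := q)
    have := congrArg (fun R => Polynomial.coeff R i) hfrob
    simp only [Polynomial.coeff_map, frobenius_def] at this
    exact this
  have hgP : P.map (resHom (L := PadicAlgCl q) g) = P := by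
    ext i
    rw [Polynomial.coeff_map]
    obtain ⟨n, hn⟩ := hcoeff i
    rw [hn, map_natCast]
  have hzroot : P.eval z = 0 := by
    rw [hP, Polynomial.eval_prod]
    apply Finset.prod_eq_zero (Finset.mem_range.2 hf0)
    rw [pow_zero, pow_one, eval_sub, eval_X, eval_C, sub_self]
  have hgroot : P.eval (resHom (L := PadicAlgCl q) g z) = 0 := by
    conv_lhs => rw [← hgP]
    rw [Polynomial.eval_map, Polynomial.eval₂_at_apply, hzroot, map_zero]
  rw [hP, Polynomial.eval_prod, Finset.prod_eq_zero_iff] at hgroot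
  obtain ⟨j, -, hj⟩ := hgroot
  rw [eval_sub, eval_X, eval_C, sub_eq_zero] at hj
  refine ⟨j, ?_⟩
  have h1 : resHom (L := PadicAlgCl q) g z = res (PadicAlgCl q) (smulInt g ζ') := resHom_res g ζ'
  have h2 : z ^ (q ^ j) = res (PadicAlgCl q) (ζ' ^ (q ^ j)) := (map_pow _ _ _).symm
  rw [h1, h2, res_eq_iff] at hj
  have h3 : ((smulInt g ζ' : intRing (PadicAlgCl q)) : PadicAlgCl q) = g ζ := rfl
  have h4 : ((ζ' ^ (q ^ j) : intRing (PadicAlgCl q)) : PadicAlgCl q) = ζ ^ (q ^ j) := rfl
  rw [h3, h4] at hj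
  apply eq_of_norm_sub_lt_one_of_pow_eq_one hm _ _ hj
  · rw [← map_pow, hζ.pow_eq_one, map_one]
  · rw [← pow_mul, mul_comm, pow_mul, hζ.pow_eq_one, one_pow]

/-- every unit of the ring of integers of `PadicAlgCl q` is congruent to a root of unity of order
prime to `q` -/
theorem exists_root_of_unity_norm_sub_lt (y : PadicAlgCl q) (hy : ‖y‖ = 1) :
    ∃ (M : ℕ) (ξ : PadicAlgCl q), M.Coprime q ∧ ξ ^ M = 1 ∧ ‖y - ξ‖ < 1 := by
  classical
  have hyint : IsIntegral ℚ_[q] y := Algebra.IsIntegral.isIntegral y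
  let L' : IntermediateField ℚ_[q] (PadicAlgCl q) := IntermediateField.adjoin ℚ_[q] {y}
  haveI : FiniteDimensional ℚ_[q] L' := IntermediateField.adjoin.finiteDimensional hyint
  let y' : L' := ⟨y, IntermediateField.mem_adjoin_simple_self ℚ_[q] y⟩
  have hy' : ‖y'‖ = 1 := hy
  haveI : Fintype (Res L') := Fintype.ofFinite _
  have hq0 : ((q : ℕ) : Res L') = 0 := by
    have h1 : ((q : ℕ) : Res L') = res L' ((q : ℕ) : intRing L') := (map_natCast (res L') q).symm
    rw [h1, res_eq_zero_iff]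
    have h2 : (((q : ℕ) : intRing L') : L') = (q : L') := by simp
    rw [h2, norm_p_intermediateField]
    exact inv_lt_one_of_one_lt₀ (by exact_mod_cast hq.out.one_lt)
  haveI : CharP (Res L') q := (CharP.charP_iff_prime_eq_zero hq.out).mpr hq0
  obtain ⟨n, -, hn⟩ := FiniteField.card (Res L') q
  set z : Res L' := res L' ⟨y', hy'.le⟩ with hz
  have hz0 : z ≠ 0 := res_ne_zero_iff.2 hy'
  have hzM : z ^ (q ^ (n : ℕ) - 1) = 1 := by
    have := FiniteField.pow_card_sub_one_eq_one z hz0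
    rwa [hn] at this
  set M : ℕ := q ^ (n : ℕ) - 1 with hM
  have hqn : 2 ≤ q ^ (n : ℕ) := by
    calc 2 ≤ q := hq.out.two_le
      _ = q ^ 1 := (pow_one q).symm
      _ ≤ q ^ (n : ℕ) := Nat.pow_le_pow_right hq.out.pos n.2
  have hM0 : 0 < M := by omega
  have hMq : M.Coprime q := by
    apply Nat.Coprime.symm
    rw [Nat.Prime.coprime_iff_not_dvd hq.out]
    intro hdvd
    have h1 : q ∣ q ^ (n : ℕ) := dvd_pow_self q n.2.ne'
    have h2 : q ∣ q ^ (n : ℕ) - M := Nat.dvd_sub h1 hdvd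
    have h3 : q ^ (n : ℕ) - M = 1 := by omega
    rw [h3] at h2
    exact hq.out.one_lt.ne' (Nat.dvd_one.1 h2)
  -- `y ^ M ≡ 1`
  have hyM : ‖y ^ M - 1‖ < 1 := by
    have h1 : res L' (⟨y', hy'.le⟩ ^ M) = res L' 1 := by rw [map_pow, map_one, ← hz, hzM]
    rw [res_eq_iff] at h1
    exact h1
  -- the roots of unity
  haveI : NeZero M := ⟨hM0.ne'⟩
  obtain ⟨ω, hω⟩ := HasEnoughRootsOfUnity.exists_primitiveRoot (PadicAlgCl q) M
  have hprod := congrArg (Polynomial.eval y) (X_pow_sub_one_eq_prod hM0 hω)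
  rw [eval_sub, eval_pow, eval_X, eval_one, Polynomial.eval_prod] at hprod
  by_contra hcon
  push Not at hcon
  have hall : ∀ ξ ∈ nthRootsFinset M (1 : PadicAlgCl q), ‖(X - C ξ : (PadicAlgCl q)[X]).eval y‖ = 1 := by
    intro ξ hξ
    have hξM : ξ ^ M = 1 := (mem_nthRootsFinset hM0 _).1 hξ
    rw [eval_sub, eval_X, eval_C]
    apply le_antisymm
    · rw [sub_eq_add_neg]
      refine (IsUltrametricDist.norm_add_le_max _ _).trans ?_
      rw [norm_neg, hy, norm_eq_one_of_pow_eq_one hM0 hξM, max_self]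
    · exact hcon M ξ hMq hξM
  rw [hprod, norm_prod, Finset.prod_congr rfl hall, Finset.prod_const_one] at hyM
  exact lt_irrefl _ hyM

/-- **An automorphism fixing all roots of unity of order prime to `q` acts trivially on the
residue field.** -/
theorem norm_sub_lt_one_of_fixes_roots (g : PadicAlgCl q ≃ₐ[ℚ_[q]] PadicAlgCl q)
    (hg : ∀ (m : ℕ) (ξ : PadicAlgCl q), m.Coprime q → ξ ^ m = 1 → g ξ = ξ)
    (y : PadicAlgCl q) (hy : ‖y‖ ≤ 1) : ‖g y - y‖ < 1 := by
  rcases lt_or_eq_of_le hy with hlt | heq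
  · rw [sub_eq_add_neg]
    refine (IsUltrametricDist.norm_add_le_max _ _).trans_lt ?_
    rw [norm_neg, norm_algEquiv_padicAlgCl, max_self]
    exact hlt
  · obtain ⟨M, ξ, hM, hξ, hlt⟩ := exists_root_of_unity_norm_sub_lt y heq
    have h1 : g y - y = g (y - ξ) + -(y - ξ) := by
      rw [map_sub, hg M ξ hM hξ]
      ring
    rw [h1]
    refine (IsUltrametricDist.norm_add_le_max _ _).trans_lt ?_
    rw [norm_neg, norm_algEquiv_padicAlgCl, max_self]
    exact hlt

end Residue

end Fermat.Agent.TW
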