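/-
TW (S56) — helper6 — leaf (LU), arithmetic part 2: Galois theory of `PadicAlgCl q / ℚ_q`.
* `unrInertia q`: the subgroup fixing all roots of unity of order prime to `q`; it maps into the
  inertia subgroup of `padicPlace q` under `localGaloisToGlobal q`;
* `exists_generator_mod_unrInertia_sup`: for every open normal subgroup `U`, the quotient
  `G_q / (unrInertia ⊔ U)` is cyclic.
-/
import Mathlib
import Fermat.Agent.TW.UnrArith1_helper6
import Fermat.Agent.CFT.Arith.QS_helper7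

set_option autoImplicit false
set_option linter.unusedSectionVars false
set_option linter.style.haveILetI false

noncomputable section

namespace Fermat.Agent.TW

open Fermat.Agent.Ram Fermat.Agent.CFT.Arith Polynomial IntermediateField
open scoped Pointwise

variable {q : ℕ} [hq : Fact q.Prime]

/-- `Ω = AlgebraicClosure ℚ`. -/
local notation "Ω" => AlgebraicClosure ℚ

/-! ### The inertia subgroup -/

theorem mem_nonunits_padicPlace_iff (x : Ω) :
    x ∈ (padicPlace q).nonunits ↔ ‖padicEmbedding q x‖₊ < 1 := by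
  rw [ValuationSubring.mem_nonunits_iff]
  by_cases hx : x = 0
  · subst hx
    simp
  · have hx' : padicEmbedding q x ≠ 0 := by
      rw [Ne, map_eq_zero]; exact hx
    have hv0 : (padicPlace q).valuation x ≠ 0 := (Valuation.ne_zero_iff _).2 hx
    constructor
    · intro h
      by_contra hcon
      rw [not_lt] at hcon
      have h1 : x⁻¹ ∈ padicPlace q := by
        rw [mem_padicPlace_iff, map_inv₀, nnnorm_inv]
        exact inv_le_one_of_one_le₀ hcon
      rw [← ValuationSubring.valuation_le_one_iff, map_inv₀] at h1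
      have h2 := (inv_le_one₀ (zero_lt_iff.2 hv0)).1 h1
      exact absurd h (not_lt.2 h2)
    · intro h
      apply lt_of_not_ge
      intro hcon
      have h1 : (padicPlace q).valuation x⁻¹ ≤ 1 := by
        rw [map_inv₀]
        exact inv_le_one_of_one_le₀ hcon
      rw [ValuationSubring.valuation_le_one_iff, mem_padicPlace_iff, map_inv₀, nnnorm_inv] at h1
      have h2 := (inv_le_one₀ (zero_lt_iff.2 (nnnorm_ne_zero_iff.2 hx'))).1 h1
      exact absurd h (not_lt.2 h2)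

/-- the subgroup of `Gal(ℚ̄_q / ℚ_q)` fixing all roots of unity of order prime to `q` -/
def unrInertia (q : ℕ) [Fact q.Prime] : Subgroup (PadicAlgCl q ≃ₐ[ℚ_[q]] PadicAlgCl q) where
  carrier := {g | ∀ (m : ℕ) (ξ : PadicAlgCl q), m.Coprime q → ξ ^ m = 1 → g ξ = ξ}
  one_mem' := fun _ _ _ _ => rfl
  mul_mem' := by
    intro g h hg hh m ξ hm hξ
    rw [AlgEquiv.mul_apply, hh m ξ hm hξ, hg m ξ hm hξ]
  inv_mem' := by
    intro g hg m ξ hm hξ
    have := hg m ξ hm hξ
    calc g⁻¹ ξ = g⁻¹ (g ξ) := by rw [this]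
      _ = ξ := by rw [← AlgEquiv.mul_apply, inv_mul_cancel]; rfl

theorem mem_unrInertia (g : PadicAlgCl q ≃ₐ[ℚ_[q]] PadicAlgCl q) :
    g ∈ unrInertia q ↔ ∀ (m : ℕ) (ξ : PadicAlgCl q), m.Coprime q → ξ ^ m = 1 → g ξ = ξ := Iff.rfl

instance unrInertia_normal : (unrInertia q).Normal := by
  refine ⟨fun h hh g m ξ hm hξ => ?_⟩
  have h1 : (g⁻¹ ξ) ^ m = 1 := by rw [← map_pow, hξ, map_one]
  have h2 := hh m (g⁻¹ ξ) hm h1
  rw [AlgEquiv.mul_apply, AlgEquiv.mul_apply, h2, ← AlgEquiv.mul_apply, mul_inv_cancel]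
  rfl

/-- **`unrInertia` maps into the inertia subgroup of `padicPlace q`.** -/
theorem localGaloisToGlobal_mem_inertiaSubgroupIn (g : PadicAlgCl q ≃ₐ[ℚ_[q]] PadicAlgCl q)
    (hg : g ∈ unrInertia q) :
    localGaloisToGlobal q g ∈ (padicPlace q).inertiaSubgroupIn ℚ := by
  rw [mem_inertiaSubgroupIn_iff]
  refine ⟨?_, fun a ha => ?_⟩
  · have := localGaloisToGlobal_mem_decompositionSubgroup q g
    exact MulAction.mem_stabilizer_iff.1 this
  · rw [mem_nonunits_padicPlace_iff, map_sub, padicEmbedding_localGaloisToGlobal]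
    have h1 : ‖padicEmbedding q a‖ ≤ 1 := by
      have := (mem_padicPlace_iff q).1 ha
      exact_mod_cast this
    have h2 := norm_sub_lt_one_of_fixes_roots g hg (padicEmbedding q a) h1
    exact_mod_cast h2

/-! ### Galois theory -/

/-- the roots of unity of order prime to `q` -/
def unrRoots (q : ℕ) [Fact q.Prime] : Set (PadicAlgCl q) := {ξ | ∃ m : ℕ, m.Coprime q ∧ ξ ^ m = 1}

/-- the maximal unramified extension of `ℚ_q` -/
def unrField (q : ℕ) [Fact q.Prime] : IntermediateField ℚ_[q] (PadicAlgCl q) :=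
  adjoin ℚ_[q] (unrRoots q)

/-- the field of fixed points of an automorphism -/
def fixedFieldOf (g : PadicAlgCl q ≃ₐ[ℚ_[q]] PadicAlgCl q) :
    IntermediateField ℚ_[q] (PadicAlgCl q) where
  carrier := {x | g x = x}
  mul_mem' := fun {a b} ha hb => by
    show g (a * b) = a * b
    rw [map_mul, show g a = a from ha, show g b = b from hb]
  add_mem' := fun {a b} ha hb => by
    show g (a + b) = a + b
    rw [map_add, show g a = a from ha, show g b = b from hb]
  algebraMap_mem' := fun r => g.commutes r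
  inv_mem' := fun a ha => by
    show g a⁻¹ = a⁻¹
    rw [map_inv₀, show g a = a from ha]

theorem mem_fixedFieldOf (g : PadicAlgCl q ≃ₐ[ℚ_[q]] PadicAlgCl q) (x : PadicAlgCl q) :
    x ∈ fixedFieldOf g ↔ g x = x := Iff.rfl

theorem fixingSubgroup_adjoin_iff (S : Set (PadicAlgCl q))
    (g : PadicAlgCl q ≃ₐ[ℚ_[q]] PadicAlgCl q) :
    g ∈ (adjoin ℚ_[q] S).fixingSubgroup ↔ ∀ x ∈ S, g x = x := by
  rw [IntermediateField.mem_fixingSubgroup_iff]
  constructor
  · intro h x hx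
    exact h x (subset_adjoin ℚ_[q] S hx)
  · intro h x hx
    have h1 : adjoin ℚ_[q] S ≤ fixedFieldOf g := adjoin_le_iff.2 (fun y hy => h y hy)
    exact h1 hx

theorem fixingSubgroup_unrField : (unrField q).fixingSubgroup = unrInertia q := by
  ext g
  rw [unrField, fixingSubgroup_adjoin_iff, mem_unrInertia]
  constructor
  · intro h m ξ hm hξ
    exact h ξ ⟨m, hm, hξ⟩
  · rintro h ξ ⟨m, hm, hξ⟩
    exact h m ξ hm hξ

/-- **Every finite unramified level is cyclotomic**: for an open normal subgroup `U`, some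
cyclotomic fixing subgroup of level prime to `q` lies in `unrInertia q ⊔ U`. -/
theorem exists_coprime_fixingSubgroup_le (U : Subgroup (PadicAlgCl q ≃ₐ[ℚ_[q]] PadicAlgCl q))
    (K' : IntermediateField ℚ_[q] (PadicAlgCl q)) [FiniteDimensional ℚ_[q] K']
    (hK' : K'.fixingSubgroup ≤ U) :
    ∃ m : ℕ, m.Coprime q ∧ 0 < m ∧
      (adjoin ℚ_[q] {ξ : PadicAlgCl q | ξ ^ m = 1}).fixingSubgroup ≤ unrInertia q ⊔ U := by
  classical
  set H : Subgroup (PadicAlgCl q ≃ₐ[ℚ_[q]] PadicAlgCl q) := unrInertia q ⊔ U with hH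
  have hK'H : K'.fixingSubgroup ≤ H := hK'.trans le_sup_right
  have hopen : IsOpen (H : Set (PadicAlgCl q ≃ₐ[ℚ_[q]] PadicAlgCl q)) :=
    Subgroup.isOpen_mono hK'H (IntermediateField.fixingSubgroup_isOpen K')
  have hclosed : IsClosed (H : Set (PadicAlgCl q ≃ₐ[ℚ_[q]] PadicAlgCl q)) :=
    (⟨H, hopen⟩ : OpenSubgroup (PadicAlgCl q ≃ₐ[ℚ_[q]] PadicAlgCl q)).isClosed
  set E : IntermediateField ℚ_[q] (PadicAlgCl q) := IntermediateField.fixedField H with hE
  have hEfix : E.fixingSubgroup = H := InfiniteGalois.fixingSubgroup_fixedField ⟨H, hclosed⟩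
  have hEK' : E ≤ K' := by
    have h1 := IntermediateField.fixedField_antitone hK'H
    rwa [InfiniteGalois.fixedField_fixingSubgroup] at h1
  have hEunr : E ≤ unrField q := by
    have h1 : unrInertia q ≤ H := le_sup_left
    have h2 := IntermediateField.fixedField_antitone h1
    rwa [← fixingSubgroup_unrField, InfiniteGalois.fixedField_fixingSubgroup] at h2
  haveI : FiniteDimensional ℚ_[q] E :=
    FiniteDimensional.of_injective (IntermediateField.inclusion hEK').toLinearMap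
      (IntermediateField.inclusion_injective hEK')
  -- a basis of `E`
  let b := Module.finBasis ℚ_[q] E
  have hb : ∀ i, ∃ T : Finset (PadicAlgCl q), (T : Set (PadicAlgCl q)) ⊆ unrRoots q ∧
      ((b i : E) : PadicAlgCl q) ∈ adjoin ℚ_[q] (T : Set (PadicAlgCl q)) := fun i =>
    exists_finset_of_mem_adjoin (hEunr (b i).2)
  choose T hT hbT using hb
  let T' : Finset (PadicAlgCl q) := Finset.univ.biUnion T
  have hT' : ∀ ξ ∈ T', ∃ m : ℕ, m.Coprime q ∧ ξ ^ m = 1 := by
    intro ξ hξ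
    obtain ⟨i, -, hi⟩ := Finset.mem_biUnion.1 hξ
    exact hT i hi
  choose! mξ hmξ hξm using hT'
  set m : ℕ := ∏ ξ ∈ T', mξ ξ with hm
  have hmq : m.Coprime q := Nat.Coprime.prod_left (fun ξ hξ => hmξ ξ hξ)
  have hm0 : 0 < m := by
    rcases Nat.eq_zero_or_pos m with h0 | h0
    · rw [h0, Nat.coprime_zero_left] at hmq
      exact absurd hmq hq.out.one_lt.ne'
    · exact h0
  refine ⟨m, hmq, hm0, ?_⟩
  rw [← hEfix]
  apply IntermediateField.fixingSubgroup_antitone
  -- `E ≤ ℚ_q(μ_m)`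
  have hTm : ∀ i, adjoin ℚ_[q] (T i : Set (PadicAlgCl q)) ≤
      adjoin ℚ_[q] {ξ : PadicAlgCl q | ξ ^ m = 1} := by
    intro i
    apply IntermediateField.adjoin.mono
    intro ξ hξ
    have hξT' : ξ ∈ T' := Finset.mem_biUnion.2 ⟨i, Finset.mem_univ i, hξ⟩
    obtain ⟨t, ht⟩ := Finset.dvd_prod_of_mem mξ hξT'
    show ξ ^ m = 1
    rw [hm, ht, pow_mul, hξm ξ hξT', one_pow]
  intro x hx
  have h1 := b.sum_repr ⟨x, hx⟩
  have h2 : x = ∑ i, (b.repr ⟨x, hx⟩ i) • ((b i : E) : PadicAlgCl q) := by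
    have := congrArg (fun e : E => (e : PadicAlgCl q)) h1
    simp only [AddSubmonoidClass.coe_finsetSum, IntermediateField.coe_smul] at this
    exact this.symm
  rw [h2]
  apply Subalgebra.sum_mem
  intro i _
  exact (adjoin ℚ_[q] {ξ : PadicAlgCl q | ξ ^ m = 1}).smul_mem (hTm i (hbT i))

/-- **The Galois group of a cyclotomic extension of level prime to `q` is cyclic.** -/
theorem exists_generator_mod_cyclotomic {m : ℕ} (hmq : m.Coprime q) (hm0 : 0 < m) :
    ∃ φ : PadicAlgCl q ≃ₐ[ℚ_[q]] PadicAlgCl q, ∀ g : PadicAlgCl q ≃ₐ[ℚ_[q]] PadicAlgCl q,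
      ∃ k : ℕ, ∃ n ∈ (adjoin ℚ_[q] {ξ : PadicAlgCl q | ξ ^ m = 1}).fixingSubgroup,
        g = φ ^ k * n := by
  classical
  haveI : NeZero m := ⟨hm0.ne'⟩
  obtain ⟨ω, hω⟩ := HasEnoughRootsOfUnity.exists_primitiveRoot (PadicAlgCl q) m
  set χ : (PadicAlgCl q ≃ₐ[ℚ_[q]] PadicAlgCl q) →* (ZMod m)ˣ := hω.autToPow ℚ_[q] with hχ
  set u : (ZMod m)ˣ := ZMod.unitOfCoprime q hmq.symm with hu
  -- the image of `χ` consists of powers of `q`
  have himage : ∀ g, χ g ∈ Subgroup.zpowers u := by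
    intro g
    obtain ⟨k, hk⟩ := exists_pow_eq_of_isPrimitiveRoot hmq hω g
    have h1 := hω.autToPow_spec ℚ_[q] g
    rw [hk] at h1
    have h2 : ((χ g : (ZMod m)ˣ) : ZMod m).val ≡ q ^ k [MOD m] := by
      have := hω.pow_inj (ZMod.val_lt _) (Nat.mod_lt _ hm0) (by
        rw [h1]
        conv_lhs => rw [← Nat.mod_add_div (q ^ k) m]
        rw [pow_add, pow_mul, hω.pow_eq_one, one_pow, mul_one])
      rw [Nat.ModEq, this, Nat.mod_mod]
    have h3 : ((χ g : (ZMod m)ˣ) : ZMod m) = ((q ^ k : ℕ) : ZMod m) := by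
      rw [← ZMod.natCast_zmod_val ((χ g : (ZMod m)ˣ) : ZMod m)]
      exact (ZMod.natCast_eq_natCast_iff _ _ _).2 h2
    refine ⟨(k : ℤ), ?_⟩
    apply Units.ext
    rw [h3]
    simp [hu]
  -- the range of `χ` is cyclic
  have hle : χ.range ≤ Subgroup.zpowers u := by
    rintro _ ⟨g, rfl⟩
    exact himage g
  haveI : IsCyclic χ.range :=
    isCyclic_of_injective (Subgroup.inclusion hle) (Subgroup.inclusion_injective hle)
  obtain ⟨⟨x, φ, rfl⟩, hx⟩ := IsCyclic.exists_generator (α := χ.range)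
  refine ⟨φ, fun g => ?_⟩
  have h1 := hx ⟨χ g, g, rfl⟩
  rw [← mem_powers_iff_mem_zpowers] at h1
  obtain ⟨k, hk⟩ := h1
  have hk' : χ φ ^ k = χ g := congrArg Subtype.val hk
  refine ⟨k, (φ ^ k)⁻¹ * g, ?_, by group⟩
  -- `(φ ^ k)⁻¹ * g` lies in the kernel of `χ`, hence fixes `μ_m`
  have hker : χ ((φ ^ k)⁻¹ * g) = 1 := by
    rw [map_mul, map_inv, map_pow, hk', inv_mul_cancel]
  rw [fixingSubgroup_adjoin_iff]
  intro ξ hξ
  have hfixω : ((φ ^ k)⁻¹ * g) ω = ω := by
    have h2 := hω.autToPow_spec ℚ_[q] ((φ ^ k)⁻¹ * g)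
    rw [← hχ, hker, Units.val_one, ZMod.val_one_eq_one_mod] at h2
    rw [← h2]
    rcases Nat.lt_or_ge 1 m with h1m | h1m
    · rw [Nat.mod_eq_of_lt h1m, pow_one]
    · have : m = 1 := by omega
      subst this
      rw [Nat.mod_self, pow_zero]
      exact (IsPrimitiveRoot.one_right_iff.1 hω).symm
  obtain ⟨i, -, rfl⟩ := hω.eq_pow_of_pow_eq_one (show ξ ^ m = 1 from hξ)
  rw [map_pow, hfixω]

/-- **For every open normal subgroup `U`, the quotient `G_q / (unrInertia ⊔ U)` is cyclic.** -/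
theorem exists_generator_mod_unrInertia_sup
    (U : Subgroup (PadicAlgCl q ≃ₐ[ℚ_[q]] PadicAlgCl q))
    (K' : IntermediateField ℚ_[q] (PadicAlgCl q)) [FiniteDimensional ℚ_[q] K']
    (hK' : K'.fixingSubgroup ≤ U) :
    ∃ φ : PadicAlgCl q ≃ₐ[ℚ_[q]] PadicAlgCl q, ∀ g : PadicAlgCl q ≃ₐ[ℚ_[q]] PadicAlgCl q,
      ∃ k : ℕ, ∃ n ∈ unrInertia q ⊔ U, g = φ ^ k * n := by
  obtain ⟨m, hmq, hm0, hle⟩ := exists_coprime_fixingSubgroup_le U K' hK'
  obtain ⟨φ, hφ⟩ := exists_generator_mod_cyclotomic (q := q) hmq hm0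
  refine ⟨φ, fun g => ?_⟩
  obtain ⟨k, n, hn, rfl⟩ := hφ g
  exact ⟨k, n, hle hn, rfl⟩

end Fermat.Agent.TW
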