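/-
TW (S56) — helper6 — leaf (LU), abstract part.
* `card_vanishCond_le`: for a normal subgroup `N` of `G` with `G / N` cyclic (generated by `φ`) and
  a finite `G`-module `Y`: `#{classes in H¹(G, Y) with a representative vanishing on N} ≤ #Y^G`.
* `card_locCond_vanishCond_le`: for an open basis `𝒰` of `G`, a finite smooth `Y` and a normal
  subgroup `I` such that `G / (I ⊔ U)` is cyclic for every basic open `U`:
  `#(locCond Y (vanishCond Y I)) ≤ #Ext⁰(𝟙, Y)`.
-/
import Mathlib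
import Fermat.Agent.TW.LocalCond_helper6

set_option autoImplicit false
set_option linter.unusedSectionVars false
set_option linter.style.haveILetI false

noncomputable section

namespace Fermat.Agent.TW

open Fermat.Agent.CFT.Sm Fermat.Agent.CFT.Bridge groupCohomology CategoryTheory
  CategoryTheory.Abelian

section PartA

variable {G : Type} [Group G] (Y : Rep.{0} ℤ G)

theorem ρ_mul_apply (g h : G) (y : Y.V) : Y.ρ (g * h) y = Y.ρ g (Y.ρ h y) := by
  rw [map_mul]; rfl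

theorem ρ_one_apply (y : Y.V) : Y.ρ 1 y = y := by
  rw [map_one]; rfl

/-- the set where a cocycle vanishes is a subgroup -/
def vanishSubgroup (c : cocycles₁ Y) : Subgroup G where
  carrier := {g | (c : G → Y.V) g = 0}
  one_mem' := cocycles₁_map_one c
  mul_mem' := by
    intro g h hg hh
    show (c : G → Y.V) (g * h) = 0
    rw [(mem_cocycles₁_iff (c : G → Y.V)).1 c.2 g h]
    rw [show (c : G → Y.V) h = 0 from hh, show (c : G → Y.V) g = 0 from hg, map_zero (Y.ρ g),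
      add_zero]
  inv_mem' := by
    intro g hg
    show (c : G → Y.V) g⁻¹ = 0
    have h1 := cocycles₁_map_inv c g
    rw [show (c : G → Y.V) g = 0 from hg, neg_zero] at h1
    have h2 := congrArg (Y.ρ g⁻¹) h1
    rw [map_zero (Y.ρ g⁻¹), ← ρ_mul_apply, inv_mul_cancel, ρ_one_apply] at h2
    exact h2

theorem mem_vanishSubgroup (c : cocycles₁ Y) (g : G) :
    g ∈ vanishSubgroup Y c ↔ (c : G → Y.V) g = 0 := Iff.rfl

/-- a cocycle vanishing on `N` and at `φ` vanishes identically if `⟨N, φ⟩ = G` -/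
theorem cocycle_eq_zero_of_vanish (c : cocycles₁ Y) (N : Subgroup G) (φ : G)
    (hφ : ∀ g : G, ∃ k : ℕ, ∃ n ∈ N, g = φ ^ k * n)
    (hN : ∀ n ∈ N, (c : G → Y.V) n = 0) (hc : (c : G → Y.V) φ = 0) (g : G) :
    (c : G → Y.V) g = 0 := by
  obtain ⟨k, n, hn, rfl⟩ := hφ g
  exact (vanishSubgroup Y c).mul_mem ((vanishSubgroup Y c).pow_mem hc k) (hN n hn)

variable (N : Subgroup G) [hNn : N.Normal]

/-- the `N`-invariants of `Y` -/
def invOf : AddSubgroup Y.V where
  carrier := {y | ∀ n ∈ N, Y.ρ n y = y}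
  zero_mem' := fun n _ => map_zero (Y.ρ n)
  add_mem' := by
    intro a b ha hb n hn
    rw [map_add (Y.ρ n), ha n hn, hb n hn]
  neg_mem' := by
    intro a ha n hn
    rw [map_neg (Y.ρ n), ha n hn]

theorem mem_invOf (y : Y.V) : y ∈ invOf Y N ↔ ∀ n ∈ N, Y.ρ n y = y := Iff.rfl

theorem ρ_mem_invOf (g : G) {y : Y.V} (hy : y ∈ invOf Y N) : Y.ρ g y ∈ invOf Y N := by
  intro n hn
  have h1 : g⁻¹ * n * g ∈ N := by
    have := hNn.conj_mem n hn g⁻¹
    rwa [inv_inv] at this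
  have h2 := hy _ h1
  have h3 : n * g = g * (g⁻¹ * n * g) := by group
  rw [← ρ_mul_apply, h3, ρ_mul_apply, h2]

/-- the values of a cocycle vanishing on `N` are `N`-invariant -/
theorem cocycle_mem_invOf (c : cocycles₁ Y) (hN : ∀ n ∈ N, (c : G → Y.V) n = 0) (g : G) :
    (c : G → Y.V) g ∈ invOf Y N := by
  intro n hn
  have h1 : g⁻¹ * n * g ∈ N := by
    have := hNn.conj_mem n hn g⁻¹
    rwa [inv_inv] at this
  have h3 : n * g = g * (g⁻¹ * n * g) := by group
  have h4 := (mem_cocycles₁_iff (c : G → Y.V)).1 c.2 n g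
  have h5 := (mem_cocycles₁_iff (c : G → Y.V)).1 c.2 g (g⁻¹ * n * g)
  rw [hN n hn, add_zero] at h4
  rw [hN _ h1, map_zero (Y.ρ g), zero_add, ← h3] at h5
  rw [← h4, h5]

/-- `φ - 1` on the `N`-invariants -/
def frobSub (φ : G) : invOf Y N →+ invOf Y N where
  toFun y := ⟨Y.ρ φ y - y, (invOf Y N).sub_mem (ρ_mem_invOf Y N φ y.2) y.2⟩
  map_zero' := by
    apply Subtype.ext
    show Y.ρ φ (0 : Y.V) - 0 = 0
    rw [map_zero (Y.ρ φ), sub_zero]
  map_add' := by
    intro a b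
    apply Subtype.ext
    show Y.ρ φ ((a : Y.V) + b) - ((a : Y.V) + b) = (Y.ρ φ a - a) + (Y.ρ φ b - b)
    rw [map_add (Y.ρ φ)]
    abel

theorem frobSub_coe (φ : G) (y : invOf Y N) :
    ((frobSub Y N φ y : invOf Y N) : Y.V) = Y.ρ φ y - y := rfl

/-- `#coker = #ker` for an endomorphism of a finite abelian group -/
theorem card_quotient_range_eq_card_ker {M : Type*} [AddCommGroup M] [Finite M] (f : M →+ M) :
    Nat.card (M ⧸ f.range) = Nat.card f.ker := by
  have h1 : Nat.card M = Nat.card (M ⧸ f.range) * Nat.card f.range :=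
    AddSubgroup.card_eq_card_quotient_mul_card_addSubgroup f.range
  have h2 : Nat.card M = Nat.card f.ker * Nat.card f.range := by
    rw [← AddSubgroup.index_ker, AddSubgroup.card_mul_index]
  have h3 : 0 < Nat.card f.range := Nat.card_pos
  exact Nat.eq_of_mul_eq_mul_right h3 (h1.symm.trans h2)

/-- **(LU), finite level.** -/
theorem card_vanishCond_le [Finite Y.V] (φ : G)
    (hφ : ∀ g : G, ∃ k : ℕ, ∃ n ∈ N, g = φ ^ k * n) :
    Finite (vanishCond Y N) ∧
      Nat.card (vanishCond Y N) ≤ Nat.card {y : Y.V // ∀ g : G, Y.ρ g y = y} := by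
  classical
  -- representatives
  have hrep : ∀ x : vanishCond Y N, ∃ c : cocycles₁ Y,
      (∀ g ∈ N, (c : G → Y.V) g = 0) ∧ (H1π Y).hom c = x.1 := fun x => x.2
  choose rep hrepN hrepx using hrep
  let Θ : vanishCond Y N → (invOf Y N ⧸ (frobSub Y N φ).range) := fun x =>
    QuotientAddGroup.mk ⟨(rep x : G → Y.V) φ, cocycle_mem_invOf Y N (rep x) (hrepN x) φ⟩
  have hΘ : Function.Injective Θ := by
    intro x x' hxx'
    have h1 := (QuotientAddGroup.eq_iff_sub_mem).1 hxx'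
    obtain ⟨w, hw⟩ := h1
    have hw' : Y.ρ φ (w : Y.V) - w = (rep x : G → Y.V) φ - (rep x' : G → Y.V) φ :=
      congrArg Subtype.val hw
    -- the difference cocycle
    let d : cocycles₁ Y := rep x - rep x' -
      ⟨(d₀₁ Y).hom (w : Y.V), d₀₁_apply_mem_cocycles₁ (A := Y) (w : Y.V)⟩
    have hdval : ∀ g, (d : G → Y.V) g =
        (rep x : G → Y.V) g - (rep x' : G → Y.V) g - (Y.ρ g (w : Y.V) - w) := fun g => rfl
    have hd0 : ∀ g, (d : G → Y.V) g = 0 := by
      apply cocycle_eq_zero_of_vanish Y d N φ hφ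
      · intro n hn
        rw [hdval, hrepN x n hn, hrepN x' n hn, w.2 n hn]
        simp
      · rw [hdval, hw']
        simp
    have hdz : d = 0 := by
      apply Subtype.ext
      funext g
      exact hd0 g
    have h2 : (H1π Y).hom d = 0 := by rw [hdz, map_zero]
    have h3 : (H1π Y).hom (⟨(d₀₁ Y).hom (w : Y.V), d₀₁_apply_mem_cocycles₁ (A := Y) (w : Y.V)⟩ :
        cocycles₁ Y) = 0 := (H1π_eq_zero_iff _).2 ⟨(w : Y.V), rfl⟩
    have h4 : (H1π Y).hom d = (H1π Y).hom (rep x) - (H1π Y).hom (rep x') - 0 := by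
      show (H1π Y).hom (rep x - rep x' - _) = _
      rw [map_sub, map_sub, h3]
    rw [h2, sub_zero, hrepx, hrepx] at h4
    apply Subtype.ext
    exact (sub_eq_zero.1 h4.symm)
  haveI : Finite (invOf Y N) := Subtype.finite
  have h1 : Nat.card (vanishCond Y N) ≤ Nat.card (invOf Y N ⧸ (frobSub Y N φ).range) :=
    Nat.card_le_card_of_injective Θ hΘ
  rw [card_quotient_range_eq_card_ker] at h1
  refine ⟨Finite.of_injective Θ hΘ, h1.trans ?_⟩
  -- the kernel of `φ - 1` on `Y^N` is `Y^G`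
  let Ψ : (frobSub Y N φ).ker → {y : Y.V // ∀ g : G, Y.ρ g y = y} := fun y =>
    ⟨((y : invOf Y N) : Y.V), by
    intro g
    obtain ⟨k, n, hn, rfl⟩ := hφ g
    have hy : Y.ρ φ ((y : invOf Y N) : Y.V) = ((y : invOf Y N) : Y.V) := by
      have := congrArg Subtype.val y.2
      exact sub_eq_zero.1 this
    have hk : ∀ k : ℕ, Y.ρ (φ ^ k) ((y : invOf Y N) : Y.V) = ((y : invOf Y N) : Y.V) := by
      intro k
      induction k with
      | zero => rw [pow_zero, ρ_one_apply]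
      | succ k ih => rw [pow_succ, ρ_mul_apply, hy, ih]
    rw [ρ_mul_apply, (y : invOf Y N).2 n hn, hk]⟩
  have hΨ : Function.Injective Ψ := by
    intro y y' h
    apply Subtype.ext
    apply Subtype.ext
    exact (Subtype.ext_iff.1 h : _)
  haveI : Finite {y : Y.V // ∀ g : G, Y.ρ g y = y} := Subtype.finite
  exact Nat.card_le_card_of_injective Ψ hΨ

end PartA

section PartB

variable {G : Type} [Group G] {𝒰 : OpenBasis G}

theorem vanishCond_mono (Y : Rep.{0} ℤ G) {I J : Subgroup G} (h : I ≤ J) :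
    vanishCond Y J ≤ vanishCond Y I := by
  rintro x ⟨c, hc, rfl⟩
  exact ⟨c, fun g hg => hc g (h hg), rfl⟩

/-- a class of a level-constant cocycle which has a representative vanishing on `I` has a
representative vanishing on `I ⊔ U` for some basic open `U` -/
theorem exists_mem_vanishCond_sup (Y : SmRep ℤ 𝒰) (I : Subgroup G) (x : H1 Y.obj)
    (hx : x ∈ vanishCond Y.obj I) (hlc : x ∈ (clsH1 Y).range) :
    ∃ U ∈ 𝒰.sets, x ∈ vanishCond Y.obj (I ⊔ U) := by
  obtain ⟨c₂, hc₂, rfl⟩ := hx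
  obtain ⟨c₁, ⟨H, ⟨U₁, hU₁, hU₁H⟩, hlc₁⟩, h12⟩ := (mem_range_clsH1_iff Y _).1 hlc
  obtain ⟨w, hw⟩ := (H1π_eq_iff c₁ c₂).1 h12
  obtain ⟨U₂, hU₂, hfix⟩ := ((smoothProp_iff 𝒰 Y.obj).1 Y.property) w
  obtain ⟨W, hW, hWle⟩ := 𝒰.directed U₁ hU₁ U₂ hU₂
  refine ⟨W, hW, c₂, ?_, rfl⟩
  have hWvan : W ≤ vanishSubgroup Y.obj c₂ := by
    intro s hs
    have hs1 : s ∈ H := hU₁H (hWle hs).1
    have hs2 : Y.obj.ρ s w = w := hfix s (hWle hs).2
    have h1 := congrFun hw s
    have h2 : Y.obj.ρ s w - w = (c₁ : G → Y.obj.V) s - (c₂ : G → Y.obj.V) s := h1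
    have h3 : (c₁ : G → Y.obj.V) s = 0 := by
      have := hlc₁ 1 s hs1
      rw [one_mul] at this
      rw [this]
      exact cocycles₁_map_one c₁
    rw [hs2, sub_self, h3, zero_sub] at h2
    show (c₂ : G → Y.obj.V) s = 0
    exact neg_eq_zero.1 h2.symm
  have hIvan : I ≤ vanishSubgroup Y.obj c₂ := fun g hg => hc₂ g hg
  intro g hg
  exact (sup_le hIvan hWvan) hg

theorem natCard_le_of_forall_finset {α : Type*} (h : ℕ) (H : ∀ s : Finset α, s.card ≤ h) :
    Finite α ∧ Nat.card α ≤ h := by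
  have hfin : Finite α := by
    by_contra hinf
    rw [not_finite_iff_infinite] at hinf
    obtain ⟨s, hs⟩ := Infinite.exists_subset_card_eq α (h + 1)
    have := H s
    omega
  refine ⟨hfin, ?_⟩
  haveI := Fintype.ofFinite α
  rw [Nat.card_eq_fintype_card, ← Finset.card_univ]
  exact H _

/-- **(LU), abstract form.** -/
theorem card_locCond_vanishCond_le (Y : SmRep ℤ 𝒰) [Finite Y.obj.V] (I : Subgroup G) [I.Normal]
    (hcyc : ∀ U ∈ 𝒰.sets, ∃ φ : G, ∀ g : G, ∃ k : ℕ, ∃ n ∈ I ⊔ U, g = φ ^ k * n) :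
    Finite (locCond Y (vanishCond Y.obj I)) ∧
    Nat.card (locCond Y (vanishCond Y.obj I)) ≤
      Nat.card {y : Y.obj.V // ∀ g : G, Y.obj.ρ g y = y} := by
  classical
  apply natCard_le_of_forall_finset
  intro s
  -- a common level
  have h1 : ∀ e : s, ∃ U ∈ 𝒰.sets, clsH1 Y (e : locCond Y (vanishCond Y.obj I)).1 ∈
      vanishCond Y.obj (I ⊔ U) := fun e =>
    exists_mem_vanishCond_sup Y I _ (e : locCond Y (vanishCond Y.obj I)).2 ⟨_, rfl⟩
  choose U hU hmem using h1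
  obtain ⟨W, hW, hWle⟩ := 𝒰.exists_mem_le_of_finite U (fun e => 𝒰.isOpen_of_mem (hU e))
  haveI : W.Normal := 𝒰.normal W hW
  obtain ⟨φ, hφ⟩ := hcyc W hW
  obtain ⟨hfin, h2⟩ := card_vanishCond_le Y.obj (I ⊔ W) φ hφ
  refine le_trans ?_ h2
  let Θ : s → vanishCond Y.obj (I ⊔ W) := fun e =>
    ⟨clsH1 Y (e : locCond Y (vanishCond Y.obj I)).1,
      vanishCond_mono Y.obj (sup_le_sup_left (hWle e) I) (hmem e)⟩
  have hΘ : Function.Injective Θ := by
    intro e e' h
    have h3 : clsH1 Y (e : locCond Y (vanishCond Y.obj I)).1 =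
        clsH1 Y (e' : locCond Y (vanishCond Y.obj I)).1 := congrArg Subtype.val h
    exact Subtype.ext (Subtype.ext (clsH1_injective Y h3))
  haveI : Finite {y : Y.obj.V // ∀ g : G, Y.obj.ρ g y = y} := Subtype.finite
  have h4 := Nat.card_le_card_of_injective Θ hΘ
  rwa [Nat.card_eq_fintype_card, Fintype.card_coe] at h4

/-- `#Ext⁰(𝟙, Y) = #Y^G` -/
theorem natCard_ext_zero (Y : SmRep ℤ 𝒰) :
    Nat.card (Ext (smUnit ℤ 𝒰) Y 0) = Nat.card {y : Y.obj.V // ∀ g : G, Y.obj.ρ g y = y} := by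
  refine Nat.card_congr ((Ext.addEquiv₀.trans (unitHomEquiv Y)).toEquiv.trans ?_)
  exact Equiv.subtypeEquivRight (fun y => Iff.rfl)

/-- **(LU), abstract form, in the shape consumed by the Selmer count.** -/
theorem card_locCond_vanishCond_le_ext (Y : SmRep ℤ 𝒰) [Finite Y.obj.V] (I : Subgroup G)
    [I.Normal]
    (hcyc : ∀ U ∈ 𝒰.sets, ∃ φ : G, ∀ g : G, ∃ k : ℕ, ∃ n ∈ I ⊔ U, g = φ ^ k * n) :
    Nat.card (locCond Y (vanishCond Y.obj I)) ≤ Nat.card (Ext (smUnit ℤ 𝒰) Y 0) := by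
  rw [natCard_ext_zero]
  exact (card_locCond_vanishCond_le Y I hcyc).2

end PartB

end Fermat.Agent.TW
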