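/-
TW (S56) — helper6 — leaf (LU): the count of the unramified local condition,
`#(locCond Y (unrCond v Y)) ≤ #Ext⁰(𝟙, Y)` for every finite smooth `G_v`-module `Y`.
-/
import Mathlib
import Fermat.Agent.TW.UnrArith2_helper6
import Fermat.Agent.TW.UnrCount_helper6

set_option autoImplicit false
set_option linter.unusedSectionVars false
set_option linter.style.haveILetI false

noncomputable section

namespace Fermat.Agent.TW

open Fermat.Agent.CFT.Sm Fermat.Agent.CFT.Bridge Fermat.Agent.CFT.Arith groupCohomology
  CategoryTheory CategoryTheory.Abelian ExtCitation IntermediateField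
open scoped Pointwise

/-- `Ω = AlgebraicClosure ℚ`. -/
local notation "Ω" => AlgebraicClosure ℚ

section Generic

variable {q : ℕ} [hq : Fact q.Prime]

/-- the field of `x ∈ ℚ̄` whose image in `ℚ̄_q` is fixed by `g` -/
def fixedFieldGlobal (g : PadicAlgCl q ≃ₐ[ℚ_[q]] PadicAlgCl q) : IntermediateField ℚ Ω where
  carrier := {x | g (padicEmbedding q x) = padicEmbedding q x}
  mul_mem' := fun {a b} ha hb => by
    show g (padicEmbedding q (a * b)) = padicEmbedding q (a * b)
    rw [map_mul, map_mul, show g (padicEmbedding q a) = _ from ha,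
      show g (padicEmbedding q b) = _ from hb]
  add_mem' := fun {a b} ha hb => by
    show g (padicEmbedding q (a + b)) = padicEmbedding q (a + b)
    rw [map_add, map_add, show g (padicEmbedding q a) = _ from ha,
      show g (padicEmbedding q b) = _ from hb]
  algebraMap_mem' := fun r => by
    show g (padicEmbedding q (algebraMap ℚ Ω r)) = padicEmbedding q (algebraMap ℚ Ω r)
    rw [AlgHom.commutes]
    have : algebraMap ℚ (PadicAlgCl q) r = algebraMap ℚ_[q] (PadicAlgCl q) (algebraMap ℚ ℚ_[q] r) :=
      by simp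
    rw [this, g.commutes]
  inv_mem' := fun a ha => by
    show g (padicEmbedding q a⁻¹) = padicEmbedding q a⁻¹
    rw [map_inv₀, map_inv₀, show g (padicEmbedding q a) = _ from ha]

/-- the pull-back to `G_q` of the fixing subgroup of a finite extension of `ℚ` contains the
fixing subgroup of a finite extension of `ℚ_q` -/
theorem exists_finiteDimensional_fixingSubgroup_le (F : IntermediateField ℚ Ω)
    [FiniteDimensional ℚ F] :
    ∃ K' : IntermediateField ℚ_[q] (PadicAlgCl q), FiniteDimensional ℚ_[q] K' ∧
      K'.fixingSubgroup ≤ F.fixingSubgroup.comap (localGaloisToGlobal q) := by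
  classical
  let b := Module.finBasis ℚ F
  let S : Set (PadicAlgCl q) := Set.range (fun i => padicEmbedding q ((b i : F) : Ω))
  haveI : Finite S := Set.finite_range _
  refine ⟨adjoin ℚ_[q] S, finiteDimensional_adjoin (fun x _ => Algebra.IsIntegral.isIntegral x),
    fun g hg => ?_⟩
  rw [fixingSubgroup_adjoin_iff] at hg
  rw [Subgroup.mem_comap, IntermediateField.mem_fixingSubgroup_iff]
  intro x hx
  apply (padicEmbedding q).injective
  show padicEmbedding q (localGaloisToGlobal q g x) = padicEmbedding q x
  rw [padicEmbedding_localGaloisToGlobal]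
  show x ∈ fixedFieldGlobal g
  have h1 := b.sum_repr ⟨x, hx⟩
  have h2 : x = ∑ i, (b.repr ⟨x, hx⟩ i) • ((b i : F) : Ω) := by
    have := congrArg (fun e : F => (e : Ω)) h1
    simp only [AddSubmonoidClass.coe_finsetSum, IntermediateField.coe_smul] at this
    exact this.symm
  rw [h2]
  apply Subalgebra.sum_mem
  intro i _
  exact (fixedFieldGlobal g).smul_mem (hg _ ⟨i, rfl⟩)

end Generic

section Local

variable (v : Nat.Primes)

instance locInertia_normal : (locInertia v).Normal := by
  refine ⟨fun h hh g => ?_⟩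
  rw [mem_locInertia] at hh ⊢
  rw [map_mul, map_mul, map_inv]
  have hg := primeLocalToGlobal_mem_decompositionSubgroup v g
  have h1 : (primeLocalToGlobal v g)⁻¹ • primeLocalPlace v = primeLocalPlace v := by
    have := MulAction.mem_stabilizer_iff.1 (inv_mem hg)
    exact this
  have h2 := (mem_inertiaSubgroupIn_smul_iff (K := ℚ) (A := primeLocalPlace v)
    (primeLocalToGlobal v g)⁻¹ (primeLocalToGlobal v h)).1 (by rw [h1]; exact hh)
  rwa [inv_inv] at h2

/-- **For every basic open subgroup `U` of `G_v`, the quotient `G_v / (I_v ⊔ U)` is cyclic.** -/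
theorem exists_generator_mod_locInertia_sup (U : Subgroup (primeLocalGaloisGroup v))
    (hU : U ∈ (locBasis v).sets) :
    ∃ φ : primeLocalGaloisGroup v, ∀ g : primeLocalGaloisGroup v,
      ∃ k : ℕ, ∃ n ∈ locInertia v ⊔ U, g = φ ^ k * n := by
  haveI : Fact ((v : ℕ)).Prime := ⟨v.2⟩
  obtain ⟨_, ⟨F, hF, rfl⟩, rfl⟩ := hU
  haveI := hF.1
  obtain ⟨K', hK'fin, hK'⟩ := exists_finiteDimensional_fixingSubgroup_le (q := (v : ℕ)) F
  haveI := hK'fin
  obtain ⟨φ, hφ⟩ := exists_generator_mod_unrInertia_sup (q := (v : ℕ))
    (F.fixingSubgroup.comap (localGaloisToGlobal (v : ℕ))) K' hK'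
  refine ⟨φ, fun g => ?_⟩
  obtain ⟨k, n, hn, hgn⟩ := hφ g
  refine ⟨k, n, ?_, hgn⟩
  have hle : unrInertia (v : ℕ) ≤ locInertia v := fun σ hσ =>
    localGaloisToGlobal_mem_inertiaSubgroupIn σ hσ
  exact (sup_le_sup_right hle _) hn

/-- **(LU): the count of the unramified condition.** -/
theorem card_locCond_unrCond_le (Y : SmRep ℤ (locBasis v)) [Finite Y.obj.V] :
    Nat.card (locCond Y (unrCond v Y.obj)) ≤ Nat.card (Ext (smUnit ℤ (locBasis v)) Y 0) :=
  card_locCond_vanishCond_le_ext Y (locInertia v) (exists_generator_mod_locInertia_sup v)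

/-- finiteness of the unramified condition -/
theorem finite_locCond_unrCond (Y : SmRep ℤ (locBasis v)) [Finite Y.obj.V] :
    Finite (locCond Y (unrCond v Y.obj)) :=
  (card_locCond_vanishCond_le Y (locInertia v) (exists_generator_mod_locInertia_sup v)).1

end Local

end Fermat.Agent.TW
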