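/-
TW (S56) — helper6 — maps out of power series rings into complete local rings.

* `psLift I x hx : MvPowerSeries σ 𝒪 →ₐ[𝒪] R` for an `I`-adically complete `𝒪`-algebra `R` and a
  finite family `x : σ → R` in `I` (`X i ↦ x i`);
* `psLift_surjective`: if `R` is a complete Noetherian local `𝒪`-algebra with the same residue field
  as the complete local ring `𝒪`, and the `x i`, together with `𝔪_𝒪`, generate `𝔪_R` modulo
  `𝔪_R ^ 2`, then `psLift` is surjective.
-/
import Mathlib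
import Fermat.Agent.S53.PSEval
import Fermat.Agent.S53.PSLocal

set_option autoImplicit false

namespace Fermat.Agent.TW

open IsLocalRing MvPowerSeries Fermat.Agent.S53

section Lift

variable {𝒪 : Type*} [CommRing 𝒪] {σ : Type*} [Finite σ] {R : Type*} [CommRing R] [Algebra 𝒪 R]
  (I : Ideal R)

/-- the images of a family in `I` have vanishing `n`-fold products modulo `I ^ n`. -/
theorem span_range_mk_pow_eq_bot (x : σ → R) (hx : ∀ i, x i ∈ I) (n : ℕ) :
    Ideal.span (Set.range fun i => Ideal.Quotient.mk (I ^ n) (x i)) ^ n = ⊥ := by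
  have h1 : Ideal.span (Set.range fun i => Ideal.Quotient.mk (I ^ n) (x i)) ≤
      I.map (Ideal.Quotient.mk (I ^ n)) := by
    rw [Ideal.span_le]
    rintro _ ⟨i, rfl⟩
    exact Ideal.mem_map_of_mem _ (hx i)
  have h2 := Ideal.pow_right_mono h1 n
  rw [← Ideal.map_pow, Ideal.map_quotient_self] at h2
  exact le_bot_iff.mp h2

/-- The level-`n` evaluation `MvPowerSeries σ 𝒪 → R ⧸ I ^ n`. -/
noncomputable def psLiftLevel (x : σ → R) (hx : ∀ i, x i ∈ I) (n : ℕ) :
    MvPowerSeries σ 𝒪 →ₐ[𝒪] R ⧸ I ^ n :=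
  PS.evalHom (fun i => Ideal.Quotient.mk (I ^ n) (x i)) n (span_range_mk_pow_eq_bot I x hx n)

theorem psLiftLevel_X (x : σ → R) (hx : ∀ i, x i ∈ I) (n : ℕ) (i : σ) :
    psLiftLevel (𝒪 := 𝒪) I x hx n (X i) = Ideal.Quotient.mk (I ^ n) (x i) :=
  PS.evalHom_X _ _ _ i

theorem psLiftLevel_eq_zero (x : σ → R) (hx : ∀ i, x i ∈ I) (n : ℕ) (t : MvPowerSeries σ 𝒪)
    (ht : ∀ d : σ →₀ ℕ, Finsupp.degree d < n → coeff d t = 0) :
    psLiftLevel (𝒪 := 𝒪) I x hx n t = 0 := by
  rw [psLiftLevel, PS.evalHom_apply]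
  have : truncTotal n t = 0 := by
    ext d
    rw [coeff_truncTotal_eq_ite, MvPolynomial.coeff_zero]
    split_ifs with hd
    · exact ht d hd
    · rfl
  rw [this, map_zero]

theorem psLiftLevel_compat (x : σ → R) (hx : ∀ i, x i ∈ I) {m n : ℕ} (hle : m ≤ n) :
    (Ideal.Quotient.factorₐ 𝒪 (Ideal.pow_le_pow_right hle)).comp (psLiftLevel I x hx n) =
      psLiftLevel (𝒪 := 𝒪) I x hx m := by
  refine PS.algHom_ext_of_X m ?_ (fun t ht => psLiftLevel_eq_zero I x hx m t ht) ?_
  · intro t ht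
    rw [AlgHom.comp_apply, psLiftLevel, PS.evalHom_apply, ← AlgHom.comp_apply,
      MvPolynomial.comp_aeval]
    have hp : truncTotal n t ∈ MvPolynomial.idealOfVars σ 𝒪 ^ m := by
      rw [MvPolynomial.mem_pow_idealOfVars_iff']
      intro d hd
      rw [coeff_truncTotal_eq_ite]
      split_ifs
      · exact ht d hd
      · rfl
    have h1 := PS.aeval_mem_of_mem_pow (𝒪 := 𝒪)
      (fun i => (Ideal.Quotient.factorₐ 𝒪 (Ideal.pow_le_pow_right (I := I) hle))
        (Ideal.Quotient.mk (I ^ n) (x i))) m _ hp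
    have h2 : (fun i => (Ideal.Quotient.factorₐ 𝒪 (Ideal.pow_le_pow_right (I := I) hle))
        (Ideal.Quotient.mk (I ^ n) (x i))) = fun i => Ideal.Quotient.mk (I ^ m) (x i) := by
      funext i
      rfl
    rw [h2, span_range_mk_pow_eq_bot I x hx m, Ideal.mem_bot] at h1
    rw [h2]
    exact h1
  · intro i
    rw [AlgHom.comp_apply, psLiftLevel_X, psLiftLevel_X]
    rfl

variable [IsAdicComplete I R]

/-- Evaluation of power series at a finite family of elements of `I`, for an `I`-adically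
complete `𝒪`-algebra. -/
noncomputable def psLift (x : σ → R) (hx : ∀ i, x i ∈ I) : MvPowerSeries σ 𝒪 →ₐ[𝒪] R :=
  IsAdicComplete.liftAlgHom I (fun n => psLiftLevel I x hx n)
    (fun hle => psLiftLevel_compat I x hx hle)

theorem mk_psLift (x : σ → R) (hx : ∀ i, x i ∈ I) (n : ℕ) (t : MvPowerSeries σ 𝒪) :
    Ideal.Quotient.mk (I ^ n) (psLift I x hx t) = psLiftLevel I x hx n t :=
  IsAdicComplete.mk_liftAlgHom I _ _ n t

theorem psLift_X (x : σ → R) (hx : ∀ i, x i ∈ I) (i : σ) :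
    psLift (𝒪 := 𝒪) I x hx (X i) = x i := by
  have hH : IsHausdorff I R := inferInstance
  rw [← sub_eq_zero]
  apply hH.haus'
  intro n
  rw [SModEq.zero, smul_eq_mul, Ideal.mul_top, ← Ideal.Quotient.eq, mk_psLift, psLiftLevel_X]

end Lift

section Surj

variable {𝒪 : Type*} [CommRing 𝒪] [IsLocalRing 𝒪] [IsPrecomplete (maximalIdeal 𝒪) 𝒪]
  {σ : Type*} [Finite σ]
  {R : Type*} [CommRing R] [IsLocalRing R] [IsNoetherianRing R]
  [IsHausdorff (maximalIdeal R) R] [Algebra 𝒪 R] [IsLocalHom (algebraMap 𝒪 R)]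

/-- The image of the maximal ideal of the power series ring generates `𝔪_R` as soon as the images
of the variables, together with `𝔪_𝒪`, generate `𝔪_R` modulo `𝔪_R ^ 2` (Nakayama). -/
theorem map_maximalIdeal_eq_of_gen (hres : Function.Surjective (residue R ∘ algebraMap 𝒪 R))
    (γ : MvPowerSeries σ 𝒪 →ₐ[𝒪] R)
    (hgen : Ideal.span (Set.range fun i => γ (X i)) ⊔ (maximalIdeal 𝒪).map (algebraMap 𝒪 R) ⊔
      maximalIdeal R ^ 2 = maximalIdeal R) :
    (maximalIdeal (MvPowerSeries σ 𝒪)).map (γ : MvPowerSeries σ 𝒪 →+* R) = maximalIdeal R := by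
  have hloc := PS.algHom_isLocalHom hres γ
  refine le_antisymm ?_ ?_
  · rw [Ideal.map_le_iff_le_comap]
    intro t ht
    exact map_nonunit (γ : MvPowerSeries σ 𝒪 →+* R) t ht
  · set J := (maximalIdeal (MvPowerSeries σ 𝒪)).map (γ : MvPowerSeries σ 𝒪 →+* R) with hJ
    have h1 : Ideal.span (Set.range fun i => γ (X i)) ⊔ (maximalIdeal 𝒪).map (algebraMap 𝒪 R) ≤
        J := by
      refine sup_le ?_ ?_
      · rw [Ideal.span_le]
        rintro _ ⟨i, rfl⟩
        exact Ideal.mem_map_of_mem (γ : MvPowerSeries σ 𝒪 →+* R) (PS.X_mem_maximalIdeal (𝒪 := 𝒪) i)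
      · rw [Ideal.map_le_iff_le_comap]
        intro c hc
        have hC : (C c : MvPowerSeries σ 𝒪) ∈ maximalIdeal (MvPowerSeries σ 𝒪) := by
          rw [PS.mem_maximalIdeal_iff]; simpa using hc
        have := Ideal.mem_map_of_mem (γ : MvPowerSeries σ 𝒪 →+* R) hC
        rw [Ideal.mem_comap]
        have hfC : (γ : MvPowerSeries σ 𝒪 →+* R) (C c) = algebraMap 𝒪 R c := by
          rw [MvPowerSeries.c_eq_algebraMap]; exact γ.commutes c
        rwa [hfC] at this
    have h2 : maximalIdeal R ≤ J ⊔ maximalIdeal R • maximalIdeal R := by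
      rw [smul_eq_mul, ← pow_two]
      calc maximalIdeal R = _ := hgen.symm
        _ ≤ J ⊔ maximalIdeal R ^ 2 := sup_le_sup_right h1 _
    exact Submodule.le_of_le_smul_of_le_jacobson_bot (IsNoetherian.noetherian _)
      (IsLocalRing.maximalIdeal_le_jacobson ⊥) h2

/-- **Surjectivity criterion.** An `𝒪`-algebra map from a power series ring over the complete local
ring `𝒪` to a Noetherian local `𝒪`-algebra `R` with the same residue field, separated for its
maximal ideal, is surjective as soon as the images of the variables, together with `𝔪_𝒪`, generate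
`𝔪_R` modulo `𝔪_R ^ 2`. -/
theorem algHom_surjective_of_gen (hres : Function.Surjective (residue R ∘ algebraMap 𝒪 R))
    (γ : MvPowerSeries σ 𝒪 →ₐ[𝒪] R)
    (hgen : Ideal.span (Set.range fun i => γ (X i)) ⊔ (maximalIdeal 𝒪).map (algebraMap 𝒪 R) ⊔
      maximalIdeal R ^ 2 = maximalIdeal R) :
    Function.Surjective γ := by
  have hmap := map_maximalIdeal_eq_of_gen hres γ hgen
  haveI : IsPrecomplete (maximalIdeal (MvPowerSeries σ 𝒪)) (MvPowerSeries σ 𝒪) := PS.isPrecomplete
  haveI : IsHausdorff ((maximalIdeal (MvPowerSeries σ 𝒪)).map (γ : MvPowerSeries σ 𝒪 →+* R)) R := by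
    rw [hmap]; infer_instance
  refine surjective_of_mk_map_comp_surjective (I := maximalIdeal (MvPowerSeries σ 𝒪))
    (γ : MvPowerSeries σ 𝒪 →+* R) ?_
  intro y
  obtain ⟨y, rfl⟩ := Ideal.Quotient.mk_surjective y
  obtain ⟨c, hc⟩ := hres (residue R y)
  refine ⟨C c, ?_⟩
  rw [RingHom.comp_apply, Ideal.Quotient.eq, hmap, ← residue_eq_zero_iff, map_sub, sub_eq_zero]
  have hfC : (γ : MvPowerSeries σ 𝒪 →+* R) (C c) = algebraMap 𝒪 R c := by
    rw [MvPowerSeries.c_eq_algebraMap]; exact γ.commutes c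
  rw [hfC]
  exact hc

end Surj

section Main

variable {𝒪 : Type*} [CommRing 𝒪] [IsLocalRing 𝒪] [IsPrecomplete (maximalIdeal 𝒪) 𝒪]
  {R : Type*} [CommRing R] [IsLocalRing R] [IsNoetherianRing R]
  [IsAdicComplete (maximalIdeal R) R] [Algebra 𝒪 R] [IsLocalHom (algebraMap 𝒪 R)]

/-- **Theorem A.** If `r` elements of `𝔪_R`, together with `𝔪_𝒪`, generate `𝔪_R` modulo `𝔪_R ^ 2`,
then `R` is a quotient of the power series ring in `r` variables over `𝒪`. -/
theorem exists_surjective_mvPowerSeries_of_gen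
    (hres : Function.Surjective (residue R ∘ algebraMap 𝒪 R)) {r : ℕ} (x : Fin r → R)
    (hx : ∀ i, x i ∈ maximalIdeal R)
    (hgen : Ideal.span (Set.range x) ⊔ (maximalIdeal 𝒪).map (algebraMap 𝒪 R) ⊔
      maximalIdeal R ^ 2 = maximalIdeal R) :
    ∃ γ : MvPowerSeries (Fin r) 𝒪 →ₐ[𝒪] R, (∀ i, γ (X i) = x i) ∧ Function.Surjective γ := by
  refine ⟨psLift (maximalIdeal R) x hx, fun i => psLift_X _ x hx i, ?_⟩
  apply algHom_surjective_of_gen hres
  have : (fun i => psLift (𝒪 := 𝒪) (maximalIdeal R) x hx (X i)) = x :=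
    funext fun i => psLift_X _ x hx i
  rw [this]
  exact hgen

end Main

end Fermat.Agent.TW
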