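/-
S56 (Taylor–Wiles) — helper9. Dual Selmer groups inside the master group `H¹(G_ℚ, 𝐌(X))`,
`𝐌(X) = Hom_ℤ(X, Ωˣ)`:
* (A) the image of `jS : Ext¹(X_S, E_S) → H¹(G_ℚ, 𝐌(X))` = the classes level-constant for `𝒰_S`;
* (B) compatibility of `jS` with the localisation maps `locExt v`;
* (C) the image `twT` of the dual Selmer group of `twDatum S` is cut out inside `H¹(G_ℚ, 𝐌(X))`
  by level-constancy for `𝒰_S` and `S`-independent local conditions `dualCondAt`.
-/
import Fermat.Agent.TW.DualRep_helper9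
import Fermat.Agent.CFT.LocForm.Dual_helper4

set_option autoImplicit false
set_option linter.unusedSectionVars false

open CategoryTheory CategoryTheory.Abelian groupCohomology ExtCitation

namespace Fermat.Agent.TW

open Fermat.Agent.CFT.Sm Fermat.Agent.CFT.Bridge Fermat.Agent.CFT.Arith Fermat.Agent.CFT.Local
  Fermat.Agent.CFT

/-- `Ω = AlgebraicClosure ℚ`. -/
local notation "Ω" => AlgebraicClosure ℚ
/-- `GQ = Gal(Ω/ℚ)`. -/
local notation "GQ" => (AlgebraicClosure ℚ ≃ₐ[ℚ] AlgebraicClosure ℚ)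

section LcClass

variable {Γ : Type} [Group Γ]

/-- a class in abstract `H¹` is *level-constant* for `𝒰` if it is represented by a level-constant
cocycle -/
def IsLcClass (𝒰 : OpenBasis Γ) (A : Rep.{0} ℤ Γ) (x : H1 A) : Prop :=
  ∃ c : cocycles₁ A, IsLC₁ 𝒰 (c : Γ → A.V) ∧ (H1π A).hom c = x

variable {𝒰 : OpenBasis Γ} {Γ' : Type} [Group Γ'] {𝒰' : OpenBasis Γ'}

lemma isLcClass_map (ψ : Γ' →* Γ) (hψ : 𝒰'.Finer (𝒰.comap ψ)) {A : Rep.{0} ℤ Γ}
    {B : Rep.{0} ℤ Γ'} (f : Rep.res ψ A ⟶ B) {x : H1 A} (hx : IsLcClass 𝒰 A x) :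
    IsLcClass 𝒰' B ((groupCohomology.map ψ f 1).hom x) := by
  obtain ⟨c, ⟨H, hH, hc⟩, rfl⟩ := hx
  refine ⟨(mapCocycles₁ ψ f).hom c, ⟨H.comap ψ, hψ.isOpen (𝒰.isOpen_comap ψ hH), ?_⟩, ?_⟩
  · intro g s hs
    rw [coe_mapCocycles₁]
    change f.hom (c (ψ (g * s))) = f.hom (c (ψ g))
    rw [map_mul, hc _ _ hs]
  · exact (H1π_comp_map_apply ψ f c).symm

lemma isLcClass_map_id {A B : Rep.{0} ℤ Γ} (f : A ⟶ B) {x : H1 A} (hx : IsLcClass 𝒰 A x) :
    IsLcClass 𝒰 B ((groupCohomology.map (MonoidHom.id Γ) f 1).hom x) :=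
  isLcClass_map (MonoidHom.id Γ) 𝒰.finer_comap_id f hx

lemma IsLcClass.mono {𝒱 : OpenBasis Γ} (h : 𝒱.Finer 𝒰) {A : Rep.{0} ℤ Γ} {x : H1 A}
    (hx : IsLcClass 𝒰 A x) : IsLcClass 𝒱 A x := by
  obtain ⟨c, ⟨H, hH, hc⟩, rfl⟩ := hx
  exact ⟨c, ⟨H, h.isOpen hH, hc⟩, rfl⟩

/-- a bijective morphism of representations is an isomorphism -/
lemma isIso_rep_of_bijective {A B : Rep.{0} ℤ Γ} (f : A ⟶ B) (h : Function.Bijective f.hom) :
    IsIso f := by
  have := (Rep.mono_iff_injective f).2 h.1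
  have := (Rep.epi_iff_surjective f).2 h.2
  exact isIso_of_mono_of_epi f

/-- `H¹` of the composite of two coefficient maps -/
lemma h1map_id_comp_apply {A B C : Rep.{0} ℤ Γ} (f : A ⟶ B) (g : B ⟶ C) (x : H1 A) :
    (groupCohomology.map (MonoidHom.id Γ) g 1).hom
      ((groupCohomology.map (MonoidHom.id Γ) f 1).hom x) =
    (groupCohomology.map (MonoidHom.id Γ) (f ≫ g) 1).hom x := by
  rw [groupCohomology.map_id_comp]
  rfl

lemma h1map_id_apply {A : Rep.{0} ℤ Γ} (x : H1 A) :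
    (groupCohomology.map (MonoidHom.id Γ) (𝟙 A) 1).hom x = x := by
  rw [groupCohomology.map_id]
  rfl

end LcClass

section RangeJS

variable {p : ℕ} [Fact p.Prime]
variable (X₀ : Rep.{0} ℤ GQ) [hfinX : @Module.Finite ℤ X₀.V _ _ X₀.hV2]
  (hX : ∀ x : X₀.V, p • x = 0)
  (S : Finset Nat.Primes) (hpS : pPrime p ∈ S) (hS : IsSmooth (levelBasis S) X₀)

lemma jS_apply (e : Ext (XS X₀ S hS) (ESSm S) 1) :
    jS X₀ hX S hpS hS e = (groupCohomology.map (MonoidHom.id GQ) (alphaS X₀ S hS) 1).hom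
      (extH1 p (XS X₀ S hS) hX (ESSm S) (pDiv_ESSm hpS) e) := rfl

/-- **(A)** the image of `jS` consists of the classes which are level-constant for `𝒰_S` -/
theorem mem_range_jS_iff (x : H1 (dualRep X₀)) :
    x ∈ (jS X₀ hX S hpS hS).range ↔ IsLcClass (levelBasis S) (dualRep X₀) x := by
  constructor
  · rintro ⟨e, rfl⟩
    rw [jS_apply]
    refine isLcClass_map_id _ ?_
    exact (mem_range_extH1_iff p (XS X₀ S hS) hX (ESSm S) (pDiv_ESSm hpS) _).1 ⟨e, rfl⟩
  · intro hx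
    have hiso : IsIso (alphaS X₀ S hS) :=
      isIso_rep_of_bijective _ (alphaS_bijective X₀ hX S hpS hS)
    have hy := isLcClass_map_id (𝒰 := levelBasis S) (inv (alphaS X₀ S hS)) hx
    obtain ⟨e, he⟩ := (mem_range_extH1_iff p (XS X₀ S hS) hX (ESSm S) (pDiv_ESSm hpS) _).2 hy
    refine ⟨e, ?_⟩
    rw [jS_apply, he, h1map_id_comp_apply, IsIso.inv_hom_id]
    exact h1map_id_apply x

lemma jS_injective : Function.Injective (jS X₀ hX S hpS hS) := by
  have hiso : IsIso (alphaS X₀ S hS) :=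
    isIso_rep_of_bijective _ (alphaS_bijective X₀ hX S hpS hS)
  intro a b hab
  apply extH1_injective p (XS X₀ S hS) hX (ESSm S) (pDiv_ESSm hpS)
  have h := congrArg (groupCohomology.map (MonoidHom.id GQ) (inv (alphaS X₀ S hS)) 1).hom hab
  rw [jS_apply, jS_apply, h1map_id_comp_apply, h1map_id_comp_apply, IsIso.hom_inv_id] at h
  exact ((h1map_id_apply _).symm.trans h).trans (h1map_id_apply _)

end RangeJS

section Local

variable {p : ℕ} [Fact p.Prime]
variable (X₀ : Rep.{0} ℤ GQ) [hfinX : @Module.Finite ℤ X₀.V _ _ X₀.hV2]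
  (hX : ∀ x : X₀.V, p • x = 0) (q : Nat.Primes)

/-- `Ωˣ → B_q` for `q : Nat.Primes` -/
noncomputable def omegaToBq : Rep.res (primeLocalToGlobal q) OmegaRep ⟶ BRep q :=
  letI : Fact (q : ℕ).Prime := ⟨q.2⟩
  omegaToB (q : ℕ)

/-- `β_q : Res_q 𝐌(X) → Hom(Res_q X, B_q)` -/
noncomputable def betaLoc : Rep.res (primeLocalToGlobal q) (dualRep X₀) ⟶
    (Rep.ihom (Rep.res (primeLocalToGlobal q) X₀)).obj (BRep q) :=
  (resIhomIso (primeLocalToGlobal q) X₀ OmegaRep).hom ≫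
    (Rep.ihom (Rep.res (primeLocalToGlobal q) X₀)).map (omegaToBq q)

omit hfinX in
lemma betaLoc_apply (φ : (dualRep X₀).V) :
    (betaLoc X₀ q).hom φ =
      ((Rep.ihom (Rep.res (primeLocalToGlobal q) X₀)).map (omegaToBq q)).hom
        ((resIhomIso (primeLocalToGlobal q) X₀ OmegaRep).hom.hom φ) := rfl

lemma rep_iso_hom_bijective {G : Type} [Group G] {A B : Rep.{0} ℤ G} (i : A ≅ B) :
    Function.Bijective i.hom.hom := by
  rw [Function.bijective_iff_has_inverse]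
  refine ⟨i.inv.hom, fun y => ?_, fun x => ?_⟩
  · exact congrArg (fun t => t.hom y) i.hom_inv_id
  · exact congrArg (fun t => t.hom x) i.inv_hom_id

include hX in
lemma betaLoc_bijective : Function.Bijective (betaLoc X₀ q).hom := by
  have : Fact (q : ℕ).Prime := ⟨q.2⟩
  have h1 : Function.Bijective
      ((Rep.ihom (Rep.res (primeLocalToGlobal q) X₀)).map (omegaToBq q)).hom :=
    ihom_map_bijective p (Rep.res (primeLocalToGlobal q) X₀) _ _ (omegaToBq q) hX
      (omegaToB_injective (q : ℕ)) (fun _ hb => exists_omegaToB_eq (p := p) hb)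
  have h2 := rep_iso_hom_bijective (resIhomIso (primeLocalToGlobal q) X₀ OmegaRep)
  constructor
  · intro a b hab
    rw [betaLoc_apply, betaLoc_apply] at hab
    exact h2.1 (h1.1 hab)
  · intro y
    obtain ⟨z, hz⟩ := h1.2 y
    obtain ⟨w, hw⟩ := h2.2 z
    refine ⟨w, (betaLoc_apply X₀ q w).trans ?_⟩
    rw [hw, hz]

variable (S : Finset Nat.Primes) (hpS : pPrime p ∈ S) (hS : IsSmooth (levelBasis S) X₀)

/-- **(B)** local compatibility of the class maps -/
theorem extH1_locExt (hp2 : p ≠ 2) (v : ↥S) (e : Ext (XS X₀ S hS) (ESSm S) 1) :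
    extH1 p (locSm S v.1 (XS X₀ S hS)) hX (BSm v.1) (pDiv_BSm p v.1)
        ((twDatum hp2 S hpS).locExt v (XS X₀ S hS) 1 e) =
      (groupCohomology.map (primeLocalToGlobal v.1) (betaLoc X₀ v.1) 1).hom
        (jS X₀ hX S hpS hS e) := by
  have h0 : (twDatum hp2 S hpS).locExt v (XS X₀ S hS) 1 e =
      (e.mapExactFunctor (resSm ℤ (primeLocalToGlobal v.1) (locBasis_finer S v.1))).comp
        (Ext.mk₀ (esToBSm S v.1)) (add_zero 1) := rfl
  have h1 := extH1_coeff p (locSm S v.1 (XS X₀ S hS)) hX (pDiv_locSm_ESSm hpS v.1)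
    (pDiv_BSm p v.1) (esToBSm S v.1)
    (e.mapExactFunctor (resSm ℤ (primeLocalToGlobal v.1) (locBasis_finer S v.1)))
  have h2 : extH1 p (locSm S v.1 (XS X₀ S hS)) hX (locSm S v.1 (ESSm S))
      (pDiv_locSm_ESSm hpS v.1)
      (e.mapExactFunctor (resSm ℤ (primeLocalToGlobal v.1) (locBasis_finer S v.1))) =
      (groupCohomology.map (primeLocalToGlobal v.1)
        (resHomSmHom (primeLocalToGlobal v.1) (locBasis_finer S v.1) (XS X₀ S hS) (ESSm S)).hom
          1).hom (extH1 p (XS X₀ S hS) hX (ESSm S) (pDiv_ESSm hpS) e) :=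
    extH1_res p (XS X₀ S hS) hX (primeLocalToGlobal v.1) (locBasis_finer S v.1)
      (ESSm S) (pDiv_ESSm hpS) e
  rw [h0]
  refine h1.trans ?_
  rw [h2, jS_apply]
  set z := extH1 p (XS X₀ S hS) hX (ESSm S) (pDiv_ESSm hpS) e with hz
  -- both sides are `H¹` of the same composite coefficient map
  have hL := groupCohomology.map_comp (k := ℤ) (A := ((homSm (XS X₀ S hS)).obj (ESSm S)).obj)
    (primeLocalToGlobal v.1) (MonoidHom.id (primeLocalGaloisGroup v.1))
    (resHomSmHom (primeLocalToGlobal v.1) (locBasis_finer S v.1) (XS X₀ S hS) (ESSm S)).hom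
    ((homSm (locSm S v.1 (XS X₀ S hS))).map (esToBSm S v.1)).hom 1
  have hR := groupCohomology.map_comp (k := ℤ) (A := ((homSm (XS X₀ S hS)).obj (ESSm S)).obj)
    (MonoidHom.id GQ) (primeLocalToGlobal v.1) (alphaS X₀ S hS) (betaLoc X₀ v.1) 1
  have hL' := congrArg (fun f => f.hom z) hL
  have hR' := congrArg (fun f => f.hom z) hR
  exact hL'.symm.trans hR'


end Local



section DualCond

variable (p : ℕ) [Fact p.Prime]
variable (X₀ : Rep.{0} ℤ GQ) [hfinX : @Module.Finite ℤ X₀.V _ _ X₀.hV2]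
  (hX : ∀ x : X₀.V, p • x = 0) (q : Nat.Primes)
  (hq : IsSmooth (locBasis q) (Rep.res (primeLocalToGlobal q) X₀))

/-- `Res_q X₀` as a smooth representation of `(G_q, locBasis q)` -/
noncomputable abbrev YLoc : SmRep ℤ (locBasis q) :=
  mkSm (locBasis q) (Rep.res (primeLocalToGlobal q) X₀) hq

instance instFiniteYLoc : @Module.Finite ℤ (YLoc X₀ q hq).obj.V _ _ (YLoc X₀ q hq).obj.hV2 := hfinX

/-- the local Tate pairing at `q` in degrees `(1, 1)` -/
noncomputable def locPairAt : Ext (YLoc X₀ q hq) (BSm q) 1 →+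
    CharacterModule (Ext (smUnit ℤ (locBasis q)) (YLoc X₀ q hq) 1) :=
  yPair (smUnit ℤ (locBasis q)) (BSm q) (tInv (BSm q) (LocForm.locPClassFormation q p).inv)
    (show 1 + 1 = 2 from rfl) (YLoc X₀ q hq)

/-- the dual local condition at `q`, as a subset of the master group `H¹(G_ℚ, 𝐌(X))`: the
restriction to `G_q` comes from a class of `Ext¹(Res_q X, B_q)` orthogonal to `Lq`. -/
def dualCondAt (Lq : AddSubgroup (Ext (smUnit ℤ (locBasis q)) (YLoc X₀ q hq) 1)) :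
    Set (H1 (dualRep X₀)) :=
  {x | ∃ ε : Ext (YLoc X₀ q hq) (BSm q) 1,
    extH1 p (YLoc X₀ q hq) hX (BSm q) (pDiv_BSm p q) ε =
      (groupCohomology.map (primeLocalToGlobal q) (betaLoc X₀ q) 1).hom x ∧
    ∀ y ∈ Lq, locPairAt p X₀ q hq ε y = 0}

end DualCond

section TwT

variable {p : ℕ} [Fact p.Prime] (hp2 : p ≠ 2)
variable (X₀ : Rep.{0} ℤ GQ) [hfinX : @Module.Finite ℤ X₀.V _ _ X₀.hV2]
  (hX : ∀ x : X₀.V, p • x = 0)
  (S : Finset Nat.Primes) (hpS : pPrime p ∈ S) (hS : IsSmooth (levelBasis S) X₀)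

omit hfinX in
include hS in
/-- smoothness of the restriction to `G_q` -/
lemma isSmooth_resQ (q : Nat.Primes) :
    IsSmooth (locBasis q) (Rep.res (primeLocalToGlobal q) X₀) :=
  isSmooth_res (primeLocalToGlobal q) (locBasis_finer S q) hS

variable (L : ∀ v : ↥S, AddSubgroup (Ext (smUnit ℤ (locBasis v.1))
  (YLoc X₀ v.1 (isSmooth_resQ X₀ S hS v.1)) 1))

/-- the image of the dual Selmer group in the master group `H¹(G_ℚ, 𝐌(X))` -/
noncomputable def twT : AddSubgroup (H1 (dualRep X₀)) :=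
  ((twDatum hp2 S hpS).dualSelmer (XS X₀ S hS) L).map (jS X₀ hX S hpS hS)

/-- **(C)** the dual Selmer group inside the master group -/
theorem mem_twT_iff (x : H1 (dualRep X₀)) :
    x ∈ twT hp2 X₀ hX S hpS hS L ↔
      IsLcClass (levelBasis S) (dualRep X₀) x ∧
        ∀ v : ↥S, x ∈ dualCondAt p X₀ hX v.1 (isSmooth_resQ X₀ S hS v.1) (L v) := by
  constructor
  · rintro ⟨e, he, rfl⟩
    refine ⟨(mem_range_jS_iff X₀ hX S hpS hS _).1 ⟨e, rfl⟩, fun v => ?_⟩
    refine ⟨(twDatum hp2 S hpS).locExt v (XS X₀ S hS) 1 e,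
      extH1_locExt X₀ hX S hpS hS hp2 v e, fun y hy => ?_⟩
    exact he v y hy
  · rintro ⟨hlc, hloc⟩
    obtain ⟨e, rfl⟩ := (mem_range_jS_iff X₀ hX S hpS hS _).2 hlc
    refine ⟨e, fun v y hy => ?_, rfl⟩
    obtain ⟨ε, hε, hεL⟩ := hloc v
    have h1 : ε = (twDatum hp2 S hpS).locExt v (XS X₀ S hS) 1 e := by
      apply extH1_injective p (YLoc X₀ v.1 (isSmooth_resQ X₀ S hS v.1)) hX (BSm v.1)
        (pDiv_BSm p v.1)
      exact hε.trans (extH1_locExt X₀ hX S hpS hS hp2 v e).symm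
    rw [← h1]
    exact hεL y hy

end TwT

end Fermat.Agent.TW
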