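/-
S56 (Taylor–Wiles) — helper9. The family of local conditions used in the final assembly:
at `p` a given condition `𝓗p`, at the primes of `Smin` other than `p` the unramified condition,
no condition elsewhere (in particular at the Taylor–Wiles primes).
-/
import Fermat.Agent.TW.DualSel_helper9
import Fermat.Agent.TW.LocalCond_helper6

set_option autoImplicit false

open CategoryTheory CategoryTheory.Abelian groupCohomology ExtCitation

namespace Fermat.Agent.TW

open Fermat.Agent.CFT.Sm Fermat.Agent.CFT.Bridge Fermat.Agent.CFT.Arith Fermat.Agent.CFT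

/-- `GQ = Gal(ℚ̄/ℚ)`. -/
local notation "GQ" => (AlgebraicClosure ℚ ≃ₐ[ℚ] AlgebraicClosure ℚ)

section Family

variable {k : Type} [Field k] (p : ℕ) [Fact p.Prime] (rbar : GQ →* Matrix (Fin 2) (Fin 2) k)
  (Smin : Finset Nat.Primes)
  (𝓗p : AddSubgroup (H1 (Rep.res (primeLocalToGlobal (pPrime p)) (adRep rbar))))

open Classical in
/-- the family of local conditions in `H¹(G_q, ad⁰)`: `𝓗p` at `p`, unramified at `q ∈ Smin`,
`q ≠ p`, and everything at `q ∉ Smin`. -/
noncomputable def twCond (q : Nat.Primes) :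
    AddSubgroup (H1 (Rep.res (primeLocalToGlobal q) (adRep rbar))) :=
  if h : q = pPrime p then h ▸ 𝓗p
  else if q ∈ Smin then unrCond q (Rep.res (primeLocalToGlobal q) (adRep rbar)) else ⊤

lemma twCond_p : twCond p rbar Smin 𝓗p (pPrime p) = 𝓗p := by
  unfold twCond
  rw [dif_pos rfl]

lemma twCond_of_mem {q : Nat.Primes} (hq : q ≠ pPrime p) (hqS : q ∈ Smin) :
    twCond p rbar Smin 𝓗p q = unrCond q (Rep.res (primeLocalToGlobal q) (adRep rbar)) := by
  unfold twCond
  rw [dif_neg hq, if_pos hqS]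

lemma twCond_of_not_mem {q : Nat.Primes} (hq : q ≠ pPrime p) (hqS : q ∉ Smin) :
    twCond p rbar Smin 𝓗p q = ⊤ := by
  unfold twCond
  rw [dif_neg hq, if_neg hqS]

variable (hloc : ∀ q : Nat.Primes, IsSmooth (locBasis q)
  (Rep.res (primeLocalToGlobal q) (adRep rbar)))

/-- the same family, pulled back to the `Ext¹` of the engine -/
noncomputable def twFamily (q : Nat.Primes) :
    AddSubgroup (Ext (smUnit ℤ (locBasis q)) (YLoc (adRep rbar) q (hloc q)) 1) :=
  locCond (YLoc (adRep rbar) q (hloc q)) (twCond p rbar Smin 𝓗p q)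

lemma twFamily_p : twFamily p rbar Smin 𝓗p hloc (pPrime p) =
    locCond (YLoc (adRep rbar) (pPrime p) (hloc (pPrime p))) 𝓗p := by
  unfold twFamily
  rw [twCond_p]

lemma twFamily_of_mem {q : Nat.Primes} (hq : q ≠ pPrime p) (hqS : q ∈ Smin) :
    twFamily p rbar Smin 𝓗p hloc q = locCond (YLoc (adRep rbar) q (hloc q))
      (unrCond q (Rep.res (primeLocalToGlobal q) (adRep rbar))) := by
  unfold twFamily
  rw [twCond_of_mem p rbar Smin 𝓗p hq hqS]

lemma twFamily_of_not_mem {q : Nat.Primes} (hq : q ≠ pPrime p) (hqS : q ∉ Smin) :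
    twFamily p rbar Smin 𝓗p hloc q = ⊤ := by
  unfold twFamily
  rw [twCond_of_not_mem p rbar Smin 𝓗p hq hqS]
  rfl

end Family

end Fermat.Agent.TW
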