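/-
S56 / TW (leaf FIN-1, global form) — helper4.
**`Ext¹_{G_{ℚ,S}}(1, X)` is finite** for finite smooth `p`-torsion modules `X` of `(G_ℚ, 𝒰_S)`,
`p ∈ S`, `p` odd (from the global `p`-class formation on `𝔻 = DSm S` and the finiteness of
`𝔻^U / p`).
-/
import Fermat.Agent.CFT.LocForm.FinH1_helper4
import Fermat.Agent.CFT.PT8.Final_helper8
import Fermat.Agent.CFT.Arith.DSFinal_helper7

set_option autoImplicit false
set_option linter.unusedSectionVars false

open CategoryTheory CategoryTheory.Abelian ExtCitation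

namespace Fermat.Agent.TW

open Fermat.Agent.CFT Fermat.Agent.CFT.Sm Fermat.Agent.CFT.Bridge Fermat.Agent.CFT.Arith
  Fermat.Agent.CFT.LocForm

variable {p : ℕ} [hp : Fact p.Prime]

/-- **(FIN-1), global form, smooth cohomology.** -/
theorem global_finite_smH_one (hp2 : p ≠ 2) (S : Finset Nat.Primes) (hpS : pPrime p ∈ S)
    (X : SmRep ℤ (levelBasis S)) [Finite X.obj.V] (hpX : ∀ x : X.obj.V, p • x = 0) :
    Finite (smH (levelBasis S) X 1) :=
  finite_smH_one_of_formation p (DSm S) (PT8.dsmForm hp2 hpS)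
    (fun U hU => fin_DSm' ⟨_, hpS⟩ U hU) X hpX

/-- **(FIN-1), global form.** -/
theorem global_finite_ext_one (hp2 : p ≠ 2) (S : Finset Nat.Primes) (hpS : pPrime p ∈ S)
    (X : SmRep ℤ (levelBasis S)) [Finite X.obj.V] (hpX : ∀ x : X.obj.V, p • x = 0) :
    Finite (Ext (smUnit ℤ (levelBasis S)) X 1) :=
  finite_ext_one_of_formation p (DSm S) (PT8.dsmForm hp2 hpS)
    (fun U hU => fin_DSm' ⟨_, hpS⟩ U hU) X hpX

end Fermat.Agent.TW
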