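/-
TW (S56) — helper6 — the deformation side of S56, end product (in the shape of helper9's
`twFamily`): `exists_clsOfCocycle_mem_selmer_twFamily` (the `hgood` input for the family
`twFamily p rbar Smin 𝓗p hloc`), and the two halves of S56 reduced to the Selmer count:
`exists_surjective_of_card_selmer_le_strictOrdinary` (`𝓗p = ordCond`),
`exists_surjective_of_card_selmer_le_flat` (any `𝓗p` containing the flat classes).
-/
import Mathlib
import Fermat.Agent.TW.Good_helper6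
import Fermat.Agent.TW.Family_helper9
import Fermat.Agent.TW.FinH1_helper4

set_option autoImplicit false
set_option linter.unusedSectionVars false
set_option linter.style.haveILetI false

noncomputable section

namespace Fermat.Agent.TW

open Fermat.Agent.S53 Fermat.Agent.CFT.Sm Fermat.Agent.CFT.Bridge Fermat.Agent.CFT.Arith
  groupCohomology CategoryTheory CategoryTheory.Abelian Matrix ExtCitation IsLocalRing
  GaloisRepAdic GaloisRep

/-- `Ω = AlgebraicClosure ℚ`. -/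
local notation "Ω" => AlgebraicClosure ℚ

section Mem

variable {k : Type} [Field k]

/-- **(I), assembled, for the family `twFamily`.** -/
theorem exists_clsOfCocycle_mem_selmer_twFamily {p : ℕ} [hp : Fact p.Prime] (hp2 : p ≠ 2)
    (hpk : (p : k) = 0) (ρbar : ResidualGaloisRep k) (β : Module.Basis (Fin 2) k ρbar.V)
    (Smin S : Finset Nat.Primes) (D : PTDatum (levelBasis S) p (locHom S) (locFine S))
    (hS : IsSmooth (levelBasis S) (adRep (resMatrixOf ρbar β)))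
    (hloc : ∀ q : Nat.Primes, IsSmooth (locBasis q)
      (Rep.res (primeLocalToGlobal q) (adRep (resMatrixOf ρbar β))))
    (𝓗p : AddSubgroup (H1 (Rep.res (primeLocalToGlobal (pPrime p))
      (adRep (resMatrixOf ρbar β)))))
    {b : Gal → M2 k} (hb : IsTwCocycle (resMatrixOf ρbar β) b) (hsm : IsSmoothFun b)
    (hdet : (ofMatrix (defOfCocycle (resMatrixOf ρbar β) b hb)
      (matCont_defOfCocycle (resMatrixOf_factors ρbar β) hb hsm)).DetIsCyclotomic p)
    (hur : ∀ v : Nat.Primes, v ∉ S → (ofMatrix (defOfCocycle (resMatrixOf ρbar β) b hb)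
      (matCont_defOfCocycle (resMatrixOf_factors ρbar β) hb hsm)).IsUnramifiedAt (v : ℕ))
    (hunip : ∀ v ∈ Smin, v ≠ pPrime p → ¬ ρbar.IsUnramifiedAt (v : ℕ) ∧
      (ofMatrix (defOfCocycle (resMatrixOf ρbar β) b hb)
        (matCont_defOfCocycle (resMatrixOf_factors ρbar β) hb hsm)).IsUnipotentOnInertiaAt (v : ℕ))
    (hlocp : ∀ htr : ∀ σ, Matrix.trace (b σ * resMatrixOf ρbar β σ⁻¹) = 0,
      (groupCohomology.map (primeLocalToGlobal (pPrime p))
        (𝟙 (Rep.res (primeLocalToGlobal (pPrime p)) (adRep (resMatrixOf ρbar β)))) 1).hom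
      ((H1π (adRep (resMatrixOf ρbar β))).hom (adCocycle hb htr)) ∈ 𝓗p) :
    ∃ (htr : ∀ σ, Matrix.trace (b σ * resMatrixOf ρbar β σ⁻¹) = 0)
      (hlc : IsLC₁ (levelBasis S) (adCocycle hb htr : Gal → (adRep (resMatrixOf ρbar β)).V)),
      clsOfCocycle S hS hb htr hlc ∈ D.selmer (adSm S (resMatrixOf ρbar β) hS)
        (fun v : ↥S => twFamily p (resMatrixOf ρbar β) Smin 𝓗p hloc v.1) := by
  haveI : CharP k p := (CharP.charP_iff_prime_eq_zero hp.out).mpr hpk
  have h2 : (2 : k) ≠ 0 := by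
    intro h
    have h3 : ((2 : ℕ) : k) = 0 := by exact_mod_cast h
    have h4 := (CharP.cast_eq_zero_iff k p 2).1 h3
    exact hp2 ((Nat.prime_dvd_prime_iff_eq hp.out Nat.prime_two).1 h4)
  have htr : ∀ σ, Matrix.trace (b σ * resMatrixOf ρbar β σ⁻¹) = 0 := by
    intro σ
    rw [map_inv_eq_inv]
    exact trace_mul_inv_eq_zero_of_detIsCyclotomic hb _ hpk hdet σ
  have hlc : IsLC₁ (levelBasis S)
      (adCocycle hb htr : Gal → (adRep (resMatrixOf ρbar β)).V) :=
    isLC₁_adCocycle S (resMatrixOf_factors ρbar β) hb hsm htr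
      (fun q hq => (isUnramifiedAt_defOfCocycle_iff hb _ (q : ℕ)).1 (hur q hq))
  refine ⟨htr, hlc, ?_⟩
  have hmem := clsOfCocycle_mem_selmer S D hS hb htr hlc
    (fun v => twCond p (resMatrixOf ρbar β) Smin 𝓗p v.1) ?_
  · exact hmem
  rintro ⟨v, hvS⟩
  by_cases hv : v = pPrime p
  · subst hv
    show _ ∈ twCond p (resMatrixOf ρbar β) Smin 𝓗p (pPrime p)
    rw [twCond_p]
    exact hlocp htr
  · show _ ∈ twCond p (resMatrixOf ρbar β) Smin 𝓗p v
    by_cases hvm : v ∈ Smin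
    · rw [twCond_of_mem p _ Smin 𝓗p hv hvm]
      have hpq : p.Coprime (v : ℕ) := by
        rw [Nat.coprime_primes hp.out v.2]
        intro h
        exact hv (Subtype.ext h.symm)
      obtain ⟨hram, hun⟩ := hunip v hvm hv
      exact res_adCocycle_mem_unrCond hpk h2 ρbar β hb hsm v hpq hram hun htr
    · rw [twCond_of_not_mem p _ Smin 𝓗p hv hvm]
      exact AddSubgroup.mem_top _

end Mem

section EndProduct

attribute [local instance] PS.dualNumberAlgebra

variable {𝒪 : Type} [CommRing 𝒪] [IsDomain 𝒪] [IsDiscreteValuationRing 𝒪]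
  [IsAdicComplete (maximalIdeal 𝒪) 𝒪] [Finite (ResidueField 𝒪)]

/-- **S56, strictly ordinary half: the deformation side.** If the Taylor–Wiles Selmer group of the
family `twFamily` (with `ordCond` at `p`) has at most `|k|^r` elements, the universal deformation
ring of type `strictOrdinaryCondition ∧ unipotent on Smin` is a quotient of `𝒪⟦X₁, …, X_r⟧`. -/
theorem exists_surjective_of_card_selmer_le_strictOrdinary {p : ℕ} [hp : Fact p.Prime]
    (hp2 : p ≠ 2) (hp𝒪 : (p : 𝒪) ∈ maximalIdeal 𝒪) {ρbar : ResidualGaloisRep (ResidueField 𝒪)}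
    (β : Module.Basis (Fin 2) (ResidueField 𝒪) ρbar.V) (SminN TN : Finset ℕ)
    (Smin S : Finset Nat.Primes) (hpS : pPrime p ∈ S)
    (hST : ∀ v : Nat.Primes, v ∉ S → (v : ℕ) ∉ TN)
    (hSmin : ∀ v ∈ Smin, v ≠ pPrime p → (v : ℕ) ∈ SminN)
    (hmin : ∀ q : ℕ, q.Prime → q ≠ p → (q ∈ SminN ↔ ¬ ρbar.IsUnramifiedAt q))
    (DQ : DeformationRingData 𝒪 ρbar (fun _A _ _ _ ρ =>
      strictOrdinaryCondition 𝒪 p TN ρ ∧
        ∀ q ∈ SminN, q.Prime → q ≠ p → ρ.IsUnipotentOnInertiaAt q))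
    (hS : IsSmooth (levelBasis S) (adRep (resMatrixOf ρbar β)))
    (hloc : ∀ q : Nat.Primes, IsSmooth (locBasis q)
      (Rep.res (primeLocalToGlobal q) (adRep (resMatrixOf ρbar β))))
    (r : ℕ)
    (hSel : Nat.card ((twDatum hp2 S hpS).selmer (adSm S (resMatrixOf ρbar β) hS)
      (fun v : ↥S => twFamily p (resMatrixOf ρbar β) Smin
        (ordCond p (resMatrixOf ρbar β)) hloc v.1)) ≤ Nat.card (ResidueField 𝒪) ^ r) :
    ∃ γ : MvPowerSeries (Fin r) 𝒪 →ₐ[𝒪] DQ.R, Function.Surjective γ := by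
  have hpk : ((p : ℕ) : ResidueField 𝒪) = 0 := by
    have h1 : residue 𝒪 (p : 𝒪) = 0 := (residue_eq_zero_iff _).2 hp𝒪
    rwa [map_natCast] at h1
  haveI : CharP (ResidueField 𝒪) p := (CharP.charP_iff_prime_eq_zero hp.out).mpr hpk
  have h2 : (2 : ResidueField 𝒪) ≠ 0 := by
    intro h
    have h3 : ((2 : ℕ) : ResidueField 𝒪) = 0 := by exact_mod_cast h
    have h4 := (CharP.cast_eq_zero_iff (ResidueField 𝒪) p 2).1 h3
    exact hp2 ((Nat.prime_dvd_prime_iff_eq hp.out Nat.prime_two).1 h4)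
  haveI : Finite (adSm S (resMatrixOf ρbar β) hS).obj.V :=
    inferInstanceAs (Finite (sl2 (ResidueField 𝒪)))
  haveI : Finite (Ext (smUnit ℤ (levelBasis S)) (adSm S (resMatrixOf ρbar β) hS) 1) :=
    global_finite_ext_one hp2 S hpS (adSm S (resMatrixOf ρbar β) hS)
      (fun x => nsmul_adRep p (resMatrixOf ρbar β) x)
  have h0 : strictOrdinaryCondition 𝒪 p TN DQ.ρ ∧
      ∀ q ∈ SminN, q.Prime → q ≠ p → DQ.ρ.IsUnipotentOnInertiaAt q := DQ.isOfType
  have hE : ∀ ρ ρ' : GaloisRepAdic (DualNumber (ResidueField 𝒪)), ρ.IsEquiv ρ' →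
      (strictOrdinaryCondition 𝒪 p TN ρ ∧
        ∀ q ∈ SminN, q.Prime → q ≠ p → ρ.IsUnipotentOnInertiaAt q) →
      (strictOrdinaryCondition 𝒪 p TN ρ' ∧
        ∀ q ∈ SminN, q.Prime → q ≠ p → ρ'.IsUnipotentOnInertiaAt q) :=
    fun ρ ρ' he h => twStrictOrdinary_of_isEquiv he h
  have hB : ∀ (f : DQ.R →ₐ[𝒪] DualNumber (ResidueField 𝒪))
      (hf : IsLocalHom (f : DQ.R →+* DualNumber (ResidueField 𝒪))), Function.Surjective f →
        (strictOrdinaryCondition 𝒪 p TN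
          (DQ.ρ.baseChangeAlong (f : DQ.R →+* DualNumber (ResidueField 𝒪)) hf) ∧
        ∀ q ∈ SminN, q.Prime → q ≠ p →
          (DQ.ρ.baseChangeAlong (f : DQ.R →+* DualNumber (ResidueField 𝒪)) hf).IsUnipotentOnInertiaAt
            q) := by
    intro f hf _
    exact twStrictOrdinary_baseChangeAlong (𝒪 := 𝒪)
      (f : DQ.R →+* DualNumber (ResidueField 𝒪)) hf h0
  refine exists_surjective_mvPowerSeries_of_selmer DQ β r (three_le_natCard_of_two_ne_zero h2)
    hE hB S hS _ hSel ?_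
  intro b hb hs h𝒟
  obtain ⟨⟨hdet, hord, hur⟩, hunip⟩ := h𝒟
  exact exists_clsOfCocycle_mem_selmer_twFamily hp2 hpk ρbar β Smin S (twDatum hp2 S hpS) hS hloc
    (ordCond p (resMatrixOf ρbar β)) hb hs hdet
    (fun v hv => hur (v : ℕ) v.2 (hST v hv)) (fun v hvm hvp => by
      have hvp' : (v : ℕ) ≠ p := fun h => hvp (Subtype.ext h)
      have hvN := hSmin v hvm hvp
      exact ⟨(hmin (v : ℕ) v.2 hvp').1 hvN, hunip (v : ℕ) hvN v.2 hvp'⟩)
    (fun htr => res_adCocycle_mem_ordCond hp2 hpk ρbar β hb hs hdet hord htr)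

/-- **S56, flat half: the deformation side**, for any local condition `𝓗p` at `p` containing the
classes of the flat deformations with cyclotomic determinant (`hT1`). -/
theorem exists_surjective_of_card_selmer_le_flat {p : ℕ} [hp : Fact p.Prime]
    (hp2 : p ≠ 2) (hp𝒪 : (p : 𝒪) ∈ maximalIdeal 𝒪) {ρbar : ResidualGaloisRep (ResidueField 𝒪)}
    (β : Module.Basis (Fin 2) (ResidueField 𝒪) ρbar.V) (SminN TN : Finset ℕ)
    (Smin S : Finset Nat.Primes) (hpS : pPrime p ∈ S)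
    (hST : ∀ v : Nat.Primes, v ∉ S → (v : ℕ) ∉ TN)
    (hSmin : ∀ v ∈ Smin, v ≠ pPrime p → (v : ℕ) ∈ SminN)
    (hmin : ∀ q : ℕ, q.Prime → q ≠ p → (q ∈ SminN ↔ ¬ ρbar.IsUnramifiedAt q))
    (DQ : DeformationRingData 𝒪 ρbar (fun _A _ _ _ ρ =>
      flatCondition 𝒪 p TN ρ ∧
        ∀ q ∈ SminN, q.Prime → q ≠ p → ρ.IsUnipotentOnInertiaAt q))
    (hS : IsSmooth (levelBasis S) (adRep (resMatrixOf ρbar β)))
    (hloc : ∀ q : Nat.Primes, IsSmooth (locBasis q)
      (Rep.res (primeLocalToGlobal q) (adRep (resMatrixOf ρbar β))))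
    (𝓗p : AddSubgroup (H1 (Rep.res (primeLocalToGlobal (pPrime p))
      (adRep (resMatrixOf ρbar β)))))
    (hT1 : ∀ (b : Gal → M2 (ResidueField 𝒪)) (hb : IsTwCocycle (resMatrixOf ρbar β) b)
      (hs : IsSmoothFun b),
      (ofMatrix (defOfCocycle (resMatrixOf ρbar β) b hb)
        (matCont_defOfCocycle (resMatrixOf_factors ρbar β) hb hs)).DetIsCyclotomic p →
      (ofMatrix (defOfCocycle (resMatrixOf ρbar β) b hb)
        (matCont_defOfCocycle (resMatrixOf_factors ρbar β) hb hs)).IsFlatAt p →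
      ∀ htr : ∀ σ, Matrix.trace (b σ * resMatrixOf ρbar β σ⁻¹) = 0,
        (groupCohomology.map (primeLocalToGlobal (pPrime p))
          (𝟙 (Rep.res (primeLocalToGlobal (pPrime p)) (adRep (resMatrixOf ρbar β)))) 1).hom
        ((H1π (adRep (resMatrixOf ρbar β))).hom (adCocycle hb htr)) ∈ 𝓗p)
    (r : ℕ)
    (hSel : Nat.card ((twDatum hp2 S hpS).selmer (adSm S (resMatrixOf ρbar β) hS)
      (fun v : ↥S => twFamily p (resMatrixOf ρbar β) Smin 𝓗p hloc v.1)) ≤
        Nat.card (ResidueField 𝒪) ^ r) :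
    ∃ γ : MvPowerSeries (Fin r) 𝒪 →ₐ[𝒪] DQ.R, Function.Surjective γ := by
  have hpk : ((p : ℕ) : ResidueField 𝒪) = 0 := by
    have h1 : residue 𝒪 (p : 𝒪) = 0 := (residue_eq_zero_iff _).2 hp𝒪
    rwa [map_natCast] at h1
  haveI : CharP (ResidueField 𝒪) p := (CharP.charP_iff_prime_eq_zero hp.out).mpr hpk
  have h2 : (2 : ResidueField 𝒪) ≠ 0 := by
    intro h
    have h3 : ((2 : ℕ) : ResidueField 𝒪) = 0 := by exact_mod_cast h
    have h4 := (CharP.cast_eq_zero_iff (ResidueField 𝒪) p 2).1 h3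
    exact hp2 ((Nat.prime_dvd_prime_iff_eq hp.out Nat.prime_two).1 h4)
  haveI : Finite (adSm S (resMatrixOf ρbar β) hS).obj.V :=
    inferInstanceAs (Finite (sl2 (ResidueField 𝒪)))
  haveI : Finite (Ext (smUnit ℤ (levelBasis S)) (adSm S (resMatrixOf ρbar β) hS) 1) :=
    global_finite_ext_one hp2 S hpS (adSm S (resMatrixOf ρbar β) hS)
      (fun x => nsmul_adRep p (resMatrixOf ρbar β) x)
  have h0 : flatCondition 𝒪 p TN DQ.ρ ∧
      ∀ q ∈ SminN, q.Prime → q ≠ p → DQ.ρ.IsUnipotentOnInertiaAt q := DQ.isOfType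
  have hE : ∀ ρ ρ' : GaloisRepAdic (DualNumber (ResidueField 𝒪)), ρ.IsEquiv ρ' →
      (flatCondition 𝒪 p TN ρ ∧
        ∀ q ∈ SminN, q.Prime → q ≠ p → ρ.IsUnipotentOnInertiaAt q) →
      (flatCondition 𝒪 p TN ρ' ∧
        ∀ q ∈ SminN, q.Prime → q ≠ p → ρ'.IsUnipotentOnInertiaAt q) :=
    fun ρ ρ' he h => twFlat_of_isEquiv he h
  have hB : ∀ (f : DQ.R →ₐ[𝒪] DualNumber (ResidueField 𝒪))
      (hf : IsLocalHom (f : DQ.R →+* DualNumber (ResidueField 𝒪))), Function.Surjective f →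
        (flatCondition 𝒪 p TN
          (DQ.ρ.baseChangeAlong (f : DQ.R →+* DualNumber (ResidueField 𝒪)) hf) ∧
        ∀ q ∈ SminN, q.Prime → q ≠ p →
          (DQ.ρ.baseChangeAlong (f : DQ.R →+* DualNumber (ResidueField 𝒪)) hf).IsUnipotentOnInertiaAt
            q) := by
    intro f hf hsurj
    exact twFlat_baseChangeAlong_of_surjective (𝒪 := 𝒪)
      (f : DQ.R →+* DualNumber (ResidueField 𝒪)) hf hsurj h0
  refine exists_surjective_mvPowerSeries_of_selmer DQ β r (three_le_natCard_of_two_ne_zero h2)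
    hE hB S hS _ hSel ?_
  intro b hb hs h𝒟
  obtain ⟨⟨hdet, hflat, hur⟩, hunip⟩ := h𝒟
  exact exists_clsOfCocycle_mem_selmer_twFamily hp2 hpk ρbar β Smin S (twDatum hp2 S hpS) hS hloc
    𝓗p hb hs hdet
    (fun v hv => hur (v : ℕ) v.2 (hST v hv)) (fun v hvm hvp => by
      have hvp' : (v : ℕ) ≠ p := fun h => hvp (Subtype.ext h)
      have hvN := hSmin v hvm hvp
      exact ⟨(hmin (v : ℕ) v.2 hvp').1 hvN, hunip (v : ℕ) hvN v.2 hvp'⟩)
    (fun htr => hT1 b hb hs hdet hflat htr)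

end EndProduct

end Fermat.Agent.TW
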