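import Mathlib
import Fermat.Agent.S53.Tangent
import Fermat.Agent.S53.PSQuot
import Fermat.Agent.S53.L6_helper7_Quot

/-!
# Deformation glue, commutative-algebra half (helper1)

`𝒪` a local ring with residue field `k`, `R` a local `𝒪`-algebra with local structure map and
residue field `k` (the field shapes of `GaloisRep.DeformationRingData`), `k[ε] = DualNumber k`
with the `𝒪`-algebra structure `𝒪 → k → k[ε]`.

* `RelCot 𝒪 R = R / (𝔪_R² + 𝔪_𝒪 R + 𝒪·1) ≅ 𝔪_R / (𝔪_R² + 𝔪_𝒪 R)`: the reduced cotangent space,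
  a finite-dimensional `k`-vector space when `R` is Noetherian;
* `algHomEquivDual : (R →ₐ[𝒪] k[ε]) ≃ Module.Dual k (RelCot 𝒪 R)`;
* `card_algHom_dualNumber : Nat.card (R →ₐ[𝒪] k[ε]) = (Nat.card k) ^ finrank k (RelCot 𝒪 R)`;
* `exists_surjective_mvPowerSeries_of_finrank_le`, `exists_surjective_mvPowerSeries_of_card_algHom_le`:
  a complete Noetherian local `𝒪`-algebra `R` with at most `|k| ^ r` tangent vectors is a quotient
  of `𝒪⟦X₁, …, X_r⟧`.
-/

set_option autoImplicit false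
set_option linter.unusedSectionVars false

namespace Fermat.Agent.TW

open IsLocalRing Fermat.Agent.S53.PS

section RelCot

variable (𝒪 : Type*) [CommRing 𝒪] [IsLocalRing 𝒪]
  (R : Type*) [CommRing R] [IsLocalRing R] [Algebra 𝒪 R]

/-- The ideal `𝔪_R ^ 2 + 𝔪_𝒪 R`. -/
def relIdeal : Ideal R := maximalIdeal R ^ 2 ⊔ (maximalIdeal 𝒪).map (algebraMap 𝒪 R)

/-- The `𝒪`-submodule `𝔪_R ^ 2 + 𝔪_𝒪 R + 𝒪 · 1` of `R`. -/
def relSub : Submodule 𝒪 R :=
  (relIdeal 𝒪 R).restrictScalars 𝒪 ⊔ LinearMap.range (Algebra.linearMap 𝒪 R)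

variable {𝒪 R}

theorem mem_relSub_of_mem_relIdeal {x : R} (hx : x ∈ relIdeal 𝒪 R) : x ∈ relSub 𝒪 R :=
  (le_sup_left : (relIdeal 𝒪 R).restrictScalars 𝒪 ≤ relSub 𝒪 R) (by simpa using hx)

theorem algebraMap_mem_relSub (c : 𝒪) : algebraMap 𝒪 R c ∈ relSub 𝒪 R :=
  (le_sup_right : LinearMap.range (Algebra.linearMap 𝒪 R) ≤ relSub 𝒪 R) ⟨c, rfl⟩

theorem mul_mem_relIdeal {y y' : R} (hy : y ∈ maximalIdeal R) (hy' : y' ∈ maximalIdeal R) :
    y * y' ∈ relIdeal 𝒪 R := by
  refine (le_sup_left : maximalIdeal R ^ 2 ≤ relIdeal 𝒪 R) ?_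
  rw [pow_two]
  exact Ideal.mul_mem_mul hy hy'

theorem smul_mem_relIdeal {a : 𝒪} (ha : a ∈ maximalIdeal 𝒪) (x : R) : a • x ∈ relIdeal 𝒪 R := by
  refine (le_sup_right : (maximalIdeal 𝒪).map (algebraMap 𝒪 R) ≤ relIdeal 𝒪 R) ?_
  rw [Algebra.smul_def]
  exact Ideal.mul_mem_right _ _ (Ideal.mem_map_of_mem _ ha)

theorem relIdeal_le_maximalIdeal [IsLocalHom (algebraMap 𝒪 R)] :
    relIdeal 𝒪 R ≤ maximalIdeal R :=
  sup_le (Ideal.pow_le_self two_ne_zero) map_maximalIdeal_le_maximalIdeal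

variable (𝒪 R)

/-- The reduced cotangent space `R / (𝔪_R² + 𝔪_𝒪 R + 𝒪 · 1) ≅ 𝔪_R / (𝔪_R² + 𝔪_𝒪 R)`. -/
abbrev RelCot : Type _ := R ⧸ relSub 𝒪 R

theorem relCot_isTorsionBySet :
    Module.IsTorsionBySet 𝒪 (RelCot 𝒪 R) (maximalIdeal 𝒪 : Set 𝒪) := by
  rintro q ⟨a, ha⟩
  obtain ⟨x, rfl⟩ := Submodule.Quotient.mk_surjective (relSub 𝒪 R) q
  rw [← Submodule.Quotient.mk_smul, Submodule.Quotient.mk_eq_zero]
  exact mem_relSub_of_mem_relIdeal (smul_mem_relIdeal ha x)

noncomputable instance relCotModule : Module (ResidueField 𝒪) (RelCot 𝒪 R) :=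
  (relCot_isTorsionBySet 𝒪 R).module

instance relCot_isScalarTower : IsScalarTower 𝒪 (ResidueField 𝒪) (RelCot 𝒪 R) :=
  (relCot_isTorsionBySet 𝒪 R).isScalarTower

variable {𝒪 R}

theorem relCot_residue_smul (c : 𝒪) (q : RelCot 𝒪 R) : (residue 𝒪 c) • q = c • q := rfl

/-- The quotient map `R → RelCot 𝒪 R`. -/
abbrev relMk : R →ₗ[𝒪] RelCot 𝒪 R := (relSub 𝒪 R).mkQ

theorem relMk_surjective : Function.Surjective (relMk (𝒪 := 𝒪) (R := R)) :=
  Submodule.mkQ_surjective _

theorem relMk_eq_zero_iff {x : R} : relMk (𝒪 := 𝒪) x = 0 ↔ x ∈ relSub 𝒪 R := by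
  rw [Submodule.mkQ_apply, Submodule.Quotient.mk_eq_zero]

theorem relMk_algebraMap (c : 𝒪) : relMk (𝒪 := 𝒪) (algebraMap 𝒪 R c) = 0 :=
  relMk_eq_zero_iff.2 (algebraMap_mem_relSub c)

theorem relMk_mul_of_mem {y y' : R} (hy : y ∈ maximalIdeal R) (hy' : y' ∈ maximalIdeal R) :
    relMk (𝒪 := 𝒪) (y * y') = 0 :=
  relMk_eq_zero_iff.2 (mem_relSub_of_mem_relIdeal (mul_mem_relIdeal hy hy'))

end RelCot

section Finite

variable {𝒪 : Type*} [CommRing 𝒪] [IsLocalRing 𝒪]
  {R : Type*} [CommRing R] [IsLocalRing R] [Algebra 𝒪 R]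

/-- `RelCot 𝒪 R` is spanned over `𝒪` by the images of any set of ideal generators of `𝔪_R`. -/
theorem relMk_mem_span_of_span_eq (hres : Function.Surjective (residue R ∘ algebraMap 𝒪 R))
    (s : Set R) (hs : Ideal.span s = maximalIdeal R) (x : R) :
    relMk (𝒪 := 𝒪) x ∈ Submodule.span 𝒪 (relMk (𝒪 := 𝒪) '' s) := by
  have key : ∀ y ∈ Ideal.span s, relMk (𝒪 := 𝒪) y ∈ Submodule.span 𝒪 (relMk (𝒪 := 𝒪) '' s) := by
    intro y hy
    induction hy using Submodule.span_induction with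
    | mem y hy => exact Submodule.subset_span ⟨y, hy, rfl⟩
    | zero => rw [map_zero]; exact Submodule.zero_mem _
    | add y z _ _ hy hz => rw [map_add]; exact Submodule.add_mem _ hy hz
    | smul a y hy ih =>
      obtain ⟨c, hc⟩ := exists_sub_algebraMap_mem hres a
      have hym : y ∈ maximalIdeal R := hs ▸ hy
      have h1 : a • y = c • y + (a - algebraMap 𝒪 R c) * y := by
        rw [smul_eq_mul, Algebra.smul_def]; ring
      rw [h1, map_add, map_smul, relMk_mul_of_mem hc hym, add_zero]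
      exact Submodule.smul_mem _ _ ih
  obtain ⟨c, hc⟩ := exists_sub_algebraMap_mem hres x
  have h1 : x = algebraMap 𝒪 R c + (x - algebraMap 𝒪 R c) := by ring
  rw [h1, map_add, relMk_algebraMap, zero_add]
  exact key _ (hs ▸ hc)

theorem relCot_finite_base [IsNoetherianRing R]
    (hres : Function.Surjective (residue R ∘ algebraMap 𝒪 R)) :
    Module.Finite 𝒪 (RelCot 𝒪 R) := by
  classical
  obtain ⟨s, hs⟩ := (isNoetherianRing_iff_ideal_fg R).mp inferInstance (maximalIdeal R)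
  refine ⟨⟨s.image (relMk (𝒪 := 𝒪)), ?_⟩⟩
  rw [eq_top_iff]
  intro q _
  obtain ⟨x, rfl⟩ := relMk_surjective q
  rw [Finset.coe_image]
  exact relMk_mem_span_of_span_eq hres (s : Set R) hs x

theorem relCot_finite [IsNoetherianRing R]
    (hres : Function.Surjective (residue R ∘ algebraMap 𝒪 R)) :
    Module.Finite (ResidueField 𝒪) (RelCot 𝒪 R) := by
  have := relCot_finite_base (𝒪 := 𝒪) (R := R) hres
  exact Module.Finite.of_restrictScalars_finite 𝒪 (ResidueField 𝒪) (RelCot 𝒪 R)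

end Finite

section Equiv

variable {𝒪 : Type*} [CommRing 𝒪] [IsLocalRing 𝒪]
  {R : Type*} [CommRing R] [IsLocalRing R] [Algebra 𝒪 R]

attribute [local instance] dualNumberAlgebra

/-- An `𝒪`-linear "derivation" `R → k` (killing `𝒪` and `𝔪_R²`) kills `relSub`. -/
theorem relSub_le_ker (l : R →ₗ[𝒪] ResidueField 𝒪) (h1 : ∀ c, l (algebraMap 𝒪 R c) = 0)
    (h2 : ∀ y ∈ maximalIdeal R, ∀ y' ∈ maximalIdeal R, l (y * y') = 0) :
    relSub 𝒪 R ≤ LinearMap.ker l := by
  have hA : ∀ u ∈ maximalIdeal R * maximalIdeal R, l u = 0 := by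
    intro u hu
    refine Submodule.mul_induction_on hu (fun y hy y' hy' => h2 y hy y' hy') ?_
    intro y z hy hz
    rw [map_add, hy, hz, add_zero]
  have hB : ∀ v ∈ Submodule.span R (algebraMap 𝒪 R '' (maximalIdeal 𝒪 : Set 𝒪)),
      ∀ r : R, l (r * v) = 0 := by
    intro v hv
    induction hv using Submodule.span_induction with
    | mem v hv =>
      obtain ⟨a, ha, rfl⟩ := hv
      intro r
      have : r * algebraMap 𝒪 R a = a • r := by rw [Algebra.smul_def, mul_comm]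
      rw [this, map_smul, Algebra.smul_def, ResidueField.algebraMap_eq,
        (residue_eq_zero_iff a).2 ha, zero_mul]
    | zero => intro r; rw [mul_zero, map_zero]
    | add y z _ _ hy hz => intro r; rw [mul_add, map_add, hy, hz, add_zero]
    | smul b y _ ih => intro r; rw [smul_eq_mul, ← mul_assoc]; exact ih _
  refine sup_le ?_ ?_
  · intro x hx
    have hx' : x ∈ relIdeal 𝒪 R := by simpa using hx
    obtain ⟨u, hu, v, hv, rfl⟩ := Submodule.mem_sup.mp hx'
    rw [pow_two] at hu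
    have := hB v hv 1
    rw [one_mul] at this
    rw [LinearMap.mem_ker, map_add, hA u hu, this, add_zero]
  · rintro _ ⟨c, rfl⟩
    exact h1 c

/-- The functional on the reduced cotangent space attached to a derivation `R → k`. -/
noncomputable def dualOfLin (l : R →ₗ[𝒪] ResidueField 𝒪) (h1 : ∀ c, l (algebraMap 𝒪 R c) = 0)
    (h2 : ∀ y ∈ maximalIdeal R, ∀ y' ∈ maximalIdeal R, l (y * y') = 0) :
    Module.Dual (ResidueField 𝒪) (RelCot 𝒪 R) :=
  LinearMap.extendScalarsOfSurjective (R := 𝒪) (S := ResidueField 𝒪) residue_surjective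
    ((relSub 𝒪 R).liftQ l (relSub_le_ker l h1 h2))

theorem dualOfLin_relMk (l : R →ₗ[𝒪] ResidueField 𝒪) (h1 : ∀ c, l (algebraMap 𝒪 R c) = 0)
    (h2 : ∀ y ∈ maximalIdeal R, ∀ y' ∈ maximalIdeal R, l (y * y') = 0) (x : R) :
    dualOfLin l h1 h2 (relMk x) = l x := rfl

/-- The `ε`-component of an algebra hom `R → k[ε]`, as an `𝒪`-linear map. -/
noncomputable def sndLin (f : R →ₐ[𝒪] DualNumber (ResidueField 𝒪)) : R →ₗ[𝒪] ResidueField 𝒪 where
  toFun x := (f x).snd
  map_add' x y := by rw [map_add, TrivSqZeroExt.snd_add]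
  map_smul' c x := by
    rw [Algebra.smul_def, map_mul, AlgHom.commutes, dualNumber_algebraMap_apply,
      TrivSqZeroExt.snd_mul]
    simp [Algebra.smul_def]

theorem sndLin_apply (f : R →ₐ[𝒪] DualNumber (ResidueField 𝒪)) (x : R) :
    sndLin f x = (f x).snd := rfl

theorem sndLin_algebraMap (f : R →ₐ[𝒪] DualNumber (ResidueField 𝒪)) (c : 𝒪) :
    sndLin f (algebraMap 𝒪 R c) = 0 := by
  rw [sndLin_apply, f.commutes, dualNumber_algebraMap_apply, TrivSqZeroExt.snd_inl]

/-- The first component of any `𝒪`-algebra hom `R → k[ε]` is the reduction map: such homs are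
automatically local. -/
theorem algHom_fst [IsLocalHom (algebraMap 𝒪 R)]
    (hres : Function.Surjective (residue R ∘ algebraMap 𝒪 R))
    (f : R →ₐ[𝒪] DualNumber (ResidueField 𝒪)) (x : R) : (f x).fst = resHom hres x := by
  set g : R →+* ResidueField 𝒪 :=
    ((TrivSqZeroExt.fstHom (ResidueField 𝒪) (ResidueField 𝒪) (ResidueField 𝒪) :
      DualNumber (ResidueField 𝒪) →ₐ[ResidueField 𝒪] ResidueField 𝒪) :
      DualNumber (ResidueField 𝒪) →+* ResidueField 𝒪).comp (f : R →+* _) with hg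
  have hgc : ∀ c : 𝒪, g (algebraMap 𝒪 R c) = residue 𝒪 c := by
    intro c
    show (f (algebraMap 𝒪 R c)).fst = _
    rw [f.commutes, dualNumber_algebraMap_apply, TrivSqZeroExt.fst_inl]
  have hgs : Function.Surjective g := by
    intro a
    obtain ⟨c, rfl⟩ := residue_surjective a
    exact ⟨algebraMap 𝒪 R c, hgc c⟩
  have hker : RingHom.ker g = maximalIdeal R :=
    eq_maximalIdeal (RingHom.ker_isMaximal_of_surjective g hgs)
  obtain ⟨c, hc⟩ := exists_sub_algebraMap_mem hres x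
  have h1 : x = algebraMap 𝒪 R c + (x - algebraMap 𝒪 R c) := by ring
  have h2 : g (x - algebraMap 𝒪 R c) = 0 := by
    rw [← RingHom.mem_ker, hker]; exact hc
  show g x = _
  rw [h1, map_add, map_add, hgc, h2, resHom_algebraMap, (resHom_eq_zero_iff hres _).2 hc]

theorem sndLin_mul_of_mem [IsLocalHom (algebraMap 𝒪 R)]
    (hres : Function.Surjective (residue R ∘ algebraMap 𝒪 R))
    (f : R →ₐ[𝒪] DualNumber (ResidueField 𝒪)) {y y' : R} (hy : y ∈ maximalIdeal R)
    (hy' : y' ∈ maximalIdeal R) : sndLin f (y * y') = 0 := by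
  rw [sndLin_apply, map_mul, TrivSqZeroExt.snd_mul, algHom_fst hres f y, algHom_fst hres f y',
    (resHom_eq_zero_iff hres y).2 hy, (resHom_eq_zero_iff hres y').2 hy']
  simp

variable [IsLocalHom (algebraMap 𝒪 R)]

/-- The functional on the reduced cotangent space attached to an algebra hom `R → k[ε]`. -/
noncomputable def toDual (hres : Function.Surjective (residue R ∘ algebraMap 𝒪 R))
    (f : R →ₐ[𝒪] DualNumber (ResidueField 𝒪)) : Module.Dual (ResidueField 𝒪) (RelCot 𝒪 R) :=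
  dualOfLin (sndLin f) (sndLin_algebraMap f) (fun _ hy _ hy' => sndLin_mul_of_mem hres f hy hy')

theorem toDual_relMk (hres : Function.Surjective (residue R ∘ algebraMap 𝒪 R))
    (f : R →ₐ[𝒪] DualNumber (ResidueField 𝒪)) (x : R) :
    toDual hres f (relMk x) = (f x).snd := rfl

/-- The algebra hom `R → k[ε]` attached to a functional on the reduced cotangent space. -/
noncomputable def ofDual (hres : Function.Surjective (residue R ∘ algebraMap 𝒪 R))
    (φ : Module.Dual (ResidueField 𝒪) (RelCot 𝒪 R)) : R →ₐ[𝒪] DualNumber (ResidueField 𝒪) :=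
  tangentHom hres ((φ.restrictScalars 𝒪).comp relMk)
    (fun c => by
      rw [LinearMap.comp_apply, relMk_algebraMap, map_zero])
    (fun y hy y' hy' => by
      rw [LinearMap.comp_apply, relMk_mul_of_mem hy hy', map_zero])

theorem ofDual_apply (hres : Function.Surjective (residue R ∘ algebraMap 𝒪 R))
    (φ : Module.Dual (ResidueField 𝒪) (RelCot 𝒪 R)) (x : R) :
    ofDual hres φ x = TrivSqZeroExt.inl (resHom hres x) + TrivSqZeroExt.inr (φ (relMk x)) := rfl

/-- **Tangent space = dual of the reduced cotangent space.** -/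
noncomputable def algHomEquivDual (hres : Function.Surjective (residue R ∘ algebraMap 𝒪 R)) :
    (R →ₐ[𝒪] DualNumber (ResidueField 𝒪)) ≃ Module.Dual (ResidueField 𝒪) (RelCot 𝒪 R) where
  toFun := toDual hres
  invFun := ofDual hres
  left_inv f := by
    ext x
    · rw [ofDual_apply, TrivSqZeroExt.fst_add, TrivSqZeroExt.fst_inl, TrivSqZeroExt.fst_inr,
        add_zero, algHom_fst hres f x]
    · rw [ofDual_apply, TrivSqZeroExt.snd_add, TrivSqZeroExt.snd_inl, TrivSqZeroExt.snd_inr,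
        zero_add, toDual_relMk]
  right_inv φ := by
    apply LinearMap.ext
    intro q
    obtain ⟨x, rfl⟩ := relMk_surjective q
    rw [toDual_relMk, ofDual_apply, TrivSqZeroExt.snd_add, TrivSqZeroExt.snd_inl,
      TrivSqZeroExt.snd_inr, zero_add]

theorem card_algHom_dualNumber [IsNoetherianRing R] [Finite (ResidueField 𝒪)]
    (hres : Function.Surjective (residue R ∘ algebraMap 𝒪 R)) :
    Nat.card (R →ₐ[𝒪] DualNumber (ResidueField 𝒪)) =
      Nat.card (ResidueField 𝒪) ^ Module.finrank (ResidueField 𝒪) (RelCot 𝒪 R) := by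
  have := relCot_finite (𝒪 := 𝒪) (R := R) hres
  rw [Nat.card_congr (algHomEquivDual hres), Module.natCard_eq_pow_finrank (K := ResidueField 𝒪),
    Subspace.dual_finrank_eq]

theorem finite_algHom_dualNumber [IsNoetherianRing R] [Finite (ResidueField 𝒪)]
    (hres : Function.Surjective (residue R ∘ algebraMap 𝒪 R)) :
    Finite (R →ₐ[𝒪] DualNumber (ResidueField 𝒪)) := by
  have := relCot_finite (𝒪 := 𝒪) (R := R) hres
  have : Finite (Module.Dual (ResidueField 𝒪) (RelCot 𝒪 R)) :=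
    Module.finite_of_finite (ResidueField 𝒪)
  exact Finite.of_equiv _ (algHomEquivDual hres).symm

end Equiv

section Generators

variable {𝒪 : Type*} [CommRing 𝒪] [IsLocalRing 𝒪]
  {R : Type*} [CommRing R] [IsLocalRing R] [Algebra 𝒪 R] [IsLocalHom (algebraMap 𝒪 R)]

/-- A family of `r` vectors spanning a vector space of dimension `≤ r`. -/
theorem exists_fin_span_eq_top_of_finrank_le {k V : Type*} [Field k] [AddCommGroup V] [Module k V]
    [Module.Finite k V] {r : ℕ} (h : Module.finrank k V ≤ r) :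
    ∃ x : Fin r → V, Submodule.span k (Set.range x) = ⊤ := by
  classical
  let b := Module.finBasis k V
  refine ⟨fun i => if h' : (i : ℕ) < Module.finrank k V then b ⟨i, h'⟩ else 0, ?_⟩
  rw [eq_top_iff, ← b.span_eq, Submodule.span_le]
  rintro _ ⟨j, rfl⟩
  refine Submodule.subset_span ⟨⟨j, lt_of_lt_of_le j.2 h⟩, ?_⟩
  simp

/-- If the reduced cotangent space has dimension `≤ r`, then `𝔪_R` is generated by `r` elements
modulo `𝔪_𝒪 R + 𝔪_R²`. -/
theorem exists_gens_of_finrank_le [IsNoetherianRing R]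
    (hres : Function.Surjective (residue R ∘ algebraMap 𝒪 R)) {r : ℕ}
    (h : Module.finrank (ResidueField 𝒪) (RelCot 𝒪 R) ≤ r) :
    ∃ x : Fin r → R, (∀ i, x i ∈ maximalIdeal R) ∧
      Ideal.span (Set.range x) ⊔ (maximalIdeal 𝒪).map (algebraMap 𝒪 R) ⊔ maximalIdeal R ^ 2 =
        maximalIdeal R := by
  have := relCot_finite (𝒪 := 𝒪) (R := R) hres
  obtain ⟨t, ht⟩ := exists_fin_span_eq_top_of_finrank_le h
  -- lift to elements of the maximal ideal
  have hlift : ∀ i, ∃ y : R, y ∈ maximalIdeal R ∧ relMk (𝒪 := 𝒪) y = t i := by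
    intro i
    obtain ⟨y, hy⟩ := relMk_surjective (𝒪 := 𝒪) (t i)
    obtain ⟨c, hc⟩ := exists_sub_algebraMap_mem hres y
    exact ⟨y - algebraMap 𝒪 R c, hc, by rw [map_sub, relMk_algebraMap, sub_zero, hy]⟩
  choose x hxm hxt using hlift
  refine ⟨x, hxm, ?_⟩
  set J : Ideal R :=
    Ideal.span (Set.range x) ⊔ (maximalIdeal 𝒪).map (algebraMap 𝒪 R) ⊔ maximalIdeal R ^ 2 with hJ
  have hJm : J ≤ maximalIdeal R := by
    refine sup_le (sup_le ?_ map_maximalIdeal_le_maximalIdeal) (Ideal.pow_le_self two_ne_zero)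
    rw [Ideal.span_le]
    rintro _ ⟨i, rfl⟩
    exact hxm i
  have hrelJ : relIdeal 𝒪 R ≤ J := by
    refine sup_le le_sup_right ?_
    exact le_sup_of_le_left le_sup_right
  refine le_antisymm hJm ?_
  intro y hy
  -- the image of `J` in the cotangent space is everything
  have hspan : Submodule.span 𝒪 (Set.range t) = ⊤ := by
    rw [← Submodule.restrictScalars_span 𝒪 (ResidueField 𝒪) residue_surjective, ht]
    rfl
  have hmap : Submodule.map (relMk (𝒪 := 𝒪)) (J.restrictScalars 𝒪) = ⊤ := by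
    rw [eq_top_iff, ← hspan, Submodule.span_le]
    rintro _ ⟨i, rfl⟩
    refine ⟨x i, ?_, hxt i⟩
    show x i ∈ J
    have hxi : x i ∈ Ideal.span (Set.range x) := Ideal.subset_span ⟨i, rfl⟩
    exact (le_sup_of_le_left le_sup_left : Ideal.span (Set.range x) ≤ J) hxi
  obtain ⟨j, hj, hjy⟩ : relMk (𝒪 := 𝒪) y ∈ Submodule.map (relMk (𝒪 := 𝒪)) (J.restrictScalars 𝒪) := by
    rw [hmap]; trivial
  have hj' : j ∈ J := hj
  have hsub : y - j ∈ relSub 𝒪 R := by
    rw [← relMk_eq_zero_iff, map_sub, hjy, sub_self]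
  have hsub' : y - j ∈ (relIdeal 𝒪 R).restrictScalars 𝒪 ⊔
      LinearMap.range (Algebra.linearMap 𝒪 R) := hsub
  obtain ⟨κ, hκ, z, ⟨c, rfl⟩, hsum⟩ := Submodule.mem_sup.mp hsub'
  have hκ' : κ ∈ relIdeal 𝒪 R := by simpa using hκ
  rw [Algebra.linearMap_apply] at hsum
  have hcm : algebraMap 𝒪 R c ∈ maximalIdeal R := by
    have : algebraMap 𝒪 R c = y - j - κ := by rw [← hsum]; ring
    rw [this]
    exact Ideal.sub_mem _ (Ideal.sub_mem _ hy (hJm hj')) (relIdeal_le_maximalIdeal hκ')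
  have hc' : c ∈ maximalIdeal 𝒪 := by
    by_contra hcon
    rw [mem_maximalIdeal, mem_nonunits_iff, not_not] at hcon
    exact hcm (hcon.map (algebraMap 𝒪 R))
  have hcJ : algebraMap 𝒪 R c ∈ J :=
    (le_sup_of_le_left le_sup_right : (maximalIdeal 𝒪).map (algebraMap 𝒪 R) ≤ J)
      (Ideal.mem_map_of_mem _ hc')
  have : y = j + (κ + algebraMap 𝒪 R c) := by rw [hsum]; ring
  rw [this]
  exact Ideal.add_mem _ hj' (Ideal.add_mem _ (hrelJ hκ') hcJ)

/-- Nakayama: generators modulo `𝔪_R²` are generators. -/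
theorem span_sup_map_eq_maximalIdeal [IsNoetherianRing R] {r : ℕ} (x : Fin r → R)
    (hgen : Ideal.span (Set.range x) ⊔ (maximalIdeal 𝒪).map (algebraMap 𝒪 R) ⊔ maximalIdeal R ^ 2 =
        maximalIdeal R) :
    Ideal.span (Set.range x) ⊔ (maximalIdeal 𝒪).map (algebraMap 𝒪 R) = maximalIdeal R := by
  refine le_antisymm ?_ ?_
  · rw [← hgen]; exact le_sup_left
  · refine Submodule.le_of_le_smul_of_le_jacobson_bot (I := maximalIdeal R)
      ((isNoetherianRing_iff_ideal_fg R).mp inferInstance _) ?_ ?_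
    · rw [IsLocalRing.jacobson_eq_maximalIdeal ⊥ bot_ne_top]
    · rw [smul_eq_mul, ← pow_two]
      exact hgen.ge

end Generators

section Gamma

open MvPowerSeries Fermat.Agent.S53.L6

variable {𝒪 : Type} [CommRing 𝒪] [IsLocalRing 𝒪]
  {R : Type} [CommRing R] [IsLocalRing R] [IsNoetherianRing R]
  [IsAdicComplete (maximalIdeal R) R] [Algebra 𝒪 R] [IsLocalHom (algebraMap 𝒪 R)]

/-- A power series ring over `𝒪` maps to a complete Noetherian local `𝒪`-algebra with prescribed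
values in the maximal ideal on the variables. -/
theorem exists_algHom_mvPowerSeries (hres : Function.Surjective (residue R ∘ algebraMap 𝒪 R))
    {r : ℕ} (x : Fin r → R) (hx : ∀ i, x i ∈ maximalIdeal R) :
    ∃ γ : MvPowerSeries (Fin r) 𝒪 →ₐ[𝒪] R, ∀ i, γ (X i) = x i := by
  have hT := fun n => isArtinianTestAlgebra_QP 𝒪 R inferInstance hres n
  have hloc : ∀ n, IsLocalHom (algebraMap 𝒪 (QP R n)) := fun n => (hT n).isLocalHom
  have hresn : ∀ n, Function.Surjective (residue (QP R n) ∘ algebraMap 𝒪 (QP R n)) :=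
    fun n => (hT n).residue_surjective
  have ha : ∀ n i, qp R n (x i) ∈ maximalIdeal (QP R n) := by
    intro n i
    rw [maximalIdeal_QP]
    exact Ideal.mem_map_of_mem _ (hx i)
  let γn : ∀ n, MvPowerSeries (Fin r) 𝒪 →ₐ[𝒪] QP R n := fun n =>
    evalHom (fun i => qp R n (x i)) (n + 1)
      (span_range_pow_eq_bot (maximalIdeal_QP_pow R n) _ (ha n))
  have hcompat : ∀ n, (qpFactor 𝒪 R n).comp (γn (n + 1)) = γn n := by
    intro n
    have := hloc n
    refine algHom_ext_of_X_of_isLocalHom (maximalIdeal_QP_pow R n)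
      (algHom_isLocalHom (hresn n) _) (algHom_isLocalHom (hresn n) _) ?_
    intro i
    rw [AlgHom.comp_apply, evalHom_X, evalHom_X]
    rfl
  obtain ⟨Φ, hΦ⟩ := exists_algHom_of_compatible γn hcompat
  refine ⟨Φ, fun i => ?_⟩
  have h1 : ∀ n, Φ (X i) - x i ∈ maximalIdeal R ^ (n + 1) := by
    intro n
    have h := congrArg (fun ψ : MvPowerSeries (Fin r) 𝒪 →ₐ[𝒪] QP R n => ψ (X i)) (hΦ n)
    simp only [AlgHom.comp_apply] at h
    rw [evalHom_X] at h
    exact Ideal.Quotient.eq.1 h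
  have h2 : Φ (X i) - x i ∈ (⨅ n, maximalIdeal R ^ n) := by
    rw [Ideal.mem_iInf]
    intro n
    exact Ideal.pow_le_pow_right (Nat.le_succ n) (h1 n)
  rw [Ideal.iInf_pow_eq_bot_of_isLocalRing _ (maximalIdeal.isMaximal R).ne_top] at h2
  exact sub_eq_zero.1 h2

/-- "Complete Nakayama": an algebra hom `𝒪⟦X₁, …, X_r⟧ → R` whose values on the variables
generate `𝔪_R` together with `𝔪_𝒪` is surjective. -/
theorem algHom_mvPowerSeries_surjective [IsPrecomplete (maximalIdeal 𝒪) 𝒪]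
    (hres : Function.Surjective (residue R ∘ algebraMap 𝒪 R)) {r : ℕ}
    (γ : MvPowerSeries (Fin r) 𝒪 →ₐ[𝒪] R)
    (hgen : Ideal.span (Set.range fun i => γ (X i)) ⊔ (maximalIdeal 𝒪).map (algebraMap 𝒪 R) =
      maximalIdeal R) : Function.Surjective γ := by
  have hloc := algHom_isLocalHom hres γ
  have hC : ∀ c : 𝒪, γ (C c) = algebraMap 𝒪 R c := fun c => γ.commutes c
  have hmap : (maximalIdeal (MvPowerSeries (Fin r) 𝒪)).map (γ : MvPowerSeries (Fin r) 𝒪 →+* R) =
      maximalIdeal R := by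
    refine le_antisymm ?_ ?_
    · rw [Ideal.map_le_iff_le_comap]
      intro p hp
      rw [Ideal.mem_comap, mem_maximalIdeal, mem_nonunits_iff]
      intro hu
      exact hp (hloc.map_nonunit p hu)
    · rw [← hgen]
      refine sup_le ?_ ?_
      · rw [Ideal.span_le]
        rintro _ ⟨i, rfl⟩
        exact Ideal.mem_map_of_mem _ (X_mem_maximalIdeal i)
      · rw [Ideal.map_le_iff_le_comap]
        intro c hc
        rw [Ideal.mem_comap, ← hC c]
        refine Ideal.mem_map_of_mem _ ?_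
        rw [mem_maximalIdeal_iff]
        simpa using hc
  have : IsHausdorff ((maximalIdeal (MvPowerSeries (Fin r) 𝒪)).map
      (γ : MvPowerSeries (Fin r) 𝒪 →+* R)) R := by
    rw [hmap]; infer_instance
  have : IsPrecomplete (maximalIdeal (MvPowerSeries (Fin r) 𝒪)) (MvPowerSeries (Fin r) 𝒪) :=
    isPrecomplete
  refine surjective_of_mk_map_comp_surjective (I := maximalIdeal (MvPowerSeries (Fin r) 𝒪))
    (γ : MvPowerSeries (Fin r) 𝒪 →+* R) ?_
  intro q
  obtain ⟨y, rfl⟩ := Ideal.Quotient.mk_surjective q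
  obtain ⟨c, hc⟩ := exists_sub_algebraMap_mem hres y
  refine ⟨C c, ?_⟩
  rw [RingHom.comp_apply]
  apply Ideal.Quotient.eq.2
  rw [hmap]
  show γ (C c) - y ∈ maximalIdeal R
  rw [hC c]
  have : algebraMap 𝒪 R c - y = -(y - algebraMap 𝒪 R c) := by ring
  rw [this]
  exact Ideal.neg_mem_iff _ |>.2 hc

/-- **(T2)** A complete Noetherian local `𝒪`-algebra with residue field `k` whose reduced
cotangent space has dimension `≤ r` is a quotient of `𝒪⟦X₁, …, X_r⟧`. -/
theorem exists_surjective_mvPowerSeries_of_finrank_le [IsPrecomplete (maximalIdeal 𝒪) 𝒪]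
    (hres : Function.Surjective (residue R ∘ algebraMap 𝒪 R)) {r : ℕ}
    (h : Module.finrank (ResidueField 𝒪) (RelCot 𝒪 R) ≤ r) :
    ∃ γ : MvPowerSeries (Fin r) 𝒪 →ₐ[𝒪] R, Function.Surjective γ := by
  obtain ⟨x, hxm, hgen⟩ := exists_gens_of_finrank_le hres h
  obtain ⟨γ, hγ⟩ := exists_algHom_mvPowerSeries (𝒪 := 𝒪) hres x hxm
  refine ⟨γ, algHom_mvPowerSeries_surjective hres γ ?_⟩
  have : (fun i => γ (X i)) = x := funext hγ
  rw [this]
  exact span_sup_map_eq_maximalIdeal x hgen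

attribute [local instance] dualNumberAlgebra

/-- **(T1)** A complete Noetherian local `𝒪`-algebra `R` with residue field `k` and at most
`|k| ^ r` tangent vectors `R → k[ε]` is a quotient of `𝒪⟦X₁, …, X_r⟧`.  (Here `k[ε]` carries the
`𝒪`-algebra structure `dualNumberAlgebra`.) -/
theorem exists_surjective_mvPowerSeries_of_card_algHom_le [IsPrecomplete (maximalIdeal 𝒪) 𝒪]
    [Finite (ResidueField 𝒪)]
    (hres : Function.Surjective (residue R ∘ algebraMap 𝒪 R)) {r : ℕ}
    (h : Nat.card (R →ₐ[𝒪] DualNumber (ResidueField 𝒪)) ≤ Nat.card (ResidueField 𝒪) ^ r) :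
    ∃ γ : MvPowerSeries (Fin r) 𝒪 →ₐ[𝒪] R, Function.Surjective γ := by
  refine exists_surjective_mvPowerSeries_of_finrank_le hres ?_
  rw [card_algHom_dualNumber hres] at h
  exact (Nat.pow_le_pow_iff_right Finite.one_lt_card).1 h

end Gamma

section AnyInstance

open MvPowerSeries

variable {𝒪 : Type} [CommRing 𝒪] [IsLocalRing 𝒪]
  {R : Type} [CommRing R] [IsLocalRing R] [IsNoetherianRing R]
  [IsAdicComplete (maximalIdeal R) R] [Algebra 𝒪 R] [IsLocalHom (algebraMap 𝒪 R)]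

/-- **(T1)**, for an arbitrary `𝒪`-algebra structure on `k[ε]` whose structure map is
`c ↦ (c mod 𝔪_𝒪) + 0·ε` (e.g. Mathlib's default `TrivSqZeroExt.algebra'`, or the one of
`GaloisRep.TangentFinite`). -/
theorem exists_surjective_mvPowerSeries_of_card_algHom_le'
    [IsPrecomplete (maximalIdeal 𝒪) 𝒪] [Finite (ResidueField 𝒪)]
    [inst : Algebra 𝒪 (DualNumber (ResidueField 𝒪))]
    (halg : ∀ c : 𝒪, algebraMap 𝒪 (DualNumber (ResidueField 𝒪)) c =
      TrivSqZeroExt.inl (residue 𝒪 c))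
    (hres : Function.Surjective (residue R ∘ algebraMap 𝒪 R)) {r : ℕ}
    (h : Nat.card (R →ₐ[𝒪] DualNumber (ResidueField 𝒪)) ≤ Nat.card (ResidueField 𝒪) ^ r) :
    ∃ γ : MvPowerSeries (Fin r) 𝒪 →ₐ[𝒪] R, Function.Surjective γ := by
  have hinst : inst = dualNumberAlgebra 𝒪 := Algebra.algebra_ext _ _ halg
  subst hinst
  exact exists_surjective_mvPowerSeries_of_card_algHom_le hres h

end AnyInstance

end Fermat.Agent.TW
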