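/-
TW (S56) — helper6 — from a bound on the number of `𝒪`-algebra maps `R → k[ε]` to generators of
`𝔪_R` modulo `𝔪_𝒪 R + 𝔪_R ^ 2`, hence to a surjection from a power series ring.

`k = ResidueField 𝒪`, `k[ε] = DualNumber k` with the `𝒪`-algebra structure `𝒪 → k → k[ε]`
(`Fermat.Agent.S53.PS.dualNumberAlgebra`, the one of `GaloisRep.TangentFinite`).
-/
import Mathlib
import Fermat.Agent.S53.Tangent
import Fermat.Agent.TW.PSLift_helper6

set_option autoImplicit false
set_option linter.unusedSectionVars false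

noncomputable section

namespace Fermat.Agent.TW

open IsLocalRing Fermat.Agent.S53

section Der

variable {𝒪 : Type*} [CommRing 𝒪] [IsLocalRing 𝒪]
  {R : Type*} [CommRing R] [IsLocalRing R] [Algebra 𝒪 R] [IsLocalHom (algebraMap 𝒪 R)]

/-- `𝒪`-linear maps `R → k` killing the constants and the ideal `K`: the "derivations" of `R`
into `k` which vanish on `K` (when `𝔪_R ^ 2 ≤ K`). -/
def derSub (K : Ideal R) : Submodule (ResidueField 𝒪) (R →ₗ[𝒪] ResidueField 𝒪) where
  carrier := {l | (∀ c, l (algebraMap 𝒪 R c) = 0) ∧ ∀ x ∈ K, l x = 0}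
  zero_mem' := ⟨fun _ => rfl, fun _ _ => rfl⟩
  add_mem' := by
    rintro l l' ⟨h1, h2⟩ ⟨h1', h2'⟩
    exact ⟨fun c => by rw [LinearMap.add_apply, h1, h1', add_zero],
      fun x hx => by rw [LinearMap.add_apply, h2 x hx, h2' x hx, add_zero]⟩
  smul_mem' := by
    rintro a l ⟨h1, h2⟩
    exact ⟨fun c => by rw [LinearMap.smul_apply, h1, smul_zero],
      fun x hx => by rw [LinearMap.smul_apply, h2 x hx, smul_zero]⟩

theorem mem_derSub {K : Ideal R} {l : R →ₗ[𝒪] ResidueField 𝒪} :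
    l ∈ derSub K ↔ (∀ c, l (algebraMap 𝒪 R c) = 0) ∧ ∀ x ∈ K, l x = 0 := Iff.rfl

theorem derSub_anti {K K' : Ideal R} (h : K ≤ K') : derSub (𝒪 := 𝒪) K' ≤ derSub K :=
  fun _ hl => ⟨hl.1, fun x hx => hl.2 x (h hx)⟩

/-- A derivation killing `𝔪_R` is zero. -/
theorem eq_zero_of_mem_derSub_maximalIdeal
    (hres : Function.Surjective (residue R ∘ algebraMap 𝒪 R))
    {l : R →ₗ[𝒪] ResidueField 𝒪} (hl : l ∈ derSub (maximalIdeal R)) : l = 0 := by
  ext x
  obtain ⟨c, hc⟩ := PS.exists_sub_algebraMap_mem hres x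
  have : x = algebraMap 𝒪 R c + (x - algebraMap 𝒪 R c) := by ring
  rw [this, map_add, hl.1, hl.2 _ hc, add_zero, LinearMap.zero_apply]

/-- The ideal `𝔪_𝒪 R + 𝔪_R ^ 2`. -/
def tangentIdeal (𝒪 : Type*) [CommRing 𝒪] [IsLocalRing 𝒪] (R : Type*) [CommRing R] [IsLocalRing R]
    [Algebra 𝒪 R] : Ideal R :=
  (maximalIdeal 𝒪).map (algebraMap 𝒪 R) ⊔ maximalIdeal R ^ 2

theorem tangentIdeal_le : tangentIdeal 𝒪 R ≤ maximalIdeal R :=
  sup_le PS.map_maximalIdeal_le_maximalIdeal (Ideal.pow_le_self two_ne_zero)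

/-- Evaluation at `y` as a linear functional on `derSub K`. -/
def derEval (K : Ideal R) (y : R) : derSub (𝒪 := 𝒪) K →ₗ[ResidueField 𝒪] ResidueField 𝒪 where
  toFun l := l.1 y
  map_add' _ _ := rfl
  map_smul' _ _ := rfl

theorem ker_derEval (hres : Function.Surjective (residue R ∘ algebraMap 𝒪 R))
    (K : Ideal R) (hK2 : maximalIdeal R ^ 2 ≤ K) (y : R) (hy : y ∈ maximalIdeal R) :
    (LinearMap.ker (derEval (𝒪 := 𝒪) K y)).map (derSub K).subtype = derSub (K ⊔ Ideal.span {y}) := by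
  ext l
  constructor
  · rintro ⟨⟨l, hl⟩, hker, rfl⟩
    refine ⟨hl.1, fun x hx => ?_⟩
    obtain ⟨a, ha, b, hb, rfl⟩ := Submodule.mem_sup.mp hx
    obtain ⟨t, rfl⟩ := Ideal.mem_span_singleton'.mp hb
    have h0 : l y = 0 := hker
    obtain ⟨c, hc⟩ := PS.exists_sub_algebraMap_mem hres t
    have h1 : t * y = c • y + (t - algebraMap 𝒪 R c) * y := by
      rw [Algebra.smul_def]; ring
    have h2 : l ((t - algebraMap 𝒪 R c) * y) = 0 := by
      apply hl.2
      apply hK2
      rw [pow_two]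
      exact Ideal.mul_mem_mul hc hy
    show l (a + t * y) = 0
    rw [map_add, hl.2 a ha, h1, map_add, map_smul, h0, smul_zero, h2, add_zero, add_zero]
  · intro hl
    have hlK : l ∈ derSub K := derSub_anti le_sup_left hl
    refine ⟨⟨l, hlK⟩, ?_, rfl⟩
    exact hl.2 y (Ideal.mem_sup_right (Ideal.subset_span rfl))

theorem derEval_surjective (K : Ideal R) (y : R) {l : R →ₗ[𝒪] ResidueField 𝒪} (hl : l ∈ derSub K)
    (hly : l y ≠ 0) : Function.Surjective (derEval (𝒪 := 𝒪) K y) := by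
  intro a
  refine ⟨(a / l y) • ⟨l, hl⟩, ?_⟩
  show (a / l y) • l y = a
  rw [smul_eq_mul, div_mul_cancel₀ _ hly]

/-- Greedy choice of generators: if the space of derivations killing `K` has dimension `n`, then
`𝔪_R` is generated by `K` and `n` further elements. -/
theorem exists_gen_of_finrank (hres : Function.Surjective (residue R ∘ algebraMap 𝒪 R)) :
    ∀ (n : ℕ) (K : Ideal R), tangentIdeal 𝒪 R ≤ K → K ≤ maximalIdeal R →
      Module.Finite (ResidueField 𝒪) (derSub (𝒪 := 𝒪) K) →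
      Module.finrank (ResidueField 𝒪) (derSub (𝒪 := 𝒪) K) = n →
      ∃ y : Fin n → R, (∀ i, y i ∈ maximalIdeal R) ∧
        K ⊔ Ideal.span (Set.range y) = maximalIdeal R := by
  intro n
  induction n with
  | zero =>
    intro K hK0 hKm hfin hrank
    have hKeq : K = maximalIdeal R := by
      by_contra hne
      obtain ⟨y0, hy0, hy0K⟩ := SetLike.exists_of_lt (lt_of_le_of_ne hKm hne)
      obtain ⟨l, hl1, hl2, hl3⟩ := PS.exists_linearMap_tangent K (le_sup_left.trans hK0) hy0 hy0K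
      haveI := hfin
      have hsub : Subsingleton (derSub (𝒪 := 𝒪) K) :=
        (Module.finrank_zero_iff (R := ResidueField 𝒪) (M := derSub (𝒪 := 𝒪) K)).mp hrank
      have hl : l ∈ derSub K := ⟨hl1, hl2⟩
      have h0 : (⟨l, hl⟩ : derSub (𝒪 := 𝒪) K) = 0 := Subsingleton.elim _ _
      have : l = 0 := congrArg Subtype.val h0
      exact hl3 (by rw [this]; rfl)
    refine ⟨Fin.elim0, fun i => i.elim0, ?_⟩
    have : Set.range (Fin.elim0 : Fin 0 → R) = ∅ := Set.range_eq_empty _
    rw [this, Ideal.span_empty, sup_bot_eq, hKeq]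
  | succ n ih =>
    intro K hK0 hKm hfin hrank
    have hne : K ≠ maximalIdeal R := by
      intro hKeq
      have hsub : Subsingleton (derSub (𝒪 := 𝒪) K) := by
        refine ⟨fun a b => ?_⟩
        apply Subtype.ext
        have ha : a.1 ∈ derSub (𝒪 := 𝒪) (maximalIdeal R) := by rw [← hKeq]; exact a.2
        have hb : b.1 ∈ derSub (𝒪 := 𝒪) (maximalIdeal R) := by rw [← hKeq]; exact b.2
        rw [eq_zero_of_mem_derSub_maximalIdeal hres ha,
          eq_zero_of_mem_derSub_maximalIdeal hres hb]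
      haveI := hfin
      have := (Module.finrank_zero_iff (R := ResidueField 𝒪) (M := derSub (𝒪 := 𝒪) K)).mpr hsub
      omega
    obtain ⟨y0, hy0, hy0K⟩ := SetLike.exists_of_lt (lt_of_le_of_ne hKm hne)
    obtain ⟨l, hl1, hl2, hl3⟩ := PS.exists_linearMap_tangent K (le_sup_left.trans hK0) hy0 hy0K
    have hl : l ∈ derSub K := ⟨hl1, hl2⟩
    have hsurj := derEval_surjective K y0 hl hl3
    have hker := ker_derEval hres K (le_sup_right.trans hK0) y0 hy0
    set K' := K ⊔ Ideal.span {y0} with hK'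
    have hK'0 : tangentIdeal 𝒪 R ≤ K' := hK0.trans le_sup_left
    have hK'm : K' ≤ maximalIdeal R :=
      sup_le hKm ((Ideal.span_singleton_le_iff_mem _).mpr hy0)
    haveI := hfin
    have hrk : Module.finrank (ResidueField 𝒪) (LinearMap.ker (derEval (𝒪 := 𝒪) K y0)) = n := by
      have h1 := LinearMap.finrank_range_add_finrank_ker (K := ResidueField 𝒪)
        (V := derSub (𝒪 := 𝒪) K) (derEval (𝒪 := 𝒪) K y0)
      rw [LinearMap.range_eq_top.mpr hsurj, finrank_top, Module.finrank_self, hrank] at h1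
      omega
    have e : LinearMap.ker (derEval (𝒪 := 𝒪) K y0) ≃ₗ[ResidueField 𝒪] derSub (𝒪 := 𝒪) K' := by
      rw [← hker]
      exact Submodule.equivMapOfInjective _ (Submodule.injective_subtype _) _
    haveI hfink : Module.Finite (ResidueField 𝒪) (LinearMap.ker (derEval (𝒪 := 𝒪) K y0)) :=
      FiniteDimensional.finiteDimensional_submodule (K := ResidueField 𝒪)
        (V := derSub (𝒪 := 𝒪) K) _
    have hfin' : Module.Finite (ResidueField 𝒪) (derSub (𝒪 := 𝒪) K') :=
      Module.Finite.equiv (R := ResidueField 𝒪) (M := LinearMap.ker (derEval (𝒪 := 𝒪) K y0)) e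
    have hrank' : Module.finrank (ResidueField 𝒪) (derSub (𝒪 := 𝒪) K') = n := by
      rw [← e.finrank_eq, hrk]
    obtain ⟨y', hy', hgen⟩ := ih K' hK'0 hK'm hfin' hrank'
    refine ⟨Fin.cons y0 y', ?_, ?_⟩
    · intro i
      refine Fin.cases ?_ (fun j => ?_) i
      · simpa using hy0
      · simpa using hy' j
    · rw [Fin.range_cons, Ideal.span_insert, ← sup_assoc, ← hK', hgen]

end Der

section Count

variable {𝒪 : Type*} [CommRing 𝒪] [IsLocalRing 𝒪]
  {R : Type*} [CommRing R] [IsLocalRing R] [Algebra 𝒪 R] [IsLocalHom (algebraMap 𝒪 R)]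

attribute [local instance] PS.dualNumberAlgebra

/-- The `𝒪`-algebra map `R → k[ε]` attached to a derivation. -/
def derToAlgHom (hres : Function.Surjective (residue R ∘ algebraMap 𝒪 R))
    (l : derSub (𝒪 := 𝒪) (tangentIdeal 𝒪 R)) : R →ₐ[𝒪] DualNumber (ResidueField 𝒪) :=
  PS.tangentHom hres l.1 l.2.1 (fun y hy y' hy' => l.2.2 _ (Ideal.mem_sup_right (by
    rw [pow_two]; exact Ideal.mul_mem_mul hy hy')))

theorem derToAlgHom_snd (hres : Function.Surjective (residue R ∘ algebraMap 𝒪 R))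
    (l : derSub (𝒪 := 𝒪) (tangentIdeal 𝒪 R)) (x : R) : (derToAlgHom hres l x).snd = l.1 x :=
  PS.tangentHom_snd hres _ _ _ x

theorem derToAlgHom_injective (hres : Function.Surjective (residue R ∘ algebraMap 𝒪 R)) :
    Function.Injective (derToAlgHom (𝒪 := 𝒪) (R := R) hres) := by
  intro l l' h
  apply Subtype.ext
  ext x
  rw [← derToAlgHom_snd hres l x, ← derToAlgHom_snd hres l' x, h]

/-- A type all of whose finite subsets have at most `N` elements is finite with at most `N`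
elements. -/
theorem finite_and_card_le_of_finset_card_le {α : Type*} {N : ℕ}
    (h : ∀ s : Finset α, s.card ≤ N) : Finite α ∧ Nat.card α ≤ N := by
  have hfin : Finite α := by
    by_contra hinf
    rw [not_finite_iff_infinite] at hinf
    obtain ⟨s, hs⟩ := Infinite.exists_subset_card_eq α (N + 1)
    have := h s
    omega
  refine ⟨hfin, ?_⟩
  haveI := Fintype.ofFinite α
  rw [Nat.card_eq_fintype_card, ← Finset.card_univ]
  exact h _

/-- **Theorem B.** If `R` has at most `|k|^r + 1` algebra maps to `k[ε]` and `|k| ≥ 3`, then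
`𝔪_R` is generated by `r` elements modulo `𝔪_𝒪 R + 𝔪_R ^ 2`. -/
theorem exists_gen_of_card_algHom_le [Finite (ResidueField 𝒪)]
    (hres : Function.Surjective (residue R ∘ algebraMap 𝒪 R)) (r : ℕ)
    (hk : 3 ≤ Nat.card (ResidueField 𝒪))
    (hT : ∀ s : Finset (R →ₐ[𝒪] DualNumber (ResidueField 𝒪)),
      s.card ≤ Nat.card (ResidueField 𝒪) ^ r + 1) :
    ∃ x : Fin r → R, (∀ i, x i ∈ maximalIdeal R) ∧
      Ideal.span (Set.range x) ⊔ (maximalIdeal 𝒪).map (algebraMap 𝒪 R) ⊔ maximalIdeal R ^ 2 =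
        maximalIdeal R := by
  classical
  -- the derivations are finite in number
  have hΛ : ∀ s : Finset (derSub (𝒪 := 𝒪) (tangentIdeal 𝒪 R)),
      s.card ≤ Nat.card (ResidueField 𝒪) ^ r + 1 := by
    intro s
    have := hT (s.map ⟨derToAlgHom hres, derToAlgHom_injective hres⟩)
    rwa [Finset.card_map] at this
  obtain ⟨hfin, hcard⟩ := finite_and_card_le_of_finset_card_le hΛ
  haveI : Module.Finite (ResidueField 𝒪) (derSub (𝒪 := 𝒪) (tangentIdeal 𝒪 R)) :=
    Module.Finite.of_finite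
  set d := Module.finrank (ResidueField 𝒪) (derSub (𝒪 := 𝒪) (tangentIdeal 𝒪 R)) with hd
  have hpow : Nat.card (ResidueField 𝒪) ^ d ≤ Nat.card (ResidueField 𝒪) ^ r + 1 := by
    rw [hd, ← Module.natCard_eq_pow_finrank (K := ResidueField 𝒪)
      (V := derSub (𝒪 := 𝒪) (tangentIdeal 𝒪 R))]
    exact hcard
  have hdr : d ≤ r := by
    by_contra hlt
    rw [not_le] at hlt
    have h1 : Nat.card (ResidueField 𝒪) ^ (r + 1) ≤ Nat.card (ResidueField 𝒪) ^ d :=
      Nat.pow_le_pow_right (by omega) hlt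
    have h2 : 1 ≤ Nat.card (ResidueField 𝒪) ^ r := Nat.one_le_pow _ _ (by omega)
    have h3 : Nat.card (ResidueField 𝒪) ^ (r + 1) = Nat.card (ResidueField 𝒪) ^ r *
        Nat.card (ResidueField 𝒪) := pow_succ _ _
    nlinarith
  obtain ⟨y, hy, hgen⟩ := exists_gen_of_finrank hres d (tangentIdeal 𝒪 R) le_rfl tangentIdeal_le
    inferInstance rfl
  -- pad with zeros
  refine ⟨fun i => if h : (i : ℕ) < d then y ⟨i, h⟩ else 0, fun i => ?_, ?_⟩
  · dsimp only
    split_ifs with h
    · exact hy _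
    · exact Ideal.zero_mem _
  · have hspan : Ideal.span (Set.range fun i : Fin r => if h : (i : ℕ) < d then y ⟨i, h⟩ else 0) =
        Ideal.span (Set.range y) := by
      apply le_antisymm
      · rw [Ideal.span_le]
        rintro _ ⟨i, rfl⟩
        dsimp only
        split_ifs with h
        · exact Ideal.subset_span ⟨_, rfl⟩
        · exact Ideal.zero_mem _
      · rw [Ideal.span_le]
        rintro _ ⟨j, rfl⟩
        refine Ideal.subset_span ⟨⟨j, lt_of_lt_of_le j.2 hdr⟩, ?_⟩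
        simp
    rw [hspan, sup_assoc, sup_comm]
    exact hgen

/-- **Theorem C.** A complete Noetherian local `𝒪`-algebra `R` with residue field `k`, `|k| ≥ 3`,
having at most `|k|^r + 1` algebra maps to `k[ε]`, is a quotient of `𝒪⟦X₁, …, X_r⟧`. -/
theorem exists_surjective_mvPowerSeries_of_finset_card_le [Finite (ResidueField 𝒪)]
    [IsPrecomplete (maximalIdeal 𝒪) 𝒪] [IsNoetherianRing R] [IsAdicComplete (maximalIdeal R) R]
    (hres : Function.Surjective (residue R ∘ algebraMap 𝒪 R)) (r : ℕ)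
    (hk : 3 ≤ Nat.card (ResidueField 𝒪))
    (hT : ∀ s : Finset (R →ₐ[𝒪] DualNumber (ResidueField 𝒪)),
      s.card ≤ Nat.card (ResidueField 𝒪) ^ r + 1) :
    ∃ γ : MvPowerSeries (Fin r) 𝒪 →ₐ[𝒪] R, Function.Surjective γ := by
  obtain ⟨x, hx, hgen⟩ := exists_gen_of_card_algHom_le hres r hk hT
  obtain ⟨γ, -, hγ⟩ := exists_surjective_mvPowerSeries_of_gen hres x hx hgen
  exact ⟨γ, hγ⟩

end Count

end Fermat.Agent.TW
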