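/-
TW (S56) — helper6 — (A3) from a Selmer-type bound on deformations to the dual numbers to a
surjection `𝒪⟦X₁, …, X_r⟧ ↠ R` for a universal deformation ring `R`.

Main result `exists_surjective_mvPowerSeries_of_cocycle_classes`: let `DQ` be a
`DeformationRingData 𝒪 ρbar 𝒟`, `rbar` the matrix of `ρbar` in a basis `β`, and suppose
* `𝒟` is invariant under equivalence over `k[ε]` and stable under base change along surjective
  `𝒪`-algebra maps `DQ.R → k[ε]`;
* there is a map `cls` from functions `Gal → M2 k` to a finite type `Sel` with at most `|k| ^ r`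
  elements such that two smooth twisted cocycles `b`, `b'` of `rbar` whose deformations are of
  type `𝒟` and have the same class differ by a twisted coboundary.
Then (`|k| ≥ 3`) `DQ.R` is a quotient of `𝒪⟦X₁, …, X_r⟧`.
-/
import Mathlib
import Fermat.Prelude.Def_GaloisRep_DeformationRingData
import Fermat.Agent.S53.L6_helper7_Final
import Fermat.Agent.S53.L6_helper7_TangentFinite
import Fermat.Agent.TW.TangentCount_helper6
import Fermat.Agent.TW.Glue_helper1_Tangent
import Fermat.Agent.TW.Deform_helper6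

set_option autoImplicit false
set_option linter.unusedSectionVars false

noncomputable section

namespace Fermat.Agent.TW

open Fermat.Agent.S53 IsLocalRing GaloisRep

section Dual

variable (k : Type) [Field k]

theorem isAdicComplete_dualNumber : IsAdicComplete (maximalIdeal (DualNumber k)) (DualNumber k) := by
  have hn : maximalIdeal (DualNumber k) ^ 2 = ⊥ := maximalIdeal_dualNumber_sq
  have hH : IsHausdorff (maximalIdeal (DualNumber k)) (DualNumber k) := ⟨fun x hx => by
    have := hx 2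
    rwa [SModEq.sub_mem, smul_eq_mul, Ideal.mul_top, hn, sub_zero, Ideal.mem_bot] at this⟩
  have hP : IsPrecomplete (maximalIdeal (DualNumber k)) (DualNumber k) := ⟨fun f hf => ⟨f 2, fun m => by
    rcases le_total m 2 with hmn | hmn
    · exact hf hmn
    · have := hf hmn
      rw [SModEq.sub_mem, smul_eq_mul, Ideal.mul_top, hn, Ideal.mem_bot, sub_eq_zero] at this
      rw [this]; exact SModEq.rfl⟩⟩
  exact { toIsHausdorff := hH, toIsPrecomplete := hP }

theorem isNoetherianRing_dualNumber : IsNoetherianRing (DualNumber k) := by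
  haveI := PS.dualNumber_isArtinianRing k
  infer_instance

end Dual

section Main

variable {𝒪 : Type} [CommRing 𝒪] [IsDomain 𝒪] [IsDiscreteValuationRing 𝒪]
  [IsAdicComplete (maximalIdeal 𝒪) 𝒪] [Finite (ResidueField 𝒪)]
  {ρbar : ResidualGaloisRep (ResidueField 𝒪)}
  {𝒟 : ∀ ⦃A : Type⦄ [CommRing A] [IsLocalRing A] [Algebra 𝒪 A], GaloisRepAdic A → Prop}

attribute [local instance] PS.dualNumberAlgebra

theorem isLocalHom_algebraMap_dualNumber :
    IsLocalHom (algebraMap 𝒪 (DualNumber (ResidueField 𝒪))) :=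
  L6.isLocalHom_algebraMap_dual 𝒪

theorem residue_dualNumber_surjective :
    Function.Surjective (residue (DualNumber (ResidueField 𝒪)) ∘
      algebraMap 𝒪 (DualNumber (ResidueField 𝒪))) :=
  (PS.dualNumber_isArtinianTestAlgebra 𝒪).residue_surjective

/-- The data attached to an `𝒪`-algebra map `f : DQ.R → k[ε]`: a continuous strict lift of `rbar`
whose `ofMatrix` is equivalent to the push-forward of the universal deformation. -/
theorem exists_strictLift_of_algHom (DQ : DeformationRingData 𝒪 ρbar 𝒟)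
    (β : Module.Basis (Fin 2) (ResidueField 𝒪) ρbar.V)
    (f : DQ.R →ₐ[𝒪] DualNumber (ResidueField 𝒪)) (hf : IsLocalHom (f : DQ.R →+* DualNumber (ResidueField 𝒪))) :
    ∃ (r : Gal →* M2 (DualNumber (ResidueField 𝒪))) (hr : MatCont r),
      IsStrictLift 𝒪 (resMatrixOf ρbar β) r ∧
      (DQ.ρ.baseChangeAlong (f : DQ.R →+* DualNumber (ResidueField 𝒪)) hf).IsEquiv (ofMatrix r hr) := by
  haveI := isLocalHom_algebraMap_dualNumber (𝒪 := 𝒪)
  have h1 := residual_baseChangeAlong_isEquiv ρbar f hf DQ.ρ DQ.residual_isEquiv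
  exact exists_isEquiv_ofMatrix_isStrictLift ρbar β _ h1

theorem ofMatrix_congr {A : Type} [CommRing A] [IsLocalRing A] {r r' : Gal →* M2 A} (h : r = r')
    (hr : MatCont r) (hr' : MatCont r') : ofMatrix r hr = ofMatrix r' hr' := by
  subst h; rfl

/-- An `𝒪`-algebra map `R → k[ε]` with nonzero `ε`-part is surjective. -/
theorem algHom_dualNumber_surjective_of_snd_ne_zero {R : Type} [CommRing R] [Algebra 𝒪 R]
    (f : R →ₐ[𝒪] DualNumber (ResidueField 𝒪)) {x0 : R} (hx0 : (f x0).snd ≠ 0) :
    Function.Surjective f := by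
  intro z
  obtain ⟨c', hc'⟩ := residue_surjective (z.snd / (f x0).snd)
  obtain ⟨c, hc⟩ := residue_surjective (z.fst - z.snd / (f x0).snd * (f x0).fst)
  refine ⟨algebraMap 𝒪 R c + algebraMap 𝒪 R c' * x0, ?_⟩
  rw [map_add, map_mul, f.commutes, f.commutes, PS.dualNumber_algebraMap_apply,
    PS.dualNumber_algebraMap_apply, hc, hc']
  apply TrivSqZeroExt.ext
  · rw [TrivSqZeroExt.fst_add, TrivSqZeroExt.fst_inl, TrivSqZeroExt.fst_mul,
      TrivSqZeroExt.fst_inl]
    ring
  · rw [TrivSqZeroExt.snd_add, TrivSqZeroExt.snd_inl, TrivSqZeroExt.snd_mul,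
      TrivSqZeroExt.fst_inl, TrivSqZeroExt.snd_inl, smul_zero, add_zero, zero_add, smul_eq_mul,
      div_mul_cancel₀ _ hx0]

/-- Two non-surjective `𝒪`-algebra maps `R → k[ε]` coincide. -/
theorem algHom_dualNumber_eq_of_not_surjective {R : Type} [CommRing R] [IsLocalRing R]
    [Algebra 𝒪 R] [IsLocalHom (algebraMap 𝒪 R)]
    (hres : Function.Surjective (residue R ∘ algebraMap 𝒪 R))
    (f f' : R →ₐ[𝒪] DualNumber (ResidueField 𝒪)) (hf : ¬ Function.Surjective f)
    (hf' : ¬ Function.Surjective f') : f = f' := by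
  ext x
  · rw [algHom_fst hres f x, algHom_fst hres f' x]
  · have h1 : (f x).snd = 0 := by
      by_contra h; exact hf (algHom_dualNumber_surjective_of_snd_ne_zero f h)
    have h2 : (f' x).snd = 0 := by
      by_contra h; exact hf' (algHom_dualNumber_surjective_of_snd_ne_zero f' h)
    rw [h1, h2]

/-- **(A3) Main glue theorem.** -/
theorem exists_surjective_mvPowerSeries_of_cocycle_classes
    (DQ : DeformationRingData 𝒪 ρbar 𝒟) (β : Module.Basis (Fin 2) (ResidueField 𝒪) ρbar.V) (r : ℕ)
    (hk : 3 ≤ Nat.card (ResidueField 𝒪))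
    (h𝒟equiv : ∀ ρ ρ' : GaloisRepAdic (DualNumber (ResidueField 𝒪)), ρ.IsEquiv ρ' → 𝒟 ρ → 𝒟 ρ')
    (h𝒟surj : ∀ (f : DQ.R →ₐ[𝒪] DualNumber (ResidueField 𝒪))
      (hf : IsLocalHom (f : DQ.R →+* DualNumber (ResidueField 𝒪))), Function.Surjective f →
        𝒟 (DQ.ρ.baseChangeAlong (f : DQ.R →+* DualNumber (ResidueField 𝒪)) hf))
    {Sel : Type*} [Finite Sel] (hSel : Nat.card Sel ≤ Nat.card (ResidueField 𝒪) ^ r)
    (cls : (Gal → M2 (ResidueField 𝒪)) → Sel)
    (hcls : ∀ (b b' : Gal → M2 (ResidueField 𝒪))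
      (hb : IsTwCocycle (resMatrixOf ρbar β) b) (hb' : IsTwCocycle (resMatrixOf ρbar β) b')
      (hs : IsSmoothFun b) (hs' : IsSmoothFun b'),
      𝒟 (ofMatrix (defOfCocycle (resMatrixOf ρbar β) b hb)
        (matCont_defOfCocycle (resMatrixOf_factors ρbar β) hb hs)) →
      𝒟 (ofMatrix (defOfCocycle (resMatrixOf ρbar β) b' hb')
        (matCont_defOfCocycle (resMatrixOf_factors ρbar β) hb' hs')) →
      cls b = cls b' →
        ∃ X : M2 (ResidueField 𝒪), ∀ σ, b' σ - b σ =
          X * resMatrixOf ρbar β σ - resMatrixOf ρbar β σ * X) :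
    ∃ γ : MvPowerSeries (Fin r) 𝒪 →ₐ[𝒪] DQ.R, Function.Surjective γ := by
  classical
  set rbar := resMatrixOf ρbar β with hrbar
  have hfac := resMatrixOf_factors ρbar β
  haveI := isLocalHom_algebraMap_dualNumber (𝒪 := 𝒪)
  haveI := isAdicComplete_dualNumber (ResidueField 𝒪)
  haveI := isNoetherianRing_dualNumber (ResidueField 𝒪)
  have hresD := residue_dualNumber_surjective (𝒪 := 𝒪)
  have hloc : ∀ f : DQ.R →ₐ[𝒪] DualNumber (ResidueField 𝒪),
      IsLocalHom (f : DQ.R →+* DualNumber (ResidueField 𝒪)) :=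
    fun f => L6.isLocalHom_of_residue_surjective hresD f
  -- the chosen strict matrix form of the deformation attached to `f`
  choose rf hrf hstrict hequiv using
    fun f : DQ.R →ₐ[𝒪] DualNumber (ResidueField 𝒪) => exists_strictLift_of_algHom DQ β f (hloc f)
  have hfst : ∀ f σ, fstM (rf f σ) = rbar σ := fun f =>
    (isStrictLift_dualNumber_iff _ _).1 (hstrict f)
  have hcoc : ∀ f, IsTwCocycle rbar (cocycleOf (rf f)) := fun f => isTwCocycle_cocycleOf (hfst f)
  have hsm : ∀ f, IsSmoothFun (cocycleOf (rf f)) := fun f => isSmoothFun_cocycleOf (hrf f)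
  have hdef : ∀ f, defOfCocycle rbar (cocycleOf (rf f)) (hcoc f) = rf f :=
    fun f => defOfCocycle_cocycleOf (hfst f)
  have hmat : ∀ f, (ofMatrix (rf f) (hrf f)).IsEquiv
      (ofMatrix (defOfCocycle rbar (cocycleOf (rf f)) (hcoc f))
        (matCont_defOfCocycle hfac (hcoc f) (hsm f))) := by
    intro f
    rw [isEquiv_ofMatrix_iff]
    refine ⟨1, fun σ => ?_⟩
    rw [hdef f, Units.val_one, one_mul, mul_one]
  -- the deformations attached to surjective maps are of type `𝒟`
  have h𝒟f : ∀ f : DQ.R →ₐ[𝒪] DualNumber (ResidueField 𝒪), Function.Surjective f →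
      𝒟 (ofMatrix (defOfCocycle rbar (cocycleOf (rf f)) (hcoc f))
        (matCont_defOfCocycle hfac (hcoc f) (hsm f))) := by
    intro f hf
    have e : (DQ.ρ.baseChangeAlong (f : DQ.R →+* DualNumber (ResidueField 𝒪)) (hloc f)).IsEquiv
        (ofMatrix (defOfCocycle rbar (cocycleOf (rf f)) (hcoc f))
          (matCont_defOfCocycle hfac (hcoc f) (hsm f))) := isEquiv_trans (hequiv f) (hmat f)
    have h1 := h𝒟surj f (hloc f) hf
    exact h𝒟equiv (DQ.ρ.baseChangeAlong (f : DQ.R →+* DualNumber (ResidueField 𝒪)) (hloc f))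
      (ofMatrix (defOfCocycle rbar (cocycleOf (rf f)) (hcoc f))
          (matCont_defOfCocycle hfac (hcoc f) (hsm f))) e h1
  -- injectivity on surjective maps
  have hinj : ∀ f f' : DQ.R →ₐ[𝒪] DualNumber (ResidueField 𝒪),
      Function.Surjective f → Function.Surjective f' →
      cls (cocycleOf (rf f)) = cls (cocycleOf (rf f')) → f = f' := by
    intro f f' hf hf' hc
    obtain ⟨X, hX⟩ := hcls _ _ (hcoc f) (hcoc f') (hsm f) (hsm f') (h𝒟f f hf) (h𝒟f f' hf') hc
    have h1 := isEquiv_ofMatrix_of_coboundary (hcoc f) (hcoc f')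
      (matCont_defOfCocycle hfac (hcoc f) (hsm f)) (matCont_defOfCocycle hfac (hcoc f') (hsm f')) X hX
    have h2 : (DQ.ρ.baseChangeAlong (f : DQ.R →+* DualNumber (ResidueField 𝒪)) (hloc f)).IsEquiv
        (DQ.ρ.baseChangeAlong (f' : DQ.R →+* DualNumber (ResidueField 𝒪)) (hloc f')) :=
      isEquiv_trans (isEquiv_trans (hequiv f) (hmat f))
        (isEquiv_trans h1 (isEquiv_symm (isEquiv_trans (hequiv f') (hmat f'))))
    have hresid := residual_baseChangeAlong_isEquiv ρbar f' (hloc f') DQ.ρ DQ.residual_isEquiv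
    obtain ⟨φ, -, huniq⟩ := DQ.universal (DualNumber (ResidueField 𝒪)) hresD
      (DQ.ρ.baseChangeAlong (f' : DQ.R →+* DualNumber (ResidueField 𝒪)) (hloc f'))
      (h𝒟surj f' (hloc f') hf') hresid
    rw [huniq f ⟨hloc f, h2⟩, huniq f' ⟨hloc f', isEquiv_refl _⟩]
  -- count
  refine exists_surjective_mvPowerSeries_of_finset_card_le DQ.residue_surjective r hk fun s => ?_
  haveI := Fintype.ofFinite Sel
  let Ψ : (DQ.R →ₐ[𝒪] DualNumber (ResidueField 𝒪)) → Option Sel := fun f =>
    if Function.Surjective f then some (cls (cocycleOf (rf f))) else none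
  have hΨ : Function.Injective Ψ := by
    intro f f' h
    by_cases hf : Function.Surjective f <;> by_cases hf' : Function.Surjective f'
    · simp only [Ψ, if_pos hf, if_pos hf', Option.some.injEq] at h
      exact hinj f f' hf hf' h
    · simp only [Ψ, if_pos hf, if_neg hf'] at h
      exact absurd h (by simp)
    · simp only [Ψ, if_neg hf, if_pos hf'] at h
      exact absurd h (by simp)
    · exact algHom_dualNumber_eq_of_not_surjective DQ.residue_surjective f f' hf hf'
  calc s.card = (s.map ⟨Ψ, hΨ⟩).card := (Finset.card_map _).symm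
    _ ≤ Fintype.card (Option Sel) := Finset.card_le_univ _
    _ = Fintype.card Sel + 1 := Fintype.card_option
    _ ≤ Nat.card (ResidueField 𝒪) ^ r + 1 := by
        rw [← Nat.card_eq_fintype_card]; omega

end Main

end Fermat.Agent.TW
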