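/-
S56 (Taylor–Wiles) — helper9. The concrete Poitou–Tate datum `twDatum` for a finite set of primes
`S ∋ p` (`p` odd): the arithmetic datum of `Bridge.arithDatum` with all class-field-theoretic
inputs of S55 plugged in. Orthogonality of the components of `J_S`.
-/
import Fermat.Agent.CFT.Bridge.Final_helper6
import Fermat.Agent.CFT.PT8.Final_helper8
import Fermat.Agent.CFT.Global.PT4j_helper3_LCD
import Fermat.Agent.CFT.Sm.SelmerCount_helper9

set_option autoImplicit false

open CategoryTheory CategoryTheory.Abelian groupCohomology ExtCitation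

namespace Fermat.Agent.TW

open Fermat.Agent.CFT.Sm Fermat.Agent.CFT.Bridge Fermat.Agent.CFT.Arith Fermat.Agent.CFT

variable {p : ℕ} [Fact p.Prime]

/-- **the Poitou–Tate datum of `(G_ℚ, 𝒰_S)`**, `p ∈ S`, `p` odd. -/
noncomputable def twDatum (hp2 : p ≠ 2) (S : Finset Nat.Primes) (hpS : pPrime p ∈ S) :
    PTDatum (levelBasis S) p (locHom S) (locFine S) :=
  arithDatum p S hpS (PT8.dsmForm hp2 hpS) (PT8.zetaSubgroup p) (PT8.isOpen_zetaSubgroup hpS)
    (PT8.dsmForm_isGlobalBelow hp2 hpS) (fun v => LocForm.locPClassFormation v.1 p)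
    (fun v W hW x => h90_BSm v.1 W hW x)
    (lg_of_levelClassData hp2 hpS (PT8.dsmForm hp2 hpS)
      (fun v => LocForm.locPClassFormation v.1 p)
      (fun v F _ _ _ hF => PT4.nonempty_levelClassData_DSm ⟨_, hpS⟩ v F hF))

variable (hp2 : p ≠ 2) (S : Finset Nat.Primes) (hpS : pPrime p ∈ S)

lemma twDatum_E : (twDatum hp2 S hpS).E = ESSm S := rfl

lemma twDatum_incl_proj (v : ↥S) :
    (twDatum hp2 S hpS).incl v ≫ (twDatum hp2 S hpS).proj v = 𝟙 _ := by
  change inclV S v ≫ projV S v = 𝟙 _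
  unfold inclV projV
  rw [Category.assoc, ← Category.assoc (inclJSlSm S v), inclJSlSm_projJSlSm, Category.id_comp,
    Iso.inv_hom_id]

lemma twDatum_incl_proj_of_ne (v w : ↥S) (h : v ≠ w) :
    (twDatum hp2 S hpS).incl v ≫ (twDatum hp2 S hpS).proj w = 0 := by
  change inclV S v ≫ projV S w = 0
  unfold inclV projV
  rw [Category.assoc, ← Category.assoc (inclJSlSm S v), inclJSlSm_projJSlSm_of_ne h.symm,
    Limits.zero_comp, Limits.comp_zero]

end Fermat.Agent.TW
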