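/-
S56 (Taylor–Wiles) — helper9. Engine glue for `twDatum S` (`p ∈ S`, `p` odd): all the duality and
comparison hypotheses of the Greenberg–Wiles count, for `X` finite killed by `p`:
local and global Tate duality, bijectivity of the transfer maps in degrees `1, 2`,
surjectivity of `Ext²(X, J) → Ext²(X, C)`, and `Ext³(X, E_S) = 0`.
-/
import Fermat.Agent.TW.Datum_helper9
import Fermat.Agent.CFT.Sm.PTThree_helper9
import Fermat.Agent.CFT.LocForm.Coarse_helper4
import Fermat.Agent.CFT.LocForm.Dual_helper4

set_option autoImplicit false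
set_option linter.unusedSectionVars false

open CategoryTheory CategoryTheory.Abelian ExtCitation

namespace Fermat.Agent.TW

open Fermat.Agent.CFT.Sm Fermat.Agent.CFT.Bridge Fermat.Agent.CFT.Arith Fermat.Agent.CFT

variable {p : ℕ} [Fact p.Prime] (hp2 : p ≠ 2) (S : Finset Nat.Primes) (hpS : pPrime p ∈ S)
  (X : SmRep ℤ (levelBasis S)) [hfin : Finite X.obj.V] (hX : ∀ x : X.obj.V, p • x = 0)

include hX

/-- local Tate duality for `twDatum` -/
theorem twDatum_locPairN_bijective (v : ↥S) :
    Function.Bijective ((twDatum hp2 S hpS).locPairN v X (show 0 + 2 = 2 from rfl)) ∧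
      Function.Bijective ((twDatum hp2 S hpS).locPairN v X (show 1 + 1 = 2 from rfl)) :=
  LocForm.locPairN_bijective_of_isGlobalBelow (twDatum hp2 S hpS) v
    (U₀ := LocForm.locMuFix v.1 p) (LocForm.locPClassFormation_isGlobalBelow v.1 p)
    (LocForm.isOpen_locMuFix v.1 p) X hX

/-- global Tate duality for `twDatum` -/
theorem twDatum_globPairN_bijective :
    Function.Bijective ((twDatum hp2 S hpS).globPairN X (show 0 + 2 = 2 from rfl)) ∧
      Function.Bijective ((twDatum hp2 S hpS).globPairN X (show 1 + 1 = 2 from rfl)) :=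
  (twDatum hp2 S hpS).glob.tateDuality_bijective (twDatum hp2 S hpS).hU₀ X hX

/-- the transfer maps in degree `2` are bijective -/
theorem twDatum_tau_two_bijective (v : ↥S) :
    Function.Bijective ((twDatum hp2 S hpS).tau v X 2) :=
  (twDatum hp2 S hpS).tau_two_bijective v (LocForm.coarsePClassFormation p hpS v) X hX
    (twDatum_locPairN_bijective hp2 S hpS X hX v).1.1

/-- the transfer maps in degree `1` are bijective -/
theorem twDatum_tau_one_bijective (v : ↥S) :
    Function.Bijective ((twDatum hp2 S hpS).tau v X 1) :=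
  (twDatum hp2 S hpS).tau_one_bijective v X

/-- `Ext²(X, J_S) → Ext²(X, C_S)` is surjective -/
theorem twDatum_postcomp_π_two_surjective :
    Function.Surjective ((Ext.mk₀ (twDatum hp2 S hpS).π).postcomp X (add_zero 2)) := by
  have : Nonempty ↥S := ⟨⟨pPrime p, hpS⟩⟩
  exact (twDatum hp2 S hpS).postcomp_π_two_surjective X hX (twDatum_incl_proj hp2 S hpS)
    (twDatum_incl_proj_of_ne hp2 S hpS)
    (twDatum_globPairN_bijective hp2 S hpS X hX).1.1
    (fun v => (twDatum_locPairN_bijective hp2 S hpS X hX v).1.2)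
    (fun v => (twDatum_tau_two_bijective hp2 S hpS X hX v).2)
    (fun v => (twDatum hp2 S hpS).tau_two_injective v _)

include hp2 hpS in
/-- **`Ext³(X, E_S) = 0`** -/
theorem twDatum_ext_E_three_eq_zero (e : Ext X (ESSm S) 3) : e = 0 :=
  (twDatum hp2 S hpS).ext_E_three_eq_zero (fun v => LocForm.coarsePClassFormation p hpS v)
    (fun v W hW x => LocForm.coarse_h3 v W hW x) X hX
    (twDatum_postcomp_π_two_surjective hp2 S hpS X hX) e

end Fermat.Agent.TW
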