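/-
S56 (Taylor–Wiles) — helper9. The Greenberg–Wiles count for `twDatum`, combined with the global
Euler characteristic formula (as a hypothesis `hec`, supplied by helper3's `ec_global`):
when the dual Selmer group vanishes,
`#Sel · #Hom(X, E) · N · ∏_v #H⁰(G_v, X) = ∏_v #L_v · #H⁰(G_ℚ, X)`  (`N = #X^{c}`),
and the resulting bound `#Sel ≤ M`.
-/
import Fermat.Agent.TW.Glue_helper9
import Fermat.Agent.TW.FinH1_helper4
import Fermat.Agent.CFT.LocForm.FinH1_helper4

set_option autoImplicit false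
set_option linter.unusedSectionVars false

open CategoryTheory CategoryTheory.Abelian ExtCitation

namespace Fermat.Agent.TW

open Fermat.Agent.CFT.Sm Fermat.Agent.CFT.Bridge Fermat.Agent.CFT.Arith Fermat.Agent.CFT

/-- `Ext⁰(𝟙, Y)` is finite for finite `Y` -/
lemma finite_ext_unit_zero {Γ : Type} [Group Γ] (𝒰 : OpenBasis Γ) (Y : SmRep ℤ 𝒰)
    [Finite Y.obj.V] : Finite (Ext (smUnit ℤ 𝒰) Y 0) := by
  have : Finite {y : Y.obj.V // ∀ g : Γ, Y.obj.ρ g y = y} := Subtype.finite
  exact Finite.of_equiv _ ((Ext.addEquiv₀.trans (unitHomEquiv Y)).toEquiv.trans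
    (Equiv.subtypeEquivRight (fun y => Iff.rfl))).symm

section Count

variable {p : ℕ} [Fact p.Prime] (hp2 : p ≠ 2) (S : Finset Nat.Primes) (hpS : pPrime p ∈ S)
  (X : SmRep ℤ (levelBasis S)) [hfin : Finite X.obj.V] (hX : ∀ x : X.obj.V, p • x = 0)
  (L : ∀ v : ↥S, AddSubgroup (Ext (smUnit ℤ (locFine S v))
    (((twDatum hp2 S hpS).Rv v).obj X) 1))

include hX in
/-- **The Greenberg–Wiles formula for `twDatum`** (all duality hypotheses discharged). -/
theorem twDatum_card_selmer_formula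
    [Finite (Ext X (ESSm S) 1)] [Finite (Ext X (ESSm S) 2)]
    (hdual : (twDatum hp2 S hpS).dualSelmer X L = ⊥) :
    Nat.card ((twDatum hp2 S hpS).selmer X L) * Nat.card (Ext X (ESSm S) 1) *
        ∏ v, Nat.card (Ext (smUnit ℤ (locFine S v)) (((twDatum hp2 S hpS).Rv v).obj X) 0) =
      (∏ v, Nat.card (L v)) * Nat.card (Ext X (ESSm S) 2) *
        Nat.card (Ext (smUnit ℤ (levelBasis S)) X 0) := by
  have : Nonempty ↥S := ⟨⟨pPrime p, hpS⟩⟩
  have := global_finite_ext_one hp2 S hpS X hX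
  have := finite_ext_unit_zero (levelBasis S) X
  have hfinv : ∀ v : ↥S, Finite (((twDatum hp2 S hpS).Rv v).obj X).obj.V := fun _ => hfin
  have hloc1 : ∀ v : ↥S, Finite (Ext (smUnit ℤ (locFine S v))
      (((twDatum hp2 S hpS).Rv v).obj X) 1) := fun v =>
    LocForm.loc_finite_ext_one v.1 p (((twDatum hp2 S hpS).Rv v).obj X) hX
  have hloc0 : ∀ v : ↥S, Finite (Ext (smUnit ℤ (locFine S v))
      (((twDatum hp2 S hpS).Rv v).obj X) 0) := fun v =>
    finite_ext_unit_zero (locFine S v) (((twDatum hp2 S hpS).Rv v).obj X)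
  have h1 : Finite (Ext X (twDatum hp2 S hpS).E 1) := ‹Finite (Ext X (ESSm S) 1)›
  have h2 : Finite (Ext X (twDatum hp2 S hpS).E 2) := ‹Finite (Ext X (ESSm S) 2)›
  exact (twDatum hp2 S hpS).card_selmer_formula X hX L (twDatum_incl_proj hp2 S hpS)
    (twDatum_incl_proj_of_ne hp2 S hpS)
    (twDatum_globPairN_bijective hp2 S hpS X hX).2
    (twDatum_globPairN_bijective hp2 S hpS X hX).1
    (fun v => (twDatum_locPairN_bijective hp2 S hpS X hX v).2)
    (fun v => (twDatum_locPairN_bijective hp2 S hpS X hX v).1)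
    (fun v => twDatum_tau_one_bijective hp2 S hpS X hX v)
    (fun v => twDatum_tau_two_bijective hp2 S hpS X hX v)
    (fun v Y => (twDatum hp2 S hpS).tau_two_injective v Y)
    hdual

include hX in
/-- the Greenberg–Wiles formula combined with the global Euler characteristic formula
`#Ext¹(X,E) = #Ext⁰(X,E) · #Ext²(X,E) · N`. -/
theorem twDatum_card_selmer_mul
    [Finite (Ext X (ESSm S) 1)] [Finite (Ext X (ESSm S) 2)]
    (hdual : (twDatum hp2 S hpS).dualSelmer X L = ⊥) (N : ℕ)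
    (hec : Nat.card (Ext X (ESSm S) 1) =
      Nat.card (Ext X (ESSm S) 0) * Nat.card (Ext X (ESSm S) 2) * N) :
    Nat.card ((twDatum hp2 S hpS).selmer X L) * Nat.card (Ext X (ESSm S) 0) * N *
        ∏ v, Nat.card (Ext (smUnit ℤ (locFine S v)) (((twDatum hp2 S hpS).Rv v).obj X) 0) =
      (∏ v, Nat.card (L v)) * Nat.card (Ext (smUnit ℤ (levelBasis S)) X 0) := by
  have h := twDatum_card_selmer_formula hp2 S hpS X hX L hdual
  have hE2 : 0 < Nat.card (Ext X (ESSm S) 2) := Nat.card_pos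
  rw [hec] at h
  apply Nat.eq_of_mul_eq_mul_left hE2
  calc Nat.card (Ext X (ESSm S) 2) * (Nat.card ((twDatum hp2 S hpS).selmer X L) *
          Nat.card (Ext X (ESSm S) 0) * N *
          ∏ v, Nat.card (Ext (smUnit ℤ (locFine S v)) (((twDatum hp2 S hpS).Rv v).obj X) 0))
      = Nat.card ((twDatum hp2 S hpS).selmer X L) *
          (Nat.card (Ext X (ESSm S) 0) * Nat.card (Ext X (ESSm S) 2) * N) *
          ∏ v, Nat.card (Ext (smUnit ℤ (locFine S v)) (((twDatum hp2 S hpS).Rv v).obj X) 0) := by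
        ring
    _ = (∏ v, Nat.card (L v)) * Nat.card (Ext X (ESSm S) 2) *
          Nat.card (Ext (smUnit ℤ (levelBasis S)) X 0) := h
    _ = Nat.card (Ext X (ESSm S) 2) * ((∏ v, Nat.card (L v)) *
          Nat.card (Ext (smUnit ℤ (levelBasis S)) X 0)) := by ring

include hX in
/-- **The Taylor–Wiles bound on the Selmer group.** If the dual Selmer group vanishes,
`H⁰(G_ℚ, X) = 0`, the local conditions satisfy `#L_v ≤ #H⁰(G_v, X) · c_v`, `K ≤ N = #X^c` and
`∏ c_v ≤ K · M`, then `#Sel ≤ M`. -/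
theorem twDatum_card_selmer_le
    [Finite (Ext X (ESSm S) 1)] [Finite (Ext X (ESSm S) 2)]
    (hdual : (twDatum hp2 S hpS).dualSelmer X L = ⊥) (N : ℕ)
    (hec : Nat.card (Ext X (ESSm S) 1) =
      Nat.card (Ext X (ESSm S) 0) * Nat.card (Ext X (ESSm S) 2) * N)
    (hH0 : Nat.card (Ext (smUnit ℤ (levelBasis S)) X 0) = 1)
    (c : ↥S → ℕ)
    (hL : ∀ v, Nat.card (L v) ≤
      Nat.card (Ext (smUnit ℤ (locFine S v)) (((twDatum hp2 S hpS).Rv v).obj X) 0) * c v)
    (K M : ℕ) (hK : 0 < K) (hKN : K ≤ N) (hprod : ∏ v, c v ≤ K * M) :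
    Nat.card ((twDatum hp2 S hpS).selmer X L) ≤ M := by
  have h := twDatum_card_selmer_mul hp2 S hpS X hX L hdual N hec
  rw [hH0, mul_one] at h
  have hfinv : ∀ v : ↥S, Finite (((twDatum hp2 S hpS).Rv v).obj X).obj.V := fun _ => hfin
  have hloc0 : ∀ v : ↥S, Finite (Ext (smUnit ℤ (locFine S v))
      (((twDatum hp2 S hpS).Rv v).obj X) 0) := fun v =>
    finite_ext_unit_zero (locFine S v) (((twDatum hp2 S hpS).Rv v).obj X)
  set P := ∏ v, Nat.card (Ext (smUnit ℤ (locFine S v)) (((twDatum hp2 S hpS).Rv v).obj X) 0)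
    with hP
  have hPpos : 0 < P := Finset.prod_pos fun v _ => Nat.card_pos
  have hE1 : 0 < Nat.card (Ext X (ESSm S) 1) := Nat.card_pos
  have hE0 : 0 < Nat.card (Ext X (ESSm S) 0) := by
    rcases Nat.eq_zero_or_pos (Nat.card (Ext X (ESSm S) 0)) with h0 | h0
    · rw [hec, h0, zero_mul, zero_mul] at hE1
      exact absurd hE1 (lt_irrefl 0)
    · exact h0
  set A := Nat.card ((twDatum hp2 S hpS).selmer X L) with hA
  have h1 : (∏ v, Nat.card (L v)) ≤ P * ∏ v, c v := by
    rw [hP, ← Finset.prod_mul_distrib]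
    exact Finset.prod_le_prod' fun v _ => hL v
  have h2 : A * K * P ≤ A * Nat.card (Ext X (ESSm S) 0) * N * P := by
    apply Nat.mul_le_mul_right
    calc A * K = A * 1 * K := by rw [mul_one]
      _ ≤ A * Nat.card (Ext X (ESSm S) 0) * N :=
        Nat.mul_le_mul (Nat.mul_le_mul_left A hE0) hKN
  have h3 : A * (K * P) ≤ M * (K * P) := by
    calc A * (K * P) = A * K * P := by ring
      _ ≤ A * Nat.card (Ext X (ESSm S) 0) * N * P := h2
      _ = ∏ v, Nat.card (L v) := h
      _ ≤ P * ∏ v, c v := h1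
      _ ≤ P * (K * M) := Nat.mul_le_mul_left P hprod
      _ = M * (K * P) := by ring
  exact Nat.le_of_mul_le_mul_right h3 (Nat.mul_pos hK hPpos)

end Count

end Fermat.Agent.TW
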