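/-
S56 (Taylor–Wiles) — helper1, small leaf (ODD), final form: a lower bound for the invariants of
one element on `ad⁰`: `|k| ≤ #(ad⁰)^{g}` (any representation, any group element).
-/
import Fermat.Agent.TW.Hub_helper9

set_option autoImplicit false
set_option linter.unusedSectionVars false
set_option linter.style.haveILetI false

open Matrix

namespace Fermat.Agent.TW

section Fixed

variable {k : Type} [Field k]

/-- a non-zero trace-zero matrix commuting with a given invertible `2 × 2` matrix. -/
theorem exists_ne_zero_trace_zero_commute (h2 : (2 : k) ≠ 0) (M : Matrix (Fin 2) (Fin 2) k) :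
    ∃ z : Matrix (Fin 2) (Fin 2) k, z ≠ 0 ∧ z.trace = 0 ∧ M * z = z * M := by
  by_cases hN : M - (M.trace / 2) • (1 : Matrix (Fin 2) (Fin 2) k) = 0
  · -- `M` is scalar
    refine ⟨!![0, 1; 0, 0], ?_, ?_, ?_⟩
    · intro h
      have := congrArg (fun X : Matrix (Fin 2) (Fin 2) k => X 0 1) h
      simp at this
    · simp [Matrix.trace_fin_two]
    · have hM : M = (M.trace / 2) • (1 : Matrix (Fin 2) (Fin 2) k) := sub_eq_zero.mp hN
      rw [hM, Matrix.smul_mul, Matrix.mul_smul, one_mul, mul_one]
  · refine ⟨M - (M.trace / 2) • (1 : Matrix (Fin 2) (Fin 2) k), hN, ?_, ?_⟩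
    · rw [Matrix.trace_sub, Matrix.trace_smul, Matrix.trace_one, Fintype.card_fin, smul_eq_mul]
      have : ((2 : ℕ) : k) = 2 := by norm_num
      rw [this, div_mul_cancel₀ _ h2, sub_self]
    · rw [mul_sub, sub_mul, Matrix.mul_smul, Matrix.smul_mul, one_mul, mul_one]

/-- **(ODD), final form**: every element of the group fixes at least `|k|` elements of `ad⁰`. -/
theorem card_le_card_adRep_fixed [Finite k] (h2 : (2 : k) ≠ 0) {G : Type} [Group G]
    (r : G →* Matrix (Fin 2) (Fin 2) k) (g : G) :
    Nat.card k ≤ Nat.card {z : (adRep r).V // (adRep r).ρ g z = z} := by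
  obtain ⟨z₀, hz0, htr, hcomm⟩ := exists_ne_zero_trace_zero_commute h2 (r g)
  have hinv : r g * r g⁻¹ = 1 := by rw [← map_mul, mul_inv_cancel, map_one]
  have hfix : ∀ a : k, r g * (a • z₀) * r g⁻¹ = a • z₀ := by
    intro a
    rw [Matrix.mul_smul, Matrix.smul_mul, hcomm, mul_assoc, hinv, mul_one]
  have hmem : ∀ a : k, a • z₀ ∈ sl2 k := fun a => by
    rw [mem_sl2_iff, Matrix.trace_smul, htr, smul_zero]
  let f : k → {z : (adRep r).V // (adRep r).ρ g z = z} := fun a =>
    ⟨(⟨a • z₀, hmem a⟩ : sl2 k), Subtype.ext (hfix a)⟩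
  have hf : Function.Injective f := by
    intro a b h
    have h1 : a • z₀ = b • z₀ :=
      congrArg (fun t : {z : (adRep r).V // (adRep r).ρ g z = z} => (show sl2 k from t.1).1) h
    by_contra hab
    apply hz0
    have h3 : (a - b) • z₀ = 0 := by rw [sub_smul, h1, sub_self]
    rcases smul_eq_zero.mp h3 with h4 | h4
    · exact absurd (sub_eq_zero.mp h4) hab
    · exact h4
  haveI : Finite {z : (adRep r).V // (adRep r).ρ g z = z} := Subtype.finite
  exact Nat.card_le_card_of_injective f hf

end Fixed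

end Fermat.Agent.TW
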