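/-
S56 (Taylor–Wiles) — helper9. The class map on the dual side:
`extH1 : Ext X A 1 →+ H1 (Hom(X, A))` for `X` finite killed by `p` and `A` `p`-divisible
(helper5's `smHomCompare` followed by helper6's `smHToH`): injective, image = classes of
level-constant cocycles, natural in `A`, compatible with restriction.
-/
import Fermat.Agent.TW.Hub_helper9
import Fermat.Agent.CFT.Sm.HomCompare_helper5

set_option autoImplicit false

open CategoryTheory CategoryTheory.Abelian groupCohomology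

namespace Fermat.Agent.TW

open Fermat.Agent.CFT.Sm Fermat.Agent.CFT.Bridge

variable {Γ : Type} [Group Γ] {𝒰 : OpenBasis Γ}

section CoeffNat

/-- `smHToH` is natural in the coefficients -/
lemma smHToH_coeff {A B : SmRep ℤ 𝒰} (φ : A ⟶ B) (n : ℕ) (x : smH 𝒰 A n) :
    smHToH B n (((smHFunctor ℤ 𝒰 n).map φ).hom x) =
      (groupCohomology.map (MonoidHom.id Γ) φ.hom n).hom (smHToH A n x) :=
  smHToH_natural A (MonoidHom.id Γ) 𝒰.finer_comap_id B φ.hom n x

/-- `clsH1` is natural in the coefficients -/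
lemma clsH1_coeff {A B : SmRep ℤ 𝒰} (φ : A ⟶ B) (e : Ext (smUnit ℤ 𝒰) A 1) :
    clsH1 B (e.comp (Ext.mk₀ φ) (add_zero 1)) =
      (groupCohomology.map (MonoidHom.id Γ) φ.hom 1).hom (clsH1 A e) := by
  rw [clsH1_apply, smUnitCompare_naturality, smHToH_coeff, clsH1_apply]

end CoeffNat

section ExtH1

variable (p : ℕ) [hp : Fact p.Prime] (X : SmRep ℤ 𝒰) [@Module.Finite ℤ X.obj.V _ _ X.obj.hV2]
  (hX : ∀ x : X.obj.V, p • x = 0)

/-- **the class map on the dual side**: `Ext¹(X, A) → H¹(Γ, Hom(X, A))` (abstract group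
cohomology) for `A` `p`-divisible. -/
noncomputable def extH1 (A : SmRep ℤ 𝒰) (hA : pDivProp 𝒰 p A) :
    Ext X A 1 →+ H1 ((homSm X).obj A).obj :=
  (smHToH ((homSm X).obj A) 1).toAddMonoidHom.comp (smHomCompare p X hX A hA 1).toAddMonoidHom

lemma extH1_apply (A : SmRep ℤ 𝒰) (hA : pDivProp 𝒰 p A) (e : Ext X A 1) :
    extH1 p X hX A hA e = smHToH ((homSm X).obj A) 1 (smHomCompare p X hX A hA 1 e) := rfl

lemma extH1_injective (A : SmRep ℤ 𝒰) (hA : pDivProp 𝒰 p A) :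
    Function.Injective (extH1 p X hX A hA) := by
  intro a b h
  exact (smHomCompare p X hX A hA 1).injective (smHToH_one_injective _ h)

/-- the image of `extH1`: the classes of level-constant cocycles -/
lemma mem_range_extH1_iff (A : SmRep ℤ 𝒰) (hA : pDivProp 𝒰 p A)
    (x : H1 ((homSm X).obj A).obj) :
    x ∈ (extH1 p X hX A hA).range ↔
      ∃ c : cocycles₁ ((homSm X).obj A).obj,
        IsLC₁ 𝒰 (c : Γ → ((homSm X).obj A).obj.V) ∧ (H1π ((homSm X).obj A).obj).hom c = x := by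
  rw [← mem_range_smHToH_one_iff]
  constructor
  · rintro ⟨e, rfl⟩
    exact ⟨smHomCompare p X hX A hA 1 e, rfl⟩
  · rintro ⟨y, rfl⟩
    exact ⟨(smHomCompare p X hX A hA 1).symm y, by rw [extH1_apply, AddEquiv.apply_symm_apply]⟩

/-- `extH1` is natural in the (`p`-divisible) coefficients -/
lemma extH1_coeff {A B : SmRep ℤ 𝒰} (hA : pDivProp 𝒰 p A) (hB : pDivProp 𝒰 p B) (π : A ⟶ B)
    (e : Ext X A 1) :
    extH1 p X hX B hB (e.comp (Ext.mk₀ π) (add_zero 1)) =
      (groupCohomology.map (MonoidHom.id Γ) ((homSm X).map π).hom 1).hom (extH1 p X hX A hA e) := by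
  rw [extH1_apply, smHomCompare_naturality p X hX hA hB, smHToH_coeff, extH1_apply]

variable {Γ' : Type} [Group Γ'] {𝒰' : OpenBasis Γ'} (ψ : Γ' →* Γ) (hψ : 𝒰'.Finer (𝒰.comap ψ))

/-- `extH1` is compatible with restriction -/
lemma extH1_res (A : SmRep ℤ 𝒰) (hA : pDivProp 𝒰 p A) (e : Ext X A 1) :
    extH1 p ((resSm ℤ ψ hψ).obj X) hX ((resSm ℤ ψ hψ).obj A) hA
        (e.mapExactFunctor (resSm ℤ ψ hψ)) =
      (groupCohomology.map ψ (resHomSmHom ψ hψ X A).hom 1).hom (extH1 p X hX A hA e) := by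
  have h1 : extH1 p ((resSm ℤ ψ hψ).obj X) hX ((resSm ℤ ψ hψ).obj A) hA
      (e.mapExactFunctor (resSm ℤ ψ hψ)) =
      smHToH _ 1 (smHomCompare p ((resSm ℤ ψ hψ).obj X) hX ((resSm ℤ ψ hψ).obj A) hA 1
        (e.mapExactFunctor (resSm ℤ ψ hψ))) := rfl
  have h2 := smHomCompare_res ψ hψ p X hX A hA 1 e
  rw [h1, h2, smHToH_coeff]
  have h := smHToH_natural ((homSm X).obj A) ψ hψ ((resSm ℤ ψ hψ).obj ((homSm X).obj A)) (𝟙 _) 1
    (smHomCompare p X hX A hA 1 e)
  have h3 : (smHRes ψ hψ ((homSm X).obj A) 1).hom (smHomCompare p X hX A hA 1 e) =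
    (smHMap ψ hψ (A := (homSm X).obj A) (B := (resSm ℤ ψ hψ).obj ((homSm X).obj A))
      (𝟙 (Rep.res ψ ((homSm X).obj A).obj)) 1).hom (smHomCompare p X hX A hA 1 e) := rfl
  rw [h3, h, extH1_apply]
  have h4 := groupCohomology.map_comp (k := ℤ) (A := ((homSm X).obj A).obj)
    (B := ((resSm ℤ ψ hψ).obj ((homSm X).obj A)).obj)
    (C := ((homSm ((resSm ℤ ψ hψ).obj X)).obj ((resSm ℤ ψ hψ).obj A)).obj)
    ψ (MonoidHom.id Γ') (𝟙 _) (resHomSmHom ψ hψ X A).hom 1
  have h5 := congrArg (fun f => f.hom (smHToH ((homSm X).obj A) 1 (smHomCompare p X hX A hA 1 e))) h4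
  exact h5.symm

end ExtH1

end Fermat.Agent.TW
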