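/-
S56 (Taylor–Wiles) — helper9. The master coefficient module `Ωˣ` (units of `ℚ̄`) and the master
dual module `𝐌(X) = Hom_ℤ(X, Ωˣ)`: comparison with `Hom(X, E_S)` (global) and with
`Hom(Res_ℓ X, B_ℓ)` (local).
-/
import Fermat.Agent.CFT.Bridge.LocalMu_helper6

set_option autoImplicit false

open CategoryTheory groupCohomology ExtCitation

namespace Fermat.Agent.TW

open Fermat.Agent.CFT.Sm Fermat.Agent.CFT.Bridge Fermat.Agent.CFT.Arith Fermat.Agent.CFT.Local

/-- `Ω = AlgebraicClosure ℚ`. -/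
local notation "Ω" => AlgebraicClosure ℚ
/-- `GQ = Gal(Ω/ℚ)`. -/
local notation "GQ" => (AlgebraicClosure ℚ ≃ₐ[ℚ] AlgebraicClosure ℚ)

/-- `Ωˣ` as a representation of `G_ℚ` over `ℤ` -/
noncomputable def OmegaRep : Rep.{0} ℤ GQ := Rep.ofMulDistribMulAction GQ Ωˣ

section Global

variable (S : Finset Nat.Primes)

/-- the inclusion `E_S ⊆ Ωˣ` as a morphism of representations -/
noncomputable def esToOmega : ESRep S ⟶ OmegaRep :=
  Rep.ofHom
    { toLinearMap := (MonoidHom.toAdditive (ES S).subtype).toIntLinearMap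
      isIntertwining' := fun _ => LinearMap.ext fun _ => rfl }

lemma esToOmega_apply (a : (ESRep S).V) :
    (esToOmega S).hom a = Additive.ofMul ((Additive.toMul (α := ES S) a : ES S) : Ωˣ) := rfl

lemma esToOmega_injective : Function.Injective (esToOmega S).hom := by
  intro a b h
  have h1 : ((Additive.toMul (α := ES S) a : ES S) : Ωˣ) =
      ((Additive.toMul (α := ES S) b : ES S) : Ωˣ) := Additive.ofMul.injective h
  exact Additive.toMul.injective (Subtype.ext h1)

variable {S} {p : ℕ} [Fact p.Prime]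

/-- `E_S` contains the `p`-torsion of `Ωˣ` when `p ∈ S` -/
lemma exists_esToOmega_eq (hpS : pPrime p ∈ S) {b : OmegaRep.V} (hb : p • b = 0) :
    ∃ a : (ESRep S).V, (esToOmega S).hom a = b := by
  have hp : p.Prime := Fact.out
  have h1 : (Additive.toMul (α := Ωˣ) b : Ωˣ) ^ p = 1 := congrArg Additive.toMul hb
  obtain ⟨a, ha⟩ := exists_ESRep_of_pow_eq_one hp hpS h1
  exact ⟨a, by rw [esToOmega_apply]; exact congrArg Additive.ofMul ha⟩

end Global

section Local

variable (ℓ : ℕ) [Fact ℓ.Prime]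

/-- the fixed embedding `Ωˣ → B_ℓ` -/
noncomputable def omegaToBUnits : Ωˣ →* levelUnits ℓ where
  toFun x := ⟨embUnits ℓ x, embUnits_mem_levelUnits ℓ x⟩
  map_one' := Subtype.ext (map_one (embUnits ℓ))
  map_mul' x y := Subtype.ext (map_mul (embUnits ℓ) x y)

/-- `Ωˣ → B_ℓ` as a morphism of representations of `G_ℓ` -/
noncomputable def omegaToB : Rep.res (localGaloisToGlobal ℓ) OmegaRep ⟶ levelUnitsRep ℓ :=
  Rep.ofHom
    { toLinearMap := (MonoidHom.toAdditive (omegaToBUnits ℓ)).toIntLinearMap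
      isIntertwining' := fun τ => LinearMap.ext fun x => by
        change Additive.ofMul (omegaToBUnits ℓ (localGaloisToGlobal ℓ τ •
          (Additive.toMul (α := Ωˣ) x : Ωˣ))) =
          Additive.ofMul (τ • omegaToBUnits ℓ (Additive.toMul (α := Ωˣ) x : Ωˣ))
        congr 1
        apply Subtype.ext
        exact embUnits_smul ℓ τ _ }

lemma omegaToB_apply (x : OmegaRep.V) :
    (omegaToB ℓ).hom x = Additive.ofMul (omegaToBUnits ℓ (Additive.toMul (α := Ωˣ) x)) := rfl

lemma omegaToB_injective : Function.Injective (omegaToB ℓ).hom := by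
  intro a b h
  have h1 : omegaToBUnits ℓ (Additive.toMul (α := Ωˣ) a) =
      omegaToBUnits ℓ (Additive.toMul (α := Ωˣ) b) := Additive.ofMul.injective h
  have h2 : embUnits ℓ (Additive.toMul (α := Ωˣ) a) = embUnits ℓ (Additive.toMul (α := Ωˣ) b) :=
    congrArg Subtype.val h1
  exact Additive.toMul.injective (embUnits_injective ℓ h2)

variable (S : Finset Nat.Primes)

/-- `E_S → B_ℓ` factors through `Ωˣ` -/
lemma esToBHom_eq :
    esToBHom S ℓ = (Rep.resFunctor (localGaloisToGlobal ℓ)).map (esToOmega S) ≫ omegaToB ℓ := rfl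

variable {ℓ} {p : ℕ} [Fact p.Prime]

/-- `Ωˣ → B_ℓ` is onto the `p`-torsion -/
lemma exists_omegaToB_eq {b : (levelUnitsRep ℓ).V} (hb : p • b = 0) :
    ∃ a : OmegaRep.V, (omegaToB ℓ).hom a = b := by
  obtain ⟨a, -, ha⟩ := exists_esToBHom_eq (S := {pPrime p}) (ℓ := ℓ) (p := p)
    (Finset.mem_singleton_self _) hb
  exact ⟨(esToOmega {pPrime p}).hom a, ha⟩

end Local

end Fermat.Agent.TW
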