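/-
S56 (Taylor–Wiles primes), helper9: the master dual module `dualRep X₀ = Hom_ℤ(X₀, Ωˣ)` of a finite
Galois module and the class maps `jS : Ext¹(X_S, E_S) → H¹(G_ℚ, dualRep X₀)`.
-/
import Fermat.Agent.TW.Datum_helper9
import Fermat.Agent.TW.DualH1_helper9
import Fermat.Agent.TW.Omega_helper9

set_option autoImplicit false

open CategoryTheory CategoryTheory.Abelian groupCohomology ExtCitation

namespace Fermat.Agent.TW

open Fermat.Agent.CFT.Sm Fermat.Agent.CFT.Bridge Fermat.Agent.CFT.Arith Fermat.Agent.CFT.Local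
  Fermat.Agent.CFT

/-- `Ω = AlgebraicClosure ℚ`. -/
local notation "Ω" => AlgebraicClosure ℚ
/-- `GQ = Gal(Ω/ℚ)`. -/
local notation "GQ" => (AlgebraicClosure ℚ ≃ₐ[ℚ] AlgebraicClosure ℚ)

variable {p : ℕ} [Fact p.Prime]
variable (X₀ : Rep.{0} ℤ GQ) [hfinX : @Module.Finite ℤ X₀.V _ _ X₀.hV2]
  (hX : ∀ x : X₀.V, p • x = 0)

/-- the master dual module `𝐌(X) = Hom_ℤ(X, Ωˣ)` -/
noncomputable def dualRep : Rep.{0} ℤ GQ := (Rep.ihom X₀).obj OmegaRep

section PerS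

variable (S : Finset Nat.Primes) (hpS : pPrime p ∈ S) (hS : IsSmooth (levelBasis S) X₀)

/-- `X` as an object of `SmRep ℤ 𝒰_S` -/
noncomputable abbrev XS : SmRep ℤ (levelBasis S) := mkSm (levelBasis S) X₀ hS

instance instFiniteXS : @Module.Finite ℤ (XS X₀ S hS).obj.V _ _ (XS X₀ S hS).obj.hV2 := hfinX

/-- `Hom(X, E_S) → 𝐌(X)` -/
noncomputable def alphaS : ((homSm (XS X₀ S hS)).obj (ESSm S)).obj ⟶ dualRep X₀ :=
  (Rep.ihom X₀).map (esToOmega S)

include hX hpS in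
lemma alphaS_bijective : Function.Bijective (alphaS X₀ S hS).hom :=
  ihom_map_bijective p X₀ (ESRep S) OmegaRep (esToOmega S) hX (esToOmega_injective S)
    (fun _ hb => exists_esToOmega_eq hpS hb)

/-- the class map `Ext¹(X, E_S) → H¹(G_ℚ, 𝐌(X))` -/
noncomputable def jS : Ext (XS X₀ S hS) (ESSm S) 1 →+ H1 (dualRep X₀) :=
  ((groupCohomology.map (MonoidHom.id GQ) (alphaS X₀ S hS) 1).hom.toAddMonoidHom).comp
    (extH1 p (XS X₀ S hS) hX (ESSm S) (pDiv_ESSm hpS))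

end PerS

end Fermat.Agent.TW
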