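import Mathlib

/-!
# Fixed points of Möbius transformations (helper1, S56 leaf C)

For a field `K` with `2 ≠ 0` and `g : GL (Fin 2) K` non-scalar whose discriminant is a square in
`K`, the set of fixed points of `g` on `OnePoint K` has one element (discriminant zero:
"parabolic") or two elements.
-/

set_option autoImplicit false
set_option linter.unusedSectionVars false

namespace Fermat.Agent.TW.Mob

open OnePoint Matrix Matrix.GeneralLinearGroup

variable {K : Type*} [Field K] [DecidableEq K]

/-- Decidable equality on `OnePoint K`. -/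
instance decEqOnePoint : DecidableEq (OnePoint K) := inferInstanceAs (DecidableEq (Option K))

/-- `g` is a scalar matrix. -/
def IsScalar (g : GL (Fin 2) K) : Prop := g 0 1 = 0 ∧ g 1 0 = 0 ∧ g 0 0 = g 1 1

/-- The discriminant `tr² - 4 det` of `g`. -/
def discr (g : GL (Fin 2) K) : K := (g 0 0 - g 1 1) ^ 2 + 4 * g 0 1 * g 1 0

theorem isScalar_smul {g : GL (Fin 2) K} (hg : IsScalar g) (x : OnePoint K) : g • x = x := by
  obtain ⟨h01, h10, h00⟩ := hg
  have hdet := g.det_ne_zero
  rw [Matrix.det_fin_two, h01, h10] at hdet
  have h11 : g 1 1 ≠ 0 := by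
    intro h
    rw [h] at hdet
    simp at hdet
  cases x with
  | infty => rw [smul_infty_eq_self_iff]; exact h10
  | coe c =>
    rw [smul_some_eq_ite, h10, h01, h00]
    simp only [zero_mul, zero_add, add_zero]
    rw [if_neg h11, coe_eq_coe]
    field_simp

theorem det_eq (g : GL (Fin 2) K) : g.val.det = g 0 0 * g 1 1 - g 0 1 * g 1 0 :=
  Matrix.det_fin_two _

/-- Fixed points of `g` in the finite part. -/
theorem smul_coe_eq_iff (g : GL (Fin 2) K) (c : K) :
    g • (c : OnePoint K) = c ↔ g 1 0 * (c * c) + (g 1 1 - g 0 0) * c + (-g 0 1) = 0 := by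
  rw [← fixpointPolynomial_aeval_eq_zero_iff]
  simp only [fixpointPolynomial, map_sub, map_mul, map_add, Polynomial.aeval_X_pow,
    Polynomial.aeval_C, Polynomial.aeval_X, Algebra.algebraMap_self_apply]
  constructor <;> intro h <;> linear_combination h

theorem exists_fixedFinset (h2 : (2 : K) ≠ 0) (g : GL (Fin 2) K) (hg : ¬ IsScalar g)
    (s : K) (hs : s * s = discr g) :
    ∃ S : Finset (OnePoint K), (∀ x, x ∈ S ↔ g • x = x) ∧
      ((S.card = 1 ∧ discr g = 0) ∨ (S.card = 2 ∧ discr g ≠ 0)) := by
  have : NeZero (2 : K) := ⟨h2⟩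
  by_cases h10 : g 1 0 = 0
  · -- upper triangular
    have hdet := g.det_ne_zero
    rw [Matrix.det_fin_two, h10, mul_zero, sub_zero] at hdet
    by_cases h00 : g 0 0 = g 1 1
    · -- parabolic fixing `∞` only
      have h01 : g 0 1 ≠ 0 := fun h => hg ⟨h, h10, h00⟩
      refine ⟨{∞}, fun x => ?_, Or.inl ⟨Finset.card_singleton _, ?_⟩⟩
      · rw [Finset.mem_singleton]
        constructor
        · rintro rfl
          rw [smul_infty_eq_self_iff]; exact h10
        · intro hx
          cases x with
          | infty => rfl
          | coe c =>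
            exfalso
            rw [smul_coe_eq_iff, h10, h00] at hx
            apply h01
            linear_combination -hx
      · rw [discr, h10, h00]; ring
    · -- two fixed points `∞` and `g 0 1 / (g 1 1 - g 0 0)`
      have hne : g 1 1 - g 0 0 ≠ 0 := sub_ne_zero.2 (Ne.symm h00)
      refine ⟨({∞, ((g 0 1 / (g 1 1 - g 0 0) : K) : OnePoint K)} : Finset (OnePoint K)),
        fun x => ?_,
        Or.inr ⟨Finset.card_pair (infty_ne_coe _), ?_⟩⟩
      · rw [Finset.mem_insert, Finset.mem_singleton]
        constructor
        · rintro (rfl | rfl)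
          · rw [smul_infty_eq_self_iff]; exact h10
          · rw [smul_coe_eq_iff, h10]
            field_simp
            ring
        · intro hx
          cases x with
          | infty => exact Or.inl rfl
          | coe c =>
            right
            rw [smul_coe_eq_iff, h10] at hx
            rw [coe_eq_coe, eq_div_iff hne]
            linear_combination hx
      · rw [discr, h10, mul_zero, add_zero]
        exact pow_ne_zero 2 (sub_ne_zero.2 h00)
  · -- `g 1 0 ≠ 0`: roots of a genuine quadratic
    have hinf : g • (∞ : OnePoint K) ≠ ∞ := by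
      rw [Ne, smul_infty_eq_self_iff]; exact h10
    have hdisc : discrim (g 1 0) (g 1 1 - g 0 0) (-g 0 1) = s * s := by
      rw [hs, discrim, discr]; ring
    have hroots := fun c : K => quadratic_eq_zero_iff h10 hdisc c
    set r₁ : K := (-(g 1 1 - g 0 0) + s) / (2 * g 1 0) with hr₁
    set r₂ : K := (-(g 1 1 - g 0 0) - s) / (2 * g 1 0) with hr₂
    have hmem : ∀ x : OnePoint K, g • x = x ↔ x = (r₁ : OnePoint K) ∨ x = (r₂ : OnePoint K) := by
      intro x
      cases x with
      | infty =>
        constructor
        · intro h; exact absurd h hinf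
        · rintro (h | h) <;> exact absurd h (infty_ne_coe _)
      | coe c =>
        rw [smul_coe_eq_iff, hroots c, coe_eq_coe, coe_eq_coe]
    by_cases hs0 : s = 0
    · refine ⟨{(r₁ : OnePoint K)}, fun x => ?_, Or.inl ⟨Finset.card_singleton _, ?_⟩⟩
      · rw [Finset.mem_singleton, hmem]
        have : r₂ = r₁ := by rw [hr₁, hr₂, hs0, add_zero, sub_zero]
        rw [this, or_self]
      · rw [← hs, hs0, mul_zero]
    · have hr : r₁ ≠ r₂ := by
        intro h
        apply hs0
        have h2g : (2 : K) * g 1 0 ≠ 0 := mul_ne_zero h2 h10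
        rw [hr₁, hr₂, div_left_inj' h2g] at h
        have : 2 * s = 0 := by linear_combination h
        rcases mul_eq_zero.1 this with h | h
        · exact absurd h h2
        · exact h
      refine ⟨({(r₁ : OnePoint K), (r₂ : OnePoint K)} : Finset (OnePoint K)), fun x => ?_,
        Or.inr ⟨Finset.card_pair (by rwa [Ne, coe_eq_coe]), ?_⟩⟩
      · rw [Finset.mem_insert, Finset.mem_singleton, hmem]
      · rw [← hs]; exact mul_ne_zero hs0 hs0

end Fermat.Agent.TW.Mob
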