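import Mathlib
import Fermat.Agent.TW.Sigma_helper1_Mobius

/-!
# The Borel subgroup of `GL₂(K)` and its characters (helper1, S56 leaf C)

`Bgl K` (upper triangular), `Ugl K` (upper triangular with equal diagonal entries), `Sgl K`
(scalars), the homomorphisms `tauHom : Bgl K →* Kˣ`, `g ↦ g₀₀ / g₁₁` and
`nuHom : Ugl K →* Multiplicative K`, `g ↦ g₀₁ / g₀₀`, and the resulting cardinality formulas for
a finite subgroup `H`: `|H ∩ B| = |H ∩ U| · |Γ|`, `|H ∩ U| = |H ∩ S| · |X|`.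
-/

set_option autoImplicit false
set_option linter.unusedSectionVars false

namespace Fermat.Agent.TW.Mob

open OnePoint Matrix Matrix.GeneralLinearGroup

variable {K : Type*} [Field K] [DecidableEq K]

theorem mul_entry (g h : GL (Fin 2) K) (i j : Fin 2) :
    (g * h) i j = g i 0 * h 0 j + g i 1 * h 1 j := by
  rw [Matrix.GeneralLinearGroup.coe_mul, Matrix.mul_apply, Fin.sum_univ_two]

theorem inv_entries (g : GL (Fin 2) K) :
    (g⁻¹ : GL (Fin 2) K) 0 0 = g 1 1 / g.val.det ∧ (g⁻¹ : GL (Fin 2) K) 0 1 = -g 0 1 / g.val.det ∧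
    (g⁻¹ : GL (Fin 2) K) 1 0 = -g 1 0 / g.val.det ∧ (g⁻¹ : GL (Fin 2) K) 1 1 = g 0 0 / g.val.det := by
  rw [Matrix.coe_units_inv, Matrix.inv_def, Matrix.adjugate_fin_two]
  simp [div_eq_inv_mul]

theorem diag_ne_zero {g : GL (Fin 2) K} (hg : g 1 0 = 0) : g 0 0 ≠ 0 ∧ g 1 1 ≠ 0 := by
  have hdet := g.det_ne_zero
  rw [Matrix.det_fin_two, hg, mul_zero, sub_zero] at hdet
  exact ⟨left_ne_zero_of_mul hdet, right_ne_zero_of_mul hdet⟩

variable (K)

/-- Upper triangular matrices: the stabiliser of `∞`. -/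
def Bgl : Subgroup (GL (Fin 2) K) := MulAction.stabilizer (GL (Fin 2) K) (∞ : OnePoint K)

variable {K}

theorem mem_Bgl {g : GL (Fin 2) K} : g ∈ Bgl K ↔ g 1 0 = 0 := by
  rw [Bgl, MulAction.mem_stabilizer_iff, smul_infty_eq_self_iff]

theorem det_of_mem_Bgl {g : GL (Fin 2) K} (hg : g 1 0 = 0) : g.val.det = g 0 0 * g 1 1 := by
  rw [Matrix.det_fin_two, hg, mul_zero, sub_zero]

variable (K)

/-- Upper triangular matrices with equal diagonal entries (scalar times unipotent). -/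
def Ugl : Subgroup (GL (Fin 2) K) where
  carrier := {g | g 1 0 = 0 ∧ g 0 0 = g 1 1}
  one_mem' := by simp
  mul_mem' := by
    rintro g h ⟨hg, hg'⟩ ⟨hh, hh'⟩
    refine ⟨?_, ?_⟩
    · rw [mul_entry, hg, hh]; ring
    · rw [mul_entry, mul_entry, hg, hh, hg', hh']; ring
  inv_mem' := by
    rintro g ⟨hg, hg'⟩
    obtain ⟨h00, -, h10, h11⟩ := inv_entries g
    refine ⟨?_, ?_⟩
    · rw [h10, hg]; simp
    · rw [h00, h11, hg']

/-- Scalar matrices. -/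
def Sgl : Subgroup (GL (Fin 2) K) where
  carrier := {g | IsScalar g}
  one_mem' := by simp [IsScalar]
  mul_mem' := by
    rintro g h ⟨hg1, hg2, hg3⟩ ⟨hh1, hh2, hh3⟩
    refine ⟨?_, ?_, ?_⟩
    · rw [mul_entry, hg1, hh1]; ring
    · rw [mul_entry, hg2, hh2]; ring
    · rw [mul_entry, mul_entry, hg1, hg2, hh1, hh2, hg3, hh3]; ring
  inv_mem' := by
    rintro g ⟨hg1, hg2, hg3⟩
    obtain ⟨h00, h01, h10, h11⟩ := inv_entries g
    refine ⟨?_, ?_, ?_⟩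
    · rw [h01, hg1]; simp
    · rw [h10, hg2]; simp
    · rw [h00, h11, hg3]

variable {K}

theorem mem_Ugl {g : GL (Fin 2) K} : g ∈ Ugl K ↔ g 1 0 = 0 ∧ g 0 0 = g 1 1 := Iff.rfl

theorem mem_Sgl {g : GL (Fin 2) K} : g ∈ Sgl K ↔ IsScalar g := Iff.rfl

theorem Sgl_le_Ugl : Sgl K ≤ Ugl K := fun _ hg => ⟨hg.2.1, hg.2.2⟩

theorem Ugl_le_Bgl : Ugl K ≤ Bgl K := fun _ hg => mem_Bgl.2 hg.1

/-- Scalars are central. -/
theorem mul_comm_of_mem_Sgl {z : GL (Fin 2) K} (hz : z ∈ Sgl K) (g : GL (Fin 2) K) :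
    g * z = z * g := by
  obtain ⟨h1, h2, h3⟩ := hz
  apply Units.ext
  ext i j
  show (g * z) i j = (z * g) i j
  rw [mul_entry, mul_entry]
  fin_cases i <;> fin_cases j <;> simp [h1, h2, h3, mul_comm]

variable (K)

/-- `g ↦ g₀₀ / g₁₁` on upper triangular matrices. -/
noncomputable def tauHom : Bgl K →* Kˣ where
  toFun g := Units.mk0 ((g : GL (Fin 2) K) 0 0 / (g : GL (Fin 2) K) 1 1)
    (div_ne_zero (diag_ne_zero (mem_Bgl.1 g.2)).1 (diag_ne_zero (mem_Bgl.1 g.2)).2)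
  map_one' := by
    apply Units.ext
    simp
  map_mul' g h := by
    apply Units.ext
    have hg := mem_Bgl.1 g.2
    have hh := mem_Bgl.1 h.2
    have := (diag_ne_zero hg).2
    have := (diag_ne_zero hh).2
    show ((g * h : Bgl K) : GL (Fin 2) K) 0 0 / ((g * h : Bgl K) : GL (Fin 2) K) 1 1 =
      (g : GL (Fin 2) K) 0 0 / (g : GL (Fin 2) K) 1 1 *
        ((h : GL (Fin 2) K) 0 0 / (h : GL (Fin 2) K) 1 1)
    rw [Subgroup.coe_mul, mul_entry, mul_entry, hg, hh]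
    field_simp
    ring

/-- `g ↦ g₀₁ / g₀₀` on `Ugl K`. -/
noncomputable def nuHom : Ugl K →* Multiplicative K where
  toFun g := Multiplicative.ofAdd ((g : GL (Fin 2) K) 0 1 / (g : GL (Fin 2) K) 0 0)
  map_one' := by simp
  map_mul' g h := by
    obtain ⟨hg, hg'⟩ := mem_Ugl.1 g.2
    obtain ⟨hh, hh'⟩ := mem_Ugl.1 h.2
    have := (diag_ne_zero hg).1
    have := (diag_ne_zero hh).1
    rw [← ofAdd_add]
    congr 1
    simp only [Subgroup.coe_mul]
    rw [mul_entry, mul_entry, hh, ← hh']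
    field_simp
    ring

variable {K}

theorem tauHom_apply (g : Bgl K) :
    ((tauHom K g : Kˣ) : K) = (g : GL (Fin 2) K) 0 0 / (g : GL (Fin 2) K) 1 1 := rfl

theorem nuHom_apply (g : Ugl K) :
    Multiplicative.toAdd (nuHom K g) = (g : GL (Fin 2) K) 0 1 / (g : GL (Fin 2) K) 0 0 := rfl

section Sub

variable (H : Subgroup (GL (Fin 2) K))

/-- `τ` restricted to `H ∩ B`. -/
noncomputable def tauH : ↥(H ⊓ Bgl K) →* Kˣ :=
  (tauHom K).comp (Subgroup.inclusion (inf_le_right : H ⊓ Bgl K ≤ Bgl K))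

/-- `ν` restricted to `H ∩ U`. -/
noncomputable def nuH : ↥(H ⊓ Ugl K) →* Multiplicative K :=
  (nuHom K).comp (Subgroup.inclusion (inf_le_right : H ⊓ Ugl K ≤ Ugl K))

/-- The group `Γ` of ratios `g₀₀ / g₁₁` of upper triangular elements of `H`. -/
noncomputable def GammaH : Subgroup Kˣ := (tauH H).range

/-- The additive group `X` of `g₀₁ / g₀₀`, `g ∈ H ∩ U`. -/
noncomputable def XH : AddSubgroup K := Subgroup.toAddSubgroup' (nuH H).range

variable {H}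

theorem mem_GammaH {t : Kˣ} :
    t ∈ GammaH H ↔ ∃ g ∈ H, g 1 0 = 0 ∧ (t : K) = g 0 0 / g 1 1 := by
  rw [GammaH, MonoidHom.mem_range]
  constructor
  · rintro ⟨g, rfl⟩
    exact ⟨g.1, g.2.1, mem_Bgl.1 g.2.2, rfl⟩
  · rintro ⟨g, hgH, hg, ht⟩
    refine ⟨⟨g, hgH, mem_Bgl.2 hg⟩, ?_⟩
    apply Units.ext
    rw [ht]
    rfl

theorem mem_XH {x : K} :
    x ∈ XH H ↔ ∃ g ∈ H, g 1 0 = 0 ∧ g 0 0 = g 1 1 ∧ x = g 0 1 / g 0 0 := by
  rw [XH]
  show Multiplicative.ofAdd x ∈ (nuH H).range ↔ _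
  rw [MonoidHom.mem_range]
  constructor
  · rintro ⟨g, hg⟩
    refine ⟨g.1, g.2.1, (mem_Ugl.1 g.2.2).1, (mem_Ugl.1 g.2.2).2, ?_⟩
    have := congrArg Multiplicative.toAdd hg
    exact this.symm
  · rintro ⟨g, hgH, hg, hg', hx⟩
    refine ⟨⟨g, hgH, mem_Ugl.2 ⟨hg, hg'⟩⟩, ?_⟩
    rw [hx]
    rfl

theorem ker_tauH : (tauH H).ker = (H ⊓ Ugl K).subgroupOf (H ⊓ Bgl K) := by
  ext g
  rw [MonoidHom.mem_ker, Subgroup.mem_subgroupOf, Subgroup.mem_inf, mem_Ugl]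
  have hg := mem_Bgl.1 g.2.2
  have h11 := (diag_ne_zero hg).2
  constructor
  · intro h
    have := congrArg (fun t : Kˣ => (t : K)) h
    simp only [Units.val_one] at this
    have h2 : (g : GL (Fin 2) K) 0 0 / (g : GL (Fin 2) K) 1 1 = 1 := this
    rw [div_eq_one_iff_eq h11] at h2
    exact ⟨g.2.1, hg, h2⟩
  · rintro ⟨-, -, h⟩
    apply Units.ext
    show (g : GL (Fin 2) K) 0 0 / (g : GL (Fin 2) K) 1 1 = 1
    rw [div_eq_one_iff_eq h11]
    exact h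

theorem ker_nuH : (nuH H).ker = (H ⊓ Sgl K).subgroupOf (H ⊓ Ugl K) := by
  ext g
  rw [MonoidHom.mem_ker, Subgroup.mem_subgroupOf, Subgroup.mem_inf, mem_Sgl]
  obtain ⟨hg, hg'⟩ := mem_Ugl.1 g.2.2
  have h00 := (diag_ne_zero hg).1
  constructor
  · intro h
    have := congrArg Multiplicative.toAdd h
    have h2 : (g : GL (Fin 2) K) 0 1 / (g : GL (Fin 2) K) 0 0 = 0 := this
    rw [div_eq_zero_iff] at h2
    rcases h2 with h2 | h2
    · exact ⟨g.2.1, h2, hg, hg'⟩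
    · exact absurd h2 h00
  · rintro ⟨-, h, -, -⟩
    show Multiplicative.ofAdd ((g : GL (Fin 2) K) 0 1 / (g : GL (Fin 2) K) 0 0) = 1
    rw [h, zero_div]
    rfl

theorem card_inf_Bgl :
    Nat.card ↥(H ⊓ Bgl K) = Nat.card ↥(H ⊓ Ugl K) * Nat.card (GammaH H) := by
  have h1 := Subgroup.card_mul_index (tauH H).ker
  rw [Subgroup.index_ker, ker_tauH] at h1
  have hle : H ⊓ Ugl K ≤ H ⊓ Bgl K := inf_le_inf_left H Ugl_le_Bgl
  rw [Nat.card_congr (Subgroup.subgroupOfEquivOfLe hle).toEquiv] at h1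
  exact h1.symm

theorem card_inf_Ugl :
    Nat.card ↥(H ⊓ Ugl K) = Nat.card ↥(H ⊓ Sgl K) * Nat.card (XH H) := by
  have h1 := Subgroup.card_mul_index (nuH H).ker
  rw [Subgroup.index_ker, ker_nuH] at h1
  have hle : H ⊓ Sgl K ≤ H ⊓ Ugl K := inf_le_inf_left H Sgl_le_Ugl
  rw [Nat.card_congr (Subgroup.subgroupOfEquivOfLe hle).toEquiv] at h1
  rw [← h1]
  rfl

theorem card_subgroupOf (S : Subgroup (GL (Fin 2) K)) :
    Nat.card (S.subgroupOf H) = Nat.card ↥(H ⊓ S) := by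
  rw [← Subgroup.inf_subgroupOf_left S H]
  exact Nat.card_congr (Subgroup.subgroupOfEquivOfLe inf_le_left).toEquiv

end Sub

end Fermat.Agent.TW.Mob
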