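import Mathlib

/-!
# Explicit 1-cocycles with values in `ad⁰ ⊗ χ` (helper1, S56 leaf C)

For a group `𝒢`, `r : 𝒢 →* GL (Fin 2) k` and a character `χ : 𝒢 →* kˣ`, the twisted adjoint action
`g • m = χ g • (r g * m * (r g)⁻¹)` on `2 × 2` matrices, trace-zero `1`-cocycles and coboundaries,
and the generic vanishing lemmas: averaging, restriction to a subgroup of index prime to the
characteristic, Sah's lemma, conjugation.
-/

set_option autoImplicit false
set_option linter.unusedSectionVars false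

namespace Fermat.Agent.TW.Coh

open Matrix

variable {k : Type*} [Field k] {𝒢 : Type*} [Group 𝒢]

/-- `2 × 2` matrices. -/
abbrev M2 (k : Type*) := Matrix (Fin 2) (Fin 2) k

/-- The twisted adjoint action. -/
def act (r : 𝒢 →* GL (Fin 2) k) (χ : 𝒢 →* kˣ) (g : 𝒢) (m : M2 k) : M2 k :=
  ((χ g : kˣ) : k) • ((r g).val * m * ((r g)⁻¹ : GL (Fin 2) k).val)

variable (r : 𝒢 →* GL (Fin 2) k) (χ : 𝒢 →* kˣ)

theorem act_one (m : M2 k) : act r χ 1 m = m := by
  simp [act]

theorem act_mul (g h : 𝒢) (m : M2 k) : act r χ (g * h) m = act r χ g (act r χ h m) := by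
  have h1 : ((r (g * h))⁻¹ : GL (Fin 2) k).val =
      ((r h)⁻¹ : GL (Fin 2) k).val * ((r g)⁻¹ : GL (Fin 2) k).val := by
    rw [map_mul, _root_.mul_inv_rev, Matrix.GeneralLinearGroup.coe_mul]
  have h2 : (r (g * h)).val = (r g).val * (r h).val := by
    rw [map_mul, Matrix.GeneralLinearGroup.coe_mul]
  unfold act
  rw [h1, h2]
  simp only [map_mul, Units.val_mul, Matrix.mul_smul, Matrix.smul_mul, smul_smul,
    Matrix.mul_assoc]

theorem act_add (g : 𝒢) (m m' : M2 k) : act r χ g (m + m') = act r χ g m + act r χ g m' := by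
  simp only [act, Matrix.mul_add, Matrix.add_mul, smul_add]

theorem act_zero (g : 𝒢) : act r χ g (0 : M2 k) = 0 := by
  simp [act]

theorem act_neg (g : 𝒢) (m : M2 k) : act r χ g (-m) = -act r χ g m := by
  simp [act]

theorem act_sub (g : 𝒢) (m m' : M2 k) : act r χ g (m - m') = act r χ g m - act r χ g m' := by
  rw [sub_eq_add_neg, act_add, act_neg, ← sub_eq_add_neg]

theorem act_smul (g : 𝒢) (c : k) (m : M2 k) : act r χ g (c • m) = c • act r χ g m := by
  simp only [act, Matrix.mul_smul, Matrix.smul_mul, smul_smul, mul_comm]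

theorem act_sum {ι : Type*} (s : Finset ι) (g : 𝒢) (f : ι → M2 k) :
    act r χ g (∑ i ∈ s, f i) = ∑ i ∈ s, act r χ g (f i) := by
  classical
  induction s using Finset.induction_on with
  | empty => simp [act_zero]
  | insert a s ha ih => rw [Finset.sum_insert ha, Finset.sum_insert ha, act_add, ih]

theorem trace_act (g : 𝒢) (m : M2 k) : (act r χ g m).trace = ((χ g : kˣ) : k) * m.trace := by
  simp only [act, Matrix.trace_smul, smul_eq_mul]
  congr 1
  rw [Matrix.trace_mul_cycle]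
  have : ((r g)⁻¹ : GL (Fin 2) k).val * (r g).val = 1 := by
    rw [← Matrix.GeneralLinearGroup.coe_mul, inv_mul_cancel]; rfl
  rw [this, Matrix.one_mul]

theorem act_inv_act (g : 𝒢) (m : M2 k) : act r χ g⁻¹ (act r χ g m) = m := by
  rw [← act_mul, inv_mul_cancel, act_one]

theorem act_act_inv (g : 𝒢) (m : M2 k) : act r χ g (act r χ g⁻¹ m) = m := by
  rw [← act_mul, mul_inv_cancel, act_one]

/-- Trace-zero `1`-cocycles for the twisted adjoint action. -/
structure IsCocycle (ψ : 𝒢 → M2 k) : Prop where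
  tr : ∀ g, (ψ g).trace = 0
  mul : ∀ g h, ψ (g * h) = ψ g + act r χ g (ψ h)

/-- Coboundaries. -/
def IsCoboundary (ψ : 𝒢 → M2 k) : Prop :=
  ∃ m : M2 k, m.trace = 0 ∧ ∀ g, ψ g = act r χ g m - m

variable {r χ}

theorem IsCocycle.one {ψ : 𝒢 → M2 k} (h : IsCocycle r χ ψ) : ψ 1 = 0 := by
  have := h.mul 1 1
  rw [mul_one, act_one] at this
  exact left_eq_add.1 this

theorem IsCocycle.inv {ψ : 𝒢 → M2 k} (h : IsCocycle r χ ψ) (g : 𝒢) :
    ψ g⁻¹ = -act r χ g⁻¹ (ψ g) := by
  have := h.mul g⁻¹ g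
  rw [inv_mul_cancel, h.one] at this
  exact eq_neg_of_add_eq_zero_left this.symm

/-- The coboundary of a trace-zero matrix is a cocycle. -/
theorem isCocycle_coboundary (m : M2 k) (hm : m.trace = 0) :
    IsCocycle r χ (fun g => act r χ g m - m) where
  tr g := by rw [Matrix.trace_sub, trace_act, hm, mul_zero, sub_zero]
  mul g h := by
    simp only [act_mul, act_sub]
    abel

/-- Subtracting a coboundary. -/
theorem IsCocycle.sub_coboundary {ψ : 𝒢 → M2 k} (h : IsCocycle r χ ψ) (m : M2 k)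
    (hm : m.trace = 0) : IsCocycle r χ (fun g => ψ g - (act r χ g m - m)) where
  tr g := by
    rw [Matrix.trace_sub, h.tr, (isCocycle_coboundary (r := r) (χ := χ) m hm).tr, sub_zero]
  mul g g' := by
    have h1 := h.mul g g'
    have h2 := (isCocycle_coboundary (r := r) (χ := χ) m hm).mul g g'
    simp only [act_sub] at h2 ⊢
    rw [h1, h2]
    abel

theorem isCoboundary_of_sub {ψ : 𝒢 → M2 k} (m : M2 k) (hm : m.trace = 0)
    (h : IsCoboundary r χ (fun g => ψ g - (act r χ g m - m))) : IsCoboundary r χ ψ := by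
  obtain ⟨m', hm', h'⟩ := h
  refine ⟨m' + m, by rw [Matrix.trace_add, hm', hm, add_zero], fun g => ?_⟩
  have := h' g
  simp only at this
  rw [act_add]
  rw [sub_eq_iff_eq_add] at this
  rw [this]
  abel

/-- **Averaging**: if `|𝒢|` is invertible in `k`, every cocycle is a coboundary. -/
theorem isCoboundary_of_card_ne_zero [Fintype 𝒢] {ψ : 𝒢 → M2 k} (h : IsCocycle r χ ψ)
    (hcard : (Fintype.card 𝒢 : k) ≠ 0) : IsCoboundary r χ ψ := by
  set m : M2 k := -((Fintype.card 𝒢 : k)⁻¹ • ∑ g : 𝒢, ψ g) with hm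
  refine ⟨m, ?_, fun g => ?_⟩
  · rw [hm, Matrix.trace_neg, Matrix.trace_smul, Matrix.trace_sum]
    simp [h.tr]
  · have h1 : act r χ g (∑ x : 𝒢, ψ x) = ∑ x : 𝒢, ψ x - (Fintype.card 𝒢 : k) • ψ g := by
      rw [act_sum]
      have : ∀ x : 𝒢, act r χ g (ψ x) = ψ (g * x) - ψ g := fun x => by rw [h.mul]; abel
      rw [Finset.sum_congr rfl (fun x _ => this x), Finset.sum_sub_distrib,
        Fintype.sum_bijective (fun x => g * x) (Group.mulLeft_bijective g) (fun x => ψ (g * x)) ψ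
          (fun _ => rfl), Finset.sum_const, Finset.card_univ, ← Nat.cast_smul_eq_nsmul k]
    rw [hm, act_neg, act_smul, h1, smul_sub, smul_smul, inv_mul_cancel₀ hcard, one_smul]
    abel

/-- Pullback of a cocycle along a group homomorphism. -/
theorem IsCocycle.comp {𝒢' : Type*} [Group 𝒢'] (f : 𝒢' →* 𝒢) {ψ : 𝒢 → M2 k}
    (h : IsCocycle r χ ψ) : IsCocycle (r.comp f) (χ.comp f) (fun g => ψ (f g)) where
  tr g := h.tr (f g)
  mul g g' := by
    have := h.mul (f g) (f g')
    rw [← map_mul] at this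
    exact this

theorem IsCoboundary.comp {𝒢' : Type*} [Group 𝒢'] (f : 𝒢' →* 𝒢) {ψ : 𝒢 → M2 k}
    (h : IsCoboundary r χ ψ) : IsCoboundary (r.comp f) (χ.comp f) (fun g => ψ (f g)) := by
  obtain ⟨m, hm, h⟩ := h
  exact ⟨m, hm, fun g => h (f g)⟩

/-- A coboundary on the image of a surjection descends. -/
theorem isCoboundary_of_comp_surjective {𝒢' : Type*} [Group 𝒢'] (f : 𝒢' →* 𝒢)
    (hf : Function.Surjective f) {ψ : 𝒢 → M2 k}
    (h : IsCoboundary (r.comp f) (χ.comp f) (fun g => ψ (f g))) : IsCoboundary r χ ψ := by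
  obtain ⟨m, hm, h⟩ := h
  refine ⟨m, hm, fun g => ?_⟩
  obtain ⟨g', rfl⟩ := hf g
  exact h g'

/-- A cocycle vanishing on a subgroup is constant on its left cosets. -/
theorem IsCocycle.mul_of_eq_zero {ψ : 𝒢 → M2 k} (h : IsCocycle r χ ψ) (g : 𝒢) {s : 𝒢}
    (hs : ψ s = 0) : ψ (g * s) = ψ g := by
  rw [h.mul, hs, act_zero, add_zero]

/-- **Restriction**: if the index of `S` is invertible in `k` and `ψ` vanishes on `S`, then `ψ` is a
coboundary. -/
theorem isCoboundary_of_vanish_on_subgroup [Finite 𝒢] (S : Subgroup 𝒢) (hidx : (S.index : k) ≠ 0)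
    {ψ : 𝒢 → M2 k} (h : IsCocycle r χ ψ) (hS : ∀ s ∈ S, ψ s = 0) : IsCoboundary r χ ψ := by
  classical
  have : Fintype (𝒢 ⧸ S) := Fintype.ofFinite _
  -- `ψ` descends to the coset space
  let F : 𝒢 ⧸ S → M2 k := Quotient.lift ψ (by
    intro a b hab
    have hab' : a⁻¹ * b ∈ S := QuotientGroup.leftRel_apply.1 hab
    have : b = a * (a⁻¹ * b) := by group
    rw [this, h.mul_of_eq_zero a (hS _ hab')])
  have hF : ∀ g : 𝒢, F (QuotientGroup.mk g) = ψ g := fun g => rfl
  have hFsmul : ∀ (g : 𝒢) (x : 𝒢 ⧸ S), F (g • x) = ψ g + act r χ g (F x) := by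
    intro g x
    induction x using QuotientGroup.induction_on with
    | H a =>
      show F (QuotientGroup.mk (g * a)) = _
      rw [hF, hF, h.mul]
  have hcard : (Fintype.card (𝒢 ⧸ S) : k) = (S.index : k) := by
    rw [Subgroup.index_eq_card, Nat.card_eq_fintype_card]
  rw [← hcard] at hidx
  set n : k := (Fintype.card (𝒢 ⧸ S) : k) with hn
  set m : M2 k := -(n⁻¹ • ∑ x : 𝒢 ⧸ S, F x) with hm
  refine ⟨m, ?_, fun g => ?_⟩
  · rw [hm, Matrix.trace_neg, Matrix.trace_smul, Matrix.trace_sum]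
    have : ∀ x : 𝒢 ⧸ S, (F x).trace = 0 := by
      intro x
      induction x using QuotientGroup.induction_on with
      | H a => rw [hF]; exact h.tr a
    simp [this]
  · have h1 : act r χ g (∑ x : 𝒢 ⧸ S, F x) = ∑ x : 𝒢 ⧸ S, F x - n • ψ g := by
      rw [act_sum]
      have : ∀ x : 𝒢 ⧸ S, act r χ g (F x) = F (g • x) - ψ g := fun x => by rw [hFsmul]; abel
      rw [Finset.sum_congr rfl (fun x _ => this x), Finset.sum_sub_distrib,
        Fintype.sum_bijective (fun x : 𝒢 ⧸ S => g • x) (MulAction.bijective g)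
          (fun x => F (g • x)) F (fun _ => rfl), Finset.sum_const, Finset.card_univ, hn,
        ← Nat.cast_smul_eq_nsmul k]
    rw [hm, act_neg, act_smul, h1, smul_sub, smul_smul, inv_mul_cancel₀ hidx, one_smul]
    abel

/-- **Restriction**, general form: if the index of `S` is invertible in `k` and `ψ` is a coboundary
on `S`, then `ψ` is a coboundary. -/
theorem isCoboundary_of_restrict [Finite 𝒢] (S : Subgroup 𝒢) (hidx : (S.index : k) ≠ 0)
    {ψ : 𝒢 → M2 k} (h : IsCocycle r χ ψ)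
    (hS : ∃ m : M2 k, m.trace = 0 ∧ ∀ s ∈ S, ψ s = act r χ s m - m) : IsCoboundary r χ ψ := by
  obtain ⟨m, hm, hS⟩ := hS
  refine isCoboundary_of_sub m hm ?_
  refine isCoboundary_of_vanish_on_subgroup S hidx (h.sub_coboundary m hm) fun s hs => ?_
  rw [hS s hs, sub_self]

/-- **Sah's lemma**: an element `z` acting through a scalar `c ≠ 1` and satisfying
`ψ (z g) = ψ (g z)` for all `g` kills the class of `ψ`. -/
theorem isCoboundary_of_central {ψ : 𝒢 → M2 k} (h : IsCocycle r χ ψ) (z : 𝒢) (c : k)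
    (hc : c ≠ 1) (hz : ∀ m : M2 k, act r χ z m = c • m)
    (hcomm : ∀ g, ψ (z * g) = ψ (g * z)) : IsCoboundary r χ ψ := by
  have hc' : c - 1 ≠ 0 := sub_ne_zero.2 hc
  refine ⟨(c - 1)⁻¹ • ψ z, by rw [Matrix.trace_smul, h.tr, smul_zero], fun g => ?_⟩
  have h1 := hcomm g
  rw [h.mul, h.mul, hz] at h1
  have h2 : (c - 1) • ψ g = act r χ g (ψ z) - ψ z := by
    rw [sub_smul, one_smul]
    have : c • ψ g = ψ g + act r χ g (ψ z) - ψ z := by rw [← h1]; abel
    rw [this]
    abel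
  rw [act_smul, ← smul_sub, ← h2, smul_smul, inv_mul_cancel₀ hc', one_smul]

/-- If `z` acts trivially and `ψ (z g) = ψ (g z)` for all `g`, then `ψ z` is invariant. -/
theorem IsCocycle.invariant_of_central {ψ : 𝒢 → M2 k} (h : IsCocycle r χ ψ) (z : 𝒢)
    (hz : ∀ m : M2 k, act r χ z m = m) (hcomm : ∀ g, ψ (z * g) = ψ (g * z)) (g : 𝒢) :
    act r χ g (ψ z) = ψ z := by
  have h1 := hcomm g
  rw [h.mul, h.mul, hz] at h1
  have : act r χ g (ψ z) = ψ z + ψ g - ψ g := by rw [h1]; abel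
  rw [this]
  abel

/-- On elements acting trivially a cocycle is additive. -/
theorem IsCocycle.mul_of_act_trivial {ψ : 𝒢 → M2 k} (h : IsCocycle r χ ψ) (a b : 𝒢)
    (ha : ∀ m : M2 k, act r χ a m = m) : ψ (a * b) = ψ a + ψ b := by
  rw [h.mul, ha]

/-- Conjugation formula `ψ (g a g⁻¹) = g • ψ a` for `a` acting trivially together with all its
conjugates. -/
theorem IsCocycle.conj_of_act_trivial {ψ : 𝒢 → M2 k} (h : IsCocycle r χ ψ) (g a : 𝒢)
    (ha : ∀ m : M2 k, act r χ (g * a * g⁻¹) m = m) :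
    ψ (g * a * g⁻¹) = act r χ g (ψ a) := by
  have h1 : ψ (g * a) = ψ (g * a * g⁻¹ * g) := by rw [inv_mul_cancel_right]
  rw [h.mul, h.mul (g * a * g⁻¹) g, ha] at h1
  have : ψ (g * a * g⁻¹) = ψ g + act r χ g (ψ a) - ψ g := by rw [h1]; abel
  rw [this]
  abel

end Fermat.Agent.TW.Coh
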