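import Mathlib
import Fermat.Agent.TW.Sigma_helper1_Coh
import Fermat.Agent.TW.Sigma_helper1_Borel

/-!
# Cocycles on subgroups of `GL₂(k)` (helper1, S56 leaf C)

For a subgroup `H ≤ GL₂(k)`, a character `χ : GL₂(k) →* kˣ` and a function `ψ : GL₂(k) → M₂(k)`,
the predicates `IsCocycleOn H χ ψ`, `IsCoboundaryOn H χ ψ` (only the values of `ψ` on `H` matter),
with restriction to subgroups, averaging, Sah's lemma for scalar elements and conjugation.
-/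

set_option autoImplicit false
set_option linter.unusedSectionVars false

namespace Fermat.Agent.TW.Coh

open Matrix Mob

variable {k : Type*} [Field k]

/-- The twisted conjugation action of `GL₂(k)` on matrices. -/
abbrev actG (χ : GL (Fin 2) k →* kˣ) (g : GL (Fin 2) k) (m : M2 k) : M2 k :=
  act (MonoidHom.id (GL (Fin 2) k)) χ g m

theorem actG_def (χ : GL (Fin 2) k →* kˣ) (g : GL (Fin 2) k) (m : M2 k) :
    actG χ g m = ((χ g : kˣ) : k) • (g.val * m * (g⁻¹ : GL (Fin 2) k).val) := rfl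

theorem actG_add (χ : GL (Fin 2) k →* kˣ) (g : GL (Fin 2) k) (m m' : M2 k) :
    actG χ g (m + m') = actG χ g m + actG χ g m' := act_add _ _ _ _ _

theorem actG_sub (χ : GL (Fin 2) k →* kˣ) (g : GL (Fin 2) k) (m m' : M2 k) :
    actG χ g (m - m') = actG χ g m - actG χ g m' := act_sub _ _ _ _ _

theorem actG_neg (χ : GL (Fin 2) k →* kˣ) (g : GL (Fin 2) k) (m : M2 k) :
    actG χ g (-m) = -actG χ g m := act_neg _ _ _ _

theorem actG_zero (χ : GL (Fin 2) k →* kˣ) (g : GL (Fin 2) k) : actG χ g (0 : M2 k) = 0 :=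
  act_zero _ _ _

theorem actG_smul (χ : GL (Fin 2) k →* kˣ) (g : GL (Fin 2) k) (c : k) (m : M2 k) :
    actG χ g (c • m) = c • actG χ g m := act_smul _ _ _ _ _

theorem actG_mul (χ : GL (Fin 2) k →* kˣ) (g h : GL (Fin 2) k) (m : M2 k) :
    actG χ (g * h) m = actG χ g (actG χ h m) := act_mul _ _ _ _ _

theorem actG_one (χ : GL (Fin 2) k →* kˣ) (m : M2 k) : actG χ 1 m = m := act_one _ _ _

theorem actG_inv_actG (χ : GL (Fin 2) k →* kˣ) (g : GL (Fin 2) k) (m : M2 k) :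
    actG χ g⁻¹ (actG χ g m) = m := act_inv_act _ _ _ _

theorem actG_actG_inv (χ : GL (Fin 2) k →* kˣ) (g : GL (Fin 2) k) (m : M2 k) :
    actG χ g (actG χ g⁻¹ m) = m := act_act_inv _ _ _ _

theorem trace_actG (χ : GL (Fin 2) k →* kˣ) (g : GL (Fin 2) k) (m : M2 k) :
    (actG χ g m).trace = ((χ g : kˣ) : k) * m.trace := trace_act _ _ _ _

/-- Trace-zero cocycles on a subgroup `H ≤ GL₂(k)`. -/
structure IsCocycleOn (H : Subgroup (GL (Fin 2) k)) (χ : GL (Fin 2) k →* kˣ)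
    (ψ : GL (Fin 2) k → M2 k) : Prop where
  tr : ∀ g ∈ H, (ψ g).trace = 0
  mul : ∀ g ∈ H, ∀ h ∈ H, ψ (g * h) = ψ g + actG χ g (ψ h)

/-- Coboundaries on a subgroup `H ≤ GL₂(k)`. -/
def IsCoboundaryOn (H : Subgroup (GL (Fin 2) k)) (χ : GL (Fin 2) k →* kˣ)
    (ψ : GL (Fin 2) k → M2 k) : Prop :=
  ∃ m : M2 k, m.trace = 0 ∧ ∀ g ∈ H, ψ g = actG χ g m - m

variable {H H₁ : Subgroup (GL (Fin 2) k)} {χ : GL (Fin 2) k →* kˣ} {ψ : GL (Fin 2) k → M2 k}

theorem isCocycleOn_iff : IsCocycleOn H χ ψ ↔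
    IsCocycle H.subtype (χ.comp H.subtype) (fun h : H => ψ h) := by
  constructor
  · intro h
    exact ⟨fun g => h.tr g g.2, fun g g' => h.mul g g.2 g' g'.2⟩
  · intro h
    exact ⟨fun g hg => h.tr ⟨g, hg⟩, fun g hg g' hg' => h.mul ⟨g, hg⟩ ⟨g', hg'⟩⟩

theorem isCoboundaryOn_iff : IsCoboundaryOn H χ ψ ↔
    IsCoboundary H.subtype (χ.comp H.subtype) (fun h : H => ψ h) := by
  constructor
  · rintro ⟨m, hm, h⟩
    exact ⟨m, hm, fun g => h g g.2⟩
  · rintro ⟨m, hm, h⟩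
    exact ⟨m, hm, fun g hg => h ⟨g, hg⟩⟩

theorem IsCocycleOn.mono (h : IsCocycleOn H χ ψ) (hle : H₁ ≤ H) : IsCocycleOn H₁ χ ψ :=
  ⟨fun g hg => h.tr g (hle hg), fun g hg g' hg' => h.mul g (hle hg) g' (hle hg')⟩

theorem IsCoboundaryOn.mono (h : IsCoboundaryOn H χ ψ) (hle : H₁ ≤ H) : IsCoboundaryOn H₁ χ ψ := by
  obtain ⟨m, hm, h⟩ := h
  exact ⟨m, hm, fun g hg => h g (hle hg)⟩

theorem IsCocycleOn.one (h : IsCocycleOn H χ ψ) : ψ 1 = 0 :=
  (isCocycleOn_iff.1 h).one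

theorem IsCocycleOn.inv (h : IsCocycleOn H χ ψ) {g : GL (Fin 2) k} (hg : g ∈ H) :
    ψ g⁻¹ = -actG χ g⁻¹ (ψ g) :=
  (isCocycleOn_iff.1 h).inv ⟨g, hg⟩

theorem IsCocycleOn.congr {ψ' : GL (Fin 2) k → M2 k} (h : IsCocycleOn H χ ψ)
    (heq : ∀ g ∈ H, ψ' g = ψ g) : IsCocycleOn H χ ψ' :=
  ⟨fun g hg => by rw [heq g hg]; exact h.tr g hg, fun g hg g' hg' => by
    rw [heq _ (H.mul_mem hg hg'), heq g hg, heq g' hg']; exact h.mul g hg g' hg'⟩

theorem IsCoboundaryOn.congr {ψ' : GL (Fin 2) k → M2 k} (h : IsCoboundaryOn H χ ψ)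
    (heq : ∀ g ∈ H, ψ' g = ψ g) : IsCoboundaryOn H χ ψ' := by
  obtain ⟨m, hm, h⟩ := h
  exact ⟨m, hm, fun g hg => by rw [heq g hg]; exact h g hg⟩

/-- Subtracting a coboundary. -/
theorem IsCocycleOn.sub_coboundary (h : IsCocycleOn H χ ψ) (m : M2 k) (hm : m.trace = 0) :
    IsCocycleOn H χ (fun g => ψ g - (actG χ g m - m)) := by
  rw [isCocycleOn_iff] at h ⊢
  exact h.sub_coboundary m hm

theorem isCoboundaryOn_of_sub (m : M2 k) (hm : m.trace = 0)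
    (h : IsCoboundaryOn H χ (fun g => ψ g - (actG χ g m - m))) : IsCoboundaryOn H χ ψ := by
  rw [isCoboundaryOn_iff] at h ⊢
  exact isCoboundary_of_sub m hm h

/-- **Averaging** on a subgroup of order prime to the characteristic. -/
theorem isCoboundaryOn_of_card_ne_zero [Finite H] (h : IsCocycleOn H χ ψ)
    (hcard : (Nat.card H : k) ≠ 0) : IsCoboundaryOn H χ ψ := by
  have : Fintype H := Fintype.ofFinite _
  rw [isCocycleOn_iff] at h
  rw [isCoboundaryOn_iff]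
  refine isCoboundary_of_card_ne_zero h ?_
  rwa [← Nat.card_eq_fintype_card]

/-- **Restriction** to a subgroup of index prime to the characteristic. -/
theorem isCoboundaryOn_of_restrict [Finite H] (hidx : (H₁.relIndex H : k) ≠ 0)
    (h : IsCocycleOn H χ ψ) (h₁ : IsCoboundaryOn H₁ χ ψ) : IsCoboundaryOn H χ ψ := by
  rw [isCocycleOn_iff] at h
  rw [isCoboundaryOn_iff]
  obtain ⟨m, hm, h₁⟩ := h₁
  refine isCoboundary_of_restrict (H₁.subgroupOf H) hidx h ⟨m, hm, fun s hs => ?_⟩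
  exact h₁ s (Subgroup.mem_subgroupOf.1 hs)

theorem mul_eq_mul_of_isScalar [DecidableEq k] {z : GL (Fin 2) k} (hz : IsScalar z) (m : M2 k) :
    z.val * m = m * z.val := by
  obtain ⟨h01, h10, h00⟩ := hz
  ext i j
  rw [Matrix.mul_apply, Matrix.mul_apply, Fin.sum_univ_two, Fin.sum_univ_two]
  fin_cases i <;> fin_cases j <;> simp [h01, h10, h00, mul_comm]

theorem actG_of_isScalar [DecidableEq k] {z : GL (Fin 2) k} (hz : IsScalar z) (m : M2 k) :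
    actG χ z m = ((χ z : kˣ) : k) • m := by
  rw [actG_def, mul_eq_mul_of_isScalar hz, Matrix.mul_assoc]
  have : z.val * (z⁻¹ : GL (Fin 2) k).val = 1 := by
    rw [← Matrix.GeneralLinearGroup.coe_mul, mul_inv_cancel]; rfl
  rw [this, Matrix.mul_one]

/-- **Sah's lemma** for a scalar element on which `χ` is nontrivial. -/
theorem isCoboundaryOn_of_scalar [DecidableEq k] (h : IsCocycleOn H χ ψ) {z : GL (Fin 2) k}
    (hzH : z ∈ H) (hz : IsScalar z) (hχ : ((χ z : kˣ) : k) ≠ 1) : IsCoboundaryOn H χ ψ := by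
  rw [isCocycleOn_iff] at h
  rw [isCoboundaryOn_iff]
  refine isCoboundary_of_central h ⟨z, hzH⟩ ((χ z : kˣ) : k) hχ (fun m => actG_of_isScalar hz m)
    fun g => ?_
  have : (⟨z, hzH⟩ : H) * g = g * ⟨z, hzH⟩ := by
    apply Subtype.ext
    exact (mul_comm_of_mem_Sgl (mem_Sgl.2 hz) g.1).symm
  rw [this]

/-! ### Conjugation -/

/-- The conjugate subgroup `g₀ H g₀⁻¹`. -/
def conjH (g₀ : GL (Fin 2) k) (H : Subgroup (GL (Fin 2) k)) : Subgroup (GL (Fin 2) k) :=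
  H.map (MulAut.conj g₀).toMonoidHom

theorem mem_conjH {g₀ g : GL (Fin 2) k} : g ∈ conjH g₀ H ↔ g₀⁻¹ * g * g₀ ∈ H := by
  rw [conjH, Subgroup.mem_map]
  constructor
  · rintro ⟨h, hh, rfl⟩
    simp only [MulEquiv.coe_toMonoidHom, MulAut.conj_apply]
    convert hh using 1
    group
  · intro h
    refine ⟨_, h, ?_⟩
    simp only [MulEquiv.coe_toMonoidHom, MulAut.conj_apply]
    group

theorem conj_mem_conjH {g₀ g : GL (Fin 2) k} (hg : g ∈ H) : g₀ * g * g₀⁻¹ ∈ conjH g₀ H := by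
  rw [mem_conjH]
  convert hg using 1
  group

/-- The conjugated cocycle `g ↦ g₀ ψ(g₀⁻¹ g g₀) g₀⁻¹`. -/
def conjψ (g₀ : GL (Fin 2) k) (ψ : GL (Fin 2) k → M2 k) : GL (Fin 2) k → M2 k :=
  fun g => actG 1 g₀ (ψ (g₀⁻¹ * g * g₀))

theorem actG_one_def (g₀ : GL (Fin 2) k) (m : M2 k) :
    actG 1 g₀ m = g₀.val * m * (g₀⁻¹ : GL (Fin 2) k).val := by
  rw [actG_def]
  simp

theorem actG_eq_smul (χ : GL (Fin 2) k →* kˣ) (g : GL (Fin 2) k) (m : M2 k) :
    actG χ g m = ((χ g : kˣ) : k) • actG 1 g m := by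
  rw [actG_def, actG_def]
  simp

theorem actG_conj (g₀ g : GL (Fin 2) k) (m : M2 k) :
    actG 1 g₀ (actG χ (g₀⁻¹ * g * g₀) m) = actG χ g (actG 1 g₀ m) := by
  have hχ : χ (g₀⁻¹ * g * g₀) = χ g := by
    rw [map_mul, map_mul, map_inv, mul_comm, ← mul_assoc, mul_inv_cancel, one_mul]
  rw [actG_eq_smul χ, actG_eq_smul χ g, hχ, actG_smul, ← actG_mul, ← actG_mul]
  congr 2
  group

theorem IsCocycleOn.conj (h : IsCocycleOn H χ ψ) (g₀ : GL (Fin 2) k) :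
    IsCocycleOn (conjH g₀ H) χ (conjψ g₀ ψ) where
  tr g hg := by
    rw [conjψ, trace_actG, h.tr _ (mem_conjH.1 hg), mul_zero]
  mul g hg g' hg' := by
    have e : g₀⁻¹ * (g * g') * g₀ = (g₀⁻¹ * g * g₀) * (g₀⁻¹ * g' * g₀) := by group
    simp only [conjψ]
    rw [e, h.mul _ (mem_conjH.1 hg) _ (mem_conjH.1 hg'), actG_add, actG_conj]

theorem isCoboundaryOn_of_conj (g₀ : GL (Fin 2) k)
    (h : IsCoboundaryOn (conjH g₀ H) χ (conjψ g₀ ψ)) : IsCoboundaryOn H χ ψ := by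
  obtain ⟨m, hm, h⟩ := h
  refine ⟨actG 1 g₀⁻¹ m, by rw [trace_actG, hm, mul_zero], fun g hg => ?_⟩
  have h1 := h _ (conj_mem_conjH (g₀ := g₀) hg)
  have e : g₀⁻¹ * (g₀ * g * g₀⁻¹) * g₀ = g := by group
  simp only [conjψ] at h1
  rw [e] at h1
  have h2 := congrArg (actG 1 g₀⁻¹) h1
  rw [actG_inv_actG] at h2
  rw [h2, actG_sub]
  congr 1
  have h3 := actG_conj (χ := χ) g₀⁻¹ g m
  rw [inv_inv] at h3
  exact h3

end Fermat.Agent.TW.Coh
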