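import Mathlib

/-!
# A fixed-point count for finite groups acting with at most two fixed points (helper1)

Abstract form of the "Dickson-lite" count used for the Taylor–Wiles prime selection (S56, leaf C):
a finite group `G` acts on a set `X`; a central subgroup `Z` acts trivially and every `g ∉ Z` has
exactly one ("parabolic") or exactly two fixed points.  If the stabiliser `B` of a point `x₀` has
order `q * e * z` (`z = |Z|`), the parabolic-or-central elements of `B` form a subgroup `U` of order
`q * z`, and `G` moves `x₀`, then `q - 1 ≤ 2 * e`.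
-/

set_option autoImplicit false
set_option linter.unusedSectionVars false

namespace Fermat.Agent.TW.Count

open MulAction

variable {G X : Type*} [Group G] [Fintype G] [MulAction G X] [DecidableEq X]

/-- The hypotheses of the count. -/
structure Hyp (Z : Subgroup G) (F : G → Finset X) : Prop where
  central : ∀ z ∈ Z, ∀ g : G, g * z = z * g
  triv : ∀ z ∈ Z, ∀ x : X, z • x = x
  memF : ∀ g, g ∉ Z → ∀ x, x ∈ F g ↔ g • x = x
  cardF : ∀ g, g ∉ Z → (F g).card = 1 ∨ (F g).card = 2

variable (Z : Subgroup G) (F : G → Finset X)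

open Classical in
/-- The elements outside `Z`. -/
noncomputable def nonZ : Finset G := Finset.univ.filter (fun g => g ∉ Z)

open Classical in
/-- Points with a non-central stabilising element. -/
noncomputable def pts : Finset X := (nonZ Z).biUnion F

open Classical in
/-- Number of non-central elements fixing `x`. -/
noncomputable def aCount (x : X) : ℕ := ((nonZ Z).filter (fun g => g • x = x)).card

open Classical in
/-- Number of parabolic elements fixing `x`. -/
noncomputable def bCount (x : X) : ℕ :=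
  ((nonZ Z).filter (fun g => g • x = x ∧ (F g).card = 1)).card

variable {Z F}

theorem mem_nonZ {g : G} : g ∈ nonZ Z ↔ g ∉ Z := by
  classical
  simp [nonZ]

theorem card_nonZ : (nonZ Z).card + Nat.card Z = Fintype.card G := by
  classical
  have h1 : (nonZ Z).card = Fintype.card G - (Finset.univ.filter (fun g => g ∈ Z)).card := by
    rw [nonZ, Finset.filter_not, Finset.card_sdiff_of_subset (Finset.filter_subset _ _),
      Finset.card_univ]
  have h2 : (Finset.univ.filter (fun g => g ∈ Z)).card = Nat.card Z := by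
    rw [Nat.card_eq_fintype_card, Fintype.card_subtype]
  have h3 : (Finset.univ.filter (fun g => g ∈ Z)).card ≤ Fintype.card G := by
    rw [← Finset.card_univ]; exact Finset.card_le_card (Finset.filter_subset _ _)
  omega

theorem total (H : Hyp Z F) :
    ∑ x ∈ pts Z F, (aCount Z x + bCount Z F x) = 2 * (nonZ Z).card := by
  classical
  have hF : ∀ g ∈ nonZ Z, ∀ x, x ∈ F g ↔ g • x = x := fun g hg => H.memF g (mem_nonZ.1 hg)
  have hsub : ∀ g ∈ nonZ Z, F g ⊆ pts Z F := fun g hg =>
    Finset.subset_biUnion_of_mem F hg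
  have ha : ∑ x ∈ pts Z F, aCount Z x = ∑ g ∈ nonZ Z, (F g).card := by
    simp only [aCount, Finset.card_filter]
    rw [Finset.sum_comm]
    refine Finset.sum_congr rfl fun g hg => ?_
    rw [← Finset.card_filter]
    congr 1
    ext x
    rw [Finset.mem_filter, ← hF g hg]
    exact ⟨fun h => h.2, fun h => ⟨hsub g hg h, h⟩⟩
  have hb : ∑ x ∈ pts Z F, bCount Z F x =
      ∑ g ∈ nonZ Z, (if (F g).card = 1 then (F g).card else 0) := by
    simp only [bCount, Finset.card_filter]
    rw [Finset.sum_comm]
    refine Finset.sum_congr rfl fun g hg => ?_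
    by_cases h1 : (F g).card = 1
    · simp only [h1, and_true, if_true]
      rw [← Finset.card_filter, ← h1]
      congr 1
      ext x
      rw [Finset.mem_filter, ← hF g hg]
      exact ⟨fun h => h.2, fun h => ⟨hsub g hg h, h⟩⟩
    · simp [h1]
  rw [Finset.sum_add_distrib, ha, hb, ← Finset.sum_add_distrib]
  have hterm : ∀ g ∈ nonZ Z, ((F g).card + if (F g).card = 1 then (F g).card else 0) = 2 := by
    intro g hg
    rcases H.cardF g (mem_nonZ.1 hg) with h | h <;> simp [h]
  rw [Finset.sum_congr rfl hterm, Finset.sum_const, smul_eq_mul, mul_comm]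

theorem conj_not_mem (H : Hyp Z F) (h : G) {g : G} (hg : g ∉ Z) : h * g * h⁻¹ ∉ Z := by
  intro hz
  apply hg
  have h1 := H.central _ hz h⁻¹
  have h2 : g = h⁻¹ * (h * g * h⁻¹) * h := by group
  rw [h2, h1]
  simpa using hz

theorem card_F_conj (H : Hyp Z F) (h : G) {g : G} (hg : g ∉ Z) :
    (F (h * g * h⁻¹)).card = (F g).card := by
  have hF : F (h * g * h⁻¹) = (F g).image (fun x => h • x) := by
    ext x
    rw [H.memF _ (conj_not_mem H h hg), Finset.mem_image]
    constructor
    · intro hx
      refine ⟨h⁻¹ • x, ?_, by simp⟩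
      rw [H.memF g hg]
      have : g • h⁻¹ • x = h⁻¹ • ((h * g * h⁻¹) • x) := by simp [mul_smul]
      rw [this, hx]
    · rintro ⟨y, hy, rfl⟩
      rw [H.memF g hg] at hy
      simp [mul_smul, hy]
  rw [hF, Finset.card_image_of_injective _ (MulAction.injective h)]

theorem aCount_smul (H : Hyp Z F) (h : G) (x : X) : aCount Z (h • x) = aCount Z x := by
  classical
  unfold aCount
  refine Finset.card_nbij' (fun g => h⁻¹ * g * h) (fun g => h * g * h⁻¹) ?_ ?_ ?_ ?_
  · intro g hg
    simp only [Finset.coe_filter, Set.mem_ofPred_eq, mem_nonZ] at hg ⊢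
    refine ⟨?_, ?_⟩
    · have := conj_not_mem H h⁻¹ hg.1
      simpa using this
    · have : (h⁻¹ * g * h) • x = h⁻¹ • (g • h • x) := by simp [mul_smul]
      rw [this, hg.2]; simp
  · intro g hg
    simp only [Finset.coe_filter, Set.mem_ofPred_eq, mem_nonZ] at hg ⊢
    refine ⟨conj_not_mem H h hg.1, ?_⟩
    have : (h * g * h⁻¹) • h • x = h • (g • x) := by simp [mul_smul]
    rw [this, hg.2]
  · intro g _; simp only; group
  · intro g _; simp only; group

theorem bCount_smul (H : Hyp Z F) (h : G) (x : X) : bCount Z F (h • x) = bCount Z F x := by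
  classical
  unfold bCount
  refine Finset.card_nbij' (fun g => h⁻¹ * g * h) (fun g => h * g * h⁻¹) ?_ ?_ ?_ ?_
  · intro g hg
    simp only [Finset.coe_filter, Set.mem_ofPred_eq, mem_nonZ] at hg ⊢
    refine ⟨?_, ?_, ?_⟩
    · have := conj_not_mem H h⁻¹ hg.1
      simpa using this
    · have : (h⁻¹ * g * h) • x = h⁻¹ • (g • h • x) := by simp [mul_smul]
      rw [this, hg.2.1]; simp
    · have := card_F_conj H h⁻¹ hg.1
      rw [inv_inv] at this
      rw [this, hg.2.2]
  · intro g hg
    simp only [Finset.coe_filter, Set.mem_ofPred_eq, mem_nonZ] at hg ⊢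
    refine ⟨conj_not_mem H h hg.1, ?_, ?_⟩
    · have : (h * g * h⁻¹) • h • x = h • (g • x) := by simp [mul_smul]
      rw [this, hg.2.1]
    · rw [card_F_conj H h hg.1, hg.2.2]
  · intro g _; simp only; group
  · intro g _; simp only; group

theorem Z_le_stabilizer (H : Hyp Z F) (x : X) : Z ≤ stabilizer G x :=
  fun z hz => mem_stabilizer_iff.2 (H.triv z hz x)

theorem aCount_add (H : Hyp Z F) (x : X) :
    aCount Z x + Nat.card Z = Nat.card (stabilizer G x) := by
  classical
  have h1 : Nat.card (stabilizer G x) = (Finset.univ.filter (fun g : G => g • x = x)).card := by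
    rw [Nat.card_eq_fintype_card, Fintype.card_subtype]
    rfl
  have h2 : Nat.card Z = (Finset.univ.filter (fun g : G => g ∈ Z)).card := by
    rw [Nat.card_eq_fintype_card, Fintype.card_subtype]
  have h3 : (Finset.univ.filter (fun g : G => g • x = x)) =
      ((nonZ Z).filter (fun g => g • x = x)) ∪ (Finset.univ.filter (fun g : G => g ∈ Z)) := by
    ext g
    simp only [Finset.mem_filter, Finset.mem_univ, true_and, Finset.mem_union, mem_nonZ]
    constructor
    · intro hg
      by_cases hz : g ∈ Z
      · exact Or.inr hz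
      · exact Or.inl ⟨hz, hg⟩
    · rintro (hg | hg)
      · exact hg.2
      · exact H.triv g hg x
  have h4 : Disjoint ((nonZ Z).filter (fun g => g • x = x))
      (Finset.univ.filter (fun g : G => g ∈ Z)) := by
    rw [Finset.disjoint_left]
    intro g hg hg'
    simp only [Finset.mem_filter, Finset.mem_univ, true_and, mem_nonZ] at hg hg'
    exact hg.1 hg'
  rw [h1, h2, h3, Finset.card_union_of_disjoint h4, aCount]

theorem mem_pts_iff (H : Hyp Z F) (x : X) : x ∈ pts Z F ↔ ∃ g, g ∉ Z ∧ g • x = x := by
  classical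
  simp only [pts, Finset.mem_biUnion, mem_nonZ]
  constructor
  · rintro ⟨g, hg, hx⟩
    exact ⟨g, hg, (H.memF g hg x).1 hx⟩
  · rintro ⟨g, hg, hx⟩
    exact ⟨g, hg, (H.memF g hg x).2 hx⟩

theorem smul_mem_pts (H : Hyp Z F) (h : G) {x : X} (hx : x ∈ pts Z F) : h • x ∈ pts Z F := by
  rw [mem_pts_iff H] at hx ⊢
  obtain ⟨g, hg, hgx⟩ := hx
  refine ⟨h * g * h⁻¹, conj_not_mem H h hg, ?_⟩
  have : (h * g * h⁻¹) • h • x = h • (g • x) := by simp [mul_smul]
  rw [this, hgx]

variable (G) in
/-- The orbit as a finset. -/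
noncomputable def orb (x : X) : Finset X := Finset.univ.image (fun g : G => g • x)

theorem mem_orb {x y : X} : y ∈ orb G x ↔ ∃ g : G, g • x = y := by
  simp [orb]

theorem coe_orb (x : X) : (orb G x : Set X) = orbit G x := by
  ext y
  rw [Finset.mem_coe, mem_orb, mem_orbit_iff]

theorem card_orb_mul (x : X) :
    (orb G x).card * Nat.card (stabilizer G x) = Fintype.card G := by
  have h1 := Subgroup.card_mul_index (stabilizer G x)
  rw [index_stabilizer, ← coe_orb, Set.ncard_coe_finset, Nat.card_eq_fintype_card (α := G)] at h1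
  rw [mul_comm, h1]

theorem sum_orb (f : X → ℕ) (hf : ∀ (h : G) (x : X), f (h • x) = f x) (x : X) :
    ∑ y ∈ orb G x, f y = (orb G x).card * f x := by
  rw [Finset.sum_congr rfl (g := fun _ => f x), Finset.sum_const, smul_eq_mul]
  intro y hy
  obtain ⟨g, rfl⟩ := mem_orb.1 hy
  exact hf g x

theorem orb_subset_pts (H : Hyp Z F) {x : X} (hx : x ∈ pts Z F) : orb G x ⊆ pts Z F := by
  intro y hy
  obtain ⟨g, rfl⟩ := mem_orb.1 hy
  exact smul_mem_pts H g hx

theorem orb_disjoint {x y : X} (hy : y ∉ orb G x) : Disjoint (orb G x) (orb G y) := by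
  rw [Finset.disjoint_left]
  intro w hw hw'
  obtain ⟨g, rfl⟩ := mem_orb.1 hw
  obtain ⟨g', hg'⟩ := mem_orb.1 hw'
  apply hy
  rw [mem_orb]
  exact ⟨g'⁻¹ * g, by rw [mul_smul, ← hg', inv_smul_smul]⟩

theorem self_mem_orb (x : X) : x ∈ orb G x := mem_orb.2 ⟨1, one_smul _ _⟩

/-- Multiplication by `Z` preserves the parabolic elements fixing `x`: if there is one, there are
at least `|Z|`. -/
theorem card_Z_le_bCount (H : Hyp Z F) (x : X) (hb : 0 < bCount Z F x) :
    Nat.card Z ≤ bCount Z F x := by
  classical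
  unfold bCount at hb ⊢
  obtain ⟨g, hg⟩ := Finset.card_pos.1 hb
  simp only [Finset.mem_filter, mem_nonZ] at hg
  rw [Nat.card_eq_fintype_card, ← Finset.card_univ]
  refine Finset.card_le_card_of_injOn (fun z : Z => (z : G) * g) ?_ ?_
  · intro z _
    simp only [Finset.coe_filter, Set.mem_ofPred_eq, mem_nonZ]
    have hzg : (z : G) * g ∉ Z := fun h => hg.1 (by simpa using Z.mul_mem (Z.inv_mem z.2) h)
    refine ⟨hzg, ?_, ?_⟩
    · rw [mul_smul, hg.2.1, H.triv z z.2]
    · have : F ((z : G) * g) = F g := by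
        ext y
        rw [H.memF _ hzg, H.memF _ hg.1, mul_smul, H.triv z z.2]
      rw [this, hg.2.2]
  · intro z _ z' _ h
    exact Subtype.ext (mul_right_cancel h)

theorem bCount_add (x₀ : X) (U : Subgroup G) (hZU : Z ≤ U)
    (hUB : U ≤ stabilizer G x₀)
    (hU : ∀ g ∈ stabilizer G x₀, g ∉ Z → (g ∈ U ↔ (F g).card = 1)) :
    bCount Z F x₀ + Nat.card Z = Nat.card U := by
  classical
  have h1 : Nat.card U = (Finset.univ.filter (fun g : G => g ∈ U)).card := by
    rw [Nat.card_eq_fintype_card, Fintype.card_subtype]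
  have h2 : Nat.card Z = (Finset.univ.filter (fun g : G => g ∈ Z)).card := by
    rw [Nat.card_eq_fintype_card, Fintype.card_subtype]
  have h3 : (Finset.univ.filter (fun g : G => g ∈ U)) =
      ((nonZ Z).filter (fun g => g • x₀ = x₀ ∧ (F g).card = 1)) ∪
        (Finset.univ.filter (fun g : G => g ∈ Z)) := by
    ext g
    simp only [Finset.mem_filter, Finset.mem_univ, true_and, Finset.mem_union, mem_nonZ]
    constructor
    · intro hg
      by_cases hz : g ∈ Z
      · exact Or.inr hz
      · have hgs := hUB hg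
        exact Or.inl ⟨hz, mem_stabilizer_iff.1 hgs, (hU g hgs hz).1 hg⟩
    · rintro (hg | hg)
      · exact (hU g (mem_stabilizer_iff.2 hg.2.1) hg.1).2 hg.2.2
      · exact hZU hg
  have h4 : Disjoint ((nonZ Z).filter (fun g => g • x₀ = x₀ ∧ (F g).card = 1))
      (Finset.univ.filter (fun g : G => g ∈ Z)) := by
    rw [Finset.disjoint_left]
    intro g hg hg'
    simp only [Finset.mem_filter, Finset.mem_univ, true_and, mem_nonZ] at hg hg'
    exact hg.1 hg'
  rw [h1, h2, h3, Finset.card_union_of_disjoint h4, bCount]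

/-- The orbit of `x₀` has at least `q + 1` elements. -/
theorem succ_le_card_orb (H : Hyp Z F) (x₀ : X) (U : Subgroup G) (hZU : Z ≤ U)
    (hUB : U ≤ stabilizer G x₀)
    (hU : ∀ g ∈ stabilizer G x₀, g ∉ Z → (g ∈ U ↔ (F g).card = 1))
    (q z : ℕ) (hz : Nat.card Z = z) (hq : Nat.card U = q * z)
    (hmove : ∃ g : G, g • x₀ ≠ x₀) : q + 1 ≤ (orb G x₀).card := by
  classical
  obtain ⟨g₁, hg₁⟩ := hmove
  set x₁ := g₁ • x₀ with hx₁
  have hzpos : 0 < z := by rw [← hz]; exact Nat.card_pos
  -- stabiliser of `x₁` in `U` is `Z`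
  have hstab : stabilizer U x₁ = Z.subgroupOf U := by
    ext u
    rw [mem_stabilizer_iff, Subgroup.mem_subgroupOf]
    show (u : G) • x₁ = x₁ ↔ _
    constructor
    · intro hu
      by_contra hz'
      have hcard : (F (u : G)).card = 1 := (hU _ (hUB u.2) hz').1 u.2
      have h0 : x₀ ∈ F (u : G) := (H.memF _ hz' x₀).2 (mem_stabilizer_iff.1 (hUB u.2))
      have h1 : x₁ ∈ F (u : G) := (H.memF _ hz' x₁).2 hu
      obtain ⟨w, hw⟩ := Finset.card_eq_one.1 hcard
      rw [hw, Finset.mem_singleton] at h0 h1
      exact hg₁ (h1.trans h0.symm)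
    · intro hu
      exact H.triv _ hu x₁
  have hcardO : (orbit U x₁).ncard = q := by
    have h1 := Subgroup.card_mul_index (stabilizer U x₁)
    rw [index_stabilizer, hstab, Nat.card_congr (Subgroup.subgroupOfEquivOfLe hZU).toEquiv, hz,
      hq, mul_comm] at h1
    exact Nat.eq_of_mul_eq_mul_right hzpos h1
  have hsub : orbit U x₁ ⊆ ((orb G x₀).erase x₀ : Finset X) := by
    rintro y ⟨u, rfl⟩
    rw [Finset.mem_coe, Finset.mem_erase]
    refine ⟨?_, mem_orb.2 ⟨(u : G) * g₁, by rw [mul_smul]; rfl⟩⟩
    intro h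
    apply hg₁
    have hu : (u : G) • x₀ = x₀ := mem_stabilizer_iff.1 (hUB u.2)
    have : (u : G) • x₁ = (u : G) • x₀ := by rw [hu]; exact h
    exact smul_left_cancel _ this
  have h2 := Set.ncard_le_ncard hsub (Finset.finite_toSet _)
  rw [hcardO, Set.ncard_coe_finset, Finset.card_erase_of_mem (self_mem_orb x₀)] at h2
  have : 0 < (orb G x₀).card := Finset.card_pos.2 ⟨x₀, self_mem_orb x₀⟩
  omega

/-- **The count.** -/
theorem count_main (H : Hyp Z F) (x₀ : X) (U : Subgroup G) (hZU : Z ≤ U)
    (hUB : U ≤ stabilizer G x₀)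
    (hU : ∀ g ∈ stabilizer G x₀, g ∉ Z → (g ∈ U ↔ (F g).card = 1))
    (q e z : ℕ) (hz : Nat.card Z = z) (hq : Nat.card U = q * z)
    (he : Nat.card (stabilizer G x₀) = q * e * z)
    (hmove : ∃ g : G, g • x₀ ≠ x₀) (hq3 : 2 < q) :
    q - 1 ≤ 2 * e ∧ ∀ x, 0 < bCount Z F x → x ∈ orb G x₀ := by
  classical
  have hzpos : 0 < z := by rw [← hz]; exact Nat.card_pos
  have hqez : 0 < q * e * z := by rw [← he]; exact Nat.card_pos
  have hepos : 0 < e := by
    rcases Nat.eq_zero_or_pos e with h | h
    · rw [h] at hqez; simp at hqez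
    · exact h
  set N := Fintype.card G with hN
  set ω := (orb G x₀).card with hωdef
  have hω : ω * (q * e * z) = N := by rw [← he]; exact card_orb_mul x₀
  have hωq : q + 1 ≤ ω := succ_le_card_orb H x₀ U hZU hUB hU q z hz hq hmove
  have ha0 : aCount Z x₀ + z = q * e * z := by
    have := aCount_add H x₀
    rw [hz, he] at this
    exact this
  have hb0 : bCount Z F x₀ + z = q * z := by
    have := bCount_add x₀ U hZU hUB hU
    rw [hz, hq] at this
    exact this
  have hapos : ∀ x, x ∈ pts Z F ↔ 0 < aCount Z x := by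
    intro x
    rw [mem_pts_iff H, aCount, Finset.card_pos]
    constructor
    · rintro ⟨g, hg, hgx⟩
      exact ⟨g, by simp [mem_nonZ, hg, hgx]⟩
    · rintro ⟨g, hg⟩
      simp only [Finset.mem_filter, mem_nonZ] at hg
      exact ⟨g, hg.1, hg.2⟩
  have hx₀ : x₀ ∈ pts Z F := by
    rw [hapos]
    have : z < q * e * z := by
      have : 1 * z < (q * e) * z := by
        apply Nat.mul_lt_mul_of_pos_right _ hzpos
        nlinarith
      simpa using this
    omega
  -- splitting the total
  set f : X → ℕ := fun x => aCount Z x + bCount Z F x with hf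
  have hfinv : ∀ (h : G) (x : X), f (h • x) = f x := by
    intro h x
    simp only [hf, aCount_smul H, bCount_smul H]
  set rest := pts Z F \ orb G x₀ with hrest
  have hsplit : ∑ x ∈ rest, f x + ∑ x ∈ orb G x₀, f x = ∑ x ∈ pts Z F, f x :=
    Finset.sum_sdiff (orb_subset_pts H hx₀)
  have htot : ∑ x ∈ pts Z F, f x = 2 * (nonZ Z).card := total H
  have hnonZ : (nonZ Z).card + z = N := by
    have := card_nonZ (Z := Z)
    rw [hz] at this
    exact this
  have horb : ∑ x ∈ orb G x₀, f x = ω * f x₀ := sum_orb f hfinv x₀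
  set R := ∑ x ∈ rest, f x with hRdef
  have hfx₀ : f x₀ + 2 * z = q * e * z + q * z := by simp only [hf]; omega
  have hR : R + ω * f x₀ + 2 * z = 2 * N := by
    rw [← horb, hsplit, htot]; omega
  -- `ω * f x₀ = N + ω * z * (q - 2)`
  have hωf : ω * f x₀ + 2 * ω * z = N + ω * q * z := by
    have : ω * (f x₀ + 2 * z) = ω * (q * e * z) + ω * (q * z) := by rw [hfx₀, mul_add]
    rw [hω] at this
    nlinarith
  -- per-orbit facts
  have key : ∀ x ∈ rest, orb G x ⊆ rest ∧ (orb G x).card * (aCount Z x + z) = N ∧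
      z ∣ aCount Z x + z ∧ 0 < aCount Z x := by
    intro x hx
    rw [hrest, Finset.mem_sdiff] at hx
    refine ⟨?_, ?_, ?_, (hapos x).1 hx.1⟩
    · intro y hy
      rw [hrest, Finset.mem_sdiff]
      refine ⟨orb_subset_pts H hx.1 hy, fun hy' => ?_⟩
      exact (Finset.disjoint_left.1 (orb_disjoint hx.2) hy') hy
    · have := aCount_add H x
      rw [hz] at this
      rw [this]; exact card_orb_mul x
    · have := aCount_add H x
      rw [hz] at this
      rw [this, ← hz]; exact Subgroup.card_dvd_of_le (Z_le_stabilizer H x)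
  have hsumorb : ∀ x ∈ rest, ∑ y ∈ orb G x, f y = (orb G x).card * f x :=
    fun x _ => sum_orb f hfinv x
  -- the contribution of an orbit is at least `N / 2`
  have hhalf : ∀ x ∈ rest, N ≤ 2 * ((orb G x).card * f x) := by
    intro x hx
    obtain ⟨-, h2, ⟨m, hm⟩, h4⟩ := key x hx
    have hm2 : 2 ≤ m := by
      rcases m with _ | _ | m
      · simp at hm; omega
      · simp at hm; omega
      · omega
    have : 2 * z ≤ aCount Z x + z := by rw [hm]; nlinarith
    have hfx : aCount Z x ≤ f x := by simp [hf]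
    have : aCount Z x + z ≤ 2 * aCount Z x := by omega
    calc N = (orb G x).card * (aCount Z x + z) := h2.symm
      _ ≤ (orb G x).card * (2 * f x) := by
          apply Nat.mul_le_mul_left; omega
      _ = 2 * ((orb G x).card * f x) := by ring
  have h2ω : 2 * ω * z ≤ ω * q * z := by
    have : ω * 2 * z ≤ ω * q * z :=
      Nat.mul_le_mul_right z (Nat.mul_le_mul_left ω (by omega))
    linarith
  have hRlt : R < N := by linarith
  -- wild points lie in the orbit of `x₀`
  have hwild : ∀ x, 0 < bCount Z F x → x ∈ orb G x₀ := by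
    intro x hbx
    by_contra hx'
    have hax : 0 < aCount Z x := by
      refine lt_of_lt_of_le hbx ?_
      unfold bCount aCount
      refine Finset.card_le_card ?_
      intro g hg
      rw [Finset.mem_filter] at hg ⊢
      exact ⟨hg.1, hg.2.1⟩
    have hxr : x ∈ rest := by
      rw [hrest, Finset.mem_sdiff]
      exact ⟨(hapos x).2 hax, hx'⟩
    obtain ⟨hsub, hcard, -, -⟩ := key x hxr
    have hRge : (orb G x).card * f x ≤ R := by
      rw [← hsumorb x hxr, hRdef]
      exact Finset.sum_le_sum_of_subset hsub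
    have hzb := card_Z_le_bCount H x hbx
    rw [hz] at hzb
    have : (orb G x).card * (aCount Z x + z) ≤ (orb G x).card * f x :=
      Nat.mul_le_mul_left _ (by simp only [hf]; omega)
    omega
  refine ⟨?_, hwild⟩
  -- `rest` is empty or a single orbit
  by_cases hne : rest = ∅
  · -- no other orbit: impossible
    exfalso
    have hR0 : R = 0 := by rw [hRdef, hne, Finset.sum_empty]
    -- `N + 2 ω z = 2 z + ω q z`, `N = ω q e z`
    have h1 : N + 2 * ω * z = 2 * z + ω * q * z := by linarith
    have h3 : ω * q * z ≤ ω * (q * e * z) := by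
      have : q * z ≤ q * e * z := by nlinarith
      calc ω * q * z = ω * (q * z) := by ring
        _ ≤ ω * (q * e * z) := Nat.mul_le_mul_left _ this
    have h4 : 2 * ω * z ≤ 2 * z := by linarith
    have h5 : ω ≤ 1 := by
      by_contra hcon
      push Not at hcon
      have : 2 * 2 * z ≤ 2 * ω * z :=
        Nat.mul_le_mul_right z (Nat.mul_le_mul_left 2 hcon)
      omega
    omega
  · obtain ⟨x, hx⟩ := Finset.nonempty_iff_ne_empty.2 hne
    obtain ⟨hsub, hcard, -, -⟩ := key x hx
    have hRge : (orb G x).card * f x ≤ R := by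
      rw [← hsumorb x hx, hRdef]
      exact Finset.sum_le_sum_of_subset hsub
    -- no second orbit
    have hall : rest = orb G x := by
      refine (Finset.Subset.antisymm hsub ?_).symm
      intro y hy
      by_contra hy'
      obtain ⟨hsuby, -, -, -⟩ := key y hy
      have hdisj := orb_disjoint hy'
      have hunion : orb G x ∪ orb G y ⊆ rest := Finset.union_subset hsub hsuby
      have h1 : ∑ w ∈ orb G x ∪ orb G y, f w ≤ R := by
        rw [hRdef]; exact Finset.sum_le_sum_of_subset hunion
      rw [Finset.sum_union hdisj, hsumorb x hx, hsumorb y hy] at h1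
      have := hhalf x hx
      have := hhalf y hy
      omega
    -- the orbit is tame
    have hb : bCount Z F x = 0 := by
      by_contra hb
      have hzb := card_Z_le_bCount H x (Nat.pos_of_ne_zero hb)
      rw [hz] at hzb
      have : (orb G x).card * (aCount Z x + z) ≤ (orb G x).card * f x :=
        Nat.mul_le_mul_left _ (by simp only [hf]; omega)
      omega
    have hReq : R = (orb G x).card * aCount Z x := by
      rw [hRdef, hall, hsumorb x hx]
      simp only [hf, hb, add_zero]
    -- arithmetic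
    set c := (orb G x).card with hc
    set a := aCount Z x with ha
    -- `c * (a + z) = N`, `R = c * a`, `R + ω f x₀ + 2 z = 2 N`
    have hcz : c * z + 2 * ω * z = 2 * z + ω * q * z := by
      have : c * (a + z) = c * a + c * z := mul_add _ _ _
      linarith
    have hcz' : c + 2 * ω = 2 + ω * q := by
      have : (c + 2 * ω) * z = (2 + ω * q) * z := by linarith
      exact Nat.eq_of_mul_eq_mul_right hzpos this
    obtain ⟨-, -, ⟨n, hn⟩, -⟩ := key x hx
    -- `N = c * n * z = ω q e z`
    have hNn : c * n = ω * (q * e) := by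
      have : (c * n) * z = (ω * (q * e)) * z := by
        calc (c * n) * z = c * (z * n) := by ring
          _ = c * (a + z) := by rw [hn]
          _ = N := hcard
          _ = ω * (q * e * z) := hω.symm
          _ = (ω * (q * e)) * z := by ring
      exact Nat.eq_of_mul_eq_mul_right hzpos this
    by_contra hcon
    push Not at hcon
    -- `2 e + 2 ≤ q`
    have hcon' : 2 * e + 2 ≤ q := by omega
    -- work in ℤ
    have hcZ : (c : ℤ) = 2 + ω * q - 2 * ω := by
      have := congrArg (fun t : ℕ => (t : ℤ)) hcz'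
      push_cast at this
      linarith
    have hNnZ : (c : ℤ) * n = ω * (q * e) := by exact_mod_cast hNn
    have hωZ : (q : ℤ) + 1 ≤ ω := by exact_mod_cast hωq
    have hqZ : (3 : ℤ) ≤ q := by exact_mod_cast hq3
    have heZ : (2 : ℤ) * e + 2 ≤ q := by exact_mod_cast hcon'
    have hepZ : (1 : ℤ) ≤ e := by exact_mod_cast hepos
    have hnZ : (0 : ℤ) ≤ n := by positivity
    -- `ω (q e - n (q - 2)) = 2 n`
    have hD : (ω : ℤ) * (q * e - n * (q - 2)) = 2 * n := by
      rw [hcZ] at hNnZ
      linarith
    have hnpos : (0 : ℤ) < n := by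
      rcases Nat.eq_zero_or_pos n with h | h
      · exfalso
        rw [h] at hNn
        have : 0 < ω * (q * e) := Nat.mul_pos (by omega) (Nat.mul_pos (by omega) hepos)
        omega
      · exact_mod_cast h
    have hDpos : (1 : ℤ) ≤ q * e - n * (q - 2) := by
      by_contra hlt
      push Not at hlt
      have : (q : ℤ) * e - n * (q - 2) ≤ 0 := by omega
      have hωpos : (0 : ℤ) < ω := by linarith
      nlinarith
    have h2n : (ω : ℤ) ≤ 2 * n := by nlinarith
    nlinarith

theorem sub_one_le_two_mul (H : Hyp Z F) (x₀ : X) (U : Subgroup G) (hZU : Z ≤ U)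
    (hUB : U ≤ stabilizer G x₀)
    (hU : ∀ g ∈ stabilizer G x₀, g ∉ Z → (g ∈ U ↔ (F g).card = 1))
    (q e z : ℕ) (hz : Nat.card Z = z) (hq : Nat.card U = q * z)
    (he : Nat.card (stabilizer G x₀) = q * e * z)
    (hmove : ∃ g : G, g • x₀ ≠ x₀) : q - 1 ≤ 2 * e := by
  have hqez : 0 < q * e * z := by rw [← he]; exact Nat.card_pos
  have hepos : 0 < e := by
    rcases Nat.eq_zero_or_pos e with h | h
    · rw [h] at hqez; simp at hqez
    · exact h
  by_cases hq3 : q ≤ 2
  · omega
  push Not at hq3
  exact (count_main H x₀ U hZU hUB hU q e z hz hq he hmove hq3).1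

end Fermat.Agent.TW.Count
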