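import Mathlib
import Fermat.Agent.TW.Sigma_helper1_Count
import Fermat.Agent.TW.Sigma_helper1_Borel

/-!
# "Dickson-lite" (helper1, S56 leaf C)

For a finite subgroup `H ≤ GL₂(K)` (`2 ≠ 0` in `K`, all discriminants of elements of `H` squares in
`K`) which does not fix `∞`, with `X = {g₀₁/g₀₀ : g ∈ H ∩ U}` and `Γ = {g₀₀/g₁₁ : g ∈ H ∩ B}`:
`|X| - 1 ≤ 2 |Γ|`, and (if `|X| > 2`) the fixed point of every parabolic element of `H` lies in
the `H`-orbit of `∞`.
-/

set_option autoImplicit false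
set_option linter.unusedSectionVars false

namespace Fermat.Agent.TW.Mob

open OnePoint Matrix MulAction

variable {K : Type*} [Field K] [DecidableEq K] (H : Subgroup (GL (Fin 2) K))

open Classical in
/-- The finset of fixed points of a non-scalar element. -/
noncomputable def fixF (h2 : (2 : K) ≠ 0) (hsq : ∀ h ∈ H, ∃ s : K, s * s = discr h) :
    H → Finset (OnePoint K) := fun h =>
  if hs : IsScalar (h : GL (Fin 2) K) then ∅
  else (exists_fixedFinset h2 (h : GL (Fin 2) K) hs _ (hsq h h.2).choose_spec).choose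

variable {H}

theorem fixF_spec (h2 : (2 : K) ≠ 0) (hsq : ∀ h ∈ H, ∃ s : K, s * s = discr h) (h : H)
    (hs : ¬ IsScalar (h : GL (Fin 2) K)) :
    (∀ x, x ∈ fixF H h2 hsq h ↔ (h : GL (Fin 2) K) • x = x) ∧
      (((fixF H h2 hsq h).card = 1 ∧ discr (h : GL (Fin 2) K) = 0) ∨
        ((fixF H h2 hsq h).card = 2 ∧ discr (h : GL (Fin 2) K) ≠ 0)) := by
  unfold fixF
  rw [dif_neg hs]
  exact (exists_fixedFinset h2 (h : GL (Fin 2) K) hs _ (hsq h h.2).choose_spec).choose_spec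

theorem card_fixF_eq_one_iff (h2 : (2 : K) ≠ 0) (hsq : ∀ h ∈ H, ∃ s : K, s * s = discr h) (h : H)
    (hs : ¬ IsScalar (h : GL (Fin 2) K)) :
    (fixF H h2 hsq h).card = 1 ↔ discr (h : GL (Fin 2) K) = 0 := by
  rcases (fixF_spec h2 hsq h hs).2 with ⟨h1, h0⟩ | ⟨h1, h0⟩
  · exact ⟨fun _ => h0, fun _ => h1⟩
  · constructor
    · intro h'; omega
    · intro h'; exact absurd h' h0

theorem hyp_fixF (h2 : (2 : K) ≠ 0) (hsq : ∀ h ∈ H, ∃ s : K, s * s = discr h) :
    Count.Hyp ((Sgl K).subgroupOf H) (fixF H h2 hsq) where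
  central := by
    intro z hz g
    apply Subtype.ext
    exact mul_comm_of_mem_Sgl (Subgroup.mem_subgroupOf.1 hz) g
  triv := by
    intro z hz x
    exact isScalar_smul (Subgroup.mem_subgroupOf.1 hz) x
  memF := by
    intro g hg x
    exact (fixF_spec h2 hsq g (fun hs => hg (Subgroup.mem_subgroupOf.2 hs))).1 x
  cardF := by
    intro g hg
    rcases (fixF_spec h2 hsq g (fun hs => hg (Subgroup.mem_subgroupOf.2 hs))).2 with h | h
    · exact Or.inl h.1
    · exact Or.inr h.1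

theorem stabilizer_infty : stabilizer H (∞ : OnePoint K) = (Bgl K).subgroupOf H := by
  ext h
  rw [mem_stabilizer_iff, Subgroup.mem_subgroupOf, mem_Bgl]
  exact smul_infty_eq_self_iff

theorem discr_of_upper {g : GL (Fin 2) K} (hg : g 1 0 = 0) : discr g = (g 0 0 - g 1 1) ^ 2 := by
  rw [discr, hg, mul_zero, add_zero]

variable (H)

/-- **Dickson-lite**, main statement. -/
theorem dickson_main [Finite H] (h2 : (2 : K) ≠ 0) (hsq : ∀ h ∈ H, ∃ s : K, s * s = discr h)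
    (hmove : ∃ h ∈ H, h 1 0 ≠ 0) (hq3 : 2 < Nat.card (XH H)) :
    Nat.card (XH H) - 1 ≤ 2 * Nat.card (GammaH H) ∧
      ∀ g ∈ H, ¬ IsScalar g → discr g = 0 → ∀ x : OnePoint K, g • x = x →
        ∃ h ∈ H, h • (∞ : OnePoint K) = x := by
  classical
  have : Fintype H := Fintype.ofFinite H
  have hH := hyp_fixF (H := H) h2 hsq
  set Z : Subgroup H := (Sgl K).subgroupOf H with hZ
  set U : Subgroup H := (Ugl K).subgroupOf H with hU
  have hZU : Z ≤ U := fun g hg => Subgroup.mem_subgroupOf.2 (Sgl_le_Ugl (Subgroup.mem_subgroupOf.1 hg))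
  have hUB : U ≤ stabilizer H (∞ : OnePoint K) := by
    rw [stabilizer_infty]
    exact fun g hg => Subgroup.mem_subgroupOf.2 (Ugl_le_Bgl (Subgroup.mem_subgroupOf.1 hg))
  have hUiff : ∀ g ∈ stabilizer H (∞ : OnePoint K), g ∉ Z →
      (g ∈ U ↔ (fixF H h2 hsq g).card = 1) := by
    intro g hg hgZ
    rw [stabilizer_infty, Subgroup.mem_subgroupOf, mem_Bgl] at hg
    have hs : ¬ IsScalar (g : GL (Fin 2) K) := fun hs => hgZ (Subgroup.mem_subgroupOf.2 hs)
    rw [card_fixF_eq_one_iff h2 hsq g hs, discr_of_upper hg, Subgroup.mem_subgroupOf, mem_Ugl]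
    constructor
    · rintro ⟨-, h⟩
      rw [h, sub_self]; ring
    · intro h
      exact ⟨hg, sub_eq_zero.1 ((pow_eq_zero_iff (two_ne_zero)).1 h)⟩
  set z := Nat.card ↥(H ⊓ Sgl K) with hz
  have hcZ : Nat.card Z = z := card_subgroupOf (Sgl K)
  have hcU : Nat.card U = Nat.card (XH H) * z := by
    rw [hU, card_subgroupOf, card_inf_Ugl, mul_comm]
  have hcB : Nat.card (stabilizer H (∞ : OnePoint K)) =
      Nat.card (XH H) * Nat.card (GammaH H) * z := by
    rw [stabilizer_infty, card_subgroupOf, card_inf_Bgl, card_inf_Ugl]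
    ring
  have hmove' : ∃ g : H, g • (∞ : OnePoint K) ≠ ∞ := by
    obtain ⟨h, hh, h10⟩ := hmove
    refine ⟨⟨h, hh⟩, ?_⟩
    show h • (∞ : OnePoint K) ≠ ∞
    rw [Ne, smul_infty_eq_self_iff]
    exact h10
  obtain ⟨h1, hwild⟩ := Count.count_main hH (∞ : OnePoint K) U hZU hUB hUiff _ _ z hcZ hcU hcB
    hmove' hq3
  refine ⟨h1, ?_⟩
  intro g hgH hgs hgd x hx
  have hb : 0 < Count.bCount Z (fixF H h2 hsq) x := by
    unfold Count.bCount
    rw [Finset.card_pos]
    refine ⟨⟨g, hgH⟩, ?_⟩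
    rw [Finset.mem_filter, Count.mem_nonZ]
    refine ⟨fun hz => hgs (Subgroup.mem_subgroupOf.1 hz), hx, ?_⟩
    exact (card_fixF_eq_one_iff h2 hsq ⟨g, hgH⟩ hgs).2 hgd
  obtain ⟨h, hh⟩ := Count.mem_orb.1 (hwild x hb)
  exact ⟨h.1, h.2, hh⟩

end Fermat.Agent.TW.Mob
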