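import Mathlib
import Fermat.Agent.TW.Sigma_helper1_Dickson

/-!
# `X` is a line over the ring generated by `Γ` (helper1, S56 leaf C)

With `X = XH H`, `Γ = GammaH H` as in `Sigma_helper1_Borel`: `Γ · X ⊆ X`, and under the hypotheses
of `dickson_main`, `X = A · x₁` for every `0 ≠ x₁ ∈ X`, where `A` is the additive subgroup of `K`
generated by `Γ`.
-/

set_option autoImplicit false
set_option linter.unusedSectionVars false

namespace Fermat.Agent.TW.Mob

open OnePoint Matrix MulAction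

variable {K : Type*} [Field K] [DecidableEq K]

/-- Conjugation of an arbitrary matrix by an upper triangular one, entrywise. -/
theorem conj_upper (t : GL (Fin 2) K) (ht : t 1 0 = 0) (m : Matrix (Fin 2) (Fin 2) K) :
    (t.val * m * (t⁻¹ : GL (Fin 2) K).val) 0 0 = m 0 0 + t 0 1 / t 0 0 * m 1 0 ∧
    (t.val * m * (t⁻¹ : GL (Fin 2) K).val) 0 1 =
      t 0 0 / t 1 1 * m 0 1 + t 0 1 / t 1 1 * (m 1 1 - m 0 0) -
        t 0 1 ^ 2 / (t 0 0 * t 1 1) * m 1 0 ∧
    (t.val * m * (t⁻¹ : GL (Fin 2) K).val) 1 0 = t 1 1 / t 0 0 * m 1 0 ∧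
    (t.val * m * (t⁻¹ : GL (Fin 2) K).val) 1 1 = m 1 1 - t 0 1 / t 0 0 * m 1 0 := by
  obtain ⟨h00, h11⟩ := diag_ne_zero ht
  obtain ⟨i00, i01, i10, i11⟩ := inv_entries t
  have hdet := det_of_mem_Bgl ht
  simp only [Matrix.mul_apply, Fin.sum_univ_two, i00, i01, i10, i11, hdet, ht]
  refine ⟨?_, ?_, ?_, ?_⟩ <;> field_simp <;> ring

variable {H : Subgroup (GL (Fin 2) K)}

/-- `Γ · X ⊆ X`. -/
theorem mul_mem_XH {t : Kˣ} (ht : t ∈ GammaH H) {x : K} (hx : x ∈ XH H) :
    (t : K) * x ∈ XH H := by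
  obtain ⟨b, hbH, hb, htb⟩ := mem_GammaH.1 ht
  obtain ⟨g, hgH, hg, hg', hxg⟩ := mem_XH.1 hx
  rw [mem_XH]
  refine ⟨b * g * b⁻¹, H.mul_mem (H.mul_mem hbH hgH) (H.inv_mem hbH), ?_⟩
  obtain ⟨c00, c01, c10, c11⟩ := conj_upper b hb g.val
  have hval : ((b * g * b⁻¹ : GL (Fin 2) K) : Matrix (Fin 2) (Fin 2) K) =
      b.val * g.val * (b⁻¹ : GL (Fin 2) K).val := by
    simp
  have e00 : (b * g * b⁻¹ : GL (Fin 2) K) 0 0 = g 0 0 := by
    rw [hval, c00, hg, mul_zero, add_zero]
  have e01 : (b * g * b⁻¹ : GL (Fin 2) K) 0 1 = b 0 0 / b 1 1 * g 0 1 := by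
    rw [hval, c01, hg, hg', sub_self, mul_zero, mul_zero, add_zero, sub_zero]
  have e10 : (b * g * b⁻¹ : GL (Fin 2) K) 1 0 = 0 := by
    rw [hval, c10, hg, mul_zero]
  have e11 : (b * g * b⁻¹ : GL (Fin 2) K) 1 1 = g 1 1 := by
    rw [hval, c11, hg, mul_zero, sub_zero]
  refine ⟨e10, by rw [e00, e11, hg'], ?_⟩
  rw [e00, e01, htb, hxg, mul_div_assoc]

variable (H)

/-- The additive subgroup of `K` generated by `Γ`. -/
noncomputable def AH : AddSubgroup K :=
  AddSubgroup.closure ((fun t : Kˣ => (t : K)) '' (GammaH H : Set Kˣ))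

variable {H}

theorem coe_mem_AH {t : Kˣ} (ht : t ∈ GammaH H) : (t : K) ∈ AH H :=
  AddSubgroup.subset_closure ⟨t, ht, rfl⟩

/-- `A · X ⊆ X`. -/
theorem AH_mul_mem_XH {ξ : K} (hξ : ξ ∈ AH H) {x : K} (hx : x ∈ XH H) : ξ * x ∈ XH H := by
  unfold AH at hξ
  induction hξ using AddSubgroup.closure_induction with
  | mem y hy =>
    obtain ⟨t, ht, rfl⟩ := hy
    exact mul_mem_XH ht hx
  | zero => rw [zero_mul]; exact (XH H).zero_mem
  | add y z _ _ hy hz => rw [add_mul]; exact (XH H).add_mem hy hz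
  | neg y _ hy => rw [neg_mul]; exact (XH H).neg_mem hy

variable (H)

/-- **`X` is a line over `A`.** -/
theorem XH_eq_AH_mul [Finite H] (h2 : (2 : K) ≠ 0) (hsq : ∀ h ∈ H, ∃ s : K, s * s = discr h)
    (hmove : ∃ h ∈ H, h 1 0 ≠ 0) {x₁ : K} (hx₁ : x₁ ∈ XH H) (hx₁0 : x₁ ≠ 0) {x : K}
    (hx : x ∈ XH H) : ∃ ξ ∈ AH H, x = ξ * x₁ := by
  classical
  -- finiteness of `X`
  have hfinU : Finite ↥(H ⊓ Ugl K) :=
    Finite.of_injective (fun g : ↥(H ⊓ Ugl K) => (⟨g.1, g.2.1⟩ : H))
      (fun a b h => Subtype.ext (congrArg (fun t : H => (t : GL (Fin 2) K)) h))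
  have hfinR : Finite (nuH H).range :=
    Finite.of_surjective (nuH H).rangeRestrict (nuH H).rangeRestrict_surjective
  have hfinX : Finite (XH H) :=
    Finite.of_injective (fun x : XH H => (⟨Multiplicative.ofAdd (x : K), x.2⟩ : (nuH H).range))
      (fun a b h => Subtype.ext (congrArg (fun t : (nuH H).range =>
        Multiplicative.toAdd (t : Multiplicative K)) h))
  -- the subgroup `A x₁` of `X`
  set f : K →+ K := AddMonoidHom.mulRight x₁ with hf
  have hfinj : Function.Injective f := fun a b h => mul_right_cancel₀ hx₁0 h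
  set Ax : AddSubgroup K := (AH H).map f with hAx
  have hAxle : Ax ≤ XH H := by
    rintro _ ⟨ξ, hξ, rfl⟩
    exact AH_mul_mem_XH hξ hx₁
  have hcardAx : Nat.card Ax = Nat.card (AH H) := AddSubgroup.card_map_of_injective hfinj
  have hfinAx : Finite Ax := Finite.of_injective (AddSubgroup.inclusion hAxle)
    (AddSubgroup.inclusion_injective hAxle)
  have hfinA : Finite (AH H) :=
    Finite.of_injective (fun ξ : AH H => (⟨f ξ, ⟨ξ, ξ.2, rfl⟩⟩ : Ax))
      (fun a b h => Subtype.ext (hfinj (congrArg (fun t : Ax => (t : K)) h)))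
  -- `|Γ| + 1 ≤ |A|`
  have hfinΓ : Finite (GammaH H) :=
    Finite.of_injective (fun t : GammaH H => (⟨(t : Kˣ), coe_mem_AH t.2⟩ : AH H))
      (fun a b h => Subtype.ext (Units.ext (congrArg (fun t : AH H => (t : K)) h)))
  have hΓA : Nat.card (GammaH H) + 1 ≤ Nat.card (AH H) := by
    let φ : Option (GammaH H) → AH H := fun o =>
      Option.elim o 0 (fun t => ⟨(t : Kˣ), coe_mem_AH t.2⟩)
    have hφ : Function.Injective φ := by
      intro a b h
      have h' : ((φ a : AH H) : K) = ((φ b : AH H) : K) := congrArg _ h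
      cases a with
      | none =>
        cases b with
        | none => rfl
        | some t =>
          exfalso
          exact (Units.ne_zero (t : Kˣ)) h'.symm
      | some s =>
        cases b with
        | none =>
          exfalso
          exact (Units.ne_zero (s : Kˣ)) h'
        | some t =>
          exact congrArg Option.some (Subtype.ext (Units.ext h'))
    have := Nat.card_le_card_of_injective φ hφ
    rwa [Finite.card_option] at this
  -- the count
  have hdvd : Nat.card Ax ∣ Nat.card (XH H) := AddSubgroup.card_dvd_of_le hAxle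
  have hXpos : 0 < Nat.card (XH H) := Nat.card_pos
  have hmain : Nat.card (XH H) - 1 ≤ 2 * Nat.card (GammaH H) := by
    by_cases hq3 : 2 < Nat.card (XH H)
    · exact (dickson_main H h2 hsq hmove hq3).1
    · have : 0 < Nat.card (GammaH H) := Nat.card_pos
      omega
  have heq : Nat.card Ax = Nat.card (XH H) := by
    obtain ⟨m, hm⟩ := hdvd
    rw [hcardAx] at hm
    rcases m with _ | _ | m
    · omega
    · rw [hcardAx]; omega
    · exfalso
      have h3 : Nat.card (XH H) = Nat.card (AH H) * (m + 2) := hm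
      have h4 : 2 * Nat.card (AH H) ≤ Nat.card (XH H) := by rw [h3]; nlinarith
      omega
  have htop : Ax = XH H := by
    have h1 : (Ax.addSubgroupOf (XH H)) = ⊤ := by
      apply AddSubgroup.eq_top_of_card_eq
      rw [Nat.card_congr (AddSubgroup.addSubgroupOfEquivOfLe hAxle).toEquiv, heq]
    apply le_antisymm hAxle
    intro y hy
    have : (⟨y, hy⟩ : XH H) ∈ Ax.addSubgroupOf (XH H) := by rw [h1]; trivial
    exact AddSubgroup.mem_addSubgroupOf.1 this
  rw [← htop] at hx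
  obtain ⟨ξ, hξ, rfl⟩ := hx
  exact ⟨ξ, hξ, rfl⟩

end Fermat.Agent.TW.Mob
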