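import Mathlib
import Fermat.Agent.TW.Sigma_helper1_Line

/-!
# Non-trivial scalars in irreducible subgroups with wild ramification (helper1, S56 leaf C)

`exists_scalar_of_det`: let `H ≤ GL₂(K)` be finite, `char K = p` odd, all discriminants squares,
`H` not contained in the Borel subgroup, `u ∈ H` a non-trivial upper unipotent element, and
`h₀ ∈ H` with `det(h₀)² ≠ 1`.  Then `H` contains a scalar matrix `z` with `det z ≠ 1`.
-/

set_option autoImplicit false
set_option linter.unusedSectionVars false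

namespace Fermat.Agent.TW.Mob

open OnePoint Matrix MulAction

variable {K : Type*} [Field K] [DecidableEq K]

variable (K) in
/-- Elements of determinant one. -/
def SLk : Subgroup (GL (Fin 2) K) := (Matrix.GeneralLinearGroup.det (n := Fin 2) (R := K)).ker

theorem mem_SLk {g : GL (Fin 2) K} : g ∈ SLk K ↔ g.val.det = 1 := by
  rw [SLk, MonoidHom.mem_ker]
  constructor
  · intro h
    have := congrArg Units.val h
    simpa using this
  · intro h
    apply Units.ext
    simpa using h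

theorem det_conj (h g : GL (Fin 2) K) : (h * g * h⁻¹).val.det = g.val.det := by
  have : (h * g * h⁻¹ : GL (Fin 2) K).val = h.val * g.val * (h⁻¹ : GL (Fin 2) K).val := by simp
  rw [this, Matrix.det_units_conj]

theorem trace_conj (h g : GL (Fin 2) K) : (h * g * h⁻¹).val.trace = g.val.trace := by
  have : (h * g * h⁻¹ : GL (Fin 2) K).val = h.val * g.val * (h⁻¹ : GL (Fin 2) K).val := by simp
  rw [this, Matrix.trace_units_conj]

theorem discr_eq (g : GL (Fin 2) K) : discr g = g.val.trace ^ 2 - 4 * g.val.det := by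
  rw [discr, Matrix.trace_fin_two, Matrix.det_fin_two]
  ring

theorem discr_conj (h g : GL (Fin 2) K) : discr (h * g * h⁻¹) = discr g := by
  rw [discr_eq, discr_eq, det_conj, trace_conj]

theorem conj_mem_SLk (h : GL (Fin 2) K) {g : GL (Fin 2) K} (hg : g ∈ SLk K) :
    h * g * h⁻¹ ∈ SLk K := by
  rw [mem_SLk] at hg ⊢
  rw [det_conj, hg]

/-- A parabolic upper triangular element fixes only `∞`. -/
theorem eq_infty_of_parabolic {u : GL (Fin 2) K} (h10 : u 1 0 = 0) (h00 : u 0 0 = u 1 1)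
    (h01 : u 0 1 ≠ 0) {x : OnePoint K} (hx : u • x = x) : x = ∞ := by
  cases x with
  | infty => rfl
  | coe c =>
    exfalso
    rw [smul_coe_eq_iff, h10, h00] at hx
    apply h01
    linear_combination -hx

theorem not_isScalar_conj (h : GL (Fin 2) K) {g : GL (Fin 2) K} (hg : ¬ IsScalar g) :
    ¬ IsScalar (h * g * h⁻¹) := by
  intro hs
  apply hg
  have h1 : h⁻¹ * (h * g * h⁻¹) * h = g := by group
  have h2 := mul_comm_of_mem_Sgl (mem_Sgl.2 hs) h⁻¹
  rw [← h1, h2, inv_mul_cancel_right]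
  exact hs

theorem finite_XH (H : Subgroup (GL (Fin 2) K)) [Finite H] : Finite (XH H) := by
  have hfinU : Finite ↥(H ⊓ Ugl K) :=
    Finite.of_injective (fun g : ↥(H ⊓ Ugl K) => (⟨g.1, g.2.1⟩ : H))
      (fun a b h => Subtype.ext (congrArg (fun t : H => (t : GL (Fin 2) K)) h))
  have hfinR : Finite (nuH H).range :=
    Finite.of_surjective (nuH H).rangeRestrict (nuH H).rangeRestrict_surjective
  exact Finite.of_injective (fun x : XH H => (⟨Multiplicative.ofAdd (x : K), x.2⟩ : (nuH H).range))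
      (fun a b h => Subtype.ext (congrArg (fun t : (nuH H).range =>
        Multiplicative.toAdd (t : Multiplicative K)) h))

theorem finite_GammaH (H : Subgroup (GL (Fin 2) K)) [Finite H] : Finite (GammaH H) := by
  have hfinB : Finite ↥(H ⊓ Bgl K) :=
    Finite.of_injective (fun g : ↥(H ⊓ Bgl K) => (⟨g.1, g.2.1⟩ : H))
      (fun a b h => Subtype.ext (congrArg (fun t : H => (t : GL (Fin 2) K)) h))
  exact Finite.of_surjective (tauH H).rangeRestrict (tauH H).rangeRestrict_surjective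

/-- `Γ(H) · X(H') ⊆ X(H')` when `H` normalises `H'`. -/
theorem mul_mem_XH_of_normal {H H' : Subgroup (GL (Fin 2) K)}
    (hnorm : ∀ b ∈ H, ∀ g ∈ H', b * g * b⁻¹ ∈ H') {t : Kˣ} (ht : t ∈ GammaH H) {x : K}
    (hx : x ∈ XH H') : (t : K) * x ∈ XH H' := by
  obtain ⟨b, hbH, hb, htb⟩ := mem_GammaH.1 ht
  obtain ⟨g, hgH, hg, hg', hxg⟩ := mem_XH.1 hx
  rw [mem_XH]
  refine ⟨b * g * b⁻¹, hnorm b hbH g hgH, ?_⟩
  obtain ⟨c00, c01, c10, c11⟩ := conj_upper b hb g.val
  have hval : ((b * g * b⁻¹ : GL (Fin 2) K) : Matrix (Fin 2) (Fin 2) K) =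
      b.val * g.val * (b⁻¹ : GL (Fin 2) K).val := by
    simp
  have e00 : (b * g * b⁻¹ : GL (Fin 2) K) 0 0 = g 0 0 := by
    rw [hval, c00, hg, mul_zero, add_zero]
  have e01 : (b * g * b⁻¹ : GL (Fin 2) K) 0 1 = b 0 0 / b 1 1 * g 0 1 := by
    rw [hval, c01, hg, hg', sub_self, mul_zero, mul_zero, add_zero, sub_zero]
  have e10 : (b * g * b⁻¹ : GL (Fin 2) K) 1 0 = 0 := by
    rw [hval, c10, hg, mul_zero]
  have e11 : (b * g * b⁻¹ : GL (Fin 2) K) 1 1 = g 1 1 := by
    rw [hval, c11, hg, mul_zero, sub_zero]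
  refine ⟨e10, by rw [e00, e11, hg'], ?_⟩
  rw [e00, e01, htb, hxg, mul_div_assoc]

/-- `|Γ(H)| + 1 ≤ |X(H')|` when `H` normalises `H'` and `X(H') ≠ 0`. -/
theorem card_GammaH_succ_le {H H' : Subgroup (GL (Fin 2) K)} [Finite H']
    (hnorm : ∀ b ∈ H, ∀ g ∈ H', b * g * b⁻¹ ∈ H') {x₁ : K} (hx₁ : x₁ ∈ XH H') (hx₁0 : x₁ ≠ 0) :
    Nat.card (GammaH H) + 1 ≤ Nat.card (XH H') := by
  have := finite_XH H'
  let φ : Option (GammaH H) → XH H' := fun o =>
    Option.elim o 0 (fun t => ⟨((t : Kˣ) : K) * x₁, mul_mem_XH_of_normal hnorm t.2 hx₁⟩)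
  have hφ : Function.Injective φ := by
    intro a b h
    have h' : ((φ a : XH H') : K) = ((φ b : XH H') : K) := congrArg _ h
    cases a with
    | none =>
      cases b with
      | none => rfl
      | some t =>
        exfalso
        exact (mul_ne_zero (Units.ne_zero (t : Kˣ)) hx₁0) h'.symm
    | some s =>
      cases b with
      | none =>
        exfalso
        exact (mul_ne_zero (Units.ne_zero (s : Kˣ)) hx₁0) h'
      | some t =>
        exact congrArg Option.some (Subtype.ext (Units.ext (mul_right_cancel₀ hx₁0 h')))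
  have hfin : Finite (Option (GammaH H)) := Finite.of_injective φ hφ
  have : Finite (GammaH H) := Finite.of_injective (fun t => (Option.some t : Option (GammaH H)))
    (fun a b h => Option.some_injective _ h)
  have := Nat.card_le_card_of_injective φ hφ
  rwa [Finite.card_option] at this

theorem GammaH_mono {H H' : Subgroup (GL (Fin 2) K)} (hle : H' ≤ H) : GammaH H' ≤ GammaH H := by
  intro t ht
  obtain ⟨g, hg, h10, h⟩ := mem_GammaH.1 ht
  exact mem_GammaH.2 ⟨g, hle hg, h10, h⟩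

/-- In a finite commutative group, a subgroup of at least half the order contains all squares. -/
theorem sq_mem_of_card_le {G : Type*} [Group G] (A B : Subgroup G) [Finite B] (hle : A ≤ B)
    (hcard : Nat.card B ≤ 2 * Nat.card A) {t : G} (ht : t ∈ B) : t ^ 2 ∈ A := by
  have hfinA : Finite A := Finite.of_injective (Subgroup.inclusion hle)
    (Subgroup.inclusion_injective hle)
  have h1 := Subgroup.card_mul_index (A.subgroupOf B)
  rw [Nat.card_congr (Subgroup.subgroupOfEquivOfLe hle).toEquiv] at h1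
  have hApos : 0 < Nat.card A := Nat.card_pos
  have hidx : (A.subgroupOf B).index ≤ 2 := by
    by_contra hcon
    have : 3 ≤ (A.subgroupOf B).index := by omega
    have : Nat.card A * 3 ≤ Nat.card A * (A.subgroupOf B).index := Nat.mul_le_mul_left _ this
    omega
  have hidx0 : (A.subgroupOf B).index ≠ 0 := Subgroup.index_ne_zero_of_finite
  have hcases : (A.subgroupOf B).index = 1 ∨ (A.subgroupOf B).index = 2 := by omega
  rcases hcases with h | h
  · rw [Subgroup.index_eq_one] at h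
    have : (⟨t, ht⟩ : B) ∈ A.subgroupOf B := by rw [h]; exact Subgroup.mem_top _
    exact A.pow_mem (Subgroup.mem_subgroupOf.1 this) 2
  · have := Subgroup.sq_mem_of_index_two h (⟨t, ht⟩ : B)
    exact Subgroup.mem_subgroupOf.1 this

section Main

/-- The `p`-th power of an element of `H ∩ U` is a scalar. -/
theorem pow_char_mem_Sgl (p : ℕ) [Fact p.Prime] [CharP K p] {H : Subgroup (GL (Fin 2) K)} {g : GL (Fin 2) K} (hgH : g ∈ H)
    (hg : g ∈ Ugl K) : g ^ p ∈ H ⊓ Sgl K := by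
  let gg : ↥(H ⊓ Ugl K) := ⟨g, hgH, hg⟩
  have h1 : nuH H (gg ^ p) = 1 := by
    rw [map_pow]
    apply Multiplicative.toAdd.injective
    rw [toAdd_pow, nsmul_eq_mul, CharP.cast_eq_zero, zero_mul]
    rfl
  have h2 : gg ^ p ∈ (nuH H).ker := h1
  rw [ker_nuH, Subgroup.mem_subgroupOf] at h2
  exact h2

theorem exists_scalar_of_det (p : ℕ) [Fact p.Prime] [CharP K p]
    (H : Subgroup (GL (Fin 2) K)) [Finite H] (h2 : (2 : K) ≠ 0)
    (hsq : ∀ h ∈ H, ∃ s : K, s * s = discr h) (hmove : ∃ h ∈ H, h 1 0 ≠ 0)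
    {u : GL (Fin 2) K} (huH : u ∈ H) (hu10 : u 1 0 = 0) (hu00 : u 0 0 = 1) (hu11 : u 1 1 = 1)
    (hu01 : u 0 1 ≠ 0) {h₀ : GL (Fin 2) K} (hh₀ : h₀ ∈ H) (hdet : h₀.val.det ^ 2 ≠ 1) :
    ∃ z ∈ H, IsScalar z ∧ z.val.det ≠ 1 := by
  classical
  -- the determinant-one subgroup
  set H₁ : Subgroup (GL (Fin 2) K) := H ⊓ SLk K with hH₁
  have hle : H₁ ≤ H := inf_le_left
  have hfin₁ : Finite H₁ := Finite.of_injective (Subgroup.inclusion hle)
    (Subgroup.inclusion_injective hle)
  have hnorm : ∀ b ∈ H, ∀ g ∈ H₁, b * g * b⁻¹ ∈ H₁ := fun b hb g hg =>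
    ⟨H.mul_mem (H.mul_mem hb hg.1) (H.inv_mem hb), conj_mem_SLk b hg.2⟩
  have hudet : u.val.det = 1 := by
    rw [det_of_mem_Bgl hu10, hu00, hu11, mul_one]
  have hu₁ : u ∈ H₁ := ⟨huH, mem_SLk.2 hudet⟩
  have hus : ¬ IsScalar u := fun hs => hu01 hs.1
  have hud : discr u = 0 := by
    rw [discr_of_upper hu10, hu00, hu11, sub_self]; ring
  -- `H₁` moves `∞`
  have hmove₁ : ∃ h ∈ H₁, h 1 0 ≠ 0 := by
    obtain ⟨h, hh, h10⟩ := hmove
    refine ⟨h * u * h⁻¹, hnorm h hh u hu₁, fun hcon => ?_⟩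
    have hfix : (h * u * h⁻¹) • (∞ : OnePoint K) = ∞ := smul_infty_eq_self_iff.2 hcon
    have hfix' : u • (h⁻¹ • (∞ : OnePoint K)) = h⁻¹ • (∞ : OnePoint K) := by
      have := congrArg (fun x => h⁻¹ • x) hfix
      simp only [mul_smul, inv_smul_smul] at this
      exact this
    have h3 := eq_infty_of_parabolic hu10 (hu00.trans hu11.symm) hu01 hfix'
    have h4 : h • (∞ : OnePoint K) = ∞ := by
      have := congrArg (fun x => h • x) h3
      simp only [smul_inv_smul] at this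
      exact this.symm
    exact h10 (smul_infty_eq_self_iff.1 h4)
  -- `x₁ ∈ X(H₁)`
  have hx₁ : u 0 1 ∈ XH H₁ := mem_XH.2 ⟨u, hu₁, hu10, hu00.trans hu11.symm, by rw [hu00, div_one]⟩
  have hfinX := finite_XH H₁
  have hq3 : 2 < Nat.card (XH H₁) := by
    set x : XH H₁ := ⟨u 0 1, hx₁⟩ with hx
    have hne1 : x ≠ 0 := fun h => hu01 (congrArg Subtype.val h)
    have hne2 : -x ≠ 0 := neg_ne_zero.2 hne1
    have hne3 : x ≠ -x := by
      intro h
      have h' : u 0 1 = -u 0 1 := congrArg Subtype.val h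
      have h'' : 2 * u 0 1 = 0 := by linear_combination h'
      exact hu01 ((mul_eq_zero.1 h'').resolve_left h2)
    let f : Fin 3 → XH H₁ := ![0, x, -x]
    have hf : Function.Injective f := by
      intro a b hab
      fin_cases a <;> fin_cases b <;> first
        | rfl
        | (exfalso
           simp only [f] at hab
           first
             | exact hne1 hab
             | exact hne1 hab.symm
             | exact hne2 hab
             | exact hne2 hab.symm
             | exact hne3 hab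
             | exact hne3 hab.symm)
    have := Nat.card_le_card_of_injective f hf
    simp only [Nat.card_eq_fintype_card, Fintype.card_fin] at this
    omega
  obtain ⟨hcount, hwild⟩ := dickson_main H₁ h2 (fun h hh => hsq h (hle hh)) hmove₁ hq3
  have hΓle := card_GammaH_succ_le (H := H) (H' := H₁) hnorm hx₁ hu01
  have hΓfin := finite_GammaH H
  have hcard : Nat.card (GammaH H) ≤ 2 * Nat.card (GammaH H₁) := by omega
  -- the element `b`
  obtain ⟨h₁, hh₁, hh₁x⟩ := hwild (h₀ * u * h₀⁻¹) (hnorm h₀ hh₀ u hu₁) (not_isScalar_conj h₀ hus)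
    (by rw [discr_conj, hud]) (h₀ • (∞ : OnePoint K)) (by
      rw [mul_smul, mul_smul, inv_smul_smul, smul_infty_eq_self_iff.2 hu10])
  set b : GL (Fin 2) K := h₁⁻¹ * h₀ with hb
  have hbH : b ∈ H := H.mul_mem (H.inv_mem (hle hh₁)) hh₀
  have hb10 : b 1 0 = 0 :=
    smul_infty_eq_self_iff.1 (by rw [hb, mul_smul, ← hh₁x, inv_smul_smul])
  have hbdet : b.val.det = h₀.val.det := by
    rw [hb, Matrix.GeneralLinearGroup.coe_mul, Matrix.det_mul]
    have : (h₁⁻¹ : GL (Fin 2) K).val.det = 1 := mem_SLk.1 ((SLk K).inv_mem hh₁.2)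
    rw [this, one_mul]
  let bb : ↥(H ⊓ Bgl K) := ⟨b, hbH, mem_Bgl.2 hb10⟩
  have htΓ : tauH H bb ∈ GammaH H := ⟨bb, rfl⟩
  have hsq₁ : (tauH H bb) ^ 2 ∈ GammaH H₁ :=
    sq_mem_of_card_le (GammaH H₁) (GammaH H) (GammaH_mono hle) hcard htΓ
  obtain ⟨bb₁, hbb₁⟩ := hsq₁
  let c : ↥(H ⊓ Bgl K) := ⟨bb₁.1, hle bb₁.2.1, bb₁.2.2⟩
  have hc : tauH H c = tauH H₁ bb₁ := rfl
  set gg : ↥(H ⊓ Bgl K) := bb ^ 2 * c⁻¹ with hgg
  have hggker : gg ∈ (tauH H).ker := by
    rw [MonoidHom.mem_ker, hgg, map_mul, map_pow, map_inv, hc, hbb₁, mul_inv_cancel]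
  rw [ker_tauH, Subgroup.mem_subgroupOf] at hggker
  have hz := pow_char_mem_Sgl p hggker.1 hggker.2
  refine ⟨(gg : GL (Fin 2) K) ^ p, hz.1, mem_Sgl.1 hz.2, ?_⟩
  have hggval : (gg : GL (Fin 2) K) = b ^ 2 * (bb₁ : GL (Fin 2) K)⁻¹ := rfl
  have hdetgg : (gg : GL (Fin 2) K).val.det = h₀.val.det ^ 2 := by
    rw [hggval, Matrix.GeneralLinearGroup.coe_mul, Matrix.det_mul]
    have h1 : ((bb₁ : GL (Fin 2) K)⁻¹).val.det = 1 := mem_SLk.1 ((SLk K).inv_mem bb₁.2.1.2)
    rw [h1, mul_one]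
    have h2' : (b ^ 2 : GL (Fin 2) K).val = b.val ^ 2 := by simp
    rw [h2', Matrix.det_pow, hbdet]
  have hpow : ((gg : GL (Fin 2) K) ^ p).val = (gg : GL (Fin 2) K).val ^ p := by simp
  rw [hpow, Matrix.det_pow, hdetgg]
  intro hcon
  apply hdet
  have : (h₀.val.det ^ 2) ^ p = 1 ^ p := by rw [hcon, one_pow]
  exact frobenius_inj K p this

end Main

end Fermat.Agent.TW.Mob
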