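import Mathlib
import Fermat.Agent.TW.Sigma_helper1_CohOn
import Fermat.Agent.TW.Sigma_helper1_Scalar

/-!
# Vanishing of `H¹(H₁, ad⁰)` in characteristic three (helper1, S56 leaf C)

Let `K` be a finite field of characteristic `3` and `H₁ ≤ SL₂(K)` a subgroup all of whose elements
have square discriminant, which is not contained in the Borel subgroup and contains a non-trivial
upper unipotent element.  Then every trace-zero cocycle `H₁ → M₂(K)` for the conjugation action is a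
coboundary (`isCoboundaryOn_of_char_three`).
-/

set_option autoImplicit false
set_option linter.unusedSectionVars false

namespace Fermat.Agent.TW.Coh

open Matrix Mob OnePoint MulAction

variable {K : Type*} [Field K] [DecidableEq K]

/-- The upper unipotent matrix `[1, x; 0, 1]`. -/
noncomputable abbrev U (x : K) : GL (Fin 2) K := Matrix.GeneralLinearGroup.upperRightHom x

theorem U_entries (x : K) : (U x) 0 0 = 1 ∧ (U x) 0 1 = x ∧ (U x) 1 0 = 0 ∧ (U x) 1 1 = 1 := by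
  simp [U]

theorem U_add (x y : K) : U (x + y) = U x * U y := AddChar.map_add_eq_mul _ x y

theorem U_zero : U (0 : K) = 1 := AddChar.map_zero_eq_one _

theorem U_neg (x : K) : U (-x) = (U x)⁻¹ := AddChar.map_neg_eq_inv _ x

theorem eq_U_of_entries {g : GL (Fin 2) K} (h00 : g 0 0 = 1) (h10 : g 1 0 = 0) (h11 : g 1 1 = 1) :
    g = U (g 0 1) := by
  apply Units.ext
  ext i j
  fin_cases i <;> fin_cases j <;> simp [U, h00, h10, h11]

/-- Entries of `U x * m * (U x)⁻¹`. -/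
theorem actG_U (x : K) (m : M2 K) :
    (actG 1 (U x) m) 0 0 = m 0 0 + x * m 1 0 ∧
    (actG 1 (U x) m) 0 1 = m 0 1 + x * (m 1 1 - m 0 0) - x ^ 2 * m 1 0 ∧
    (actG 1 (U x) m) 1 0 = m 1 0 ∧
    (actG 1 (U x) m) 1 1 = m 1 1 - x * m 1 0 := by
  obtain ⟨u00, u01, u10, u11⟩ := U_entries x
  obtain ⟨c00, c01, c10, c11⟩ := conj_upper (U x) u10 m
  rw [actG_one_def, c00, c01, c10, c11, u00, u01, u11]
  refine ⟨by ring, by ring, by ring, by ring⟩

/-- Entries of `t * m * t⁻¹` for upper triangular `t`. -/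
theorem actG_upper {t : GL (Fin 2) K} (ht : t 1 0 = 0) (m : M2 K) :
    (actG 1 t m) 0 0 = m 0 0 + t 0 1 / t 0 0 * m 1 0 ∧
    (actG 1 t m) 0 1 = t 0 0 / t 1 1 * m 0 1 + t 0 1 / t 1 1 * (m 1 1 - m 0 0) -
        t 0 1 ^ 2 / (t 0 0 * t 1 1) * m 1 0 ∧
    (actG 1 t m) 1 0 = t 1 1 / t 0 0 * m 1 0 ∧
    (actG 1 t m) 1 1 = m 1 1 - t 0 1 / t 0 0 * m 1 0 := by
  rw [actG_one_def]
  exact conj_upper t ht m

/-- `t * U x = U (τ x) * t` for upper triangular `t`, `τ = t₀₀ / t₁₁`. -/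
theorem upper_mul_U {t : GL (Fin 2) K} (ht : t 1 0 = 0) (x : K) :
    t * U x = U (t 0 0 / t 1 1 * x) * t := by
  have h11 := (diag_ne_zero ht).2
  apply Units.ext
  ext i j
  rw [Matrix.GeneralLinearGroup.coe_mul, Matrix.GeneralLinearGroup.coe_mul, Matrix.mul_apply,
    Matrix.mul_apply, Fin.sum_univ_two, Fin.sum_univ_two]
  obtain ⟨u00, u01, u10, u11⟩ := U_entries x
  obtain ⟨v00, v01, v10, v11⟩ := U_entries (t 0 0 / t 1 1 * x)
  fin_cases i <;> fin_cases j <;>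
    simp only [Fin.zero_eta, Fin.isValue, Fin.mk_one, u00, u01, u10, u11, v00, v01, v10, v11, ht] <;>
    field_simp <;> ring

theorem trace_zero_iff (m : M2 K) : m.trace = 0 ↔ m 1 1 = -m 0 0 := by
  rw [Matrix.trace_fin_two]
  constructor <;> intro h <;> linear_combination h

/-! ### Stage 1: the restriction to the unipotent subgroup, characteristic three -/

section Stage1

variable {H₁ : Subgroup (GL (Fin 2) K)} {ψ : GL (Fin 2) K → M2 K}

theorem three_eq_zero [CharP K 3] : (3 : K) = 0 := by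
  have := CharP.cast_eq_zero K 3
  exact_mod_cast this

theorem two_ne_zero_of_char_three [CharP K 3] : (2 : K) ≠ 0 := by
  intro h
  have h3 : (3 : K) = 0 := three_eq_zero
  have : (1 : K) = 0 := by linear_combination h3 - h
  exact one_ne_zero this

/-- In characteristic three the lower left entry of `ψ (U x)` vanishes. -/
theorem lower_left_eq_zero [CharP K 3] (hψ : IsCocycleOn H₁ 1 ψ) {x : K} (hx : U x ∈ H₁) :
    ψ (U x) 1 0 = 0 := by
  have h3 : (3 : K) = 0 := three_eq_zero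
  by_cases hx0 : x = 0
  · rw [hx0, U_zero, hψ.one]; rfl
  have hgg : U x * U x ∈ H₁ := H₁.mul_mem hx hx
  have h1 := hψ.mul _ hx _ hx
  have h2 := hψ.mul _ hx _ hgg
  have e : U x * (U x * U x) = 1 := by
    rw [← U_add, ← U_add, ← U_zero]
    congr 1
    linear_combination x * h3
  rw [e, hψ.one, h1, actG_add] at h2
  set m := ψ (U x) with hm
  obtain ⟨a00, a01, a10, a11⟩ := actG_U x m
  obtain ⟨b00, b01, b10, b11⟩ := actG_U x (actG 1 (U x) m)
  have h01 := congrFun (congrFun h2 0) 1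
  simp only [Matrix.add_apply, Matrix.zero_apply] at h01
  rw [b01, a00, a01, a10, a11] at h01
  have h4 : x ^ 2 * m 1 0 = 0 := by
    linear_combination (-1 : K) * h01 - (m 0 1 + x * (m 1 1 - m 0 0) - 2 * x ^ 2 * m 1 0) * h3
  rcases mul_eq_zero.1 h4 with h | h
  · exact absurd (pow_eq_zero_iff (two_ne_zero) |>.1 h) hx0
  · exact h

/-- Symmetry relation for the upper left entries. -/
theorem upper_left_symm [CharP K 3] (hψ : IsCocycleOn H₁ 1 ψ) {x y : K} (hx : U x ∈ H₁)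
    (hy : U y ∈ H₁) : x * ψ (U y) 0 0 = y * ψ (U x) 0 0 := by
  have h2 : (2 : K) ≠ 0 := two_ne_zero_of_char_three
  have h1 := hψ.mul _ hx _ hy
  have h1' := hψ.mul _ hy _ hx
  have e : U x * U y = U y * U x := by rw [← U_add, ← U_add, add_comm]
  rw [e, h1'] at h1
  obtain ⟨a00, a01, a10, a11⟩ := actG_U x (ψ (U y))
  obtain ⟨b00, b01, b10, b11⟩ := actG_U y (ψ (U x))
  have h01 := congrFun (congrFun h1 0) 1
  simp only [Matrix.add_apply] at h01
  rw [a01, b01, lower_left_eq_zero hψ hx, lower_left_eq_zero hψ hy,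
    (trace_zero_iff _).1 (hψ.tr _ hx), (trace_zero_iff _).1 (hψ.tr _ hy)] at h01
  have : 2 * (x * ψ (U y) 0 0 - y * ψ (U x) 0 0) = 0 := by linear_combination h01
  rcases mul_eq_zero.1 this with h | h
  · exact absurd h h2
  · exact sub_eq_zero.1 h

end Stage1

/-! ### Stage 2: cocycles with values in the upper right corner on the unipotent subgroup -/

/-- A cocycle on `H₁` whose values on upper unipotent elements are concentrated in the upper right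
corner. -/
structure PCtx (H₁ : Subgroup (GL (Fin 2) K)) (ψ : GL (Fin 2) K → M2 K) : Prop where
  coc : IsCocycleOn H₁ 1 ψ
  p00 : ∀ x, U x ∈ H₁ → ψ (U x) 0 0 = 0
  p10 : ∀ x, U x ∈ H₁ → ψ (U x) 1 0 = 0

section Stage2

variable {H₁ : Subgroup (GL (Fin 2) K)} {ψ : GL (Fin 2) K → M2 K}

theorem PCtx.p11 (c : PCtx H₁ ψ) {x : K} (hx : U x ∈ H₁) : ψ (U x) 1 1 = 0 := by
  rw [(trace_zero_iff _).1 (c.coc.tr _ hx), c.p00 x hx, neg_zero]

theorem PCtx.add (c : PCtx H₁ ψ) {x y : K} (hx : U x ∈ H₁) (hy : U y ∈ H₁) :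
    ψ (U (x + y)) 0 1 = ψ (U x) 0 1 + ψ (U y) 0 1 := by
  have h1 := c.coc.mul _ hx _ hy
  rw [← U_add] at h1
  obtain ⟨a00, a01, a10, a11⟩ := actG_U x (ψ (U y))
  have h01 := congrFun (congrFun h1 0) 1
  simp only [Matrix.add_apply] at h01
  rw [h01, a01, c.p00 y hy, c.p10 y hy, c.p11 hy]
  ring

theorem PCtx.zero (c : PCtx H₁ ψ) : ψ (U (0 : K)) 0 1 = 0 := by
  rw [U_zero, c.coc.one]; rfl

theorem U_neg_mem {x : K} (hx : U x ∈ H₁) : U (-x) ∈ H₁ := by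
  rw [U_neg]; exact H₁.inv_mem hx

theorem PCtx.neg (c : PCtx H₁ ψ) {x : K} (hx : U x ∈ H₁) : ψ (U (-x)) 0 1 = -ψ (U x) 0 1 := by
  have h := c.add hx (U_neg_mem hx)
  rw [add_neg_cancel, c.zero] at h
  linear_combination -h

theorem conj_U_mem {t : GL (Fin 2) K} (ht : t ∈ H₁) (ht10 : t 1 0 = 0) {x : K} (hx : U x ∈ H₁) :
    U (t 0 0 / t 1 1 * x) ∈ H₁ := by
  have h := upper_mul_U ht10 x
  have : U (t 0 0 / t 1 1 * x) = t * U x * t⁻¹ := by rw [h, mul_inv_cancel_right]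
  rw [this]
  exact H₁.mul_mem (H₁.mul_mem ht hx) (H₁.inv_mem ht)

/-- The two cocycle expansions of `ψ (t * U x) = ψ (U (τ x) * t)`. -/
theorem PCtx.key (c : PCtx H₁ ψ) {t : GL (Fin 2) K} (ht : t ∈ H₁) (ht10 : t 1 0 = 0) {x : K}
    (hx : U x ∈ H₁) :
    ψ t + actG 1 t (ψ (U x)) =
      ψ (U (t 0 0 / t 1 1 * x)) + actG 1 (U (t 0 0 / t 1 1 * x)) (ψ t) := by
  rw [← c.coc.mul _ ht _ hx, ← c.coc.mul _ (conj_U_mem ht ht10 hx) _ ht, upper_mul_U ht10]

theorem PCtx.lower_left_upper (c : PCtx H₁ ψ) {x₁ : K} (hx₁ : U x₁ ∈ H₁) (hx₁0 : x₁ ≠ 0)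
    {t : GL (Fin 2) K} (ht : t ∈ H₁) (ht10 : t 1 0 = 0) : ψ t 1 0 = 0 := by
  obtain ⟨h00, h11⟩ := diag_ne_zero ht10
  have hk := c.key ht ht10 hx₁
  have hx' := conj_U_mem ht ht10 hx₁
  obtain ⟨a00, a01, a10, a11⟩ := actG_upper ht10 (ψ (U x₁))
  obtain ⟨b00, b01, b10, b11⟩ := actG_U (t 0 0 / t 1 1 * x₁) (ψ t)
  have e00 := congrFun (congrFun hk 0) 0
  simp only [Matrix.add_apply] at e00
  rw [a00, b00, c.p00 _ hx₁, c.p10 _ hx₁, c.p00 _ hx'] at e00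
  have : t 0 0 / t 1 1 * x₁ * ψ t 1 0 = 0 := by linear_combination -e00
  rcases mul_eq_zero.1 this with h | h
  · exact absurd h (mul_ne_zero (div_ne_zero h00 h11) hx₁0)
  · exact h

theorem PCtx.tau (c : PCtx H₁ ψ) {x₁ : K} (hx₁ : U x₁ ∈ H₁) (hx₁0 : x₁ ≠ 0)
    {t : GL (Fin 2) K} (ht : t ∈ H₁) (ht10 : t 1 0 = 0) {x : K} (hx : U x ∈ H₁) :
    ψ (U (t 0 0 / t 1 1 * x)) 0 1 =
      t 0 0 / t 1 1 * ψ (U x) 0 1 + 2 * (t 0 0 / t 1 1 * x) * ψ t 0 0 := by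
  have hk := c.key ht ht10 hx
  have hx' := conj_U_mem ht ht10 hx
  obtain ⟨a00, a01, a10, a11⟩ := actG_upper ht10 (ψ (U x))
  obtain ⟨b00, b01, b10, b11⟩ := actG_U (t 0 0 / t 1 1 * x) (ψ t)
  have e01 := congrFun (congrFun hk 0) 1
  simp only [Matrix.add_apply] at e01
  rw [a01, b01, c.p00 _ hx, c.p10 _ hx, c.p11 hx, c.lower_left_upper hx₁ hx₁0 ht ht10,
    (trace_zero_iff _).1 (c.coc.tr _ ht)] at e01
  linear_combination -e01

theorem upper_pow {t : GL (Fin 2) K} (ht : t 1 0 = 0) (n : ℕ) :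
    (t ^ n) 1 0 = 0 ∧ (t ^ n) 0 0 = t 0 0 ^ n ∧ (t ^ n) 1 1 = t 1 1 ^ n := by
  induction n with
  | zero => simp
  | succ n ih =>
    obtain ⟨i10, i00, i11⟩ := ih
    rw [pow_succ]
    refine ⟨?_, ?_, ?_⟩
    · rw [mul_entry, i10, ht]; ring
    · rw [mul_entry, i00, ht]; ring
    · rw [mul_entry, i10, i11]; ring

/-- `t ↦ ψ t 0 0` is additive on upper triangular elements. -/
theorem PCtx.upper_left_mul (c : PCtx H₁ ψ) {x₁ : K} (hx₁ : U x₁ ∈ H₁) (hx₁0 : x₁ ≠ 0)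
    {t t' : GL (Fin 2) K} (ht : t ∈ H₁) (ht10 : t 1 0 = 0) (ht' : t' ∈ H₁) (ht'10 : t' 1 0 = 0) :
    ψ (t * t') 0 0 = ψ t 0 0 + ψ t' 0 0 := by
  have h := c.coc.mul _ ht _ ht'
  obtain ⟨a00, a01, a10, a11⟩ := actG_upper ht10 (ψ t')
  have e00 := congrFun (congrFun h 0) 0
  simp only [Matrix.add_apply] at e00
  rw [e00, a00, c.lower_left_upper hx₁ hx₁0 ht' ht'10]
  ring

theorem PCtx.upper_left_pow (c : PCtx H₁ ψ) {x₁ : K} (hx₁ : U x₁ ∈ H₁) (hx₁0 : x₁ ≠ 0)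
    {t : GL (Fin 2) K} (ht : t ∈ H₁) (ht10 : t 1 0 = 0) (n : ℕ) :
    ψ (t ^ n) 0 0 = n * ψ t 0 0 := by
  induction n with
  | zero => rw [pow_zero, c.coc.one]; simp
  | succ n ih =>
    rw [pow_succ, c.upper_left_mul hx₁ hx₁0 (H₁.pow_mem ht n) (upper_pow ht10 n).1 ht ht10, ih]
    push_cast
    ring

/-- The upper left entry of `ψ t` vanishes for upper triangular `t` of determinant one. -/
theorem PCtx.upper_left_upper [Fintype K] (c : PCtx H₁ ψ) {x₁ : K}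
    (hx₁ : U x₁ ∈ H₁) (hx₁0 : x₁ ≠ 0) {t : GL (Fin 2) K} (ht : t ∈ H₁) (ht10 : t 1 0 = 0) :
    ψ t 0 0 = 0 := by
  obtain ⟨h00, h11⟩ := diag_ne_zero ht10
  set n := Fintype.card K - 1 with hn
  obtain ⟨p10, p00, p11⟩ := upper_pow ht10 n
  rw [FiniteField.pow_card_sub_one_eq_one _ h00] at p00
  rw [FiniteField.pow_card_sub_one_eq_one _ h11] at p11
  have hU := eq_U_of_entries p00 p10 p11
  have hmem : U ((t ^ n) 0 1) ∈ H₁ := by rw [← hU]; exact H₁.pow_mem ht n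
  have h1 := c.upper_left_pow hx₁ hx₁0 ht ht10 n
  rw [hU, c.p00 _ hmem] at h1
  have hq : 1 ≤ Fintype.card K := Fintype.card_pos
  have hcast : ((n : ℕ) : K) = -1 := by
    rw [hn, Nat.cast_sub hq, FiniteField.cast_card_eq_zero]
    simp
  rw [hcast] at h1
  linear_combination h1

end Stage2

/-! ### Stage 3: linearity -/

section Stage3

variable {H₁ : Subgroup (GL (Fin 2) K)} {ψ : GL (Fin 2) K → M2 K}

theorem mem_XH_of_U {x : K} (hx : U x ∈ H₁) : x ∈ XH H₁ := by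
  obtain ⟨u00, u01, u10, u11⟩ := U_entries x
  exact mem_XH.2 ⟨U x, hx, u10, u00.trans u11.symm, by rw [u01, u00, div_one]⟩

theorem U_mem_of_mem_XH [CharP K 3] (hSL : H₁ ≤ SLk K) {x : K} (hx : x ∈ XH H₁) : U x ∈ H₁ := by
  have h3 : (3 : K) = 0 := three_eq_zero
  obtain ⟨g, hgH, g10, g00, hxg⟩ := mem_XH.1 hx
  have hdet := mem_SLk.1 (hSL hgH)
  rw [det_of_mem_Bgl g10, ← g00] at hdet
  have h00 := (diag_ne_zero g10).1
  have hg01 : g 0 1 = x * g 0 0 := by rw [hxg]; field_simp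
  have e00 : (g * g) 0 0 = 1 := by rw [mul_entry, g10, mul_zero, add_zero, hdet]
  have e10 : (g * g) 1 0 = 0 := by rw [mul_entry, g10]; ring
  have e11 : (g * g) 1 1 = 1 := by rw [mul_entry, g10, ← g00, zero_mul, zero_add, hdet]
  have e01 : (g * g) 0 1 = 2 * x := by
    rw [mul_entry, ← g00, hg01]
    linear_combination 2 * x * hdet
  have hU := eq_U_of_entries e00 e10 e11
  rw [e01] at hU
  have hmem : U (2 * x) ∈ H₁ := by rw [← hU]; exact H₁.mul_mem hgH hgH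
  have : x = -(2 * x) := by linear_combination x * h3
  rw [this]
  exact U_neg_mem hmem

/-- `x ↦ ψ (U x) 0 1` is linear over the additive closure of `Γ`. -/
theorem PCtx.AH_linear [Fintype K] (c : PCtx H₁ ψ) {x₁ : K} (hx₁ : U x₁ ∈ H₁) (hx₁0 : x₁ ≠ 0)
    {ξ : K} (hξ : ξ ∈ AH H₁) {x : K} (hx : U x ∈ H₁) :
    U (ξ * x) ∈ H₁ ∧ ψ (U (ξ * x)) 0 1 = ξ * ψ (U x) 0 1 := by
  unfold AH at hξ
  induction hξ using AddSubgroup.closure_induction with
  | mem y hy =>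
    obtain ⟨t, ht, rfl⟩ := hy
    obtain ⟨g, hg, g10, htg⟩ := mem_GammaH.1 ht
    simp only
    rw [htg]
    refine ⟨conj_U_mem hg g10 hx, ?_⟩
    rw [c.tau hx₁ hx₁0 hg g10 hx, c.upper_left_upper hx₁ hx₁0 hg g10]
    ring
  | zero =>
    rw [zero_mul, zero_mul]
    exact ⟨by rw [U_zero]; exact H₁.one_mem, c.zero⟩
  | add y z _ _ hy hz =>
    rw [add_mul, add_mul]
    refine ⟨by rw [U_add]; exact H₁.mul_mem hy.1 hz.1, ?_⟩
    rw [c.add hy.1 hz.1, hy.2, hz.2]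
  | neg y _ hy =>
    rw [neg_mul, neg_mul]
    exact ⟨U_neg_mem hy.1, by rw [c.neg hy.1, hy.2]⟩

/-- `ψ (U x) 0 1 = ν x`. -/
theorem PCtx.linear [Fintype K] [Finite H₁] (c : PCtx H₁ ψ) (h2 : (2 : K) ≠ 0)
    (hsq : ∀ h ∈ H₁, ∃ s : K, s * s = discr h) (hmove : ∃ h ∈ H₁, h 1 0 ≠ 0)
    {x₁ : K} (hx₁ : U x₁ ∈ H₁) (hx₁0 : x₁ ≠ 0) {x : K} (hx : U x ∈ H₁) :
    ψ (U x) 0 1 = ψ (U x₁) 0 1 / x₁ * x := by
  obtain ⟨ξ, hξ, rfl⟩ := XH_eq_AH_mul H₁ h2 hsq hmove (mem_XH_of_U hx₁) hx₁0 (mem_XH_of_U hx)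
  rw [(c.AH_linear hx₁ hx₁0 hξ hx₁).2]
  field_simp

end Stage3

/-! ### Stage 4: indices -/

section Stage4

variable (K) in
/-- Upper unipotent matrices. -/
def Pgl : Subgroup (GL (Fin 2) K) where
  carrier := {g | g 1 0 = 0 ∧ g 0 0 = 1 ∧ g 1 1 = 1}
  one_mem' := by simp
  mul_mem' := by
    rintro g h ⟨g10, g00, g11⟩ ⟨h10, h00, h11⟩
    refine ⟨?_, ?_, ?_⟩
    · rw [mul_entry, g10, h10]; ring
    · rw [mul_entry, g00, h00, h10]; ring
    · rw [mul_entry, g10, g11, h11]; ring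
  inv_mem' := by
    rintro g ⟨g10, g00, g11⟩
    obtain ⟨i00, i01, i10, i11⟩ := inv_entries g
    have hdet : g.val.det = 1 := by rw [det_of_mem_Bgl g10, g00, g11, mul_one]
    refine ⟨?_, ?_, ?_⟩
    · rw [i10, g10]; simp
    · rw [i00, g11, hdet]; simp
    · rw [i11, g00, hdet]; simp

theorem mem_Pgl {g : GL (Fin 2) K} : g ∈ Pgl K ↔ g 1 0 = 0 ∧ g 0 0 = 1 ∧ g 1 1 = 1 := Iff.rfl

theorem eq_U_of_mem_Pgl {g : GL (Fin 2) K} (hg : g ∈ Pgl K) : g = U (g 0 1) :=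
  eq_U_of_entries hg.2.1 hg.1 hg.2.2

theorem Pgl_le_Bgl : Pgl K ≤ Bgl K := fun _ hg => mem_Bgl.2 hg.1

variable (K) in
/-- The upper left entry as a character of the Borel subgroup. -/
noncomputable def diagHom : Bgl K →* Kˣ where
  toFun g := Units.mk0 ((g : GL (Fin 2) K) 0 0) (diag_ne_zero (mem_Bgl.1 g.2)).1
  map_one' := by
    apply Units.ext
    simp
  map_mul' g h := by
    apply Units.ext
    have hh := mem_Bgl.1 h.2
    show ((g * h : Bgl K) : GL (Fin 2) K) 0 0 = (g : GL (Fin 2) K) 0 0 * (h : GL (Fin 2) K) 0 0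
    rw [Subgroup.coe_mul, mul_entry, hh]
    ring

variable {H₁ : Subgroup (GL (Fin 2) K)}

/-- The index of the unipotent part in the Borel part of a subgroup of `SL₂` of a finite field is
prime to the characteristic. -/
theorem relIndex_Pgl_ne_zero [Fintype K] (hSL : H₁ ≤ SLk K) :
    (((H₁ ⊓ Pgl K).relIndex (H₁ ⊓ Bgl K) : ℕ) : K) ≠ 0 := by
  classical
  set f : ↥(H₁ ⊓ Bgl K) →* Kˣ :=
    (diagHom K).comp (Subgroup.inclusion (inf_le_right : H₁ ⊓ Bgl K ≤ Bgl K)) with hf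
  have hker : f.ker ≤ (H₁ ⊓ Pgl K).subgroupOf (H₁ ⊓ Bgl K) := by
    intro t ht
    rw [MonoidHom.mem_ker] at ht
    have h00 : (t : GL (Fin 2) K) 0 0 = 1 := by
      have := congrArg (fun u : Kˣ => (u : K)) ht
      exact this
    have h10 := mem_Bgl.1 t.2.2
    have hdet := mem_SLk.1 (hSL t.2.1)
    rw [det_of_mem_Bgl h10, h00, one_mul] at hdet
    rw [Subgroup.mem_subgroupOf]
    exact ⟨t.2.1, h10, h00, hdet⟩
  have h1 : (H₁ ⊓ Pgl K).relIndex (H₁ ⊓ Bgl K) ∣ f.ker.index :=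
    Subgroup.index_dvd_of_le hker
  rw [Subgroup.index_ker] at h1
  have h2 : Nat.card f.range ∣ Nat.card Kˣ := Subgroup.card_subgroup_dvd_card _
  have h3 : Nat.card Kˣ = Fintype.card K - 1 := by
    rw [Nat.card_eq_fintype_card, Fintype.card_units]
  obtain ⟨e, he⟩ := h1.trans h2
  rw [h3] at he
  have hq : 1 ≤ Fintype.card K := Fintype.card_pos
  have hcast : ((Fintype.card K - 1 : ℕ) : K) = -1 := by
    rw [Nat.cast_sub hq, FiniteField.cast_card_eq_zero]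
    simp
  intro h0
  rw [he, Nat.cast_mul, h0, zero_mul] at hcast
  exact one_ne_zero (α := K) (by linear_combination hcast)

/-- The index of the Borel part is prime to three. -/
theorem relIndex_Bgl_ne_zero [Fintype K] [CharP K 3] {x₁ : K} (hx₁ : U x₁ ∈ H₁) (hx₁0 : x₁ ≠ 0) :
    (((H₁ ⊓ Bgl K).relIndex H₁ : ℕ) : K) ≠ 0 := by
  classical
  have h3 : (3 : K) = 0 := three_eq_zero
  have : Fact (Nat.Prime 3) := ⟨Nat.prime_three⟩
  rw [Subgroup.inf_relIndex_left, Subgroup.relIndex, ← stabilizer_infty, MulAction.index_stabilizer,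
    ← Nat.card_coe_set_eq]
  set Ω := orbit H₁ (∞ : OnePoint K) with hΩ
  set û : H₁ := ⟨U x₁, hx₁⟩ with hû
  have hû3 : û ^ 3 = 1 := by
    apply Subtype.ext
    show (U x₁) ^ 3 = 1
    rw [← AddChar.map_nsmul_eq_pow, ← U_zero]
    congr 1
    rw [nsmul_eq_mul]
    push_cast
    rw [h3, zero_mul]
  set P₃ : Subgroup H₁ := Subgroup.zpowers û with hP₃
  have hP : IsPGroup 3 P₃ := by
    rintro ⟨g, hg⟩
    obtain ⟨n, rfl⟩ := Subgroup.mem_zpowers_iff.1 hg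
    refine ⟨1, ?_⟩
    apply Subtype.ext
    show (û ^ n) ^ 3 ^ 1 = 1
    rw [pow_one, ← zpow_natCast, ← _root_.zpow_mul, mul_comm, _root_.zpow_mul, zpow_natCast, hû3,
      _root_.one_zpow]
  have hcard := hP.card_modEq_card_fixedPoints Ω
  have hfix : Nat.card (fixedPoints P₃ Ω) = 1 := by
    rw [Nat.card_eq_one_iff_unique]
    refine ⟨⟨?_⟩, ⟨⟨⟨∞, mem_orbit_self _⟩, ?_⟩⟩⟩
    · rintro ⟨ω, hω⟩ ⟨ω', hω'⟩
      have key : ∀ ω : Ω, ω ∈ fixedPoints P₃ Ω → (ω : OnePoint K) = ∞ := by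
        intro ω hω
        have h := hω ⟨û, Subgroup.mem_zpowers û⟩
        have h' : U x₁ • (ω : OnePoint K) = ω := congrArg Subtype.val h
        obtain ⟨u00, u01, u10, u11⟩ := U_entries x₁
        exact eq_infty_of_parabolic u10 (u00.trans u11.symm) (by rw [u01]; exact hx₁0) h'
      apply Subtype.ext
      apply Subtype.ext
      show (ω : OnePoint K) = ω'
      rw [key ω hω, key ω' hω']
    · rintro ⟨g, hg⟩
      apply Subtype.ext
      obtain ⟨n, rfl⟩ := Subgroup.mem_zpowers_iff.1 hg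
      show ((û ^ n : H₁) : GL (Fin 2) K) • (∞ : OnePoint K) = ∞
      rw [smul_infty_eq_self_iff]
      have : ((û ^ n : H₁) : GL (Fin 2) K) = U ((n : ℤ) • x₁) := by
        rw [Subgroup.coe_zpow]
        exact (AddChar.map_zsmul_eq_zpow _ n x₁).symm
      rw [this]
      exact (U_entries _).2.2.1
  rw [hfix] at hcard
  have := (CharP.natCast_eq_natCast K 3).2 hcard
  rw [this]
  simp

end Stage4

/-! ### The theorem -/

/-- **Vanishing of `H¹(H₁, ad⁰)` in characteristic three.** -/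
theorem isCoboundaryOn_of_char_three [Fintype K] [CharP K 3] (H₁ : Subgroup (GL (Fin 2) K))
    (hSL : H₁ ≤ SLk K) (hsq : ∀ h ∈ H₁, ∃ s : K, s * s = discr h) (hmove : ∃ h ∈ H₁, h 1 0 ≠ 0)
    {x₁ : K} (hx₁ : U x₁ ∈ H₁) (hx₁0 : x₁ ≠ 0) {ψ : GL (Fin 2) K → M2 K}
    (hψ : IsCocycleOn H₁ 1 ψ) : IsCoboundaryOn H₁ 1 ψ := by
  have hfin : Finite H₁ := inferInstance
  have h2 : (2 : K) ≠ 0 := two_ne_zero_of_char_three
  -- first modification
  set μ : K := ψ (U x₁) 0 0 / x₁ with hμ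
  set m₀ : M2 K := !![0, 0; μ, 0] with hm₀def
  have hm₀ : m₀.trace = 0 := by simp [Matrix.trace_fin_two, m₀]
  refine isCoboundaryOn_of_sub m₀ hm₀ ?_
  set ψ' : GL (Fin 2) K → M2 K := fun g => ψ g - (actG 1 g m₀ - m₀) with hψ'def
  have hψ' : IsCocycleOn H₁ 1 ψ' := hψ.sub_coboundary m₀ hm₀
  have c : PCtx H₁ ψ' := by
    refine ⟨hψ', fun x hx => ?_, fun x hx => ?_⟩
    · obtain ⟨a00, a01, a10, a11⟩ := actG_U x m₀
      have hsym := upper_left_symm hψ hx₁ hx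
      show ψ (U x) 0 0 - (actG 1 (U x) m₀ 0 0 - m₀ 0 0) = 0
      rw [a00]
      have e10 : m₀ 1 0 = μ := by simp [m₀]
      rw [e10, hμ]
      field_simp
      linear_combination hsym
    · obtain ⟨a00, a01, a10, a11⟩ := actG_U x m₀
      show ψ (U x) 1 0 - (actG 1 (U x) m₀ 1 0 - m₀ 1 0) = 0
      rw [a10, lower_left_eq_zero hψ hx]
      ring
  -- second modification
  set ν : K := ψ' (U x₁) 0 1 / x₁ with hν
  set m₁ : M2 K := !![-(ν / 2), 0; 0, ν / 2] with hm₁def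
  have hm₁ : m₁.trace = 0 := by simp [Matrix.trace_fin_two, m₁]
  refine isCoboundaryOn_of_sub m₁ hm₁ ?_
  set ψ'' : GL (Fin 2) K → M2 K := fun g => ψ' g - (actG 1 g m₁ - m₁) with hψ''def
  have hψ'' : IsCocycleOn H₁ 1 ψ'' := hψ'.sub_coboundary m₁ hm₁
  have hvanish : ∀ x, U x ∈ H₁ → ψ'' (U x) = 0 := by
    intro x hx
    obtain ⟨a00, a01, a10, a11⟩ := actG_U x m₁
    have e00 : m₁ 0 0 = -(ν / 2) := by simp [m₁]
    have e01 : m₁ 0 1 = 0 := by simp [m₁]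
    have e10 : m₁ 1 0 = 0 := by simp [m₁]
    have e11 : m₁ 1 1 = ν / 2 := by simp [m₁]
    have hlin := c.linear h2 hsq hmove hx₁ hx₁0 hx
    ext i j
    show ψ' (U x) i j - (actG 1 (U x) m₁ i j - m₁ i j) = 0
    fin_cases i <;> fin_cases j
    · show ψ' (U x) 0 0 - (actG 1 (U x) m₁ 0 0 - m₁ 0 0) = 0
      rw [a00, c.p00 x hx, e10]; ring
    · show ψ' (U x) 0 1 - (actG 1 (U x) m₁ 0 1 - m₁ 0 1) = 0
      rw [a01, hlin, e00, e01, e10, e11, ← hν]
      field_simp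
      ring
    · show ψ' (U x) 1 0 - (actG 1 (U x) m₁ 1 0 - m₁ 1 0) = 0
      rw [a10, c.p10 x hx]; ring
    · show ψ' (U x) 1 1 - (actG 1 (U x) m₁ 1 1 - m₁ 1 1) = 0
      rw [a11, c.p11 hx, e10]; ring
  -- restriction to the Borel part, then to the unipotent part
  refine isCoboundaryOn_of_restrict (H₁ := H₁ ⊓ Bgl K) (relIndex_Bgl_ne_zero hx₁ hx₁0) hψ'' ?_
  have hfinB : Finite ↥(H₁ ⊓ Bgl K) := inferInstance
  refine isCoboundaryOn_of_restrict (H₁ := H₁ ⊓ Pgl K) (H := H₁ ⊓ Bgl K)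
    (relIndex_Pgl_ne_zero hSL) (hψ''.mono inf_le_left) ?_
  refine ⟨0, by simp, fun g hg => ?_⟩
  have hgU := eq_U_of_mem_Pgl hg.2
  have hmem : U (g 0 1) ∈ H₁ := by rw [← hgU]; exact hg.1
  rw [hgU, hvanish _ hmem, actG_zero, sub_zero]

end Fermat.Agent.TW.Coh

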