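import Mathlib
import Fermat.Agent.TW.Sigma_helper1_Three

/-!
# Vanishing of `H¹(H, ad⁰ ⊗ det)` for irreducible subgroups (helper1, S56 leaf C)

`isCoboundaryOn_of_irreducible`: `K` a finite field of odd characteristic `p`, `H ≤ GL₂(K)` moving
every point of `ℙ¹(K)`, all discriminants squares; if `p = 3` or some `h ∈ H` has `det(h)² ≠ 1`,
then every trace-zero cocycle `H → M₂(K)` for the action `g • m = det g • (g m g⁻¹)` is a
coboundary.
-/

set_option autoImplicit false
set_option linter.unusedSectionVars false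

namespace Fermat.Agent.TW.Coh

open Matrix Mob OnePoint MulAction

variable {K : Type*} [Field K] [DecidableEq K]

/-- The determinant character. -/
noncomputable abbrev detχ : GL (Fin 2) K →* Kˣ := Matrix.GeneralLinearGroup.det

theorem detχ_apply (g : GL (Fin 2) K) : ((detχ g : Kˣ) : K) = g.val.det := rfl

/-- The index of the kernel of a character of a finite group with values in a field of
characteristic `p` is prime to `p`. -/
theorem index_ker_ne_zero (p : ℕ) [Fact p.Prime] [CharP K p] {G : Type*} [Group G] [Finite G]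
    (f : G →* Kˣ) : ((f.ker.index : ℕ) : K) ≠ 0 := by
  rw [Subgroup.index_ker]
  intro h0
  have hdvd : p ∣ Nat.card f.range := (CharP.cast_eq_zero_iff K p _).1 h0
  have hfin : Finite f.range :=
    Finite.of_surjective f.rangeRestrict f.rangeRestrict_surjective
  obtain ⟨x, hx⟩ := exists_prime_orderOf_dvd_card' p hdvd
  have h1 : x ^ p = 1 := by rw [← hx]; exact pow_orderOf_eq_one x
  have h2 : (((x : f.range) : Kˣ) : K) ^ p = 1 ^ p := by
    rw [one_pow]
    have := congrArg (fun y : f.range => (((y : f.range) : Kˣ) : K)) h1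
    simpa using this
  have h3 : (((x : f.range) : Kˣ) : K) = 1 := frobenius_inj K p h2
  have h4 : x = 1 := Subtype.ext (Units.ext h3)
  rw [h4, orderOf_one] at hx
  exact (Fact.out : p.Prime).one_lt.ne hx

/-- A matrix sending a given point to `∞`. -/
theorem exists_smul_eq_infty (x : OnePoint K) : ∃ g₀ : GL (Fin 2) K, g₀ • x = ∞ := by
  cases x with
  | infty => exact ⟨1, one_smul _ _⟩
  | coe c =>
    refine ⟨Matrix.GeneralLinearGroup.mkOfDetNeZero !![0, 1; 1, -c] (by simp [Matrix.det_fin_two]),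
      ?_⟩
    rw [smul_some_eq_ite, if_pos]
    simp [Matrix.GeneralLinearGroup.mkOfDetNeZero]

/-- An element of order `p` in characteristic `p` has trace `2` and determinant `1`. -/
theorem trace_det_of_pow_char (p : ℕ) [Fact p.Prime] [CharP K p] {u : GL (Fin 2) K}
    (hu : u ^ p = 1) : u.val.trace = 2 ∧ u.val.det = 1 := by
  have hval : u.val ^ p = 1 := by
    have := congrArg (fun g : GL (Fin 2) K => g.val) hu
    simpa using this
  have hnil : IsNilpotent (u.val - 1) := by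
    refine ⟨p, ?_⟩
    rw [sub_pow_char_of_commute _ (Commute.one_right _), hval, one_pow, sub_self]
  have htr := (Matrix.isNilpotent_trace_of_isNilpotent hnil).eq_zero
  have hdet : (u.val - 1).det = 0 := by
    obtain ⟨n, hn⟩ := hnil
    have := congrArg Matrix.det hn
    rw [Matrix.det_pow, Matrix.det_zero] at this
    exact pow_eq_zero_iff (by
      rintro rfl
      rw [pow_zero] at hn
      exact one_ne_zero hn) |>.1 this
  rw [Matrix.trace_sub, Matrix.trace_one, Fintype.card_fin] at htr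
  have htr' : u.val.trace = 2 := by
    push_cast at htr
    linear_combination htr
  refine ⟨htr', ?_⟩
  rw [Matrix.det_fin_two] at hdet ⊢
  rw [Matrix.trace_fin_two] at htr'
  simp only [Matrix.sub_apply, Matrix.one_apply_eq, Matrix.one_apply_ne, ne_eq, zero_ne_one,
    one_ne_zero, not_false_eq_true, sub_zero] at hdet
  linear_combination hdet + htr'

/-- If `p` divides the order of `H`, a conjugate of `H` contains a non-trivial upper unipotent
element. -/
theorem exists_conj_unipotent (p : ℕ) [Fact p.Prime] [CharP K p] (h2 : (2 : K) ≠ 0)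
    (H : Subgroup (GL (Fin 2) K)) [Finite H] (hcard : ((Nat.card H : ℕ) : K) = 0) :
    ∃ g₀ : GL (Fin 2) K, ∃ x₁ : K, x₁ ≠ 0 ∧ U x₁ ∈ conjH g₀ H := by
  have hdvd : p ∣ Nat.card H := (CharP.cast_eq_zero_iff K p _).1 hcard
  obtain ⟨u, hu⟩ := exists_prime_orderOf_dvd_card' p hdvd
  have hup : (u : GL (Fin 2) K) ^ p = 1 := by
    have := pow_orderOf_eq_one u
    rw [hu] at this
    have := congrArg (fun g : H => (g : GL (Fin 2) K)) this
    simpa using this
  have hu1 : (u : GL (Fin 2) K) ≠ 1 := by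
    intro h
    have : u = 1 := Subtype.ext h
    rw [this, orderOf_one] at hu
    exact (Fact.out : p.Prime).one_lt.ne hu
  obtain ⟨htr, hdet⟩ := trace_det_of_pow_char p hup
  have hd : discr (u : GL (Fin 2) K) = 0 := by rw [discr_eq, htr, hdet]; ring
  have hus : ¬ IsScalar (u : GL (Fin 2) K) := by
    rintro ⟨h01, h10, h00⟩
    apply hu1
    rw [Matrix.trace_fin_two, ← h00] at htr
    have h00' : (u : GL (Fin 2) K) 0 0 = 1 := by
      have : 2 * ((u : GL (Fin 2) K) 0 0 - 1) = 0 := by linear_combination htr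
      rcases mul_eq_zero.1 this with h | h
      · exact absurd h h2
      · exact sub_eq_zero.1 h
    apply Units.ext
    ext i j
    fin_cases i <;> fin_cases j <;> simp [h01, h10, h00', ← h00]
  obtain ⟨S, hS, hcases⟩ := exists_fixedFinset h2 (u : GL (Fin 2) K) hus 0 (by rw [hd]; ring)
  have hSne : S.Nonempty := by
    rw [← Finset.card_pos]
    rcases hcases with h | h <;> omega
  obtain ⟨x, hxS⟩ := hSne
  have hx : (u : GL (Fin 2) K) • x = x := (hS x).1 hxS
  obtain ⟨g₀, hg₀⟩ := exists_smul_eq_infty x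
  set u' : GL (Fin 2) K := g₀ * u * g₀⁻¹ with hu'
  have hfix : u' • (∞ : OnePoint K) = ∞ := by
    rw [hu', mul_smul, mul_smul, ← hg₀, inv_smul_smul, hx]
  have h10 : u' 1 0 = 0 := smul_infty_eq_self_iff.1 hfix
  have htr' : u'.val.trace = 2 := by rw [hu', Mob.trace_conj, htr]
  have hdet' : u'.val.det = 1 := by rw [hu', Mob.det_conj, hdet]
  rw [Matrix.trace_fin_two] at htr'
  rw [det_of_mem_Bgl h10] at hdet'
  have h00 : u' 0 0 = 1 := by
    have : (u' 0 0 - 1) ^ 2 = 0 := by linear_combination -hdet' + u' 0 0 * htr'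
    exact sub_eq_zero.1 (pow_eq_zero_iff two_ne_zero |>.1 this)
  have h11 : u' 1 1 = 1 := by linear_combination htr' - h00
  have hU := eq_U_of_entries h00 h10 h11
  refine ⟨g₀, u' 0 1, fun h0 => ?_, ?_⟩
  · rw [h0, U_zero] at hU
    apply hu1
    have : (u : GL (Fin 2) K) = g₀⁻¹ * u' * g₀ := by rw [hu']; group
    rw [this, hU]
    group
  · rw [← hU]
    exact conj_mem_conjH u.2

variable {H : Subgroup (GL (Fin 2) K)} {ψ : GL (Fin 2) K → M2 K}

theorem IsCocycleOn.congr_char {χ χ' : GL (Fin 2) K →* Kˣ} (h : IsCocycleOn H χ ψ)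
    (hχ : ∀ g ∈ H, χ g = χ' g) : IsCocycleOn H χ' ψ :=
  ⟨h.tr, fun g hg g' hg' => by
    rw [h.mul g hg g' hg', actG_eq_smul χ, actG_eq_smul χ', hχ g hg]⟩

theorem IsCoboundaryOn.congr_char {χ χ' : GL (Fin 2) K →* Kˣ} (h : IsCoboundaryOn H χ ψ)
    (hχ : ∀ g ∈ H, χ g = χ' g) : IsCoboundaryOn H χ' ψ := by
  obtain ⟨m, hm, h⟩ := h
  exact ⟨m, hm, fun g hg => by rw [h g hg, actG_eq_smul χ, actG_eq_smul χ', hχ g hg]⟩

/-- The determinant-one part of a subgroup containing a non-trivial upper unipotent element and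
moving `∞` also moves `∞`. -/
theorem exists_move_SL (hmove : ∃ h ∈ H, h 1 0 ≠ 0) {x₁ : K} (hx₁ : U x₁ ∈ H) (hx₁0 : x₁ ≠ 0) :
    ∃ h ∈ H ⊓ SLk K, h 1 0 ≠ 0 := by
  obtain ⟨u00, u01, u10, u11⟩ := U_entries x₁
  obtain ⟨h, hh, h10⟩ := hmove
  have hdet : (U x₁).val.det = 1 := by rw [det_of_mem_Bgl u10, u00, u11, mul_one]
  refine ⟨h * U x₁ * h⁻¹, ⟨H.mul_mem (H.mul_mem hh hx₁) (H.inv_mem hh),
    conj_mem_SLk h (mem_SLk.2 hdet)⟩, fun hcon => ?_⟩
  have hfix : (h * U x₁ * h⁻¹) • (∞ : OnePoint K) = ∞ := smul_infty_eq_self_iff.2 hcon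
  have hfix' : U x₁ • (h⁻¹ • (∞ : OnePoint K)) = h⁻¹ • (∞ : OnePoint K) := by
    have := congrArg (fun x => h⁻¹ • x) hfix
    simp only [mul_smul, inv_smul_smul] at this
    exact this
  have h3 := eq_infty_of_parabolic u10 (u00.trans u11.symm) (by rw [u01]; exact hx₁0) hfix'
  have h4 : h • (∞ : OnePoint K) = ∞ := by
    have := congrArg (fun x => h • x) h3
    simp only [smul_inv_smul] at this
    exact this.symm
  exact h10 (smul_infty_eq_self_iff.1 h4)

/-- **Vanishing of `H¹(H, ad⁰ ⊗ det)`** for irreducible subgroups of `GL₂` of a finite field. -/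
theorem isCoboundaryOn_of_irreducible [Fintype K] (p : ℕ) [Fact p.Prime] [CharP K p] (hp2 : p ≠ 2)
    (H : Subgroup (GL (Fin 2) K)) (hsq : ∀ h ∈ H, ∃ s : K, s * s = discr h)
    (hirr : ∀ x : OnePoint K, ∃ h ∈ H, h • x ≠ x)
    (hdet : p = 3 ∨ ∃ h ∈ H, h.val.det ^ 2 ≠ 1)
    {ψ : GL (Fin 2) K → M2 K} (hψ : IsCocycleOn H detχ ψ) : IsCoboundaryOn H detχ ψ := by
  have hfin : Finite H := inferInstance
  have h2 : (2 : K) ≠ 0 := by
    intro h
    have h' : ((2 : ℕ) : K) = 0 := by exact_mod_cast h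
    have hdvd : p ∣ 2 := (CharP.cast_eq_zero_iff K p _).1 h'
    exact hp2 ((Nat.prime_dvd_prime_iff_eq (Fact.out : p.Prime) Nat.prime_two).1 hdvd)
  by_cases hcard : ((Nat.card H : ℕ) : K) = 0
  swap
  · exact isCoboundaryOn_of_card_ne_zero hψ hcard
  obtain ⟨g₀, x₁, hx₁0, hx₁⟩ := exists_conj_unipotent p h2 H hcard
  refine isCoboundaryOn_of_conj g₀ ?_
  set H' := conjH g₀ H with hH'
  have hfin' : Finite H' := inferInstance
  have hψ' := hψ.conj g₀
  have hsq' : ∀ h ∈ H', ∃ s : K, s * s = discr h := by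
    intro h hh
    obtain ⟨s, hs⟩ := hsq _ (mem_conjH.1 hh)
    refine ⟨s, ?_⟩
    rw [hs]
    have := Mob.discr_conj g₀⁻¹ h
    rw [inv_inv] at this
    exact this
  have hmove' : ∃ h ∈ H', h 1 0 ≠ 0 := by
    obtain ⟨h, hh, hne⟩ := hirr (g₀⁻¹ • (∞ : OnePoint K))
    refine ⟨g₀ * h * g₀⁻¹, conj_mem_conjH hh, fun hcon => hne ?_⟩
    have hfix : (g₀ * h * g₀⁻¹) • (∞ : OnePoint K) = ∞ := smul_infty_eq_self_iff.2 hcon
    have := congrArg (fun x => g₀⁻¹ • x) hfix
    simp only [mul_smul, inv_smul_smul] at this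
    exact this
  obtain ⟨u00, u01, u10, u11⟩ := U_entries x₁
  rcases hdet with hp3 | ⟨h, hh, hdeth⟩
  · subst hp3
    set H₁ := H' ⊓ SLk K with hH₁
    have hidx : ((H₁.relIndex H' : ℕ) : K) ≠ 0 := by
      rw [hH₁, Subgroup.inf_relIndex_left, Subgroup.relIndex]
      have : (SLk K).subgroupOf H' = ((detχ (K := K)).comp H'.subtype).ker := by
        rw [← MonoidHom.comap_ker]
        rfl
      rw [this]
      exact index_ker_ne_zero 3 _
    refine isCoboundaryOn_of_restrict (H₁ := H₁) hidx hψ' ?_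
    have hχ : ∀ g ∈ H₁, (detχ (K := K)) g = (1 : GL (Fin 2) K →* Kˣ) g := by
      intro g hg
      apply Units.ext
      rw [detχ_apply, mem_SLk.1 hg.2]
      rfl
    have hcoc : IsCocycleOn H₁ 1 (conjψ g₀ ψ) := (hψ'.mono inf_le_left).congr_char hχ
    have hdetU : (U x₁).val.det = 1 := by rw [det_of_mem_Bgl u10, u00, u11, mul_one]
    have hcob := isCoboundaryOn_of_char_three H₁ inf_le_right
      (fun h hh => hsq' h hh.1) (exists_move_SL hmove' hx₁ hx₁0)
      (⟨hx₁, mem_SLk.2 hdetU⟩ : U x₁ ∈ H₁) hx₁0 hcoc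
    exact hcob.congr_char (fun g hg => (hχ g hg).symm)
  · have hh' : g₀ * h * g₀⁻¹ ∈ H' := conj_mem_conjH hh
    have hdet' : (g₀ * h * g₀⁻¹).val.det ^ 2 ≠ 1 := by rw [Mob.det_conj]; exact hdeth
    obtain ⟨z, hzH, hzs, hzdet⟩ := exists_scalar_of_det p H' h2 hsq' hmove' hx₁ u10 u00 u11
      (by rw [u01]; exact hx₁0) hh' hdet'
    exact isCoboundaryOn_of_scalar hψ' hzH hzs (by rw [detχ_apply]; exact hzdet)

end Fermat.Agent.TW.Coh

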