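import Mathlib
import Fermat.Agent.TW.Sigma_helper1_Core

/-!
# Irreducibility of `ad⁰` and selection of a regular semisimple element (helper1, S56 leaf C)

Linear algebra over a field `k` of characteristic `≠ 2`, for a homomorphism `r : 𝒢 →* GL₂(k)` all of
whose index-`≤ 2` subgroups act irreducibly (`NoStableLine`) and all of whose elements have square
discriminant:

* `no_stable_line_ad`: no line in the trace-zero matrices is stable under conjugation;
* `exists_trace_conj_ne_zero`: for `m ≠ 0` of trace zero and `s` non-scalar there is `g` with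
  `tr (r g m (r g)⁻¹ s) ≠ 0`;
* `exists_regular_in_ker`: a normal subgroup with cyclic quotient contains an element whose image is
  regular semisimple.
-/

set_option autoImplicit false
set_option linter.unusedSectionVars false

namespace Fermat.Agent.TW.Coh

open Matrix Mob OnePoint MulAction

variable {k : Type*} [Field k] [DecidableEq k]

/-! ### Points of the projective line and eigenvectors -/

/-- A vector spanning the line corresponding to a point of `ℙ¹(k)`. -/
def vecOf (x : OnePoint k) : Fin 2 → k := x.elim ![1, 0] (fun c => ![c, 1])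

theorem vecOf_ne_zero (x : OnePoint k) : vecOf x ≠ 0 := by
  cases x with
  | infty =>
    intro h
    have := congrFun h 0
    simp [vecOf] at this
  | coe c =>
    intro h
    have := congrFun h 1
    simp [vecOf] at this

/-- A point of `ℙ¹(k)` is fixed by `g` iff the corresponding vector is an eigenvector. -/
theorem smul_eq_self_iff_mulVec (g : GL (Fin 2) k) (x : OnePoint k) :
    g • x = x ↔ ∃ c : k, g.val *ᵥ vecOf x = c • vecOf x := by
  cases x with
  | infty =>
    rw [smul_infty_eq_self_iff]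
    constructor
    · intro h
      refine ⟨g 0 0, ?_⟩
      ext i
      fin_cases i <;> simp [vecOf, Matrix.mulVec, dotProduct, Fin.sum_univ_two, h]
    · rintro ⟨c, hc⟩
      have := congrFun hc 1
      simpa [vecOf, Matrix.mulVec, dotProduct, Fin.sum_univ_two] using this
  | coe c =>
    rw [smul_coe_eq_iff]
    constructor
    · intro h
      refine ⟨g 1 0 * c + g 1 1, ?_⟩
      ext i
      fin_cases i
      · simp only [vecOf, Matrix.mulVec, dotProduct, Fin.sum_univ_two, OnePoint.elim_some,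
          Fin.zero_eta, Fin.isValue, cons_val_zero, cons_val_one, Pi.smul_apply, smul_eq_mul]
        linear_combination -h
      · simp [vecOf, Matrix.mulVec, dotProduct, Fin.sum_univ_two]
    · rintro ⟨d, hd⟩
      have h0 := congrFun hd 0
      have h1 := congrFun hd 1
      simp only [vecOf, Matrix.mulVec, dotProduct, Fin.sum_univ_two, OnePoint.elim_some,
        Fin.isValue, cons_val_zero, cons_val_one, Pi.smul_apply, smul_eq_mul, mul_one] at h0 h1
      linear_combination -h0 + c * h1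

/-- Two vectors in the kernel of a non-zero `2 × 2` matrix are proportional. -/
theorem exists_smul_of_mulVec_eq_zero {Y : M2 k} (hY : Y ≠ 0) {v w : Fin 2 → k} (hv : v ≠ 0)
    (hYv : Y *ᵥ v = 0) (hYw : Y *ᵥ w = 0) : ∃ c : k, w = c • v := by
  have hv0 := congrFun hYv 0
  have hv1 := congrFun hYv 1
  have hw0 := congrFun hYw 0
  have hw1 := congrFun hYw 1
  simp only [Matrix.mulVec, dotProduct, Fin.sum_univ_two, Pi.zero_apply] at hv0 hv1 hw0 hw1
  have hD : v 0 * w 1 - w 0 * v 1 = 0 := by
    by_contra hD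
    apply hY
    have e00 : Y 0 0 = 0 := by
      have : Y 0 0 * (v 0 * w 1 - w 0 * v 1) = 0 := by linear_combination w 1 * hv0 - v 1 * hw0
      exact (mul_eq_zero.1 this).resolve_right hD
    have e01 : Y 0 1 = 0 := by
      have : Y 0 1 * (v 0 * w 1 - w 0 * v 1) = 0 := by linear_combination -w 0 * hv0 + v 0 * hw0
      exact (mul_eq_zero.1 this).resolve_right hD
    have e10 : Y 1 0 = 0 := by
      have : Y 1 0 * (v 0 * w 1 - w 0 * v 1) = 0 := by linear_combination w 1 * hv1 - v 1 * hw1
      exact (mul_eq_zero.1 this).resolve_right hD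
    have e11 : Y 1 1 = 0 := by
      have : Y 1 1 * (v 0 * w 1 - w 0 * v 1) = 0 := by linear_combination -w 0 * hv1 + v 0 * hw1
      exact (mul_eq_zero.1 this).resolve_right hD
    ext i j
    fin_cases i <;> fin_cases j <;> simp [e00, e01, e10, e11]
  by_cases h0 : v 0 = 0
  · have h1 : v 1 ≠ 0 := by
      intro h1
      apply hv
      ext i
      fin_cases i <;> simp [h0, h1]
    refine ⟨w 1 / v 1, ?_⟩
    ext i
    fin_cases i
    · simp only [Fin.zero_eta, Fin.isValue, Pi.smul_apply, smul_eq_mul, h0, mul_zero]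
      rw [h0] at hD
      have : w 0 * v 1 = 0 := by linear_combination -hD
      exact (mul_eq_zero.1 this).resolve_right h1
    · simp only [Fin.mk_one, Fin.isValue, Pi.smul_apply, smul_eq_mul]
      field_simp
  · refine ⟨w 0 / v 0, ?_⟩
    ext i
    fin_cases i
    · simp only [Fin.zero_eta, Fin.isValue, Pi.smul_apply, smul_eq_mul]
      field_simp
    · simp only [Fin.mk_one, Fin.isValue, Pi.smul_apply, smul_eq_mul]
      field_simp
      linear_combination hD

/-! ### The irreducibility hypotheses -/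

section Hyp

variable {𝒢 : Type*} [Group 𝒢]

/-- No line of `k²` is stable under `r(𝒢')`. -/
def NoStableLine (r : 𝒢 →* GL (Fin 2) k) (𝒢' : Subgroup 𝒢) : Prop :=
  ∀ v : Fin 2 → k, v ≠ 0 → ∃ g ∈ 𝒢', ∀ c : k, (r g).val *ᵥ v ≠ c • v

/-- The hypotheses on the residual representation: irreducibility of `r` and of its restrictions
to subgroups of index two, and all eigenvalues in `k`. -/
structure IrrHyp (r : 𝒢 →* GL (Fin 2) k) : Prop where
  top : NoStableLine r ⊤
  two : ∀ 𝒢' : Subgroup 𝒢, 𝒢'.index = 2 → NoStableLine r 𝒢'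
  sq : ∀ g, ∃ s : k, s * s = discr (r g)

variable {r : 𝒢 →* GL (Fin 2) k}

/-- The image of `r` moves every point of `ℙ¹(k)`. -/
theorem IrrHyp.moves (hI : IrrHyp r) (x : OnePoint k) : ∃ g, r g • x ≠ x := by
  obtain ⟨g, -, hg⟩ := hI.top (vecOf x) (vecOf_ne_zero x)
  refine ⟨g, fun h => ?_⟩
  obtain ⟨c, hc⟩ := (smul_eq_self_iff_mulVec _ _).1 h
  exact hg c hc

/-- A non-scalar element with square discriminant has an eigenvector. -/
theorem exists_eigenvector (h2 : (2 : k) ≠ 0) {g : GL (Fin 2) k} (hg : ¬ IsScalar g)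
    (hsq : ∃ s : k, s * s = discr g) :
    ∃ v : Fin 2 → k, v ≠ 0 ∧ ∃ α : k, g.val *ᵥ v = α • v := by
  obtain ⟨s, hs⟩ := hsq
  obtain ⟨S, hS, hcases⟩ := exists_fixedFinset h2 g hg s hs
  have hSne : S.Nonempty := by
    rw [← Finset.card_pos]
    rcases hcases with h | h <;> omega
  obtain ⟨x, hxS⟩ := hSne
  exact ⟨vecOf x, vecOf_ne_zero x, (smul_eq_self_iff_mulVec _ _).1 ((hS x).1 hxS)⟩

theorem sq_of_trace_zero {X : M2 k} (htr : X.trace = 0) : X * X = (-X.det) • (1 : M2 k) := by
  have h11 : X 1 1 = -X 0 0 := (trace_zero_iff X).1 htr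
  ext i j
  rw [Matrix.mul_apply, Fin.sum_univ_two, Matrix.smul_apply, Matrix.det_fin_two, h11]
  fin_cases i <;> fin_cases j <;> simp [h11] <;> ring

theorem val_ne_zero (g : GL (Fin 2) k) : g.val ≠ 0 := by
  intro h
  have := g.det_ne_zero
  rw [h, Matrix.det_zero] at this
  exact this rfl

theorem mul_val_ne_zero {X : M2 k} (hX : X ≠ 0) (g : GL (Fin 2) k) : X * g.val ≠ 0 := by
  intro h
  apply hX
  have := congrArg (fun Y => Y * (g⁻¹ : GL (Fin 2) k).val) h
  simp only [Matrix.mul_assoc, zero_mul] at this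
  rw [← Matrix.GeneralLinearGroup.coe_mul, mul_inv_cancel] at this
  simpa using this

theorem val_mul_ne_zero {X : M2 k} (hX : X ≠ 0) (g : GL (Fin 2) k) : g.val * X ≠ 0 := by
  intro h
  apply hX
  have := congrArg (fun Y => (g⁻¹ : GL (Fin 2) k).val * Y) h
  simp only [← Matrix.mul_assoc, mul_zero] at this
  rw [← Matrix.GeneralLinearGroup.coe_mul, inv_mul_cancel] at this
  simpa using this

theorem exists_mulVec_ne_zero {X : M2 k} (hX : X ≠ 0) : ∃ w : Fin 2 → k, X *ᵥ w ≠ 0 := by
  by_contra hcon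
  push Not at hcon
  apply hX
  ext i j
  have := congrFun (hcon (Pi.single j 1)) i
  simpa using this

theorem not_isScalar_iff {g : GL (Fin 2) k} :
    IsScalar g ↔ ∃ c : k, g.val = c • (1 : M2 k) := by
  constructor
  · rintro ⟨h01, h10, h00⟩
    refine ⟨g 0 0, ?_⟩
    ext i j
    fin_cases i <;> fin_cases j <;> simp [h01, h10, h00]
  · rintro ⟨c, hc⟩
    refine ⟨?_, ?_, ?_⟩
    · rw [hc]; simp
    · rw [hc]; simp
    · rw [hc]; simp

/-- The centraliser of a matrix `X` in `𝒢`. -/
def centralizerOf (r : 𝒢 →* GL (Fin 2) k) (X : M2 k) : Subgroup 𝒢 where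
  carrier := {g | (r g).val * X = X * (r g).val}
  one_mem' := by simp
  mul_mem' := by
    intro a b ha hb
    simp only [Set.mem_ofPred_eq, map_mul, Matrix.GeneralLinearGroup.coe_mul] at ha hb ⊢
    rw [Matrix.mul_assoc, hb, ← Matrix.mul_assoc, ha, Matrix.mul_assoc]
  inv_mem' := by
    intro a ha
    simp only [Set.mem_ofPred_eq, map_inv] at ha ⊢
    have h1 : ((r a)⁻¹ : GL (Fin 2) k).val * (r a).val = 1 := by
      rw [← Matrix.GeneralLinearGroup.coe_mul, inv_mul_cancel]; rfl
    have h2 : (r a).val * ((r a)⁻¹ : GL (Fin 2) k).val = 1 := by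
      rw [← Matrix.GeneralLinearGroup.coe_mul, mul_inv_cancel]; rfl
    calc ((r a)⁻¹ : GL (Fin 2) k).val * X
        = ((r a)⁻¹ : GL (Fin 2) k).val * X * ((r a).val * ((r a)⁻¹ : GL (Fin 2) k).val) := by
          rw [h2, Matrix.mul_one]
      _ = ((r a)⁻¹ : GL (Fin 2) k).val * (X * (r a).val) * ((r a)⁻¹ : GL (Fin 2) k).val := by
          simp only [Matrix.mul_assoc]
      _ = ((r a)⁻¹ : GL (Fin 2) k).val * ((r a).val * X) * ((r a)⁻¹ : GL (Fin 2) k).val := by
          rw [ha]
      _ = X * ((r a)⁻¹ : GL (Fin 2) k).val := by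
          rw [← Matrix.mul_assoc, h1, Matrix.one_mul]

theorem mem_centralizerOf {X : M2 k} {g : 𝒢} :
    g ∈ centralizerOf r X ↔ (r g).val * X = X * (r g).val := Iff.rfl

end Hyp

/-! ### No stable line in `ad⁰` -/

section SL

variable {𝒢 : Type*} [Group 𝒢] {r : 𝒢 →* GL (Fin 2) k}

theorem noStableLine_of_eq_top (hI : IrrHyp r) {𝒢' : Subgroup 𝒢} (h : 𝒢' = ⊤ ∨ 𝒢'.index = 2) :
    NoStableLine r 𝒢' := by
  rcases h with h | h
  · rw [h]; exact hI.top
  · exact hI.two _ h

/-- **No line of trace-zero matrices is stable under conjugation.** -/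
theorem no_stable_line_ad (h2 : (2 : k) ≠ 0) (hI : IrrHyp r) {X : M2 k} (hX : X ≠ 0)
    (htr : X.trace = 0) (hst : ∀ g, ∃ δ : k, (r g).val * X = δ • (X * (r g).val)) : False := by
  have hXX := sq_of_trace_zero htr
  by_cases hdet : X.det = 0
  · -- nilpotent case: the kernel of `X` is a stable line
    rw [hdet, neg_zero, zero_smul] at hXX
    obtain ⟨w, hw⟩ := exists_mulVec_ne_zero hX
    have hXv : X *ᵥ (X *ᵥ w) = 0 := by rw [Matrix.mulVec_mulVec, hXX, Matrix.zero_mulVec]
    obtain ⟨g, -, hg⟩ := hI.top (X *ᵥ w) hw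
    obtain ⟨δ, hδ⟩ := hst g
    have hδ0 : δ ≠ 0 := by
      rintro rfl
      rw [zero_smul] at hδ
      exact val_mul_ne_zero hX _ hδ
    have h1 : X *ᵥ ((r g).val *ᵥ (X *ᵥ w)) = 0 := by
      have : X * (r g).val = δ⁻¹ • ((r g).val * X) := by
        rw [hδ, smul_smul, inv_mul_cancel₀ hδ0, one_smul]
      rw [Matrix.mulVec_mulVec, this, Matrix.smul_mulVec, ← Matrix.mulVec_mulVec, hXv,
        Matrix.mulVec_zero, smul_zero]
    obtain ⟨c, hc⟩ := exists_smul_of_mulVec_eq_zero hX hw hXv h1
    exact hg c hc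
  · -- semisimple case
    set ν : k := -X.det with hν
    have hν0 : ν ≠ 0 := neg_ne_zero.2 hdet
    -- `δ = ± 1`
    have hpm : ∀ g, (r g).val * X = X * (r g).val ∨ (r g).val * X = -(X * (r g).val) := by
      intro g
      obtain ⟨δ, hδ⟩ := hst g
      have h1 : (r g).val * (X * X) = (δ * δ) • ((X * X) * (r g).val) := by
        rw [← Matrix.mul_assoc, hδ, Matrix.smul_mul, Matrix.mul_assoc, hδ, Matrix.mul_smul,
          smul_smul, ← Matrix.mul_assoc]
      rw [hXX, Matrix.mul_smul, Matrix.mul_one, Matrix.smul_mul, Matrix.one_mul, smul_smul] at h1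
      have h3 : (ν - δ * δ * ν) • (r g).val = 0 := by
        rw [sub_smul, ← h1, sub_self]
      have h4 : ν - δ * δ * ν = 0 := by
        rcases smul_eq_zero.1 h3 with h | h
        · exact h
        · exact absurd h (val_ne_zero _)
      have h5 : (δ - 1) * (δ + 1) = 0 := by
        have : ν * ((δ - 1) * (δ + 1)) = 0 := by linear_combination -h4
        exact (mul_eq_zero.1 this).resolve_left hν0
      rcases mul_eq_zero.1 h5 with h | h
      · left
        rw [hδ, sub_eq_zero.1 h, one_smul]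
      · right
        rw [hδ, eq_neg_of_add_eq_zero_left h, neg_smul, one_smul]
    have hexcl : ∀ g, (r g).val * X = X * (r g).val → (r g).val * X = -(X * (r g).val) → False := by
      intro g h1 h2'
      rw [h1] at h2'
      have : (2 : k) • (X * (r g).val) = 0 := by
        rw [two_smul]
        nth_rewrite 1 [h2']
        rw [neg_add_cancel]
      rcases smul_eq_zero.1 this with h | h
      · exact h2 h
      · exact mul_val_ne_zero hX _ h
    set 𝒢' := centralizerOf r X with h𝒢'
    have hidx : 𝒢' = ⊤ ∨ 𝒢'.index = 2 := by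
      by_cases htop : 𝒢' = ⊤
      · exact Or.inl htop
      right
      have : ∃ a, a ∉ 𝒢' := by
        by_contra hcon
        push Not at hcon
        exact htop (eq_top_iff.2 fun g _ => hcon g)
      obtain ⟨a, ha⟩ := this
      have ha' : (r a).val * X = -(X * (r a).val) := (hpm a).resolve_left ha
      rw [Subgroup.index_eq_two_iff]
      refine ⟨a, fun b => ?_⟩
      have hba : (r (b * a)).val = (r b).val * (r a).val := by
        rw [map_mul, Matrix.GeneralLinearGroup.coe_mul]
      by_cases hb : b ∈ 𝒢'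
      · refine Or.inr ⟨hb, fun hcon => ?_⟩
        have hb' : (r b).val * X = X * (r b).val := hb
        have h1 : (r (b * a)).val * X = -(X * (r (b * a)).val) := by
          rw [hba, Matrix.mul_assoc, ha', Matrix.mul_neg, ← Matrix.mul_assoc, hb', Matrix.mul_assoc]
        exact hexcl _ hcon h1
      · refine Or.inl ⟨?_, hb⟩
        have hb' : (r b).val * X = -(X * (r b).val) := (hpm b).resolve_left hb
        show (r (b * a)).val * X = X * (r (b * a)).val
        rw [hba, Matrix.mul_assoc, ha', Matrix.mul_neg, ← Matrix.mul_assoc, hb', Matrix.neg_mul,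
          neg_neg, Matrix.mul_assoc]
    have hNS := noStableLine_of_eq_top hI hidx
    by_cases hsc : ∀ g ∈ 𝒢', IsScalar (r g)
    · obtain ⟨g, hg, hne⟩ := hNS ![1, 0] (by
        intro h
        have := congrFun h 0
        simp at this)
      obtain ⟨c, hc⟩ := not_isScalar_iff.1 (hsc g hg)
      apply hne c
      rw [hc, Matrix.smul_mulVec, Matrix.one_mulVec]
    · push Not at hsc
      obtain ⟨g₀, hg₀, hns⟩ := hsc
      obtain ⟨v, hv, α, hα⟩ := exists_eigenvector h2 hns (hI.sq g₀)
      have hg₀' : (r g₀).val * X = X * (r g₀).val := hg₀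
      set Y : M2 k := (r g₀).val - α • (1 : M2 k) with hY
      have hY0 : Y ≠ 0 := by
        intro h
        exact hns (not_isScalar_iff.2 ⟨α, sub_eq_zero.1 h⟩)
      have hYv : Y *ᵥ v = 0 := by
        rw [hY, Matrix.sub_mulVec, hα, Matrix.smul_mulVec, Matrix.one_mulVec, sub_self]
      have hYX : Y * X = X * Y := by
        rw [hY, Matrix.sub_mul, Matrix.mul_sub, hg₀', Matrix.smul_mul, Matrix.mul_smul,
          Matrix.one_mul, Matrix.mul_one]
      have hYXv : Y *ᵥ (X *ᵥ v) = 0 := by
        rw [Matrix.mulVec_mulVec, hYX, ← Matrix.mulVec_mulVec, hYv, Matrix.mulVec_zero]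
      obtain ⟨c, hc⟩ := exists_smul_of_mulVec_eq_zero hY0 hv hYv hYXv
      -- `c² = ν`
      have hcc : c * c = ν := by
        have h1 : X *ᵥ (X *ᵥ v) = ν • v := by
          rw [Matrix.mulVec_mulVec, hXX, Matrix.smul_mulVec, Matrix.one_mulVec]
        rw [hc, Matrix.mulVec_smul, hc, smul_smul] at h1
        have h3 : (c * c - ν) • v = 0 := by rw [sub_smul, h1, sub_self]
        rcases smul_eq_zero.1 h3 with h | h
        · exact sub_eq_zero.1 h
        · exact absurd h hv
      set Z : M2 k := X - c • (1 : M2 k) with hZ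
      have hZ0 : Z ≠ 0 := by
        intro h
        have hXc : X = c • (1 : M2 k) := sub_eq_zero.1 h
        have htr' := htr
        rw [hXc, Matrix.trace_smul, Matrix.trace_one, Fintype.card_fin, smul_eq_mul] at htr'
        have hc0 : c = 0 := by
          have : c * 2 = 0 := by exact_mod_cast htr'
          exact (mul_eq_zero.1 this).resolve_right h2
        rw [hc0, zero_mul] at hcc
        exact hν0 hcc.symm
      have hZv : Z *ᵥ v = 0 := by
        rw [hZ, Matrix.sub_mulVec, hc, Matrix.smul_mulVec, Matrix.one_mulVec, sub_self]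
      obtain ⟨g, hg, hne⟩ := hNS v hv
      have hg' : (r g).val * X = X * (r g).val := hg
      have hZg : Z * (r g).val = (r g).val * Z := by
        rw [hZ, Matrix.sub_mul, Matrix.mul_sub, hg', Matrix.smul_mul, Matrix.mul_smul,
          Matrix.one_mul, Matrix.mul_one]
      have hZgv : Z *ᵥ ((r g).val *ᵥ v) = 0 := by
        rw [Matrix.mulVec_mulVec, hZg, ← Matrix.mulVec_mulVec, hZv, Matrix.mulVec_zero]
      obtain ⟨c', hc'⟩ := exists_smul_of_mulVec_eq_zero hZ0 hv hZv hZgv
      exact hne c' hc'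

end SL

/-! ### Orthogonality in `ad⁰` -/

section Perp

/-- Commuting trace-zero matrices are proportional. -/
theorem exists_smul_of_commute (h2 : (2 : k) ≠ 0) {w x : M2 k} (hw : w ≠ 0) (hwtr : w.trace = 0)
    (hxtr : x.trace = 0) (h : x * w = w * x) : ∃ c : k, x = c • w := by
  have w11 : w 1 1 = -w 0 0 := (trace_zero_iff w).1 hwtr
  have x11 : x 1 1 = -x 0 0 := (trace_zero_iff x).1 hxtr
  have e00 := congrFun (congrFun h 0) 0
  have e01 := congrFun (congrFun h 0) 1
  have e10 := congrFun (congrFun h 1) 0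
  simp only [Matrix.mul_apply, Fin.sum_univ_two, w11, x11] at e00 e01 e10
  have c1 : x 0 1 * w 1 0 = w 0 1 * x 1 0 := by linear_combination e00
  have c2 : x 0 0 * w 0 1 = w 0 0 * x 0 1 := by
    have : 2 * (x 0 0 * w 0 1 - w 0 0 * x 0 1) = 0 := by linear_combination e01
    exact sub_eq_zero.1 ((mul_eq_zero.1 this).resolve_left h2)
  have c3 : x 1 0 * w 0 0 = w 1 0 * x 0 0 := by
    have : 2 * (x 1 0 * w 0 0 - w 1 0 * x 0 0) = 0 := by linear_combination e10
    exact sub_eq_zero.1 ((mul_eq_zero.1 this).resolve_left h2)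
  by_cases h00 : w 0 0 = 0
  · by_cases h01 : w 0 1 = 0
    · have h10 : w 1 0 ≠ 0 := by
        intro h10
        apply hw
        ext i j
        fin_cases i <;> fin_cases j <;> simp [h00, h01, h10, w11]
      refine ⟨x 1 0 / w 1 0, ?_⟩
      ext i j
      fin_cases i <;> fin_cases j <;>
        simp only [Fin.zero_eta, Fin.mk_one, Fin.isValue, Matrix.smul_apply, smul_eq_mul, w11,
          x11] <;> field_simp
      · rw [h00] at c3 ⊢; linear_combination -c3
      · rw [h01] at c1 ⊢; linear_combination c1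
      · rw [h00] at c3 ⊢; linear_combination c3
    · refine ⟨x 0 1 / w 0 1, ?_⟩
      ext i j
      fin_cases i <;> fin_cases j <;>
        simp only [Fin.zero_eta, Fin.mk_one, Fin.isValue, Matrix.smul_apply, smul_eq_mul, w11,
          x11] <;> field_simp
      · linear_combination c2
      · linear_combination -c1
      · linear_combination -c2
  · refine ⟨x 0 0 / w 0 0, ?_⟩
    ext i j
    fin_cases i <;> fin_cases j <;>
      simp only [Fin.zero_eta, Fin.mk_one, Fin.isValue, Matrix.smul_apply, smul_eq_mul, w11,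
        x11] <;> field_simp
    · linear_combination -c2
    · linear_combination c3

/-- A trace-zero matrix orthogonal to two trace-zero matrices commutes with their commutator. -/
theorem commute_bracket_of_perp {a b c : M2 k} (ha : a.trace = 0) (hb : b.trace = 0)
    (hc : c.trace = 0) (h1 : (c * a).trace = 0) (h2 : (c * b).trace = 0) :
    c * (a * b - b * a) = (a * b - b * a) * c := by
  have a11 : a 1 1 = -a 0 0 := (trace_zero_iff a).1 ha
  have b11 : b 1 1 = -b 0 0 := (trace_zero_iff b).1 hb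
  have c11 : c 1 1 = -c 0 0 := (trace_zero_iff c).1 hc
  rw [Matrix.trace_fin_two] at h1 h2
  simp only [Matrix.mul_apply, Fin.sum_univ_two, a11, b11, c11] at h1 h2
  ext i j
  fin_cases i <;> fin_cases j <;>
    simp only [Fin.zero_eta, Fin.mk_one, Fin.isValue, Matrix.mul_apply, Matrix.sub_apply,
      Fin.sum_univ_two, a11, b11, c11]
  · linear_combination 2 * b 0 0 * h1 - 2 * a 0 0 * h2
  · linear_combination 2 * b 0 1 * h1 - 2 * a 0 1 * h2
  · linear_combination 2 * b 1 0 * h1 - 2 * a 1 0 * h2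
  · linear_combination -2 * b 0 0 * h1 + 2 * a 0 0 * h2

end Perp

/-! ### Conjugates of a non-scalar element span everything -/

section Span

variable {𝒢 : Type*} [Group 𝒢] {r : 𝒢 →* GL (Fin 2) k}

theorem conj_mul_val (g : GL (Fin 2) k) (m : M2 k) :
    actG 1 g m * g.val = g.val * m := by
  rw [actG_one_def, Matrix.mul_assoc]
  have : (g⁻¹ : GL (Fin 2) k).val * g.val = 1 := by
    rw [← Matrix.GeneralLinearGroup.coe_mul, inv_mul_cancel]; rfl
  rw [this, Matrix.mul_one]

theorem trace_actG_mul_actG (g h : GL (Fin 2) k) (m y : M2 k) :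
    (actG 1 g m * actG 1 h y).trace = (actG 1 (h⁻¹ * g) m * y).trace := by
  rw [actG_mul, actG_one_def h y, actG_one_def h⁻¹, inv_inv]
  rw [← Matrix.mul_assoc, Matrix.trace_mul_comm, ← Matrix.mul_assoc, ← Matrix.mul_assoc]

/-- **The conjugates of a non-scalar matrix are not all orthogonal to a non-zero trace-zero
matrix.** -/
theorem exists_trace_conj_ne_zero (h2 : (2 : k) ≠ 0) (hI : IrrHyp r) {m : M2 k} (hm : m ≠ 0)
    (hmtr : m.trace = 0) {s : GL (Fin 2) k} (hs : ¬ IsScalar s) :
    ∃ g, (actG 1 (r g) m * s.val).trace ≠ 0 := by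
  by_contra hcon
  push Not at hcon
  -- the trace-zero part of `s`
  set y : M2 k := s.val - (s.val.trace / 2) • (1 : M2 k) with hy
  have hytr : y.trace = 0 := by
    rw [hy, Matrix.trace_sub, Matrix.trace_smul, Matrix.trace_one, Fintype.card_fin, smul_eq_mul]
    push_cast
    field_simp
    ring
  have hy0 : y ≠ 0 := by
    intro h
    exact hs (not_isScalar_iff.2 ⟨_, sub_eq_zero.1 h⟩)
  have hmg : ∀ g, (actG 1 (r g) m).trace = 0 := fun g => by rw [trace_actG, hmtr, mul_zero]
  have hyg : ∀ g, (actG 1 (r g) y).trace = 0 := fun g => by rw [trace_actG, hytr, mul_zero]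
  have hperp0 : ∀ g, (actG 1 (r g) m * y).trace = 0 := by
    intro g
    rw [hy, Matrix.mul_sub, Matrix.trace_sub, hcon g, Matrix.mul_smul, Matrix.mul_one,
      Matrix.trace_smul, hmg g, smul_zero, sub_zero]
  have hperp : ∀ g h, (actG 1 (r h) y * actG 1 (r g) m).trace = 0 := by
    intro g h
    rw [Matrix.trace_mul_comm, trace_actG_mul_actG, ← map_inv, ← map_mul]
    exact hperp0 _
  by_cases hcomm : ∀ g, m * actG 1 (r g) m = actG 1 (r g) m * m
  · -- the line spanned by `m` is stable
    refine no_stable_line_ad h2 hI hm hmtr fun g => ?_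
    obtain ⟨c, hc⟩ := exists_smul_of_commute h2 hm hmtr (hmg g) (hcomm g).symm
    refine ⟨c, ?_⟩
    rw [← conj_mul_val, hc, Matrix.smul_mul]
  · push Not at hcomm
    obtain ⟨g₁, hg₁⟩ := hcomm
    set m₁ := actG 1 (r g₁) m with hm₁
    set w : M2 k := m * m₁ - m₁ * m with hw
    have hw0 : w ≠ 0 := fun h => hg₁ (sub_eq_zero.1 h)
    have hwtr : w.trace = 0 := by
      rw [hw, Matrix.trace_sub, Matrix.trace_mul_comm, sub_self]
    have hyw : ∀ h, ∃ c : k, actG 1 (r h) y = c • w := by
      intro h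
      have e1 : (actG 1 (r h) y * m).trace = 0 := by
        have := hperp 1 h
        rwa [map_one, actG_one] at this
      have e2 : (actG 1 (r h) y * m₁).trace = 0 := hperp g₁ h
      have hcm := commute_bracket_of_perp hmtr (hmg g₁) (hyg h) e1 e2
      exact exists_smul_of_commute h2 hw0 hwtr (hyg h) hcm
    obtain ⟨c₁, hc₁⟩ := hyw 1
    rw [map_one, actG_one] at hc₁
    have hc₁0 : c₁ ≠ 0 := by
      rintro rfl
      rw [zero_smul] at hc₁
      exact hy0 hc₁
    have hwy : w = c₁⁻¹ • y := by rw [hc₁, smul_smul, inv_mul_cancel₀ hc₁0, one_smul]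
    refine no_stable_line_ad h2 hI hy0 hytr fun g => ?_
    obtain ⟨c, hc⟩ := hyw g
    refine ⟨c * c₁⁻¹, ?_⟩
    rw [← conj_mul_val, hc, hwy, smul_smul, Matrix.smul_mul]

end Span

/-! ### A regular semisimple element in the kernel of a cyclic character -/

section Regular

theorem exists_discr_ne_zero_of_parabolic (h2 : (2 : k) ≠ 0) {u₁ u : GL (Fin 2) k}
    (h10 : u₁ 1 0 = 0) (h00 : u₁ 0 0 = u₁ 1 1) (h01 : u₁ 0 1 ≠ 0) (hu : u 1 0 ≠ 0)
    (hd : discr u = 0) : discr (u₁ * u) ≠ 0 ∨ discr (u₁ * u₁ * u) ≠ 0 := by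
  by_contra hcon
  push Not at hcon
  obtain ⟨d1, d2⟩ := hcon
  have ha : u₁ 0 0 ≠ 0 := (diag_ne_zero h10).1
  unfold Mob.discr at hd d1 d2
  simp only [mul_entry, h10, ← h00] at d1 d2
  have e1 : u₁ 0 1 * u 1 0 * (2 * u₁ 0 0 * (u 0 0 + u 1 1) + u₁ 0 1 * u 1 0) = 0 := by
    linear_combination d1 - u₁ 0 0 ^ 2 * hd
  have e2 : 4 * u₁ 0 0 ^ 2 * (u₁ 0 1 * u 1 0) *
      (u₁ 0 0 * (u 0 0 + u 1 1) + u₁ 0 1 * u 1 0) = 0 := by
    linear_combination d2 - u₁ 0 0 ^ 4 * hd
  have hbg : u₁ 0 1 * u 1 0 ≠ 0 := mul_ne_zero h01 hu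
  have f1 : 2 * u₁ 0 0 * (u 0 0 + u 1 1) + u₁ 0 1 * u 1 0 = 0 :=
    (mul_eq_zero.1 e1).resolve_left hbg
  have h4 : (4 : k) ≠ 0 := by
    have : (4 : k) = 2 * 2 := by norm_num
    rw [this]
    exact mul_ne_zero h2 h2
  have f2 : u₁ 0 0 * (u 0 0 + u 1 1) + u₁ 0 1 * u 1 0 = 0 :=
    (mul_eq_zero.1 e2).resolve_left (mul_ne_zero (mul_ne_zero h4 (pow_ne_zero 2 ha)) hbg)
  apply hbg
  linear_combination 2 * f2 - f1

variable {𝒢 : Type*} [Group 𝒢] {r : 𝒢 →* GL (Fin 2) k}

/-- **A normal subgroup with cyclic quotient contains a regular semisimple element.** -/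
theorem exists_regular_in_ker (h2 : (2 : k) ≠ 0) (hI : IrrHyp r) {A : Type*} [CommGroup A]
    [IsCyclic A] (ε : 𝒢 →* A) : ∃ σ, ε σ = 1 ∧ discr (r σ) ≠ 0 := by
  by_contra hcon
  push Not at hcon
  by_cases hsc : ∀ σ, ε σ = 1 → IsScalar (r σ)
  · -- the image of `r` is abelian
    obtain ⟨⟨γ, g₁, rfl⟩, hγ⟩ := IsCyclic.exists_generator (α := ε.range)
    have hdecomp : ∀ g, ∃ n : ℤ, IsScalar (r (g₁ ^ (-n) * g)) := by
      intro g
      have := hγ ⟨ε g, g, rfl⟩
      obtain ⟨n, hn⟩ := Subgroup.mem_zpowers_iff.1 this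
      have hn' : ε g₁ ^ n = ε g := by
        have := congrArg Subtype.val hn
        simpa using this
      refine ⟨n, hsc _ ?_⟩
      rw [map_mul, map_zpow, ← hn', ← _root_.zpow_add, neg_add_cancel, zpow_zero]
    have hcomm : ∀ g h, r g * r h = r h * r g := by
      intro g h
      obtain ⟨n, hn⟩ := hdecomp g
      obtain ⟨m, hm⟩ := hdecomp h
      have eg : r g = r g₁ ^ n * r (g₁ ^ (-n) * g) := by
        rw [← map_zpow, ← map_mul, ← mul_assoc, ← _root_.zpow_add, add_neg_cancel, zpow_zero,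
          one_mul]
      have eh : r h = r g₁ ^ m * r (g₁ ^ (-m) * h) := by
        rw [← map_zpow, ← map_mul, ← mul_assoc, ← _root_.zpow_add, add_neg_cancel, zpow_zero,
          one_mul]
      set z := r (g₁ ^ (-n) * g) with hz
      set z' := r (g₁ ^ (-m) * h) with hz'
      have c1 := mul_comm_of_mem_Sgl (mem_Sgl.2 hn)
      have c2 := mul_comm_of_mem_Sgl (mem_Sgl.2 hm)
      rw [eg, eh]
      have hRR : r g₁ ^ n * r g₁ ^ m = r g₁ ^ m * r g₁ ^ n :=
        ((Commute.refl (r g₁)).zpow_zpow n m).eq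
      calc r g₁ ^ n * z * (r g₁ ^ m * z') = r g₁ ^ n * (z * r g₁ ^ m) * z' := by
            simp only [mul_assoc]
        _ = r g₁ ^ n * (r g₁ ^ m * z) * z' := by rw [c1]
        _ = (r g₁ ^ n * r g₁ ^ m) * (z * z') := by simp only [mul_assoc]
        _ = (r g₁ ^ m * r g₁ ^ n) * (z' * z) := by rw [hRR, c1 z']
        _ = r g₁ ^ m * (r g₁ ^ n * z') * z := by simp only [mul_assoc]
        _ = r g₁ ^ m * (z' * r g₁ ^ n) * z := by rw [c2]
        _ = r g₁ ^ m * z' * (r g₁ ^ n * z) := by simp only [mul_assoc]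
    by_cases hall : ∀ g, IsScalar (r g)
    · obtain ⟨g, -, hne⟩ := hI.top ![1, 0] (by
        intro h
        have := congrFun h 0
        simp at this)
      obtain ⟨c, hc⟩ := not_isScalar_iff.1 (hall g)
      apply hne c
      rw [hc, Matrix.smul_mulVec, Matrix.one_mulVec]
    · push Not at hall
      obtain ⟨g₀, hns⟩ := hall
      obtain ⟨v, hv, α, hα⟩ := exists_eigenvector h2 hns (hI.sq g₀)
      set Y : M2 k := (r g₀).val - α • (1 : M2 k) with hY
      have hY0 : Y ≠ 0 := fun h => hns (not_isScalar_iff.2 ⟨α, sub_eq_zero.1 h⟩)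
      have hYv : Y *ᵥ v = 0 := by
        rw [hY, Matrix.sub_mulVec, hα, Matrix.smul_mulVec, Matrix.one_mulVec, sub_self]
      obtain ⟨g, -, hne⟩ := hI.top v hv
      have hc' : (r g₀).val * (r g).val = (r g).val * (r g₀).val := by
        rw [← Matrix.GeneralLinearGroup.coe_mul, ← Matrix.GeneralLinearGroup.coe_mul, hcomm]
      have hYg : Y * (r g).val = (r g).val * Y := by
        rw [hY, Matrix.sub_mul, Matrix.mul_sub, hc', Matrix.smul_mul, Matrix.mul_smul,
          Matrix.one_mul, Matrix.mul_one]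
      have hYgv : Y *ᵥ ((r g).val *ᵥ v) = 0 := by
        rw [Matrix.mulVec_mulVec, hYg, ← Matrix.mulVec_mulVec, hYv, Matrix.mulVec_zero]
      obtain ⟨c, hc⟩ := exists_smul_of_mulVec_eq_zero hY0 hv hYv hYgv
      exact hne c hc
  · -- a parabolic element in the kernel
    push Not at hsc
    obtain ⟨σ₁, hσ₁, hns₁⟩ := hsc
    have hd₁ := hcon σ₁ hσ₁
    obtain ⟨S, hS, hcases⟩ := exists_fixedFinset h2 (r σ₁) hns₁ 0 (by rw [hd₁]; ring)
    have hScard : S.card = 1 := by
      rcases hcases with h | h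
      · exact h.1
      · exact absurd hd₁ h.2
    obtain ⟨x₁, hx₁⟩ := Finset.card_eq_one.1 hScard
    have hfix₁ : ∀ x, r σ₁ • x = x ↔ x = x₁ := by
      intro x
      rw [← hS x, hx₁, Finset.mem_singleton]
    obtain ⟨g₀, hg₀⟩ := exists_smul_eq_infty x₁
    set u₁ : GL (Fin 2) k := g₀ * r σ₁ * g₀⁻¹ with hu₁
    have hu₁fix : u₁ • (∞ : OnePoint k) = ∞ := by
      rw [hu₁, mul_smul, mul_smul, ← hg₀, inv_smul_smul, (hfix₁ x₁).2 rfl]
    have h10 : u₁ 1 0 = 0 := smul_infty_eq_self_iff.1 hu₁fix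
    have hdu₁ : discr u₁ = 0 := by rw [hu₁, Mob.discr_conj, hd₁]
    have h00 : u₁ 0 0 = u₁ 1 1 := by
      rw [discr_of_upper h10] at hdu₁
      exact sub_eq_zero.1 (pow_eq_zero_iff two_ne_zero |>.1 hdu₁)
    have hnsu₁ : ¬ IsScalar u₁ := not_isScalar_conj g₀ hns₁
    have h01 : u₁ 0 1 ≠ 0 := fun h => hnsu₁ ⟨h, h10, h00⟩
    -- every element of the kernel fixes `x₁`
    have hker : ∀ σ, ε σ = 1 → r σ • x₁ = x₁ := by
      intro σ hσ
      by_contra hne
      set u : GL (Fin 2) k := g₀ * r σ * g₀⁻¹ with hu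
      have hu10 : u 1 0 ≠ 0 := by
        intro h
        apply hne
        have hfix : u • (∞ : OnePoint k) = ∞ := smul_infty_eq_self_iff.2 h
        rw [hu, mul_smul, mul_smul, ← hg₀, inv_smul_smul] at hfix
        have := congrArg (fun x => g₀⁻¹ • x) hfix
        simp only [inv_smul_smul] at this
        exact this
      have hdu : discr u = 0 := by rw [hu, Mob.discr_conj, hcon σ hσ]
      rcases exists_discr_ne_zero_of_parabolic h2 h10 h00 h01 hu10 hdu with h | h
      · apply h
        have : u₁ * u = g₀ * r (σ₁ * σ) * g₀⁻¹ := by rw [hu₁, hu, map_mul]; group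
        rw [this, Mob.discr_conj]
        exact hcon _ (by rw [map_mul, hσ₁, hσ, one_mul])
      · apply h
        have : u₁ * u₁ * u = g₀ * r (σ₁ * σ₁ * σ) * g₀⁻¹ := by
          rw [hu₁, hu, map_mul, map_mul]; group
        rw [this, Mob.discr_conj]
        exact hcon _ (by rw [map_mul, map_mul, hσ₁, hσ, one_mul, one_mul])
    -- hence everything fixes `x₁`
    obtain ⟨g, hg⟩ := hI.moves x₁
    apply hg
    have h1 : ε (g⁻¹ * σ₁ * g) = 1 := by
      rw [map_mul, map_mul, map_inv, hσ₁, mul_one, inv_mul_cancel]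
    have h3 := hker _ h1
    rw [map_mul, map_mul, map_inv, mul_smul, mul_smul] at h3
    have h4 : r σ₁ • (r g • x₁) = r g • x₁ := by
      have := congrArg (fun x => r g • x) h3
      simp only [smul_inv_smul] at this
      exact this
    exact (hfix₁ _).1 h4

end Regular

end Fermat.Agent.TW.Coh
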