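import Mathlib
import Fermat.Agent.TW.Sigma_helper1_Irr

/-!
# Taylor–Wiles elements (helper1, S56 leaf C)

Setting: an arbitrary group `𝒢` (e.g. `G_ℚ`, or a finite Galois group), `k` a finite field of odd
characteristic `p`, `r : 𝒢 →* GL₂(k)`, a character `ε : 𝒢 →* A` with values in a cyclic group
(e.g. the cyclotomic character modulo `p ^ (n + 1)`), `χ = det r : 𝒢 →* kˣ` trivial on `ker ε`,
and a trace-zero cocycle `ψ : 𝒢 → M₂(k)` for the action `g • m = χ g • (r g m (r g)⁻¹)`.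

* `isCoboundary_of_vanish_on_ker`: if `ψ` vanishes on `ker r ∩ ker ε` it is a coboundary
  (`H¹(Gal(F_n/ℚ), ad⁰(1)) = 0`);
* `exists_sigma_TW`: if `ψ` is not a coboundary there is `σ` with `ε σ = 1`, `r σ` regular
  semisimple and `tr (ψ σ · r σ) ≠ 0` (equivalently `ψ σ ∉ (σ - 1) ad⁰(1)`);
* `IsTWElement.stable`: these properties are inherited by every `φ` generating, modulo a normal
  subgroup `N` on which `r`, `ε`, `ψ` are trivial, the same cyclic subgroup as a conjugate of `σ`.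
-/

set_option autoImplicit false
set_option linter.unusedSectionVars false

namespace Fermat.Agent.TW.Coh

open Matrix Mob OnePoint MulAction

variable {k : Type*} [Field k] [DecidableEq k]
variable {𝒢 : Type*} [Group 𝒢] {A : Type*} [CommGroup A]

/-- The hypotheses of the Taylor–Wiles element selection. -/
structure TWData (p : ℕ) (r : 𝒢 →* GL (Fin 2) k) (χ : 𝒢 →* kˣ) (ε : 𝒢 →* A) : Prop where
  irr : IrrHyp r
  hχ : ∀ g, χ g = detχ (r g)
  hχε : ∀ g, ε g = 1 → χ g = 1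
  hχ2 : p = 3 ∨ ∃ g, ((χ g : kˣ) : k) ^ 2 ≠ 1

variable {p : ℕ} {r : 𝒢 →* GL (Fin 2) k} {χ : 𝒢 →* kˣ} {ε : 𝒢 →* A}

theorem act_eq_actG (D : TWData p r χ ε) (g : 𝒢) (m : M2 k) :
    act r χ g m = actG detχ (r g) m := by
  rw [actG_def, ← D.hχ g]
  rfl

theorem act_eq_actG_one (g : 𝒢) (hg : χ g = 1) (m : M2 k) :
    act r χ g m = actG 1 (r g) m := by
  rw [actG_one_def]
  unfold act
  rw [hg]
  simp

theorem act_of_ker (D : TWData p r χ ε) {a : 𝒢} (ha : r a = 1) (m : M2 k) : act r χ a m = m := by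
  rw [act_eq_actG D, ha, actG_one]

/-- An invariant trace-zero matrix vanishes. -/
theorem eq_zero_of_invariant (h2 : (2 : k) ≠ 0) (D : TWData p r χ ε) {m : M2 k}
    (hmtr : m.trace = 0) (hinv : ∀ g, act r χ g m = m) : m = 0 := by
  by_contra hm
  refine no_stable_line_ad h2 D.irr hm hmtr fun g => ?_
  refine ⟨((χ g : kˣ) : k)⁻¹, ?_⟩
  have h1 := hinv g
  have hχ0 : ((χ g : kˣ) : k) ≠ 0 := Units.ne_zero _
  have h3 : actG 1 (r g) m = ((χ g : kˣ) : k)⁻¹ • m := by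
    have : act r χ g m = ((χ g : kˣ) : k) • actG 1 (r g) m := by
      rw [actG_one_def]; rfl
    rw [this] at h1
    have h4 : actG 1 (r g) m = ((χ g : kˣ) : k)⁻¹ • (((χ g : kˣ) : k) • actG 1 (r g) m) := by
      rw [smul_smul, inv_mul_cancel₀ hχ0, one_smul]
    rw [h4, h1]
  rw [← conj_mul_val, h3, Matrix.smul_mul]

/-- A cocycle vanishing on `ker r ∩ ker ε` vanishes on `ker r`. -/
theorem eq_zero_of_mem_ker (h2 : (2 : k) ≠ 0) (D : TWData p r χ ε) {ψ : 𝒢 → M2 k}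
    (hψ : IsCocycle r χ ψ) (h𝒩 : ∀ a, r a = 1 → ε a = 1 → ψ a = 0) {a : 𝒢} (ha : r a = 1) :
    ψ a = 0 := by
  refine eq_zero_of_invariant h2 D (hψ.tr a) ?_
  refine hψ.invariant_of_central a (act_of_ker D ha) fun g => ?_
  set n : 𝒢 := a⁻¹ * g⁻¹ * a * g with hn
  have hrn : r n = 1 := by
    rw [hn, map_mul, map_mul, map_mul, map_inv, map_inv, ha]
    group
  have hεn : ε n = 1 := by
    rw [hn, map_mul, map_mul, map_mul, map_inv, map_inv]
    rw [mul_comm (ε a)⁻¹, mul_assoc, mul_assoc, mul_comm (ε a)⁻¹, ← mul_assoc, ← mul_assoc]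
    simp
  have e : a * g = g * a * n := by rw [hn]; group
  rw [e, hψ.mul_of_eq_zero _ (h𝒩 n hrn hεn)]

/-- **`H¹(Gal(F_n/ℚ), ad⁰(1)) = 0`**: a cocycle vanishing on `ker r ∩ ker ε` is a coboundary. -/
theorem isCoboundary_of_vanish_on_ker [Fintype k] [Fact p.Prime] [CharP k p] (hp2 : p ≠ 2)
    (D : TWData p r χ ε) {ψ : 𝒢 → M2 k} (hψ : IsCocycle r χ ψ)
    (h𝒩 : ∀ a, r a = 1 → ε a = 1 → ψ a = 0) : IsCoboundary r χ ψ := by
  classical
  have h2 : (2 : k) ≠ 0 := by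
    intro h
    have h' : ((2 : ℕ) : k) = 0 := by exact_mod_cast h
    have hdvd : p ∣ 2 := (CharP.cast_eq_zero_iff k p _).1 h'
    exact hp2 ((Nat.prime_dvd_prime_iff_eq (Fact.out : p.Prime) Nat.prime_two).1 hdvd)
  have hker : ∀ a, r a = 1 → ψ a = 0 := fun a ha => eq_zero_of_mem_ker h2 D hψ h𝒩 ha
  -- descent to the image
  set ψbar : GL (Fin 2) k → M2 k :=
    fun h => if hh : h ∈ r.range then ψ (Classical.choose hh) else 0 with hψbar
  have hbar : ∀ g, ψbar (r g) = ψ g := by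
    intro g
    have hmem : r g ∈ r.range := ⟨g, rfl⟩
    rw [hψbar]
    simp only [dif_pos hmem]
    have hspec : r (Classical.choose hmem) = r g := Classical.choose_spec hmem
    set g' := Classical.choose hmem with hg'
    have ha : r (g⁻¹ * g') = 1 := by rw [map_mul, map_inv, hspec, inv_mul_cancel]
    have e : g' = g * (g⁻¹ * g') := by group
    rw [e, hψ.mul_of_eq_zero g (hker _ ha)]
  have hcoc : IsCocycleOn r.range detχ ψbar := by
    refine ⟨?_, ?_⟩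
    · rintro _ ⟨g, rfl⟩
      rw [hbar]; exact hψ.tr g
    · rintro _ ⟨g, rfl⟩ _ ⟨g', rfl⟩
      rw [← map_mul, hbar, hbar, hbar, hψ.mul, act_eq_actG D]
  have hdet : p = 3 ∨ ∃ h ∈ r.range, h.val.det ^ 2 ≠ 1 := by
    rcases D.hχ2 with h | ⟨g, hg⟩
    · exact Or.inl h
    · refine Or.inr ⟨r g, ⟨g, rfl⟩, ?_⟩
      rw [← detχ_apply, ← D.hχ g]
      exact hg
  obtain ⟨m, hm, hcob⟩ := isCoboundaryOn_of_irreducible p hp2 r.range
    (by rintro _ ⟨g, rfl⟩; exact D.irr.sq g)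
    (fun x => by obtain ⟨g, hg⟩ := D.irr.moves x; exact ⟨r g, ⟨g, rfl⟩, hg⟩) hdet hcoc
  refine ⟨m, hm, fun g => ?_⟩
  rw [← hbar, hcob _ ⟨g, rfl⟩, act_eq_actG D]

/-- Taylor–Wiles elements: `ε σ = 1`, `r σ` is regular semisimple, and `ψ σ` pairs non-trivially
with `r σ` (equivalently, `ψ σ ∉ (σ - 1) ad⁰`). -/
def IsTWElement (r : 𝒢 →* GL (Fin 2) k) (ε : 𝒢 →* A) (ψ : 𝒢 → M2 k) (σ : 𝒢) : Prop :=
  ε σ = 1 ∧ discr (r σ) ≠ 0 ∧ (ψ σ * (r σ).val).trace ≠ 0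

theorem discr_eq_zero_of_isScalar {g : GL (Fin 2) k} (hg : IsScalar g) : discr g = 0 := by
  obtain ⟨h01, h10, h00⟩ := hg
  rw [Mob.discr, h01, h10, h00]
  ring

theorem two_ne_zero_of_char (p : ℕ) [Fact p.Prime] [CharP k p] (hp2 : p ≠ 2) : (2 : k) ≠ 0 := by
  intro h
  have h' : ((2 : ℕ) : k) = 0 := by exact_mod_cast h
  have hdvd : p ∣ 2 := (CharP.cast_eq_zero_iff k p _).1 h'
  exact hp2 ((Nat.prime_dvd_prime_iff_eq (Fact.out : p.Prime) Nat.prime_two).1 hdvd)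

/-- **Existence of Taylor–Wiles elements.** -/
theorem exists_sigma_TW [Fintype k] [Fact p.Prime] [CharP k p] [IsCyclic A] (hp2 : p ≠ 2)
    (D : TWData p r χ ε) {ψ : 𝒢 → M2 k} (hψ : IsCocycle r χ ψ) (hne : ¬ IsCoboundary r χ ψ) :
    ∃ σ, IsTWElement r ε ψ σ := by
  have h2 : (2 : k) ≠ 0 := two_ne_zero_of_char p hp2
  -- `ψ` is non-trivial on `ker r ∩ ker ε`
  have hτ₀ : ∃ τ₀, r τ₀ = 1 ∧ ε τ₀ = 1 ∧ ψ τ₀ ≠ 0 := by
    by_contra hcon
    push Not at hcon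
    exact hne (isCoboundary_of_vanish_on_ker hp2 D hψ hcon)
  obtain ⟨τ₀, hrτ₀, hετ₀, hψτ₀⟩ := hτ₀
  obtain ⟨σ₀, hεσ₀, hdσ₀⟩ := exists_regular_in_ker h2 D.irr ε
  have hns : ¬ IsScalar (r σ₀) := fun h => hdσ₀ (discr_eq_zero_of_isScalar h)
  by_cases htr : (ψ σ₀ * (r σ₀).val).trace = 0
  swap
  · exact ⟨σ₀, hεσ₀, hdσ₀, htr⟩
  obtain ⟨g, hg⟩ := exists_trace_conj_ne_zero h2 D.irr hψτ₀ (hψ.tr τ₀) hns
  set τ : 𝒢 := g * τ₀ * g⁻¹ with hτ
  have hrτ : r τ = 1 := by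
    rw [hτ, map_mul, map_mul, hrτ₀, mul_one, map_inv, mul_inv_cancel]
  have hετ : ε τ = 1 := by
    rw [hτ, map_mul, map_mul, hετ₀, mul_one, map_inv, mul_inv_cancel]
  have hψτ : ψ τ = act r χ g (ψ τ₀) := hψ.conj_of_act_trivial g τ₀ (act_of_ker D hrτ)
  have hact : act r χ g (ψ τ₀) = ((χ g : kˣ) : k) • actG 1 (r g) (ψ τ₀) := by
    rw [actG_one_def]; rfl
  refine ⟨τ * σ₀, ?_, ?_, ?_⟩
  · rw [map_mul, hετ, hεσ₀, one_mul]
  · rw [map_mul, hrτ, one_mul]; exact hdσ₀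
  · rw [map_mul, hrτ, one_mul, hψ.mul, act_of_ker D hrτ, Matrix.add_mul, Matrix.trace_add, htr,
      add_zero, hψτ, hact, Matrix.smul_mul, Matrix.trace_smul, smul_eq_mul]
    exact mul_ne_zero (Units.ne_zero _) hg

end Fermat.Agent.TW.Coh


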