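import Mathlib
import Fermat.Agent.TW.Sigma_helper1_Main

/-!
# Stability of Taylor–Wiles elements (helper1, S56 leaf C)

* `IsTWElement.stable`: if `σ` is a Taylor–Wiles element and `φ` generates, modulo a normal
  subgroup `N` on which `r`, `ε`, `ψ` are trivial, the same cyclic subgroup as a conjugate of `σ`,
  then `φ` is a Taylor–Wiles element.  This is the shape delivered by the Frobenius density theorem.
* `IsTWElement.charpoly`: the characteristic polynomial of `r σ` has two distinct roots in `k`.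
* `IsTWElement.not_mem_range`: `ψ σ ∉ (σ - 1) M₂(k)`.
-/

set_option autoImplicit false
set_option linter.unusedSectionVars false

namespace Fermat.Agent.TW.Coh

open Matrix Mob OnePoint MulAction

variable {k : Type*} [Field k] [DecidableEq k]
variable {𝒢 : Type*} [Group 𝒢] {A : Type*} [CommGroup A]
variable {p : ℕ} {r : 𝒢 →* GL (Fin 2) k} {χ : 𝒢 →* kˣ} {ε : 𝒢 →* A}

/-! ### The algebra generated by a `2 × 2` matrix -/

/-- `Y` lies in the span of `1` and `s`. -/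
def InSpan (s Y : M2 k) : Prop := ∃ c₀ c₁ : k, Y = c₀ • (1 : M2 k) + c₁ • s

theorem sq_eq (s : M2 k) : s * s = s.trace • s - s.det • (1 : M2 k) := by
  ext i j
  rw [Matrix.mul_apply, Fin.sum_univ_two, Matrix.sub_apply, Matrix.smul_apply, Matrix.smul_apply,
    Matrix.trace_fin_two, Matrix.det_fin_two]
  fin_cases i <;> fin_cases j <;> simp <;> ring

theorem InSpan.one (s : M2 k) : InSpan s 1 := ⟨1, 0, by simp⟩

theorem InSpan.self (s : M2 k) : InSpan s s := ⟨0, 1, by simp⟩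

theorem InSpan.mul {s Y Z : M2 k} (hY : InSpan s Y) (hZ : InSpan s Z) : InSpan s (Y * Z) := by
  obtain ⟨a₀, a₁, rfl⟩ := hY
  obtain ⟨b₀, b₁, rfl⟩ := hZ
  refine ⟨a₀ * b₀ - a₁ * b₁ * s.det, a₀ * b₁ + a₁ * b₀ + a₁ * b₁ * s.trace, ?_⟩
  simp only [Matrix.add_mul, Matrix.mul_add, Matrix.smul_mul, Matrix.mul_smul, Matrix.one_mul,
    Matrix.mul_one, sq_eq s]
  module

theorem InSpan.inv (s : GL (Fin 2) k) : InSpan s.val (s⁻¹ : GL (Fin 2) k).val := by
  have hdet : s.val.det ≠ 0 := s.det_ne_zero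
  refine ⟨s.val.trace / s.val.det, -(1 / s.val.det), ?_⟩
  have h1 : s.val * ((s.val.trace / s.val.det) • (1 : M2 k) + (-(1 / s.val.det)) • s.val) = 1 := by
    rw [Matrix.mul_add, Matrix.mul_smul, Matrix.mul_smul, Matrix.mul_one, sq_eq]
    have e2 : (1 / s.val.det) * s.val.det = 1 := by field_simp
    have e3 : (-(1 / s.val.det)) • (s.val.trace • s.val - s.val.det • (1 : M2 k)) =
        (-(s.val.trace / s.val.det)) • s.val + ((1 / s.val.det) * s.val.det) • (1 : M2 k) := by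
      module
    rw [e3, e2]
    module
  have h2 : (s⁻¹ : GL (Fin 2) k).val * s.val = 1 := by
    rw [← Matrix.GeneralLinearGroup.coe_mul, inv_mul_cancel]; rfl
  calc (s⁻¹ : GL (Fin 2) k).val = (s⁻¹ : GL (Fin 2) k).val * (s.val *
        ((s.val.trace / s.val.det) • (1 : M2 k) + (-(1 / s.val.det)) • s.val)) := by
        rw [h1, Matrix.mul_one]
    _ = _ := by rw [← Matrix.mul_assoc, h2, Matrix.one_mul]

theorem InSpan.zpow (s : GL (Fin 2) k) (a : ℤ) : InSpan s.val (s ^ a : GL (Fin 2) k).val := by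
  induction a using Int.induction_on with
  | zero => simpa using InSpan.one s.val
  | succ n ih =>
    rw [_root_.zpow_add_one, Matrix.GeneralLinearGroup.coe_mul]
    exact ih.mul (InSpan.self _)
  | pred n ih =>
    rw [_root_.zpow_sub_one, Matrix.GeneralLinearGroup.coe_mul]
    exact ih.mul (InSpan.inv s)

theorem discr_of_inSpan {s t : GL (Fin 2) k} {c₀ c₁ : k}
    (h : t.val = c₀ • (1 : M2 k) + c₁ • s.val) : discr t = c₁ ^ 2 * discr s := by
  unfold Mob.discr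
  have e : ∀ i j, t i j = (c₀ • (1 : M2 k) + c₁ • s.val) i j := fun i j => by rw [← h]
  rw [e 0 0, e 1 1, e 0 1, e 1 0]
  simp
  ring

/-! ### Traces against matrices commuting with `r σ` -/

theorem actG_one_mul (g : GL (Fin 2) k) (m m' : M2 k) :
    actG 1 g (m * m') = actG 1 g m * actG 1 g m' := by
  rw [actG_one_def, actG_one_def, actG_one_def]
  have : (g⁻¹ : GL (Fin 2) k).val * g.val = 1 := by
    rw [← Matrix.GeneralLinearGroup.coe_mul, inv_mul_cancel]; rfl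
  calc g.val * (m * m') * (g⁻¹ : GL (Fin 2) k).val
      = g.val * m * (1 : M2 k) * m' * (g⁻¹ : GL (Fin 2) k).val := by
        simp only [Matrix.mul_assoc, Matrix.one_mul]
    _ = _ := by rw [← this]; simp only [Matrix.mul_assoc]

theorem val_conj (g h : GL (Fin 2) k) : (g * h * g⁻¹).val = actG 1 g h.val := by
  rw [actG_one_def]; simp

theorem trace_act_mul_of_commute (g : 𝒢) (hχg : χ g = 1) {X : M2 k}
    (hX : (r g).val * X = X * (r g).val) (m : M2 k) :
    (act r χ g m * X).trace = (m * X).trace := by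
  rw [act_eq_actG_one g hχg, actG_one_def]
  have h1 : ((r g)⁻¹ : GL (Fin 2) k).val * (r g).val = 1 := by
    rw [← Matrix.GeneralLinearGroup.coe_mul, inv_mul_cancel]; rfl
  have e : (r g).val * m * ((r g)⁻¹ : GL (Fin 2) k).val * X =
      (r g).val * (m * (((r g)⁻¹ : GL (Fin 2) k).val * X)) := by
    simp only [Matrix.mul_assoc]
  rw [e, Matrix.trace_mul_comm]
  have e' : m * (((r g)⁻¹ : GL (Fin 2) k).val * X) * (r g).val =
      m * (((r g)⁻¹ : GL (Fin 2) k).val * (X * (r g).val)) := by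
    simp only [Matrix.mul_assoc]
  rw [e', ← hX, ← Matrix.mul_assoc ((r g)⁻¹ : GL (Fin 2) k).val, h1, Matrix.one_mul]

/-- `tr (ψ (σ ^ a) X) = a · tr (ψ σ X)` for `X` commuting with `r σ`, when `χ σ = 1`. -/
theorem trace_cocycle_zpow {ψ : 𝒢 → M2 k} (hψ : IsCocycle r χ ψ) {σ : 𝒢} (hχσ : χ σ = 1)
    {X : M2 k} (hX : (r σ).val * X = X * (r σ).val) (a : ℤ) :
    (ψ (σ ^ a) * X).trace = (a : k) * (ψ σ * X).trace := by
  have hcent : ∀ b : ℤ, (r (σ ^ b)).val * X = X * (r (σ ^ b)).val := fun b =>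
    mem_centralizerOf.1 ((centralizerOf r X).zpow_mem (mem_centralizerOf.2 hX) b)
  have hχ : ∀ b : ℤ, χ (σ ^ b) = 1 := fun b => by rw [map_zpow, hχσ, _root_.one_zpow]
  induction a using Int.induction_on with
  | zero => simp [hψ.one]
  | succ n ih =>
    rw [_root_.zpow_add_one, hψ.mul, Matrix.add_mul, Matrix.trace_add, ih,
      trace_act_mul_of_commute _ (hχ _) (hcent _)]
    push_cast
    ring
  | pred n ih =>
    rw [_root_.zpow_sub_one, hψ.mul, hψ.inv, act_neg, ← act_mul, Matrix.add_mul, Matrix.trace_add,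
      ih, Matrix.neg_mul, Matrix.trace_neg, ← _root_.zpow_sub_one,
      trace_act_mul_of_commute _ (hχ _) (hcent _)]
    push_cast
    ring

/-! ### Stability -/

variable {ψ : 𝒢 → M2 k}

theorem IsTWElement.conj (hχε : ∀ g, ε g = 1 → χ g = 1) (hψ : IsCocycle r χ ψ) {σ : 𝒢}
    (hσ : IsTWElement r ε ψ σ) (τ : 𝒢) : IsTWElement r ε ψ (τ * σ * τ⁻¹) := by
  obtain ⟨hε, hd, htr⟩ := hσ
  have hε' : ε (τ * σ * τ⁻¹) = 1 := by
    rw [map_mul, map_mul, map_inv, hε, mul_one, mul_inv_cancel]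
  have hr : r (τ * σ * τ⁻¹) = r τ * r σ * (r τ)⁻¹ := by rw [map_mul, map_mul, map_inv]
  refine ⟨hε', by rw [hr, Mob.discr_conj]; exact hd, ?_⟩
  have hψ' : ψ (τ * σ * τ⁻¹) =
      ψ τ + act r χ τ (ψ σ) - act r χ (τ * σ * τ⁻¹) (ψ τ) := by
    rw [hψ.mul (τ * σ) τ⁻¹, hψ.mul τ σ, hψ.inv τ, act_neg, ← act_mul]
    abel
  have hs' : (r (τ * σ * τ⁻¹)).val = actG 1 (r τ) (r σ).val := by rw [hr, val_conj]
  rw [hψ', Matrix.sub_mul, Matrix.add_mul, Matrix.trace_sub, Matrix.trace_add,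
    trace_act_mul_of_commute _ (hχε _ hε') rfl]
  have : (act r χ τ (ψ σ) * (r (τ * σ * τ⁻¹)).val).trace =
      ((χ τ : kˣ) : k) * (ψ σ * (r σ).val).trace := by
    have hact : act r χ τ (ψ σ) = ((χ τ : kˣ) : k) • actG 1 (r τ) (ψ σ) := by
      rw [actG_one_def]; rfl
    rw [hact, hs', Matrix.smul_mul, Matrix.trace_smul, ← actG_one_mul, trace_actG, smul_eq_mul]
    simp
  rw [this]
  have hne : ((χ τ : kˣ) : k) * (ψ σ * (r σ).val).trace ≠ 0 := mul_ne_zero (Units.ne_zero _) htr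
  intro h
  apply hne
  linear_combination h

/-- **Stability of Taylor–Wiles elements** under passing to a generator of a conjugate cyclic
subgroup modulo a normal subgroup on which everything is trivial. -/
theorem IsTWElement.stable (hχε : ∀ g, ε g = 1 → χ g = 1) (hψ : IsCocycle r χ ψ) {σ : 𝒢}
    (hσ : IsTWElement r ε ψ σ) (N : Subgroup 𝒢) [N.Normal] (hNr : ∀ n ∈ N, r n = 1)
    (hNε : ∀ n ∈ N, ε n = 1) (hNψ : ∀ n ∈ N, ψ n = 0) {φ τ : 𝒢}
    (h : Subgroup.zpowers (QuotientGroup.mk' N φ) =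
      Subgroup.zpowers (QuotientGroup.mk' N (τ * σ * τ⁻¹))) : IsTWElement r ε ψ φ := by
  obtain ⟨hε, hd, htr⟩ := hσ.conj hχε hψ τ
  set σ' := τ * σ * τ⁻¹ with hσ'
  have hχσ' : χ σ' = 1 := hχε _ hε
  -- `φ = σ' ^ a * n` and `σ' = φ ^ b * n'`
  have h1 : QuotientGroup.mk' N φ ∈ Subgroup.zpowers (QuotientGroup.mk' N σ') := by
    rw [← h]; exact Subgroup.mem_zpowers _
  have h2 : QuotientGroup.mk' N σ' ∈ Subgroup.zpowers (QuotientGroup.mk' N φ) := by
    rw [h]; exact Subgroup.mem_zpowers _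
  obtain ⟨a, ha⟩ := Subgroup.mem_zpowers_iff.1 h1
  obtain ⟨b, hb⟩ := Subgroup.mem_zpowers_iff.1 h2
  rw [← map_zpow] at ha hb
  have hn : (σ' ^ a)⁻¹ * φ ∈ N := (QuotientGroup.eq (s := N)).1 ha
  have hn' : (φ ^ b)⁻¹ * σ' ∈ N := (QuotientGroup.eq (s := N)).1 hb
  have hφ : φ = σ' ^ a * ((σ' ^ a)⁻¹ * φ) := by group
  have hσφ : σ' = φ ^ b * ((φ ^ b)⁻¹ * σ') := by group
  have hrφ : r φ = r σ' ^ a := by
    rw [hφ, map_mul, hNr _ hn, mul_one, map_zpow]
  have hrσ' : r σ' = (r σ' ^ a) ^ b := by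
    rw [← hrφ]
    nth_rewrite 1 [hσφ]
    rw [map_mul, hNr _ hn', mul_one, map_zpow]
  have hψφ : ψ φ = ψ (σ' ^ a) := by
    rw [hφ, hψ.mul_of_eq_zero _ (hNψ _ hn)]
  -- `(r σ') ^ a = c₀ + c₁ r σ'` with `c₁ ≠ 0`
  obtain ⟨c₀, c₁, hc⟩ := InSpan.zpow (r σ') a
  have hns : ¬ IsScalar (r σ') := fun hs => hd (discr_eq_zero_of_isScalar hs)
  have hc₁ : c₁ ≠ 0 := by
    rintro rfl
    rw [zero_smul, add_zero] at hc
    have hsc : r σ' ^ a ∈ Sgl k := mem_Sgl.2 (not_isScalar_iff.2 ⟨c₀, hc⟩)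
    have := (Sgl k).zpow_mem hsc b
    rw [← hrσ'] at this
    exact hns (mem_Sgl.1 this)
  -- `a b = 1` in `k`
  have hab : ((a * b - 1 : ℤ) : k) * (ψ σ' * (r σ').val).trace = 0 := by
    have hmem : σ' ^ (a * b - 1) ∈ N := by
      have ha' : (QuotientGroup.mk' N σ') ^ a = QuotientGroup.mk' N φ := by
        rw [← map_zpow]; exact ha
      have hb' : (QuotientGroup.mk' N φ) ^ b = QuotientGroup.mk' N σ' := by
        rw [← map_zpow]; exact hb
      have e : QuotientGroup.mk' N (σ' ^ (a * b - 1)) = 1 := by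
        rw [map_zpow, _root_.zpow_sub_one, _root_.zpow_mul, ha', hb', mul_inv_cancel]
      exact (QuotientGroup.eq_one_iff _).1 e
    rw [← trace_cocycle_zpow hψ hχσ' rfl, hNψ _ hmem, Matrix.zero_mul, Matrix.trace_zero]
  have ha0 : ((a : ℤ) : k) ≠ 0 := by
    intro h0
    rcases mul_eq_zero.1 hab with h' | h'
    · push_cast at h'
      rw [h0, zero_mul] at h'
      have : (1 : k) = 0 := by linear_combination -h'
      exact one_ne_zero this
    · exact htr h'
  refine ⟨?_, ?_, ?_⟩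
  · rw [hφ, map_mul, hNε _ hn, mul_one, map_zpow, hε, _root_.one_zpow]
  · rw [hrφ, discr_of_inSpan hc]
    exact mul_ne_zero (pow_ne_zero 2 hc₁) hd
  · rw [hψφ, hrφ, hc, Matrix.mul_add, Matrix.mul_smul, Matrix.mul_smul, Matrix.mul_one,
      Matrix.trace_add, Matrix.trace_smul, Matrix.trace_smul, hψ.tr, smul_zero, zero_add,
      trace_cocycle_zpow hψ hχσ' rfl, smul_eq_mul]
    exact mul_ne_zero hc₁ (mul_ne_zero ha0 htr)

end Fermat.Agent.TW.Coh

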