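import Mathlib
import Fermat.Agent.TW.Sigma_helper1_Stable

/-!
# Taylor–Wiles elements: the interface in matrix form (helper1, S56 leaf C)

The results of `Sigma_helper1_Main` / `Sigma_helper1_Stable` restated for a homomorphism
`rbar : 𝒢 →* Matrix (Fin 2) (Fin 2) k` (as used by the deformation glue), with the action
`g • m = χ g • (rbar g * m * rbar g⁻¹)`:

* `TWHypM p rbar χ ε`: the hypotheses (irreducibility of `rbar` and of its restrictions to subgroups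
  of index two, split characteristic polynomials, `χ = det rbar`, `χ` trivial on `ker ε`, and
  `p = 3` or `χ² ≠ 1`);
* `exists_sigma_TW_matrix`: a trace-zero cocycle which is not a coboundary admits a Taylor–Wiles
  element `σ`: `ε σ = 1`, `rbar σ` has distinct eigenvalues in `k`, `tr (ψ σ * rbar σ) ≠ 0`;
* `IsTWElementM.stable`, `IsTWElementM.not_mem_range`;
* `isCoboundaryM_of_vanish_on_ker`.
-/

set_option autoImplicit false
set_option linter.unusedSectionVars false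

namespace Fermat.Agent.TW.Coh

open Matrix Mob Polynomial

variable {k : Type*} [Field k] [DecidableEq k]
variable {𝒢 : Type*} [Group 𝒢] {A : Type*} [CommGroup A]

section GLForm

variable {p : ℕ} {r : 𝒢 →* GL (Fin 2) k} {χ : 𝒢 →* kˣ} {ε : 𝒢 →* A} {ψ : 𝒢 → M2 k}

/-- For a Taylor–Wiles element, `ψ σ ∉ (σ - 1) M₂(k)`. -/
theorem IsTWElement.not_mem_range (hχε : ∀ g, ε g = 1 → χ g = 1) {σ : 𝒢}
    (hσ : IsTWElement r ε ψ σ) : ¬ ∃ m : M2 k, ψ σ = act r χ σ m - m := by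
  rintro ⟨m, hm⟩
  apply hσ.2.2
  rw [hm, Matrix.sub_mul, Matrix.trace_sub, trace_act_mul_of_commute σ (hχε σ hσ.1) rfl, sub_self]

theorem discr_of_charpoly {M : GL (Fin 2) k} {α β : k}
    (h : M.val.charpoly = (X - C α) * (X - C β)) : Mob.discr M = (α - β) ^ 2 := by
  rw [Matrix.charpoly_fin_two] at h
  have h0 := congrArg (fun P : k[X] => P.coeff 0) h
  have h1 := congrArg (fun P : k[X] => P.coeff 1) h
  have e : (X - C α) * (X - C β) = X ^ 2 - C (α + β) * X + C (α * β) := by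
    simp only [map_add, map_mul]; ring
  rw [e] at h0 h1
  simp only [coeff_add, coeff_sub, coeff_X_pow, coeff_C_mul, coeff_X_zero, coeff_X_one,
    coeff_C_zero, mul_zero, mul_one, OfNat.zero_ne_ofNat, if_false, sub_zero, zero_add,
    OfNat.one_ne_ofNat, zero_sub, coeff_C_succ, add_zero] at h0 h1
  rw [discr_eq]
  have htr : M.val.trace = α + β := by linear_combination -h1
  rw [htr, h0]
  ring

end GLForm

section MatrixForm

/-- The hypotheses of the Taylor–Wiles element selection, for a matrix-valued homomorphism. -/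
structure TWHypM (p : ℕ) (rbar : 𝒢 →* M2 k) (χ : 𝒢 →* kˣ) (ε : 𝒢 →* A) : Prop where
  habs : ∀ v : Fin 2 → k, v ≠ 0 → ∃ g, ∀ c : k, rbar g *ᵥ v ≠ c • v
  hTW : ∀ 𝒢' : Subgroup 𝒢, 𝒢'.index = 2 → ∀ v : Fin 2 → k, v ≠ 0 →
    ∃ g ∈ 𝒢', ∀ c : k, rbar g *ᵥ v ≠ c • v
  hsplit : ∀ g, ∃ α β : k, (rbar g).charpoly = (X - C α) * (X - C β)
  hdet : ∀ g, ((χ g : kˣ) : k) = (rbar g).det
  hχε : ∀ g, ε g = 1 → χ g = 1
  hχ2 : p = 3 ∨ ∃ g, ((χ g : kˣ) : k) ^ 2 ≠ 1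

variable {p : ℕ} {rbar : 𝒢 →* M2 k} {χ : 𝒢 →* kˣ} {ε : 𝒢 →* A} {ψ : 𝒢 → M2 k}

theorem toHomUnits_val (g : 𝒢) : (rbar.toHomUnits g).val = rbar g := rfl

theorem toHomUnits_inv_val (g : 𝒢) : ((rbar.toHomUnits g)⁻¹ : GL (Fin 2) k).val = rbar g⁻¹ := rfl

theorem TWHypM.toTWData (H : TWHypM p rbar χ ε) : TWData p rbar.toHomUnits χ ε where
  irr :=
    { top := fun v hv => by
        obtain ⟨g, hg⟩ := H.habs v hv
        exact ⟨g, Subgroup.mem_top g, hg⟩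
      two := fun 𝒢' h𝒢' v hv => H.hTW 𝒢' h𝒢' v hv
      sq := fun g => by
        obtain ⟨α, β, h⟩ := H.hsplit g
        exact ⟨α - β, by rw [discr_of_charpoly (M := rbar.toHomUnits g) h]; ring⟩ }
  hχ := fun g => by
    apply Units.ext
    rw [detχ_apply, H.hdet g]
    rfl
  hχε := H.hχε
  hχ2 := H.hχ2

/-- Trace-zero cocycles for `g • m = χ g • (rbar g * m * rbar g⁻¹)`. -/
def IsCocycleM (rbar : 𝒢 →* M2 k) (χ : 𝒢 →* kˣ) (ψ : 𝒢 → M2 k) : Prop :=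
  (∀ g, (ψ g).trace = 0) ∧
    ∀ g h, ψ (g * h) = ψ g + ((χ g : kˣ) : k) • (rbar g * ψ h * rbar g⁻¹)

/-- Coboundaries for `g • m = χ g • (rbar g * m * rbar g⁻¹)`. -/
def IsCoboundaryM (rbar : 𝒢 →* M2 k) (χ : 𝒢 →* kˣ) (ψ : 𝒢 → M2 k) : Prop :=
  ∃ m : M2 k, m.trace = 0 ∧ ∀ g, ψ g = ((χ g : kˣ) : k) • (rbar g * m * rbar g⁻¹) - m

theorem isCocycleM_iff : IsCocycleM rbar χ ψ ↔ IsCocycle rbar.toHomUnits χ ψ :=
  ⟨fun h => ⟨h.1, h.2⟩, fun h => ⟨h.tr, h.mul⟩⟩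

theorem isCoboundaryM_iff : IsCoboundaryM rbar χ ψ ↔ IsCoboundary rbar.toHomUnits χ ψ := Iff.rfl

/-- Taylor–Wiles elements, matrix form. -/
def IsTWElementM (rbar : 𝒢 →* M2 k) (ε : 𝒢 →* A) (ψ : 𝒢 → M2 k) (σ : 𝒢) : Prop :=
  ε σ = 1 ∧ (∃ α β : k, α ≠ β ∧ (rbar σ).charpoly = (X - C α) * (X - C β)) ∧
    (ψ σ * rbar σ).trace ≠ 0

theorem isTWElementM_iff (hsplit : ∀ g, ∃ α β : k, (rbar g).charpoly = (X - C α) * (X - C β))
    (σ : 𝒢) : IsTWElementM rbar ε ψ σ ↔ IsTWElement rbar.toHomUnits ε ψ σ := by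
  constructor
  · rintro ⟨h1, ⟨α, β, hαβ, hc⟩, h3⟩
    refine ⟨h1, ?_, h3⟩
    rw [discr_of_charpoly (M := rbar.toHomUnits σ) hc]
    exact pow_ne_zero 2 (sub_ne_zero.2 hαβ)
  · rintro ⟨h1, h2, h3⟩
    obtain ⟨α, β, hc⟩ := hsplit σ
    refine ⟨h1, ⟨α, β, ?_, hc⟩, h3⟩
    rintro rfl
    rw [discr_of_charpoly (M := rbar.toHomUnits σ) hc, sub_self] at h2
    exact h2 (by ring)

/-- **`H¹(Gal(F_n/ℚ), ad⁰(1)) = 0`**, matrix form. -/
theorem isCoboundaryM_of_vanish_on_ker [Fintype k] [Fact p.Prime] [CharP k p] (hp2 : p ≠ 2)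
    (H : TWHypM p rbar χ ε) (hψ : IsCocycleM rbar χ ψ)
    (h𝒩 : ∀ a, rbar a = 1 → ε a = 1 → ψ a = 0) : IsCoboundaryM rbar χ ψ := by
  rw [isCoboundaryM_iff]
  refine isCoboundary_of_vanish_on_ker hp2 H.toTWData (isCocycleM_iff.1 hψ) fun a ha hε => ?_
  refine h𝒩 a ?_ hε
  have := congrArg (fun u : GL (Fin 2) k => u.val) ha
  exact this

/-- **Existence of Taylor–Wiles elements**, matrix form. -/
theorem exists_sigma_TW_matrix [Fintype k] [Fact p.Prime] [CharP k p] [IsCyclic A] (hp2 : p ≠ 2)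
    (H : TWHypM p rbar χ ε) (hψ : IsCocycleM rbar χ ψ) (hne : ¬ IsCoboundaryM rbar χ ψ) :
    ∃ σ, IsTWElementM rbar ε ψ σ := by
  obtain ⟨σ, hσ⟩ := exists_sigma_TW hp2 H.toTWData (isCocycleM_iff.1 hψ)
    (fun h => hne (isCoboundaryM_iff.2 h))
  exact ⟨σ, (isTWElementM_iff H.hsplit σ).2 hσ⟩

/-- **Stability**, matrix form: the shape produced by the Frobenius density theorem. -/
theorem IsTWElementM.stable (H : TWHypM p rbar χ ε) (hψ : IsCocycleM rbar χ ψ) {σ : 𝒢}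
    (hσ : IsTWElementM rbar ε ψ σ) (N : Subgroup 𝒢) [N.Normal] (hNr : ∀ n ∈ N, rbar n = 1)
    (hNε : ∀ n ∈ N, ε n = 1) (hNψ : ∀ n ∈ N, ψ n = 0) {φ τ : 𝒢}
    (h : Subgroup.zpowers (QuotientGroup.mk' N φ) =
      Subgroup.zpowers (QuotientGroup.mk' N (τ * σ * τ⁻¹))) : IsTWElementM rbar ε ψ φ := by
  rw [isTWElementM_iff H.hsplit] at hσ ⊢
  refine hσ.stable H.hχε (isCocycleM_iff.1 hψ) N (fun n hn => ?_) hNε hNψ h
  apply Units.ext
  exact hNr n hn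

/-- For a Taylor–Wiles element, `ψ σ ∉ (σ - 1) M₂(k)`. -/
theorem IsTWElementM.not_mem_range (H : TWHypM p rbar χ ε) {σ : 𝒢}
    (hσ : IsTWElementM rbar ε ψ σ) : ¬ ∃ m : M2 k, ψ σ = rbar σ * m * rbar σ⁻¹ - m := by
  rintro ⟨m, hm⟩
  have hσ' := (isTWElementM_iff H.hsplit σ).1 hσ
  apply hσ'.not_mem_range H.hχε (χ := χ)
  refine ⟨m, ?_⟩
  rw [hm]
  congr 1
  show _ = ((χ σ : kˣ) : k) • (rbar σ * m * rbar σ⁻¹)
  rw [H.hχε σ hσ.1, Units.val_one, one_smul]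

end MatrixForm

end Fermat.Agent.TW.Coh

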