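/-
S56 (Taylor–Wiles) — helper1, leaf (K) "killing lemma", part 3: the hypotheses `TWHypM` of the
Taylor–Wiles element selection, from the literal hypotheses of S56 on a residual representation.
-/
import Fermat.Agent.TW.Sigma_helper1_Iface
import Fermat.Agent.TW.Kill_helper1_Cyc
import Fermat.Agent.S53.L0_helper3_Matrix
import Fermat.Prelude.Def_GaloisRep_LocalConditions

set_option autoImplicit false
set_option linter.unusedSectionVars false

open scoped TensorProduct
open Polynomial Matrix

namespace Fermat.Agent.TW.Kill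

open Fermat.Agent.TW.Coh Fermat.Agent.S53

/-- `Ω = AlgebraicClosure ℚ`. -/
local notation "Ω" => AlgebraicClosure ℚ
/-- `GQ = Gal(Ω/ℚ)`. -/
local notation "GQ" => (AlgebraicClosure ℚ ≃ₐ[ℚ] AlgebraicClosure ℚ)

variable {k : Type} [Field k]

section Line

variable (ρbar : ResidualGaloisRep k) (β : Module.Basis (Fin 2) k ρbar.V)

/-- the vector of `ρbar.V` with coordinates `v` -/
noncomputable def vecV (v : Fin 2 → k) : ρbar.V := β.equivFun.symm v

lemma equivFun_vecV (v : Fin 2 → k) : β.equivFun (vecV ρbar β v) = v :=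
  β.equivFun.apply_symm_apply v

lemma equivFun_map (g : GQ) (x : ρbar.V) :
    β.equivFun (ρbar.ρ g x) = resMatrixOf ρbar β g *ᵥ β.equivFun x := by
  rw [resMatrixOf_eq_toMatrix]
  exact (LinearMap.toMatrix_mulVec_repr β β (ρbar.ρ g) x).symm

lemma map_vecV_of_eigen {g : GQ} {v : Fin 2 → k} {c : k}
    (h : resMatrixOf ρbar β g *ᵥ v = c • v) : ρbar.ρ g (vecV ρbar β v) = c • vecV ρbar β v := by
  apply β.equivFun.injective
  rw [equivFun_map, map_smul, equivFun_vecV, h]

/-- a base change without stable proper subspaces (for a subgroup `G'`) has no `G'`-stable line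
over the ground field -/
theorem exists_not_eigen_of_irreducible (K : Type) [Field K] [Algebra k K] (G' : Subgroup GQ)
    (hirr : ∀ V : Submodule K (ρbar.baseChange K).V,
      (∀ σ ∈ G', ∀ x ∈ V, (ρbar.baseChange K).ρ σ x ∈ V) → V = ⊥ ∨ V = ⊤)
    (v : Fin 2 → k) (hv : v ≠ 0) :
    ∃ g ∈ G', ∀ c : k, resMatrixOf ρbar β g *ᵥ v ≠ c • v := by
  by_contra hcon
  push Not at hcon
  set x : ρbar.V := vecV ρbar β v with hx
  have hx0 : x ≠ 0 := by
    intro h0
    apply hv
    rw [← equivFun_vecV ρbar β v, ← hx, h0, map_zero]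
  set t : (ρbar.baseChange K).V := (1 : K) ⊗ₜ[k] x with ht
  have ht0 : t ≠ 0 := by
    intro h0
    apply hx0
    have h1 : (Algebra.TensorProduct.basis K β).repr t = 0 := by rw [h0, map_zero]
    rw [ht, Algebra.TensorProduct.basis_repr_tmul, one_smul] at h1
    apply β.repr.injective
    rw [map_zero]
    ext i
    have h2 := DFunLike.congr_fun h1 i
    rw [Finsupp.mapRange_apply, Finsupp.zero_apply] at h2
    rw [Finsupp.zero_apply]
    exact (map_eq_zero_iff _ (algebraMap k K).injective).1 h2
  have hstab : ∀ σ ∈ G', ∀ y ∈ Submodule.span K {t},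
      (ρbar.baseChange K).ρ σ y ∈ Submodule.span K {t} := by
    intro σ hσ y hy
    obtain ⟨c, hc⟩ := hcon σ hσ
    obtain ⟨a, rfl⟩ := Submodule.mem_span_singleton.1 hy
    rw [map_smul]
    refine Submodule.smul_mem _ _ ?_
    have h2 : (ρbar.baseChange K).ρ σ t = (algebraMap k K c) • t := by
      change (ρbar.ρ σ).baseChange K ((1 : K) ⊗ₜ[k] x) = _
      rw [LinearMap.baseChange_tmul, map_vecV_of_eigen ρbar β hc, ht, TensorProduct.tmul_smul,
        algebraMap_smul]
    rw [h2]
    exact Submodule.smul_mem _ _ (Submodule.mem_span_singleton_self t)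
  rcases hirr (Submodule.span K {t}) hstab with h | h
  · exact ht0 ((Submodule.span_singleton_eq_bot).1 h)
  · have h1 : Module.finrank K (Submodule.span K {t}) ≤ 1 := by
      refine (finrank_span_le_card ({t} : Set (ρbar.baseChange K).V)).trans ?_
      rw [Set.toFinset_singleton, Finset.card_singleton]
    rw [h, finrank_top, (ρbar.baseChange K).finrank_eq] at h1
    omega

end Line

section Chi

/-- the mod `p` cyclotomic character with values in `kˣ` -/
noncomputable def chiK (p : ℕ) [Fact p.Prime] (k : Type) [Field k] [Algebra (ZMod p) k] :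
    GQ →* kˣ :=
  (Units.map (algebraMap (ZMod p) k).toMonoidHom).comp (cyc p)

variable (p : ℕ) [Fact p.Prime] (k : Type) [Field k] [Algebra (ZMod p) k]

lemma chiK_apply (g : GQ) : ((chiK p k g : kˣ) : k) = algebraMap (ZMod p) k (cyc p g : ZMod p) :=
  rfl

lemma chiK_eq_natCast (g : GQ) : ((chiK p k g : kˣ) : k) = (((cyc p g : ZMod p)).val : k) := by
  rw [chiK_apply, ← map_natCast (algebraMap (ZMod p) k), ZMod.natCast_zmod_val]

lemma chiK_eq_one_of_cyc {g : GQ} (h : cyc p g = 1) : chiK p k g = 1 := by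
  unfold chiK
  rw [MonoidHom.comp_apply, h, map_one]

end Chi

section Main

variable (p : ℕ) [Fact p.Prime] [Algebra (ZMod p) k]

/-- **the hypotheses of the Taylor–Wiles element selection from the hypotheses of S56** -/
theorem twHypM_of_residual (hp2 : p ≠ 2)
    (ρbar : ResidualGaloisRep k) (β : Module.Basis (Fin 2) k ρbar.V)
    (habs : ρbar.IsAbsolutelyIrreducible)
    (hdet : (GaloisRepAdic.ofResidualGaloisRep ρbar).DetIsCyclotomic p)
    (hsplit : ∀ σ : GQ, ∃ α β : k, LinearMap.charpoly (ρbar.ρ σ) = (X - C α) * (X - C β))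
    (hTW : ∀ (K : Type) [Field K] [Algebra k K] (G : Subgroup GQ), G.index = 2 →
      ∀ V : Submodule K (ρbar.baseChange K).V,
        (∀ σ ∈ G, ∀ x ∈ V, (ρbar.baseChange K).ρ σ x ∈ V) → V = ⊥ ∨ V = ⊤)
    (n : ℕ) :
    TWHypM p (resMatrixOf ρbar β) (chiK p k) (cyc (p ^ (n + 1))) where
  habs := fun v hv => by
    obtain ⟨g, -, hg⟩ := exists_not_eigen_of_irreducible ρbar β (AlgebraicClosure k) ⊤
      (fun V hV => habs V fun σ x hx => hV σ (Subgroup.mem_top σ) x hx) v hv
    exact ⟨g, hg⟩
  hTW := fun G hG v hv =>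
    exists_not_eigen_of_irreducible ρbar β k G (hTW k G hG) v hv
  hsplit := fun g => by
    obtain ⟨a, b, h⟩ := hsplit g
    refine ⟨a, b, ?_⟩
    rw [resMatrixOf_eq_toMatrix, LinearMap.charpoly_toMatrix]
    exact h
  hdet := fun g => by
    have hpk : (p : k) = 0 := by
      have h1 := hdet.1
      rw [IsLocalRing.maximalIdeal_eq_bot, Ideal.mem_bot] at h1
      exact h1
    have h1 := hdet.2 1 g ((cyc p g : ZMod p)).val (fun μ hμ => by
      rw [pow_one] at hμ
      exact cyc_spec' p g hμ)
    rw [pow_one, hpk, Ideal.span_singleton_zero, Ideal.mem_bot, sub_eq_zero] at h1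
    rw [chiK_eq_natCast, ← h1, resMatrixOf_eq_toMatrix, LinearMap.det_toMatrix]
    rfl
  hχε := fun g hg =>
    chiK_eq_one_of_cyc p k (cyc_eq_one_of_dvd (Dvd.intro_left (p ^ n) rfl) hg)
  hχ2 := by
    by_cases hp3 : p = 3
    · exact Or.inl hp3
    · right
      have hchar : CharP k p := charP_of_injective_algebraMap (algebraMap (ZMod p) k).injective p
      have h2 : (2 : ZMod p) ≠ 0 := by
        intro h
        have h' : ((2 : ℕ) : ZMod p) = 0 := by exact_mod_cast h
        have : p ∣ 2 := (ZMod.natCast_eq_zero_iff 2 p).1 h'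
        have hp := (Fact.out : p.Prime)
        have := (Nat.prime_dvd_prime_iff_eq hp Nat.prime_two).1 this
        exact hp2 this
      obtain ⟨g, hg⟩ := cyc_surjective p (Units.mk0 2 h2)
      refine ⟨g, ?_⟩
      rw [chiK_apply, hg, Units.val_mk0, map_ofNat]
      intro h4
      have h3 : ((3 : ℕ) : k) = 0 := by
        push_cast
        linear_combination h4
      have : p ∣ 3 := (CharP.cast_eq_zero_iff k p 3).1 h3
      have hp := (Fact.out : p.Prime)
      exact hp3 ((Nat.prime_dvd_prime_iff_eq hp Nat.prime_three).1 this)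

end Main

end Fermat.Agent.TW.Kill
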