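/-
S56 (Taylor–Wiles) — helper1, leaf (K) "killing lemma", part 1: the trace pairing.
For a finite field `k` of odd characteristic `p`, the `𝔽_p`-bilinear form
`(m, x) ↦ Tr_{k/𝔽_p} (tr (m x))` on trace-zero `2 × 2` matrices is perfect; composing with an
injective homomorphism `E : ZMod p →+ A` onto the `p`-torsion of an abelian group `A` identifies
`sl2 k` with `Hom_ℤ(sl2 k, A)`.
-/
import Fermat.Agent.TW.Hub_helper9

set_option autoImplicit false
set_option linter.unusedSectionVars false

namespace Fermat.Agent.TW.Kill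

open Fermat.Agent.TW Matrix

variable {k : Type} [Field k] [Finite k] {p : ℕ} [Fact p.Prime] [Algebra (ZMod p) k]

/-- the `𝔽_p`-valued trace pairing with a fixed matrix `m`, as a functional on `sl2 k` -/
noncomputable def pairF (m : Matrix (Fin 2) (Fin 2) k) : sl2 k →ₗ[ZMod p] ZMod p where
  toFun x := Algebra.trace (ZMod p) k (Matrix.trace (m * x.1))
  map_add' x y := by
    change Algebra.trace (ZMod p) k (Matrix.trace (m * (x.1 + y.1))) = _
    rw [mul_add, Matrix.trace_add, map_add]
  map_smul' c x := by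
    change Algebra.trace (ZMod p) k (Matrix.trace (m * (c • x.1))) = _
    rw [Matrix.mul_smul, Matrix.trace_smul, map_smul]
    rfl

lemma pairF_apply (m : Matrix (Fin 2) (Fin 2) k) (x : sl2 k) :
    pairF (p := p) m x = Algebra.trace (ZMod p) k (Matrix.trace (m * x.1)) := rfl

lemma pairF_add (m m' : Matrix (Fin 2) (Fin 2) k) :
    pairF (p := p) (m + m') = pairF m + pairF m' := by
  apply LinearMap.ext
  intro x
  rw [LinearMap.add_apply, pairF_apply, pairF_apply, pairF_apply, add_mul, Matrix.trace_add,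
    map_add]

lemma pairF_smul (c : ZMod p) (m : Matrix (Fin 2) (Fin 2) k) :
    pairF (p := p) (c • m) = c • pairF m := by
  apply LinearMap.ext
  intro x
  rw [LinearMap.smul_apply, pairF_apply, pairF_apply, Matrix.smul_mul, Matrix.trace_smul,
    map_smul]

/-- the pairing as a linear map `sl2 k → (sl2 k)^*` -/
noncomputable def pairT : sl2 k →ₗ[ZMod p] Module.Dual (ZMod p) (sl2 k) where
  toFun m := pairF m.1
  map_add' m m' := pairF_add m.1 m'.1
  map_smul' c m := pairF_smul c m.1

lemma pairT_apply (m x : sl2 k) :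
    pairT (p := p) m x = Algebra.trace (ZMod p) k (Matrix.trace (m.1 * x.1)) := rfl

/-- if `Tr_{k/𝔽_p}(c y) = 0` for all `c` then `y = 0` -/
lemma eq_zero_of_trace_mul_eq_zero (y : k)
    (h : ∀ c : k, Algebra.trace (ZMod p) k (c * y) = 0) : y = 0 := by
  have hnd := traceForm_nondegenerate (ZMod p) k
  refine hnd.2 y fun c => ?_
  rw [Algebra.traceForm_apply]
  exact h c

/-- the trace form is nondegenerate on `sl2 k` in characteristic `≠ 2` -/
lemma eq_zero_of_trace_mul_sl2 (h2 : (2 : k) ≠ 0) (w : sl2 k)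
    (h : ∀ x : sl2 k, Matrix.trace (w.1 * x.1) = 0) : w = 0 := by
  have hw : w.1.trace = 0 := w.2
  have e01 : (!![0, 1; 0, 0] : Matrix (Fin 2) (Fin 2) k) ∈ sl2 k := by
    rw [mem_sl2_iff, Matrix.trace_fin_two_of]; ring
  have e10 : (!![0, 0; 1, 0] : Matrix (Fin 2) (Fin 2) k) ∈ sl2 k := by
    rw [mem_sl2_iff, Matrix.trace_fin_two_of]; ring
  have e00 : (!![1, 0; 0, -1] : Matrix (Fin 2) (Fin 2) k) ∈ sl2 k := by
    rw [mem_sl2_iff, Matrix.trace_fin_two_of]; ring
  have h1 := h ⟨_, e01⟩
  have h2' := h ⟨_, e10⟩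
  have h3 := h ⟨_, e00⟩
  rw [Matrix.trace_fin_two] at hw h1 h2' h3
  simp only [Matrix.mul_apply, Fin.sum_univ_two, Matrix.of_apply, Matrix.cons_val', Matrix.cons_val_zero,
    Matrix.cons_val_one, Matrix.cons_val_fin_one, mul_zero, mul_one, zero_add, add_zero, mul_neg] at h1 h2' h3
  have h00 : w.1 0 0 = 0 := by
    have : (2 : k) * w.1 0 0 = 0 := by linear_combination hw + h3
    rcases mul_eq_zero.1 this with h' | h'
    · exact absurd h' h2
    · exact h'
  have h11 : w.1 1 1 = 0 := by linear_combination hw - h00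
  apply Subtype.ext
  ext i j
  fin_cases i <;> fin_cases j
  · exact h00
  · exact h2'
  · exact h1
  · exact h11

lemma pairT_injective (h2 : (2 : k) ≠ 0) : Function.Injective (pairT (k := k) (p := p)) := by
  rw [← LinearMap.ker_eq_bot, LinearMap.ker_eq_bot']
  intro w hw
  refine eq_zero_of_trace_mul_sl2 h2 w fun x => ?_
  refine eq_zero_of_trace_mul_eq_zero (p := p) _ fun c => ?_
  have h1 := LinearMap.congr_fun hw (c • x)
  rw [pairT_apply, LinearMap.zero_apply] at h1
  have h3 : ((c • x : sl2 k) : Matrix (Fin 2) (Fin 2) k) = c • x.1 := rfl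
  rw [h3, Matrix.mul_smul, Matrix.trace_smul, smul_eq_mul] at h1
  exact h1

lemma pairT_surjective (h2 : (2 : k) ≠ 0) : Function.Surjective (pairT (k := k) (p := p)) := by
  have hfin : Module.finrank (ZMod p) (sl2 k) =
      Module.finrank (ZMod p) (Module.Dual (ZMod p) (sl2 k)) := Subspace.dual_finrank_eq.symm
  exact (LinearMap.injective_iff_surjective_of_finrank_eq_finrank hfin).1 (pairT_injective h2)

section Exp

variable {A : Type*} [AddCommGroup A] (E : ZMod p →+ A)

/-- the homomorphism `sl2 k → A` attached to a matrix `m`: `x ↦ E (Tr_{k/𝔽_p} tr(m x))` -/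
noncomputable def Phi (m : Matrix (Fin 2) (Fin 2) k) : sl2 k →+ A :=
  E.comp (pairF (p := p) m).toAddMonoidHom

lemma Phi_apply (m : Matrix (Fin 2) (Fin 2) k) (x : sl2 k) :
    Phi E m x = E (Algebra.trace (ZMod p) k (Matrix.trace (m * x.1))) := rfl

lemma Phi_add (m m' : Matrix (Fin 2) (Fin 2) k) : Phi E (m + m') = Phi E m + Phi E m' := by
  apply AddMonoidHom.ext
  intro x
  rw [AddMonoidHom.add_apply, Phi_apply, Phi_apply, Phi_apply, add_mul, Matrix.trace_add, map_add,
    map_add]

lemma Phi_zero : Phi E (0 : Matrix (Fin 2) (Fin 2) k) = 0 := by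
  apply AddMonoidHom.ext
  intro x
  rw [Phi_apply, zero_mul, Matrix.trace_zero, map_zero, map_zero, AddMonoidHom.zero_apply]

lemma Phi_neg (m : Matrix (Fin 2) (Fin 2) k) : Phi E (-m) = -Phi E m := by
  apply AddMonoidHom.ext
  intro x
  rw [AddMonoidHom.neg_apply, Phi_apply, Phi_apply, neg_mul, Matrix.trace_neg, map_neg, map_neg]

lemma Phi_sub (m m' : Matrix (Fin 2) (Fin 2) k) : Phi E (m - m') = Phi E m - Phi E m' := by
  rw [sub_eq_add_neg, Phi_add, Phi_neg, sub_eq_add_neg]

/-- `E (c b) = c.val • E b` -/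
lemma map_mul_eq_nsmul (c b : ZMod p) : E (c * b) = c.val • E b := by
  rw [← map_nsmul, nsmul_eq_mul, ZMod.natCast_zmod_val]

/-- scaling by `𝔽_p` -/
lemma Phi_smul (c : ZMod p) (m : Matrix (Fin 2) (Fin 2) k) (x : sl2 k) :
    Phi E (algebraMap (ZMod p) k c • m) x = c.val • Phi E m x := by
  rw [Phi_apply, Phi_apply, Matrix.smul_mul, Matrix.trace_smul, ← map_mul_eq_nsmul,
    ← smul_eq_mul c, ← map_smul, algebraMap_smul]

/-- conjugation invariance of the pairing -/
lemma Phi_conj (u u' : Matrix (Fin 2) (Fin 2) k) (m : Matrix (Fin 2) (Fin 2) k) (x y : sl2 k)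
    (hy : y.1 = u' * x.1 * u) : Phi E m y = Phi E (u * m * u') x := by
  rw [Phi_apply, Phi_apply, hy]
  congr 2
  rw [Matrix.trace_mul_comm, Matrix.mul_assoc (u' * x.1) u m, Matrix.trace_mul_comm,
    ← Matrix.mul_assoc]

variable (hEinj : Function.Injective E) (hEsurj : ∀ a : A, p • a = 0 → ∃ z, E z = a)

include hEinj in
lemma Phi_injective (h2 : (2 : k) ≠ 0) (m : sl2 k) (h : Phi E m.1 = 0) : m = 0 := by
  apply pairT_injective (p := p) h2
  rw [map_zero]
  apply LinearMap.ext
  intro x
  have h1 := DFunLike.congr_fun h x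
  rw [Phi_apply, AddMonoidHom.zero_apply, ← map_zero E] at h1
  exact hEinj h1

include hEinj in
/-- two trace-zero matrices with the same attached homomorphism are equal -/
lemma Phi_inj (h2 : (2 : k) ≠ 0) {m m' : Matrix (Fin 2) (Fin 2) k} (hm : m.trace = 0)
    (hm' : m'.trace = 0) (h : Phi E m = Phi E m') : m = m' := by
  have hmem : m - m' ∈ sl2 k := by
    rw [mem_sl2_iff, Matrix.trace_sub, hm, hm', sub_zero]
  have h0 := Phi_injective E hEinj h2 ⟨m - m', hmem⟩ (by rw [Phi_sub, h, sub_self])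
  exact sub_eq_zero.1 (congrArg Subtype.val h0)

include hEinj hEsurj in
lemma Phi_surjective (h2 : (2 : k) ≠ 0) (hpk : (p : k) = 0) (f : sl2 k →+ A) :
    ∃ m : sl2 k, Phi E m.1 = f := by
  have hp : ∀ x : sl2 k, p • f x = 0 := by
    intro x
    rw [← map_nsmul]
    have : p • x = 0 := by
      apply Subtype.ext
      change p • x.1 = 0
      rw [← Nat.cast_smul_eq_nsmul k, hpk, zero_smul]
    rw [this, map_zero]
  choose lam hlam using fun x => hEsurj (f x) (hp x)
  have hadd : ∀ x y, lam (x + y) = lam x + lam y := by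
    intro x y
    apply hEinj
    rw [map_add, hlam, hlam, hlam, map_add]
  have hzero : lam 0 = 0 := by
    apply hEinj
    rw [hlam, map_zero, map_zero]
  let lamHom : sl2 k →+ ZMod p := { toFun := lam, map_zero' := hzero, map_add' := hadd }
  obtain ⟨m, hm⟩ := pairT_surjective (p := p) h2 (lamHom.toZModLinearMap p)
  refine ⟨m, ?_⟩
  apply AddMonoidHom.ext
  intro x
  have h1 := LinearMap.congr_fun hm x
  rw [pairT_apply] at h1
  rw [Phi_apply, h1]
  exact hlam x

end Exp

end Fermat.Agent.TW.Kill
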