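/-
S56 (Taylor–Wiles) — helper1, leaf (K) "killing lemma", part 4: translation between cocycles with
values in the master dual module `Hom_ℤ(ad⁰, Ωˣ)` and matrix-valued cocycles for the twisted
adjoint action `g • m = χ(g) r(g) m r(g)⁻¹`.
-/
import Fermat.Agent.TW.DualRep_helper9
import Fermat.Agent.TW.Kill_helper1_Pair
import Fermat.Agent.TW.Kill_helper1_Bridge

set_option autoImplicit false
set_option linter.unusedSectionVars false

open CategoryTheory groupCohomology

namespace Fermat.Agent.TW.Kill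

open Fermat.Agent.TW Fermat.Agent.TW.Coh Matrix

/-- `Ω = AlgebraicClosure ℚ`. -/
local notation "Ω" => AlgebraicClosure ℚ
/-- `GQ = Gal(Ω/ℚ)`. -/
local notation "GQ" => (AlgebraicClosure ℚ ≃ₐ[ℚ] AlgebraicClosure ℚ)

variable {p : ℕ} [Fact p.Prime]

section Exp

variable {ζ : Ωˣ}

/-- the exponential `ZMod p → Ωˣ`, `z ↦ ζ^z` (additively) -/
noncomputable def expE (ζ : Ωˣ) (hζ : ζ ^ p = 1) : ZMod p →+ OmegaRep.V where
  toFun z := Additive.ofMul (ζ ^ z.val)
  map_zero' := by rw [ZMod.val_zero, pow_zero]; rfl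
  map_add' a b := by
    rw [ZMod.val_add, ← pow_eq_pow_mod _ hζ, pow_add]; rfl

lemma expE_apply (hζ : ζ ^ p = 1) (z : ZMod p) : expE ζ hζ z = Additive.ofMul (ζ ^ z.val) := rfl

lemma expE_injective (hζ : IsPrimitiveRoot ζ p) : Function.Injective (expE ζ hζ.pow_eq_one) := by
  intro a b h
  have h1 : ζ ^ a.val = ζ ^ b.val := Additive.ofMul.injective h
  exact ZMod.val_injective p (hζ.pow_inj (ZMod.val_lt a) (ZMod.val_lt b) h1)

lemma expE_surjective (hζ : IsPrimitiveRoot ζ p) (a : OmegaRep.V) (ha : p • a = 0) :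
    ∃ z, expE ζ hζ.pow_eq_one z = a := by
  have hp : 0 < p := (Fact.out : p.Prime).pos
  have h1 : (Additive.toMul (α := Ωˣ) a : Ωˣ) ^ p = 1 := congrArg Additive.toMul ha
  obtain ⟨i, -, hi⟩ := hζ.eq_pow_of_mem_rootsOfUnity ((mem_rootsOfUnity _ _).2 h1)
  refine ⟨(i : ZMod p), ?_⟩
  rw [expE_apply, ZMod.val_natCast, ← pow_eq_pow_mod _ hζ.pow_eq_one, hi]
  rfl

/-- the Galois action on the image of the exponential -/
lemma rho_expE (hζ : ζ ^ p = 1) (g : GQ) (z : ZMod p) :
    OmegaRep.ρ g (expE ζ hζ z) = expE ζ hζ ((cyc p g : ZMod p) * z) := by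
  have h1 : g • ζ = ζ ^ ((cyc p g : ZMod p)).val := by
    apply Units.ext
    rw [Units.val_pow_eq_pow_val]
    exact cyc_spec p g ((mem_rootsOfUnity _ _).2 hζ)
  change Additive.ofMul (g • (ζ ^ z.val)) = Additive.ofMul (ζ ^ ((cyc p g : ZMod p) * z).val)
  rw [smul_pow', h1, ← pow_mul, ZMod.val_mul, ← pow_eq_pow_mod _ hζ]

end Exp

section Trans

variable {k : Type} [Field k] [Finite k] [Algebra (ZMod p) k]
variable (rbar : GQ →* Matrix (Fin 2) (Fin 2) k)

lemma natCast_p_eq_zero : ((p : ℕ) : k) = 0 := by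
  rw [← map_natCast (algebraMap (ZMod p) k), ZMod.natCast_self, map_zero]

/-- the additive homomorphism underlying an element of the dual module -/
noncomputable def toHom (f : (dualRep (adRep rbar)).V) : sl2 k →+ OmegaRep.V :=
  (show (adRep rbar).V →ₗ[ℤ] OmegaRep.V from f).toAddMonoidHom

lemma toHom_apply (f : (dualRep (adRep rbar)).V) (x : sl2 k) :
    toHom rbar f x = (show (adRep rbar).V →ₗ[ℤ] OmegaRep.V from f) x := rfl

lemma toHom_injective : Function.Injective (toHom rbar) := by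
  intro f f' h
  apply LinearMap.ext (f := (show (adRep rbar).V →ₗ[ℤ] OmegaRep.V from f))
    (g := (show (adRep rbar).V →ₗ[ℤ] OmegaRep.V from f'))
  intro x
  exact DFunLike.congr_fun h x

lemma toHom_add (f f' : (dualRep (adRep rbar)).V) :
    toHom rbar (f + f') = toHom rbar f + toHom rbar f' := rfl

lemma toHom_sub (f f' : (dualRep (adRep rbar)).V) :
    toHom rbar (f - f') = toHom rbar f - toHom rbar f' := rfl

lemma toHom_zero : toHom rbar (0 : (dualRep (adRep rbar)).V) = 0 := rfl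

/-- an additive homomorphism as an element of the dual module -/
noncomputable def ofHom (φ : sl2 k →+ OmegaRep.V) : (dualRep (adRep rbar)).V :=
  (show (adRep rbar).V →ₗ[ℤ] OmegaRep.V from
    (show (adRep rbar).V →+ OmegaRep.V from φ).toIntLinearMap)

lemma toHom_ofHom (φ : sl2 k →+ OmegaRep.V) : toHom rbar (ofHom rbar φ) = φ := rfl

lemma toHom_rho_apply (g : GQ) (f : (dualRep (adRep rbar)).V) (x y : sl2 k)
    (hy : y.1 = rbar g⁻¹ * x.1 * rbar g) :
    toHom rbar ((dualRep (adRep rbar)).ρ g f) x = OmegaRep.ρ g (toHom rbar f y) := by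
  have hy' : y = (show sl2 k from
      ((adRep rbar).ρ g⁻¹ : (adRep rbar).V →ₗ[ℤ] (adRep rbar).V) x) := by
    apply Subtype.ext
    rw [hy, adRep_ρ_apply_coe, inv_inv]
  rw [hy']
  rfl

variable {ζ : Ωˣ} (hζ : IsPrimitiveRoot ζ p)

/-- **equivariance**: the identification `m ↦ Phi m` intertwines the twisted adjoint action with
the action on the dual module -/
lemma toHom_rho (g : GQ) (f : (dualRep (adRep rbar)).V) (m : Matrix (Fin 2) (Fin 2) k)
    (hf : toHom rbar f = Phi (expE ζ hζ.pow_eq_one) m) :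
    toHom rbar ((dualRep (adRep rbar)).ρ g f) =
      Phi (expE ζ hζ.pow_eq_one) (((chiK p k g : kˣ) : k) • (rbar g * m * rbar g⁻¹)) := by
  apply AddMonoidHom.ext
  intro x
  have hmem : rbar g⁻¹ * x.1 * rbar g ∈ sl2 k := by
    have := conj_mem_sl2 rbar g⁻¹ x.2
    rwa [inv_inv] at this
  rw [toHom_rho_apply rbar g f x ⟨_, hmem⟩ rfl, hf, chiK_apply, Phi_smul, Phi_apply, rho_expE,
    map_mul_eq_nsmul, ← Phi_apply]
  congr 1
  exact Phi_conj _ (rbar g) (rbar g⁻¹) m x ⟨_, hmem⟩ rfl

variable (h2 : (2 : k) ≠ 0)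

include hζ h2 in
lemma exists_Phi_eq (f : (dualRep (adRep rbar)).V) :
    ∃ m : sl2 k, Phi (expE ζ hζ.pow_eq_one) m.1 = toHom rbar f :=
  Phi_surjective (expE ζ hζ.pow_eq_one) (expE_injective hζ) (expE_surjective hζ) h2
    natCast_p_eq_zero (toHom rbar f)

/-- the matrix attached to an element of the dual module -/
noncomputable def matOf (f : (dualRep (adRep rbar)).V) : Matrix (Fin 2) (Fin 2) k :=
  (Classical.choose (exists_Phi_eq rbar hζ h2 f)).1

lemma matOf_trace (f : (dualRep (adRep rbar)).V) : (matOf rbar hζ h2 f).trace = 0 :=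
  (Classical.choose (exists_Phi_eq rbar hζ h2 f)).2

lemma Phi_matOf (f : (dualRep (adRep rbar)).V) :
    Phi (expE ζ hζ.pow_eq_one) (matOf rbar hζ h2 f) = toHom rbar f :=
  Classical.choose_spec (exists_Phi_eq rbar hζ h2 f)

/-- characterisation of `matOf` -/
lemma matOf_eq {f : (dualRep (adRep rbar)).V} {m : Matrix (Fin 2) (Fin 2) k} (hm : m.trace = 0)
    (h : Phi (expE ζ hζ.pow_eq_one) m = toHom rbar f) : matOf rbar hζ h2 f = m :=
  Phi_inj _ (expE_injective hζ) h2 (matOf_trace rbar hζ h2 f) hm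
    ((Phi_matOf rbar hζ h2 f).trans h.symm)

lemma matOf_zero : matOf rbar hζ h2 0 = 0 :=
  matOf_eq rbar hζ h2 (Matrix.trace_zero _ _) (by rw [Phi_zero, toHom_zero])

lemma matOf_add (f f' : (dualRep (adRep rbar)).V) :
    matOf rbar hζ h2 (f + f') = matOf rbar hζ h2 f + matOf rbar hζ h2 f' :=
  matOf_eq rbar hζ h2 (by rw [Matrix.trace_add, matOf_trace, matOf_trace, add_zero])
    (by rw [Phi_add, Phi_matOf, Phi_matOf, toHom_add])

lemma matOf_sub (f f' : (dualRep (adRep rbar)).V) :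
    matOf rbar hζ h2 (f - f') = matOf rbar hζ h2 f - matOf rbar hζ h2 f' :=
  matOf_eq rbar hζ h2 (by rw [Matrix.trace_sub, matOf_trace, matOf_trace, sub_zero])
    (by rw [Phi_sub, Phi_matOf, Phi_matOf, toHom_sub])

lemma trace_twist (g : GQ) {m : Matrix (Fin 2) (Fin 2) k} (hm : m.trace = 0) :
    ((((chiK p k g : kˣ) : k)) • (rbar g * m * rbar g⁻¹)).trace = 0 := by
  rw [Matrix.trace_smul, (mem_sl2_iff _).1 (conj_mem_sl2 rbar g ((mem_sl2_iff m).2 hm)), smul_zero]

lemma matOf_rho (g : GQ) (f : (dualRep (adRep rbar)).V) :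
    matOf rbar hζ h2 ((dualRep (adRep rbar)).ρ g f) =
      ((chiK p k g : kˣ) : k) • (rbar g * matOf rbar hζ h2 f * rbar g⁻¹) :=
  matOf_eq rbar hζ h2 (trace_twist rbar g (matOf_trace rbar hζ h2 f))
    (toHom_rho rbar hζ g f _ (Phi_matOf rbar hζ h2 f).symm).symm

lemma matOf_injective : Function.Injective (matOf rbar hζ h2) := by
  intro f f' h
  apply toHom_injective rbar
  rw [← Phi_matOf rbar hζ h2 f, ← Phi_matOf rbar hζ h2 f', h]

/-- the element of the dual module attached to a matrix -/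
noncomputable def ofMat (m : Matrix (Fin 2) (Fin 2) k) : (dualRep (adRep rbar)).V :=
  ofHom rbar (Phi (expE ζ hζ.pow_eq_one) m)

lemma matOf_ofMat {m : Matrix (Fin 2) (Fin 2) k} (hm : m.trace = 0) :
    matOf rbar hζ h2 (ofMat rbar hζ m) = m :=
  matOf_eq rbar hζ h2 hm (toHom_ofHom rbar _).symm

section Cocycle

variable (c : GQ → (dualRep (adRep rbar)).V)

/-- the matrix-valued function attached to a function with values in the dual module -/
noncomputable def psiOf (g : GQ) : Matrix (Fin 2) (Fin 2) k := matOf rbar hζ h2 (c g)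

lemma psiOf_apply (g : GQ) : psiOf rbar hζ h2 c g = matOf rbar hζ h2 (c g) := rfl

lemma psiOf_eq_zero {g : GQ} (h : c g = 0) : psiOf rbar hζ h2 c g = 0 := by
  rw [psiOf_apply, h, matOf_zero]

/-- cocycles with values in the dual module give matrix-valued cocycles for the twisted adjoint
action -/
theorem isCocycleM_psiOf (hc : c ∈ cocycles₁ (dualRep (adRep rbar))) :
    IsCocycleM rbar (chiK p k) (psiOf rbar hζ h2 c) := by
  rw [mem_cocycles₁_iff] at hc
  refine ⟨fun g => matOf_trace rbar hζ h2 (c g), fun g h => ?_⟩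
  rw [psiOf_apply, hc g h, matOf_add, matOf_rho, add_comm]
  rfl

/-- if the attached matrix-valued cocycle is a coboundary, so is the original one -/
theorem mem_coboundaries₁_of_isCoboundaryM
    (h : IsCoboundaryM rbar (chiK p k) (psiOf rbar hζ h2 c)) :
    c ∈ coboundaries₁ (dualRep (adRep rbar)) := by
  obtain ⟨m, hm, hmc⟩ := h
  refine ⟨ofMat rbar hζ m, ?_⟩
  funext g
  apply matOf_injective rbar hζ h2
  rw [d₀₁_hom_apply, matOf_sub, matOf_rho, matOf_ofMat rbar hζ h2 hm]
  exact (hmc g).symm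

/-- a coboundary relation at one element, translated -/
theorem psiOf_eq_of_eq_sub (f : (dualRep (adRep rbar)).V) {g : GQ}
    (h : c g = (dualRep (adRep rbar)).ρ g f - f) :
    psiOf rbar hζ h2 c g =
      ((chiK p k g : kˣ) : k) • (rbar g * matOf rbar hζ h2 f * rbar g⁻¹) - matOf rbar hζ h2 f := by
  rw [psiOf_apply, h, matOf_sub, matOf_rho]

end Cocycle

section Local

variable {G' : Type} [Group G'] (loc : G' →* GQ)

/-- if the restriction of a class along `loc` vanishes, the cocycle is a coboundary on the image of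
`loc` -/
theorem exists_eq_sub_of_map_eq_zero (cc : cocycles₁ (dualRep (adRep rbar)))
    (h : (groupCohomology.map loc (𝟙 (Rep.res loc (dualRep (adRep rbar)))) 1).hom
      ((H1π (dualRep (adRep rbar))).hom cc) = 0) :
    ∃ f : (dualRep (adRep rbar)).V, ∀ τ : G',
      cc (loc τ) = (dualRep (adRep rbar)).ρ (loc τ) f - f := by
  have h1 := H1π_comp_map_apply loc (𝟙 (Rep.res loc (dualRep (adRep rbar)))) cc
  rw [h1] at h
  rw [H1π_eq_zero_iff] at h
  obtain ⟨f, hf⟩ := h
  refine ⟨f, fun τ => ?_⟩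
  have h2 := congrFun hf τ
  rw [d₀₁_hom_apply] at h2
  exact h2.symm

end Local

end Trans

end Fermat.Agent.TW.Kill
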