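/-
S56 (Taylor–Wiles) — helper1, leaf (K): the KILLING LEMMA. Every nonzero class
`ψ ∈ H¹(G_ℚ, Hom_ℤ(ad⁰ρ̄, Ωˣ))` represented by a level-constant cocycle restricts nontrivially to
`G_q` for some Taylor–Wiles prime `q ≡ 1 mod p^(n+1)` outside any given finite set.
-/
import Fermat.Agent.TW.Kill_helper1_Trans
import Fermat.Agent.TW.Kill_helper1_Frob
import Fermat.Agent.Density.Open_helper4

set_option autoImplicit false
set_option linter.unusedSectionVars false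
set_option linter.style.haveILetI false

open CategoryTheory groupCohomology Polynomial ExtCitation

namespace Fermat.Agent.TW.Kill

open Fermat.Agent.TW Fermat.Agent.TW.Coh Fermat.Agent.CFT.Sm Fermat.Agent.CFT.Bridge
  Fermat.Agent.CFT.Arith Matrix

/-- `Ω = AlgebraicClosure ℚ`. -/
local notation "Ω" => AlgebraicClosure ℚ
/-- `GQ = Gal(Ω/ℚ)`. -/
local notation "GQ" => (AlgebraicClosure ℚ ≃ₐ[ℚ] AlgebraicClosure ℚ)

/-- (DEC_F) the local Galois group surjects onto the decomposition group of `padicPlace q` at every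
finite level -/
def LocalLiftProp : Prop :=
  ∀ (q : ℕ) [Fact q.Prime] (σ : GQ), σ ∈ (padicPlace q).decompositionSubgroup ℚ →
    ∀ (F : IntermediateField ℚ Ω) [FiniteDimensional ℚ F],
      ∃ τ : PadicAlgCl q ≃ₐ[ℚ_[q]] PadicAlgCl q, ∀ x ∈ F, localGaloisToGlobal q τ x = σ x

variable {k : Type} [Field k] [Finite k] {p : ℕ} [Fact p.Prime] [Algebra (ZMod p) k]

/-- a common open normal subgroup on which `rbar`, the cyclotomic character and a level-constant
function are trivial -/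
theorem exists_level (rbar : GQ →* Matrix (Fin 2) (Fin 2) k)
    (hfac : GaloisFactorsThroughFiniteLevel rbar) (m : ℕ) [NeZero m] {X : Type*}
    (c : GQ → X) (hlc : IsLC₁ fullBasis c) :
    ∃ F : IntermediateField ℚ Ω, IsFullLevel F ∧ (∀ s ∈ F.fixingSubgroup, rbar s = 1) ∧
      (∀ s ∈ F.fixingSubgroup, cyc m s = 1) ∧ ∀ s ∈ F.fixingSubgroup, c s = c 1 := by
  obtain ⟨L, hL, hLr⟩ := hfac
  obtain ⟨F₁, hF₁, hF₁c⟩ := exists_finiteDimensional_cyc_eq_one m
  obtain ⟨H, hH, hHc⟩ := hlc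
  have h1 : fullBasis.IsOpen L.fixingSubgroup := isOpen_fullBasis_fixingSubgroup L
  have h2 : fullBasis.IsOpen F₁.fixingSubgroup := isOpen_fullBasis_fixingSubgroup F₁
  obtain ⟨U, ⟨F, hF, rfl⟩, hU⟩ := (h1.inf _ h2).inf _ hH
  refine ⟨F, hF, fun s hs => ?_, fun s hs => ?_, fun s hs => ?_⟩
  · refine hLr s fun x hx => ?_
    exact (IntermediateField.mem_fixingSubgroup_iff _ _).1 (hU hs).1.1 x hx
  · exact hF₁c s (hU hs).1.2
  · have := hHc 1 s (hU hs).2
    rwa [one_mul] at this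

/-- a primitive `p`-th root of unity in `Ωˣ` -/
theorem exists_primitiveRoot_units (m : ℕ) [NeZero m] : ∃ ζ : Ωˣ, IsPrimitiveRoot ζ m := by
  obtain ⟨ζ₀, hζ₀⟩ := exists_primitiveRoot m
  obtain ⟨u, hu⟩ := hζ₀.isUnit (NeZero.ne m)
  exact ⟨u, IsPrimitiveRoot.coe_units_iff.1 (hu ▸ hζ₀)⟩

theorem two_ne_zero_of_odd (hp2 : p ≠ 2) : (2 : k) ≠ 0 := by
  have hchar : CharP k p := charP_of_injective_algebraMap (algebraMap (ZMod p) k).injective p
  intro h
  have h' : ((2 : ℕ) : k) = 0 := by exact_mod_cast h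
  have : p ∣ 2 := (CharP.cast_eq_zero_iff k p 2).1 h'
  exact hp2 ((Nat.prime_dvd_prime_iff_eq (Fact.out : p.Prime) Nat.prime_two).1 this)

/-- **The killing lemma, core form.** -/
theorem exists_kill_prime_core (hp2 : p ≠ 2) (hlift : LocalLiftProp)
    (rbar : GQ →* Matrix (Fin 2) (Fin 2) k) (hfac : GaloisFactorsThroughFiniteLevel rbar)
    (n : ℕ) (H : TWHypM p rbar (chiK p k) (cyc (p ^ (n + 1))))
    (cc : cocycles₁ (dualRep (adRep rbar)))
    (hlc : IsLC₁ fullBasis (cc : GQ → (dualRep (adRep rbar)).V))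
    (hne : (H1π (dualRep (adRep rbar))).hom cc ≠ 0) (T : Finset ℕ) :
    ∃ q : Nat.Primes, (q : ℕ) ∉ T ∧ (q : ℕ) ≠ p ∧ p ^ (n + 1) ∣ (q : ℕ) - 1 ∧
      (∀ P : ValuationSubring Ω, P.LiesOverPrime q →
        ∀ σ ∈ P.inertiaSubgroupIn ℚ, rbar σ = 1) ∧
      (∀ P : ValuationSubring Ω, P.LiesOverPrime q → ∀ φ : GQ, P.IsFrobeniusAt φ q →
        ∃ α β : k, α ≠ β ∧ (rbar φ).charpoly = (X - C α) * (X - C β)) ∧
      (groupCohomology.map (primeLocalToGlobal q)
        (𝟙 (Rep.res (primeLocalToGlobal q) (dualRep (adRep rbar)))) 1).hom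
          ((H1π (dualRep (adRep rbar))).hom cc) ≠ 0 := by
  classical
  have hp : p.Prime := Fact.out
  have h2 : (2 : k) ≠ 0 := two_ne_zero_of_odd hp2
  obtain ⟨ζ, hζ⟩ := exists_primitiveRoot_units p
  have hchar : CharP k p := charP_of_injective_algebraMap (algebraMap (ZMod p) k).injective p
  letI : Fintype k := Fintype.ofFinite k
  haveI : IsCyclic (ZMod (p ^ (n + 1)))ˣ := ZMod.isCyclic_units_of_prime_pow p hp hp2 (n + 1)
  -- the matrix-valued cocycle
  set ψ := psiOf rbar hζ h2 (cc : GQ → (dualRep (adRep rbar)).V) with hψdef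
  have hψ : IsCocycleM rbar (chiK p k) ψ := isCocycleM_psiOf rbar hζ h2 _ cc.2
  have hncob : ¬ IsCoboundaryM rbar (chiK p k) ψ := by
    intro hcob
    apply hne
    rw [H1π_eq_zero_iff]
    exact mem_coboundaries₁_of_isCoboundaryM rbar hζ h2 _ hcob
  obtain ⟨σ, hσ⟩ := exists_sigma_TW_matrix hp2 H hψ hncob
  -- the level
  obtain ⟨F, hF, hFr, hFε, hFc⟩ := exists_level rbar hfac (p ^ (n + 1))
    (cc : GQ → (dualRep (adRep rbar)).V) hlc
  have hFψ : ∀ s ∈ F.fixingSubgroup, ψ s = 0 := by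
    intro s hs
    refine psiOf_eq_zero rbar hζ h2 _ ?_
    rw [hFc s hs]
    exact cocycles₁_map_one cc
  haveI : FiniteDimensional ℚ F := hF.1
  haveI : F.fixingSubgroup.Normal := hF.normal_fixingSubgroup
  have hopen : IsOpen (F.fixingSubgroup : Set GQ) := IntermediateField.fixingSubgroup_isOpen F
  obtain ⟨q, hq, hqT, hall⟩ :=
    Fermat.Agent.Density.exists_prime_frobenius_conj_algClosure F.fixingSubgroup hopen σ
      (insert p T)
  have hqp : q ≠ p := fun h => hqT (h ▸ Finset.mem_insert_self _ _)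
  have hqT' : q ∉ T := fun h => hqT (Finset.mem_insert_of_mem h)
  -- every Frobenius at every place over `q` is a Taylor–Wiles element
  have hTWall : ∀ P : ValuationSubring Ω, P.LiesOverPrime q → ∀ φ : GQ, P.IsFrobeniusAt φ q →
      IsTWElementM rbar (cyc (p ^ (n + 1))) ψ φ := by
    intro P hP φ hφ
    obtain ⟨τ, hτ⟩ := (hall P hP).2 φ hφ
    exact hσ.stable H hψ F.fixingSubgroup hFr hFε hFψ hτ
  haveI : Fact q.Prime := ⟨hq⟩
  have hP₀ : (padicPlace q).LiesOverPrime q := padicPlace_liesOverPrime q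
  obtain ⟨φ₀, hφ₀⟩ := exists_isFrobeniusAt (padicPlace q) hq hP₀
  refine ⟨⟨q, hq⟩, hqT', hqp, ?_, ?_, ?_, ?_⟩
  · -- `q ≡ 1 mod p^(n+1)`
    have h1 := (hTWall _ hP₀ φ₀ hφ₀).1
    obtain ⟨ζ', hζ'⟩ := exists_primitiveRoot (p ^ (n + 1))
    have hfix : φ₀ ζ' = ζ' := (cyc_eq_one_iff _ _).1 h1 ζ' hζ'.pow_eq_one
    refine dvd_sub_one_of_isFrobeniusAt hq ?_ hP₀ hφ₀ hζ' hfix
    intro hdvd
    exact hqp ((Nat.prime_dvd_prime_iff_eq hq hp).1 (hq.dvd_of_dvd_pow hdvd))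
  · intro P hP s hs
    exact hFr s ((hall P hP).1 hs)
  · intro P hP φ hφ
    exact (hTWall P hP φ hφ).2.1
  · -- nonvanishing of the restriction
    intro hzero
    obtain ⟨f, hf⟩ := exists_eq_sub_of_map_eq_zero rbar (primeLocalToGlobal ⟨q, hq⟩) cc hzero
    obtain ⟨τ, hτ⟩ := hlift q φ₀ hφ₀.mem_decompositionSubgroup F
    set φ' : GQ := localGaloisToGlobal q τ with hφ'
    have hmem : φ₀⁻¹ * φ' ∈ F.fixingSubgroup := by
      rw [IntermediateField.mem_fixingSubgroup_iff]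
      intro x hx
      change φ₀⁻¹ (φ' x) = x
      rw [hτ x hx]
      exact φ₀.symm_apply_apply x
    have hmk : QuotientGroup.mk' F.fixingSubgroup φ' = QuotientGroup.mk' F.fixingSubgroup φ₀ :=
      (QuotientGroup.eq.2 hmem).symm
    obtain ⟨τ', hτ'⟩ := (hall _ hP₀).2 φ₀ hφ₀
    have hTW' : IsTWElementM rbar (cyc (p ^ (n + 1))) ψ φ' := by
      refine hσ.stable H hψ F.fixingSubgroup hFr hFε hFψ (τ := τ') ?_
      rw [hmk]
      exact hτ'
    apply hTW'.not_mem_range H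
    refine ⟨matOf rbar hζ h2 f, ?_⟩
    have h3 := psiOf_eq_of_eq_sub rbar hζ h2 (cc : GQ → (dualRep (adRep rbar)).V) f
      (g := φ') (hf τ)
    rw [H.hχε φ' hTW'.1, Units.val_one, one_smul] at h3
    exact h3

end Fermat.Agent.TW.Kill

namespace Fermat.Agent.TW

open Fermat.Agent.TW.Kill Fermat.Agent.CFT.Sm Fermat.Agent.CFT.Bridge Fermat.Agent.CFT.Arith

/-- `Ω = AlgebraicClosure ℚ`. -/
local notation "Ω" => AlgebraicClosure ℚ
/-- `GQ = Gal(Ω/ℚ)`. -/
local notation "GQ" => (AlgebraicClosure ℚ ≃ₐ[ℚ] AlgebraicClosure ℚ)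

/-- **THE KILLING LEMMA** (leaf (K) of S56), for a residual representation satisfying the literal
hypotheses of S56, modulo (DEC_F). -/
theorem exists_kill_prime_of_localLift (hlift : LocalLiftProp)
    {k : Type} [Field k] [Finite k] (p : ℕ) [Fact p.Prime] (hp2 : p ≠ 2)
    (ρbar : ResidualGaloisRep k) (β : Module.Basis (Fin 2) k ρbar.V)
    (habs : ρbar.IsAbsolutelyIrreducible)
    (hdet : (GaloisRepAdic.ofResidualGaloisRep ρbar).DetIsCyclotomic p)
    (hsplit : ∀ σ : GQ, ∃ α β : k, LinearMap.charpoly (ρbar.ρ σ) = (X - C α) * (X - C β))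
    (hTW : ∀ (K : Type) [Field K] [Algebra k K] (G : Subgroup GQ), G.index = 2 →
      ∀ V : Submodule K (ρbar.baseChange K).V,
        (∀ σ ∈ G, ∀ x ∈ V, (ρbar.baseChange K).ρ σ x ∈ V) → V = ⊥ ∨ V = ⊤)
    (ψ : H1 (dualRep (adRep (Fermat.Agent.S53.resMatrixOf ρbar β))))
    (hψ0 : ψ ≠ 0)
    (hψ : ∃ c : cocycles₁ (dualRep (adRep (Fermat.Agent.S53.resMatrixOf ρbar β))),
      IsLC₁ fullBasis (c : GQ → (dualRep (adRep (Fermat.Agent.S53.resMatrixOf ρbar β))).V) ∧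
        (H1π _).hom c = ψ)
    (n : ℕ) (T : Finset ℕ) :
    ∃ q : Nat.Primes, (q : ℕ) ∉ T ∧ (q : ℕ) ≠ p ∧ p ^ (n + 1) ∣ (q : ℕ) - 1 ∧
      ρbar.IsUnramifiedAt q ∧
      (∀ P : ValuationSubring Ω, P.LiesOverPrime q → ∀ φ : GQ, P.IsFrobeniusAt φ q →
         ∃ α β : k, α ≠ β ∧ LinearMap.charpoly (ρbar.ρ φ) = (X - C α) * (X - C β)) ∧
      (groupCohomology.map (primeLocalToGlobal q) (𝟙 _) 1).hom ψ ≠ 0 := by
  have hp : p.Prime := Fact.out
  have hpk : (p : k) = 0 := by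
    have h1 := hdet.1
    rw [IsLocalRing.maximalIdeal_eq_bot, Ideal.mem_bot] at h1
    exact h1
  haveI : CharP k p := (CharP.charP_iff_prime_eq_zero hp).2 hpk
  letI : Algebra (ZMod p) k := ZMod.algebra k p
  obtain ⟨c, hlc, rfl⟩ := hψ
  have H := twHypM_of_residual p hp2 ρbar β habs hdet hsplit hTW n
  obtain ⟨q, hqT, hqp, hdvd, hur, hfrob, hres⟩ := exists_kill_prime_core hp2 hlift
    (Fermat.Agent.S53.resMatrixOf ρbar β) (Fermat.Agent.S53.resMatrixOf_factors ρbar β) n H c hlc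
    hψ0 T
  refine ⟨q, hqT, hqp, hdvd, ?_, ?_, hres⟩
  · intro A hA σ hσ
    have h1 := hur A hA σ hσ
    rw [Fermat.Agent.S53.resMatrixOf_eq_toMatrix] at h1
    apply (LinearMap.toMatrix β β).injective
    rw [h1, LinearMap.toMatrix_one]
  · intro P hP φ hφ
    obtain ⟨a, b, hab, h⟩ := hfrob P hP φ hφ
    refine ⟨a, b, hab, ?_⟩
    rw [Fermat.Agent.S53.resMatrixOf_eq_toMatrix, LinearMap.charpoly_toMatrix] at h
    exact h

end Fermat.Agent.TW
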