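/-
S56 (Taylor–Wiles) — helper1, leaf (K): the KILLING LEMMA, unconditional form (the local lifting
property (DEC_F) is helper4's `exists_local_lift`).
-/
import Fermat.Agent.TW.Kill_helper1_Main
import Fermat.Agent.CFT.LocForm.DecLift_helper4

set_option autoImplicit false

open CategoryTheory groupCohomology Polynomial ExtCitation

namespace Fermat.Agent.TW

open Fermat.Agent.TW.Kill Fermat.Agent.TW.Coh Fermat.Agent.CFT.Sm Fermat.Agent.CFT.Bridge
  Fermat.Agent.CFT.Arith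

/-- `Ω = AlgebraicClosure ℚ`. -/
local notation "Ω" => AlgebraicClosure ℚ
/-- `GQ = Gal(Ω/ℚ)`. -/
local notation "GQ" => (AlgebraicClosure ℚ ≃ₐ[ℚ] AlgebraicClosure ℚ)

theorem localLiftProp : LocalLiftProp := fun q _ σ hσ F _ =>
  Fermat.Agent.CFT.LocForm.exists_local_lift q σ hσ F

/-- **The killing lemma, matrix form**: `rbar` any matrix-valued homomorphism of finite level
satisfying the hypotheses `TWHypM` at level `n`. -/
theorem exists_kill_prime_matrix {k : Type} [Field k] [Finite k] {p : ℕ} [Fact p.Prime]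
    [Algebra (ZMod p) k] (hp2 : p ≠ 2)
    (rbar : GQ →* Matrix (Fin 2) (Fin 2) k) (hfac : GaloisFactorsThroughFiniteLevel rbar)
    (n : ℕ) (H : TWHypM p rbar (chiK p k) (cyc (p ^ (n + 1))))
    (cc : cocycles₁ (dualRep (adRep rbar)))
    (hlc : IsLC₁ fullBasis (cc : GQ → (dualRep (adRep rbar)).V))
    (hne : (H1π (dualRep (adRep rbar))).hom cc ≠ 0) (T : Finset ℕ) :
    ∃ q : Nat.Primes, (q : ℕ) ∉ T ∧ (q : ℕ) ≠ p ∧ p ^ (n + 1) ∣ (q : ℕ) - 1 ∧
      (∀ P : ValuationSubring Ω, P.LiesOverPrime q →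
        ∀ σ ∈ P.inertiaSubgroupIn ℚ, rbar σ = 1) ∧
      (∀ P : ValuationSubring Ω, P.LiesOverPrime q → ∀ φ : GQ, P.IsFrobeniusAt φ q →
        ∃ α β : k, α ≠ β ∧ (rbar φ).charpoly = (X - C α) * (X - C β)) ∧
      (groupCohomology.map (primeLocalToGlobal q)
        (𝟙 (Rep.res (primeLocalToGlobal q) (dualRep (adRep rbar)))) 1).hom
          ((H1π (dualRep (adRep rbar))).hom cc) ≠ 0 :=
  exists_kill_prime_core hp2 localLiftProp rbar hfac n H cc hlc hne T

/-- **THE KILLING LEMMA** (leaf (K) of S56): for a residual representation satisfying the literal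
hypotheses of S56, every nonzero class in `H¹(G_ℚ, Hom_ℤ(ad⁰ρ̄, Ωˣ))` represented by a
level-constant cocycle has nonzero restriction to `G_q` for some prime `q ∉ T`, `q ≠ p`,
`q ≡ 1 mod p^(n+1)`, at which `ρ̄` is unramified with all Frobenius elements having distinct
eigenvalues in `k`. -/
theorem exists_kill_prime
    {k : Type} [Field k] [Finite k] (p : ℕ) [Fact p.Prime] (hp2 : p ≠ 2)
    (ρbar : ResidualGaloisRep k) (β : Module.Basis (Fin 2) k ρbar.V)
    (habs : ρbar.IsAbsolutelyIrreducible)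
    (hdet : (GaloisRepAdic.ofResidualGaloisRep ρbar).DetIsCyclotomic p)
    (hsplit : ∀ σ : GQ, ∃ α β : k, LinearMap.charpoly (ρbar.ρ σ) = (X - C α) * (X - C β))
    (hTW : ∀ (K : Type) [Field K] [Algebra k K] (G : Subgroup GQ), G.index = 2 →
      ∀ V : Submodule K (ρbar.baseChange K).V,
        (∀ σ ∈ G, ∀ x ∈ V, (ρbar.baseChange K).ρ σ x ∈ V) → V = ⊥ ∨ V = ⊤)
    (ψ : H1 (dualRep (adRep (Fermat.Agent.S53.resMatrixOf ρbar β))))
    (hψ0 : ψ ≠ 0)
    (hψ : ∃ c : cocycles₁ (dualRep (adRep (Fermat.Agent.S53.resMatrixOf ρbar β))),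
      IsLC₁ fullBasis (c : GQ → (dualRep (adRep (Fermat.Agent.S53.resMatrixOf ρbar β))).V) ∧
        (H1π _).hom c = ψ)
    (n : ℕ) (T : Finset ℕ) :
    ∃ q : Nat.Primes, (q : ℕ) ∉ T ∧ (q : ℕ) ≠ p ∧ p ^ (n + 1) ∣ (q : ℕ) - 1 ∧
      ρbar.IsUnramifiedAt q ∧
      (∀ P : ValuationSubring Ω, P.LiesOverPrime q → ∀ φ : GQ, P.IsFrobeniusAt φ q →
         ∃ α β : k, α ≠ β ∧ LinearMap.charpoly (ρbar.ρ φ) = (X - C α) * (X - C β)) ∧
      (groupCohomology.map (primeLocalToGlobal q) (𝟙 _) 1).hom ψ ≠ 0 :=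
  exists_kill_prime_of_localLift localLiftProp p hp2 ρbar β habs hdet hsplit hTW ψ hψ0 hψ n T

end Fermat.Agent.TW
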