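/-
S56 (Taylor–Wiles) — helper9. The field-theoretic step (E) of the Taylor–Wiles induction: a class of
`H¹(G_ℚ, M)` which is level-constant for `S ∪ {q}`, restricts to zero in `H¹(G_q, M)` and has
coefficients unramified at `q` is level-constant for `S`. (The surjectivity of `G_q → D_q` at
finite level enters as the hypothesis `hdec`.)
-/
import Fermat.Agent.TW.DualSel_helper9
import Fermat.Agent.EC.Conjugacy_helper5

set_option autoImplicit false
set_option linter.unusedSectionVars false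

open CategoryTheory groupCohomology ExtCitation
open scoped Pointwise

namespace Fermat.Agent.TW

open Fermat.Agent.CFT.Sm Fermat.Agent.CFT.Bridge Fermat.Agent.CFT.Arith Fermat.Agent.CFT

/-- `Ω = AlgebraicClosure ℚ`. -/
local notation "Ω" => AlgebraicClosure ℚ
/-- `GQ = Gal(Ω/ℚ)`. -/
local notation "GQ" => (AlgebraicClosure ℚ ≃ₐ[ℚ] AlgebraicClosure ℚ)

/-- the distinguished place of `Ω` over `q` lies over `q` -/
theorem primeLocalPlace_liesOverPrime_h9 (q : Nat.Primes) :
    (primeLocalPlace q).LiesOverPrime (q : ℕ) := by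
  have : Fact (q : ℕ).Prime := ⟨q.2⟩
  change ((q : ℕ) : Ω) ∈ (padicPlace (q : ℕ)).nonunits
  rw [ValuationSubring.mem_nonunits_iff_or]
  right
  rw [mem_padicPlace_iff, map_inv₀, map_natCast, nnnorm_inv, not_le]
  have h1 : ‖((q : ℕ) : PadicAlgCl (q : ℕ))‖₊ = ‖((q : ℕ) : ℚ_[(q : ℕ)])‖₊ := by
    have := PadicAlgCl.norm_extends (p := (q : ℕ)) ((q : ℕ) : ℚ_[(q : ℕ)])
    ext
    rw [coe_nnnorm, coe_nnnorm, ← this, map_natCast]
  rw [h1]
  have h2 : ‖((q : ℕ) : ℚ_[(q : ℕ)])‖ = ((q : ℕ) : ℝ)⁻¹ := Padic.norm_p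
  have hq1 : (1 : ℝ) < ((q : ℕ) : ℝ) := by exact_mod_cast q.2.one_lt
  have h3 : ‖((q : ℕ) : ℚ_[(q : ℕ)])‖₊ < 1 := by
    rw [← NNReal.coe_lt_coe, coe_nnnorm, h2]
    exact inv_lt_one_of_one_lt₀ hq1
  have h4 : ‖((q : ℕ) : ℚ_[(q : ℕ)])‖₊ ≠ 0 := by
    rw [← NNReal.coe_ne_zero, coe_nnnorm, h2]
    positivity
  exact (one_lt_inv₀ (pos_iff_ne_zero.2 h4)).2 h3


section FieldStep

lemma levelBasis_finer_of_subset {S S' : Finset Nat.Primes} (h : S ⊆ S') :
    (levelBasis S').Finer (levelBasis S) := by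
  rintro _ ⟨F, hF, rfl⟩
  exact (levelBasis S').isOpen_of_mem ⟨F, hF.mono h, rfl⟩

variable (M : Rep.{0} ℤ GQ) [Finite M.V] (S : Finset Nat.Primes) (q : Nat.Primes)

/-- **(E)** a class which is level-constant for `S ∪ {q}` and restricts to zero at `q`, with
coefficients unramified at `q`, is level-constant for `S`. -/
theorem isLcClass_of_res_eq_zero (hM : IsSmooth (levelBasis S) M)
    (hunr : ∀ σ ∈ (primeLocalPlace q).inertiaSubgroupIn ℚ, ∀ m : M.V, M.ρ σ m = m)
    (hdec : ∀ σ ∈ (primeLocalPlace q).decompositionSubgroup ℚ, ∀ F : IntermediateField ℚ Ω,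
      FiniteDimensional ℚ F →
        ∃ τ : primeLocalGaloisGroup q, ∀ y ∈ F, primeLocalToGlobal q τ y = σ y)
    (x : H1 M) (hx : IsLcClass (levelBasis (insert q S)) M x)
    (hres : (groupCohomology.map (primeLocalToGlobal q)
      (𝟙 (Rep.res (primeLocalToGlobal q) M)) 1).hom x = 0) :
    IsLcClass (levelBasis S) M x := by
  obtain ⟨c, ⟨H, hH, hc⟩, rfl⟩ := hx
  -- the restriction of `c` to `G_q` is a coboundary
  have h2 : (H1π (Rep.res (primeLocalToGlobal q) M)).hom
      ((mapCocycles₁ (primeLocalToGlobal q) (𝟙 (Rep.res (primeLocalToGlobal q) M))).hom c) = 0 :=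
    (H1π_comp_map_apply (primeLocalToGlobal q) (𝟙 (Rep.res (primeLocalToGlobal q) M)) c).symm.trans
      hres
  obtain ⟨m, hm⟩ := (H1π_eq_zero_iff _).1 h2
  have hm' : ∀ τ : primeLocalGaloisGroup q,
      c (primeLocalToGlobal q τ) = M.ρ (primeLocalToGlobal q τ) m - m := fun τ =>
    (congrFun hm τ).symm
  -- subtract the coboundary of `m`
  let b : cocycles₁ M := ⟨(d₀₁ M).hom m, d₀₁_apply_mem_cocycles₁ m⟩
  let c' : cocycles₁ M := c - b
  have hc'v : ∀ g, c' g = c g - (M.ρ g m - m) := fun g => rfl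
  have hcls : (H1π M).hom c = (H1π M).hom c' := by
    refine (H1π_eq_iff c c').2 ⟨m, ?_⟩
    funext g
    change M.ρ g m - m = c g - (c g - (M.ρ g m - m))
    abel
  have hloc0 : ∀ τ : primeLocalGaloisGroup q, c' (primeLocalToGlobal q τ) = 0 := fun τ => by
    rw [hc'v, hm', sub_self]
  have hcoc : ∀ g h, c' (g * h) = M.ρ g (c' h) + c' g := (mem_cocycles₁_iff c').1 c'.2
  -- the stabiliser of `M`
  obtain ⟨U₀, hU₀, hU₀fix⟩ := hM.exists_mem_forall_fixed (fun a : M.V => a)
  have hU₀' : (levelBasis (insert q S)).IsOpen U₀ :=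
    (levelBasis_finer_of_subset (Finset.subset_insert q S)) U₀ hU₀
  have hHU : (levelBasis (insert q S)).IsOpen (H ⊓ U₀) := OpenBasis.IsOpen.inf (levelBasis (insert q S)) hH hU₀'
  have hinv : ∀ g s, s ∈ H ⊓ U₀ → c' (g * s) = c' g := by
    intro g s hs
    rw [hc'v, hc'v, hc _ _ hs.1, map_mul]
    change c g - (M.ρ g (M.ρ s m) - m) = _
    rw [hU₀fix m s hs.2]
  -- the subgroup `K`
  let K : Subgroup GQ :=
    { carrier := {g | c' g = 0 ∧ ∀ a : M.V, M.ρ g a = a}
      one_mem' := ⟨cocycles₁_map_one c', fun a => by rw [map_one]; rfl⟩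
      mul_mem' := fun {g h} hg hh => ⟨by rw [hcoc, hh.1, map_zero, hg.1, add_zero], fun a => by
        rw [map_mul]
        change M.ρ g (M.ρ h a) = a
        rw [hh.2, hg.2]⟩
      inv_mem' := fun {g} hg => by
        have hfix : ∀ a : M.V, M.ρ g⁻¹ a = a := fun a => by
          have h1 : M.ρ g⁻¹ (M.ρ g a) = a := by
            have h := congrArg (fun f => f a) (map_mul M.ρ g⁻¹ g)
            rw [inv_mul_cancel, map_one] at h
            exact h.symm
          rw [hg.2] at h1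
          exact h1
        refine ⟨?_, hfix⟩
        have h1 := cocycles₁_map_inv c' g
        rw [hg.2, hg.1, neg_zero] at h1
        exact h1 }
  have hKmem : ∀ g, g ∈ K ↔ c' g = 0 ∧ ∀ a : M.V, M.ρ g a = a := fun g => Iff.rfl
  have hKnormal : ∀ g ∈ K, ∀ h : GQ, h * g * h⁻¹ ∈ K := by
    intro g hg h
    rw [hKmem] at hg ⊢
    constructor
    · rw [hcoc, hcoc, hg.1, map_zero, zero_add]
      have h1 := cocycles₁_map_inv c' h
      have h2 : M.ρ (h * g) (c' h⁻¹) = M.ρ h (c' h⁻¹) := by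
        rw [map_mul]
        change M.ρ h (M.ρ g (c' h⁻¹)) = _
        rw [hg.2]
      rw [h2, h1, neg_add_cancel]
    · intro a
      rw [map_mul, map_mul]
      change M.ρ h (M.ρ g (M.ρ h⁻¹ a)) = a
      rw [hg.2]
      have h := congrArg (fun f => f a) (map_mul M.ρ h h⁻¹)
      rw [mul_inv_cancel, map_one] at h
      exact h.symm
  have hHUK : H ⊓ U₀ ≤ K := by
    intro s hs
    rw [hKmem]
    refine ⟨?_, fun a => hU₀fix a s hs.2⟩
    have := hinv 1 s hs
    rwa [one_mul, cocycles₁_map_one] at this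
  -- a level `F'` for `S ∪ {q}` below `H ⊓ U₀`
  obtain ⟨_, ⟨F', hF', rfl⟩, hF'le⟩ := hHU
  -- the inertia group at the distinguished place is in `K`
  have hI₀ : (primeLocalPlace q).inertiaSubgroupIn ℚ ≤ K := by
    intro σ hσ
    have hσD : σ ∈ (primeLocalPlace q).decompositionSubgroup ℚ := by
      obtain ⟨σ', -, rfl⟩ := hσ
      exact σ'.2
    obtain ⟨τ, hτ⟩ := hdec σ hσD F' hF'.finiteDimensional
    have hu : σ⁻¹ * primeLocalToGlobal q τ ∈ F'.fixingSubgroup := by
      rw [IntermediateField.mem_fixingSubgroup_iff]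
      intro y hy
      change σ⁻¹ (primeLocalToGlobal q τ y) = y
      rw [hτ y hy]
      exact σ.symm_apply_apply y
    have hu' := hF'le hu
    rw [hKmem]
    refine ⟨?_, hunr σ hσ⟩
    have h1 : primeLocalToGlobal q τ = σ * (σ⁻¹ * primeLocalToGlobal q τ) := by group
    have h2 := hloc0 τ
    rw [h1, hinv σ _ hu'] at h2
    exact h2
  -- all inertia groups over `q` are in `K`
  have hI : ∀ A : ValuationSubring Ω, A.LiesOverPrime (q : ℕ) → A.inertiaSubgroupIn ℚ ≤ K := by
    intro A hA σ hσ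
    obtain ⟨τ, hτ⟩ := Fermat.Agent.EC.exists_conj_inertia q.2 (primeLocalPlace q) A
      (primeLocalPlace_liesOverPrime_h9 q) hA
    have h1 := hI₀ (hτ σ hσ)
    have h2 := hKnormal _ h1 τ
    have h3 : τ * (τ⁻¹ * σ * τ) * τ⁻¹ = σ := by group
    rwa [h3] at h2
  -- `K` is open for `S`
  have hKopen' : (levelBasis (insert q S)).IsOpen K := ⟨_, ⟨F', hF', rfl⟩, hF'le.trans hHUK⟩
  obtain ⟨F, hF, hKF⟩ := exists_eq_fixingSubgroup_of_isOpen hKopen'
  have hFS : F.IsUnramifiedOutside S := by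
    refine ⟨hF.1, fun q' hq' A hA => ?_⟩
    by_cases hqq : q' = q
    · subst hqq
      rw [← hKF]
      exact hI A hA
    · refine hF.2 q' (fun h => ?_) A hA
      rcases Finset.mem_insert.1 h with h | h
      · exact hqq h
      · exact hq' h
  have hKopen : (levelBasis S).IsOpen K := by
    rw [hKF]
    exact isOpen_fixingSubgroup hFS
  -- conclusion
  refine ⟨c', ⟨K, hKopen, fun g s hs => ?_⟩, hcls.symm⟩
  rw [hcoc, ((hKmem s).1 hs).1, map_zero, zero_add]

end FieldStep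

end Fermat.Agent.TW
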