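/-
S56 (Taylor–Wiles) — helper9. The abstract induction behind the choice of Taylor–Wiles primes:
a finite group `T ∅` of "dual Selmer classes" inside a master group `𝔐`, shrinking when primes are
added (`T (insert q Q) ≤ T Q ⊓ K q`), and a killing hypothesis (every nonzero class is outside
`K q` for some good prime `q` avoiding any given finite set) ⇒ there are `r` good primes `Q` with
`T Q = ⊥`, where `r` depends only on `T ∅`.
-/
import Mathlib

set_option autoImplicit false

namespace Fermat.Agent.TW

variable {𝔐 : Type*} [AddCommGroup 𝔐] {P : Type*} [DecidableEq P]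

/-- the number of Taylor–Wiles primes used: `0` if there is nothing to kill, `#T₀` otherwise -/
noncomputable def killNumber (T₀ : AddSubgroup 𝔐) : ℕ := by
  classical exact if T₀ = ⊥ then 0 else Nat.card T₀

lemma killNumber_of_eq_bot {T₀ : AddSubgroup 𝔐} (h : T₀ = ⊥) : killNumber T₀ = 0 := by
  unfold killNumber
  rw [if_pos h]

lemma killNumber_of_ne_bot {T₀ : AddSubgroup 𝔐} (h : T₀ ≠ ⊥) : killNumber T₀ = Nat.card T₀ := by
  unfold killNumber
  rw [if_neg h]

/-- **the killing induction** -/
theorem exists_finset_kill (T : Finset P → AddSubgroup 𝔐) (K : P → AddSubgroup 𝔐)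
    (good : P → Prop) (hfin : Finite (T ∅))
    (hstep : ∀ (Q : Finset P) (q : P), q ∉ Q → T (insert q Q) ≤ T Q ⊓ K q)
    (hkill : ∀ (A : Finset P) (x : 𝔐), x ∈ T ∅ → x ≠ 0 → ∃ q, q ∉ A ∧ good q ∧ x ∉ K q)
    (avoid : Finset P) :
    ∃ Q : Finset P, Q.card = killNumber (T ∅) ∧ Disjoint Q avoid ∧ (∀ q ∈ Q, good q) ∧
      T Q = ⊥ := by
  classical
  by_cases h0 : T ∅ = ⊥
  · exact ⟨∅, by rw [killNumber_of_eq_bot h0, Finset.card_empty], Finset.disjoint_empty_left _,
      fun q hq => absurd hq (Finset.notMem_empty q), h0⟩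
  rw [killNumber_of_ne_bot h0]
  -- a fixed nonzero class, used for padding
  obtain ⟨x₀, hx₀, hx₀0⟩ : ∃ x, x ∈ T ∅ ∧ x ≠ 0 := by
    by_contra hcon
    refine h0 ((AddSubgroup.eq_bot_iff_forall _).2 fun x hx => ?_)
    by_contra hx0
    exact hcon ⟨x, hx, hx0⟩
  -- antitonicity
  have hanti : ∀ Q : Finset P, T Q ≤ T ∅ := by
    intro Q
    induction Q using Finset.induction_on with
    | empty => exact le_rfl
    | insert q Q hq ih => exact ((hstep Q q hq).trans inf_le_left).trans ih
  have hfinQ : ∀ Q : Finset P, Finite (T Q) := fun Q =>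
    Finite.of_injective (AddSubgroup.inclusion (hanti Q)) (AddSubgroup.inclusion_injective _)
  -- the inductive statement
  have key : ∀ n : ℕ, (∃ Q : Finset P, Q.card = n ∧ Disjoint Q avoid ∧ (∀ q ∈ Q, good q) ∧
      Nat.card (T Q) + n ≤ Nat.card (T ∅)) ∨
      (∃ Q : Finset P, Q.card = n ∧ Disjoint Q avoid ∧ (∀ q ∈ Q, good q) ∧ T Q = ⊥) := by
    intro n
    induction n with
    | zero =>
      exact Or.inl ⟨∅, Finset.card_empty, Finset.disjoint_empty_left _,
        fun q hq => absurd hq (Finset.notMem_empty q), le_rfl⟩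
    | succ n ih =>
      -- one more prime: killing `x` if `T Q ≠ ⊥`, padding with `x₀` otherwise
      have step : ∀ Q : Finset P, Q.card = n → Disjoint Q avoid → (∀ q ∈ Q, good q) →
          ∀ x, x ∈ T ∅ → x ≠ 0 → ∃ q, q ∉ Q ∧ Disjoint (insert q Q) avoid ∧
            (∀ q' ∈ insert q Q, good q') ∧ (insert q Q).card = n + 1 ∧ x ∉ K q := by
        intro Q hQn hQa hQg x hx hx0
        obtain ⟨q, hqA, hqg, hqK⟩ := hkill (Q ∪ avoid) x hx hx0
        have hqQ : q ∉ Q := fun h => hqA (Finset.mem_union_left _ h)
        have hqa : q ∉ avoid := fun h => hqA (Finset.mem_union_right _ h)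
        refine ⟨q, hqQ, ?_, ?_, ?_, hqK⟩
        · rw [Finset.disjoint_insert_left]
          exact ⟨hqa, hQa⟩
        · intro q' hq'
          rcases Finset.mem_insert.1 hq' with rfl | h
          · exact hqg
          · exact hQg q' h
        · rw [Finset.card_insert_of_notMem hqQ, hQn]
      rcases ih with ⟨Q, hQn, hQa, hQg, hQc⟩ | ⟨Q, hQn, hQa, hQg, hQb⟩
      · by_cases hTQ : T Q = ⊥
        · obtain ⟨q, hqQ, hd, hg, hc, -⟩ := step Q hQn hQa hQg x₀ hx₀ hx₀0
          refine Or.inr ⟨insert q Q, hc, hd, hg, ?_⟩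
          have := (hstep Q q hqQ).trans inf_le_left
          rw [hTQ] at this
          exact le_bot_iff.1 this
        · obtain ⟨x, hx, hx0⟩ : ∃ x, x ∈ T Q ∧ x ≠ 0 := by
            by_contra hcon
            refine hTQ ((AddSubgroup.eq_bot_iff_forall _).2 fun x hx => ?_)
            by_contra hx0
            exact hcon ⟨x, hx, hx0⟩
          obtain ⟨q, hqQ, hd, hg, hc, hxK⟩ := step Q hQn hQa hQg x (hanti Q hx) hx0
          refine Or.inl ⟨insert q Q, hc, hd, hg, ?_⟩
          -- strict decrease
          have hle : T (insert q Q) ≤ T Q := (hstep Q q hqQ).trans inf_le_left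
          have hlt : T (insert q Q) < T Q := by
            refine lt_of_le_of_ne hle fun heq => hxK ?_
            have : x ∈ T (insert q Q) := heq ▸ hx
            exact ((hstep Q q hqQ) this).2
          have := hfinQ Q
          have hcard : Nat.card (T (insert q Q)) < Nat.card (T Q) := by
            have h1 : Nat.card (T (insert q Q)) ≤ Nat.card (T Q) :=
              Nat.card_le_card_of_injective (AddSubgroup.inclusion hle)
                (AddSubgroup.inclusion_injective _)
            refine lt_of_le_of_ne h1 fun heq => ?_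
            have hsurj : Function.Bijective (AddSubgroup.inclusion hle) :=
              (Nat.bijective_iff_injective_and_card _).2
                ⟨AddSubgroup.inclusion_injective _, heq⟩
            obtain ⟨y, hy⟩ := hsurj.2 ⟨x, hx⟩
            apply hxK
            have hy' : (y : 𝔐) = x := congrArg Subtype.val hy
            have : x ∈ T (insert q Q) := hy' ▸ y.2
            exact ((hstep Q q hqQ) this).2
          omega
      · obtain ⟨q, hqQ, hd, hg, hc, -⟩ := step Q hQn hQa hQg x₀ hx₀ hx₀0
        refine Or.inr ⟨insert q Q, hc, hd, hg, ?_⟩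
        have := (hstep Q q hqQ).trans inf_le_left
        rw [hQb] at this
        exact le_bot_iff.1 this
  rcases key (Nat.card (T ∅)) with ⟨Q, hQn, hQa, hQg, hQc⟩ | h
  · refine ⟨Q, hQn, hQa, hQg, ?_⟩
    have := hfinQ Q
    have hpos : 0 < Nat.card (T Q) := Nat.card_pos
    omega
  · exact h
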