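/-
S56 (Taylor–Wiles) — helper9. The Taylor–Wiles induction on the engine side:
* local Tate duality at `q` and the kernel of the restriction to `G_q`;
* `twTS S`: the dual Selmer group of `twDatum S` inside the master group `H¹(G_ℚ, 𝐌(X))`;
* `twTS_insert_le`: adding a prime without local condition shrinks it into the kernel of `res_q`;
* finiteness, smoothness, unramifiedness of the master module `𝐌(X)`;
* `exists_finset_twTS_eq_bot`: the choice of the Taylor–Wiles primes killing the dual Selmer group.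
-/
import Fermat.Agent.TW.FieldStep_helper9
import Fermat.Agent.TW.KillInd_helper9
import Fermat.Agent.CFT.Sm.PTMain_helper2

set_option autoImplicit false
set_option linter.unusedSectionVars false

open CategoryTheory CategoryTheory.Abelian groupCohomology ExtCitation

namespace Fermat.Agent.TW

open Fermat.Agent.CFT.Sm Fermat.Agent.CFT.Bridge Fermat.Agent.CFT.Arith Fermat.Agent.CFT.Local
  Fermat.Agent.CFT

/-- `Ω = AlgebraicClosure ℚ`. -/
local notation "Ω" => AlgebraicClosure ℚ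
/-- `GQ = Gal(Ω/ℚ)`. -/
local notation "GQ" => (AlgebraicClosure ℚ ≃ₐ[ℚ] AlgebraicClosure ℚ)

section General

lemma h1map_eq_res_comp {G H : Type} [Group G] [Group H] (f : H →* G) {A : Rep.{0} ℤ G}
    {B : Rep.{0} ℤ H} (β : Rep.res f A ⟶ B) (x : H1 A) :
    (groupCohomology.map f β 1).hom x =
      (groupCohomology.map (MonoidHom.id H) β 1).hom
        ((groupCohomology.map f (𝟙 (Rep.res f A)) 1).hom x) := by
  obtain ⟨c, rfl⟩ := (ModuleCat.epi_iff_surjective (H1π A)).1 inferInstance x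
  rw [H1π_comp_map_apply, H1π_comp_map_apply]
  have := H1π_comp_map_apply (MonoidHom.id H) β ((mapCocycles₁ f (𝟙 (Rep.res f A))).hom c)
  refine Eq.trans ?_ this.symm
  congr 1

end General

section LocalDuality

variable (p : ℕ) [Fact p.Prime]
variable (X₀ : Rep.{0} ℤ GQ) [hfinX : @Module.Finite ℤ X₀.V _ _ X₀.hV2]
  (hX : ∀ x : X₀.V, p • x = 0) (q : Nat.Primes)
  (hq : IsSmooth (locBasis q) (Rep.res (primeLocalToGlobal q) X₀))

include hX in
/-- **local Tate duality** in degrees `(1, 1)` -/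
theorem locPairAt_bijective : Function.Bijective (locPairAt p X₀ q hq) := by
  have : Finite (YLoc X₀ q hq).obj.V :=
    smRep_finite_of_moduleFinite_of_torsion (YLoc X₀ q hq) hX
  exact ((LocForm.locPClassFormation_isGlobalBelow q p).tateDuality_bijective
    (LocForm.isOpen_locMuFix q p) (YLoc X₀ q hq) hX).2

include hX in
/-- restriction to `G_q` followed by `β_q` kills exactly the classes with trivial restriction -/
lemma res_eq_zero_of_betaLoc (x : H1 (dualRep X₀))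
    (h : (groupCohomology.map (primeLocalToGlobal q) (betaLoc X₀ q) 1).hom x = 0) :
    (groupCohomology.map (primeLocalToGlobal q)
      (𝟙 (Rep.res (primeLocalToGlobal q) (dualRep X₀))) 1).hom x = 0 := by
  have hiso : IsIso (betaLoc X₀ q) := isIso_rep_of_bijective _ (betaLoc_bijective X₀ hX q)
  have h1 := (h1map_eq_res_comp (primeLocalToGlobal q) (betaLoc X₀ q) x).symm.trans h
  have h2 := congrArg
    (groupCohomology.map (MonoidHom.id (primeLocalGaloisGroup q)) (inv (betaLoc X₀ q)) 1).hom h1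
  rw [h1map_id_comp_apply, IsIso.hom_inv_id, map_zero] at h2
  exact (h1map_id_apply _).symm.trans h2

omit hfinX in
lemma betaLoc_res_eq_zero (x : H1 (dualRep X₀))
    (h : (groupCohomology.map (primeLocalToGlobal q)
      (𝟙 (Rep.res (primeLocalToGlobal q) (dualRep X₀))) 1).hom x = 0) :
    (groupCohomology.map (primeLocalToGlobal q) (betaLoc X₀ q) 1).hom x = 0 := by
  rw [h1map_eq_res_comp, h, map_zero]

end LocalDuality


section Step

variable {p : ℕ} [Fact p.Prime] (hp2 : p ≠ 2)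
variable (X₀ : Rep.{0} ℤ GQ) [hfinX : @Module.Finite ℤ X₀.V _ _ X₀.hV2]
  (hX : ∀ x : X₀.V, p • x = 0)
  (hloc : ∀ q : Nat.Primes, IsSmooth (locBasis q) (Rep.res (primeLocalToGlobal q) X₀))
  (𝓛 : ∀ q : Nat.Primes, AddSubgroup (Ext (smUnit ℤ (locBasis q)) (YLoc X₀ q (hloc q)) 1))

/-- the dual Selmer group for `S` (local conditions `𝓛 q`, `q ∈ S`), inside the master group -/
noncomputable def twTS (S : Finset Nat.Primes) (hpS : pPrime p ∈ S)
    (hS : IsSmooth (levelBasis S) X₀) : AddSubgroup (H1 (dualRep X₀)) :=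
  twT hp2 X₀ hX S hpS hS (fun v => 𝓛 v.1)

theorem mem_twTS_iff (S : Finset Nat.Primes) (hpS : pPrime p ∈ S)
    (hS : IsSmooth (levelBasis S) X₀) (x : H1 (dualRep X₀)) :
    x ∈ twTS hp2 X₀ hX hloc 𝓛 S hpS hS ↔
      IsLcClass (levelBasis S) (dualRep X₀) x ∧
        ∀ v : ↥S, x ∈ dualCondAt p X₀ hX v.1 (hloc v.1) (𝓛 v.1) :=
  mem_twT_iff hp2 X₀ hX S hpS hS (fun v => 𝓛 v.1) x

/-- the kernel of the restriction to `G_q` -/
noncomputable def resKer (q : Nat.Primes) : AddSubgroup (H1 (dualRep X₀)) :=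
  (groupCohomology.map (primeLocalToGlobal q)
    (𝟙 (Rep.res (primeLocalToGlobal q) (dualRep X₀))) 1).hom.toAddMonoidHom.ker

omit hfinX in
lemma mem_resKer_iff (q : Nat.Primes) (x : H1 (dualRep X₀)) :
    x ∈ resKer X₀ q ↔ (groupCohomology.map (primeLocalToGlobal q)
      (𝟙 (Rep.res (primeLocalToGlobal q) (dualRep X₀))) 1).hom x = 0 := Iff.rfl

/-- **the induction step**: adding a prime `q` with no local condition shrinks the dual Selmer
group into the kernel of the restriction to `G_q` — given the field-theoretic input `hE`. -/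
theorem twTS_insert_le (S : Finset Nat.Primes) (hpS : pPrime p ∈ S)
    (hS : IsSmooth (levelBasis S) X₀) (q : Nat.Primes) (h𝓛q : 𝓛 q = ⊤)
    (hE : ∀ x : H1 (dualRep X₀), IsLcClass (levelBasis (insert q S)) (dualRep X₀) x →
      x ∈ resKer X₀ q → IsLcClass (levelBasis S) (dualRep X₀) x) :
    twTS hp2 X₀ hX hloc 𝓛 (insert q S) (Finset.mem_insert_of_mem hpS)
        (hS.of_finer (levelBasis_finer_of_subset (Finset.subset_insert q S))) ≤
      twTS hp2 X₀ hX hloc 𝓛 S hpS hS ⊓ resKer X₀ q := by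
  intro x hx
  rw [mem_twTS_iff] at hx
  obtain ⟨hlc', hloc'⟩ := hx
  obtain ⟨ε, hε, hεL⟩ := hloc' ⟨q, Finset.mem_insert_self q S⟩
  have hε0 : ε = 0 := by
    apply (locPairAt_bijective p X₀ hX q (hloc q)).1
    rw [map_zero]
    apply AddMonoidHom.ext
    intro y
    exact hεL y (h𝓛q ▸ AddSubgroup.mem_top y)
  have hres : x ∈ resKer X₀ q := by
    rw [mem_resKer_iff]
    apply res_eq_zero_of_betaLoc p X₀ hX q x
    rw [hε0] at hε
    exact hε.symm.trans (map_zero _)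
  exact ⟨(mem_twTS_iff hp2 X₀ hX hloc 𝓛 S hpS hS x).2
    ⟨hE x hlc' hres, fun v => hloc' ⟨v.1, Finset.mem_insert_of_mem v.2⟩⟩, hres⟩

end Step

section Master

variable {p : ℕ} [Fact p.Prime]
variable (X₀ : Rep.{0} ℤ GQ) [hfinX : @Module.Finite ℤ X₀.V _ _ X₀.hV2]
  (hX : ∀ x : X₀.V, p • x = 0)

/-- the action on the master dual module -/
lemma dualRep_ρ_apply (g : GQ) (f : (dualRep X₀).V) (x : X₀.V) :
    ihomFun X₀ OmegaRep ((dualRep X₀).ρ g f) x =
      OmegaRep.ρ g (ihomFun X₀ OmegaRep f (X₀.ρ g⁻¹ x)) := rfl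

include hX in
/-- the values of an element of `𝐌(X)` are `p`-th roots of unity -/
lemma dualRep_apply_pow (f : (dualRep X₀).V) (x : X₀.V) :
    (Additive.toMul (α := Ωˣ) (ihomFun X₀ OmegaRep f x) : Ωˣ) ^ p = 1 := by
  have h1 : p • ihomFun X₀ OmegaRep f x = 0 := by
    rw [← map_nsmul, hX, map_zero]
  exact congrArg Additive.toMul h1

include hX in
/-- `𝐌(X)` is finite -/
theorem finite_dualRep : Finite (dualRep X₀).V := by
  have hp : p.Prime := Fact.out
  have : NeZero p := ⟨hp.ne_zero⟩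
  have : Finite X₀.V := by
    have h1 : X₀.hV2 = AddCommGroup.toIntModule X₀.V := Subsingleton.elim _ _
    have h2 : Module.Finite ℤ X₀.V := h1 ▸ hfinX
    have : AddGroup.FG X₀.V := Module.Finite.iff_addGroup_fg.1 h2
    apply AddCommGroup.finite_of_fg_isAddTorsion
    intro x
    exact isOfFinAddOrder_iff_nsmul_eq_zero.2 ⟨p, hp.pos, hX x⟩
  let Φ : (dualRep X₀).V → (X₀.V → rootsOfUnity p Ω) := fun f x =>
    ⟨Additive.toMul (α := Ωˣ) (ihomFun X₀ OmegaRep f x),
      (mem_rootsOfUnity _ _).2 (dualRep_apply_pow X₀ hX f x)⟩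
  refine Finite.of_injective Φ ?_
  intro f g hfg
  change ihomFun X₀ OmegaRep f = ihomFun X₀ OmegaRep g
  refine DFunLike.ext _ _ fun x => ?_
  have h1 := congrArg (fun F => ((F x : rootsOfUnity p Ω) : Ωˣ)) hfg
  exact Additive.toMul.injective h1


include hX in
/-- `𝐌(X)` is smooth for `𝒰_S` (`p ∈ S`, `X` smooth for `𝒰_S`) -/
theorem isSmooth_dualRep (S : Finset Nat.Primes) (hpS : pPrime p ∈ S)
    (hS : IsSmooth (levelBasis S) X₀) : IsSmooth (levelBasis S) (dualRep X₀) :=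
  IsSmooth.of_surjective ((homSm (XS X₀ S hS)).obj (ESSm S)).property (alphaS X₀ S hS)
    (alphaS_bijective X₀ hX S hpS hS).2

include hX in
/-- `𝐌(X)` is unramified at `q ≠ p` if `X` is -/
theorem dualRep_unramified (q : Nat.Primes) (hqp : q ≠ pPrime p) (A : ValuationSubring Ω)
    (hA : A.LiesOverPrime (q : ℕ))
    (hX₀ : ∀ σ ∈ A.inertiaSubgroupIn ℚ, ∀ x : X₀.V, X₀.ρ σ x = x) :
    ∀ σ ∈ A.inertiaSubgroupIn ℚ, ∀ f : (dualRep X₀).V, (dualRep X₀).ρ σ f = f := by
  intro σ hσ f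
  have hp : p.Prime := Fact.out
  change ihomFun X₀ OmegaRep ((dualRep X₀).ρ σ f) = ihomFun X₀ OmegaRep f
  refine DFunLike.ext _ _ fun x => ?_
  rw [dualRep_ρ_apply, hX₀ σ⁻¹ (inv_mem hσ) x]
  set u : Ωˣ := Additive.toMul (α := Ωˣ) (ihomFun X₀ OmegaRep f x) with hu
  have hup : u ^ p = 1 := dualRep_apply_pow X₀ hX f x
  change Additive.ofMul (σ • u) = Additive.ofMul u
  congr 1
  apply Units.ext
  change σ (u : Ω) = (u : Ω)
  have hζ : (u : Ω) ^ (p ^ 1) = 1 := by
    rw [pow_one, ← Units.val_pow_eq_pow_val, hup, Units.val_one]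
  have hunr := isUnramifiedOutside_adjoin_of_pow_pow_eq_one (S := {pPrime p}) hp
    (Finset.mem_singleton_self _) 1 hζ
  have h1 := hunr.2 q (fun h => hqp (Finset.mem_singleton.1 h)) A hA hσ
  exact (IntermediateField.mem_fixingSubgroup_iff _ _).1 h1 _
    (IntermediateField.mem_adjoin_simple_self ℚ _)

end Master



section Main

variable {p : ℕ} [Fact p.Prime] (hp2 : p ≠ 2)
variable (X₀ : Rep.{0} ℤ GQ) [hfinX : @Module.Finite ℤ X₀.V _ _ X₀.hV2]
  (hX : ∀ x : X₀.V, p • x = 0)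
  (hloc : ∀ q : Nat.Primes, IsSmooth (locBasis q) (Rep.res (primeLocalToGlobal q) X₀))
  (𝓛 : ∀ q : Nat.Primes, AddSubgroup (Ext (smUnit ℤ (locBasis q)) (YLoc X₀ q (hloc q)) 1))

lemma twTS_congr {S S' : Finset Nat.Primes} (h : S = S') (hpS : pPrime p ∈ S)
    (hS : IsSmooth (levelBasis S) X₀) (hpS' : pPrime p ∈ S')
    (hS' : IsSmooth (levelBasis S') X₀) :
    twTS hp2 X₀ hX hloc 𝓛 S hpS hS = twTS hp2 X₀ hX hloc 𝓛 S' hpS' hS' := by
  subst h
  rfl

/-- **the choice of the Taylor–Wiles primes** (engine side): if every nonzero class of the dual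
Selmer group for `Smin` restricts nontrivially at some good prime outside any given finite set,
then `r = killNumber (twTS Smin)` good primes kill the dual Selmer group. -/
theorem exists_finset_twTS_eq_bot (Smin : Finset Nat.Primes) (hpS : pPrime p ∈ Smin)
    (hS : IsSmooth (levelBasis Smin) X₀) (good : Nat.Primes → Prop)
    (hgood𝓛 : ∀ q, good q → 𝓛 q = ⊤)
    (hgoodp : ∀ q, good q → q ≠ pPrime p)
    (hgoodunr : ∀ q, good q → ∀ σ ∈ (primeLocalPlace q).inertiaSubgroupIn ℚ,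
      ∀ x : X₀.V, X₀.ρ σ x = x)
    (hdec : ∀ q : Nat.Primes, ∀ σ ∈ (primeLocalPlace q).decompositionSubgroup ℚ,
      ∀ F : IntermediateField ℚ Ω, FiniteDimensional ℚ F →
        ∃ τ : primeLocalGaloisGroup q, ∀ y ∈ F, primeLocalToGlobal q τ y = σ y)
    (hfin : Finite (twTS hp2 X₀ hX hloc 𝓛 Smin hpS hS))
    (hkill : ∀ (A : Finset Nat.Primes) (x : H1 (dualRep X₀)),
      x ∈ twTS hp2 X₀ hX hloc 𝓛 Smin hpS hS → x ≠ 0 →
        ∃ q, q ∉ A ∧ good q ∧ x ∉ resKer X₀ q)
    (avoid : Finset Nat.Primes) :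
    ∃ Q : Finset Nat.Primes, Q.card = killNumber (twTS hp2 X₀ hX hloc 𝓛 Smin hpS hS) ∧
      Disjoint Q avoid ∧ (∀ q ∈ Q, good q) ∧
      ∀ (hpS' : pPrime p ∈ Smin ∪ Q) (hS' : IsSmooth (levelBasis (Smin ∪ Q)) X₀),
        twTS hp2 X₀ hX hloc 𝓛 (Smin ∪ Q) hpS' hS' = ⊥ := by
  classical
  let emb : {q : Nat.Primes // good q} ↪ Nat.Primes := Function.Embedding.subtype _
  have hSQ : ∀ Q : Finset {q : Nat.Primes // good q},
      IsSmooth (levelBasis (Smin ∪ Q.map emb)) X₀ := fun Q =>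
    hS.of_finer (levelBasis_finer_of_subset Finset.subset_union_left)
  have hpQ : ∀ Q : Finset {q : Nat.Primes // good q}, pPrime p ∈ Smin ∪ Q.map emb := fun Q =>
    Finset.mem_union_left _ hpS
  let T : Finset {q : Nat.Primes // good q} → AddSubgroup (H1 (dualRep X₀)) := fun Q =>
    twTS hp2 X₀ hX hloc 𝓛 (Smin ∪ Q.map emb) (hpQ Q) (hSQ Q)
  let K : {q : Nat.Primes // good q} → AddSubgroup (H1 (dualRep X₀)) := fun q => resKer X₀ q.1
  have hT0 : T ∅ = twTS hp2 X₀ hX hloc 𝓛 Smin hpS hS :=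
    twTS_congr hp2 X₀ hX hloc 𝓛 (by rw [Finset.map_empty, Finset.union_empty]) _ _ _ _
  have hstep : ∀ (Q : Finset {q : Nat.Primes // good q}) (q : {q : Nat.Primes // good q}),
      q ∉ Q → T (insert q Q) ≤ T Q ⊓ K q := by
    intro Q q _
    have hins : Smin ∪ (insert q Q).map emb = insert q.1 (Smin ∪ Q.map emb) := by
      rw [Finset.map_insert, Finset.union_insert]
      rfl
    have hfinM := finite_dualRep X₀ hX
    have h1 := twTS_insert_le hp2 X₀ hX hloc 𝓛 (Smin ∪ Q.map emb) (hpQ Q) (hSQ Q) q.1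
      (hgood𝓛 q.1 q.2) (fun x hx hres =>
        isLcClass_of_res_eq_zero (dualRep X₀) _ q.1
          (isSmooth_dualRep X₀ hX _ (hpQ Q) (hSQ Q))
          (dualRep_unramified X₀ hX q.1 (hgoodp q.1 q.2) (primeLocalPlace q.1)
            (primeLocalPlace_liesOverPrime_h9 q.1) (hgoodunr q.1 q.2))
          (hdec q.1) x hx ((mem_resKer_iff X₀ q.1 x).1 hres))
    have h2 : T (insert q Q) = twTS hp2 X₀ hX hloc 𝓛 (insert q.1 (Smin ∪ Q.map emb))
        (Finset.mem_insert_of_mem (hpQ Q))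
        ((hSQ Q).of_finer (levelBasis_finer_of_subset (Finset.subset_insert q.1 _))) :=
      twTS_congr hp2 X₀ hX hloc 𝓛 hins _ _ _ _
    rw [h2]
    exact h1
  have hkill' : ∀ (A : Finset {q : Nat.Primes // good q}) (x : H1 (dualRep X₀)), x ∈ T ∅ →
      x ≠ 0 → ∃ q, q ∉ A ∧ True ∧ x ∉ K q := by
    intro A x hx hx0
    rw [hT0] at hx
    obtain ⟨q, hqA, hqg, hqK⟩ := hkill (A.map emb) x hx hx0
    exact ⟨⟨q, hqg⟩, fun h => hqA (Finset.mem_map_of_mem emb h), trivial, hqK⟩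
  have hfin' : Finite (T ∅) := by
    rw [hT0]
    exact hfin
  obtain ⟨Q, hcard, hdisj, -, hbot⟩ :=
    exists_finset_kill T K (fun _ => True) hfin' hstep hkill' (avoid.subtype good)
  refine ⟨Q.map emb, ?_, ?_, ?_, ?_⟩
  · rw [Finset.card_map, hcard, hT0]
  · rw [Finset.disjoint_left]
    intro q hq hqa
    obtain ⟨q', hq', rfl⟩ := Finset.mem_map.1 hq
    exact (Finset.disjoint_left.1 hdisj hq') (Finset.mem_subtype.2 hqa)
  · intro q hq
    obtain ⟨q', -, rfl⟩ := Finset.mem_map.1 hq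
    exact q'.2
  · intro hpS' hS'
    exact hbot

/-- vanishing of `twTS` means vanishing of the dual Selmer group -/
theorem dualSelmer_eq_bot_of_twTS (S : Finset Nat.Primes) (hpS : pPrime p ∈ S)
    (hS : IsSmooth (levelBasis S) X₀) (h : twTS hp2 X₀ hX hloc 𝓛 S hpS hS = ⊥) :
    (twDatum hp2 S hpS).dualSelmer (XS X₀ S hS) (fun v => 𝓛 v.1) = ⊥ :=
  (AddSubgroup.map_eq_bot_iff_of_injective _ (jS_injective X₀ hX S hpS hS)).1 h

/-- `twTS` is finite if `Ext¹(X_S, E_S)` is -/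
theorem finite_twTS (S : Finset Nat.Primes) (hpS : pPrime p ∈ S)
    (hS : IsSmooth (levelBasis S) X₀) [Finite (Ext (XS X₀ S hS) (ESSm S) 1)] :
    Finite (twTS hp2 X₀ hX hloc 𝓛 S hpS hS) := by
  have h0 : Finite (Ext (XS X₀ S hS) (twDatum hp2 S hpS).E 1) :=
    ‹Finite (Ext (XS X₀ S hS) (ESSm S) 1)›
  have h1 : Finite ((twDatum hp2 S hpS).dualSelmer (XS X₀ S hS) (fun v => 𝓛 v.1)) :=
    inferInstance
  exact Finite.of_surjective
    (fun e : (twDatum hp2 S hpS).dualSelmer (XS X₀ S hS) (fun v => 𝓛 v.1) =>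
      (⟨jS X₀ hX S hpS hS e.1, ⟨e.1, e.2, rfl⟩⟩ : twTS hp2 X₀ hX hloc 𝓛 S hpS hS))
    (by
      rintro ⟨_, ⟨e, he, rfl⟩⟩
      exact ⟨⟨e, he⟩, rfl⟩)

end Main

end Fermat.Agent.TW
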