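/-
S56 (Taylor–Wiles) — helper9. The choice of the Taylor–Wiles primes, unconditional form:
`exists_finset_twTS_eq_bot` (engine side) with its two field-theoretic inputs discharged by
helper4's (DEC_F) `exists_primeLocal_lift` and helper1's killing lemma (K) `exists_kill_prime`.
-/
import Fermat.Agent.TW.Step_helper9
import Fermat.Agent.TW.Kill_helper1_Final

set_option autoImplicit false
set_option linter.unusedSectionVars false

open CategoryTheory CategoryTheory.Abelian groupCohomology ExtCitation Polynomial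

namespace Fermat.Agent.TW

open Fermat.Agent.CFT.Sm Fermat.Agent.CFT.Bridge Fermat.Agent.CFT.Arith Fermat.Agent.CFT.Local
  Fermat.Agent.CFT

/-- `Ω = AlgebraicClosure ℚ`. -/
local notation "Ω" => AlgebraicClosure ℚ
/-- `GQ = Gal(Ω/ℚ)`. -/
local notation "GQ" => (AlgebraicClosure ℚ ≃ₐ[ℚ] AlgebraicClosure ℚ)

section Primes

variable {k : Type} [Field k] [Finite k] (p : ℕ) [Fact p.Prime] (hp2 : p ≠ 2)
  (ρbar : ResidualGaloisRep k) (β : Module.Basis (Fin 2) k ρbar.V)

/-- the Taylor–Wiles condition on a prime `q` (level `n`): `q ≠ p`, `q ≡ 1 mod p^(n+1)`, `ρ̄`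
unramified at `q` and every Frobenius at `q` has distinct eigenvalues in `k`. -/
def IsTWPrime (n : ℕ) (q : Nat.Primes) : Prop :=
  q ≠ pPrime p ∧ p ^ (n + 1) ∣ (q : ℕ) - 1 ∧ ρbar.IsUnramifiedAt (q : ℕ) ∧
    ∀ P : ValuationSubring Ω, P.LiesOverPrime (q : ℕ) → ∀ φ : GQ, P.IsFrobeniusAt φ (q : ℕ) →
      ∃ a b : k, a ≠ b ∧ LinearMap.charpoly (ρbar.ρ φ) = (X - C a) * (X - C b)

/-- inertia at an unramified prime acts trivially on `ad⁰ρ̄` -/
lemma adRep_inertia_trivial {q : Nat.Primes} (hunr : ρbar.IsUnramifiedAt (q : ℕ))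
    (σ : GQ) (hσ : σ ∈ (primeLocalPlace q).inertiaSubgroupIn ℚ)
    (x : (adRep (Fermat.Agent.S53.resMatrixOf ρbar β)).V) :
    (adRep (Fermat.Agent.S53.resMatrixOf ρbar β)).ρ σ x = x := by
  have h1 : Fermat.Agent.S53.resMatrixOf ρbar β σ = 1 := by
    rw [Fermat.Agent.S53.resMatrixOf_eq_toMatrix,
      hunr _ (primeLocalPlace_liesOverPrime_h9 q) σ hσ]
    exact LinearMap.toMatrix_one β
  rw [adRep_ρ_eq_one_of _ σ h1]
  rfl

end Primes

section Main

variable {k : Type} [Field k] [Finite k] {p : ℕ} [Fact p.Prime] (hp2 : p ≠ 2) [CharP k p]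
  (ρbar : ResidualGaloisRep k) (β : Module.Basis (Fin 2) k ρbar.V)

instance instModuleFiniteAdRep {G : Type} [Group G] (r : G →* Matrix (Fin 2) (Fin 2) k) :
    @Module.Finite ℤ (adRep r).V _ _ (adRep r).hV2 := Module.Finite.of_finite

variable (habs : ρbar.IsAbsolutelyIrreducible)
    (hdet : (GaloisRepAdic.ofResidualGaloisRep ρbar).DetIsCyclotomic p)
    (hsplit : ∀ σ : GQ, ∃ a b : k, LinearMap.charpoly (ρbar.ρ σ) = (X - C a) * (X - C b))
    (hTW : ∀ (K : Type) [Field K] [Algebra k K] (G : Subgroup GQ), G.index = 2 →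
      ∀ V : Submodule K (ρbar.baseChange K).V,
        (∀ σ ∈ G, ∀ x ∈ V, (ρbar.baseChange K).ρ σ x ∈ V) → V = ⊥ ∨ V = ⊤)
    (hloc : ∀ q : Nat.Primes, IsSmooth (locBasis q)
      (Rep.res (primeLocalToGlobal q) (adRep (Fermat.Agent.S53.resMatrixOf ρbar β))))
    (𝓛 : ∀ q : Nat.Primes, AddSubgroup (Ext (smUnit ℤ (locBasis q))
      (YLoc (adRep (Fermat.Agent.S53.resMatrixOf ρbar β)) q (hloc q)) 1))

include habs hdet hsplit hTW in
/-- **The Taylor–Wiles primes.** For every level `n` there is a set `Q` of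
`r = killNumber (dual Selmer group for Smin)` Taylor–Wiles primes, disjoint from `Smin` and from
any given finite set, such that the dual Selmer group for `Smin ∪ Q` (no condition at `Q`)
vanishes. -/
theorem exists_tw_primes (Smin : Finset Nat.Primes) (hpS : pPrime p ∈ Smin)
    (hS : IsSmooth (levelBasis Smin) (adRep (Fermat.Agent.S53.resMatrixOf ρbar β)))
    (h𝓛 : ∀ q, q ∉ Smin → 𝓛 q = ⊤)
    (hfin : Finite (twTS hp2 (adRep (Fermat.Agent.S53.resMatrixOf ρbar β))
      (nsmul_adRep p (Fermat.Agent.S53.resMatrixOf ρbar β)) hloc 𝓛 Smin hpS hS))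
    (n : ℕ) (avoid : Finset Nat.Primes) :
    ∃ Q : Finset Nat.Primes,
      Q.card = killNumber (twTS hp2 (adRep (Fermat.Agent.S53.resMatrixOf ρbar β))
        (nsmul_adRep p (Fermat.Agent.S53.resMatrixOf ρbar β)) hloc 𝓛 Smin hpS hS) ∧
      Disjoint Q avoid ∧ Disjoint Q Smin ∧ (∀ q ∈ Q, IsTWPrime p ρbar n q) ∧
      ∀ (hpS' : pPrime p ∈ Smin ∪ Q)
        (hS' : IsSmooth (levelBasis (Smin ∪ Q)) (adRep (Fermat.Agent.S53.resMatrixOf ρbar β))),
        twTS hp2 (adRep (Fermat.Agent.S53.resMatrixOf ρbar β))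
          (nsmul_adRep p (Fermat.Agent.S53.resMatrixOf ρbar β)) hloc 𝓛 (Smin ∪ Q) hpS' hS' = ⊥ := by
  classical
  obtain ⟨Q, hcard, hdisj, hgood, hbot⟩ := exists_finset_twTS_eq_bot hp2
    (adRep (Fermat.Agent.S53.resMatrixOf ρbar β))
    (nsmul_adRep p (Fermat.Agent.S53.resMatrixOf ρbar β)) hloc 𝓛 Smin hpS hS
    (fun q => q ∉ Smin ∧ IsTWPrime p ρbar n q)
    (fun q hq => h𝓛 q hq.1)
    (fun q hq => hq.2.1)
    (fun q hq σ hσ x => adRep_inertia_trivial ρbar β hq.2.2.2.1 σ hσ x)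
    (fun q σ hσ F hF => by
      have := hF
      exact Fermat.Agent.CFT.LocForm.exists_primeLocal_lift q σ hσ F)
    hfin
    (fun A x hx hx0 => by
      obtain ⟨hlc, -⟩ := (mem_twTS_iff hp2 _ _ hloc 𝓛 Smin hpS hS x).1 hx
      have hlc' := hlc.mono (fullBasis_finer_levelBasis Smin)
      obtain ⟨q, hqT, hqp, hqn, hunr, hfrob, hres⟩ := exists_kill_prime p hp2 ρbar β habs hdet
        hsplit hTW x hx0 hlc' n ((A ∪ Smin).image (fun q : Nat.Primes => (q : ℕ)))
      refine ⟨q, ?_, ⟨?_, ?_, hqn, hunr, hfrob⟩, ?_⟩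
      · intro hqA
        exact hqT (Finset.mem_image.2 ⟨q, Finset.mem_union_left _ hqA, rfl⟩)
      · intro hqS
        exact hqT (Finset.mem_image.2 ⟨q, Finset.mem_union_right _ hqS, rfl⟩)
      · intro h
        exact hqp (congrArg (fun q : Nat.Primes => (q : ℕ)) h)
      · intro hmem
        exact hres ((mem_resKer_iff _ q x).1 hmem))
    (avoid ∪ Smin)
  refine ⟨Q, hcard, ?_, ?_, fun q hq => (hgood q hq).2, hbot⟩
  · exact Finset.disjoint_of_subset_right Finset.subset_union_left hdisj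
  · exact Finset.disjoint_of_subset_right Finset.subset_union_right hdisj

end Main

end Fermat.Agent.TW
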