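/-
S56 (Taylor–Wiles) — helper1, small leaf (SCHUR): `H⁰(G_ℚ, ad⁰ ρbar) = 0` for an absolutely
irreducible residual representation in odd characteristic.
-/
import Fermat.Agent.TW.Hub_helper9
import Fermat.Agent.S53.L1_helper1_Slice
import Fermat.Agent.S53.L0_helper3_Matrix

set_option autoImplicit false
set_option linter.unusedSectionVars false

open Matrix

namespace Fermat.Agent.TW

open Fermat.Agent.S53

/-- `GQ = Gal(ℚ̄/ℚ)`. -/
local notation "GQ" => (AlgebraicClosure ℚ ≃ₐ[ℚ] AlgebraicClosure ℚ)

section Schur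

variable {k : Type} [Field k]

/-- matrix form: a trace-zero matrix commuting (by conjugation invariance) with a representation
whose centraliser consists of scalars is zero, in characteristic `≠ 2`. -/
theorem eq_zero_of_conj_invariant_of_schur {G : Type} [Group G]
    (r : G →* Matrix (Fin 2) (Fin 2) k) (h2 : (2 : k) ≠ 0)
    (hschur : ∀ M : Matrix (Fin 2) (Fin 2) k, (∀ g, M * r g = r g * M) →
      ∃ c : k, M = c • (1 : Matrix (Fin 2) (Fin 2) k))
    (w : Matrix (Fin 2) (Fin 2) k) (htr : w.trace = 0)
    (hw : ∀ g, r g * w * r g⁻¹ = w) : w = 0 := by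
  have hcomm : ∀ g, w * r g = r g * w := by
    intro g
    have h1 : r g⁻¹ * r g = 1 := by rw [← map_mul, inv_mul_cancel, map_one]
    calc w * r g = (r g * w * r g⁻¹) * r g := by rw [hw g]
      _ = r g * w * (r g⁻¹ * r g) := by simp only [mul_assoc]
      _ = r g * w := by rw [h1, mul_one]
  obtain ⟨c, hc⟩ := hschur w hcomm
  have h3 : w.trace = 2 * c := by
    rw [hc, Matrix.trace_smul, Matrix.trace_one, Fintype.card_fin, smul_eq_mul, mul_comm]
    norm_num
  rw [htr] at h3
  have hc0 : c = 0 := by
    rcases mul_eq_zero.mp h3.symm with h | h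
    · exact absurd h h2
    · exact h
  rw [hc, hc0, zero_smul]

/-- **(SCHUR)**: the adjoint representation `ad⁰` of an absolutely irreducible residual
representation has no non-zero invariants, in odd characteristic. -/
theorem adRep_invariants_eq_zero [Finite k] (p : ℕ) [Fact p.Prime] [CharP k p] (hp2 : p ≠ 2)
    (ρbar : ResidualGaloisRep k) (β : Module.Basis (Fin 2) k ρbar.V)
    (habs : ρbar.IsAbsolutelyIrreducible)
    (w : (adRep (S53.resMatrixOf ρbar β)).V)
    (hw : ∀ g, (adRep (S53.resMatrixOf ρbar β)).ρ g w = w) : w = 0 := by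
  have h2 : (2 : k) ≠ 0 := by
    intro h
    have h' : ((2 : ℕ) : k) = 0 := by exact_mod_cast h
    rw [CharP.cast_eq_zero_iff k p] at h'
    have hp : p.Prime := Fact.out
    exact hp2 ((Nat.prime_dvd_prime_iff_eq hp Nat.prime_two).mp h')
  have key := eq_zero_of_conj_invariant_of_schur (S53.resMatrixOf ρbar β) h2
    (fun M hM => L1.schur_of_absIrr ρbar β habs (S53.resMatrixOf ρbar β)
      (fun σ => resMatrixOf_eq_toMatrix ρbar β σ) M hM)
    (show sl2 k from w).1 ((mem_sl2_iff _).mp (show sl2 k from w).2)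
    (fun g => congrArg Subtype.val (hw g))
  exact Subtype.ext key

end Schur

end Fermat.Agent.TW
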