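/-
S56 (Taylor–Wiles) — helper9. The Taylor–Wiles bound `#Sel ≤ |k|^{#Q}` for the family of local
conditions `twFamily` (condition `𝓗p` at `p`, unramified at `Smin ∖ {p}`, nothing at the
Taylor–Wiles primes `Q`), once the dual Selmer group for `Smin ∪ Q` vanishes.
Inputs: the Greenberg–Wiles count (`Count_helper9`), the global Euler characteristic formula
(hypothesis `hec`, = helper3's `ec_global`), (SCHUR), (ODD) [helper1], (LU) [helper6],
(LQ) [helper4], and the bound `h𝓗p` at `p` [(F1) helper6 / (F2) helper7, helper8].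
-/
import Fermat.Agent.TW.Count_helper9
import Fermat.Agent.TW.Primes_helper9
import Fermat.Agent.TW.Family_helper9
import Fermat.Agent.TW.UnrLocal_helper6
import Fermat.Agent.TW.LQAd_helper4
import Fermat.Agent.TW.Schur_helper1
import Fermat.Agent.TW.Odd_helper1_Fixed

set_option autoImplicit false
set_option linter.unusedSectionVars false

open CategoryTheory CategoryTheory.Abelian groupCohomology ExtCitation Polynomial

namespace Fermat.Agent.TW

open Fermat.Agent.CFT.Sm Fermat.Agent.CFT.Bridge Fermat.Agent.CFT.Arith Fermat.Agent.CFT.Local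
  Fermat.Agent.CFT

/-- `Ω = AlgebraicClosure ℚ`. -/
local notation "Ω" => AlgebraicClosure ℚ
/-- `GQ = Gal(Ω/ℚ)`. -/
local notation "GQ" => (AlgebraicClosure ℚ ≃ₐ[ℚ] AlgebraicClosure ℚ)

section CountTW

variable {k : Type} [Field k] [Finite k] {p : ℕ} [Fact p.Prime] (hp2 : p ≠ 2) [CharP k p]
  (ρbar : ResidualGaloisRep k) (β : Module.Basis (Fin 2) k ρbar.V)

include hp2 in
lemma two_ne_zero_of_charP : (2 : k) ≠ 0 := by
  intro h
  have h2 : ((2 : ℕ) : k) = 0 := by exact_mod_cast h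
  have h3 := (CharP.cast_eq_zero_iff k p 2).1 h2
  have hp : p.Prime := Fact.out
  exact hp2 ((Nat.prime_dvd_prime_iff_eq hp Nat.prime_two).1 h3)

include hp2 in
/-- `H⁰(G_ℚ, ad⁰ρ̄) = 0` in the `Ext` form -/
lemma card_ext_zero_adSm (habs : ρbar.IsAbsolutelyIrreducible) (S : Finset Nat.Primes)
    (hS : IsSmooth (levelBasis S) (adRep (Fermat.Agent.S53.resMatrixOf ρbar β))) :
    Nat.card (Ext (smUnit ℤ (levelBasis S))
      (XS (adRep (Fermat.Agent.S53.resMatrixOf ρbar β)) S hS) 0) = 1 := by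
  rw [natCard_ext_zero]
  have : Unique {y : (XS (adRep (Fermat.Agent.S53.resMatrixOf ρbar β)) S hS).obj.V //
      ∀ g : GQ, (XS (adRep (Fermat.Agent.S53.resMatrixOf ρbar β)) S hS).obj.ρ g y = y} :=
    { default := ⟨0, fun g => map_zero _⟩
      uniq := fun y => Subtype.ext
        (adRep_invariants_eq_zero p hp2 ρbar β habs y.1 y.2) }
  exact Nat.card_unique

variable (Smin Q : Finset Nat.Primes) (hdisj : Disjoint Q Smin) (n : ℕ)
  (hQ : ∀ q ∈ Q, IsTWPrime p ρbar n q)
  (hloc : ∀ q : Nat.Primes, IsSmooth (locBasis q)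
    (Rep.res (primeLocalToGlobal q) (adRep (Fermat.Agent.S53.resMatrixOf ρbar β))))
  (𝓗p : AddSubgroup (H1 (Rep.res (primeLocalToGlobal (pPrime p))
    (adRep (Fermat.Agent.S53.resMatrixOf ρbar β)))))
  (h𝓗p : Nat.card (locCond (YLoc (adRep (Fermat.Agent.S53.resMatrixOf ρbar β)) (pPrime p)
      (hloc (pPrime p))) 𝓗p) ≤
    Nat.card (Ext (smUnit ℤ (locBasis (pPrime p)))
      (YLoc (adRep (Fermat.Agent.S53.resMatrixOf ρbar β)) (pPrime p) (hloc (pPrime p))) 0) *
      Nat.card k)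

include hdisj hQ h𝓗p in
open Classical in
/-- the local bounds `#L_q ≤ #H⁰(G_q, ad⁰) · c_q` for the family `twFamily` -/
lemma card_twFamily_le (q : Nat.Primes) (hq : q ∈ Smin ∪ Q) :
    Nat.card (twFamily p (Fermat.Agent.S53.resMatrixOf ρbar β) Smin 𝓗p hloc q) ≤
      Nat.card (Ext (smUnit ℤ (locBasis q))
        (YLoc (adRep (Fermat.Agent.S53.resMatrixOf ρbar β)) q (hloc q)) 0) *
        (if q = pPrime p ∨ q ∈ Q then Nat.card k else 1) := by
  by_cases hqp : q = pPrime p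
  · subst hqp
    rw [twFamily_p, if_pos (Or.inl rfl)]
    exact h𝓗p
  · by_cases hqS : q ∈ Smin
    · have hqQ : q ∉ Q := fun h => (Finset.disjoint_left.1 hdisj h) hqS
      rw [twFamily_of_mem p _ Smin 𝓗p hloc hqp hqS, if_neg (by tauto), mul_one]
      have : Finite (YLoc (adRep (Fermat.Agent.S53.resMatrixOf ρbar β)) q (hloc q)).obj.V :=
        inferInstanceAs (Finite (adRep (Fermat.Agent.S53.resMatrixOf ρbar β)).V)
      exact card_locCond_unrCond_le q
        (YLoc (adRep (Fermat.Agent.S53.resMatrixOf ρbar β)) q (hloc q))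
    · have hqQ : q ∈ Q := by
        rcases Finset.mem_union.1 hq with h | h
        · exact absurd h hqS
        · exact h
      obtain ⟨-, hdvd, hunr, hfrob⟩ := hQ q hqQ
      rw [twFamily_of_not_mem p _ Smin 𝓗p hloc hqp hqS, if_pos (Or.inr hqQ),
        Nat.card_congr AddSubgroup.topEquiv.toEquiv]
      exact loc_card_ext_one_le_ad_residual q p
        (dvd_trans (dvd_pow_self p (Nat.succ_ne_zero n)) hdvd) ρbar β hunr hfrob (hloc q)

include hdisj hQ h𝓗p in
open Classical in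
/-- **The Taylor–Wiles bound**: `#Sel_{Smin ∪ Q} ≤ |k|^{#Q}` when the dual Selmer group for
`Smin ∪ Q` vanishes. -/
theorem tw_card_selmer_le (habs : ρbar.IsAbsolutelyIrreducible)
    (hpS : pPrime p ∈ Smin ∪ Q)
    (hS : IsSmooth (levelBasis (Smin ∪ Q)) (adRep (Fermat.Agent.S53.resMatrixOf ρbar β)))
    [Finite (Ext (XS (adRep (Fermat.Agent.S53.resMatrixOf ρbar β)) (Smin ∪ Q) hS)
      (ESSm (Smin ∪ Q)) 1)]
    [Finite (Ext (XS (adRep (Fermat.Agent.S53.resMatrixOf ρbar β)) (Smin ∪ Q) hS)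
      (ESSm (Smin ∪ Q)) 2)]
    (hec : Nat.card (Ext (XS (adRep (Fermat.Agent.S53.resMatrixOf ρbar β)) (Smin ∪ Q) hS)
        (ESSm (Smin ∪ Q)) 1) =
      Nat.card (Ext (XS (adRep (Fermat.Agent.S53.resMatrixOf ρbar β)) (Smin ∪ Q) hS)
        (ESSm (Smin ∪ Q)) 0) *
      Nat.card (Ext (XS (adRep (Fermat.Agent.S53.resMatrixOf ρbar β)) (Smin ∪ Q) hS)
        (ESSm (Smin ∪ Q)) 2) *
      Nat.card {z : (XS (adRep (Fermat.Agent.S53.resMatrixOf ρbar β)) (Smin ∪ Q) hS).obj.V //
        (XS (adRep (Fermat.Agent.S53.resMatrixOf ρbar β)) (Smin ∪ Q) hS).obj.ρ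
          complexConjugation z = z})
    (hbot : twTS hp2 (adRep (Fermat.Agent.S53.resMatrixOf ρbar β))
      (nsmul_adRep p (Fermat.Agent.S53.resMatrixOf ρbar β)) hloc
      (twFamily p (Fermat.Agent.S53.resMatrixOf ρbar β) Smin 𝓗p hloc) (Smin ∪ Q) hpS hS = ⊥) :
    Nat.card ((twDatum hp2 (Smin ∪ Q) hpS).selmer
      (XS (adRep (Fermat.Agent.S53.resMatrixOf ρbar β)) (Smin ∪ Q) hS)
      (fun v => twFamily p (Fermat.Agent.S53.resMatrixOf ρbar β) Smin 𝓗p hloc v.1)) ≤
      Nat.card k ^ Q.card := by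
  have hfinX : Finite (XS (adRep (Fermat.Agent.S53.resMatrixOf ρbar β)) (Smin ∪ Q) hS).obj.V :=
    inferInstanceAs (Finite (adRep (Fermat.Agent.S53.resMatrixOf ρbar β)).V)
  have hk0 : 0 < Nat.card k := Nat.card_pos
  refine twDatum_card_selmer_le hp2 (Smin ∪ Q) hpS
    (XS (adRep (Fermat.Agent.S53.resMatrixOf ρbar β)) (Smin ∪ Q) hS)
    (nsmul_adRep p (Fermat.Agent.S53.resMatrixOf ρbar β))
    (fun v => twFamily p (Fermat.Agent.S53.resMatrixOf ρbar β) Smin 𝓗p hloc v.1)
    (dualSelmer_eq_bot_of_twTS hp2 _ _ hloc _ (Smin ∪ Q) hpS hS hbot) _ hec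
    (card_ext_zero_adSm hp2 ρbar β habs (Smin ∪ Q) hS)
    (fun v => if v.1 = pPrime p ∨ v.1 ∈ Q then Nat.card k else 1)
    (fun v => card_twFamily_le ρbar β Smin Q hdisj n hQ hloc 𝓗p h𝓗p v.1 v.2)
    (Nat.card k) (Nat.card k ^ Q.card) hk0
    (card_le_card_adRep_fixed (two_ne_zero_of_charP hp2) _ complexConjugation) ?_
  -- the product of the local factors
  rw [Finset.prod_ite, Finset.prod_const, Finset.prod_const_one, mul_one, ← pow_succ']
  apply Nat.pow_le_pow_right hk0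
  have hinj : (Finset.univ.filter
      (fun v : ↥(Smin ∪ Q) => v.1 = pPrime p ∨ v.1 ∈ Q)).card ≤ (insert (pPrime p) Q).card := by
    apply Finset.card_le_card_of_injOn (fun v => v.1)
    · intro v hv
      rcases (Finset.mem_filter.1 hv).2 with h | h
      · exact Finset.mem_insert.2 (Or.inl h)
      · exact Finset.mem_insert.2 (Or.inr h)
    · intro a _ b _ hab
      exact Subtype.ext hab
  exact hinj.trans (Finset.card_insert_le _ _)

end CountTW

end Fermat.Agent.TW
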