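/-
S56 / TW (leaf FIN-2) — helper4.
**Finiteness of `Extⁿ(X, E_S)`, `Extⁿ(X, J_S)`, `Extⁿ(X, 𝔻_S)` for `n ≤ 2`** and `X` a finite
smooth module of `(G_ℚ, 𝒰_S)` killed by `p` (`p ∈ S`, `p` odd).  Degrees `1, 2` for `J`, `𝔻` by
the injective duality maps into character modules of finite groups (FIN-1); `Ext¹(X, E)` by the
`p`-divisible comparison `Extⁿ(X, E) ≃ Hⁿ(Hom(X, E))` and FIN-1; `Hom(X, J)` through the coinduced
components and the finiteness of `B_v[p]`; the rest by the long exact sequence.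
-/
import Fermat.Agent.TW.Glue_helper9
import Fermat.Agent.TW.FinH1_helper4
import Fermat.Agent.CFT.LocForm.F1Cyc_helper4
import Fermat.Agent.CFT.Bridge.HomCompare_helper6

set_option autoImplicit false
set_option linter.unusedSectionVars false
set_option linter.style.haveILetI false

open CategoryTheory CategoryTheory.Abelian ExtCitation

namespace Fermat.Agent.TW

open Fermat.Agent.CFT.Sm Fermat.Agent.CFT.Bridge Fermat.Agent.CFT.Arith Fermat.Agent.CFT
  Fermat.Agent.CFT.LocForm Fermat.Agent.CFT.Local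

section Generic

/-- the middle term of an exact sequence with finite ends is finite. -/
lemma finite_of_exact_of_finite {A B C : Type*} [AddGroup A] [AddGroup B] [AddGroup C] [Finite A]
    [Finite C] (f : A →+ B) (g : B →+ C) (h : ∀ b, g b = 0 → ∃ a, f a = b) : Finite B := by
  rw [← Set.finite_univ_iff]
  refine Set.Finite.of_finite_fibers g (Set.toFinite _) ?_
  rintro _ ⟨b₀, -, rfl⟩
  refine (Set.finite_range (fun a => b₀ + f a)).subset ?_
  rintro b ⟨-, hb⟩
  have hb' : g b = g b₀ := hb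
  obtain ⟨a, ha⟩ := h (-b₀ + b) (by rw [map_add, map_neg, hb', neg_add_cancel])
  exact ⟨a, by simp only [ha, add_neg_cancel_left]⟩

variable {Γ : Type} [Group Γ] {𝒰 : OpenBasis Γ} (p : ℕ)

lemma coindSmFun_nsmul_helper4 {Γ' : Type} [Group Γ'] {𝒰' : OpenBasis Γ'} (ψ : Γ' →* Γ)
    {B : SmRep ℤ 𝒰'} (n : ℕ) (f : ((coindSm ℤ 𝒰 𝒰' ψ).obj B).obj.V) (h : Γ) :
    coindSmFun ψ (n • f) h = n • coindSmFun ψ f h := by
  induction n with
  | zero => rw [zero_smul, zero_smul]; rfl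
  | succ n ih => rw [succ_nsmul, succ_nsmul, coindSmFun_add, ih]

/-- `Hom(X, A)` is finite if `X` is finite killed by `p` and `A[p]` is finite. -/
lemma finite_hom_of_finite_torsion (X A : SmRep ℤ 𝒰) [Finite X.obj.V]
    (hX : ∀ x : X.obj.V, p • x = 0) (hA : {a : A.obj.V | p • a = 0}.Finite) :
    Finite (X ⟶ A) := by
  haveI : Finite {a : A.obj.V | p • a = 0} := hA.to_subtype
  refine Finite.of_injective
    (fun f : X ⟶ A => fun x : X.obj.V => (⟨f.hom.hom x, by
      change p • f.hom.hom x = 0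
      rw [← map_nsmul, hX, map_zero]⟩ : {a : A.obj.V | p • a = 0})) ?_
  intro f f' h
  apply smRep_hom_ext_apply
  intro x
  exact congrArg (fun F => ((F x : {a : A.obj.V | p • a = 0}) : A.obj.V)) h

/-- `Ext⁰(X, A)` is finite if `X` is finite killed by `p` and `A[p]` is finite. -/
lemma finite_ext_zero_of_finite_torsion (X A : SmRep ℤ 𝒰) [Finite X.obj.V]
    (hX : ∀ x : X.obj.V, p • x = 0) (hA : {a : A.obj.V | p • a = 0}.Finite) :
    Finite (Ext X A 0) := by
  haveI := finite_hom_of_finite_torsion p X A hX hA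
  exact Finite.of_equiv _ Ext.homEquiv₀.symm

end Generic

section Datum

variable {Γ : Type} [Group Γ] {𝒰 : OpenBasis Γ} {p : ℕ} [hp : Fact p.Prime] {ι : Type} [Fintype ι]
  {G : ι → Type} [∀ v, Group (G v)] {ψ : ∀ v, G v →* Γ} {𝒱 : ∀ v, OpenBasis (G v)}
  (D : PTDatum 𝒰 p ψ 𝒱)

/-- `Hom(X, coInd J_v)` is finite if `B_v[p]` is finite. -/
lemma finite_hom_Cv_of_datum (v : ι) (X : SmRep ℤ 𝒰) [Finite X.obj.V]
    (hX : ∀ x : X.obj.V, p • x = 0) (hB : {b : (D.B v).obj.V | p • b = 0}.Finite) :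
    Finite (X ⟶ D.Cv v) := by
  haveI : Finite {b : (D.B v).obj.V | p • b = 0} := hB.to_subtype
  refine Finite.of_injective
    (fun f : X ⟶ D.Cv v => fun x : X.obj.V =>
      (⟨(D.κ v).hom (coindSmFun (ψ v) (f.hom.hom x) 1), by
        change p • (D.κ v).hom (coindSmFun (ψ v) (f.hom.hom x) 1) = 0
        rw [← map_nsmul, ← coindSmFun_nsmul_helper4, ← map_nsmul, hX, map_zero]
        exact map_zero _⟩ : {b : (D.B v).obj.V | p • b = 0})) ?_
  intro f f' h
  apply smRep_hom_ext_apply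
  intro x
  apply coindSmFun_injective (ψ v)
  funext g
  have key : ∀ φ : X ⟶ D.Cv v, coindSmFun (ψ v) (φ.hom.hom x) g =
      coindSmFun (ψ v) (φ.hom.hom (X.obj.ρ g x)) 1 := by
    intro φ
    have h1 : φ.hom.hom (X.obj.ρ g x) = (D.Cv v).obj.ρ g (φ.hom.hom x) :=
      Rep.hom_comm_apply φ.hom g x
    rw [h1, coindSmFun_action, one_mul]
  rw [key f, key f']
  apply D.κ_inj v
  exact congrArg (fun F => ((F (X.obj.ρ g x) : {b : (D.B v).obj.V | p • b = 0}) :
    (D.B v).obj.V)) h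

/-- `Hom(X, J)` is finite if all `B_v[p]` are finite. -/
lemma finite_hom_J_of_datum (X : SmRep ℤ 𝒰) [Finite X.obj.V]
    (hX : ∀ x : X.obj.V, p • x = 0) (hB : ∀ v, {b : (D.B v).obj.V | p • b = 0}.Finite) :
    Finite (X ⟶ D.J) := by
  haveI : ∀ v, Finite (X ⟶ D.Cv v) := fun v => finite_hom_Cv_of_datum D v X hX (hB v)
  refine Finite.of_injective (fun (f : X ⟶ D.J) (v : ι) => f ≫ D.proj v) ?_
  intro f f' h
  have key : ∀ φ : X ⟶ D.J, φ = ∑ v, (φ ≫ D.proj v) ≫ D.incl v := by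
    intro φ
    conv_lhs => rw [← Category.comp_id φ, ← D.sum, Preadditive.comp_sum]
    exact Finset.sum_congr rfl fun v _ => (Category.assoc _ _ _).symm
  rw [key f, key f']
  exact Finset.sum_congr rfl fun v _ => congrArg (fun t => t ≫ D.incl v) (congrFun h v)

include hp in
/-- **All `Ext`-groups `Extⁿ(X, E)`, `Extⁿ(X, J)`, `Extⁿ(X, C)`, `n ≤ 2`, are finite** for a
Poitou–Tate datum with injective duality maps, finite `H⁰`, `H¹` (global and local), finite
`B_v[p]` and finite `Ext¹(X, E)`. -/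
theorem finite_ext_of_dualities (X : SmRep ℤ 𝒰) [Finite X.obj.V]
    (hX : ∀ x : X.obj.V, p • x = 0)
    [Finite (Ext (smUnit ℤ 𝒰) X 1)] [Finite (Ext (smUnit ℤ 𝒰) X 0)]
    [∀ v, Finite (Ext (smUnit ℤ (𝒱 v)) ((D.Rv v).obj X) 1)]
    [∀ v, Finite (Ext (smUnit ℤ (𝒱 v)) ((D.Rv v).obj X) 0)]
    (hB : ∀ v, {b : (D.B v).obj.V | p • b = 0}.Finite)
    (hE1 : Finite (Ext X D.E 1))
    (hG1 : Function.Injective (D.globPairN X (show 1 + 1 = 2 from rfl)))
    (hG2 : Function.Injective (D.globPairN X (show 0 + 2 = 2 from rfl)))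
    (hL1 : ∀ v, Function.Injective (D.locPairN v X (show 1 + 1 = 2 from rfl)))
    (hL2 : ∀ v, Function.Injective (D.locPairN v X (show 0 + 2 = 2 from rfl)))
    (hCF1 : ∀ v, Function.Injective (D.tau v X 1))
    (hCF2b : ∀ v, Function.Injective (D.tau v X 2))
    (hCF2 : ∀ v, Function.Injective (D.tau v (smUnit ℤ 𝒰) 2)) :
    (Finite (Ext X D.E 0) ∧ Finite (Ext X D.E 1) ∧ Finite (Ext X D.E 2)) ∧
    (Finite (Ext X D.J 0) ∧ Finite (Ext X D.J 1) ∧ Finite (Ext X D.J 2)) ∧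
    (Finite (Ext X D.C 0) ∧ Finite (Ext X D.C 1) ∧ Finite (Ext X D.C 2)) := by
  classical
  obtain ⟨u, hu', -⟩ := D.exists_units hCF2
  -- torsion
  have hH1 : ∀ a : Ext (smUnit ℤ 𝒰) X 1, p • a = 0 := fun a => ext_nsmul_eq_zero_of_apply p hX a
  have hH0 : ∀ a : Ext (smUnit ℤ 𝒰) X 0, p • a = 0 := fun a => ext_nsmul_eq_zero_of_apply p hX a
  have hL1t : ∀ a : (∀ v, Ext (smUnit ℤ (𝒱 v)) ((D.Rv v).obj X) 1), p • a = 0 := fun a => by
    funext v
    exact ext_nsmul_eq_zero_of_apply (X := (D.Rv v).obj X) p hX (a v)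
  have hL0t : ∀ a : (∀ v, Ext (smUnit ℤ (𝒱 v)) ((D.Rv v).obj X) 0), p • a = 0 := fun a => by
    funext v
    exact ext_nsmul_eq_zero_of_apply (X := (D.Rv v).obj X) p hX (a v)
  have : Finite (CharacterModule (Ext (smUnit ℤ 𝒰) X 1)) :=
    finite_characterModule_of_nsmul_eq_zero p hH1
  have : Finite (CharacterModule (Ext (smUnit ℤ 𝒰) X 0)) :=
    finite_characterModule_of_nsmul_eq_zero p hH0
  have : Finite (CharacterModule (∀ v, Ext (smUnit ℤ (𝒱 v)) ((D.Rv v).obj X) 1)) :=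
    finite_characterModule_of_nsmul_eq_zero p hL1t
  have : Finite (CharacterModule (∀ v, Ext (smUnit ℤ (𝒱 v)) ((D.Rv v).obj X) 0)) :=
    finite_characterModule_of_nsmul_eq_zero p hL0t
  have hC1 : Finite (Ext X D.C 1) := Finite.of_injective _ hG1
  have hC2 : Finite (Ext X D.C 2) := Finite.of_injective _ hG2
  have hJ1 : Finite (Ext X D.J 1) := Finite.of_injective _
    (D.phiJ_injective u hu' X hX (show 1 + 1 = 2 from rfl) hL1 hCF1)
  have hJ2 : Finite (Ext X D.J 2) := Finite.of_injective _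
    (D.phiJ_injective u hu' X hX (show 0 + 2 = 2 from rfl) hL2 hCF2b)
  have hJ0hom : Finite (X ⟶ D.J) := finite_hom_J_of_datum D X hX hB
  have hJ0 : Finite (Ext X D.J 0) := Finite.of_equiv _ Ext.homEquiv₀.symm
  have hE0hom : Finite (X ⟶ D.E) := by
    haveI : Mono D.i := (mono_iff_injective D.i).2 D.i_inj
    exact Finite.of_injective (fun f : X ⟶ D.E => f ≫ D.i) (fun f f' h => (cancel_mono D.i).1 h)
  have hE0 : Finite (Ext X D.E 0) := Finite.of_equiv _ Ext.homEquiv₀.symm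
  -- the long exact sequence
  obtain ⟨δ0, hδ0a, -⟩ := exists_ext_connecting_deg D.i D.π p D.i_inj D.comp_zero D.exact
    D.coker_div D.coker_tor X hX 0
  obtain ⟨δ1, -, hδ1b⟩ := exists_ext_connecting_deg D.i D.π p D.i_inj D.comp_zero D.exact
    D.coker_div D.coker_tor X hX 1
  have hC0 : Finite (Ext X D.C 0) :=
    finite_of_exact_of_finite ((Ext.mk₀ D.π).postcomp X (add_zero 0)) δ0
      (fun c hc => (hδ0a c).1 hc)
  have hE2 : Finite (Ext X D.E 2) :=
    finite_of_exact_of_finite δ1 ((Ext.mk₀ D.i).postcomp X (add_zero 2))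
      (fun e he => (hδ1b e).1 he)
  exact ⟨⟨hE0, hE1, hE2⟩, ⟨hJ0, hJ1, hJ2⟩, ⟨hC0, hC1, hC2⟩⟩

end Datum

section Torsion

/-- `Ω = AlgebraicClosure ℚ`. -/
local notation "Ω" => AlgebraicClosure ℚ

variable (p : ℕ) [hp : Fact p.Prime]

/-- the `p`-torsion of `B_q` is finite. -/
lemma padicBSm_torsion_finite (q : ℕ) [Fact q.Prime] :
    {b : (padicBSm q).obj.V | p • b = 0}.Finite := by
  refine (Set.finite_range (fun i : Fin p => (i : ℕ) • zetaC q p)).subset ?_
  intro b hb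
  obtain ⟨i, hi⟩ := zetaC_ker q p b hb
  refine ⟨⟨i % p, Nat.mod_lt _ hp.out.pos⟩, ?_⟩
  change (i % p) • zetaC q p = b
  rw [hi]
  conv_rhs => rw [← Nat.mod_add_div i p, add_smul, mul_comm, mul_smul, zetaC_nsmul, smul_zero,
    add_zero]

/-- the `p`-torsion of `BSm v` is finite. -/
lemma BSm_torsion_finite (v : Nat.Primes) : {b : (BSm v).obj.V | p • b = 0}.Finite :=
  haveI : Fact (v : ℕ).Prime := ⟨v.2⟩
  padicBSm_torsion_finite p (v : ℕ)

/-- the `p`-torsion of `E_S` is finite. -/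
lemma ESSm_torsion_finite (S : Finset Nat.Primes) :
    {e : (ESSm S).obj.V | p • e = 0}.Finite := by
  haveI : Finite (rootsOfUnity p Ω) := inferInstance
  haveI : Finite {e : (ESSm S).obj.V | p • e = 0} := by
    refine Finite.of_injective (fun e : {e : (ESSm S).obj.V | p • e = 0} =>
      (⟨((Additive.toMul (α := ES S) e.1 : ES S) : Ωˣ), by
        rw [mem_rootsOfUnity]
        exact (ESRep_torsion_iff e.1).1 e.2⟩ : rootsOfUnity p Ω)) ?_
    intro e e' h
    apply Subtype.ext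
    have h1 : ((Additive.toMul (α := ES S) e.1 : ES S) : Ωˣ) =
        ((Additive.toMul (α := ES S) e'.1 : ES S) : Ωˣ) :=
      congrArg (fun z : rootsOfUnity p Ω => (z : Ωˣ)) h
    exact Additive.toMul.injective (Subtype.ext h1)
  exact Set.toFinite _

end Torsion

section Final

variable {p : ℕ} [hp : Fact p.Prime] (hp2 : p ≠ 2) (S : Finset Nat.Primes) (hpS : pPrime p ∈ S)
  (X : SmRep ℤ (levelBasis S)) [hfin : Finite X.obj.V] (hX : ∀ x : X.obj.V, p • x = 0)

/-- `Ext⁰(𝟙, X)` is finite for finite `X`. -/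
lemma finite_ext_zero_smUnit {Γ : Type} [Group Γ] {𝒰 : OpenBasis Γ} (Y : SmRep ℤ 𝒰)
    [Finite Y.obj.V] : Finite (Ext (smUnit ℤ 𝒰) Y 0) := by
  haveI : Finite (smInvariants Y) := Finite.of_injective (fun y : smInvariants Y => (y : Y.obj.V))
    Subtype.val_injective
  apply Nat.finite_of_card_ne_zero
  rw [card_ext_zero_eq]
  exact Nat.card_pos.ne'

include hX in
/-- `Hom_ℤ(X, E_S)` is finite. -/
lemma finite_homSm_ESSm [@Module.Finite ℤ X.obj.V _ _ X.obj.hV2] :
    Finite ((homSm X).obj (ESSm S)).obj.V := by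
  haveI : Finite {e : (ESSm S).obj.V | p • e = 0} := (ESSm_torsion_finite p S).to_subtype
  refine Finite.of_injective
    (fun f : ((homSm X).obj (ESSm S)).obj.V => fun x : X.obj.V =>
      (⟨homSmFun X f x, by
        change p • homSmFun X f x = 0
        rw [← map_nsmul, hX, map_zero]⟩ : {e : (ESSm S).obj.V | p • e = 0})) ?_
  intro f f' h
  apply homSmFun_injective X
  refine DFunLike.ext _ _ (fun x => ?_)
  exact congrArg (fun F => ((F x : {e : (ESSm S).obj.V | p • e = 0}) : (ESSm S).obj.V)) h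

include hp2 hpS hX in
/-- `Ext¹(X, E_S)` is finite. -/
lemma finite_ext_ESSm_one : Finite (Ext X (ESSm S) 1) := by
  haveI : @Module.Finite ℤ X.obj.V _ _ X.obj.hV2 :=
    @Module.Finite.of_finite ℤ X.obj.V _ _ X.obj.hV2 _
  haveI := finite_homSm_ESSm S X hX
  have hM : ∀ f : ((homSm X).obj (ESSm S)).obj.V, p • f = 0 := by
    intro f
    apply homSmFun_injective X
    refine DFunLike.ext _ _ (fun x => ?_)
    let evx : ((homSm X).obj (ESSm S)).obj.V →+ (ESSm S).obj.V :=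
      { toFun := fun f => homSmFun X f x
        map_zero' := rfl
        map_add' := fun _ _ => rfl }
    have h1 : evx (p • f) = p • evx f := map_nsmul evx p f
    have h2 : p • evx f = 0 := by
      change p • homSmFun X f x = 0
      rw [← map_nsmul, hX, map_zero]
    exact h1.trans h2
  haveI := global_finite_smH_one hp2 S hpS ((homSm X).obj (ESSm S)) hM
  exact Finite.of_equiv _ (smHomCompare p X hX (ESSm S) (pDiv_ESSm hpS) 1).toEquiv.symm

include hp2 hpS hX in
/-- **(FIN-2), all nine groups.** -/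
theorem finite_ext_twDatum :
    (Finite (Ext X (ESSm S) 0) ∧ Finite (Ext X (ESSm S) 1) ∧ Finite (Ext X (ESSm S) 2)) ∧
    (Finite (Ext X (JSSm S) 0) ∧ Finite (Ext X (JSSm S) 1) ∧ Finite (Ext X (JSSm S) 2)) ∧
    (Finite (Ext X (DSm S) 0) ∧ Finite (Ext X (DSm S) 1) ∧ Finite (Ext X (DSm S) 2)) := by
  haveI : Finite (Ext (smUnit ℤ (levelBasis S)) X 1) := global_finite_ext_one hp2 S hpS X hX
  haveI : Finite (Ext (smUnit ℤ (levelBasis S)) X 0) := finite_ext_zero_smUnit X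
  haveI : ∀ v : ↥S, Finite (((twDatum hp2 S hpS).Rv v).obj X).obj.V := fun v => hfin
  haveI : ∀ v : ↥S, Finite (Ext (smUnit ℤ (locFine S v)) (((twDatum hp2 S hpS).Rv v).obj X) 1) :=
    fun v => loc_finite_ext_one v.1 p (((twDatum hp2 S hpS).Rv v).obj X) hX
  haveI : ∀ v : ↥S, Finite (Ext (smUnit ℤ (locFine S v)) (((twDatum hp2 S hpS).Rv v).obj X) 0) :=
    fun v => finite_ext_zero_smUnit _
  exact finite_ext_of_dualities (twDatum hp2 S hpS) X hX
    (fun v => BSm_torsion_finite p v.1)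
    (finite_ext_ESSm_one hp2 S hpS X hX)
    (twDatum_globPairN_bijective hp2 S hpS X hX).2.1
    (twDatum_globPairN_bijective hp2 S hpS X hX).1.1
    (fun v => (twDatum_locPairN_bijective hp2 S hpS X hX v).2.1)
    (fun v => (twDatum_locPairN_bijective hp2 S hpS X hX v).1.1)
    (fun v => (twDatum_tau_one_bijective hp2 S hpS X hX v).1)
    (fun v => (twDatum_tau_two_bijective hp2 S hpS X hX v).1)
    (fun v => (twDatum hp2 S hpS).tau_two_injective v _)

include hp2 hpS hX in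
/-- **(FIN-2)** `Extⁿ(X, E_S)` is finite for `n ≤ 2`. -/
theorem finite_ext_ESSm (n : ℕ) (hn : n ≤ 2) : Finite (Ext X (ESSm S) n) := by
  obtain ⟨⟨h0, h1, h2⟩, -, -⟩ := finite_ext_twDatum hp2 S hpS X hX
  interval_cases n
  · exact h0
  · exact h1
  · exact h2

include hp2 hpS hX in
/-- **(FIN-2)** `Extⁿ(X, J_S)` is finite for `n ≤ 2`. -/
theorem finite_ext_JSSm (n : ℕ) (hn : n ≤ 2) : Finite (Ext X (JSSm S) n) := by
  obtain ⟨-, ⟨h0, h1, h2⟩, -⟩ := finite_ext_twDatum hp2 S hpS X hX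
  interval_cases n
  · exact h0
  · exact h1
  · exact h2

include hp2 hpS hX in
/-- **(FIN-2)** `Extⁿ(X, 𝔻_S)` is finite for `n ≤ 2`. -/
theorem finite_ext_DSm (n : ℕ) (hn : n ≤ 2) : Finite (Ext X (DSm S) n) := by
  obtain ⟨-, -, ⟨h0, h1, h2⟩⟩ := finite_ext_twDatum hp2 S hpS X hX
  interval_cases n
  · exact h0
  · exact h1
  · exact h2

end Final

end Fermat.Agent.TW
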