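/-
S56 (Taylor–Wiles) — helper9. The final assembly, generic part: the choice of the Taylor–Wiles
primes together with the bound `#Sel ≤ |k|^r` (`tw_primes_and_count`), under the hypothesis
`ECGlobal` (= helper3's global Euler characteristic formula) and a bound at `p`.
-/
import Fermat.Agent.TW.CountTW_helper9
import Fermat.Agent.TW.FinExt_helper4

set_option autoImplicit false
set_option linter.unusedSectionVars false

open CategoryTheory CategoryTheory.Abelian groupCohomology ExtCitation Polynomial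

namespace Fermat.Agent.TW

open Fermat.Agent.CFT.Sm Fermat.Agent.CFT.Bridge Fermat.Agent.CFT.Arith Fermat.Agent.CFT.Local
  Fermat.Agent.CFT

/-- `Ω = AlgebraicClosure ℚ`. -/
local notation "Ω" => AlgebraicClosure ℚ
/-- `GQ = Gal(Ω/ℚ)`. -/
local notation "GQ" => (AlgebraicClosure ℚ ≃ₐ[ℚ] AlgebraicClosure ℚ)

/-- the global Euler characteristic formula (first-variable form), as a hypothesis -/
def ECGlobal (p : ℕ) [Fact p.Prime] : Prop :=
  ∀ (S : Finset Nat.Primes) (_ : pPrime p ∈ S) (Z : SmRep ℤ (levelBasis S)) [Finite Z.obj.V]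
    (_ : ∀ z : Z.obj.V, p • z = 0),
    Nat.card (Ext Z (ESSm S) 1) =
      Nat.card (Ext Z (ESSm S) 0) * Nat.card (Ext Z (ESSm S) 2) *
        Nat.card {z : Z.obj.V // Z.obj.ρ complexConjugation z = z}

/-- the primes of a finite set of natural numbers -/
def primesOf (T : Finset ℕ) : Finset Nat.Primes := T.subtype Nat.Prime

lemma mem_primesOf {T : Finset ℕ} {q : Nat.Primes} : q ∈ primesOf T ↔ (q : ℕ) ∈ T :=
  Finset.mem_subtype

section Final

variable {k : Type} [Field k] [Finite k] {p : ℕ} [Fact p.Prime] (hp2 : p ≠ 2) [CharP k p]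
  (ρbar : ResidualGaloisRep k) (β : Module.Basis (Fin 2) k ρbar.V)

/-- `ad⁰ρ̄` is smooth for `𝒰_S` as soon as `ρ̄` is unramified outside `S`. -/
lemma isSmooth_adRep_of_unramified (S : Finset Nat.Primes)
    (hunr : ∀ q : Nat.Primes, q ∉ S → ρbar.IsUnramifiedAt (q : ℕ)) :
    IsSmooth (levelBasis S) (adRep (Fermat.Agent.S53.resMatrixOf ρbar β)) := by
  refine isSmooth_adRep S _ (Fermat.Agent.S53.resMatrixOf_factors ρbar β) ?_
  intro q hq A hA g hg
  rw [Fermat.Agent.S53.resMatrixOf_eq_toMatrix, hunr q hq A hA g hg]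
  exact LinearMap.toMatrix_one β

variable (habs : ρbar.IsAbsolutelyIrreducible)
    (hdet : (GaloisRepAdic.ofResidualGaloisRep ρbar).DetIsCyclotomic p)
    (hsplit : ∀ σ : GQ, ∃ a b : k, LinearMap.charpoly (ρbar.ρ σ) = (X - C a) * (X - C b))
    (hTW : ∀ (K : Type) [Field K] [Algebra k K] (G : Subgroup GQ), G.index = 2 →
      ∀ V : Submodule K (ρbar.baseChange K).V,
        (∀ σ ∈ G, ∀ x ∈ V, (ρbar.baseChange K).ρ σ x ∈ V) → V = ⊥ ∨ V = ⊤)
    (hEC : ECGlobal p)

include habs hdet hsplit hTW hEC in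
/-- **The Taylor–Wiles primes and the Selmer bound.** There is `r` such that for every level `n`
there are `r` Taylor–Wiles primes `Q` (disjoint from `Smin` and from `avoid`) such that the Selmer
group for `Smin ∪ Q` of the family `twFamily` has at most `|k|^r` elements. -/
theorem tw_primes_and_count (Smin : Finset Nat.Primes) (hpS : pPrime p ∈ Smin)
    (hunr : ∀ q : Nat.Primes, q ∉ Smin → ρbar.IsUnramifiedAt (q : ℕ))
    (hloc : ∀ q : Nat.Primes, IsSmooth (locBasis q)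
      (Rep.res (primeLocalToGlobal q) (adRep (Fermat.Agent.S53.resMatrixOf ρbar β))))
    (𝓗p : AddSubgroup (H1 (Rep.res (primeLocalToGlobal (pPrime p))
      (adRep (Fermat.Agent.S53.resMatrixOf ρbar β)))))
    (h𝓗p : Nat.card (locCond (YLoc (adRep (Fermat.Agent.S53.resMatrixOf ρbar β)) (pPrime p)
        (hloc (pPrime p))) 𝓗p) ≤
      Nat.card (Ext (smUnit ℤ (locBasis (pPrime p)))
        (YLoc (adRep (Fermat.Agent.S53.resMatrixOf ρbar β)) (pPrime p) (hloc (pPrime p))) 0) *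
        Nat.card k)
    (avoid : Finset Nat.Primes) :
    ∃ r : ℕ, ∀ n : ℕ, ∃ Q : Finset Nat.Primes, Q.card = r ∧ Disjoint Q avoid ∧
      Disjoint Q Smin ∧ (∀ q ∈ Q, IsTWPrime p ρbar n q) ∧
      ∀ (hpS' : pPrime p ∈ Smin ∪ Q)
        (hS' : IsSmooth (levelBasis (Smin ∪ Q)) (adRep (Fermat.Agent.S53.resMatrixOf ρbar β))),
        Nat.card ((twDatum hp2 (Smin ∪ Q) hpS').selmer
          (XS (adRep (Fermat.Agent.S53.resMatrixOf ρbar β)) (Smin ∪ Q) hS')
          (fun v => twFamily p (Fermat.Agent.S53.resMatrixOf ρbar β) Smin 𝓗p hloc v.1)) ≤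
          Nat.card k ^ r := by
  have hS := isSmooth_adRep_of_unramified ρbar β Smin hunr
  have hX := nsmul_adRep p (Fermat.Agent.S53.resMatrixOf ρbar β)
  have hfinX : Finite (XS (adRep (Fermat.Agent.S53.resMatrixOf ρbar β)) Smin hS).obj.V :=
    inferInstanceAs (Finite (adRep (Fermat.Agent.S53.resMatrixOf ρbar β)).V)
  have hfinE : Finite (Ext (XS (adRep (Fermat.Agent.S53.resMatrixOf ρbar β)) Smin hS)
      (ESSm Smin) 1) :=
    finite_ext_ESSm hp2 Smin hpS _ hX 1 (by norm_num)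
  have hfin := finite_twTS hp2 (adRep (Fermat.Agent.S53.resMatrixOf ρbar β)) hX hloc
    (twFamily p (Fermat.Agent.S53.resMatrixOf ρbar β) Smin 𝓗p hloc) Smin hpS hS
  have h𝓛 : ∀ q, q ∉ Smin →
      twFamily p (Fermat.Agent.S53.resMatrixOf ρbar β) Smin 𝓗p hloc q = ⊤ := by
    intro q hq
    have hqp : q ≠ pPrime p := fun h => hq (h ▸ hpS)
    exact twFamily_of_not_mem p _ Smin 𝓗p hloc hqp hq
  refine ⟨killNumber (twTS hp2 (adRep (Fermat.Agent.S53.resMatrixOf ρbar β)) hX hloc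
    (twFamily p (Fermat.Agent.S53.resMatrixOf ρbar β) Smin 𝓗p hloc) Smin hpS hS), fun n => ?_⟩
  obtain ⟨Q, hcard, hdisjA, hdisjS, hQ, hbot⟩ := exists_tw_primes hp2 ρbar β habs hdet hsplit hTW
    hloc (twFamily p (Fermat.Agent.S53.resMatrixOf ρbar β) Smin 𝓗p hloc) Smin hpS hS h𝓛 hfin n
    avoid
  refine ⟨Q, hcard, hdisjA, hdisjS, hQ, fun hpS' hS' => ?_⟩
  have hfinX' : Finite (XS (adRep (Fermat.Agent.S53.resMatrixOf ρbar β)) (Smin ∪ Q) hS').obj.V :=
    inferInstanceAs (Finite (adRep (Fermat.Agent.S53.resMatrixOf ρbar β)).V)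
  have hfinE1 : Finite (Ext (XS (adRep (Fermat.Agent.S53.resMatrixOf ρbar β)) (Smin ∪ Q) hS')
      (ESSm (Smin ∪ Q)) 1) :=
    finite_ext_ESSm hp2 (Smin ∪ Q) hpS' _ hX 1 (by norm_num)
  have hfinE2 : Finite (Ext (XS (adRep (Fermat.Agent.S53.resMatrixOf ρbar β)) (Smin ∪ Q) hS')
      (ESSm (Smin ∪ Q)) 2) :=
    finite_ext_ESSm hp2 (Smin ∪ Q) hpS' _ hX 2 le_rfl
  rw [← hcard]
  exact tw_card_selmer_le hp2 ρbar β Smin Q hdisjS n hQ hloc 𝓗p h𝓗p habs hpS' hS'
    (hEC (Smin ∪ Q) hpS' _ hX) (hbot hpS' hS')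

end Final

end Fermat.Agent.TW
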