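/-
S56 / (EC) engine, part 5 — helper3.
The engine for two arbitrary "expected values": two functions `ε, τ` on smooth representations
which are iso-invariant, multiplicative in short exact sequences and nonzero (`IsExpected`) agree
on all finite `p`-torsion smooth representations as soon as they agree on the modules
`toSm (Fun(G ⧸ B, M))`, `G = Γ ⧸ U` (`U` basic open, arbitrarily small), `B ≤ G` cyclic of order
prime to `p`.
-/
import Fermat.Agent.TW.ECEngine_helper3_Main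

set_option autoImplicit false
set_option linter.style.haveILetI false
set_option linter.unusedSectionVars false

open CategoryTheory CategoryTheory.Limits CategoryTheory.Abelian

namespace Fermat.Agent.TW.EC

open Fermat.Agent.CFT.Sm Fermat.Agent.TW.Ind

variable {Γ : Type} [Group Γ] {𝒰 : OpenBasis Γ} {p : ℕ} [hp : Fact p.Prime]

section Invariant

variable {G : Type} [Group G] [Finite G] (π : Γ →* G) (hπ : 𝒰.IsOpen π.ker)
  {ε τ : SmRep ℤ 𝒰 → ℚ≥0} (hε : IsExpected 𝒰 p ε) (hτ : IsExpected 𝒰 p τ)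

include hτ in
/-- an expected value is `1` on the zero modules `toSm M`. -/
theorem IsExpected.toSm_eq_one (M : FinMod (ZMod p) (MonoidAlgebra (ZMod p) G))
    (hM : Subsingleton M) : τ (toSm π hπ M) = 1 := by
  have hz := isZero_toSm_of_subsingleton π hπ M hM
  have hS := toSmShortComplex_shortExact π hπ (⊤ : Submodule (MonoidAlgebra (ZMod p) G) M)
  have h2 := hτ.mul (toSmShortComplex π hπ (⊤ : Submodule (MonoidAlgebra (ZMod p) G) M)) hS
    (isFinTor_toSm π hπ M)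
  have e1 : τ (toSm π hπ (FinMod.sub (⊤ : Submodule (MonoidAlgebra (ZMod p) G) M))) =
      τ (toSm π hπ M) :=
    hτ.iso _ _ (isFinTor_toSm π hπ _) ⟨toSmIso π hπ Submodule.topEquiv⟩
  have e2 : τ (toSm π hπ (FinMod.quot (⊤ : Submodule (MonoidAlgebra (ZMod p) G) M))) =
      τ (toSm π hπ M) := by
    refine hτ.iso _ _ (isFinTor_toSm π hπ _) ⟨?_⟩
    have hz' := isZero_toSm_of_subsingleton π hπ
      (FinMod.quot (⊤ : Submodule (MonoidAlgebra (ZMod p) G) M))
      (by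
        show Subsingleton (M ⧸ (⊤ : Submodule (MonoidAlgebra (ZMod p) G) M))
        infer_instance)
    exact hz'.iso hz
  change τ (toSm π hπ M) = τ (toSm π hπ (FinMod.sub ⊤)) * τ (toSm π hπ (FinMod.quot ⊤)) at h2
  rw [e1, e2] at h2
  have hne := hτ.ne_zero _ (isFinTor_toSm π hπ M)
  have : τ (toSm π hπ M) * 1 = τ (toSm π hπ M) * τ (toSm π hπ M) := by rw [mul_one]; exact h2
  exact (mul_left_cancel₀ hne this).symm

/-- the quotient invariant `ε / τ` on finite `𝔽_p[G]`-modules. -/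
noncomputable def quotInv₂ (ε τ : SmRep ℤ 𝒰 → ℚ≥0)
    (M : FinMod (ZMod p) (MonoidAlgebra (ZMod p) G)) : ℚ≥0 :=
  ε (toSm π hπ M) / τ (toSm π hπ M)

include hε hτ in
theorem isMulInv_quotInv₂ : IsMulInv (quotInv₂ (p := p) π hπ ε τ) where
  iso M N := by
    rintro ⟨e⟩
    unfold quotInv₂
    rw [hε.iso _ _ (isFinTor_toSm π hπ M) ⟨toSmIso π hπ e⟩,
      hτ.iso _ _ (isFinTor_toSm π hπ M) ⟨toSmIso π hπ e⟩]
  mul M N := by
    unfold quotInv₂
    have hS := toSmShortComplex_shortExact π hπ N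
    have f2 : IsFinTor p (toSmShortComplex π hπ N).X₂ := isFinTor_toSm π hπ M
    have h1 : ε (toSm π hπ M) =
        ε (toSm π hπ (FinMod.sub N)) * ε (toSm π hπ (FinMod.quot N)) :=
      hε.mul (toSmShortComplex π hπ N) hS f2
    have h2 : τ (toSm π hπ M) =
        τ (toSm π hπ (FinMod.sub N)) * τ (toSm π hπ (FinMod.quot N)) :=
      hτ.mul (toSmShortComplex π hπ N) hS f2
    rw [h1, h2, mul_div_mul_comm]
  zero M hM := by
    unfold quotInv₂
    rw [hε.toSm_eq_one π hπ M hM, hτ.toSm_eq_one π hπ M hM, div_one]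

include hε hτ in
/-- the general engine on the image of `toSm`, with an arbitrary test on the multiplicative
invariant `ε / τ`. -/
theorem expected_toSm_eq_of_invariant
    (h : ∀ χ : FinMod (ZMod p) (MonoidAlgebra (ZMod p) G) → ℚ≥0, IsMulInv χ →
      χ = quotInv₂ (p := p) π hπ ε τ →
      ∀ B : Subgroup G, IsCyclic B → ¬ p ∣ Nat.card B →
        ∀ M' : FinMod (ZMod p) (MonoidAlgebra (ZMod p) G), χ (funMod (G ⧸ B) M') = 1)
    (M : FinMod (ZMod p) (MonoidAlgebra (ZMod p) G)) :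
    ε (toSm π hπ M) = τ (toSm π hπ M) := by
  have hmi := isMulInv_quotInv₂ (p := p) π hπ hε hτ
  have hone : quotInv₂ (p := p) π hπ ε τ M = 1 :=
    artin_induction p (fun x n hn hx => (pow_eq_one_iff_of_nonneg (zero_le (a := x)) hn).mp hx)
      (quotInv₂ (p := p) π hπ ε τ) hmi (h _ hmi rfl) M
  unfold quotInv₂ at hone
  exact (div_eq_one_iff_eq (hτ.ne_zero _ (isFinTor_toSm π hπ M))).mp hone

include hε hτ in
/-- the general engine on the image of `toSm`. -/
theorem expected_toSm_eq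
    (hcyc : ∀ B : Subgroup G, IsCyclic B → ¬ p ∣ Nat.card B →
      ∀ M' : FinMod (ZMod p) (MonoidAlgebra (ZMod p) G),
        ε (toSm π hπ (funMod (G ⧸ B) M')) = τ (toSm π hπ (funMod (G ⧸ B) M')))
    (M : FinMod (ZMod p) (MonoidAlgebra (ZMod p) G)) :
    ε (toSm π hπ M) = τ (toSm π hπ M) := by
  refine expected_toSm_eq_of_invariant π hπ hε hτ ?_ M
  rintro χ - rfl B hB hpB M'
  unfold quotInv₂
  rw [hcyc B hB hpB M']
  exact div_self (hτ.ne_zero _ (isFinTor_toSm π hπ _))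

end Invariant

variable {ε τ : SmRep ℤ 𝒰 → ℚ≥0} (hε : IsExpected 𝒰 p ε) (hτ : IsExpected 𝒰 p τ)

include hε hτ in
/-- **The general engine.** -/
theorem expected_eq_of_cyclic (U₁ : Subgroup Γ) (hU₁ : 𝒰.IsOpen U₁)
    (hcyc : ∀ (U : Subgroup Γ) (_ : U ∈ 𝒰.sets) (_ : U ≤ U₁) [U.Normal] [Finite (Γ ⧸ U)]
      (hπ : 𝒰.IsOpen (QuotientGroup.mk' U).ker)
      (M : FinMod (ZMod p) (MonoidAlgebra (ZMod p) (Γ ⧸ U))),
        ε (toSm (QuotientGroup.mk' U) hπ M) = τ (toSm (QuotientGroup.mk' U) hπ M))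
    (X : SmRep ℤ 𝒰) (hX : IsFinTor p X) : ε X = τ X := by
  obtain ⟨U, hU, hUU₁, hUn, hπ, M, ⟨e⟩⟩ := exists_toSm_iso U₁ hU₁ X hX
  haveI : U.FiniteIndex := 𝒰.finiteIndex U hU
  haveI : Finite (Γ ⧸ U) := Subgroup.finite_quotient_of_finiteIndex
  rw [← hε.iso _ _ (isFinTor_toSm _ hπ M) ⟨e⟩, ← hτ.iso _ _ (isFinTor_toSm _ hπ M) ⟨e⟩]
  exact hcyc U hU hUU₁ hπ M

end Fermat.Agent.TW.EC
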