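/-
S56 / (EC-G) leaf EC-R — helper1. The antipode `g ↦ g⁻¹` of a group algebra and the coefficient
functional at `1`.
-/
import Mathlib

set_option autoImplicit false
set_option linter.style.haveILetI false
set_option linter.unusedSectionVars false

namespace Fermat.Agent.TW.Ind

variable {k : Type} [Field k] {B : Type} [Group B]

/-- `b ↦ op (b⁻¹)`, a monoid homomorphism to the opposite group algebra. -/
noncomputable def antipodeHom : B →* (MonoidAlgebra k B)ᵐᵒᵖ where
  toFun b := MulOpposite.op (MonoidAlgebra.of k B b⁻¹)
  map_one' := by rw [inv_one, map_one, MulOpposite.op_one]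
  map_mul' b b' := by rw [mul_inv_rev, map_mul, MulOpposite.op_mul]

/-- the antipode as an algebra homomorphism to the opposite algebra. -/
noncomputable def antipodeOp : MonoidAlgebra k B →ₐ[k] (MonoidAlgebra k B)ᵐᵒᵖ :=
  MonoidAlgebra.lift k (MonoidAlgebra k B)ᵐᵒᵖ B antipodeHom

/-- the antipode `∑ a_b b ↦ ∑ a_b b⁻¹`. -/
noncomputable def antipode (a : MonoidAlgebra k B) : MonoidAlgebra k B :=
  MulOpposite.unop (antipodeOp a)

theorem antipode_of (b : B) : antipode (MonoidAlgebra.of k B b) = MonoidAlgebra.of k B b⁻¹ := by
  unfold antipode antipodeOp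
  rw [MonoidAlgebra.lift_of]
  rfl

theorem antipode_add (a a' : MonoidAlgebra k B) : antipode (a + a') = antipode a + antipode a' := by
  unfold antipode
  rw [map_add, MulOpposite.unop_add]

theorem antipode_smul (c : k) (a : MonoidAlgebra k B) : antipode (c • a) = c • antipode a := by
  unfold antipode
  rw [map_smul, MulOpposite.unop_smul]

theorem antipode_mul (a a' : MonoidAlgebra k B) : antipode (a * a') = antipode a' * antipode a := by
  unfold antipode
  rw [map_mul, MulOpposite.unop_mul]

theorem antipode_antipode (a : MonoidAlgebra k B) : antipode (antipode a) = a := by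
  induction a using MonoidAlgebra.induction_on with
  | of b => rw [antipode_of, antipode_of, inv_inv]
  | add a a' ha ha' => rw [antipode_add, antipode_add, ha, ha']
  | smul c a ha => rw [antipode_smul, antipode_smul, ha]

theorem antipode_idem {e : MonoidAlgebra k B} (he : e * e = e) :
    antipode e * antipode e = antipode e := by
  rw [← antipode_mul, he]

/-- the coefficient at `1`. -/
noncomputable def eps : MonoidAlgebra k B →ₗ[k] k where
  toFun a := a.coeff 1
  map_add' a a' := by rw [MonoidAlgebra.coeff_add, Finsupp.add_apply]
  map_smul' c a := by rw [MonoidAlgebra.coeff_smul, Finsupp.smul_apply]; rfl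

theorem eps_apply (a : MonoidAlgebra k B) : eps a = a.coeff 1 := rfl

theorem eps_of [DecidableEq B] (b : B) : eps (MonoidAlgebra.of k B b) = if b = 1 then 1 else 0 := by
  rw [eps_apply, MonoidAlgebra.of_apply, MonoidAlgebra.coeff_single, Finsupp.single_apply]

/-- the coefficient at `c` is the coefficient at `1` of `c⁻¹ a`. -/
theorem coeff_eq_eps (a : MonoidAlgebra k B) (c : B) :
    a.coeff c = eps (MonoidAlgebra.of k B c⁻¹ * a) := by
  rw [eps_apply, MonoidAlgebra.of_apply, MonoidAlgebra.coeff_single_mul_apply, one_mul, inv_inv,
    mul_one]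

/-- the coefficient functional at `1` is symmetric. -/
theorem eps_mul_comm (a a' : MonoidAlgebra k B) : eps (a * a') = eps (a' * a) := by
  classical
  induction a using MonoidAlgebra.induction_on with
  | of b =>
    induction a' using MonoidAlgebra.induction_on with
    | of b' =>
      rw [← map_mul, ← map_mul, eps_of, eps_of]
      have : b * b' = 1 ↔ b' * b = 1 := by
        constructor
        · intro h
          rw [mul_eq_one_iff_eq_inv] at h
          rw [h, mul_inv_cancel]
        · intro h
          rw [mul_eq_one_iff_eq_inv] at h
          rw [h, mul_inv_cancel]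
      simp only [this]
    | add x y hx hy => rw [mul_add, add_mul, map_add, map_add, hx, hy]
    | smul c x hx => rw [mul_smul_comm, smul_mul_assoc, map_smul, map_smul, hx]
  | add x y hx hy => rw [add_mul, mul_add, map_add, map_add, hx, hy]
  | smul c x hx => rw [smul_mul_assoc, mul_smul_comm, map_smul, map_smul, hx]

/-- an element of the group algebra all of whose translates have coefficient `0` at `1`
vanishes. -/
theorem eq_zero_of_eps_eq_zero (a : MonoidAlgebra k B)
    (h : ∀ b : B, eps (MonoidAlgebra.of k B b * a) = 0) : a = 0 := by
  apply MonoidAlgebra.coeff_injective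
  ext c
  rw [coeff_eq_eps, h, MonoidAlgebra.coeff_zero, Finsupp.zero_apply]

end Fermat.Agent.TW.Ind
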