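import Mathlib

set_option autoImplicit false
set_option linter.style.haveILetI false
set_option linter.unusedSectionVars false

namespace Fermat.Agent.TW.Ind

open scoped Classical in
/-- number of `x` with `x⁻¹ h x ∈ B` -/
noncomputable def piCount {G : Type} [Group G] [Fintype G] (B : Subgroup G) (h : G) : ℕ :=
  (Finset.univ.filter fun x : G => x⁻¹ * h * x ∈ B).card

open scoped Classical in
/-- number of `x` with `⟨x⁻¹ h x⟩ = A` -/
noncomputable def thetaCount {G : Type} [Group G] [Fintype G] (A : Subgroup G) (h : G) : ℕ :=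
  (Finset.univ.filter fun x : G => Subgroup.zpowers (x⁻¹ * h * x) = A).card

section Artin

variable {G : Type} [Group G] [Fintype G] [Fintype (Subgroup G)]

open scoped Classical in
theorem piCount_eq_sum (A : Subgroup G) (h : G) :
    piCount A h = ∑ B ∈ Finset.univ.filter (fun B : Subgroup G => B ≤ A), thetaCount B h := by
  unfold piCount thetaCount
  rw [Finset.card_eq_sum_card_fiberwise (f := fun x : G => Subgroup.zpowers (x⁻¹ * h * x))
    (t := Finset.univ.filter (fun B : Subgroup G => B ≤ A))]
  · refine Finset.sum_congr rfl fun B hB => ?_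
    congr 1
    ext x
    simp only [Finset.mem_filter, Finset.mem_univ, true_and, and_iff_right_iff_imp]
    intro hx
    rw [Finset.mem_filter] at hB
    rw [← Subgroup.zpowers_le, hx]
    exact hB.2
  · intro x hx
    simp only [Finset.coe_filter, Finset.mem_univ, true_and, Set.mem_ofPred_eq] at hx ⊢
    rwa [Subgroup.zpowers_le]

open scoped Classical in
/-- `thetaCount A` is an integer combination of the `piCount B`, `B ≤ A`. -/
theorem thetaCount_mem_span (A : Subgroup G) :
    ∃ c : Subgroup G → ℤ, (∀ B, c B ≠ 0 → B ≤ A) ∧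
      ∀ h : G, (thetaCount A h : ℤ) = ∑ B, c B * piCount B h := by
  obtain ⟨n, hn⟩ : ∃ n, Nat.card A = n := ⟨_, rfl⟩
  induction n using Nat.strong_induction_on generalizing A with
  | _ n ih =>
    have hlt : ∀ B : Subgroup G, B < A → ∃ c : Subgroup G → ℤ, (∀ B', c B' ≠ 0 → B' ≤ B) ∧
        ∀ h : G, (thetaCount B h : ℤ) = ∑ B', c B' * piCount B' h := by
      intro B hB
      refine ih (Nat.card B) ?_ B rfl
      rw [← hn]
      have h1 : (B : Set G) ⊂ (A : Set G) := SetLike.coe_ssubset_coe.mpr hB
      have h2 := Set.ncard_lt_ncard h1 (Set.toFinite _)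
      rwa [← Nat.card_coe_set_eq, ← Nat.card_coe_set_eq] at h2
    choose! c hc1 hc2 using hlt
    refine ⟨fun B' => (if B' = A then 1 else 0) -
      ∑ B ∈ Finset.univ.filter (fun B : Subgroup G => B < A), c B B', ?_, ?_⟩
    · intro B' hB'
      by_contra hcon
      apply hB'
      have h1 : B' ≠ A := fun h => hcon (h ▸ le_rfl)
      show (if B' = A then (1 : ℤ) else 0) - _ = 0
      rw [if_neg h1, zero_sub, neg_eq_zero]
      refine Finset.sum_eq_zero fun B hB => ?_
      rw [Finset.mem_filter] at hB
      by_contra h2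
      exact hcon ((hc1 B hB.2 B' h2).trans hB.2.le)
    · intro h
      have h1 := piCount_eq_sum A h
      have hsplit : Finset.univ.filter (fun B : Subgroup G => B ≤ A) =
          insert A (Finset.univ.filter (fun B : Subgroup G => B < A)) := by
        ext B
        simp only [Finset.mem_filter, Finset.mem_univ, true_and, Finset.mem_insert]
        rw [le_iff_eq_or_lt]
      rw [hsplit, Finset.sum_insert (by simp)] at h1
      have h2 : (thetaCount A h : ℤ) = piCount A h -
          ∑ B ∈ Finset.univ.filter (fun B : Subgroup G => B < A), (thetaCount B h : ℤ) := by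
        rw [h1]; push_cast; ring
      rw [h2]
      simp only [sub_mul, Finset.sum_sub_distrib, Finset.sum_mul]
      congr 1
      · simp
      · rw [Finset.sum_comm]
        refine Finset.sum_congr rfl fun B hB => ?_
        rw [Finset.mem_filter] at hB
        rw [hc2 B hB.2 h]

open scoped Classical in
theorem sum_thetaCount (h : G) : ∑ A : Subgroup G, thetaCount A h = Fintype.card G := by
  unfold thetaCount
  rw [← Finset.card_univ (α := G)]
  exact (Finset.card_eq_sum_card_fiberwise
    (f := fun x : G => Subgroup.zpowers (x⁻¹ * h * x)) (s := Finset.univ) (t := Finset.univ)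
    (fun x _ => Finset.mem_coe.mpr (Finset.mem_univ _))).symm

theorem thetaCount_ne_zero {A : Subgroup G} {h : G} (hA : thetaCount A h ≠ 0) :
    IsCyclic A ∧ Nat.card A = orderOf h := by
  classical
  unfold thetaCount at hA
  rw [Finset.card_ne_zero] at hA
  obtain ⟨x, hx⟩ := hA
  rw [Finset.mem_filter] at hx
  rw [← hx.2]
  refine ⟨inferInstance, ?_⟩
  rw [Nat.card_zpowers]
  have : x⁻¹ * h * x = MulAut.conj x⁻¹ h := by simp
  rw [this, MulEquiv.orderOf_eq]

theorem piCount_eq_card_mul (B : Subgroup G) (h : G) :
    piCount B h = Nat.card B * Nat.card (MulAction.fixedBy (G ⧸ B) h) := by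
  classical
  rw [← QuotientGroup.card_preimage_mk]
  unfold piCount
  rw [← Fintype.card_subtype, ← Nat.card_eq_fintype_card]
  refine Nat.card_congr (Equiv.subtypeEquivRight fun x => ?_)
  rw [Set.mem_preimage, MulAction.mem_fixedBy, MulAction.Quotient.smul_mk, QuotientGroup.eq]
  rw [← inv_mem_iff (x := x⁻¹ * h * x)]
  simp [mul_assoc]

/-- **Artin's induction theorem, combinatorial core**: an integral combination of the
coset spaces `G ⧸ B`, `B` cyclic of order prime to `p`, has `|G|` fixed points under every
`p`-regular element. -/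
theorem artin_coeffs (p : ℕ) :
    ∃ n : Subgroup G → ℤ, (∀ B, n B ≠ 0 → IsCyclic B ∧ ¬ p ∣ Nat.card B) ∧
      ∀ h : G, ¬ p ∣ orderOf h →
        ∑ B : Subgroup G, n B * (Nat.card (MulAction.fixedBy (G ⧸ B) h) : ℤ) = Nat.card G := by
  classical
  choose c hc1 hc2 using fun A : Subgroup G => thetaCount_mem_span A
  let good : Subgroup G → Prop := fun A => IsCyclic A ∧ ¬ p ∣ Nat.card A
  have hgood_le : ∀ A B : Subgroup G, good A → B ≤ A → good B := by
    intro A B hA hB
    refine ⟨?_, fun hp => hA.2 (hp.trans (Subgroup.card_dvd_of_le hB))⟩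
    haveI := hA.1
    have : IsCyclic (B.subgroupOf A) := inferInstance
    exact isCyclic_of_surjective (Subgroup.subgroupOfEquivOfLe hB).toMonoidHom
      (Subgroup.subgroupOfEquivOfLe hB).surjective
  refine ⟨fun B => (∑ A ∈ Finset.univ.filter good, c A B) * Nat.card B, ?_, ?_⟩
  · intro B hB
    have h1 : (∑ A ∈ Finset.univ.filter good, c A B) ≠ 0 := fun h0 => hB (by simp [h0])
    obtain ⟨A, hA, hAB⟩ := Finset.exists_ne_zero_of_sum_ne_zero h1
    rw [Finset.mem_filter] at hA
    exact hgood_le A B hA.2 (hc1 A B hAB)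
  · intro h hh
    have h1 : (Nat.card G : ℤ) = ∑ A ∈ Finset.univ.filter good, (thetaCount A h : ℤ) := by
      rw [Nat.card_eq_fintype_card, ← sum_thetaCount h, Nat.cast_sum]
      symm
      refine Finset.sum_subset (Finset.filter_subset _ _) fun A _ hA => ?_
      rw [Finset.mem_filter] at hA
      by_contra h0
      have h2 := thetaCount_ne_zero (A := A) (h := h) (by exact_mod_cast h0)
      exact hA ⟨Finset.mem_univ _, h2.1, by rw [h2.2]; exact hh⟩
    rw [h1]
    simp_rw [hc2, Finset.sum_mul]
    rw [Finset.sum_comm]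
    refine Finset.sum_congr rfl fun A _ => Finset.sum_congr rfl fun B _ => ?_
    rw [piCount_eq_card_mul]
    push_cast
    ring

end Artin

end Fermat.Agent.TW.Ind
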