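import Fermat.Agent.TW.Ind_helper3_BN

set_option autoImplicit false
set_option linter.style.haveILetI false
set_option linter.unusedSectionVars false

namespace Fermat.Agent.TW.Ind

section Exact

variable {k A : Type} [Field k] [Ring A] [Algebra k A]

/-- multiplicativity of a multiplicative invariant along a short exact sequence. -/
theorem IsMulInv.of_exact {Γ : Type} [CommMonoid Γ] {χ : FinMod k A → Γ} (hχ : IsMulInv χ)
    {M' M M'' : FinMod k A} (i : M' →ₗ[A] M) (π : M →ₗ[A] M'') (hi : Function.Injective i)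
    (hπ : Function.Surjective π) (hex : LinearMap.range i = LinearMap.ker π) :
    χ M = χ M' * χ M'' := by
  rw [hχ.mul M (LinearMap.range i)]
  congr 1
  · exact hχ.iso _ _ ⟨(LinearEquiv.ofInjective i hi).symm⟩
  · exact hχ.iso _ _
      ⟨(Submodule.quotEquivOfEq _ _ hex).trans (π.quotKerEquivOfSurjective hπ)⟩

/-- the product of two finite modules -/
abbrev FinMod.prod (M N : FinMod k A) : FinMod k A := FinMod.of k A (M × N)

theorem IsMulInv.prod {Γ : Type} [CommMonoid Γ] {χ : FinMod k A → Γ} (hχ : IsMulInv χ)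
    (M N : FinMod k A) : χ (FinMod.prod M N) = χ M * χ N :=
  hχ.of_exact (M := FinMod.prod M N) (LinearMap.inl A M N) (LinearMap.snd A M N)
    LinearMap.inl_injective LinearMap.snd_surjective (LinearMap.range_inl A M N)

/-- the product of a finite family of finite modules -/
abbrev FinMod.pi {ι : Type} [Finite ι] (M : ι → FinMod k A) : FinMod k A :=
  FinMod.of k A (∀ i, M i)

theorem IsMulInv.pi {Γ : Type} [CommMonoid Γ] {χ : FinMod k A → Γ} (hχ : IsMulInv χ)
    {ι : Type} [Fintype ι] (M : ι → FinMod k A) : χ (FinMod.pi M) = ∏ i, χ (M i) := by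
  have key : ∀ (ι : Type) [Finite ι], ∀ (inst : Fintype ι) (M : ι → FinMod k A),
      χ (@FinMod.pi k A _ _ _ ι (Finite.of_fintype ι) M) = ∏ i, χ (M i) := by
    intro ι _
    refine Finite.induction_empty_option (P := fun ι => ∀ (inst : Fintype ι)
      (M : ι → FinMod k A), χ (@FinMod.pi k A _ _ _ ι (Finite.of_fintype ι) M) = ∏ i, χ (M i))
      ?_ ?_ ?_ ι
    · intro α β e ih inst M
      haveI : Fintype α := Fintype.ofEquiv β e.symm
      rw [← (Equiv.prod_comp e (fun j => χ (M j))), ← ih _ (fun i => M (e i))]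
      exact hχ.iso _ _ ⟨(LinearEquiv.piCongrLeft A (fun j => M j) e).symm⟩
    · intro inst M
      rw [Finset.univ_eq_empty, Finset.prod_empty]
      exact hχ.zero _ (by infer_instance)
    · intro α _ ih inst M
      obtain rfl : inst = instFintypeOption := Subsingleton.elim _ _
      rw [Fintype.prod_option, ← ih _ (fun i => M (some i)), ← hχ.prod]
      exact hχ.iso _ _ ⟨LinearEquiv.piOptionEquivProd A⟩
  exact key ι _ M

end Exact

section FunMod

variable {k : Type} [Field k] {G : Type} [Group G]

/-- the representation of `G` on functions `Ω → M`: `(g • f) ω = g • f (g⁻¹ • ω)`. -/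
noncomputable def funRep (Ω : Type) [MulAction G Ω] (M : FinMod k (MonoidAlgebra k G)) :
    Representation k G (Ω → M) where
  toFun g :=
    { toFun := fun f ω => MonoidAlgebra.of k G g • f (g⁻¹ • ω)
      map_add' := fun f f' => by
        funext ω
        simp [smul_add]
      map_smul' := fun c f => by
        funext ω
        simp only [Pi.smul_apply, RingHom.id_apply]
        rw [smul_comm] }
  map_one' := by
    ext f ω
    simp only [map_one, inv_one, one_smul, LinearMap.coe_mk, AddHom.coe_mk, Module.End.one_apply]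
  map_mul' g g' := by
    ext f ω
    simp only [LinearMap.coe_mk, AddHom.coe_mk, Module.End.mul_apply, mul_inv_rev, mul_smul, map_mul]

instance funRep_finite (Ω : Type) [MulAction G Ω] [Finite Ω] (M : FinMod k (MonoidAlgebra k G)) :
    Finite (funRep Ω M).asModule :=
  inferInstanceAs (Finite (Ω → M))

/-- the `k[G]`-module of functions `Ω → M` on a finite `G`-set `Ω`. -/
noncomputable abbrev funMod (Ω : Type) [MulAction G Ω] [Finite Ω]
    (M : FinMod k (MonoidAlgebra k G)) : FinMod k (MonoidAlgebra k G) :=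
  FinMod.of k (MonoidAlgebra k G) (funRep Ω M).asModule

/-- view an element of `funMod Ω M` as a function. -/
def funMod.toFun' {Ω : Type} [MulAction G Ω] [Finite Ω] {M : FinMod k (MonoidAlgebra k G)}
    (f : funMod Ω M) : Ω → M := f

theorem funMod_of_smul_apply {Ω : Type} [MulAction G Ω] [Finite Ω]
    {M : FinMod k (MonoidAlgebra k G)} (g : G) (f : funMod Ω M) (ω : Ω) :
    funMod.toFun' (MonoidAlgebra.of k G g • f) ω =
      MonoidAlgebra.of k G g • funMod.toFun' f (g⁻¹ • ω) := by
  have := (funRep Ω M).asModuleEquiv_map_smul (MonoidAlgebra.of k G g) f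
  rw [Representation.asAlgebraHom_of] at this
  exact congrFun this ω

theorem funMod_ext {Ω : Type} [MulAction G Ω] [Finite Ω]
    {M : FinMod k (MonoidAlgebra k G)} {f f' : funMod Ω M}
    (h : ∀ ω, funMod.toFun' f ω = funMod.toFun' f' ω) : f = f' :=
  funext h

/-- build a `k[G]`-linear map from a `k`-linear map commuting with group elements. -/
noncomputable def linearOfComm {X Y : FinMod k (MonoidAlgebra k G)} (φ : X →ₗ[k] Y)
    (h : ∀ (g : G) (x : X), φ (MonoidAlgebra.of k G g • x) = MonoidAlgebra.of k G g • φ x) :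
    X →ₗ[MonoidAlgebra k G] Y :=
  MonoidAlgebra.equivariantOfLinearOfComm φ (fun g v => by
    simpa [MonoidAlgebra.of_apply] using h g v)

@[simp] theorem linearOfComm_apply {X Y : FinMod k (MonoidAlgebra k G)} (φ : X →ₗ[k] Y)
    (h : ∀ (g : G) (x : X), φ (MonoidAlgebra.of k G g • x) = MonoidAlgebra.of k G g • φ x)
    (x : X) : linearOfComm φ h x = φ x := rfl

/-- transport of functions along a bijection, as a `k`-linear equivalence. -/
noncomputable def funModCongrK {Ω Ω' : Type} [MulAction G Ω] [Finite Ω] [MulAction G Ω']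
    [Finite Ω'] (M : FinMod k (MonoidAlgebra k G)) (e : Ω ≃ Ω') :
    funMod Ω M ≃ₗ[k] funMod Ω' M :=
  ((funRep Ω M).asModuleEquiv.trans (LinearEquiv.funCongrLeft k M e.symm)).trans
    (funRep Ω' M).asModuleEquiv.symm

theorem funModCongrK_apply {Ω Ω' : Type} [MulAction G Ω] [Finite Ω] [MulAction G Ω']
    [Finite Ω'] (M : FinMod k (MonoidAlgebra k G)) (e : Ω ≃ Ω') (f : funMod Ω M) (ω' : Ω') :
    funMod.toFun' (funModCongrK M e f) ω' = funMod.toFun' f (e.symm ω') := rfl

theorem funModCongrK_comm {Ω Ω' : Type} [MulAction G Ω] [Finite Ω] [MulAction G Ω']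
    [Finite Ω'] (M : FinMod k (MonoidAlgebra k G)) (e : Ω ≃ Ω') (g : G)
    (he : ∀ x, e (g • x) = g • e x) (f : funMod Ω M) :
    funModCongrK M e (MonoidAlgebra.of k G g • f) =
      MonoidAlgebra.of k G g • funModCongrK M e f := by
  apply funMod_ext
  intro ω'
  rw [funModCongrK_apply, funMod_of_smul_apply, funMod_of_smul_apply, funModCongrK_apply]
  congr 2
  apply e.injective
  rw [Equiv.apply_symm_apply]
  have := he (g⁻¹ • e.symm ω')
  rw [smul_inv_smul, Equiv.apply_symm_apply] at this
  exact (inv_smul_eq_iff.mpr this).symm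

/-- a bijection commuting with `g` gives equal characteristic polynomials of `g`. -/
theorem cp_funMod_eq_of_equiv {Ω Ω' : Type} [MulAction G Ω] [Finite Ω] [MulAction G Ω']
    [Finite Ω'] (M : FinMod k (MonoidAlgebra k G)) (e : Ω ≃ Ω') (g : G)
    (he : ∀ x, e (g • x) = g • e x) :
    cp (MonoidAlgebra.of k G g) (funMod Ω M) = cp (MonoidAlgebra.of k G g) (funMod Ω' M) := by
  unfold cp
  rw [← LinearEquiv.charpoly_conj (funModCongrK M e)]
  congr 1
  apply LinearMap.ext
  intro f'
  rw [LinearEquiv.conj_apply_apply, actL_apply, actL_apply, funModCongrK_comm M e g he,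
    LinearEquiv.apply_symm_apply]

/-- an equivariant bijection gives an isomorphism of function modules. -/
noncomputable def funModCongr {Ω Ω' : Type} [MulAction G Ω] [Finite Ω] [MulAction G Ω']
    [Finite Ω'] (M : FinMod k (MonoidAlgebra k G)) (e : Ω ≃ Ω')
    (he : ∀ (g : G) x, e (g • x) = g • e x) :
    funMod Ω M ≃ₗ[MonoidAlgebra k G] funMod Ω' M :=
  LinearEquiv.ofBijective
    (linearOfComm (funModCongrK M e).toLinearMap (fun g f => funModCongrK_comm M e g (he g) f))
    (funModCongrK M e).bijective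

/-- functions on a one-point set. -/
noncomputable def funModUnique (Ω : Type) [MulAction G Ω] [Unique Ω]
    (M : FinMod k (MonoidAlgebra k G)) : funMod Ω M ≃ₗ[MonoidAlgebra k G] M :=
  LinearEquiv.ofBijective
    (linearOfComm (X := funMod Ω M) (Y := M)
      (((funRep Ω M).asModuleEquiv.trans (LinearEquiv.funUnique Ω k M)).toLinearMap)
      (fun g f => by
        show funMod.toFun' (MonoidAlgebra.of k G g • f) default = _
        rw [funMod_of_smul_apply, Subsingleton.elim (g⁻¹ • (default : Ω)) default]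
        rfl))
    ((funRep Ω M).asModuleEquiv.trans (LinearEquiv.funUnique Ω k M)).bijective

section Sigma

variable {ι : Type} [Finite ι] (Ω : ι → Type) [∀ i, MulAction G (Ω i)] [∀ i, Finite (Ω i)]

/-- functions on a disjoint union, `k`-linearly. -/
noncomputable def funModSigmaK (M : FinMod k (MonoidAlgebra k G)) :
    funMod (Σ i, Ω i) M ≃ₗ[k] FinMod.pi (fun i => funMod (Ω i) M) :=
  ((funRep (Σ i, Ω i) M).asModuleEquiv.trans (LinearEquiv.piCurry k (fun _ _ => M))).trans
    (LinearEquiv.piCongrRight fun i => (funRep (Ω i) M).asModuleEquiv.symm)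

theorem funModSigmaK_apply (M : FinMod k (MonoidAlgebra k G)) (f : funMod (Σ i, Ω i) M) (i : ι)
    (x : Ω i) : funMod.toFun' (funModSigmaK Ω M f i) x = funMod.toFun' f ⟨i, x⟩ := rfl

/-- functions on a disjoint union. -/
noncomputable def funModSigma (M : FinMod k (MonoidAlgebra k G)) :
    funMod (Σ i, Ω i) M ≃ₗ[MonoidAlgebra k G] FinMod.pi (fun i => funMod (Ω i) M) :=
  LinearEquiv.ofBijective
    (linearOfComm (funModSigmaK Ω M).toLinearMap (fun g f => by
      funext i
      apply funMod_ext
      intro x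
      rw [LinearEquiv.coe_coe, Pi.smul_apply, funModSigmaK_apply, funMod_of_smul_apply,
        funMod_of_smul_apply, funModSigmaK_apply]
      rfl))
    (funModSigmaK Ω M).bijective

theorem IsMulInv.funMod_sigma {Γ : Type} [CommMonoid Γ] {χ : FinMod k (MonoidAlgebra k G) → Γ}
    (hχ : IsMulInv χ) [Fintype ι] (M : FinMod k (MonoidAlgebra k G)) :
    χ (funMod (Σ i, Ω i) M) = ∏ i, χ (funMod (Ω i) M) := by
  rw [hχ.iso _ _ ⟨funModSigma Ω M⟩, hχ.pi]

end Sigma

end FunMod

end Fermat.Agent.TW.Ind
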