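import Fermat.Agent.TW.Ind_helper3_BN

set_option autoImplicit false
set_option linter.style.haveILetI false
set_option linter.unusedSectionVars false

open Polynomial Matrix

namespace Fermat.Agent.TW.Ind

section CharpolyPow

variable {n : Type*} [DecidableEq n] [Fintype n]

theorem matrix_charpoly_pow_expand {K : Type*} [Field K] (p : ℕ) [Fact p.Prime] [CharP K p]
    (M : Matrix n n K) (e : ℕ) :
    expand K (p ^ e) (M ^ p ^ e).charpoly = M.charpoly ^ p ^ e := by
  cases (isEmpty_or_nonempty n).symm
  · unfold Matrix.charpoly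
    rw [AlgHom.map_det, ← coe_detMonoidHom, ← (detMonoidHom : Matrix n n K[X] →* K[X]).map_pow]
    apply congr_arg det
    refine matPolyEquiv.injective ?_
    rw [map_pow, matPolyEquiv_charmatrix, sub_pow_char_pow_of_commute, ← C_pow]
    · exact (id (matPolyEquiv_eq_X_pow_sub_C (p ^ e) M) :)
    · exact (C M).commute_X
  · simp [Matrix.charpoly, det_isEmpty]

theorem linearMap_charpoly_pow_expand {K V : Type*} [Field K] [AddCommGroup V] [Module K V]
    [FiniteDimensional K V] (p : ℕ) [Fact p.Prime] [CharP K p] (φ : V →ₗ[K] V) (e : ℕ) :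
    expand K (p ^ e) (φ ^ p ^ e).charpoly = φ.charpoly ^ p ^ e := by
  classical
  let b := Module.Free.chooseBasis K V
  rw [← LinearMap.charpoly_toMatrix (φ ^ p ^ e) b, ← LinearMap.charpoly_toMatrix φ b,
    ← LinearMap.toMatrix_pow, matrix_charpoly_pow_expand]

end CharpolyPow

section Regular

variable {k : Type} [Field k] {G : Type} [Group G]

theorem span_range_of_eq_top :
    Submodule.span k (Set.range (MonoidAlgebra.of k G)) = ⊤ := by
  rw [eq_top_iff]
  intro f _
  exact Submodule.span_mono (Set.image_subset_range _ _) (MonoidAlgebra.mem_span_support_coeff f)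

theorem actL_of_pow (g : G) (q : ℕ) (M : FinMod k (MonoidAlgebra k G)) :
    actL (MonoidAlgebra.of k G (g ^ q)) M = (actL (MonoidAlgebra.of k G g) M) ^ q := by
  unfold actL
  rw [map_pow, map_pow]

/-- **reduction to `p`-regular elements**: two modules whose characteristic polynomials agree on
all `p`-regular group elements have the same characteristic polynomials on all elements. -/
theorem cp_eq_of_regular [Finite G] (p : ℕ) [Fact p.Prime] [CharP k p]
    (M₁ M₂ : FinMod k (MonoidAlgebra k G))
    (h : ∀ g : G, ¬ p ∣ orderOf g → cp (MonoidAlgebra.of k G g) M₁ = cp (MonoidAlgebra.of k G g) M₂)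
    (g : G) : cp (MonoidAlgebra.of k G g) M₁ = cp (MonoidAlgebra.of k G g) M₂ := by
  have hpos : orderOf g ≠ 0 := (orderOf_pos g).ne'
  obtain ⟨e, m, hm, hgm⟩ := Nat.exists_eq_pow_mul_and_not_dvd hpos p (Fact.out : p.Prime).ne_one
  have hp0 : p ^ e ≠ 0 := pow_ne_zero _ (Fact.out : p.Prime).ne_zero
  have hord : orderOf (g ^ p ^ e) = m := by
    rw [orderOf_pow' g hp0, hgm, Nat.gcd_eq_right (Dvd.intro _ rfl),
      Nat.mul_div_cancel_left _ (Nat.pos_of_ne_zero hp0)]
  have h1 := h (g ^ p ^ e) (by rw [hord]; exact hm)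
  unfold cp at h1 ⊢
  rw [actL_of_pow, actL_of_pow] at h1
  have h2 := congrArg (expand k (p ^ e)) h1
  rw [linearMap_charpoly_pow_expand, linearMap_charpoly_pow_expand] at h2
  have h3 : ((actL (MonoidAlgebra.of k G g) M₁).charpoly -
      (actL (MonoidAlgebra.of k G g) M₂).charpoly) ^ p ^ e = 0 := by
    rw [sub_pow_char_pow, h2, sub_self]
  exact sub_eq_zero.mp (pow_eq_zero_iff hp0 |>.mp h3)

end Regular

end Fermat.Agent.TW.Ind
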