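import Fermat.Agent.TW.Ind_helper3_Perm
import Fermat.Agent.TW.Ind_helper3_Artin
import Fermat.Agent.TW.Ind_helper3_Group
import Fermat.Agent.TW.Ind_helper3_Fun

set_option autoImplicit false
set_option linter.style.haveILetI false
set_option linter.unusedSectionVars false

namespace Fermat.Agent.TW.Ind

section FixedSigma

variable {G : Type} [Group G]

/-- fixed points on a disjoint union. -/
def fixedBySigmaEquiv {ι : Type} (X : ι → Type) [∀ i, MulAction G (X i)] (h : G) :
    MulAction.fixedBy (Σ i, X i) h ≃ Σ i, MulAction.fixedBy (X i) h where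
  toFun x := ⟨x.1.1, ⟨x.1.2, by
    have := x.2
    rw [MulAction.mem_fixedBy] at this ⊢
    obtain ⟨⟨i, y⟩, hx⟩ := x
    rw [MulAction.mem_fixedBy, Sigma.smul_mk, Sigma.mk.inj_iff] at hx
    exact eq_of_heq hx.2⟩⟩
  invFun y := ⟨⟨y.1, y.2.1⟩, by
    have := y.2.2
    rw [MulAction.mem_fixedBy] at this ⊢
    rw [Sigma.smul_mk, this]⟩
  left_inv x := rfl
  right_inv y := rfl

theorem card_fixedBy_sigma {ι : Type} [Fintype ι] (X : ι → Type) [∀ i, MulAction G (X i)]
    [∀ i, Finite (X i)] (h : G) :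
    Nat.card (MulAction.fixedBy (Σ i, X i) h) = ∑ i, Nat.card (MulAction.fixedBy (X i) h) := by
  rw [Nat.card_congr (fixedBySigmaEquiv X h), Nat.card_sigma]

end FixedSigma

section Main

variable {k : Type} [Field k] {G : Type} [Group G] [Finite G]

/-- index type of the `G`-set `Σ_B c(B)·(G ⧸ B)`. -/
abbrev Idx (c : Subgroup G → ℕ) : Type := Σ B : Subgroup G, Fin (c B)

/-- the `G`-set `Σ_B c(B)·(G ⧸ B)`. -/
abbrev Om (c : Subgroup G → ℕ) : Type := Σ i : Idx c, G ⧸ i.1

theorem card_fixedBy_Om [Fintype (Subgroup G)] (c : Subgroup G → ℕ) (h : G) :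
    Nat.card (MulAction.fixedBy (Om c) h) =
      ∑ B : Subgroup G, c B * Nat.card (MulAction.fixedBy (G ⧸ B) h) := by
  rw [card_fixedBy_sigma, Fintype.sum_sigma]
  refine Finset.sum_congr rfl fun B _ => ?_
  show ∑ _y : Fin (c B), Nat.card (MulAction.fixedBy (G ⧸ B) h) = _
  rw [Finset.sum_const, Finset.card_univ, Fintype.card_fin, smul_eq_mul]

theorem chi_funMod_Om [Fintype (Subgroup G)] {Γ : Type} [CommMonoid Γ]
    {χ : FinMod k (MonoidAlgebra k G) → Γ} (hχ : IsMulInv χ) (c : Subgroup G → ℕ)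
    (M : FinMod k (MonoidAlgebra k G)) :
    χ (funMod (Om c) M) = ∏ B : Subgroup G, χ (funMod (G ⧸ B) M) ^ c B := by
  rw [hχ.funMod_sigma (fun i : Idx c => G ⧸ i.1), Fintype.prod_sigma]
  refine Finset.prod_congr rfl fun B _ => ?_
  show ∏ _y : Fin (c B), χ (funMod (G ⧸ B) M) = _
  rw [Finset.prod_const, Finset.card_univ, Fintype.card_fin]

theorem card_fixedBy_quot_top (h : G) :
    Nat.card (MulAction.fixedBy (G ⧸ (⊤ : Subgroup G)) h) = 1 := by
  haveI : Subsingleton (G ⧸ (⊤ : Subgroup G)) := QuotientGroup.subsingleton_quotient_top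
  rw [Nat.card_eq_one_iff_unique]
  refine ⟨inferInstance, ⟨⟨((1 : G) : G ⧸ (⊤ : Subgroup G)), Subsingleton.elim _ _⟩⟩⟩

/-- **Artin's induction theorem in characteristic `p`** (for multiplicative invariants with
values in a torsion-free commutative monoid): an invariant which is trivial on all modules
`Fun(G ⧸ B, M)`, `B` cyclic of order prime to `p`, is trivial. -/
theorem artin_induction (p : ℕ) [Fact p.Prime] [Finite k] [CharP k p]
    {Γ : Type} [CommMonoid Γ] (htf : ∀ (x : Γ) (n : ℕ), n ≠ 0 → x ^ n = 1 → x = 1)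
    (χ : FinMod k (MonoidAlgebra k G) → Γ) (hχ : IsMulInv χ)
    (hind : ∀ B : Subgroup G, IsCyclic B → ¬ p ∣ Nat.card B →
      ∀ M : FinMod k (MonoidAlgebra k G), χ (funMod (G ⧸ B) M) = 1)
    (M : FinMod k (MonoidAlgebra k G)) : χ M = 1 := by
  classical
  haveI : Fintype (Subgroup G) := Fintype.ofFinite _
  haveI : Fintype G := Fintype.ofFinite _
  obtain ⟨n, hn1, hn2⟩ := artin_coeffs (G := G) p
  set cPlus : Subgroup G → ℕ := fun B => (n B).toNat with hcp
  set cMinus : Subgroup G → ℕ := fun B => (-n B).toNat + if B = ⊤ then Nat.card G else 0 with hcm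
  -- equal numbers of fixed points
  have hfix : ∀ h : G, ¬ p ∣ orderOf h →
      Nat.card (MulAction.fixedBy (Om cPlus) h) = Nat.card (MulAction.fixedBy (Om cMinus) h) := by
    intro h hh
    rw [card_fixedBy_Om, card_fixedBy_Om]
    have h1 := hn2 h hh
    have h2 : ∀ B : Subgroup G, n B = ((n B).toNat : ℤ) - ((-n B).toNat : ℤ) :=
      fun B => (Int.toNat_sub_toNat_neg (n B)).symm
    have h3 : (∑ B : Subgroup G, ((if B = ⊤ then Nat.card G else 0 : ℕ) : ℤ) *
        (Nat.card (MulAction.fixedBy (G ⧸ B) h) : ℤ)) = Nat.card G := by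
      rw [Finset.sum_eq_single ⊤]
      · rw [if_pos rfl, card_fixedBy_quot_top]; simp
      · intro B _ hB
        rw [if_neg hB]; simp
      · intro hB; exact absurd (Finset.mem_univ _) hB
    have h4 : (∑ B : Subgroup G, ((n B).toNat : ℤ) *
        (Nat.card (MulAction.fixedBy (G ⧸ B) h) : ℤ)) =
        ∑ B : Subgroup G, (((-n B).toNat : ℤ) + ((if B = ⊤ then Nat.card G else 0 : ℕ) : ℤ)) *
          (Nat.card (MulAction.fixedBy (G ⧸ B) h) : ℤ) := by
      simp_rw [add_mul]
      rw [Finset.sum_add_distrib, h3, ← h1, ← Finset.sum_add_distrib]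
      refine Finset.sum_congr rfl fun B _ => ?_
      rw [← add_mul]
      congr 1
      have := h2 B
      omega
    have h5 : ((∑ B : Subgroup G, cPlus B * Nat.card (MulAction.fixedBy (G ⧸ B) h) : ℕ) : ℤ) =
        ((∑ B : Subgroup G, cMinus B * Nat.card (MulAction.fixedBy (G ⧸ B) h) : ℕ) : ℤ) := by
      rw [hcp, hcm]
      simp only
      rw [Nat.cast_sum, Nat.cast_sum]
      simp_rw [Nat.cast_mul, Nat.cast_add]
      exact h4
    exact_mod_cast h5
  -- equal characteristic polynomials on regular elements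
  have hreg : ∀ g : G, ¬ p ∣ orderOf g →
      cp (MonoidAlgebra.of k G g) (funMod (Om cPlus) M) =
        cp (MonoidAlgebra.of k G g) (funMod (Om cMinus) M) := by
    intro g hg
    obtain ⟨e, he⟩ := exists_equiv_of_card_fixed_eq (MulAction.toPerm g : Equiv.Perm (Om cPlus))
      (MulAction.toPerm g : Equiv.Perm (Om cMinus)) (fun j => by
        have hj : ¬ p ∣ orderOf (g ^ j) := fun hp => hg (hp.trans (orderOf_pow_dvd j))
        have := hfix (g ^ j) hj
        have e1 : ∀ (X : Type) [MulAction G X] (x : X),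
            ((MulAction.toPerm g : Equiv.Perm X) ^ j) x = g ^ j • x := by
          intro X _ x
          rw [← MulAction.toPermHom_apply, ← map_pow, MulAction.toPermHom_apply,
            MulAction.toPerm_apply]
        simp_rw [e1]
        exact this)
    exact cp_funMod_eq_of_equiv M e g he
  have hall := cp_eq_of_regular p (funMod (Om cPlus) M) (funMod (Om cMinus) M) hreg
  have hbn := bn p (Set.range (MonoidAlgebra.of k G)) span_range_of_eq_top
    [funMod (Om cPlus) M] [funMod (Om cMinus) M] (by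
      rintro a ⟨g, rfl⟩
      simp only [List.map_cons, List.map_nil, List.prod_cons, List.prod_nil, mul_one]
      exact hall g) χ hχ
  simp only [List.map_cons, List.map_nil, List.prod_cons, List.prod_nil, mul_one] at hbn
  rw [chi_funMod_Om hχ, chi_funMod_Om hχ] at hbn
  -- evaluate
  have hx : ∀ B : Subgroup G, n B ≠ 0 → χ (funMod (G ⧸ B) M) = 1 := fun B hB =>
    hind B (hn1 B hB).1 (hn1 B hB).2 M
  have hL : ∏ B : Subgroup G, χ (funMod (G ⧸ B) M) ^ cPlus B = 1 := by
    refine Finset.prod_eq_one fun B _ => ?_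
    by_cases hB : n B = 0
    · rw [hcp]; simp [hB]
    · rw [hx B hB, one_pow]
  have hR : ∏ B : Subgroup G, χ (funMod (G ⧸ B) M) ^ cMinus B =
      χ (funMod (G ⧸ (⊤ : Subgroup G)) M) ^ cMinus ⊤ := by
    refine Finset.prod_eq_single ⊤ (fun B _ hB => ?_) (fun h => absurd (Finset.mem_univ _) h)
    by_cases hB0 : n B = 0
    · rw [hcm]; simp [hB0, hB]
    · rw [hx B hB0, one_pow]
  rw [hL, hR] at hbn
  haveI : Unique (G ⧸ (⊤ : Subgroup G)) :=
    { default := ((1 : G) : G ⧸ (⊤ : Subgroup G))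
      uniq := fun _ => by
        haveI : Subsingleton (G ⧸ (⊤ : Subgroup G)) := QuotientGroup.subsingleton_quotient_top
        exact Subsingleton.elim _ _ }
  have htop : χ (funMod (G ⧸ (⊤ : Subgroup G)) M) = χ M :=
    hχ.iso _ _ ⟨funModUnique (G ⧸ (⊤ : Subgroup G)) M⟩
  rw [htop] at hbn
  refine htf (χ M) (cMinus ⊤) ?_ hbn.symm
  rw [hcm]
  simp only [if_true]
  have : 0 < Nat.card G := Nat.card_pos
  omega

end Main

end Fermat.Agent.TW.Ind
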