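/-
S56 / (EC-G), helper3: the regular module of functions `G → k` of a finite group, with the
commuting action of `k[G]` by right translation, and the summands `Pe e` cut out by idempotents.
(Definitions shared by the leaves EC-R and CORE.)
-/
import Fermat.Agent.TW.Ind_helper3_Main

set_option autoImplicit false
set_option linter.style.haveILetI false
set_option linter.unusedSectionVars false

namespace Fermat.Agent.TW.Ind

variable (k : Type) [Field k] (G : Type) [Group G]

/-- the left regular representation of `G` on functions: `(g • F) x = F (g⁻¹ x)`. -/
noncomputable def regRep : Representation k G (G → k) where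
  toFun g := LinearMap.funLeft k k (fun x => g⁻¹ * x)
  map_one' := by
    apply LinearMap.ext
    intro F
    funext x
    simp [LinearMap.funLeft_apply]
  map_mul' g h := by
    apply LinearMap.ext
    intro F
    funext x
    simp [LinearMap.funLeft_apply, mul_assoc]

@[simp] lemma regRep_apply (g : G) (F : G → k) (x : G) : regRep k G g F x = F (g⁻¹ * x) := rfl

/-- right translation by a group element, `k`-linearly: `(F ⋆ b) x = F (x b)`. -/
noncomputable def rightTrHom : G →* Module.End k (G → k) where
  toFun b := LinearMap.funLeft k k (fun x => x * b)
  map_one' := by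
    apply LinearMap.ext
    intro F
    funext x
    simp [LinearMap.funLeft_apply]
  map_mul' g h := by
    apply LinearMap.ext
    intro F
    funext x
    simp [LinearMap.funLeft_apply, mul_assoc]

@[simp] lemma rightTrHom_apply (b : G) (F : G → k) (x : G) : rightTrHom k G b F x = F (x * b) := rfl

/-- right translation by an element of the group algebra, `k`-linearly. -/
noncomputable def rightTrK : MonoidAlgebra k G →ₐ[k] Module.End k (G → k) :=
  MonoidAlgebra.lift k (Module.End k (G → k)) G (rightTrHom k G)

lemma rightTrK_of (b : G) : rightTrK k G (MonoidAlgebra.of k G b) = rightTrHom k G b :=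
  MonoidAlgebra.lift_of _ _

lemma rightTrK_comm (a : MonoidAlgebra k G) (g : G) (F : G → k) :
    rightTrK k G a (regRep k G g F) = regRep k G g (rightTrK k G a F) := by
  induction a using MonoidAlgebra.induction_on with
  | of b =>
    rw [rightTrK_of]
    funext x
    simp [mul_assoc]
  | add a a' ha ha' =>
    rw [map_add, LinearMap.add_apply, LinearMap.add_apply, ha, ha', map_add]
  | smul c a ha =>
    rw [map_smul, LinearMap.smul_apply, LinearMap.smul_apply, ha, map_smul]

variable [Finite G] [Finite k]

instance regRep_finite : Finite (regRep k G).asModule :=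
  inferInstanceAs (Finite (G → k))

/-- the regular module of functions `G → k`. -/
noncomputable abbrev regFun : FinMod k (MonoidAlgebra k G) :=
  FinMod.of k (MonoidAlgebra k G) (regRep k G).asModule

variable {k G}

/-- view an element of `regFun` as a function. -/
def regFun.toFun' (F : regFun k G) : G → k := F

/-- build an element of `regFun` from a function. -/
def regFun.mk' (F : G → k) : regFun k G := F

@[simp] lemma regFun.toFun'_mk' (F : G → k) : regFun.toFun' (regFun.mk' F) = F := rfl

@[simp] lemma regFun.mk'_toFun' (F : regFun k G) : regFun.mk' (regFun.toFun' F) = F := rfl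

theorem regFun_ext {F F' : regFun k G} (h : ∀ x, regFun.toFun' F x = regFun.toFun' F' x) :
    F = F' := funext h

theorem regFun_of_smul_apply (g : G) (F : regFun k G) (x : G) :
    regFun.toFun' (MonoidAlgebra.of k G g • F) x = regFun.toFun' F (g⁻¹ * x) := by
  have := (regRep k G).asModuleEquiv_map_smul (MonoidAlgebra.of k G g) F
  rw [Representation.asAlgebraHom_of] at this
  exact congrFun this x

theorem regFun_smul_apply (c : k) (F : regFun k G) (x : G) :
    regFun.toFun' (c • F) x = c * regFun.toFun' F x := rfl

theorem regFun_add_apply (F F' : regFun k G) (x : G) :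
    regFun.toFun' (F + F') x = regFun.toFun' F x + regFun.toFun' F' x := rfl

/-- the `k`-linear identification of `regFun` with functions. -/
noncomputable def regFunEquiv : regFun k G ≃ₗ[k] (G → k) := (regRep k G).asModuleEquiv

@[simp] lemma regFunEquiv_apply (F : regFun k G) : regFunEquiv F = regFun.toFun' F := rfl

variable (k G) in
/-- right translation by an element of the group algebra, as a `k[G]`-linear endomorphism of
`regFun`. -/
noncomputable def rightTr (a : MonoidAlgebra k G) : regFun k G →ₗ[MonoidAlgebra k G] regFun k G :=
  linearOfComm (X := regFun k G) (Y := regFun k G)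
    ((regFunEquiv.symm.toLinearMap ∘ₗ rightTrK k G a) ∘ₗ regFunEquiv.toLinearMap)
    (fun g F => by
      apply regFun_ext
      intro x
      have h1 : regFun.toFun' (MonoidAlgebra.of k G g • F) = regRep k G g (regFun.toFun' F) := by
        funext y
        rw [regFun_of_smul_apply, regRep_apply]
      show rightTrK k G a (regFun.toFun' (MonoidAlgebra.of k G g • F)) x =
        regFun.toFun' (MonoidAlgebra.of k G g • (regFun.mk' (rightTrK k G a (regFun.toFun' F)))) x
      rw [regFun_of_smul_apply, h1, rightTrK_comm]
      rfl)

theorem rightTr_toFun' (a : MonoidAlgebra k G) (F : regFun k G) :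
    regFun.toFun' (rightTr k G a F) = rightTrK k G a (regFun.toFun' F) := rfl

theorem rightTr_of_apply (b : G) (F : regFun k G) (x : G) :
    regFun.toFun' (rightTr k G (MonoidAlgebra.of k G b) F) x = regFun.toFun' F (x * b) := by
  rw [rightTr_toFun', rightTrK_of, rightTrHom_apply]

theorem rightTr_mul (a a' : MonoidAlgebra k G) :
    rightTr k G (a * a') = rightTr k G a ∘ₗ rightTr k G a' := by
  apply LinearMap.ext
  intro F
  apply regFun_ext
  intro x
  rw [LinearMap.comp_apply, rightTr_toFun', rightTr_toFun', rightTr_toFun', map_mul]
  rfl

theorem rightTr_one : rightTr k G (1 : MonoidAlgebra k G) = LinearMap.id := by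
  apply LinearMap.ext
  intro F
  apply regFun_ext
  intro x
  rw [rightTr_toFun', map_one]
  rfl

theorem rightTr_add (a a' : MonoidAlgebra k G) :
    rightTr k G (a + a') = rightTr k G a + rightTr k G a' := by
  apply LinearMap.ext
  intro F
  apply regFun_ext
  intro x
  rw [LinearMap.add_apply, rightTr_toFun', map_add]
  rfl

theorem rightTr_smul (c : k) (a : MonoidAlgebra k G) (F : regFun k G) :
    rightTr k G (c • a) F = c • rightTr k G a F := by
  apply regFun_ext
  intro x
  rw [rightTr_toFun', map_smul]
  rfl

/-- the summand `regFun ⋆ e` of the regular module cut out by an element `e` of the group algebra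
(an idempotent in the applications). -/
noncomputable abbrev Pe (e : MonoidAlgebra k G) : FinMod k (MonoidAlgebra k G) :=
  FinMod.sub (LinearMap.range (rightTr k G e))

theorem mem_range_rightTr_iff {e : MonoidAlgebra k G} (he : e * e = e) (F : regFun k G) :
    F ∈ LinearMap.range (rightTr k G e) ↔ rightTr k G e F = F := by
  constructor
  · rintro ⟨F', rfl⟩
    rw [← LinearMap.comp_apply, ← rightTr_mul, he]
  · intro h
    exact ⟨F, h⟩

end Fermat.Agent.TW.Ind
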