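/-
S56 / (EC-G) leaf EC-R — helper1. Coinduction from a subgroup `B ≤ G` for bundled finite modules:
`coind B N = {F : G → N | F (g b) = b⁻¹ • F g}` with `G` acting by left translation.
It is exact, so a multiplicative invariant of `k[G]`-modules composed with `coind` is a
multiplicative invariant of `k[B]`-modules.
-/
import Fermat.Agent.TW.EC_helper3_Reg

set_option autoImplicit false
set_option linter.style.haveILetI false
set_option linter.unusedSectionVars false

namespace Fermat.Agent.TW.Ind

variable {k : Type} [Field k] {G : Type} [Group G] (B : Subgroup G)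

/-- the `k`-submodule of `B`-equivariant functions `G → N`. -/
def coindSub (N : FinMod k (MonoidAlgebra k B)) : Submodule k (G → N) where
  carrier := {F | ∀ (g : G) (b : B), F (g * b) = MonoidAlgebra.of k B b⁻¹ • F g}
  add_mem' := by
    intro F F' hF hF' g b
    rw [Pi.add_apply, Pi.add_apply, hF g b, hF' g b, smul_add]
  zero_mem' := by
    intro g b
    rw [Pi.zero_apply, Pi.zero_apply, smul_zero]
  smul_mem' := by
    intro c F hF g b
    rw [Pi.smul_apply, Pi.smul_apply, hF g b, smul_comm]

/-- left translation on equivariant functions. -/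
noncomputable def coindRep (N : FinMod k (MonoidAlgebra k B)) :
    Representation k G (coindSub B N) where
  toFun g :=
    { toFun := fun F => ⟨fun x => F.1 (g⁻¹ * x), fun x b => by
        change F.1 (g⁻¹ * (x * b)) = _
        rw [← mul_assoc]
        exact F.2 _ b⟩
      map_add' := fun F F' => rfl
      map_smul' := fun c F => rfl }
  map_one' := by
    apply LinearMap.ext
    intro F
    apply Subtype.ext
    funext x
    change F.1 (1⁻¹ * x) = F.1 x
    rw [inv_one, one_mul]
  map_mul' g h := by
    apply LinearMap.ext
    intro F
    apply Subtype.ext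
    funext x
    change F.1 ((g * h)⁻¹ * x) = F.1 (h⁻¹ * (g⁻¹ * x))
    rw [mul_inv_rev, mul_assoc]

variable [Finite G]

instance coindRep_finite (N : FinMod k (MonoidAlgebra k B)) : Finite (coindRep B N).asModule :=
  inferInstanceAs (Finite (coindSub B N))

/-- the coinduced module. -/
noncomputable abbrev coind (N : FinMod k (MonoidAlgebra k B)) : FinMod k (MonoidAlgebra k G) :=
  FinMod.of k (MonoidAlgebra k G) (coindRep B N).asModule

variable {B}

/-- view an element of the coinduced module as a function. -/
def coind.val {N : FinMod k (MonoidAlgebra k B)} (F : coind B N) : G → N :=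
  (show coindSub B N from F).1

theorem coind.val_mul {N : FinMod k (MonoidAlgebra k B)} (F : coind B N) (g : G) (b : B) :
    coind.val F (g * b) = MonoidAlgebra.of k B b⁻¹ • coind.val F g :=
  (show coindSub B N from F).2 g b

/-- build an element of the coinduced module. -/
def coind.mk {N : FinMod k (MonoidAlgebra k B)} (F : G → N)
    (hF : ∀ (g : G) (b : B), F (g * b) = MonoidAlgebra.of k B b⁻¹ • F g) : coind B N :=
  (⟨F, hF⟩ : coindSub B N)

@[simp] theorem coind.val_mk {N : FinMod k (MonoidAlgebra k B)} (F : G → N) (hF) :
    coind.val (coind.mk (B := B) F hF) = F := rfl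

theorem coind_ext {N : FinMod k (MonoidAlgebra k B)} {F F' : coind B N}
    (h : ∀ x, coind.val F x = coind.val F' x) : F = F' :=
  Subtype.ext (funext h)

theorem coind_val_add {N : FinMod k (MonoidAlgebra k B)} (F F' : coind B N) (x : G) :
    coind.val (F + F') x = coind.val F x + coind.val F' x := rfl

theorem coind_val_smul {N : FinMod k (MonoidAlgebra k B)} (c : k) (F : coind B N) (x : G) :
    coind.val (c • F) x = c • coind.val F x := rfl

theorem coind_val_zero {N : FinMod k (MonoidAlgebra k B)} (x : G) :
    coind.val (0 : coind B N) x = 0 := rfl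

theorem coind_of_smul_val {N : FinMod k (MonoidAlgebra k B)} (g : G) (F : coind B N) (x : G) :
    coind.val (MonoidAlgebra.of k G g • F) x = coind.val F (g⁻¹ * x) := by
  have := (coindRep B N).asModuleEquiv_map_smul (MonoidAlgebra.of k G g) F
  rw [Representation.asAlgebraHom_of] at this
  exact congrFun (congrArg Subtype.val this) x

/-- the `k`-linear structure map of `coind.val`. -/
noncomputable def coindValL (N : FinMod k (MonoidAlgebra k B)) : coind B N →ₗ[k] (G → N) where
  toFun F := coind.val F
  map_add' _ _ := rfl
  map_smul' _ _ := rfl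

section Functoriality

variable {N N' N'' : FinMod k (MonoidAlgebra k B)}

/-- functoriality of coinduction, `k`-linearly. -/
noncomputable def coindMapK (f : N →ₗ[MonoidAlgebra k B] N') : coind B N →ₗ[k] coind B N' where
  toFun F := coind.mk (fun x => f (coind.val F x)) (fun g b => by
    rw [coind.val_mul, map_smul])
  map_add' F F' := by
    apply coind_ext
    intro x
    rw [coind.val_mk, coind_val_add, coind_val_add, coind.val_mk, coind.val_mk, map_add]
  map_smul' c F := by
    apply coind_ext
    intro x
    rw [coind.val_mk, coind_val_smul, RingHom.id_apply, coind_val_smul, coind.val_mk]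
    exact (f.restrictScalars k).map_smul c _

/-- functoriality of coinduction. -/
noncomputable def coindMap (f : N →ₗ[MonoidAlgebra k B] N') :
    coind B N →ₗ[MonoidAlgebra k G] coind B N' :=
  linearOfComm (coindMapK f) (fun g F => by
    apply coind_ext
    intro x
    rw [coind_of_smul_val]
    change f (coind.val (MonoidAlgebra.of k G g • F) x) = f (coind.val F (g⁻¹ * x))
    rw [coind_of_smul_val])

theorem coindMap_val (f : N →ₗ[MonoidAlgebra k B] N') (F : coind B N) (x : G) :
    coind.val (coindMap f F) x = f (coind.val F x) := rfl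

theorem coindMap_injective (f : N →ₗ[MonoidAlgebra k B] N') (hf : Function.Injective f) :
    Function.Injective (coindMap (G := G) f) := by
  intro F F' h
  apply coind_ext
  intro x
  apply hf
  rw [← coindMap_val, ← coindMap_val, h]

/-- a set-theoretic decomposition `x = r(x) β(x)` with `β(x) ∈ B`. -/
noncomputable def cosetRep (x : G) : G := (QuotientGroup.mk x : G ⧸ B).out

theorem cosetRep_mul (x : G) (b : B) : cosetRep (B := B) (x * b) = cosetRep (B := B) x := by
  unfold cosetRep
  congr 1
  exact (QuotientGroup.mk_mul_of_mem x b.2)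

theorem cosetRep_inv_mul_mem (x : G) : (cosetRep (B := B) x)⁻¹ * x ∈ B := by
  have h : (QuotientGroup.mk (cosetRep (B := B) x) : G ⧸ B) = QuotientGroup.mk x :=
    Quotient.out_eq' _
  exact QuotientGroup.eq.1 h

/-- the `B`-component `β(x) = r(x)⁻¹ x`. -/
noncomputable def cosetB (x : G) : B := ⟨(cosetRep (B := B) x)⁻¹ * x, cosetRep_inv_mul_mem x⟩

theorem cosetB_mul (x : G) (b : B) : cosetB (B := B) (x * b) = cosetB (B := B) x * b := by
  apply Subtype.ext
  change (cosetRep (B := B) (x * b))⁻¹ * (x * b) = (cosetRep (B := B) x)⁻¹ * x * b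
  rw [cosetRep_mul, mul_assoc]

theorem cosetRep_mul_cosetB (x : G) : cosetRep (B := B) x * (cosetB (B := B) x : G) = x := by
  change cosetRep (B := B) x * ((cosetRep (B := B) x)⁻¹ * x) = x
  rw [mul_inv_cancel_left]

theorem coindMap_surjective (f : N →ₗ[MonoidAlgebra k B] N') (hf : Function.Surjective f) :
    Function.Surjective (coindMap (G := G) f) := by
  intro F'
  let s : N' → N := Function.surjInv hf
  have hs : ∀ y, f (s y) = y := Function.surjInv_eq hf
  refine ⟨coind.mk (fun x => MonoidAlgebra.of k B (cosetB (B := B) x)⁻¹ •
    s (coind.val F' (cosetRep (B := B) x))) (fun g b => ?_), ?_⟩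
  · rw [cosetB_mul, cosetRep_mul, mul_inv_rev, map_mul, mul_smul]
  · apply coind_ext
    intro x
    rw [coindMap_val, coind.val_mk, map_smul, hs, ← coind.val_mul, cosetRep_mul_cosetB]

theorem coindMap_exact (f : N →ₗ[MonoidAlgebra k B] N') (g : N' →ₗ[MonoidAlgebra k B] N'')
    (hf : Function.Injective f) (hex : LinearMap.range f = LinearMap.ker g) :
    LinearMap.range (coindMap (G := G) f) = LinearMap.ker (coindMap (G := G) g) := by
  apply le_antisymm
  · rintro _ ⟨F, rfl⟩
    rw [LinearMap.mem_ker]
    apply coind_ext
    intro x
    rw [coindMap_val, coindMap_val, coind_val_zero]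
    have : f (coind.val F x) ∈ LinearMap.ker g := hex ▸ LinearMap.mem_range_self f _
    exact this
  · intro F' hF'
    rw [LinearMap.mem_ker] at hF'
    have hmem : ∀ x, coind.val F' x ∈ LinearMap.range f := by
      intro x
      rw [hex, LinearMap.mem_ker, ← coindMap_val, hF', coind_val_zero]
    choose F hF using hmem
    refine ⟨coind.mk F (fun x b => ?_), ?_⟩
    · apply hf
      rw [hF, map_smul, hF, coind.val_mul]
    · apply coind_ext
      intro x
      rw [coindMap_val, coind.val_mk, hF]

/-- coinduction of an isomorphism. -/
noncomputable def coindCongr (e : N ≃ₗ[MonoidAlgebra k B] N') :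
    coind (G := G) B N ≃ₗ[MonoidAlgebra k G] coind B N' :=
  LinearEquiv.ofBijective (coindMap e.toLinearMap)
    ⟨coindMap_injective _ e.injective, coindMap_surjective _ e.surjective⟩

end Functoriality

/-- **exactness of coinduction**: a multiplicative invariant of `k[G]`-modules composed with
`coind` is a multiplicative invariant of `k[B]`-modules. -/
theorem IsMulInv.comp_coind {Γ : Type} [CommMonoid Γ] {χ : FinMod k (MonoidAlgebra k G) → Γ}
    (hχ : IsMulInv χ) : IsMulInv (fun N : FinMod k (MonoidAlgebra k B) => χ (coind B N)) where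
  iso M N := by
    rintro ⟨e⟩
    exact hχ.iso _ _ ⟨coindCongr e⟩
  mul M N :=
    hχ.of_exact (coindMap N.subtype) (coindMap N.mkQ)
      (coindMap_injective _ N.injective_subtype) (coindMap_surjective _ N.mkQ_surjective)
      (coindMap_exact _ _ N.injective_subtype (by rw [Submodule.range_subtype, Submodule.ker_mkQ]))
  zero M hM := by
    refine hχ.zero _ ⟨fun F F' => ?_⟩
    apply coind_ext
    intro x
    exact Subsingleton.elim _ _

end Fermat.Agent.TW.Ind
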