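/-
S56 / (EC-G) leaf EC-R — helper1. Restriction of scalars `k[G] → k[B]` for bundled finite modules
and the isomorphism `Fun(G ⧸ B, M) ≅ coind B (Res_B M)`.
-/
import Fermat.Agent.TW.ECR_helper1_Coind

set_option autoImplicit false
set_option linter.style.haveILetI false
set_option linter.unusedSectionVars false

namespace Fermat.Agent.TW.Ind

variable {k : Type} [Field k] {G : Type} [Group G] (B : Subgroup G)

/-- the inclusion `k[B] → k[G]`. -/
noncomputable def incl : MonoidAlgebra k B →ₐ[k] MonoidAlgebra k G :=
  MonoidAlgebra.mapDomainAlgHom k k B.subtype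

theorem incl_of (b : B) : incl (k := k) B (MonoidAlgebra.of k B b) = MonoidAlgebra.of k G b := by
  unfold incl
  rw [MonoidAlgebra.mapDomainAlgHom_apply, MonoidAlgebra.of_apply, MonoidAlgebra.of_apply,
    MonoidAlgebra.mapDomain_single]
  rfl

/-- restriction of scalars to `k[B]`. -/
noncomputable def resMod (M : FinMod k (MonoidAlgebra k G)) : FinMod k (MonoidAlgebra k B) :=
  letI inst : Module (MonoidAlgebra k B) M :=
    Module.compHom M ((incl (k := k) B : MonoidAlgebra k B →ₐ[k] MonoidAlgebra k G) :
      MonoidAlgebra k B →+* MonoidAlgebra k G)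
  { carrier := M
    acg := M.acg
    modk := M.modk
    modA := inst
    tower := ⟨fun c a x => by
      change (incl (k := k) B (c • a)) • x = c • ((incl (k := k) B a) • x)
      rw [map_smul, smul_assoc]⟩
    fin := M.fin }

variable {B}

/-- an element of `M` as an element of the restricted module. -/
def resMod.up {M : FinMod k (MonoidAlgebra k G)} (x : M) : resMod B M := x

/-- an element of the restricted module as an element of `M`. -/
def resMod.down {M : FinMod k (MonoidAlgebra k G)} (x : resMod B M) : M := x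

@[simp] theorem resMod.up_down {M : FinMod k (MonoidAlgebra k G)} (x : resMod B M) :
    resMod.up (resMod.down x) = x := rfl

@[simp] theorem resMod.down_up {M : FinMod k (MonoidAlgebra k G)} (x : M) :
    resMod.down (resMod.up (B := B) x) = x := rfl

theorem resMod.smul_up {M : FinMod k (MonoidAlgebra k G)} (a : MonoidAlgebra k B) (x : M) :
    a • resMod.up (B := B) x = resMod.up (incl B a • x) := rfl

theorem resMod.of_smul_up {M : FinMod k (MonoidAlgebra k G)} (b : B) (x : M) :
    MonoidAlgebra.of k B b • resMod.up (B := B) x =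
      resMod.up (MonoidAlgebra.of k G (b : G) • x) := by
  rw [resMod.smul_up, incl_of]

theorem resMod.up_add {M : FinMod k (MonoidAlgebra k G)} (x y : M) :
    resMod.up (B := B) (x + y) = resMod.up x + resMod.up y := rfl

theorem resMod.up_smul {M : FinMod k (MonoidAlgebra k G)} (c : k) (x : M) :
    resMod.up (B := B) (c • x) = c • resMod.up x := rfl

theorem resMod.up_injective {M : FinMod k (MonoidAlgebra k G)} :
    Function.Injective (resMod.up (B := B) (M := M)) := fun _ _ h => h

section Iso

variable [Finite G] (M : FinMod k (MonoidAlgebra k G))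

theorem of_inv_smul_of_smul (g : G) (x : M) :
    MonoidAlgebra.of k G g⁻¹ • MonoidAlgebra.of k G g • x = x := by
  rw [← mul_smul, ← map_mul, inv_mul_cancel, map_one, one_smul]

theorem of_smul_of_inv_smul (g : G) (x : M) :
    MonoidAlgebra.of k G g • MonoidAlgebra.of k G g⁻¹ • x = x := by
  rw [← mul_smul, ← map_mul, mul_inv_cancel, map_one, one_smul]

/-- `φ ↦ (g ↦ g⁻¹ • φ (g B))`, `k`-linearly. -/
noncomputable def funToCoindK : funMod (G ⧸ B) M →ₗ[k] coind B (resMod B M) where
  toFun φ := coind.mk (fun g => resMod.up (MonoidAlgebra.of k G g⁻¹ •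
    funMod.toFun' φ (QuotientGroup.mk g))) (fun g b => by
      rw [resMod.of_smul_up, QuotientGroup.mk_mul_of_mem g b.2, mul_inv_rev, map_mul, mul_smul]
      rfl)
  map_add' φ φ' := by
    apply coind_ext
    intro x
    rw [coind.val_mk, coind_val_add, coind.val_mk, coind.val_mk, ← resMod.up_add, ← smul_add]
    rfl
  map_smul' c φ := by
    apply coind_ext
    intro x
    rw [coind.val_mk, RingHom.id_apply, coind_val_smul, coind.val_mk, ← resMod.up_smul, smul_comm]
    rfl

theorem funToCoindK_val (φ : funMod (G ⧸ B) M) (g : G) :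
    coind.val (funToCoindK M φ) g =
      resMod.up (MonoidAlgebra.of k G g⁻¹ • funMod.toFun' φ (QuotientGroup.mk g)) := rfl

/-- `Fun(G ⧸ B, M) → coind B (Res_B M)`. -/
noncomputable def funToCoind : funMod (G ⧸ B) M →ₗ[MonoidAlgebra k G] coind B (resMod B M) :=
  linearOfComm (funToCoindK M) (fun g φ => by
    apply coind_ext
    intro x
    rw [coind_of_smul_val, funToCoindK_val, funToCoindK_val, funMod_of_smul_apply, ← mul_smul,
      ← map_mul, mul_inv_rev, inv_inv]
    rfl)

theorem funToCoind_val (φ : funMod (G ⧸ B) M) (g : G) :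
    coind.val (funToCoind M φ) g =
      resMod.up (MonoidAlgebra.of k G g⁻¹ • funMod.toFun' φ (QuotientGroup.mk g)) := rfl

theorem funToCoind_injective : Function.Injective (funToCoind (B := B) M) := by
  intro φ φ' h
  apply funMod_ext
  intro ω
  obtain ⟨g, rfl⟩ := QuotientGroup.mk_surjective ω
  have h1 : coind.val (funToCoind M φ) g = coind.val (funToCoind M φ') g := by rw [h]
  rw [funToCoind_val, funToCoind_val] at h1
  have h2 : MonoidAlgebra.of k G g⁻¹ • funMod.toFun' φ (QuotientGroup.mk g) =
      MonoidAlgebra.of k G g⁻¹ • funMod.toFun' φ' (QuotientGroup.mk g) := resMod.up_injective h1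
  have h3 := congrArg (fun y => MonoidAlgebra.of k G g • y) h2
  simp only [of_smul_of_inv_smul] at h3
  exact h3

theorem funToCoind_surjective : Function.Surjective (funToCoind (B := B) M) := by
  intro F
  let φ : funMod (G ⧸ B) M := fun ω =>
    MonoidAlgebra.of k G (ω.out : G) • resMod.down (coind.val F ω.out)
  refine ⟨φ, ?_⟩
  apply coind_ext
  intro g
  rw [funToCoind_val]
  have hφ : funMod.toFun' φ (QuotientGroup.mk g) = MonoidAlgebra.of k G (cosetRep (B := B) g) •
      resMod.down (coind.val F (cosetRep (B := B) g)) := rfl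
  rw [hφ]
  have hg := cosetRep_mul_cosetB (B := B) g
  have e1 : MonoidAlgebra.of k G g⁻¹ = MonoidAlgebra.of k G (((cosetB (B := B) g)⁻¹ : B) : G) *
      MonoidAlgebra.of k G (cosetRep (B := B) g)⁻¹ := by
    rw [← map_mul, Subgroup.coe_inv, ← mul_inv_rev, hg]
  rw [e1, mul_smul, of_inv_smul_of_smul, ← resMod.of_smul_up, resMod.up_down, ← coind.val_mul, hg]

/-- **`Fun(G ⧸ B, M) ≅ coind B (Res_B M)`**. -/
noncomputable def funEquivCoind : funMod (G ⧸ B) M ≃ₗ[MonoidAlgebra k G] coind B (resMod B M) :=
  LinearEquiv.ofBijective (funToCoind M) ⟨funToCoind_injective M, funToCoind_surjective M⟩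

end Iso

end Fermat.Agent.TW.Ind
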