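/-
S56 / (EC-G) leaf EC-R — helper1. Coinduction of a simple `k[B]`-module (`|B|` invertible in `k`)
is isomorphic to the summand `Pe e` of the regular module of `G` cut out by an idempotent `e` of
`k[B]`.
-/
import Fermat.Agent.TW.ECR_helper1_Res
import Fermat.Agent.TW.ECR_helper1_Antipode

set_option autoImplicit false
set_option linter.style.haveILetI false
set_option linter.unusedSectionVars false

namespace Fermat.Agent.TW.Ind

variable {k : Type} [Field k] [Finite k] {G : Type} [Group G] [Finite G] {B : Subgroup G}

section Theta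

variable {S : FinMod k (MonoidAlgebra k B)} (σ : S →ₗ[MonoidAlgebra k B] MonoidAlgebra k B)

/-- `Θ(F)(x) = ε(σ(F x))`, `k`-linearly. -/
noncomputable def thetaK : coind B S →ₗ[k] regFun k G where
  toFun F := regFun.mk' (fun x => eps (σ (coind.val F x)))
  map_add' F F' := by
    apply regFun_ext
    intro x
    rw [regFun_add_apply]
    change eps (σ (coind.val (F + F') x)) = eps (σ (coind.val F x)) + eps (σ (coind.val F' x))
    rw [coind_val_add, map_add, map_add]
  map_smul' c F := by
    apply regFun_ext
    intro x
    rw [RingHom.id_apply, regFun_smul_apply]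
    change eps (σ (coind.val (c • F) x)) = c * eps (σ (coind.val F x))
    rw [coind_val_smul]
    have h1 : σ (c • coind.val F x) = c • σ (coind.val F x) :=
      (σ.restrictScalars k).map_smul c _
    rw [h1, map_smul, smul_eq_mul]

theorem thetaK_apply (F : coind B S) (x : G) :
    regFun.toFun' (thetaK σ F) x = eps (σ (coind.val F x)) := rfl

/-- `Θ : coind B S → regFun`. -/
noncomputable def theta : coind B S →ₗ[MonoidAlgebra k G] regFun k G :=
  linearOfComm (thetaK σ) (fun g F => by
    apply regFun_ext
    intro x
    rw [regFun_of_smul_apply, thetaK_apply, thetaK_apply, coind_of_smul_val])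

theorem theta_apply (F : coind B S) (x : G) :
    regFun.toFun' (theta σ F) x = eps (σ (coind.val F x)) := rfl

theorem theta_mul (F : coind B S) (x : G) (c : B) :
    regFun.toFun' (theta σ F) (x * c) =
      eps (MonoidAlgebra.of k B c⁻¹ * σ (coind.val F x)) := by
  rw [theta_apply, coind.val_mul, map_smul, smul_eq_mul]

theorem theta_injective (hσ : Function.Injective σ) : Function.Injective (theta (G := G) σ) := by
  intro F F' h
  have h0 : theta σ (F - F') = 0 := by rw [map_sub, h, sub_self]
  have h1 : F - F' = 0 := by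
    apply coind_ext
    intro x
    rw [coind_val_zero]
    apply hσ
    rw [map_zero]
    apply eq_zero_of_eps_eq_zero
    intro b
    have h2 := theta_mul σ (F - F') x b⁻¹
    rw [inv_inv, h0] at h2
    exact h2.symm
  exact sub_eq_zero.1 h1

end Theta

/-- the general formula for right translation by an element of `k[B]`. -/
theorem rightTr_incl_apply (a' : MonoidAlgebra k B) (Φ : regFun k G) (x : G)
    (A : MonoidAlgebra k B)
    (hA : ∀ c : B, regFun.toFun' Φ (x * c) = eps (MonoidAlgebra.of k B c⁻¹ * A)) :
    regFun.toFun' (rightTr k G (incl B a') Φ) x = eps (antipode a' * A) := by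
  induction a' using MonoidAlgebra.induction_on with
  | of c => rw [incl_of, rightTr_of_apply, hA c, antipode_of]
  | add a a' ha ha' =>
    rw [map_add, rightTr_add, LinearMap.add_apply, regFun_add_apply, ha, ha', antipode_add, add_mul,
      map_add]
  | smul r a ha =>
    rw [map_smul, rightTr_smul, regFun_smul_apply, ha, antipode_smul, smul_mul_assoc, map_smul,
      smul_eq_mul]

section Simple

variable {S : FinMod k (MonoidAlgebra k B)} (σ : S →ₗ[MonoidAlgebra k B] MonoidAlgebra k B)
  (s : S) (hσ : ∀ y, σ y • s = y)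

include hσ in
theorem section_injective : Function.Injective σ := by
  intro y y' h
  rw [← hσ y, ← hσ y', h]

include hσ in
theorem section_mul (y : S) : σ y * σ s = σ y := by
  have := σ.map_smul (σ y) s
  rw [hσ y, smul_eq_mul] at this
  exact this.symm

include hσ in
theorem section_idem : σ s * σ s = σ s := section_mul σ s hσ s

include hσ in
theorem rightTr_theta (F : coind B S) :
    rightTr k G (incl B (antipode (σ s))) (theta σ F) = theta σ F := by
  apply regFun_ext
  intro x
  rw [rightTr_incl_apply (antipode (σ s)) (theta σ F) x (σ (coind.val F x)) (theta_mul σ F x),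
    antipode_antipode, eps_mul_comm, section_mul σ s hσ, theta_apply]

/-- the `k[B]`-valued function attached to `Ψ`: `x ↦ ∑_b Ψ(x b) b`. -/
noncomputable def aOf [Fintype B] (Ψ : regFun k G) (x : G) : MonoidAlgebra k B :=
  ∑ b : B, regFun.toFun' Ψ (x * b) • MonoidAlgebra.of k B b

theorem coeff_aOf [Fintype B] [DecidableEq B] (Ψ : regFun k G) (x : G) (c : B) :
    (aOf Ψ x).coeff c = regFun.toFun' Ψ (x * c) := by
  unfold aOf
  rw [MonoidAlgebra.coeff_sum, Finsupp.finset_sum_apply]
  simp only [MonoidAlgebra.coeff_smul, Finsupp.smul_apply, MonoidAlgebra.of_apply,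
    MonoidAlgebra.coeff_single, Finsupp.single_apply, smul_eq_mul, mul_ite, mul_one, mul_zero]
  rw [Finset.sum_ite_eq' Finset.univ c]
  simp

theorem aOf_mul [Fintype B] (Ψ : regFun k G) (x : G) (b' : B) :
    aOf Ψ (x * b') = MonoidAlgebra.of k B b'⁻¹ * aOf Ψ x := by
  unfold aOf
  rw [Finset.mul_sum]
  rw [← Equiv.sum_comp (Equiv.mulLeft b')
    (fun b => MonoidAlgebra.of k B b'⁻¹ * (regFun.toFun' Ψ (x * b) • MonoidAlgebra.of k B b))]
  refine Finset.sum_congr rfl fun b _ => ?_
  rw [Equiv.coe_mulLeft, mul_smul_comm, ← map_mul, inv_mul_cancel_left, Subgroup.coe_mul,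
    mul_assoc]

include hσ in
theorem rightTr_mem_range_theta (Ψ : regFun k G) :
    rightTr k G (incl B (antipode (σ s))) Ψ ∈ LinearMap.range (theta (G := G) σ) := by
  classical
  haveI : Fintype B := Fintype.ofFinite B
  refine ⟨coind.mk (fun x => aOf Ψ x • s) (fun g b => by rw [aOf_mul, mul_smul]), ?_⟩
  apply regFun_ext
  intro x
  rw [theta_apply, coind.val_mk, map_smul, smul_eq_mul, eps_mul_comm,
    rightTr_incl_apply (antipode (σ s)) Ψ x (aOf Ψ x) (fun c => by rw [← coeff_eq_eps, coeff_aOf]),
    antipode_antipode]

include hσ in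
theorem range_theta_eq :
    LinearMap.range (theta (G := G) σ) = LinearMap.range (rightTr k G (incl B (antipode (σ s)))) := by
  apply le_antisymm
  · rintro _ ⟨F, rfl⟩
    exact ⟨theta σ F, rightTr_theta σ s hσ F⟩
  · rintro _ ⟨Ψ, rfl⟩
    exact rightTr_mem_range_theta σ s hσ Ψ

include hσ in
/-- coinduction of `S ≅ k[B] e` is the summand of the regular module cut out by the idempotent
`antipode e`. -/
theorem nonempty_coind_equiv_Pe :
    Nonempty (coind (G := G) B S ≃ₗ[MonoidAlgebra k G] Pe (incl B (antipode (σ s)))) :=
  ⟨(LinearEquiv.ofInjective (theta (G := G) σ) (theta_injective σ (section_injective σ s hσ))).trans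
    (LinearEquiv.ofEq _ _ (range_theta_eq σ s hσ))⟩

end Simple

section Maschke

variable [NeZero (Nat.card B : k)]

/-- a simple `k[B]`-module is a direct summand of `k[B]`. -/
theorem exists_section (S : FinMod k (MonoidAlgebra k B)) [IsSimpleModule (MonoidAlgebra k B) S] :
    ∃ (s : S) (σ : S →ₗ[MonoidAlgebra k B] MonoidAlgebra k B), ∀ y, σ y • s = y := by
  haveI : Nontrivial S := IsSimpleModule.nontrivial (MonoidAlgebra k B) S
  obtain ⟨s, hs⟩ := exists_ne (0 : S)
  let f : MonoidAlgebra k B →ₗ[MonoidAlgebra k B] S := LinearMap.toSpanSingleton _ _ s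
  have hf : Function.Surjective f := by
    rw [← LinearMap.range_eq_top]
    rcases eq_bot_or_eq_top (LinearMap.range f) with h | h
    · exfalso
      apply hs
      have : f 1 ∈ LinearMap.range f := LinearMap.mem_range_self f 1
      rw [h, Submodule.mem_bot] at this
      rw [← this]
      exact (one_smul _ s).symm
    · exact h
  haveI : Module.Projective (MonoidAlgebra k B) S := Module.projective_of_isSemisimpleRing _ _
  obtain ⟨σ, hσ⟩ := Module.projective_lifting_property f LinearMap.id hf
  exact ⟨s, σ, fun y => LinearMap.congr_fun hσ y⟩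

/-- **coinduction of a simple module is `Pe e` for an idempotent `e` of `k[B]`.** -/
theorem exists_idem_coind_equiv (S : FinMod k (MonoidAlgebra k B))
    [IsSimpleModule (MonoidAlgebra k B) S] :
    ∃ e : MonoidAlgebra k B, e * e = e ∧
      Nonempty (coind (G := G) B S ≃ₗ[MonoidAlgebra k G] Pe (incl B e)) := by
  obtain ⟨s, σ, hσ⟩ := exists_section S
  exact ⟨antipode (σ s), antipode_idem (section_idem σ s hσ), nonempty_coind_equiv_Pe σ s hσ⟩

end Maschke

end Fermat.Agent.TW.Ind
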