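/-
S56 / (EC-G) leaf EC-R — helper1. REDUCTION TO IDEMPOTENTS: a multiplicative invariant of finite
`k[G]`-modules which is trivial on the summands `Pe e` of the regular module cut out by the
idempotents `e` of `k[B]` (`B ≤ G`, `|B|` invertible in `k`) is trivial on all `Fun(G ⧸ B, M)`.
-/
import Fermat.Agent.TW.ECR_helper1_Idem

set_option autoImplicit false
set_option linter.style.haveILetI false
set_option linter.unusedSectionVars false

namespace Fermat.Agent.TW.Ind

variable {k : Type} [Field k] [Finite k] {G : Type} [Group G] [Finite G]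

/-- **EC-R**, `incl`-form. -/
theorem chi_funMod_quotient_eq_one_of_idem {Γ : Type} [CommMonoid Γ]
    {χ : FinMod k (MonoidAlgebra k G) → Γ} (hχ : IsMulInv χ) (B : Subgroup G)
    [NeZero (Nat.card B : k)]
    (h : ∀ e : MonoidAlgebra k B, e * e = e → χ (Pe (incl B e)) = 1)
    (M : FinMod k (MonoidAlgebra k G)) : χ (funMod (G ⧸ B) M) = 1 := by
  rw [hχ.iso _ _ ⟨funEquivCoind M⟩]
  obtain ⟨L, hL, hLχ⟩ := exists_simple_list (resMod B M)
  have h1 := hLχ (fun N : FinMod k (MonoidAlgebra k B) => χ (coind B N)) hχ.comp_coind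
  change χ (coind B (resMod B M)) = _ at h1
  rw [h1]
  apply List.prod_eq_one
  intro x hx
  obtain ⟨S, hS, rfl⟩ := List.mem_map.1 hx
  haveI := hL S hS
  obtain ⟨e, he, ⟨iso⟩⟩ := exists_idem_coind_equiv (G := G) S
  change χ (coind B S) = 1
  rw [hχ.iso _ _ ⟨iso⟩]
  exact h e he

theorem incl_eq_mapDomain (B : Subgroup G) (e : MonoidAlgebra k B) :
    incl B e = MonoidAlgebra.mapDomain B.subtype e := rfl

/-- **EC-R**: reduction to idempotents (`mapDomain` form, Maschke hypothesis `|B| ≠ 0` in `k`). -/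
theorem isMulInv_funMod_quotient_eq_one {Γ : Type} [CommMonoid Γ]
    {χ : FinMod k (MonoidAlgebra k G) → Γ} (hχ : IsMulInv χ) (B : Subgroup G)
    (hB : (Nat.card B : k) ≠ 0)
    (h : ∀ e : MonoidAlgebra k B, e * e = e →
      χ (Pe (MonoidAlgebra.mapDomain B.subtype e)) = 1)
    (M : FinMod k (MonoidAlgebra k G)) : χ (funMod (G ⧸ B) M) = 1 := by
  haveI : NeZero (Nat.card B : k) := ⟨hB⟩
  exact chi_funMod_quotient_eq_one_of_idem hχ B h M

/-- **EC-R**, characteristic `p` form: `p ∤ |B|`. -/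
theorem isMulInv_funMod_quotient_eq_one_of_not_dvd (p : ℕ) [Fact p.Prime] [CharP k p]
    {Γ : Type} [CommMonoid Γ]
    {χ : FinMod k (MonoidAlgebra k G) → Γ} (hχ : IsMulInv χ) (B : Subgroup G)
    (hB : ¬ p ∣ Nat.card B)
    (h : ∀ e : MonoidAlgebra k B, e * e = e →
      χ (Pe (MonoidAlgebra.mapDomain B.subtype e)) = 1)
    (M : FinMod k (MonoidAlgebra k G)) : χ (funMod (G ⧸ B) M) = 1 :=
  isMulInv_funMod_quotient_eq_one hχ B
    (fun h0 => hB ((CharP.cast_eq_zero_iff k p (Nat.card B)).1 h0)) h M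

end Fermat.Agent.TW.Ind
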