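/-
S56 / (EC) engine, part 1 — helper3.  Mathlib only.
The multiplicative Euler characteristic `#Ext⁰ · #Ext² / #Ext¹` of an object of an abelian
category (with respect to a fixed source object `T`) is multiplicative in short exact sequences,
provided the `Ext` groups are finite in degrees `≤ 2` and `Ext³` vanishes.
-/
import Mathlib

set_option autoImplicit false
set_option linter.style.haveILetI false
set_option linter.unusedSectionVars false

open CategoryTheory CategoryTheory.Abelian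

namespace Fermat.Agent.TW.EC

section Count

/-- cardinality of the source of a homomorphism. -/
theorem card_eq_card_ker_mul_card_range {A B : Type*} [AddCommGroup A] [AddCommGroup B]
    (f : A →+ B) : Nat.card A = Nat.card f.ker * Nat.card f.range := by
  rw [AddSubgroup.card_eq_card_quotient_mul_card_addSubgroup f.ker,
    Nat.card_congr (QuotientAddGroup.quotientKerEquivRange f).toEquiv, mul_comm]

/-- the counting identity for one stage `E' → E → E'' → F` of a long exact sequence. -/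
theorem card_mul_card_eq {E' E E'' F : Type*} [AddCommGroup E'] [AddCommGroup E]
    [AddCommGroup E''] [AddCommGroup F] (a : E' →+ E) (b : E →+ E'') (δ : E'' →+ F)
    (hab : a.range = b.ker) (hbδ : b.range = δ.ker) :
    Nat.card E' * Nat.card E'' = Nat.card E * (Nat.card a.ker * Nat.card δ.range) := by
  rw [card_eq_card_ker_mul_card_range a, card_eq_card_ker_mul_card_range δ,
    card_eq_card_ker_mul_card_range b, hab, hbδ]
  ring

end Count

section Ext

universe w v u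

variable {𝒞 : Type u} [Category.{v} 𝒞] [Abelian 𝒞] [HasExt.{w} 𝒞]

/-- the multiplicative Euler characteristic `#Ext⁰(T,X) · #Ext²(T,X) / #Ext¹(T,X)`. -/
noncomputable def ecm (T X : 𝒞) : ℚ≥0 :=
  (Nat.card (Ext T X 0) : ℚ≥0) * (Nat.card (Ext T X 2) : ℚ≥0) / (Nat.card (Ext T X 1) : ℚ≥0)

variable (T : 𝒞) {S : ShortComplex 𝒞} (hS : S.ShortExact)

/-- `Extⁿ(T, X₁) → Extⁿ(T, X₂)` -/
noncomputable def lesA (n : ℕ) : Ext T S.X₁ n →+ Ext T S.X₂ n :=
  (Ext.mk₀ S.f).postcomp T (add_zero n)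

/-- `Extⁿ(T, X₂) → Extⁿ(T, X₃)` -/
noncomputable def lesB (n : ℕ) : Ext T S.X₂ n →+ Ext T S.X₃ n :=
  (Ext.mk₀ S.g).postcomp T (add_zero n)

include hS in
/-- `Extⁿ(T, X₃) → Extⁿ⁺¹(T, X₁)` -/
noncomputable def lesD (n : ℕ) : Ext T S.X₃ n →+ Ext T S.X₁ (n + 1) :=
  hS.extClass.postcomp T rfl

include hS in
theorem lesA_range (n : ℕ) : (lesA T (S := S) n).range = (lesB T (S := S) n).ker := by
  ext x
  simp only [AddMonoidHom.mem_range, AddMonoidHom.mem_ker]
  constructor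
  · rintro ⟨y, rfl⟩
    show (y.comp (Ext.mk₀ S.f) (add_zero n)).comp (Ext.mk₀ S.g) (add_zero n) = 0
    rw [Ext.comp_assoc_of_third_deg_zero, Ext.mk₀_comp_mk₀, S.zero, Ext.mk₀_zero, Ext.comp_zero]
  · intro hx
    exact Ext.covariant_sequence_exact₂ T hS x hx

theorem lesB_range (n : ℕ) : (lesB T (S := S) n).range = (lesD T hS n).ker := by
  ext x
  simp only [AddMonoidHom.mem_range, AddMonoidHom.mem_ker]
  constructor
  · rintro ⟨y, rfl⟩
    show (y.comp (Ext.mk₀ S.g) (add_zero n)).comp hS.extClass rfl = 0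
    rw [Ext.comp_assoc _ _ _ (add_zero n) (zero_add 1) (by omega), hS.comp_extClass, Ext.comp_zero]
  · intro hx
    exact Ext.covariant_sequence_exact₃ T hS x rfl hx

theorem lesD_range (n : ℕ) : (lesD T hS n).range = (lesA T (S := S) (n + 1)).ker := by
  ext x
  simp only [AddMonoidHom.mem_range, AddMonoidHom.mem_ker]
  constructor
  · rintro ⟨y, rfl⟩
    show (y.comp hS.extClass rfl).comp (Ext.mk₀ S.f) (add_zero (n + 1)) = 0
    rw [Ext.comp_assoc _ _ _ rfl (add_zero 1) (by omega), hS.extClass_comp, Ext.comp_zero]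
  · intro hx
    exact Ext.covariant_sequence_exact₁ T hS x hx rfl

include hS in
theorem lesA_zero_injective : Function.Injective (lesA T (S := S) 0) := by
  haveI := hS.mono_f
  intro x y hxy
  obtain ⟨f, rfl⟩ := (Ext.mk₀_bijective T S.X₁).2 x
  obtain ⟨g, rfl⟩ := (Ext.mk₀_bijective T S.X₁).2 y
  have h1 : (Ext.mk₀ f).comp (Ext.mk₀ S.f) (add_zero 0) =
      (Ext.mk₀ g).comp (Ext.mk₀ S.f) (add_zero 0) := hxy
  rw [Ext.mk₀_comp_mk₀, Ext.mk₀_comp_mk₀] at h1
  have h2 := (Ext.mk₀_bijective T S.X₂).1 h1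
  rw [(cancel_mono S.f).mp h2]

include hS in
/-- **multiplicativity of the Euler characteristic in short exact sequences.** -/
theorem ecm_mul_of_shortExact
    (hfin₁ : ∀ n, n ≤ 2 → Finite (Ext T S.X₁ n)) (hfin₂ : ∀ n, n ≤ 2 → Finite (Ext T S.X₂ n))
    (hfin₃ : ∀ n, n ≤ 2 → Finite (Ext T S.X₃ n)) (h3 : ∀ e : Ext T S.X₁ 3, e = 0) :
    ecm T S.X₂ = ecm T S.X₁ * ecm T S.X₃ := by
  have key : ∀ n, Nat.card (Ext T S.X₁ n) * Nat.card (Ext T S.X₃ n) =
      Nat.card (Ext T S.X₂ n) *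
        (Nat.card (lesA T (S := S) n).ker * Nat.card (lesA T (S := S) (n + 1)).ker) := by
    intro n
    rw [← lesD_range T hS n]
    exact card_mul_card_eq _ _ _ (lesA_range T hS n) (lesB_range T hS n)
  have hk0 : Nat.card (lesA T (S := S) 0).ker = 1 := by
    rw [(AddMonoidHom.ker_eq_bot_iff _).mpr (lesA_zero_injective T hS)]
    exact Nat.card_unique
  have hk3 : Nat.card (lesA T (S := S) 3).ker = 1 := by
    haveI : Subsingleton (Ext T S.X₁ 3) := ⟨fun x y => by rw [h3 x, h3 y]⟩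
    exact Nat.card_unique
  haveI := hfin₁ 0 (by omega); haveI := hfin₁ 1 (by omega); haveI := hfin₁ 2 (by omega)
  haveI := hfin₂ 0 (by omega); haveI := hfin₂ 1 (by omega); haveI := hfin₂ 2 (by omega)
  haveI := hfin₃ 0 (by omega); haveI := hfin₃ 1 (by omega); haveI := hfin₃ 2 (by omega)
  have hpos : ∀ (A : Type w) [AddCommGroup A] [Finite A], (Nat.card A : ℚ≥0) ≠ 0 := by
    intro A _ _
    exact_mod_cast (Nat.card_pos (α := A)).ne'
  have hκ1 : (Nat.card (lesA T (S := S) 1).ker : ℚ≥0) ≠ 0 := by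
    exact_mod_cast (Nat.card_pos (α := (lesA T (S := S) 1).ker)).ne'
  have hκ2 : (Nat.card (lesA T (S := S) 2).ker : ℚ≥0) ≠ 0 := by
    exact_mod_cast (Nat.card_pos (α := (lesA T (S := S) 2).ker)).ne'
  have k0 := key 0
  have k1 := key 1
  have k2 := key 2
  rw [hk0] at k0
  rw [hk3] at k2
  have k0' : (Nat.card (Ext T S.X₁ 0) : ℚ≥0) * Nat.card (Ext T S.X₃ 0) =
      Nat.card (Ext T S.X₂ 0) * (1 * Nat.card (lesA T (S := S) 1).ker) := by exact_mod_cast k0
  have k1' : (Nat.card (Ext T S.X₁ 1) : ℚ≥0) * Nat.card (Ext T S.X₃ 1) =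
      Nat.card (Ext T S.X₂ 1) *
        (Nat.card (lesA T (S := S) 1).ker * Nat.card (lesA T (S := S) 2).ker) := by
    exact_mod_cast k1
  have k2' : (Nat.card (Ext T S.X₁ 2) : ℚ≥0) * Nat.card (Ext T S.X₃ 2) =
      Nat.card (Ext T S.X₂ 2) * (Nat.card (lesA T (S := S) 2).ker * 1) := by exact_mod_cast k2
  unfold ecm
  have h11 := hpos (Ext T S.X₁ 1)
  have h21 := hpos (Ext T S.X₂ 1)
  have h31 := hpos (Ext T S.X₃ 1)
  rw [div_mul_div_comm, div_eq_div_iff h21 (mul_ne_zero h11 h31)]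
  have e1 : (Nat.card (Ext T S.X₁ 0) : ℚ≥0) * Nat.card (Ext T S.X₁ 2) *
      (Nat.card (Ext T S.X₃ 0) * Nat.card (Ext T S.X₃ 2)) =
      ((Nat.card (Ext T S.X₁ 0) : ℚ≥0) * Nat.card (Ext T S.X₃ 0)) *
        (Nat.card (Ext T S.X₁ 2) * Nat.card (Ext T S.X₃ 2)) := by ring
  rw [e1, k0', k2', k1']
  ring

omit hS in
/-- `Ext` groups of isomorphic targets. -/
noncomputable def extCongrRight {X Y : 𝒞} (e : X ≅ Y) (n : ℕ) : Ext T X n ≃ Ext T Y n where
  toFun x := x.comp (Ext.mk₀ e.hom) (add_zero n)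
  invFun y := y.comp (Ext.mk₀ e.inv) (add_zero n)
  left_inv x := by
    show (x.comp (Ext.mk₀ e.hom) (add_zero n)).comp (Ext.mk₀ e.inv) (add_zero n) = x
    rw [Ext.comp_assoc_of_third_deg_zero, Ext.mk₀_comp_mk₀, e.hom_inv_id, Ext.comp_mk₀_id]
  right_inv y := by
    show (y.comp (Ext.mk₀ e.inv) (add_zero n)).comp (Ext.mk₀ e.hom) (add_zero n) = y
    rw [Ext.comp_assoc_of_third_deg_zero, Ext.mk₀_comp_mk₀, e.inv_hom_id, Ext.comp_mk₀_id]

omit hS in
theorem ecm_congr {X Y : 𝒞} (e : X ≅ Y) : ecm T X = ecm T Y := by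
  unfold ecm
  rw [Nat.card_congr (extCongrRight T e 0), Nat.card_congr (extCongrRight T e 1),
    Nat.card_congr (extCongrRight T e 2)]

omit hS in
theorem ext_subsingleton_of_isZero {X : 𝒞} (h : Limits.IsZero X) (n : ℕ) :
    Subsingleton (Ext T X n) := by
  refine ⟨fun x y => ?_⟩
  have h0 : ∀ z : Ext T X n, z = 0 := by
    intro z
    rw [← Ext.comp_mk₀_id z, (Limits.IsZero.iff_id_eq_zero X).mp h, Ext.mk₀_zero, Ext.comp_zero]
  rw [h0 x, h0 y]

omit hS in
theorem ecm_of_isZero {X : 𝒞} (h : Limits.IsZero X) : ecm T X = 1 := by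
  unfold ecm
  haveI := ext_subsingleton_of_isZero T h 0
  haveI := ext_subsingleton_of_isZero T h 1
  haveI := ext_subsingleton_of_isZero T h 2
  simp [Nat.card_unique]

omit hS in
theorem ecm_ne_zero {X : 𝒞} (hfin : ∀ n, n ≤ 2 → Finite (Ext T X n)) : ecm T X ≠ 0 := by
  unfold ecm
  haveI := hfin 0 (by omega); haveI := hfin 1 (by omega); haveI := hfin 2 (by omega)
  have h0 : (Nat.card (Ext T X 0) : ℚ≥0) ≠ 0 := by exact_mod_cast (Nat.card_pos (α := Ext T X 0)).ne'
  have h1 : (Nat.card (Ext T X 1) : ℚ≥0) ≠ 0 := by exact_mod_cast (Nat.card_pos (α := Ext T X 1)).ne'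
  have h2 : (Nat.card (Ext T X 2) : ℚ≥0) ≠ 0 := by exact_mod_cast (Nat.card_pos (α := Ext T X 2)).ne'
  exact div_ne_zero (mul_ne_zero h0 h2) h1

end Ext

end Fermat.Agent.TW.EC
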