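/-
S56 / (EC) engine, part 2 — helper3.
The bridge from finite `𝔽_p[G]`-modules (`G` a finite quotient of `Γ` with open kernel) to smooth
representations of `(Γ, 𝒰)`.
-/
import Fermat.Agent.CFT.Sm.Compare_helper9
import Fermat.Agent.TW.Ind_helper3_Main
import Fermat.Agent.TW.ECEngine_helper3_Count

set_option autoImplicit false
set_option linter.style.haveILetI false
set_option linter.unusedSectionVars false

open CategoryTheory CategoryTheory.Limits CategoryTheory.Abelian

namespace Fermat.Agent.TW.EC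

open Fermat.Agent.CFT.Sm Fermat.Agent.TW.Ind

variable {Γ : Type} [Group Γ] {𝒰 : OpenBasis Γ} {p : ℕ} [hp : Fact p.Prime]
  {G : Type} [Group G] (π : Γ →* G)

/-- the representation of `Γ` on a `𝔽_p[G]`-module through `π : Γ → G`. -/
noncomputable def toRepρ (M : FinMod (ZMod p) (MonoidAlgebra (ZMod p) G)) :
    Representation ℤ Γ M where
  toFun g := (actL (MonoidAlgebra.of (ZMod p) G (π g)) M).toAddMonoidHom.toIntLinearMap
  map_one' := by
    apply LinearMap.ext
    intro m
    show MonoidAlgebra.of (ZMod p) G (π 1) • m = m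
    rw [map_one, map_one, one_smul]
  map_mul' g h := by
    apply LinearMap.ext
    intro m
    show MonoidAlgebra.of (ZMod p) G (π (g * h)) • m =
      MonoidAlgebra.of (ZMod p) G (π g) • MonoidAlgebra.of (ZMod p) G (π h) • m
    rw [map_mul, map_mul, mul_smul]

@[simp] lemma toRepρ_apply (M : FinMod (ZMod p) (MonoidAlgebra (ZMod p) G)) (g : Γ) (m : M) :
    toRepρ π M g m = MonoidAlgebra.of (ZMod p) G (π g) • m := rfl

/-- the smooth representation attached to a finite `𝔽_p[G]`-module. -/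
noncomputable def toSm (hπ : 𝒰.IsOpen π.ker) (M : FinMod (ZMod p) (MonoidAlgebra (ZMod p) G)) :
    SmRep ℤ 𝒰 :=
  ⟨Rep.of (toRepρ π M), fun m => by
    obtain ⟨U, hU, hUle⟩ := hπ
    refine ⟨U, hU, fun g hg => ?_⟩
    have : π g = 1 := hUle hg
    show toRepρ π M g m = m
    rw [toRepρ_apply, this, map_one, one_smul]⟩

@[simp] lemma toSm_ρ_apply (hπ : 𝒰.IsOpen π.ker)
    (M : FinMod (ZMod p) (MonoidAlgebra (ZMod p) G)) (g : Γ) (m : M) :
    (toSm π hπ M).obj.ρ g m = MonoidAlgebra.of (ZMod p) G (π g) • m := rfl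

/-- functoriality of `toSm`. -/
noncomputable def toSmMap (hπ : 𝒰.IsOpen π.ker)
    {M N : FinMod (ZMod p) (MonoidAlgebra (ZMod p) G)} (f : M →ₗ[MonoidAlgebra (ZMod p) G] N) :
    toSm π hπ M ⟶ toSm π hπ N :=
  ObjectProperty.homMk (Rep.ofHom (ρ := toRepρ π M) (σ := toRepρ π N)
    ⟨f.toAddMonoidHom.toIntLinearMap, fun g => by
      apply LinearMap.ext
      intro m
      show f (MonoidAlgebra.of (ZMod p) G (π g) • m) = MonoidAlgebra.of (ZMod p) G (π g) • f m
      rw [map_smul]⟩)

@[simp] lemma toSmMap_apply (hπ : 𝒰.IsOpen π.ker)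
    {M N : FinMod (ZMod p) (MonoidAlgebra (ZMod p) G)} (f : M →ₗ[MonoidAlgebra (ZMod p) G] N)
    (m : M) : (toSmMap π hπ f).hom.hom m = f m := rfl

/-- a morphism of smooth representations which is bijective on vectors is an isomorphism. -/
theorem isIso_of_bijective {k : Type} [CommRing k] {X Y : SmRep k 𝒰} (f : X ⟶ Y)
    (h : Function.Bijective f.hom.hom) : IsIso f := by
  haveI : Mono f := (mono_iff_injective f).mpr h.1
  haveI : Epi f := (epi_iff_surjective f).mpr h.2
  exact isIso_of_mono_of_epi f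

/-- the short exact sequence attached to a submodule. -/
noncomputable def toSmShortComplex (hπ : 𝒰.IsOpen π.ker)
    {M : FinMod (ZMod p) (MonoidAlgebra (ZMod p) G)}
    (N : Submodule (MonoidAlgebra (ZMod p) G) M) : ShortComplex (SmRep ℤ 𝒰) :=
  ShortComplex.mk (toSmMap π hπ (M := FinMod.sub N) (N := M) N.subtype)
    (toSmMap π hπ (M := M) (N := FinMod.quot N) N.mkQ) (by
      apply ObjectProperty.hom_ext
      apply Rep.hom_ext
      apply Representation.IntertwiningMap.ext
      apply LinearMap.ext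
      intro x
      show N.mkQ (N.subtype x) = 0
      simp)

theorem toSmShortComplex_shortExact (hπ : 𝒰.IsOpen π.ker)
    {M : FinMod (ZMod p) (MonoidAlgebra (ZMod p) G)}
    (N : Submodule (MonoidAlgebra (ZMod p) G) M) : (toSmShortComplex π hπ N).ShortExact := by
  rw [shortExact_iff]
  refine ⟨?_, ?_, ?_⟩
  · intro x y hxy
    exact Subtype.ext hxy
  · intro b hb
    have hb' : N.mkQ b = 0 := hb
    rw [Submodule.mkQ_apply, Submodule.Quotient.mk_eq_zero] at hb'
    exact ⟨⟨b, hb'⟩, rfl⟩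
  · intro y
    obtain ⟨x, rfl⟩ := N.mkQ_surjective y
    exact ⟨x, rfl⟩

/-- finite `p`-torsion smooth representations. -/
def IsFinTor (p : ℕ) {Γ' : Type} [Group Γ'] {𝒰' : OpenBasis Γ'} (X : SmRep ℤ 𝒰') : Prop :=
  Finite X.obj.V ∧ ∀ x : X.obj.V, p • x = 0

theorem isFinTor_toSm (hπ : 𝒰.IsOpen π.ker) (M : FinMod (ZMod p) (MonoidAlgebra (ZMod p) G)) :
    IsFinTor p (toSm π hπ M) := by
  refine ⟨inferInstanceAs (Finite M), fun x => ?_⟩
  show p • (show M from x) = 0
  rw [← Nat.cast_smul_eq_nsmul (ZMod p), ZMod.natCast_self, zero_smul]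

theorem isZero_toSm_of_subsingleton (hπ : 𝒰.IsOpen π.ker)
    (M : FinMod (ZMod p) (MonoidAlgebra (ZMod p) G)) (hM : Subsingleton M) :
    IsZero (toSm π hπ M) := by
  rw [IsZero.iff_id_eq_zero]
  apply ObjectProperty.hom_ext
  apply Rep.hom_ext
  apply Representation.IntertwiningMap.ext
  apply LinearMap.ext
  intro x
  exact Subsingleton.elim (α := M) _ _

/-- isomorphic modules give isomorphic smooth representations. -/
noncomputable def toSmIso (hπ : 𝒰.IsOpen π.ker)
    {M N : FinMod (ZMod p) (MonoidAlgebra (ZMod p) G)} (e : M ≃ₗ[MonoidAlgebra (ZMod p) G] N) :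
    toSm π hπ M ≅ toSm π hπ N :=
  haveI := isIso_of_bijective (toSmMap π hπ e.toLinearMap) e.bijective
  asIso (toSmMap π hπ e.toLinearMap)

end Fermat.Agent.TW.EC
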