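/-
S56 / (EC) engine, part 3 — helper3.
`toSm (funMod (G ⧸ B) M) ≅ coindSm_{π⁻¹ B}^Γ (Res (toSm M))`.
-/
import Fermat.Agent.TW.ECEngine_helper3_Bridge

set_option autoImplicit false
set_option linter.style.haveILetI false
set_option linter.unusedSectionVars false

open CategoryTheory CategoryTheory.Limits CategoryTheory.Abelian

namespace Fermat.Agent.TW.EC

open Fermat.Agent.CFT.Sm Fermat.Agent.TW.Ind

variable {Γ : Type} [Group Γ] {𝒰 : OpenBasis Γ} {p : ℕ} [hp : Fact p.Prime]
  {G : Type} [Group G] [Finite G] (π : Γ →* G) (hπ : 𝒰.IsOpen π.ker)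
  (B : Subgroup G) (M : FinMod (ZMod p) (MonoidAlgebra (ZMod p) G))

/-- the function `γ ↦ γ · F(γ⁻¹ B)` attached to `F : G ⧸ B → M`. -/
noncomputable def coindFn (F : funMod (G ⧸ B) M) (γ : Γ) : M :=
  MonoidAlgebra.of (ZMod p) G (π γ) • funMod.toFun' F ((π γ)⁻¹ • ((1 : G) : G ⧸ B))

include hπ in
lemma coindFn_smooth (F : funMod (G ⧸ B) M) :
    ∃ U ∈ 𝒰.sets, ∀ (h : Γ), ∀ u ∈ U, coindFn π B M F (h * u) = coindFn π B M F h := by
  obtain ⟨U, hU, hUle⟩ := hπ
  refine ⟨U, hU, fun h u hu => ?_⟩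
  have : π u = 1 := hUle hu
  unfold coindFn
  rw [map_mul, this, mul_one]

lemma coindFn_equivariant (F : funMod (G ⧸ B) M) (a : B.comap π) (h : Γ) :
    coindFn π B M F ((B.comap π).subtype a * h) =
      (resSub (toSm π hπ M) (B.comap π)).obj.ρ a (coindFn π B M F h) := by
  show coindFn π B M F ((a : Γ) * h) = MonoidAlgebra.of (ZMod p) G (π (a : Γ)) • coindFn π B M F h
  unfold coindFn
  rw [map_mul, map_mul, mul_smul]
  congr 2
  rw [mul_inv_rev, mul_smul]
  congr 1
  have ha : π (a : Γ) ∈ B := a.2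
  rw [MulAction.Quotient.smul_mk, smul_eq_mul, mul_one]
  congr 1
  rw [QuotientGroup.eq]
  simpa using ha

lemma coindFn_add (F F' : funMod (G ⧸ B) M) (γ : Γ) :
    coindFn π B M (F + F') γ = coindFn π B M F γ + coindFn π B M F' γ := by
  unfold coindFn
  rw [← smul_add]
  rfl

lemma coindFn_smul_of (g : Γ) (F : funMod (G ⧸ B) M) (γ : Γ) :
    coindFn π B M (MonoidAlgebra.of (ZMod p) G (π g) • F) γ = coindFn π B M F (γ * g) := by
  unfold coindFn
  rw [funMod_of_smul_apply, map_mul, map_mul, mul_smul, mul_inv_rev, mul_smul]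

/-- the coinduced object. -/
noncomputable abbrev coindObj : SmRep ℤ 𝒰 :=
  (coindSm ℤ 𝒰 (𝒰.sub (B.comap π)) (B.comap π).subtype).obj (resSub (toSm π hπ M) (B.comap π))

/-- the comparison map on vectors. -/
noncomputable def coindVec (F : funMod (G ⧸ B) M) : (coindObj π hπ B M).obj.V :=
  coindSmMk (B.comap π).subtype (coindFn π B M F) (coindFn_equivariant π hπ B M F)
    (coindFn_smooth π hπ B M F)

lemma coindSmFun_coindVec (F : funMod (G ⧸ B) M) :
    coindSmFun (B.comap π).subtype (coindVec π hπ B M F) = coindFn π B M F := rfl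

/-- the comparison map on vectors, as an additive map. -/
noncomputable def coindVecAddHom : funMod (G ⧸ B) M →+ (coindObj π hπ B M).obj.V :=
  AddMonoidHom.mk' (coindVec π hπ B M) (fun F F' => by
    apply coindSmFun_injective
    funext γ
    show coindFn π B M (F + F') γ = coindFn π B M F γ + coindFn π B M F' γ
    exact coindFn_add π B M F F' γ)

/-- the comparison morphism `toSm (Fun(G ⧸ B, M)) ⟶ coind (Res (toSm M))`. -/
noncomputable def coindHom : toSm π hπ (funMod (G ⧸ B) M) ⟶ coindObj π hπ B M :=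
  ObjectProperty.homMk (Rep.ofHom (ρ := toRepρ π (funMod (G ⧸ B) M))
    (σ := (coindObj π hπ B M).obj.ρ)
    ⟨(coindVecAddHom π hπ B M).toIntLinearMap, fun g => by
      apply LinearMap.ext
      intro F
      apply coindSmFun_injective
      funext γ
      show coindFn π B M (MonoidAlgebra.of (ZMod p) G (π g) • F) γ = coindFn π B M F (γ * g)
      exact coindFn_smul_of π B M g F γ⟩)

lemma coindHom_apply (F : funMod (G ⧸ B) M) :
    (coindHom π hπ B M).hom.hom F = coindVec π hπ B M F := rfl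

theorem coindHom_injective (hsurj : Function.Surjective π) :
    Function.Injective (coindHom π hπ B M).hom.hom := by
  rw [injective_iff_map_eq_zero]
  intro F hF
  have h1 : ∀ γ : Γ, coindFn π B M F γ = 0 := by
    intro γ
    have := congrArg (fun f => coindSmFun (B.comap π).subtype f γ) hF
    exact this
  apply funMod_ext
  intro q
  obtain ⟨x, rfl⟩ := QuotientGroup.mk_surjective q
  obtain ⟨γ, hγ⟩ := hsurj x⁻¹
  have h2 := h1 γ
  unfold coindFn at h2
  rw [hγ, inv_inv, MulAction.Quotient.smul_mk, smul_eq_mul, mul_one] at h2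
  have h3 := congrArg (fun m => MonoidAlgebra.of (ZMod p) G x • m) h2
  simp only [smul_zero] at h3
  rw [← mul_smul, ← map_mul, mul_inv_cancel, map_one, one_smul] at h3
  exact h3

theorem coindHom_surjective (hsurj : Function.Surjective π) :
    Function.Surjective (coindHom π hπ B M).hom.hom := by
  intro f
  set φ : Γ → M := coindSmFun (B.comap π).subtype f with hφ
  have hφeq : ∀ (a : B.comap π) (h : Γ), φ ((a : Γ) * h) =
      MonoidAlgebra.of (ZMod p) G (π (a : Γ)) • φ h := fun a h =>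
    coindSmFun_equivariant (B.comap π).subtype f a h
  let s : G → Γ := Function.surjInv hsurj
  have hs : ∀ x, π (s x) = x := Function.surjInv_eq hsurj
  let F₀ : G ⧸ B → M := fun q => MonoidAlgebra.of (ZMod p) G q.out • φ (s q.out)⁻¹
  let F : funMod (G ⧸ B) M := (funRep (G ⧸ B) M).asModuleEquiv.symm F₀
  have hF : ∀ q, funMod.toFun' F q = F₀ q := fun q => rfl
  refine ⟨F, ?_⟩
  apply coindSmFun_injective
  funext γ
  show coindFn π B M F γ = φ γ
  unfold coindFn
  rw [hF, MulAction.Quotient.smul_mk, smul_eq_mul, mul_one]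
  show MonoidAlgebra.of (ZMod p) G (π γ) •
    (MonoidAlgebra.of (ZMod p) G (((π γ)⁻¹ : G) : G ⧸ B).out •
      φ (s (((π γ)⁻¹ : G) : G ⧸ B).out)⁻¹) = φ γ
  obtain ⟨b, hb⟩ := QuotientGroup.mk_out_eq_mul B (π γ)⁻¹
  set x := (((π γ)⁻¹ : G) : G ⧸ B).out with hx
  -- `x = (π γ)⁻¹ * b`
  have hxb : x = (π γ)⁻¹ * (b : G) := hb
  set σ := s x with hσ
  have hπσ : π σ = x := hs x
  -- `v = γ * σ ∈ π⁻¹ B`
  have hv : γ * σ ∈ B.comap π := by
    rw [Subgroup.mem_comap, map_mul, hπσ, hxb, mul_inv_cancel_left]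
    exact b.2
  have h1 : φ σ⁻¹ = MonoidAlgebra.of (ZMod p) G (π (γ * σ)⁻¹) • φ γ := by
    have := hφeq ⟨(γ * σ)⁻¹, inv_mem hv⟩ γ
    rw [show ((⟨(γ * σ)⁻¹, inv_mem hv⟩ : B.comap π) : Γ) * γ = σ⁻¹ by
      show (γ * σ)⁻¹ * γ = σ⁻¹
      group] at this
    exact this
  rw [h1, ← mul_smul, ← mul_smul, ← map_mul, ← map_mul]
  have h2 : π γ * x * π (γ * σ)⁻¹ = 1 := by
    rw [map_inv, map_mul, hπσ, mul_inv_eq_one]
  rw [h2, map_one, one_smul]

/-- `toSm (Fun(G ⧸ B, M)) ≅ coind (Res (toSm M))`. -/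
noncomputable def coindIso (hsurj : Function.Surjective π) :
    toSm π hπ (funMod (G ⧸ B) M) ≅ coindObj π hπ B M :=
  haveI := isIso_of_bijective (coindHom π hπ B M)
    ⟨coindHom_injective π hπ B M hsurj, coindHom_surjective π hπ B M hsurj⟩
  asIso (coindHom π hπ B M)

end Fermat.Agent.TW.EC
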