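/-
S56 / (EC) engine, part 4 — helper3.
The abstract Euler characteristic engine: an "expected value" `τ` which is multiplicative in short
exact sequences agrees with the Euler characteristic `#H⁰ · #H² / #H¹` on all finite `p`-torsion
smooth representations as soon as it does so on the modules coinduced from subgroups `V ⊇ U`
(`U` basic open, `V / U` cyclic of order prime to `p`) and trivial on `U`.
-/
import Fermat.Agent.TW.ECEngine_helper3_Coind

set_option autoImplicit false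
set_option linter.style.haveILetI false
set_option linter.unusedSectionVars false

open CategoryTheory CategoryTheory.Limits CategoryTheory.Abelian

namespace Fermat.Agent.TW.EC

open Fermat.Agent.CFT.Sm Fermat.Agent.TW.Ind

variable {Γ : Type} [Group Γ] (𝒰 : OpenBasis Γ) (p : ℕ) [hp : Fact p.Prime]

/-- the Euler characteristic `#H⁰(Γ, X) · #H²(Γ, X) / #H¹(Γ, X)` of a smooth representation. -/
noncomputable def ec (X : SmRep ℤ 𝒰) : ℚ≥0 := ecm (smUnit ℤ 𝒰) X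

/-- finiteness of cohomology and cohomological `p`-dimension `≤ 2`. -/
structure CohFinite : Prop where
  fin : ∀ X : SmRep ℤ 𝒰, IsFinTor p X → ∀ n, n ≤ 2 → Finite (Ext (smUnit ℤ 𝒰) X n)
  vanish : ∀ X : SmRep ℤ 𝒰, IsFinTor p X → ∀ e : Ext (smUnit ℤ 𝒰) X 3, e = 0

/-- an "expected Euler characteristic". -/
structure IsExpected (τ : SmRep ℤ 𝒰 → ℚ≥0) : Prop where
  iso : ∀ X Y : SmRep ℤ 𝒰, IsFinTor p X → Nonempty (X ≅ Y) → τ X = τ Y
  mul : ∀ S : ShortComplex (SmRep ℤ 𝒰), S.ShortExact → IsFinTor p S.X₂ →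
    τ S.X₂ = τ S.X₁ * τ S.X₃
  ne_zero : ∀ X : SmRep ℤ 𝒰, IsFinTor p X → τ X ≠ 0

variable {𝒰 p}

theorem ec_congr {X Y : SmRep ℤ 𝒰} (e : X ≅ Y) : ec 𝒰 X = ec 𝒰 Y := ecm_congr _ e

section Invariant

variable {G : Type} [Group G] [Finite G] (π : Γ →* G) (hπ : 𝒰.IsOpen π.ker)
  (hc : CohFinite 𝒰 p) {τ : SmRep ℤ 𝒰 → ℚ≥0} (hτ : IsExpected 𝒰 p τ)

/-- the quotient invariant on finite `𝔽_p[G]`-modules. -/
noncomputable def quotInv (τ : SmRep ℤ 𝒰 → ℚ≥0)
    (M : FinMod (ZMod p) (MonoidAlgebra (ZMod p) G)) : ℚ≥0 :=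
  ec 𝒰 (toSm π hπ M) / τ (toSm π hπ M)

include hc hτ in
theorem isMulInv_quotInv : IsMulInv (quotInv (p := p) π hπ τ) where
  iso M N := by
    rintro ⟨e⟩
    unfold quotInv
    rw [ec_congr (toSmIso π hπ e), hτ.iso _ _ (isFinTor_toSm π hπ M) ⟨toSmIso π hπ e⟩]
  mul M N := by
    unfold quotInv
    have hS := toSmShortComplex_shortExact π hπ N
    have f1 : IsFinTor p (toSmShortComplex π hπ N).X₁ := isFinTor_toSm π hπ (FinMod.sub N)
    have f2 : IsFinTor p (toSmShortComplex π hπ N).X₂ := isFinTor_toSm π hπ M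
    have f3 : IsFinTor p (toSmShortComplex π hπ N).X₃ := isFinTor_toSm π hπ (FinMod.quot N)
    have h1' : ecm (smUnit ℤ 𝒰) (toSmShortComplex π hπ N).X₂ =
        ecm (smUnit ℤ 𝒰) (toSmShortComplex π hπ N).X₁ *
          ecm (smUnit ℤ 𝒰) (toSmShortComplex π hπ N).X₃ :=
      ecm_mul_of_shortExact (smUnit ℤ 𝒰) (S := toSmShortComplex π hπ N) hS
        (hc.fin (toSmShortComplex π hπ N).X₁ f1) (hc.fin (toSmShortComplex π hπ N).X₂ f2)
        (hc.fin (toSmShortComplex π hπ N).X₃ f3) (hc.vanish (toSmShortComplex π hπ N).X₁ f1)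
    have h1 : ec 𝒰 (toSm π hπ M) =
        ec 𝒰 (toSm π hπ (FinMod.sub N)) * ec 𝒰 (toSm π hπ (FinMod.quot N)) := h1'
    have h2 : τ (toSm π hπ M) =
        τ (toSm π hπ (FinMod.sub N)) * τ (toSm π hπ (FinMod.quot N)) :=
      hτ.mul (toSmShortComplex π hπ N) hS f2
    rw [h1, h2, mul_div_mul_comm]
  zero M hM := by
    unfold quotInv
    have hz := isZero_toSm_of_subsingleton π hπ M hM
    have h1 : ec 𝒰 (toSm π hπ M) = 1 := ecm_of_isZero _ hz
    -- `τ(0) = 1`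
    have hS := toSmShortComplex_shortExact π hπ (⊤ : Submodule (MonoidAlgebra (ZMod p) G) M)
    have h2 := hτ.mul (toSmShortComplex π hπ (⊤ : Submodule (MonoidAlgebra (ZMod p) G) M)) hS
      (isFinTor_toSm π hπ M)
    have e1 : τ (toSm π hπ (FinMod.sub (⊤ : Submodule (MonoidAlgebra (ZMod p) G) M))) =
        τ (toSm π hπ M) :=
      hτ.iso _ _ (isFinTor_toSm π hπ _) ⟨toSmIso π hπ Submodule.topEquiv⟩
    have e2 : τ (toSm π hπ (FinMod.quot (⊤ : Submodule (MonoidAlgebra (ZMod p) G) M))) =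
        τ (toSm π hπ M) := by
      refine hτ.iso _ _ (isFinTor_toSm π hπ _) ⟨?_⟩
      have hz' := isZero_toSm_of_subsingleton π hπ
        (FinMod.quot (⊤ : Submodule (MonoidAlgebra (ZMod p) G) M))
        (by
          show Subsingleton (M ⧸ (⊤ : Submodule (MonoidAlgebra (ZMod p) G) M))
          infer_instance)
      exact hz'.iso hz
    change τ (toSm π hπ M) = τ (toSm π hπ (FinMod.sub ⊤)) * τ (toSm π hπ (FinMod.quot ⊤)) at h2
    rw [e1, e2] at h2
    have h3 : τ (toSm π hπ M) = 1 := by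
      have hne := hτ.ne_zero _ (isFinTor_toSm π hπ M)
      have : τ (toSm π hπ M) * 1 = τ (toSm π hπ M) * τ (toSm π hπ M) := by rw [mul_one]; exact h2
      exact (mul_left_cancel₀ hne this).symm
    rw [h1, h3, div_one]

include hc hτ in
/-- the engine on the image of `toSm`. -/
theorem ec_toSm_eq (hsurj : Function.Surjective π)
    (hcyc : ∀ B : Subgroup G, IsCyclic B → ¬ p ∣ Nat.card B →
      ∀ Y : SmRep ℤ (𝒰.sub (B.comap π)), IsFinTor p Y →
        (∀ u : B.comap π, (u : Γ) ∈ π.ker → ∀ y : Y.obj.V, Y.obj.ρ u y = y) →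
        ec 𝒰 ((coindSm ℤ 𝒰 (𝒰.sub (B.comap π)) (B.comap π).subtype).obj Y) =
          τ ((coindSm ℤ 𝒰 (𝒰.sub (B.comap π)) (B.comap π).subtype).obj Y))
    (M : FinMod (ZMod p) (MonoidAlgebra (ZMod p) G)) :
    ec 𝒰 (toSm π hπ M) = τ (toSm π hπ M) := by
  have hone : quotInv (p := p) π hπ τ M = 1 := by
    refine artin_induction p (fun x n hn hx => (pow_eq_one_iff_of_nonneg (zero_le (a := x)) hn).mp hx)
      (quotInv (p := p) π hπ τ) (isMulInv_quotInv π hπ hc hτ) ?_ M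
    intro B hB hpB M'
    unfold quotInv
    have ft := isFinTor_toSm π hπ (funMod (G ⧸ B) M')
    have e1 : ec 𝒰 (toSm π hπ (funMod (G ⧸ B) M')) = ec 𝒰 (coindObj π hπ B M') :=
      ec_congr (coindIso π hπ B M' hsurj)
    have e2 : τ (toSm π hπ (funMod (G ⧸ B) M')) = τ (coindObj π hπ B M') :=
      hτ.iso _ _ ft ⟨coindIso π hπ B M' hsurj⟩
    have e3 : ec 𝒰 (coindObj π hπ B M') = τ (coindObj π hπ B M') := by
      refine hcyc B hB hpB (resSub (toSm π hπ M') (B.comap π)) (isFinTor_toSm π hπ M') ?_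
      intro u hu y
      show MonoidAlgebra.of (ZMod p) G (π (u : Γ)) • (show M' from y) = y
      rw [MonoidHom.mem_ker.mp hu, map_one, one_smul]
    rw [e1, e3, ← e2]
    exact div_self (hτ.ne_zero _ ft)
  unfold quotInv at hone
  exact (div_eq_one_iff_eq (hτ.ne_zero _ (isFinTor_toSm π hπ M))).mp hone

end Invariant

section General

/-- all additive endomorphisms are `ZMod p`-linear. -/
def toZModEnd (p : ℕ) (V : Type) [AddCommGroup V] [Module ℤ V] [Module (ZMod p) V] :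
    (V →ₗ[ℤ] V) →* (V →ₗ[ZMod p] V) where
  toFun f := f.toAddMonoidHom.toZModLinearMap p
  map_one' := LinearMap.ext fun _ => rfl
  map_mul' _ _ := LinearMap.ext fun _ => rfl

section Canonical

variable {V : Type} [AddCommGroup V] (ρ : Representation ℤ Γ V)

/-- the `ZMod p`-linear representation of a `p`-torsion representation. -/
noncomputable def zmodRep [Module (ZMod p) V] : Representation (ZMod p) Γ V :=
  (toZModEnd p V).comp ρ

/-- the representation of the quotient `Γ ⧸ U`. -/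
noncomputable def zmodRepQuot [Module (ZMod p) V] (U : Subgroup Γ)
    [U.Normal] (hU : ∀ x : V, ∀ g ∈ U, ρ g x = x) :
    Representation (ZMod p) (Γ ⧸ U) V :=
  QuotientGroup.lift U (zmodRep (p := p) ρ) (fun g hg => by
    apply LinearMap.ext
    intro x
    exact hU x g hg)

lemma zmodRepQuot_mk [Module (ZMod p) V] (U : Subgroup Γ)
    [U.Normal] (hU : ∀ x : V, ∀ g ∈ U, ρ g x = x) (g : Γ) (x : V) :
    zmodRepQuot (p := p) ρ U hU (QuotientGroup.mk' U g) x = ρ g x := rfl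

/-- the finite module attached to a finite `p`-torsion representation. -/
noncomputable def finModOf [Finite V] [Module (ZMod p) V]
    (U : Subgroup Γ) [U.Normal] (hU : ∀ x : V, ∀ g ∈ U, ρ g x = x) :
    FinMod (ZMod p) (MonoidAlgebra (ZMod p) (Γ ⧸ U)) :=
  haveI : Finite (zmodRepQuot (p := p) ρ U hU).asModule := inferInstanceAs (Finite V)
  FinMod.of (ZMod p) (MonoidAlgebra (ZMod p) (Γ ⧸ U)) (zmodRepQuot (p := p) ρ U hU).asModule

/-- the comparison morphism `toSm (finModOf X) ⟶ X`. -/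
noncomputable def finModOfHom [Finite V] [Module (ZMod p) V]
    (U : Subgroup Γ) [U.Normal] (hU : ∀ x : V, ∀ g ∈ U, ρ g x = x)
    (hπ : 𝒰.IsOpen (QuotientGroup.mk' U).ker) (hsm : smoothProp ℤ 𝒰 (Rep.of ρ)) :
    toSm (QuotientGroup.mk' U) hπ (finModOf (p := p) ρ U hU) ⟶ (⟨Rep.of ρ, hsm⟩ : SmRep ℤ 𝒰) :=
  ObjectProperty.homMk (Rep.ofHom
    (ρ := toRepρ (QuotientGroup.mk' U) (finModOf (p := p) ρ U hU)) (σ := ρ)
    ⟨(zmodRepQuot (p := p) ρ U hU).asModuleEquiv.toLinearMap.toAddMonoidHom.toIntLinearMap,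
      fun g => by
        apply LinearMap.ext
        intro m
        have := (zmodRepQuot (p := p) ρ U hU).asModuleEquiv_map_smul
          (MonoidAlgebra.of (ZMod p) (Γ ⧸ U) (QuotientGroup.mk' U g))
          (show (zmodRepQuot (p := p) ρ U hU).asModule from m)
        rw [Representation.asAlgebraHom_of] at this
        exact this⟩)

lemma finModOfHom_bijective [Finite V] [Module (ZMod p) V]
    (U : Subgroup Γ) [U.Normal] (hU : ∀ x : V, ∀ g ∈ U, ρ g x = x)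
    (hπ : 𝒰.IsOpen (QuotientGroup.mk' U).ker) (hsm : smoothProp ℤ 𝒰 (Rep.of ρ)) :
    Function.Bijective (finModOfHom (p := p) ρ U hU hπ hsm).hom.hom :=
  (zmodRepQuot (p := p) ρ U hU).asModuleEquiv.bijective

end Canonical

/-- every finite `p`-torsion smooth representation comes from a finite `𝔽_p[Γ ⧸ U]`-module. -/
theorem exists_toSm_iso (U₁ : Subgroup Γ) (hU₁ : 𝒰.IsOpen U₁) (X : SmRep ℤ 𝒰)
    (hX : IsFinTor p X) :
    ∃ (U : Subgroup Γ) (_ : U ∈ 𝒰.sets) (_ : U ≤ U₁) (_ : U.Normal)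
      (hπ : 𝒰.IsOpen (QuotientGroup.mk' U).ker)
      (M : FinMod (ZMod p) (MonoidAlgebra (ZMod p) (Γ ⧸ U))),
      Nonempty (toSm (QuotientGroup.mk' U) hπ M ≅ X) := by
  obtain ⟨A, hA⟩ := X
  obtain ⟨V, ρ⟩ := A
  rename_i hV1 hV2
  obtain rfl : hV2 = AddCommGroup.toIntModule V := Subsingleton.elim _ _
  haveI : Finite V := hX.1
  obtain ⟨U₀, hU₀, hU₀fix⟩ := IsSmooth.exists_mem_forall_fixed (A := Rep.of ρ) hA (fun x : V => x)
  obtain ⟨U₂, hU₂, hU₂le⟩ := hU₁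
  obtain ⟨U, hU, hUle⟩ := 𝒰.directed U₀ hU₀ U₂ hU₂
  have hUfix : ∀ x : V, ∀ g ∈ U, ρ g x = x := fun x g hg => hU₀fix x g (hUle hg).1
  have hUU₁ : U ≤ U₁ := fun g hg => hU₂le (hUle hg).2
  haveI hUn : U.Normal := 𝒰.normal U hU
  have hπ : 𝒰.IsOpen (QuotientGroup.mk' U).ker := by
    rw [QuotientGroup.ker_mk']
    exact 𝒰.isOpen_of_mem hU
  letI : Module (ZMod p) V := AddCommGroup.zmodModule hX.2
  refine ⟨U, hU, hUU₁, hUn, hπ, finModOf (p := p) ρ U hUfix, ⟨?_⟩⟩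
  haveI : IsIso (finModOfHom (p := p) ρ U hUfix hπ hA) :=
    isIso_of_bijective _ (finModOfHom_bijective (p := p) ρ U hUfix hπ hA)
  exact asIso (finModOfHom (p := p) ρ U hUfix hπ hA)

variable (hc : CohFinite 𝒰 p) {τ : SmRep ℤ 𝒰 → ℚ≥0} (hτ : IsExpected 𝒰 p τ)

include hc hτ in
/-- **The Euler characteristic engine.** -/
theorem ec_eq_of_cyclic (U₁ : Subgroup Γ) (hU₁ : 𝒰.IsOpen U₁)
    (hcyc : ∀ (U : Subgroup Γ) (_ : U ∈ 𝒰.sets) (_ : U ≤ U₁) (V : Subgroup Γ) (_ : U ≤ V)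
      (g : Γ) (_ : g ∈ V) (_ : ∀ v ∈ V, ∃ n : ℤ, v * g ^ n ∈ U)
      (m : ℕ) (_ : ¬ p ∣ m) (_ : g ^ m ∈ U)
      (Y : SmRep ℤ (𝒰.sub V)), IsFinTor p Y →
        (∀ u : V, (u : Γ) ∈ U → ∀ y : Y.obj.V, Y.obj.ρ u y = y) →
        ec 𝒰 ((coindSm ℤ 𝒰 (𝒰.sub V) V.subtype).obj Y) =
          τ ((coindSm ℤ 𝒰 (𝒰.sub V) V.subtype).obj Y))
    (X : SmRep ℤ 𝒰) (hX : IsFinTor p X) : ec 𝒰 X = τ X := by
  obtain ⟨U, hU, hUU₁, hUn, hπ, M, ⟨e⟩⟩ := exists_toSm_iso U₁ hU₁ X hX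
  haveI : U.FiniteIndex := 𝒰.finiteIndex U hU
  haveI : Finite (Γ ⧸ U) := Subgroup.finite_quotient_of_finiteIndex
  rw [← ec_congr e, ← hτ.iso _ _ (isFinTor_toSm _ hπ M) ⟨e⟩]
  refine ec_toSm_eq (QuotientGroup.mk' U) hπ hc hτ (QuotientGroup.mk'_surjective U) ?_ M
  intro B hB hpB Y hY hYU
  obtain ⟨b, hb⟩ := hB.exists_generator
  obtain ⟨g, hg⟩ := QuotientGroup.mk'_surjective U (b : Γ ⧸ U)
  have hgV : g ∈ B.comap (QuotientGroup.mk' U) := by
    rw [Subgroup.mem_comap, hg]; exact b.2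
  refine hcyc U hU hUU₁ (B.comap (QuotientGroup.mk' U)) ?_ g hgV ?_ (Nat.card B) hpB ?_ Y hY ?_
  · intro u hu
    rw [Subgroup.mem_comap]
    have : QuotientGroup.mk' U u = 1 := by
      rw [← MonoidHom.mem_ker, QuotientGroup.ker_mk']; exact hu
    rw [this]; exact one_mem _
  · intro v hv
    have hv' : (⟨QuotientGroup.mk' U v, hv⟩ : B) ∈ Subgroup.zpowers b := hb _
    obtain ⟨n, hn⟩ := Subgroup.mem_zpowers_iff.mp hv'
    refine ⟨-n, ?_⟩
    rw [← QuotientGroup.eq_one_iff, QuotientGroup.mk_mul, QuotientGroup.mk_zpow]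
    show QuotientGroup.mk' U v * (QuotientGroup.mk' U g) ^ (-n) = 1
    rw [hg]
    have hn' : (b : Γ ⧸ U) ^ n = QuotientGroup.mk' U v := by
      have := congrArg (Subtype.val) hn
      simpa using this
    rw [← hn', zpow_neg, mul_inv_cancel]
  · rw [← QuotientGroup.eq_one_iff, QuotientGroup.mk_pow]
    show (QuotientGroup.mk' U g) ^ Nat.card B = 1
    rw [hg]
    have : b ^ Nat.card B = 1 := pow_card_eq_one'
    rw [← Subgroup.coe_pow, this, Subgroup.coe_one]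
  · intro u hu y
    refine hYU u ?_ y
    rw [QuotientGroup.ker_mk']; exact hu

end General

end Fermat.Agent.TW.EC
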