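/-
S56 / (EC-G), leaf (EC-T) — helper4.
The expected value `Z ↦ (#Z^{c})⁻¹` (`c` an involution, `p` odd) is multiplicative on short exact
sequences of finite `p`-torsion smooth representations: `IsExpected 𝒰 p τ'`.
-/
import Fermat.Agent.TW.ECEngine_helper3_Main

set_option autoImplicit false
set_option linter.style.haveILetI false
set_option linter.unusedSectionVars false

open CategoryTheory

namespace Fermat.Agent.TW.EC

open Fermat.Agent.CFT.Sm

section Abstract

variable {A B C : Type*} [AddCommGroup A] [AddCommGroup B] [AddCommGroup C]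

/-- the subgroup of fixed points of an additive endomorphism. -/
def fixedAddSub (s : A →+ A) : AddSubgroup A where
  carrier := {a | s a = a}
  zero_mem' := map_zero s
  add_mem' {a b} ha hb := by
    show s (a + b) = a + b
    rw [map_add, ha, hb]
  neg_mem' {a} ha := by
    show s (-a) = -a
    rw [map_neg, ha]

theorem mem_fixedAddSub (s : A →+ A) (a : A) : a ∈ fixedAddSub s ↔ s a = a := Iff.rfl

/-- for an odd `p`, an involution `s` on a `p`-torsion group and a surjection onto a group with a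
compatible endomorphism: the fixed points surject; the cardinality of fixed points is
multiplicative along a short exact sequence. -/
theorem card_fixed_eq_mul (p : ℕ) (hodd : Odd p) [Finite B] (hB : ∀ b : B, p • b = 0)
    (f : A →+ B) (g : B →+ C) (hf : Function.Injective f)
    (hex : ∀ b, g b = 0 → ∃ a, f a = b) (hgf : ∀ a, g (f a) = 0) (hg : Function.Surjective g)
    (sA : A →+ A) (sB : B →+ B) (sC : C →+ C) (hsB : ∀ b, sB (sB b) = b)
    (hfs : ∀ a, f (sA a) = sB (f a)) (hgs : ∀ b, g (sB b) = sC (g b)) :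
    Nat.card {b : B // sB b = b} =
      Nat.card {a : A // sA a = a} * Nat.card {c : C // sC c = c} := by
  obtain ⟨m, hm⟩ := hodd
  -- `p • c = 0` on `C`
  have hC : ∀ c : C, p • c = 0 := fun c => by
    obtain ⟨b, rfl⟩ := hg c
    rw [← map_nsmul, hB, map_zero]
  -- the restricted map on fixed points
  let g' : fixedAddSub sB →+ fixedAddSub sC :=
    { toFun := fun b => ⟨g b.1, by
        show sC (g b.1) = g b.1
        rw [← hgs, b.2]⟩
      map_zero' := Subtype.ext (map_zero g)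
      map_add' := fun x y => Subtype.ext (map_add g x.1 y.1) }
  have hg'surj : Function.Surjective g' := by
    rintro ⟨c, hc⟩
    obtain ⟨b, rfl⟩ := hg c
    have hc' : sC (g b) = g b := hc
    -- `b' = (m + 1) • (b + s b)`
    refine ⟨⟨(m + 1) • (b + sB b), ?_⟩, ?_⟩
    · show sB ((m + 1) • (b + sB b)) = (m + 1) • (b + sB b)
      rw [map_nsmul, map_add, hsB, add_comm (sB b) b]
    · apply Subtype.ext
      show g ((m + 1) • (b + sB b)) = g b
      rw [map_nsmul, map_add, hgs, hc', ← two_nsmul, ← mul_nsmul']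
      have h1 : 2 * (m + 1) = p + 1 := by omega
      rw [mul_comm, h1, add_nsmul, hC, zero_add, one_nsmul]
  -- the kernel is `A^s`
  let e : g'.ker ≃ {a : A // sA a = a} :=
    Equiv.symm (Equiv.ofBijective
      (fun a : {a : A // sA a = a} =>
        (⟨⟨f a.1, by
            show sB (f a.1) = f a.1
            rw [← hfs, a.2]⟩, by
          rw [AddMonoidHom.mem_ker]
          exact Subtype.ext (hgf a.1)⟩ : g'.ker))
      ⟨fun a a' h => by
        apply Subtype.ext
        apply hf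
        exact congrArg (fun x : g'.ker => (x.1.1 : B)) h,
      fun x => by
        obtain ⟨⟨b, hb⟩, hx⟩ := x
        have hgb : g b = 0 := congrArg Subtype.val (AddMonoidHom.mem_ker.mp hx)
        obtain ⟨a, rfl⟩ := hex b hgb
        have hb' : sB (f a) = f a := hb
        refine ⟨⟨a, hf ?_⟩, ?_⟩
        · rw [hfs, hb']
        · rfl⟩)
  haveI : Finite (fixedAddSub sB) := inferInstance
  have h1 : Nat.card (fixedAddSub sB) =
      Nat.card (fixedAddSub sB ⧸ g'.ker) * Nat.card g'.ker :=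
    AddSubgroup.card_eq_card_quotient_mul_card_addSubgroup g'.ker
  have h2 : Nat.card (fixedAddSub sB ⧸ g'.ker) = Nat.card (fixedAddSub sC) :=
    Nat.card_congr (QuotientAddGroup.quotientKerEquivOfSurjective g' hg'surj).toEquiv
  have h3 : Nat.card g'.ker = Nat.card {a : A // sA a = a} := Nat.card_congr e
  show Nat.card (fixedAddSub sB) = Nat.card {a : A // sA a = a} * Nat.card (fixedAddSub sC)
  rw [h1, h2, h3, mul_comm]

end Abstract

section Expected

variable {Γ : Type} [Group Γ] {𝒰 : OpenBasis Γ}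

/-- the expected Euler characteristic at a real place: `(#Z^{c})⁻¹`. -/
noncomputable def tauFixed (𝒰 : OpenBasis Γ) (c : Γ) (Z : SmRep ℤ 𝒰) : ℚ≥0 :=
  (Nat.card {z : Z.obj.V // Z.obj.ρ c z = z} : ℚ≥0)⁻¹

theorem tauFixed_def (c : Γ) (Z : SmRep ℤ 𝒰) :
    tauFixed 𝒰 c Z = (Nat.card {z : Z.obj.V // Z.obj.ρ c z = z} : ℚ≥0)⁻¹ := rfl

/-- **(EC-T)** for `p` odd and an involution `c`, `Z ↦ (#Z^c)⁻¹` is an expected Euler
characteristic. -/
theorem isExpected_tauFixed (p : ℕ) [Fact p.Prime] (hp2 : p ≠ 2) (c : Γ) (hc : c * c = 1) :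
    IsExpected 𝒰 p (fun Z : SmRep ℤ 𝒰 =>
      (Nat.card {z : Z.obj.V // Z.obj.ρ c z = z} : ℚ≥0)⁻¹) where
  iso X Y _ := by
    rintro ⟨e⟩
    show (Nat.card {z : X.obj.V // X.obj.ρ c z = z} : ℚ≥0)⁻¹ =
      (Nat.card {z : Y.obj.V // Y.obj.ρ c z = z} : ℚ≥0)⁻¹
    have hinv1 : ∀ x : X.obj.V, e.inv.hom.hom (e.hom.hom.hom x) = x := fun x => by
      have := congrArg (fun φ : X ⟶ X => φ.hom.hom x) e.hom_inv_id
      exact this
    have hinv2 : ∀ y : Y.obj.V, e.hom.hom.hom (e.inv.hom.hom y) = y := fun y => by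
      have := congrArg (fun φ : Y ⟶ Y => φ.hom.hom y) e.inv_hom_id
      exact this
    have hcard : Nat.card {z : X.obj.V // X.obj.ρ c z = z} =
        Nat.card {z : Y.obj.V // Y.obj.ρ c z = z} := by
      refine Nat.card_congr
        { toFun := fun x => ⟨e.hom.hom.hom x.1, ?_⟩
          invFun := fun y => ⟨e.inv.hom.hom y.1, ?_⟩
          left_inv := fun x => Subtype.ext (hinv1 x.1)
          right_inv := fun y => Subtype.ext (hinv2 y.1) }
      · have h1 : e.hom.hom.hom (X.obj.ρ c x.1) = Y.obj.ρ c (e.hom.hom.hom x.1) :=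
          Rep.hom_comm_apply e.hom.hom c x.1
        rw [← h1, x.2]
      · have h1 : e.inv.hom.hom (Y.obj.ρ c y.1) = X.obj.ρ c (e.inv.hom.hom y.1) :=
          Rep.hom_comm_apply e.inv.hom c y.1
        rw [← h1, y.2]
    rw [hcard]
  mul S hS hft := by
    show (Nat.card {z : S.X₂.obj.V // S.X₂.obj.ρ c z = z} : ℚ≥0)⁻¹ =
      (Nat.card {z : S.X₁.obj.V // S.X₁.obj.ρ c z = z} : ℚ≥0)⁻¹ *
        (Nat.card {z : S.X₃.obj.V // S.X₃.obj.ρ c z = z} : ℚ≥0)⁻¹
    obtain ⟨hinj, hex, hsurj⟩ := (shortExact_iff S).1 hS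
    haveI : Finite S.X₂.obj.V := hft.1
    have hodd : Odd p := (Fact.out : p.Prime).odd_of_ne_two hp2
    have hzero : ∀ a : S.X₁.obj.V, S.g.hom.hom (S.f.hom.hom a) = 0 := fun a => by
      have := congrArg (fun φ : S.X₁ ⟶ S.X₃ => φ.hom.hom a) S.zero
      exact this
    have hinvol : ∀ b : S.X₂.obj.V, S.X₂.obj.ρ c (S.X₂.obj.ρ c b) = b := fun b => by
      have h1 : S.X₂.obj.ρ (c * c) b = S.X₂.obj.ρ c (S.X₂.obj.ρ c b) := by
        rw [map_mul]; rfl
      rw [← h1, hc, map_one]; rfl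
    have key := card_fixed_eq_mul p hodd hft.2
      (AddMonoidHom.mk' (fun a => S.f.hom.hom a) (fun a b => map_add S.f.hom.hom a b))
      (AddMonoidHom.mk' (fun a => S.g.hom.hom a) (fun a b => map_add S.g.hom.hom a b))
      hinj hex hzero hsurj
      (AddMonoidHom.mk' (fun a => S.X₁.obj.ρ c a) (fun a b => map_add (S.X₁.obj.ρ c) a b))
      (AddMonoidHom.mk' (fun a => S.X₂.obj.ρ c a) (fun a b => map_add (S.X₂.obj.ρ c) a b))
      (AddMonoidHom.mk' (fun a => S.X₃.obj.ρ c a) (fun a b => map_add (S.X₃.obj.ρ c) a b))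
      hinvol (fun a => Rep.hom_comm_apply S.f.hom c a) (fun b => Rep.hom_comm_apply S.g.hom c b)
    have key' : Nat.card {z : S.X₂.obj.V // S.X₂.obj.ρ c z = z} =
        Nat.card {z : S.X₁.obj.V // S.X₁.obj.ρ c z = z} *
          Nat.card {z : S.X₃.obj.V // S.X₃.obj.ρ c z = z} := key
    rw [key', Nat.cast_mul, mul_inv]
  ne_zero X hft := by
    show (Nat.card {z : X.obj.V // X.obj.ρ c z = z} : ℚ≥0)⁻¹ ≠ 0
    haveI : Finite X.obj.V := hft.1
    haveI : Nonempty {z : X.obj.V // X.obj.ρ c z = z} := ⟨⟨0, map_zero _⟩⟩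
    have h1 : Nat.card {z : X.obj.V // X.obj.ρ c z = z} ≠ 0 := Nat.card_pos.ne'
    exact inv_ne_zero (Nat.cast_ne_zero.mpr h1)

/-- the same statement for the named function `tauFixed`. -/
theorem isExpected_tauFixed' (p : ℕ) [Fact p.Prime] (hp2 : p ≠ 2) (c : Γ) (hc : c * c = 1) :
    IsExpected 𝒰 p (tauFixed 𝒰 c) :=
  isExpected_tauFixed p hp2 c hc

end Expected

end Fermat.Agent.TW.EC
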