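/-
S56 / (EC-G), leaf EC-C, helper1: finiteness of the `S`-class group in idelic form.

For a number field `F` and any set `S` of rational primes, the quotient
`J_F / (F^× · J_{F,S})` of the finite ideles by the principal ideles and the `S`-ideles (units
outside `S`) is finite: it is a quotient of the ideal class group of `F`.
-/
import Fermat.Agent.CFT.Global.G04_lead_Content

set_option autoImplicit false
set_option linter.style.haveILetI false
set_option linter.unusedSectionVars false

open scoped TensorProduct NumberField nonZeroDivisors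
open NumberField
open IsLocalRing IsDedekindDomain

namespace Fermat.Agent.TW.ECC

open Fermat.Agent.CFT

variable {F : Type} [Field F] [NumberField F]

/-- the fractional ideal `∏ P^{ord_P x}` of a finite idele `x`. -/
noncomputable def idealOf (x : FinIdele F) : FractionalIdeal (𝓞 F)⁰ F :=
  ∏ᶠ P : HeightOneSpectrum (𝓞 F), (P.asIdeal : FractionalIdeal (𝓞 F)⁰ F) ^ x.ordP P

lemma idealOf_ne_zero (x : FinIdele F) : idealOf x ≠ 0 := by
  classical
  unfold idealOf
  rw [finprod_eq_prod_of_mulSupport_subset (s := x.finite_setOf_ordP_ne_zero.toFinset)]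
  · refine Finset.prod_ne_zero_iff.2 fun P _ => zpow_ne_zero _ ?_
    exact FractionalIdeal.coeIdeal_ne_zero.2 P.ne_bot
  · intro P hP
    rw [Function.mem_mulSupport] at hP
    rw [Set.Finite.coe_toFinset, Set.mem_ofPred_eq]
    intro h0
    rw [h0, zpow_zero] at hP
    exact hP rfl

lemma count_idealOf (x : FinIdele F) (P : HeightOneSpectrum (𝓞 F)) :
    FractionalIdeal.count F P (idealOf x) = x.ordP P := by
  have hfin : ∀ᶠ P : HeightOneSpectrum (𝓞 F) in Filter.cofinite, x.ordP P = 0 := by
    rw [Filter.eventually_cofinite]; exact x.finite_setOf_ordP_ne_zero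
  exact FractionalIdeal.count_finprod F P _ hfin

/-- the ideal class of a finite idele. -/
noncomputable def cls (x : FinIdele F) : ClassGroup (𝓞 F) :=
  ClassGroup.mk F (Units.mk0 (idealOf x) (idealOf_ne_zero x))

/-- an idele all of whose valuations vanish is a unit idele. -/
lemma mem_sIdeles_empty_of_ordP_eq_zero {u : FinIdele F}
    (h : ∀ P : HeightOneSpectrum (𝓞 F), u.ordP P = 0) :
    u ∈ sIdeles F (∅ : Set Nat.Primes) := by
  intro ℓ _
  rw [FinIdele.mem_unitGroup_iff_ordP]
  intro P _
  exact h P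

/-- two ideles with the same ideal class differ by a principal idele and a unit idele. -/
theorem inv_mul_mem_of_cls_eq {x y : FinIdele F} (h : cls x = cls y) :
    x⁻¹ * y ∈ principalIdeles F ⊔ sIdeles F (∅ : Set Nat.Primes) := by
  set Ix : (FractionalIdeal (𝓞 F)⁰ F)ˣ := Units.mk0 (idealOf x) (idealOf_ne_zero x) with hIx
  set Iy : (FractionalIdeal (𝓞 F)⁰ F)ˣ := Units.mk0 (idealOf y) (idealOf_ne_zero y) with hIy
  have h1 : ClassGroup.mk F (Ix * Iy⁻¹) = 1 := by
    rw [map_mul, map_inv]
    have : ClassGroup.mk F Ix = ClassGroup.mk F Iy := h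
    rw [this, mul_inv_cancel]
  rw [ClassGroup.mk_eq_one_iff] at h1
  obtain ⟨a, ha⟩ := @Submodule.IsPrincipal.principal _ _ _ _ _ _ h1
  have ha' : ((Ix * Iy⁻¹ : (FractionalIdeal (𝓞 F)⁰ F)ˣ) : FractionalIdeal (𝓞 F)⁰ F) =
      FractionalIdeal.spanSingleton (𝓞 F)⁰ a := by
    apply Subtype.coe_injective
    simp only [FractionalIdeal.val_eq_coe, ha, FractionalIdeal.coe_spanSingleton]
  have ha0 : a ≠ 0 := by
    rintro rfl
    rw [FractionalIdeal.spanSingleton_zero] at ha'
    exact Units.ne_zero _ ha'
  have hy0 : idealOf y ≠ 0 := idealOf_ne_zero y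
  have hIeq : idealOf x = FractionalIdeal.spanSingleton (𝓞 F)⁰ a * idealOf y := by
    rw [← ha', Units.val_mul, Units.val_inv_eq_inv_val, hIx, hIy, Units.val_mk0, Units.val_mk0,
      mul_assoc, inv_mul_cancel₀ hy0, mul_one]
  -- the unit idele
  set u : FinIdele F := x⁻¹ * y * FinIdele.diag F (Units.mk0 a ha0) with hu
  have hu0 : ∀ P : HeightOneSpectrum (𝓞 F), u.ordP P = 0 := by
    intro P
    have hc := congrArg (FractionalIdeal.count F P) hIeq
    rw [FractionalIdeal.count_mul F P (FractionalIdeal.spanSingleton_ne_zero_iff.2 ha0) hy0,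
      count_idealOf, count_idealOf, count_spanSingleton P ha0] at hc
    rw [hu, FinIdele.ordP_mul, FinIdele.ordP_mul, FinIdele.ordP_inv,
      FinIdele.ordP_diag, Units.val_mk0, hc]
    ring
  have hmem := mem_sIdeles_empty_of_ordP_eq_zero hu0
  have hxy : x⁻¹ * y = (FinIdele.diag F (Units.mk0 a ha0))⁻¹ * u := by
    rw [hu, mul_comm ((FinIdele.diag F (Units.mk0 a ha0))⁻¹), mul_inv_cancel_right]
  rw [hxy]
  exact Subgroup.mul_mem_sup ((principalIdeles F).inv_mem ⟨_, rfl⟩) hmem

/-- **Finiteness of the `S`-class group**, idelic form: `J_F / (F^× · J_{F,S})` is finite. -/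
theorem finite_quotient_principal_sup_sIdeles (S : Set Nat.Primes) :
    Finite (FinIdele F ⧸ (principalIdeles F ⊔ sIdeles F S)) := by
  classical
  haveI : Fintype (ClassGroup (𝓞 F)) := inferInstance
  haveI : Finite (Set.range (cls (F := F))) := Subtype.finite
  have hle : principalIdeles F ⊔ sIdeles F (∅ : Set Nat.Primes) ≤
      principalIdeles F ⊔ sIdeles F S :=
    sup_le_sup_left (sIdeles_mono (Set.empty_subset S)) _
  let f : Set.range (cls (F := F)) → FinIdele F ⧸ (principalIdeles F ⊔ sIdeles F S) :=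
    fun c => QuotientGroup.mk c.2.choose
  refine Finite.of_surjective f ?_
  intro q
  induction q using QuotientGroup.induction_on with
  | H y =>
    refine ⟨⟨cls y, y, rfl⟩, ?_⟩
    have hspec : cls (Exists.choose (⟨y, rfl⟩ : cls y ∈ Set.range (cls (F := F)))) = cls y :=
      Exists.choose_spec (⟨y, rfl⟩ : cls y ∈ Set.range (cls (F := F)))
    change (QuotientGroup.mk _ : FinIdele F ⧸ (principalIdeles F ⊔ sIdeles F S)) =
      QuotientGroup.mk y
    rw [QuotientGroup.eq]
    exact hle (inv_mul_mem_of_cls_eq hspec)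

/-- elementwise form: a finite set of representatives. -/
theorem exists_finset_representatives (S : Set Nat.Primes) :
    ∃ R : Finset (FinIdele F), ∀ z : FinIdele F, ∃ r ∈ R,
      r⁻¹ * z ∈ principalIdeles F ⊔ sIdeles F S := by
  classical
  haveI := finite_quotient_principal_sup_sIdeles (F := F) S
  haveI : Fintype (FinIdele F ⧸ (principalIdeles F ⊔ sIdeles F S)) := Fintype.ofFinite _
  refine ⟨Finset.univ.image (fun q : FinIdele F ⧸ (principalIdeles F ⊔ sIdeles F S) =>
    Quotient.out q), fun z => ?_⟩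
  refine ⟨Quotient.out (QuotientGroup.mk z : FinIdele F ⧸ (principalIdeles F ⊔ sIdeles F S)),
    Finset.mem_image.mpr ⟨_, Finset.mem_univ _, rfl⟩, ?_⟩
  rw [← QuotientGroup.eq]
  exact QuotientGroup.out_eq' _

end Fermat.Agent.TW.ECC
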