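/-
S56 / (EC-G), leaf EC-C, helper1: the cokernel of `π : (J_S)^U → 𝔻^U` is finite.

For `U` open for `levelBasis S`, `U = Gal(Ω/E)`: `𝔻^U ≅ J_E/(E^× U^S_E)` (helper7) and the image
of `(J_S)^U = ∏_{ℓ ∈ S} (ℚ_ℓ ⊗ E)^×` is `E^× J_{E,S}/(E^× U^S_E)`, so the cokernel is the `S`-class
group `J_E/(E^× J_{E,S})` of `E`, which is finite.
-/
import Fermat.Agent.TW.ECC_helper1_Class
import Fermat.Agent.CFT.Arith.DSFinal_helper7

set_option autoImplicit false
set_option linter.unusedSectionVars false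
set_option linter.style.haveILetI false

open scoped TensorProduct RestrictedProduct NumberField

namespace Fermat.Agent.TW.ECC

open Fermat.Agent.CFT Fermat.Agent.CFT.Sm Fermat.Agent.CFT.Arith

/-- `Ω = AlgebraicClosure ℚ`. -/
local notation "Ω" => AlgebraicClosure ℚ
/-- `Γ = Gal(Ω/ℚ)`. -/
local notation "Γ" => (AlgebraicClosure ℚ ≃ₐ[ℚ] AlgebraicClosure ℚ)

section level

variable {S : Finset Nat.Primes} {E : IntermediateField ℚ Ω}

/-- the element of `J_S` given by the `S`-components of a finite idele of `E`. -/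
noncomputable def sPart (hE : E.IsUnramifiedOutside S) (w : FinIdele ↥E) : JS S :=
  fun ℓ => ⟨SemiLocal.unitsMap ((ℓ : Nat.Primes) : ℕ) (algebraMap ↥E Ω) (w ℓ.1),
    ⟨E, hE, w ℓ.1, rfl⟩⟩

theorem coe_sPart_apply (hE : E.IsUnramifiedOutside S) (w : FinIdele ↥E) (ℓ : S) :
    ((sPart hE w ℓ : JSl S ((ℓ : Nat.Primes) : ℕ)) : (SemiLocal ((ℓ : Nat.Primes) : ℕ) Ω)ˣ) =
      SemiLocal.unitsMap ((ℓ : Nat.Primes) : ℕ) (algebraMap ↥E Ω) (w ℓ.1) := rfl

/-- the `S`-part of an idele of `E` is fixed by `Gal(Ω/E)`. -/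
theorem smul_sPart_of_mem (hE : E.IsUnramifiedOutside S) (w : FinIdele ↥E) {σ : Γ}
    (hσ : σ ∈ E.fixingSubgroup) : σ • sPart hE w = sPart hE w := by
  apply JS.ext
  intro ℓ
  apply Subtype.ext
  rw [JS.smul_apply, coe_smul_JSl, coe_sPart_apply]
  exact (units_mem_range_unitsMap_iff_fixed ((ℓ : Nat.Primes) : ℕ) E _).mp ⟨w ℓ.1, rfl⟩ σ hσ

/-- for an `S`-idele `w` of `E`, the class of `w` in `C'` is the image under `π` of its
`S`-part. -/
theorem mkDS_mapIdS_eq_piJS_sPart (hE : E.IsUnramifiedOutside S) {w : FinIdele ↥E}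
    (hw : w ∈ sIdeles ↥E (S : Set Nat.Primes)) :
    mkDS S (mapIdS hE w) = piJS S (sPart hE w) := by
  rw [piJS_apply, eq_comm, mkDS_eq_mkDS_iff]
  refine (le_sup_right : US S ≤ PS S ⊔ US S) ?_
  rw [mem_US_iff]
  have e : ∀ ℓ : Nat.Primes, (((extJS S (sPart hE w))⁻¹ * mapIdS hE w : IdS S) : FinIdele Ω) ℓ =
      (extFun S (sPart hE w) ℓ)⁻¹ * SemiLocal.unitsMap (ℓ : ℕ) (algebraMap ↥E Ω) (w ℓ) :=
    fun ℓ => rfl
  refine ⟨fun ℓ hℓ => ?_, fun ℓ hℓ => ?_⟩
  · rw [e, extFun_apply_of_not_mem _ hℓ, inv_one, one_mul]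
    exact (SemiLocal.unitsMap_mem_unitGroup_iff (ℓ : ℕ) ↥E Ω).mpr
      (hw ℓ (fun h => hℓ (Finset.mem_coe.mp h)))
  · rw [e, extFun_apply_of_mem _ hℓ]
    exact inv_mul_cancel _

end level

section main

variable {S : Finset Nat.Primes}

/-- **(EC-C), field form**: for `E` finite unramified outside `S`, there is a finite set `R` of
finite ideles of `E` such that every `Gal(Ω/E)`-invariant class of `C'` is the product of the
class of some `r ∈ R` and of `π(x)` for a `Gal(Ω/E)`-invariant `x ∈ J_S`. -/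
theorem exists_finset_mkDS_mul_piJS (hS : S.Nonempty) {E : IntermediateField ℚ Ω}
    [NumberField ↥E] (hE : E.IsUnramifiedOutside S) :
    ∃ R : Finset (FinIdele ↥E), ∀ c : DS S, (∀ g ∈ E.fixingSubgroup, g • c = c) →
      ∃ r ∈ R, ∃ x : JS S, (∀ g ∈ E.fixingSubgroup, g • x = x) ∧
        c = mkDS S (mapIdS hE r) * piJS S x := by
  obtain ⟨R, hR⟩ := exists_finset_representatives (F := ↥E) (S : Set Nat.Primes)
  refine ⟨R, fun c hc => ?_⟩
  obtain ⟨z, rfl⟩ := exists_mkDS_mapIdS_eq' hS hE c hc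
  obtain ⟨r, hrR, hr⟩ := hR z
  obtain ⟨y, ⟨a, rfl⟩, w, hw, hyw⟩ := Subgroup.mem_sup.mp hr
  refine ⟨r, hrR, sPart hE w, fun g hg => smul_sPart_of_mem hE w hg, ?_⟩
  have hz : z = r * (FinIdele.diag ↥E a * w) := by rw [hyw, mul_inv_cancel_left]
  have ha : mkDS S (mapIdS hE (FinIdele.diag ↥E a)) = 1 :=
    (mkDS_mapIdS_eq_one_iff hS hE _).mpr
      ((le_sup_left : principalIdeles ↥E ≤ _) ⟨a, rfl⟩)
  rw [hz, map_mul, map_mul, map_mul, map_mul, ha, one_mul, mkDS_mapIdS_eq_piJS_sPart hE hw]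

/-- **(EC-C)**, elementwise form: for every open `U`, there is a finite set `T` of `U`-invariant
elements of `𝔻 = DSm S` such that every `U`-invariant element of `𝔻` is of the form `t + π(j)`
with `t ∈ T` and `j` a `U`-invariant element of `J_S`: the quotient of `𝔻^U` by the image of
`(J_S)^U` is finite. -/
theorem exists_finset_coker_piSm (hS : S.Nonempty) (U : Subgroup Γ)
    (hU : (levelBasis S).IsOpen U) :
    ∃ T : Finset (DSm S).obj.V, (∀ t ∈ T, ∀ g ∈ U, (DSm S).obj.ρ g t = t) ∧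
      ∀ c : (DSm S).obj.V, (∀ g ∈ U, (DSm S).obj.ρ g c = c) →
        ∃ t ∈ T, ∃ j : (JSSm S).obj.V, (∀ g ∈ U, (JSSm S).obj.ρ g j = j) ∧
          c = t + (piSm S).hom.hom j := by
  classical
  obtain ⟨E, hE, rfl⟩ := exists_eq_fixingSubgroup_of_isOpen hU
  haveI := hE.1
  haveI : NumberField ↥E := numberField_of_finiteDimensional
  obtain ⟨R, hR⟩ := exists_finset_mkDS_mul_piJS hS hE
  refine ⟨R.image (fun r => (Additive.ofMul (mkDS S (mapIdS hE r)) : (DSm S).obj.V)), ?_, ?_⟩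
  · intro t ht g hg
    obtain ⟨r, -, rfl⟩ := Finset.mem_image.mp ht
    exact congrArg Additive.ofMul (smul_mkDS_mapIdS_of_mem hE r hg)
  · intro c hc
    have hc' : ∀ g ∈ E.fixingSubgroup, g • (Additive.toMul (α := DS S) c) = Additive.toMul c :=
      fun g hg => congrArg Additive.toMul (hc g hg)
    obtain ⟨r, hrR, x, hx, hcx⟩ := hR (Additive.toMul (α := DS S) c) hc'
    refine ⟨_, Finset.mem_image.mpr ⟨r, hrR, rfl⟩, (Additive.ofMul x : (JSSm S).obj.V),
      fun g hg => congrArg Additive.ofMul (hx g hg), ?_⟩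
    exact congrArg Additive.ofMul hcx

/-- exactness at `(J_S)^U`: a `U`-invariant element of `J_S` killed by `π` is the image of a
`U`-invariant element of `E_S`. -/
theorem exists_invariant_of_piSm_eq_zero (hS : S.Nonempty) (U : Subgroup Γ)
    (j : (JSSm S).obj.V) (hj : ∀ g ∈ U, (JSSm S).obj.ρ g j = j)
    (h0 : (piSm S).hom.hom j = 0) :
    ∃ e : (ESSm S).obj.V, (∀ g ∈ U, (ESSm S).obj.ρ g e = e) ∧ (diagESSm S).hom.hom e = j := by
  obtain ⟨e, he⟩ := (diagESHom_piHom_exact (S := S) j).mp h0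
  refine ⟨e, fun g hg => ?_, he⟩
  apply diagESHom_injective hS
  have h1 : (diagESHom S).hom ((ESRep S).ρ g e) = (JSRep S).ρ g ((diagESHom S).hom e) :=
    Rep.hom_comm_apply (diagESHom S) g e
  exact h1.trans (by rw [he]; exact hj g hg)

end main

end Fermat.Agent.TW.ECC
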