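/-
S56 / (EC-G), helper3: the permutation objects `perm π hπ A` (functions `G → A` on a finite
quotient `π : Γ → G` with open kernel, `A` an abelian group with trivial action), their commuting
right translations `permR g`, the change of coefficients `permMap`, the Bockstein sequence
`0 → perm ℤ → perm ℤ → perm (ZMod p) → 0`, and the evaluation
`Hom(perm ℤ, 𝔐) ≃ 𝔐^{ker π}`.
-/
import Fermat.Agent.TW.ECEngine_helper3_General
import Fermat.Agent.TW.EC_helper3_Reg
import Fermat.Agent.CFT.Sm.ExtTorsion_helper5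

set_option autoImplicit false
set_option linter.style.haveILetI false
set_option linter.unusedSectionVars false

open CategoryTheory CategoryTheory.Limits CategoryTheory.Abelian

namespace Fermat.Agent.TW.EC

open Fermat.Agent.CFT.Sm Fermat.Agent.TW.Ind

variable {Γ : Type} [Group Γ] {𝒰 : OpenBasis Γ} {G : Type} [Group G] (π : Γ →* G)

section Defs

variable (A : Type) [AddCommGroup A]

/-- the representation of `Γ` on functions `G → A`: `(γ • F) x = F ((π γ)⁻¹ x)`. -/
noncomputable def permρ : Representation ℤ Γ (G → A) where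
  toFun γ := LinearMap.funLeft ℤ A (fun x => (π γ)⁻¹ * x)
  map_one' := by
    apply LinearMap.ext
    intro F
    funext x
    simp [LinearMap.funLeft_apply]
  map_mul' g h := by
    apply LinearMap.ext
    intro F
    funext x
    simp [LinearMap.funLeft_apply, mul_assoc]

@[simp] lemma permρ_apply (γ : Γ) (F : G → A) (x : G) : permρ π A γ F x = F ((π γ)⁻¹ * x) := rfl

variable (hπ : 𝒰.IsOpen π.ker)

/-- the permutation object: functions `G → A`. -/
noncomputable def perm : SmRep ℤ 𝒰 :=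
  ⟨Rep.of (permρ π A), fun F => by
    obtain ⟨U, hU, hUle⟩ := hπ
    refine ⟨U, hU, fun g hg => ?_⟩
    have : π g = 1 := hUle hg
    show permρ π A g F = F
    funext x
    rw [permρ_apply, this, inv_one, one_mul]⟩

/-- view a vector of `perm` as a function. -/
def perm.toFun' {A : Type} [AddCommGroup A] {π : Γ →* G} {hπ : 𝒰.IsOpen π.ker}
    (F : (perm π A hπ).obj.V) : G → A := F

/-- build a vector of `perm` from a function. -/
def perm.mk' {A : Type} [AddCommGroup A] {π : Γ →* G} {hπ : 𝒰.IsOpen π.ker}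
    (F : G → A) : (perm π A hπ).obj.V := F

@[simp] lemma perm.toFun'_mk' {π : Γ →* G} {hπ : 𝒰.IsOpen π.ker} (F : G → A) :
    perm.toFun' (perm.mk' (hπ := hπ) F) = F := rfl

@[simp] lemma perm.mk'_toFun' {π : Γ →* G} {hπ : 𝒰.IsOpen π.ker} (F : (perm π A hπ).obj.V) :
    perm.mk' (perm.toFun' F) = F := rfl

lemma perm_ext {π : Γ →* G} {hπ : 𝒰.IsOpen π.ker} {F F' : (perm π A hπ).obj.V}
    (h : ∀ x, perm.toFun' F x = perm.toFun' F' x) : F = F' := funext h

@[simp] lemma perm_ρ_apply (γ : Γ) (F : (perm π A hπ).obj.V) (x : G) :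
    perm.toFun' ((perm π A hπ).obj.ρ γ F) x = perm.toFun' F ((π γ)⁻¹ * x) := rfl

@[simp] lemma perm_add_apply (F F' : (perm π A hπ).obj.V) (x : G) :
    perm.toFun' (F + F') x = perm.toFun' F x + perm.toFun' F' x := rfl

@[simp] lemma perm_zero_apply (x : G) :
    perm.toFun' (0 : (perm π A hπ).obj.V) x = 0 := rfl

@[simp] lemma perm_nsmul_apply (n : ℕ) (F : (perm π A hπ).obj.V) (x : G) :
    perm.toFun' (n • F) x = n • perm.toFun' F x := rfl

/-- right translation by `g : G`: `(F ⋆ g) x = F (x g)`; a morphism of smooth representations. -/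
noncomputable def permR (g : G) : perm π A hπ ⟶ perm π A hπ :=
  ObjectProperty.homMk (Rep.ofHom (ρ := permρ π A) (σ := permρ π A)
    ⟨LinearMap.funLeft ℤ A (fun x => x * g), fun γ => by
      apply LinearMap.ext
      intro F
      funext x
      show F ((π γ)⁻¹ * (x * g)) = F ((π γ)⁻¹ * x * g)
      rw [mul_assoc]⟩)

@[simp] lemma permR_apply (g : G) (F : (perm π A hπ).obj.V) (x : G) :
    perm.toFun' ((permR π A hπ g).hom.hom F) x = perm.toFun' F (x * g) := rfl

lemma smRep_hom_ext' {k : Type} [CommRing k] {X Y : SmRep k 𝒰} {f f' : X ⟶ Y}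
    (h : ∀ x : X.obj.V, f.hom.hom x = f'.hom.hom x) : f = f' := by
  apply ObjectProperty.hom_ext
  apply Rep.hom_ext
  apply Representation.IntertwiningMap.ext
  apply LinearMap.ext
  exact h

lemma permR_one : permR π A hπ 1 = 𝟙 _ := by
  apply smRep_hom_ext'
  intro F
  apply perm_ext
  intro x
  rw [permR_apply, mul_one]
  rfl

lemma permR_mul (g h : G) : permR π A hπ (g * h) = permR π A hπ h ≫ permR π A hπ g := by
  apply smRep_hom_ext'
  intro F
  apply perm_ext
  intro x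
  rw [permR_apply]
  show _ = perm.toFun' ((permR π A hπ g).hom.hom ((permR π A hπ h).hom.hom F)) x
  rw [permR_apply, permR_apply, mul_assoc]

variable {A} {A' : Type} [AddCommGroup A']

/-- change of coefficients. -/
noncomputable def permMap (φ : A →+ A') : perm π A hπ ⟶ perm π A' hπ :=
  ObjectProperty.homMk (Rep.ofHom (ρ := permρ π A) (σ := permρ π A')
    ⟨{ toFun := fun F x => φ (F x)
       map_add' := fun F F' => by funext x; simp
       map_smul' := fun n F => by funext x; simp }, fun γ => by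
      apply LinearMap.ext
      intro F
      funext x
      rfl⟩)

@[simp] lemma permMap_apply (φ : A →+ A') (F : (perm π A hπ).obj.V) (x : G) :
    perm.toFun' ((permMap π hπ φ).hom.hom F) x = φ (perm.toFun' F x) := rfl

lemma permR_permMap (φ : A →+ A') (g : G) :
    permR π A hπ g ≫ permMap π hπ φ = permMap π hπ φ ≫ permR π A' hπ g := by
  apply smRep_hom_ext'
  intro F
  apply perm_ext
  intro x
  rfl

lemma permMap_injective (φ : A →+ A') (hφ : Function.Injective φ) :
    Function.Injective (permMap π hπ φ).hom.hom := by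
  intro F F' h
  apply perm_ext
  intro x
  apply hφ
  have := congrArg (fun t => perm.toFun' t x) h
  exact this

lemma permMap_surjective (φ : A →+ A') (hφ : Function.Surjective φ) :
    Function.Surjective (permMap π hπ φ).hom.hom := by
  intro F'
  refine ⟨perm.mk' (fun x => Function.surjInv hφ (perm.toFun' F' x)), ?_⟩
  apply perm_ext
  intro x
  rw [permMap_apply]
  exact Function.surjInv_eq hφ _

lemma permMap_nsmul (n : ℕ) :
    permMap π hπ (n • AddMonoidHom.id A) = n • 𝟙 (perm π A hπ) := by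
  apply smRep_hom_ext'
  intro F
  apply perm_ext
  intro x
  rw [permMap_apply, smRep_nsmul_hom_apply]
  rfl

end Defs

section Bockstein

variable (hπ : 𝒰.IsOpen π.ker) (p : ℕ) [hp : Fact p.Prime]

/-- the Bockstein sequence `0 → perm ℤ → perm ℤ → perm (ZMod p) → 0`. -/
noncomputable def permBock : ShortComplex (SmRep ℤ 𝒰) :=
  ShortComplex.mk (permMap π hπ (p • AddMonoidHom.id ℤ))
    (permMap π hπ (Int.castAddHom (ZMod p))) (by
      apply smRep_hom_ext'
      intro F
      apply perm_ext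
      intro x
      show ((p • (perm.toFun' F x) : ℤ) : ZMod p) = 0
      rw [nsmul_eq_mul, Int.cast_mul, Int.cast_natCast, ZMod.natCast_self, zero_mul])

lemma permBock_f : (permBock π hπ p).f = p • 𝟙 (perm π ℤ hπ) := permMap_nsmul π hπ p

lemma permBock_shortExact : (permBock π hπ p).ShortExact := by
  rw [shortExact_iff]
  refine ⟨?_, ?_, ?_⟩
  · apply permMap_injective
    intro a b hab
    have hab' : p • a = p • b := hab
    have hp0 : (p : ℤ) ≠ 0 := Nat.cast_ne_zero.mpr hp.out.ne_zero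
    rw [nsmul_eq_mul, nsmul_eq_mul] at hab'
    exact mul_left_cancel₀ hp0 hab'
  · intro F hF
    have h1 : ∀ x, ((perm.toFun' (hπ := hπ) (A := ℤ) F x : ℤ) : ZMod p) = 0 := fun x =>
      congrArg (fun t => perm.toFun' (hπ := hπ) (A := ZMod p) t x) hF
    have h2 : ∀ x, ∃ c : ℤ, perm.toFun' (hπ := hπ) (A := ℤ) F x = p * c := fun x =>
      (ZMod.intCast_zmod_eq_zero_iff_dvd _ p).mp (h1 x)
    choose c hc using h2
    refine ⟨perm.mk' (hπ := hπ) c, ?_⟩
    apply perm_ext (A := ℤ) (hπ := hπ)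
    intro x
    show p • c x = _
    rw [hc x, nsmul_eq_mul]
  · apply permMap_surjective
    exact ZMod.intCast_surjective

/-- right translation as an endomorphism of the Bockstein sequence. -/
noncomputable def permBockR (g : G) : permBock π hπ p ⟶ permBock π hπ p where
  τ₁ := permR π ℤ hπ g
  τ₂ := permR π ℤ hπ g
  τ₃ := permR π (ZMod p) hπ g
  comm₁₂ := permR_permMap π hπ _ g
  comm₂₃ := permR_permMap π hπ _ g

end Bockstein

end Fermat.Agent.TW.EC

namespace Fermat.Agent.TW.EC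

open Fermat.Agent.CFT.Sm Fermat.Agent.TW.Ind

variable {Γ : Type} [Group Γ] {𝒰 : OpenBasis Γ} {G : Type} [Group G] (π : Γ →* G)

section Eval

/-- the subgroup of vectors fixed by a subgroup `W`. -/
def invSub (𝔐 : SmRep ℤ 𝒰) (W : Subgroup Γ) : AddSubgroup 𝔐.obj.V where
  carrier := {x | ∀ γ ∈ W, 𝔐.obj.ρ γ x = x}
  zero_mem' := fun γ _ => map_zero _
  add_mem' := fun {a b} ha hb γ hγ => by rw [map_add, ha γ hγ, hb γ hγ]
  neg_mem' := fun {a} ha γ hγ => by rw [map_neg, ha γ hγ]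

lemma mem_invSub {𝔐 : SmRep ℤ 𝒰} {W : Subgroup Γ} {x : 𝔐.obj.V} :
    x ∈ invSub 𝔐 W ↔ ∀ γ ∈ W, 𝔐.obj.ρ γ x = x := Iff.rfl

lemma invSub_mono (𝔐 : SmRep ℤ 𝒰) {W W' : Subgroup Γ} (h : W ≤ W') :
    invSub 𝔐 W' ≤ invSub 𝔐 W := fun _ hx γ hγ => hx γ (h hγ)

variable (hπ : 𝒰.IsOpen π.ker)

open Classical in
/-- the delta function at `g`. -/
noncomputable def permDelta (g : G) : (perm π ℤ hπ).obj.V := perm.mk' (Pi.single g 1)

open Classical in
lemma permDelta_apply (g x : G) :
    perm.toFun' (permDelta π hπ g) x = if x = g then 1 else 0 := by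
  show (Pi.single g (1 : ℤ) : G → ℤ) x = _
  rw [Pi.single_apply]

lemma ρ_permDelta (γ : Γ) (g : G) :
    (perm π ℤ hπ).obj.ρ γ (permDelta π hπ g) = permDelta π hπ (π γ * g) := by
  classical
  apply perm_ext
  intro x
  rw [perm_ρ_apply, permDelta_apply, permDelta_apply]
  congr 1
  rw [eq_iff_iff]
  constructor
  · intro h; rw [← h]; group
  · intro h; rw [h]; group

lemma permR_permDelta (b g : G) :
    (permR π ℤ hπ b).hom.hom (permDelta π hπ g) = permDelta π hπ (g * b⁻¹) := by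
  classical
  apply perm_ext
  intro x
  rw [permR_apply, permDelta_apply, permDelta_apply]
  congr 1
  rw [eq_iff_iff]
  constructor
  · intro h; rw [← h]; group
  · intro h; rw [h]; group

/-- evaluation of a vector of `perm` at a point, as an additive map. -/
def permApp (A : Type) [AddCommGroup A] (x : G) : (perm π A hπ).obj.V →+ A where
  toFun F := perm.toFun' F x
  map_zero' := rfl
  map_add' _ _ := rfl

@[simp] lemma permApp_apply (A : Type) [AddCommGroup A] (x : G) (F : (perm π A hπ).obj.V) :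
    permApp π hπ A x F = perm.toFun' F x := rfl

lemma perm_eq_sum_delta [Fintype G] (F : (perm π ℤ hπ).obj.V) :
    F = ∑ g : G, perm.toFun' F g • permDelta π hπ g := by
  classical
  apply perm_ext
  intro x
  have h1 : perm.toFun' (∑ g : G, perm.toFun' F g • permDelta π hπ g) x =
      ∑ g : G, perm.toFun' (perm.toFun' F g • permDelta π hπ g) x := by
    rw [← permApp_apply, map_sum]
    rfl
  rw [h1, Finset.sum_eq_single x]
  · show _ = perm.toFun' F x • perm.toFun' (permDelta π hπ x) x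
    rw [permDelta_apply, if_pos rfl, smul_eq_mul, mul_one]
  · intro g _ hg
    show perm.toFun' F g • perm.toFun' (permDelta π hπ g) x = 0
    rw [permDelta_apply, if_neg (Ne.symm hg), smul_zero]
  · intro h; exact absurd (Finset.mem_univ x) h

/-- evaluation at the delta function at `1`: `Hom(perm ℤ, 𝔐) → 𝔐^{ker π}`. -/
noncomputable def permEval (𝔐 : SmRep ℤ 𝒰) : (perm π ℤ hπ ⟶ 𝔐) →+ invSub 𝔐 π.ker where
  toFun f := ⟨f.hom.hom (permDelta π hπ 1), fun γ hγ => by
    have h1 := Rep.hom_comm_apply f.hom γ (permDelta π hπ 1)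
    have h2 : (perm π ℤ hπ).obj.ρ γ (permDelta π hπ 1) = permDelta π hπ 1 := by
      rw [ρ_permDelta, MonoidHom.mem_ker.mp hγ, one_mul]
    rw [h2] at h1
    exact h1.symm⟩
  map_zero' := rfl
  map_add' _ _ := rfl

@[simp] lemma permEval_coe (𝔐 : SmRep ℤ 𝒰) (f : perm π ℤ hπ ⟶ 𝔐) :
    (permEval π hπ 𝔐 f : 𝔐.obj.V) = f.hom.hom (permDelta π hπ 1) := rfl

lemma hom_permDelta {𝔐 : SmRep ℤ 𝒰} (f : perm π ℤ hπ ⟶ 𝔐)
    (γ : Γ) : f.hom.hom (permDelta π hπ (π γ)) = 𝔐.obj.ρ γ (f.hom.hom (permDelta π hπ 1)) := by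
  have h1 := Rep.hom_comm_apply f.hom γ (permDelta π hπ 1)
  rw [ρ_permDelta, mul_one] at h1
  exact h1

lemma permEval_injective [Finite G] (hsurj : Function.Surjective π) (𝔐 : SmRep ℤ 𝒰) :
    Function.Injective (permEval π hπ 𝔐) := by
  classical
  haveI := Fintype.ofFinite G
  intro f f' h
  have h0 : f.hom.hom (permDelta π hπ 1) = f'.hom.hom (permDelta π hπ 1) :=
    congrArg Subtype.val h
  apply smRep_hom_ext'
  intro F
  rw [perm_eq_sum_delta π hπ F, map_sum, map_sum]
  refine Finset.sum_congr rfl fun g _ => ?_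
  rw [map_zsmul, map_zsmul]
  obtain ⟨γ, rfl⟩ := hsurj g
  rw [hom_permDelta π hπ, hom_permDelta π hπ, h0]

end Eval

end Fermat.Agent.TW.EC

namespace Fermat.Agent.TW.EC

open Fermat.Agent.CFT.Sm Fermat.Agent.TW.Ind

variable {Γ : Type} [Group Γ] {𝒰 : OpenBasis Γ} {G : Type} [Group G] (π : Γ →* G)

section EvalSurj

/-- the linear map `F ↦ ∑ g, F g • ρ (s g) x`. -/
noncomputable def permLiftLin {V : Type} [AddCommGroup V] (ρ : Representation ℤ Γ V) [Fintype G]
    (s : G → Γ) (x : V) : (G → ℤ) →ₗ[ℤ] V :=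
  ∑ g : G, (LinearMap.proj g : (G → ℤ) →ₗ[ℤ] ℤ).smulRight (ρ (s g) x)

lemma permLiftLin_apply {V : Type} [AddCommGroup V] (ρ : Representation ℤ Γ V) [Fintype G]
    (s : G → Γ) (x : V) (F : G → ℤ) : permLiftLin ρ s x F = ∑ g : G, F g • ρ (s g) x := by
  unfold permLiftLin
  rw [LinearMap.sum_apply]
  rfl

lemma permLiftLin_comm {V : Type} [AddCommGroup V] (ρ : Representation ℤ Γ V) [Fintype G]
    (s : G → Γ) (hs : ∀ g, π (s g) = g) (x : V) (hx : ∀ γ ∈ π.ker, ρ γ x = x) (γ : Γ)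
    (F : G → ℤ) :
    permLiftLin ρ s x (permρ π ℤ γ F) = ρ γ (permLiftLin ρ s x F) := by
  have key : ∀ γ' : Γ, ρ γ' x = ρ (s (π γ')) x := by
    intro γ'
    have hmem : (s (π γ'))⁻¹ * γ' ∈ π.ker := by
      rw [MonoidHom.mem_ker, map_mul, map_inv, hs, inv_mul_cancel]
    have h2 := hx _ hmem
    calc ρ γ' x = ρ (s (π γ') * ((s (π γ'))⁻¹ * γ')) x := by rw [mul_inv_cancel_left]
      _ = ρ (s (π γ')) (ρ ((s (π γ'))⁻¹ * γ') x) := by rw [map_mul]; rfl
      _ = _ := by rw [h2]
  rw [permLiftLin_apply, permLiftLin_apply, map_sum]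
  -- reindex by `g ↦ π γ * g`
  rw [← Equiv.sum_comp (Equiv.mulLeft (π γ))]
  refine Finset.sum_congr rfl fun g _ => ?_
  rw [map_zsmul, Equiv.coe_mulLeft, permρ_apply, inv_mul_cancel_left]
  congr 1
  have h3 : ρ γ (ρ (s g) x) = ρ (γ * s g) x := by rw [map_mul]; rfl
  rw [h3, key (γ * s g), map_mul, hs]

variable (hπ : 𝒰.IsOpen π.ker)

lemma permEval_surjective [Finite G] (hsurj : Function.Surjective π) (𝔐 : SmRep ℤ 𝒰) :
    Function.Surjective (permEval π hπ 𝔐) := by
  classical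
  haveI := Fintype.ofFinite G
  obtain ⟨A, hA⟩ := 𝔐
  obtain ⟨V, ρ⟩ := A
  rename_i hV1 hV2
  obtain rfl : hV2 = AddCommGroup.toIntModule V := Subsingleton.elim _ _
  rintro ⟨x, hx⟩
  let s : G → Γ := Function.surjInv hsurj
  have hs : ∀ g, π (s g) = g := Function.surjInv_eq hsurj
  have hx' : ∀ γ ∈ π.ker, ρ γ x = x := hx
  refine ⟨ObjectProperty.homMk (Rep.ofHom (ρ := permρ π ℤ) (σ := ρ)
    ⟨permLiftLin ρ s x, fun γ => ?_⟩), ?_⟩
  · apply LinearMap.ext
    intro F
    exact permLiftLin_comm π ρ s hs x hx' γ F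
  · apply Subtype.ext
    show permLiftLin ρ s x (Pi.single 1 1) = x
    rw [permLiftLin_apply, Finset.sum_eq_single 1]
    · rw [Pi.single_eq_same, one_smul]
      have h1 : s 1 ∈ π.ker := by rw [MonoidHom.mem_ker, hs]
      exact hx' _ h1
    · intro g _ hg
      rw [Pi.single_eq_of_ne hg, zero_smul]
    · intro h; exact absurd (Finset.mem_univ _) h

/-- `Hom(perm ℤ, 𝔐) ≃ 𝔐^{ker π}`. -/
noncomputable def permEvalEquiv [Finite G] (hsurj : Function.Surjective π) (𝔐 : SmRep ℤ 𝒰) :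
    (perm π ℤ hπ ⟶ 𝔐) ≃+ invSub 𝔐 π.ker :=
  AddEquiv.ofBijective (permEval π hπ 𝔐)
    ⟨permEval_injective π hπ hsurj 𝔐, permEval_surjective π hπ hsurj 𝔐⟩

@[simp] lemma permEvalEquiv_coe [Finite G] (hsurj : Function.Surjective π) (𝔐 : SmRep ℤ 𝒰)
    (f : perm π ℤ hπ ⟶ 𝔐) :
    (permEvalEquiv π hπ hsurj 𝔐 f : 𝔐.obj.V) = f.hom.hom (permDelta π hπ 1) := rfl

/-- naturality of the evaluation in `𝔐`. -/
lemma permEval_comp {𝔐 𝔐' : SmRep ℤ 𝒰} (f : perm π ℤ hπ ⟶ 𝔐) (φ : 𝔐 ⟶ 𝔐') :
    (permEval π hπ 𝔐' (f ≫ φ) : 𝔐'.obj.V) = φ.hom.hom (permEval π hπ 𝔐 f : 𝔐.obj.V) := rfl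

/-- equivariance of the evaluation: right translation by `π γ` corresponds to `ρ γ⁻¹`. -/
lemma permEval_permR {𝔐 : SmRep ℤ 𝒰} (f : perm π ℤ hπ ⟶ 𝔐) (γ : Γ) :
    (permEval π hπ 𝔐 (permR π ℤ hπ (π γ) ≫ f) : 𝔐.obj.V) =
      𝔐.obj.ρ γ⁻¹ (permEval π hπ 𝔐 f : 𝔐.obj.V) := by
  show f.hom.hom ((permR π ℤ hπ (π γ)).hom.hom (permDelta π hπ 1)) = _
  rw [permR_permDelta, one_mul, ← map_inv, hom_permDelta]
  rfl

end EvalSurj

end Fermat.Agent.TW.EC
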