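/-
S56 / (EC-G), leaf EC-C, helper1: the four-term exact sequence
`0 → (E_S)^U → (J_S)^U → 𝔻^U → Cl → 0` with `Cl` finite, in terms of helper3's `EC.invSub`.
-/
import Fermat.Agent.TW.ECC_helper1_Main
import Fermat.Agent.TW.EC_helper3_Perm

set_option autoImplicit false
set_option linter.unusedSectionVars false
set_option linter.style.haveILetI false

open CategoryTheory

namespace Fermat.Agent.TW.ECC

open Fermat.Agent.CFT Fermat.Agent.CFT.Sm Fermat.Agent.CFT.Arith Fermat.Agent.TW.EC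

section general

variable {Γ : Type} [Group Γ] {𝒰 : OpenBasis Γ}

/-- the map induced on `W`-invariants by a morphism of smooth representations. -/
noncomputable def invMap {𝔐 𝔑 : SmRep ℤ 𝒰} (f : 𝔐 ⟶ 𝔑) (W : Subgroup Γ) :
    ↥(invSub 𝔐 W) →+ ↥(invSub 𝔑 W) where
  toFun x := ⟨f.hom.hom x.1, fun γ hγ => by
    have h1 : f.hom.hom (𝔐.obj.ρ γ x.1) = 𝔑.obj.ρ γ (f.hom.hom x.1) :=
      Rep.hom_comm_apply f.hom γ x.1
    rw [← h1, x.2 γ hγ]⟩
  map_zero' := Subtype.ext (map_zero f.hom.hom)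
  map_add' x y := Subtype.ext (map_add f.hom.hom x.1 y.1)

@[simp] theorem coe_invMap {𝔐 𝔑 : SmRep ℤ 𝒰} (f : 𝔐 ⟶ 𝔑) (W : Subgroup Γ)
    (x : ↥(invSub 𝔐 W)) : ((invMap f W x : ↥(invSub 𝔑 W)) : 𝔑.obj.V) = f.hom.hom x.1 := rfl

theorem rho_mul_apply (𝔐 : SmRep ℤ 𝒰) (a b : Γ) (x : 𝔐.obj.V) :
    𝔐.obj.ρ (a * b) x = 𝔐.obj.ρ a (𝔐.obj.ρ b x) := by
  rw [map_mul]; rfl

theorem rho_one_apply (𝔐 : SmRep ℤ 𝒰) (x : 𝔐.obj.V) : 𝔐.obj.ρ 1 x = x := by
  rw [map_one]; rfl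

/-- the action of `γ` on the invariants of a normal subgroup. -/
noncomputable def invAct (𝔐 : SmRep ℤ 𝒰) (W : Subgroup Γ) [hW : W.Normal] (γ : Γ) :
    ↥(invSub 𝔐 W) →+ ↥(invSub 𝔐 W) where
  toFun x := ⟨𝔐.obj.ρ γ x.1, fun w hw => by
    have h1 : γ⁻¹ * w * γ ∈ W := by
      have := hW.conj_mem w hw γ⁻¹
      rwa [inv_inv] at this
    have h2 : w * γ = γ * (γ⁻¹ * w * γ) := by group
    rw [← rho_mul_apply, h2, rho_mul_apply, x.2 _ h1]⟩
  map_zero' := Subtype.ext (map_zero _)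
  map_add' x y := Subtype.ext (map_add _ x.1 y.1)

@[simp] theorem coe_invAct (𝔐 : SmRep ℤ 𝒰) (W : Subgroup Γ) [W.Normal] (γ : Γ)
    (x : ↥(invSub 𝔐 W)) : ((invAct 𝔐 W γ x : ↥(invSub 𝔐 W)) : 𝔐.obj.V) = 𝔐.obj.ρ γ x.1 := rfl

/-- the maps induced on invariants are equivariant. -/
theorem invMap_invAct {𝔐 𝔑 : SmRep ℤ 𝒰} (f : 𝔐 ⟶ 𝔑) (W : Subgroup Γ) [W.Normal] (γ : Γ)
    (x : ↥(invSub 𝔐 W)) : invMap f W (invAct 𝔐 W γ x) = invAct 𝔑 W γ (invMap f W x) :=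
  Subtype.ext (Rep.hom_comm_apply f.hom γ x.1)

/-- elements of the subgroup act trivially on its invariants. -/
theorem invAct_of_mem (𝔐 : SmRep ℤ 𝒰) (W : Subgroup Γ) [W.Normal] {γ : Γ} (hγ : γ ∈ W)
    (x : ↥(invSub 𝔐 W)) : invAct 𝔐 W γ x = x := Subtype.ext (x.2 γ hγ)

theorem invAct_mul (𝔐 : SmRep ℤ 𝒰) (W : Subgroup Γ) [W.Normal] (γ δ : Γ)
    (x : ↥(invSub 𝔐 W)) : invAct 𝔐 W (γ * δ) x = invAct 𝔐 W γ (invAct 𝔐 W δ x) := by
  apply Subtype.ext
  rw [coe_invAct, coe_invAct, coe_invAct, rho_mul_apply]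

theorem invAct_one (𝔐 : SmRep ℤ 𝒰) (W : Subgroup Γ) [W.Normal]
    (x : ↥(invSub 𝔐 W)) : invAct 𝔐 W 1 x = x := by
  apply Subtype.ext
  rw [coe_invAct, rho_one_apply]

end general

section arith

/-- `Γ = Gal(Ω/ℚ)`. -/
local notation "Γ" => (AlgebraicClosure ℚ ≃ₐ[ℚ] AlgebraicClosure ℚ)

variable {S : Finset Nat.Primes}

/-- **(EC-C)**: the cokernel of `(J_S)^U → 𝔻^U` is finite, for every open `U`. -/
theorem finite_coker_invMap_piSm (hS : S.Nonempty) (U : Subgroup Γ)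
    (hU : (levelBasis S).IsOpen U) :
    Finite (↥(invSub (DSm S) U) ⧸ (invMap (piSm S) U).range) := by
  classical
  obtain ⟨T, hT, hTc⟩ := exists_finset_coker_piSm hS U hU
  let f : ↥T → ↥(invSub (DSm S) U) ⧸ (invMap (piSm S) U).range :=
    fun t => QuotientAddGroup.mk ⟨t.1, hT t.1 t.2⟩
  refine Finite.of_surjective f ?_
  intro q
  induction q using QuotientAddGroup.induction_on with
  | H c =>
    obtain ⟨t, ht, j, hj, hc⟩ := hTc c.1 c.2
    refine ⟨⟨t, ht⟩, ?_⟩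
    change (QuotientAddGroup.mk (⟨t, hT t ht⟩ : ↥(invSub (DSm S) U)) :
      ↥(invSub (DSm S) U) ⧸ (invMap (piSm S) U).range) = QuotientAddGroup.mk c
    rw [QuotientAddGroup.eq]
    refine ⟨⟨j, hj⟩, ?_⟩
    apply Subtype.ext
    rw [coe_invMap, AddSubgroup.coe_add, AddSubgroup.coe_neg, hc]
    change (piSm S).hom.hom j = -t + (t + (piSm S).hom.hom j)
    rw [neg_add_cancel_left]

/-- the cokernel of `(J_S)^U → 𝔻^U` has finite index form. -/
theorem finiteIndex_range_invMap_piSm (hS : S.Nonempty) (U : Subgroup Γ)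
    (hU : (levelBasis S).IsOpen U) : (invMap (piSm S) U).range.FiniteIndex := by
  haveI := finite_coker_invMap_piSm hS U hU
  exact AddSubgroup.finiteIndex_of_finite_quotient

/-- exactness at `(J_S)^U`. -/
theorem invMap_diagESSm_piSm_exact (hS : S.Nonempty) (U : Subgroup Γ) :
    Function.Exact (invMap (diagESSm S) U) (invMap (piSm S) U) := by
  intro j
  constructor
  · intro h0
    have h0' : (piSm S).hom.hom j.1 = 0 := congrArg Subtype.val h0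
    obtain ⟨e, he, hej⟩ := exists_invariant_of_piSm_eq_zero hS U j.1 j.2 h0'
    exact ⟨⟨e, he⟩, Subtype.ext hej⟩
  · rintro ⟨e, rfl⟩
    apply Subtype.ext
    change (piSm S).hom.hom ((diagESSm S).hom.hom e.1) = 0
    exact (diagESHom_piHom_exact (S := S) _).mpr ⟨e.1, rfl⟩

/-- injectivity of `(E_S)^U → (J_S)^U`. -/
theorem invMap_diagESSm_injective (hS : S.Nonempty) (U : Subgroup Γ) :
    Function.Injective (invMap (diagESSm S) U) := by
  intro x y h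
  apply Subtype.ext
  exact diagESHom_injective hS (congrArg Subtype.val h)

end arith

end Fermat.Agent.TW.ECC
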