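/-
S56 (Taylor–Wiles) — helper9.  Leaf (EC-H): `H¹(U, J_S) = 0` for the kernels `U` of finite quotients
`π : G_ℚ → G` with `𝒰_S`-open kernel.  In the first-variable form: `Ext¹(perm π ℤ, J_S) = 0`.

Proof: `J_S = ⊕_v coind J_v`; the `res ⊣ coind` adjunction; `res_v (perm π ℤ)` is a finite sum of
copies of `perm π_v ℤ` (`π_v : G_v → range (π ∘ ψ_v)`), one for each right coset; Shapiro for
`perm π_v ℤ`; and the local coarse Hilbert 90.
-/
import Fermat.Agent.TW.EC_helper3_PermShapiro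
import Fermat.Agent.TW.Datum_helper9
import Fermat.Agent.CFT.LocForm.Coarse_helper4
import Fermat.Agent.CFT.Sm.LocalInv_helper1

set_option autoImplicit false

open CategoryTheory CategoryTheory.Limits CategoryTheory.Abelian

namespace Fermat.Agent.TW.EC

open Fermat.Agent.CFT.Sm

section General

variable {Γ : Type} [Group Γ] {𝒰 : OpenBasis Γ} {Γ' : Type} [Group Γ'] {𝒰' : OpenBasis Γ'}
  (ψ : Γ' →* Γ) (hψ : 𝒰'.Finer (𝒰.comap ψ))
  {G : Type} [Group G] (π : Γ →* G) (hπ : 𝒰.IsOpen π.ker)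
  (A : Type) [AddCommGroup A]

/-- the local quotient map `Γ' → range (π ∘ ψ)` -/
noncomputable abbrev locQuot : Γ' →* (π.comp ψ).range := (π.comp ψ).rangeRestrict

lemma coe_locQuot (τ : Γ') : ((locQuot ψ π τ : (π.comp ψ).range) : G) = π (ψ τ) := rfl

lemma locQuot_surjective : Function.Surjective (locQuot ψ π) :=
  (π.comp ψ).rangeRestrict_surjective

include hψ hπ in
lemma isOpen_ker_locQuot : 𝒰'.IsOpen (locQuot ψ π).ker := by
  obtain ⟨U, hU, hUle⟩ := hπ
  obtain ⟨V, hV, hVU⟩ := hψ (U.comap ψ) ⟨U, hU, rfl⟩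
  refine ⟨V, hV, fun g hg => ?_⟩
  rw [MonoidHom.mem_ker]
  apply Subtype.ext
  exact hUle (hVU hg)

/-- restriction of a function on `G` to the right coset `H g`, `H = range (π ∘ ψ)`, viewed as a
function on `H`: a morphism `res_ψ (perm π A) ⟶ perm π_ψ A`. -/
noncomputable def cosetRes (g : G) :
    (resSm ℤ ψ hψ).obj (perm π A hπ) ⟶
      perm (locQuot ψ π) A (isOpen_ker_locQuot ψ hψ π hπ) :=
  ObjectProperty.homMk (Rep.ofHom (ρ := (permρ π A).comp ψ) (σ := permρ (locQuot ψ π) A)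
    { toLinearMap := LinearMap.funLeft ℤ A (fun h : (π.comp ψ).range => (h : G) * g)
      isIntertwining' := fun τ => LinearMap.ext fun F => by
        funext h
        show F ((π (ψ τ))⁻¹ * ((h : G) * g)) =
          F ((((locQuot ψ π τ)⁻¹ * h : (π.comp ψ).range) : G) * g)
        rw [← mul_assoc]
        rfl })

lemma cosetRes_apply (g : G) (F : (perm π A hπ).obj.V) (h : (π.comp ψ).range) :
    perm.toFun' ((cosetRes ψ hψ π hπ A g).hom.hom F) h = perm.toFun' F ((h : G) * g) := rfl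

open Classical in
/-- extension by zero from the right coset `H g`: a morphism `perm π_ψ A ⟶ res_ψ (perm π A)`. -/
noncomputable def cosetExtFun (g : G) (F' : (π.comp ψ).range → A) : G → A :=
  fun x => if hx : x * g⁻¹ ∈ (π.comp ψ).range then F' ⟨x * g⁻¹, hx⟩ else 0

lemma cosetExtFun_of_mem (g : G) (F' : (π.comp ψ).range → A) {x : G}
    (hx : x * g⁻¹ ∈ (π.comp ψ).range) : cosetExtFun ψ π A g F' x = F' ⟨x * g⁻¹, hx⟩ := by
  unfold cosetExtFun
  rw [dif_pos hx]

lemma cosetExtFun_of_not_mem (g : G) (F' : (π.comp ψ).range → A) {x : G}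
    (hx : x * g⁻¹ ∉ (π.comp ψ).range) : cosetExtFun ψ π A g F' x = 0 := by
  unfold cosetExtFun
  rw [dif_neg hx]

/-- extension by zero from the right coset `H g`, as a linear map -/
noncomputable def cosetExtLin (g : G) : ((π.comp ψ).range → A) →ₗ[ℤ] (G → A) where
  toFun := cosetExtFun ψ π A g
  map_add' F F' := by
    funext x
    by_cases hx : x * g⁻¹ ∈ (π.comp ψ).range
    · rw [Pi.add_apply, cosetExtFun_of_mem _ _ _ _ _ hx, cosetExtFun_of_mem _ _ _ _ _ hx,
        cosetExtFun_of_mem _ _ _ _ _ hx]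
      rfl
    · rw [Pi.add_apply, cosetExtFun_of_not_mem _ _ _ _ _ hx, cosetExtFun_of_not_mem _ _ _ _ _ hx,
        cosetExtFun_of_not_mem _ _ _ _ _ hx, add_zero]
  map_smul' n F := by
    funext x
    by_cases hx : x * g⁻¹ ∈ (π.comp ψ).range
    · rw [Pi.smul_apply, cosetExtFun_of_mem _ _ _ _ _ hx, cosetExtFun_of_mem _ _ _ _ _ hx]
      rfl
    · rw [Pi.smul_apply, cosetExtFun_of_not_mem _ _ _ _ _ hx, cosetExtFun_of_not_mem _ _ _ _ _ hx,
        smul_zero]

/-- extension by zero from the right coset `H g`: a morphism `perm π_ψ A ⟶ res_ψ (perm π A)`. -/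
noncomputable def cosetExt (g : G) :
    perm (locQuot ψ π) A (isOpen_ker_locQuot ψ hψ π hπ) ⟶
      (resSm ℤ ψ hψ).obj (perm π A hπ) :=
  ObjectProperty.homMk (Rep.ofHom (ρ := permρ (locQuot ψ π) A) (σ := (permρ π A).comp ψ)
    { toLinearMap := cosetExtLin ψ π A g
      isIntertwining' := fun τ => LinearMap.ext fun F' => by
        funext x
        show cosetExtFun ψ π A g (fun h => F' ((locQuot ψ π τ)⁻¹ * h)) x =
          cosetExtFun ψ π A g F' ((π (ψ τ))⁻¹ * x)
        have hmem : (π (ψ τ))⁻¹ * x * g⁻¹ ∈ (π.comp ψ).range ↔ x * g⁻¹ ∈ (π.comp ψ).range := by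
          rw [mul_assoc]
          exact Subgroup.mul_mem_cancel_left _ (inv_mem ⟨τ, rfl⟩)
        by_cases hx : x * g⁻¹ ∈ (π.comp ψ).range
        · rw [cosetExtFun_of_mem _ _ _ _ _ hx, cosetExtFun_of_mem _ _ _ _ _ (hmem.2 hx)]
          congr 1
          apply Subtype.ext
          show (π (ψ τ))⁻¹ * (x * g⁻¹) = (π (ψ τ))⁻¹ * x * g⁻¹
          rw [mul_assoc]
        · rw [cosetExtFun_of_not_mem _ _ _ _ _ hx,
            cosetExtFun_of_not_mem _ _ _ _ _ (fun h => hx (hmem.1 h))] })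

lemma cosetExt_apply (g : G) (F' : (perm (locQuot ψ π) A (isOpen_ker_locQuot ψ hψ π hπ)).obj.V) :
    (cosetExt ψ hψ π hπ A g).hom.hom F' = cosetExtFun ψ π A g F' := rfl

/-- evaluation of morphisms at a vector, as an additive map -/
noncomputable def smEval {X Y : SmRep ℤ 𝒰'} (x : X.obj.V) : (X ⟶ Y) →+ Y.obj.V where
  toFun f := f.hom.hom x
  map_zero' := rfl
  map_add' _ _ := rfl

lemma smEval_apply {X Y : SmRep ℤ 𝒰'} (x : X.obj.V) (f : X ⟶ Y) : smEval x f = f.hom.hom x := rfl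

open Classical in
/-- `res_ψ (perm π A)` is the sum over the right cosets `H g` of copies of `perm π_ψ A`. -/
theorem sum_cosetRes_cosetExt
    [Fintype (Quotient (QuotientGroup.rightRel (π.comp ψ).range))] :
    ∑ q : Quotient (QuotientGroup.rightRel (π.comp ψ).range),
      cosetRes ψ hψ π hπ A q.out ≫ cosetExt ψ hψ π hπ A q.out = 𝟙 _ := by
  apply smRep_hom_ext'
  intro F
  rw [← smEval_apply F, map_sum]
  funext x
  have hsum : (∑ q : Quotient (QuotientGroup.rightRel (π.comp ψ).range),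
      smEval F (cosetRes ψ hψ π hπ A q.out ≫ cosetExt ψ hψ π hπ A q.out)) x =
      ∑ q : Quotient (QuotientGroup.rightRel (π.comp ψ).range),
        cosetExtFun ψ π A q.out (fun h : (π.comp ψ).range =>
          perm.toFun' (π := π) (hπ := hπ) F ((h : G) * q.out)) x :=
    Finset.sum_apply _ _ _
  have hx0 : x * (Quotient.out (Quotient.mk (QuotientGroup.rightRel (π.comp ψ).range) x))⁻¹ ∈
      (π.comp ψ).range := by
    rw [← QuotientGroup.rightRel_apply]
    exact Quotient.exact (Quotient.out_eq _)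
  refine hsum.trans ?_
  rw [Finset.sum_eq_single (Quotient.mk (QuotientGroup.rightRel (π.comp ψ).range) x)]
  · rw [cosetExtFun_of_mem _ _ _ _ _ hx0]
    show perm.toFun' F (x * _⁻¹ * _) = _
    rw [inv_mul_cancel_right]
    rfl
  · intro q _ hq
    apply cosetExtFun_of_not_mem
    intro hmem
    apply hq
    rw [← QuotientGroup.rightRel_apply] at hmem
    rw [← Quotient.out_eq q]
    exact Quotient.sound hmem
  · intro h
    exact absurd (Finset.mem_univ _) h

lemma ext_mk₀_sum_comp {𝒞 : Type*} [Category 𝒞] [Abelian 𝒞] [HasExt 𝒞] {P M : 𝒞} {n : ℕ}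
    (e : Ext P M n) {ι : Type*} (s : Finset ι) (f : ι → (P ⟶ P)) :
    (Ext.mk₀ (∑ i ∈ s, f i)).comp e (zero_add n) = ∑ i ∈ s, (Ext.mk₀ (f i)).comp e (zero_add n) := by
  classical
  induction s using Finset.induction_on with
  | empty => rw [Finset.sum_empty, Finset.sum_empty, Ext.mk₀_zero, Ext.zero_comp]
  | insert a s ha ih => rw [Finset.sum_insert ha, Finset.sum_insert ha, Ext.mk₀_add, Ext.add_comp, ih]

/-- **Mackey + Shapiro + Hilbert 90, local form**: if `H¹(W, M) = 0` for all open subgroups `W`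
of `Γ'`, then `Ext¹_{Γ'}(res_ψ (perm π ℤ), M) = 0`. -/
theorem ext_res_perm_one_eq_zero [Finite G] (M : SmRep ℤ 𝒰')
    (h90 : ∀ W : Subgroup Γ', 𝒰'.IsOpen W → ∀ x : smH (𝒰'.sub W) (resSub M W) 1, x = 0)
    (e : Ext ((resSm ℤ ψ hψ).obj (perm π ℤ hπ)) M 1) : e = 0 := by
  classical
  have : Fintype (Quotient (QuotientGroup.rightRel (π.comp ψ).range)) := Fintype.ofFinite _
  have h0 : ∀ e' : Ext (perm (locQuot ψ π) ℤ (isOpen_ker_locQuot ψ hψ π hπ)) M 1, e' = 0 := by
    intro e'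
    apply (permShapiro (locQuot ψ π) (isOpen_ker_locQuot ψ hψ π hπ) ℤ
      (locQuot_surjective ψ π) M 1).injective
    rw [map_zero]
    apply (smUnitCompare (resSub M (locQuot ψ π).ker) 1).injective
    rw [map_zero]
    exact h90 _ (isOpen_ker_locQuot ψ hψ π hπ) _
  have h1 : e = (Ext.mk₀ (𝟙 _)).comp e (zero_add 1) := (Ext.mk₀_id_comp e).symm
  rw [h1, ← sum_cosetRes_cosetExt ψ hψ π hπ ℤ, ext_mk₀_sum_comp]
  apply Finset.sum_eq_zero
  intro q _
  rw [← Ext.mk₀_comp_mk₀, Ext.comp_assoc_of_second_deg_zero,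
    h0 ((Ext.mk₀ (cosetExt ψ hψ π hπ ℤ q.out)).comp e (zero_add 1)), Ext.comp_zero]

/-- the same for the coinduced module: `Ext¹_Γ(perm π ℤ, coind_ψ M) = 0`. -/
theorem ext_perm_coind_one_eq_zero [Finite G] (M : SmRep ℤ (𝒰.comap ψ))
    (h90 : ∀ W : Subgroup Γ', (𝒰.comap ψ).IsOpen W →
      ∀ x : smH ((𝒰.comap ψ).sub W) (resSub M W) 1, x = 0)
    (e : Ext (perm π ℤ hπ) ((coindSm ℤ 𝒰 (𝒰.comap ψ) ψ).obj M) 1) : e = 0 := by
  apply (extAdjEquiv (resCoindSmAdjunction ℤ ψ (OpenBasis.Finer.refl _)) (perm π ℤ hπ) M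
    1).symm.injective
  rw [map_zero]
  exact ext_res_perm_one_eq_zero ψ (OpenBasis.Finer.refl _) π hπ M h90 _

end General

section Datum

variable {Γ : Type} [Group Γ] {𝒰 : OpenBasis Γ} {p : ℕ} [hp : Fact p.Prime] {ι : Type} [Fintype ι]
  {Gv : ι → Type} [∀ v, Group (Gv v)] {ψ : ∀ v, Gv v →* Γ} {𝒱 : ∀ v, OpenBasis (Gv v)}
  (D : PTDatum 𝒰 p ψ 𝒱)
  {G : Type} [Group G] [Finite G] (π : Γ →* G) (hπ : 𝒰.IsOpen π.ker)

/-- **(EC-H), abstract form**: if the coarse local modules satisfy Hilbert 90 then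
`Ext¹(perm π ℤ, J) = 0`. -/
theorem ext_perm_J_one_eq_zero
    (h90 : ∀ (v : ι) (W : Subgroup (Gv v)), (𝒰.comap (ψ v)).IsOpen W →
      ∀ x : smH ((𝒰.comap (ψ v)).sub W) (resSub (D.Jv v) W) 1, x = 0)
    (e : Ext (perm π ℤ hπ) D.J 1) : e = 0 := by
  rw [D.ext_eq_sum_proj_incl e]
  apply Finset.sum_eq_zero
  intro v _
  rw [ext_perm_coind_one_eq_zero (ψ v) π hπ (D.Jv v) (h90 v)
    (e.comp (Ext.mk₀ (D.proj v)) (add_zero 1)), Ext.zero_comp]

end Datum

section Arith

open Fermat.Agent.CFT.Arith Fermat.Agent.CFT.Bridge Fermat.Agent.CFT ExtCitation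

/-- `GQ = Gal(ℚ̄/ℚ)`. -/
local notation "GQ" => (AlgebraicClosure ℚ ≃ₐ[ℚ] AlgebraicClosure ℚ)

variable {p : ℕ} [Fact p.Prime] (hp2 : p ≠ 2) (S : Finset Nat.Primes) (hpS : pPrime p ∈ S)
  {G : Type} [Group G] [Finite G] (π : GQ →* G) (hπ : (levelBasis S).IsOpen π.ker)

include hp2 hpS in
/-- **(EC-H), first-variable form**: `Ext¹(perm π ℤ, J_S) = 0`. -/
theorem ext_perm_JSSm_one_eq_zero (e : Ext (perm π ℤ hπ) (JSSm S) 1) : e = 0 :=
  ext_perm_J_one_eq_zero (twDatum hp2 S hpS) π hπ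
    (fun v W hW x => LocForm.coarse_h90 v W hW x) e

include hp2 hpS hπ in
/-- **(EC-H), `Ext` form**: `Ext¹_U(ℤ, J_S) = 0` for `U = ker π`. -/
theorem ext_smUnit_resSub_JSSm_one_eq_zero (hsurj : Function.Surjective π)
    (e : Ext (smUnit ℤ ((levelBasis S).sub π.ker)) (resSub (JSSm S) π.ker) 1) : e = 0 := by
  apply (permShapiro π hπ ℤ hsurj (JSSm S) 1).symm.injective
  rw [map_zero]
  exact ext_perm_JSSm_one_eq_zero hp2 S hpS π hπ _

include hp2 hpS hπ in
/-- **(EC-H)**: `H¹(U, J_S) = 0` for `U = ker π`. -/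
theorem smH_resSub_JSSm_one_eq_zero (hsurj : Function.Surjective π)
    (x : smH ((levelBasis S).sub π.ker) (resSub (JSSm S) π.ker) 1) : x = 0 := by
  apply (smUnitCompare (resSub (JSSm S) π.ker) 1).symm.injective
  rw [map_zero]
  exact ext_smUnit_resSub_JSSm_one_eq_zero hp2 S hpS π hπ hsurj _

include hp2 hpS in
/-- **(EC-H)** for normal open subgroups `U` of `G_ℚ`. -/
theorem smH_resSub_JSSm_one_eq_zero_of_normal (U : Subgroup GQ) [U.Normal]
    (hU : (levelBasis S).IsOpen U)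
    (x : smH ((levelBasis S).sub U) (resSub (JSSm S) U) 1) : x = 0 := by
  have hfin : Finite (GQ ⧸ U) := by
    have := hU.finiteIndex
    exact Subgroup.finite_quotient_of_finiteIndex
  have hopen : (levelBasis S).IsOpen (QuotientGroup.mk' U).ker := by
    rw [QuotientGroup.ker_mk']
    exact hU
  have key : ∀ V : Subgroup GQ, (QuotientGroup.mk' U).ker = V →
      ∀ y : smH ((levelBasis S).sub V) (resSub (JSSm S) V) 1, y = 0 := by
    intro V hV
    subst hV
    exact fun y => smH_resSub_JSSm_one_eq_zero hp2 S hpS (QuotientGroup.mk' U) hopen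
      (QuotientGroup.mk'_surjective U) y
  exact key U (QuotientGroup.ker_mk' U) x

end Arith

end Fermat.Agent.TW.EC
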