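/-
S56 / (EC-G) — helper3.  Definitions for the leaf EC-D1:
functions on a finite group `G` invariant under left translation by a subgroup `H`, with the
endomorphism "right translation by `g`", and the `G`-set `⊔_i H_i\G` with the permutation
"right multiplication by `g`".
-/
import Fermat.Agent.TW.EC_helper3_Reg

set_option autoImplicit false
set_option linter.style.haveILetI false
set_option linter.unusedSectionVars false

namespace Fermat.Agent.TW.EC

open Fermat.Agent.TW.Ind

section InvFun

variable (k : Type) [Field k] {G : Type} [Group G]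

/-- functions on `G` invariant under left translation by `H`. -/
def invFunH (H : Subgroup G) : Submodule k (G → k) where
  carrier := {F | ∀ h ∈ H, ∀ x, F (h * x) = F x}
  add_mem' := fun {F F'} hF hF' h hh x => by
    show F (h * x) + F' (h * x) = F x + F' x
    rw [hF h hh x, hF' h hh x]
  zero_mem' := fun _ _ _ => rfl
  smul_mem' := fun c F hF h hh x => by
    show c • F (h * x) = c • F x
    rw [hF h hh x]

lemma mem_invFunH (H : Subgroup G) (F : G → k) :
    F ∈ invFunH k H ↔ ∀ h ∈ H, ∀ x, F (h * x) = F x := Iff.rfl

lemma invFunH_stable (H : Subgroup G) (g : G) :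
    invFunH k H ≤ (invFunH k H).comap (rightTrHom k G g) := by
  intro F hF h hh x
  show F (h * x * g) = F (x * g)
  rw [mul_assoc]
  exact hF h hh (x * g)

/-- right translation by `g` on the `H`-invariant functions: `(F ⋆ g) x = F (x g)`. -/
noncomputable def invFunTr (H : Subgroup G) (g : G) : invFunH k H →ₗ[k] invFunH k H :=
  (rightTrHom k G g).restrict (invFunH_stable k H g)

lemma invFunTr_apply (H : Subgroup G) (g : G) (F : invFunH k H) (x : G) :
    (invFunTr k H g F : G → k) x = (F : G → k) (x * g) := rfl

end InvFun

section Coset

variable {G : Type} [Group G] {ι : Type} (H : ι → Subgroup G)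

/-- the `G`-set `⊔_i H_i \ G`. -/
abbrev cosetSigma : Type := Σ i, Quotient (QuotientGroup.rightRel (H i))

/-- right multiplication by `g` on `H \ G`. -/
def cosetMul (K : Subgroup G) (g : G) :
    Quotient (QuotientGroup.rightRel K) → Quotient (QuotientGroup.rightRel K) :=
  Quotient.map' (fun x => x * g) (fun a b hab => by
    rw [QuotientGroup.rightRel_apply] at hab ⊢
    have : b * g * (a * g)⁻¹ = b * a⁻¹ := by group
    rw [this]
    exact hab)

lemma cosetMul_mk (K : Subgroup G) (g x : G) :
    cosetMul K g (Quotient.mk'' x) = Quotient.mk'' (x * g) := rfl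

/-- right multiplication by `g` on `H \ G`, as a permutation. -/
def cosetPerm (K : Subgroup G) (g : G) : Equiv.Perm (Quotient (QuotientGroup.rightRel K)) where
  toFun := cosetMul K g
  invFun := cosetMul K g⁻¹
  left_inv q := by
    induction q using Quotient.inductionOn' with
    | h x => rw [cosetMul_mk, cosetMul_mk, mul_inv_cancel_right]
  right_inv q := by
    induction q using Quotient.inductionOn' with
    | h x => rw [cosetMul_mk, cosetMul_mk, inv_mul_cancel_right]

/-- right multiplication by `g` on `⊔_i H_i \ G`. -/
def cosetSigmaPerm (g : G) : Equiv.Perm (cosetSigma H) :=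
  Equiv.sigmaCongrRight (fun i => cosetPerm (H i) g)

lemma cosetSigmaPerm_apply (g : G) (i : ι) (q : Quotient (QuotientGroup.rightRel (H i))) :
    cosetSigmaPerm H g ⟨i, q⟩ = ⟨i, cosetMul (H i) g q⟩ := rfl

end Coset

end Fermat.Agent.TW.EC
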