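/-
S56 / (EC-G), helper3: `perm π A ≅ coind_{ker π}^Γ (trivial A)` and the Shapiro isomorphism
`Extⁿ(perm π A, 𝔐) ≃ Extⁿ_{ker π}(A, Res 𝔐)`.
-/
import Fermat.Agent.TW.EC_helper3_Perm
import Fermat.Agent.CFT.Sm.ExtAdj_helper9

set_option autoImplicit false
set_option linter.style.haveILetI false
set_option linter.unusedSectionVars false

open CategoryTheory CategoryTheory.Limits CategoryTheory.Abelian

namespace Fermat.Agent.TW.EC

open Fermat.Agent.CFT.Sm Fermat.Agent.TW.Ind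

variable {Γ : Type} [Group Γ] {𝒰 : OpenBasis Γ} {G : Type} [Group G] (π : Γ →* G)
  (hπ : 𝒰.IsOpen π.ker) (A : Type) [AddCommGroup A]

/-- the coinduced object `coind_{ker π}^Γ A`. -/
noncomputable abbrev permCoindObj : SmRep ℤ 𝒰 :=
  (coindSm ℤ 𝒰 (𝒰.sub π.ker) π.ker.subtype).obj (trivSm ℤ (𝒰.sub π.ker) A)

/-- the comparison on vectors: `F ↦ (γ ↦ F ((π γ)⁻¹))`. -/
noncomputable def permCoindVec (F : (perm π A hπ).obj.V) : (permCoindObj π A (𝒰 := 𝒰)).obj.V :=
  coindSmMk π.ker.subtype (fun γ => perm.toFun' F (π γ)⁻¹)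
    (fun a h => by
      have ha : π (a : Γ) = 1 := MonoidHom.mem_ker.mp a.2
      show perm.toFun' F (π ((a : Γ) * h))⁻¹ = perm.toFun' F (π h)⁻¹
      rw [map_mul, ha, one_mul])
    (by
      obtain ⟨U, hU, hUle⟩ := hπ
      refine ⟨U, hU, fun h u hu => ?_⟩
      have hu' : π u = 1 := hUle hu
      show perm.toFun' F (π (h * u))⁻¹ = perm.toFun' F (π h)⁻¹
      rw [map_mul, hu', mul_one])

lemma coindSmFun_permCoindVec (F : (perm π A hπ).obj.V) (γ : Γ) :
    coindSmFun π.ker.subtype (permCoindVec π hπ A F) γ = perm.toFun' F (π γ)⁻¹ := rfl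

/-- the comparison on vectors, as an additive map. -/
noncomputable def permCoindAddHom :
    (perm π A hπ).obj.V →+ (permCoindObj π A (𝒰 := 𝒰)).obj.V :=
  AddMonoidHom.mk' (permCoindVec π hπ A) (fun F F' => by
    apply coindSmFun_injective
    funext γ
    rfl)

/-- the comparison morphism `perm π A ⟶ coind_{ker π}^Γ A`. -/
noncomputable def permCoindHom : perm π A hπ ⟶ permCoindObj π A (𝒰 := 𝒰) :=
  ObjectProperty.homMk (Rep.ofHom (ρ := permρ π A) (σ := (permCoindObj π A (𝒰 := 𝒰)).obj.ρ)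
    ⟨(permCoindAddHom π hπ A).toIntLinearMap, fun g => by
      apply LinearMap.ext
      intro F
      apply coindSmFun_injective π.ker.subtype
      funext γ
      show perm.toFun' (π := π) (hπ := hπ) ((perm π A hπ).obj.ρ g F) (π γ)⁻¹ =
        perm.toFun' (π := π) (hπ := hπ) F (π (γ * g))⁻¹
      rw [perm_ρ_apply, map_mul, mul_inv_rev]⟩)

lemma permCoindHom_apply (F : (perm π A hπ).obj.V) :
    (permCoindHom π hπ A).hom.hom F = permCoindVec π hπ A F := rfl

theorem permCoindHom_bijective (hsurj : Function.Surjective π) :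
    Function.Bijective (permCoindHom π hπ A).hom.hom := by
  constructor
  · intro F F' h
    apply perm_ext
    intro x
    obtain ⟨γ, hγ⟩ := hsurj x⁻¹
    have h1 := congrArg (fun t => coindSmFun π.ker.subtype t γ) h
    simp only [permCoindHom_apply, coindSmFun_permCoindVec] at h1
    rw [hγ, inv_inv] at h1
    exact h1
  · intro f
    let s : G → Γ := Function.surjInv hsurj
    have hs : ∀ g, π (s g) = g := Function.surjInv_eq hsurj
    refine ⟨perm.mk' (fun x => coindSmFun π.ker.subtype f (s x⁻¹)), ?_⟩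
    apply coindSmFun_injective π.ker.subtype
    funext γ
    rw [permCoindHom_apply, coindSmFun_permCoindVec, perm.toFun'_mk', inv_inv]
    -- `s (π γ) = u * γ` with `u ∈ ker π`
    have hmem : s (π γ) * γ⁻¹ ∈ π.ker := by
      rw [MonoidHom.mem_ker, map_mul, map_inv, hs, mul_inv_cancel]
    have h2 := coindSmFun_equivariant π.ker.subtype f ⟨_, hmem⟩ γ
    have h3 : (π.ker.subtype ⟨s (π γ) * γ⁻¹, hmem⟩) * γ = s (π γ) := by
      show s (π γ) * γ⁻¹ * γ = s (π γ)
      rw [inv_mul_cancel_right]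
    rw [h3] at h2
    rw [h2]
    rfl

/-- `perm π A ≅ coind_{ker π}^Γ A`. -/
noncomputable def permCoindIso (hsurj : Function.Surjective π) :
    perm π A hπ ≅ permCoindObj π A (𝒰 := 𝒰) :=
  haveI := isIso_of_bijective (permCoindHom π hπ A) (permCoindHom_bijective π hπ A hsurj)
  asIso (permCoindHom π hπ A)

/-- transport of `Ext` along an isomorphism in the first variable. -/
noncomputable def extCongrLeft {𝒞 : Type*} [Category 𝒞] [Abelian 𝒞] [HasExt 𝒞] {X X' : 𝒞}
    (e : X ≅ X') (Y : 𝒞) (n : ℕ) : Ext X' Y n ≃+ Ext X Y n where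
  toFun x := (Ext.mk₀ e.hom).comp x (zero_add n)
  invFun x := (Ext.mk₀ e.inv).comp x (zero_add n)
  left_inv x := by
    show (Ext.mk₀ e.inv).comp ((Ext.mk₀ e.hom).comp x (zero_add n)) (zero_add n) = x
    rw [Ext.mk₀_comp_mk₀_assoc, e.inv_hom_id, Ext.mk₀_id_comp]
  right_inv x := by
    show (Ext.mk₀ e.hom).comp ((Ext.mk₀ e.inv).comp x (zero_add n)) (zero_add n) = x
    rw [Ext.mk₀_comp_mk₀_assoc, e.hom_inv_id, Ext.mk₀_id_comp]
  map_add' x y := Ext.comp_add _ _ _ _

/-- **Shapiro**: `Extⁿ(perm π A, 𝔐) ≃ Extⁿ_{ker π}(A, Res 𝔐)`. -/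
noncomputable def permShapiro (hsurj : Function.Surjective π) (𝔐 : SmRep ℤ 𝒰) (n : ℕ) :
    Ext (perm π A hπ) 𝔐 n ≃+ Ext (trivSm ℤ (𝒰.sub π.ker) A) (resSub 𝔐 π.ker) n :=
  (extCongrLeft (permCoindIso π hπ A hsurj) 𝔐 n).symm.trans
    (extAdjEquiv (coindResSmAdjunction ℤ π.ker hπ) (trivSm ℤ (𝒰.sub π.ker) A) 𝔐 n)

end Fermat.Agent.TW.EC
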