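/-
S56 / (EC-G) — helper3.  Mathlib + the counting engine.
The contravariant (first variable) long exact `Ext` sequence as additive maps with
`range = ker`, and multiplicativity of `#Ext⁰ · #Ext² / #Ext¹` in the FIRST variable.
-/
import Mathlib
import Fermat.Agent.TW.ECEngine_helper3_Count

set_option autoImplicit false
set_option linter.style.haveILetI false
set_option linter.unusedSectionVars false

open CategoryTheory CategoryTheory.Abelian

namespace Fermat.Agent.TW.EC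

section Contra

universe w v u

variable {𝒞 : Type u} [Category.{v} 𝒞] [Abelian 𝒞] [HasExt.{w} 𝒞]

variable (Y : 𝒞) {S : ShortComplex 𝒞} (hS : S.ShortExact)

/-- `Extⁿ(X₃, Y) → Extⁿ(X₂, Y)` -/
noncomputable def clesA (n : ℕ) : Ext S.X₃ Y n →+ Ext S.X₂ Y n :=
  (Ext.mk₀ S.g).precomp Y (zero_add n)

/-- `Extⁿ(X₂, Y) → Extⁿ(X₁, Y)` -/
noncomputable def clesB (n : ℕ) : Ext S.X₂ Y n →+ Ext S.X₁ Y n :=
  (Ext.mk₀ S.f).precomp Y (zero_add n)

include hS in
/-- `Extⁿ(X₁, Y) → Extⁿ⁺¹(X₃, Y)` -/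
noncomputable def clesD (n : ℕ) : Ext S.X₁ Y n →+ Ext S.X₃ Y (n + 1) :=
  hS.extClass.precomp Y (add_comm 1 n)

lemma clesA_apply (n : ℕ) (x : Ext S.X₃ Y n) :
    clesA Y (S := S) n x = (Ext.mk₀ S.g).comp x (zero_add n) := rfl

lemma clesB_apply (n : ℕ) (x : Ext S.X₂ Y n) :
    clesB Y (S := S) n x = (Ext.mk₀ S.f).comp x (zero_add n) := rfl

lemma clesD_apply (n : ℕ) (x : Ext S.X₁ Y n) :
    clesD Y hS n x = hS.extClass.comp x (add_comm 1 n) := rfl

include hS in
theorem clesA_range (n : ℕ) : (clesA Y (S := S) n).range = (clesB Y (S := S) n).ker := by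
  ext x
  simp only [AddMonoidHom.mem_range, AddMonoidHom.mem_ker]
  constructor
  · rintro ⟨y, rfl⟩
    show (Ext.mk₀ S.f).comp ((Ext.mk₀ S.g).comp y (zero_add n)) (zero_add n) = 0
    rw [← Ext.comp_assoc_of_second_deg_zero, Ext.mk₀_comp_mk₀, S.zero, Ext.mk₀_zero,
      Ext.zero_comp]
  · intro hx
    exact Ext.contravariant_sequence_exact₂ hS Y x hx

theorem clesB_range (n : ℕ) : (clesB Y (S := S) n).range = (clesD Y hS n).ker := by
  ext x
  simp only [AddMonoidHom.mem_range, AddMonoidHom.mem_ker]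
  constructor
  · rintro ⟨y, rfl⟩
    show hS.extClass.comp ((Ext.mk₀ S.f).comp y (zero_add n)) (add_comm 1 n) = 0
    rw [← Ext.comp_assoc _ _ _ (add_zero 1) (zero_add n) (by omega), hS.extClass_comp,
      Ext.zero_comp]
  · intro hx
    exact Ext.contravariant_sequence_exact₁ hS Y x (add_comm 1 n) hx

theorem clesD_range (n : ℕ) : (clesD Y hS n).range = (clesA Y (S := S) (n + 1)).ker := by
  ext x
  simp only [AddMonoidHom.mem_range, AddMonoidHom.mem_ker]
  constructor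
  · rintro ⟨y, rfl⟩
    show (Ext.mk₀ S.g).comp (hS.extClass.comp y (add_comm 1 n)) (zero_add (n + 1)) = 0
    rw [← Ext.comp_assoc _ _ _ (zero_add 1) (add_comm 1 n) (by omega), hS.comp_extClass,
      Ext.zero_comp]
  · intro hx
    exact Ext.contravariant_sequence_exact₃ hS Y x hx (add_comm 1 n)

include hS in
theorem clesA_zero_injective : Function.Injective (clesA Y (S := S) 0) := by
  haveI := hS.epi_g
  exact Ext.precomp_mk₀_injective_of_epi Y S.g

include hS in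
/-- **multiplicativity of the Euler characteristic in the first variable.** -/
theorem ecm_mul_of_shortExact_left
    (hfin₁ : ∀ n, n ≤ 2 → Finite (Ext S.X₁ Y n)) (hfin₂ : ∀ n, n ≤ 2 → Finite (Ext S.X₂ Y n))
    (hfin₃ : ∀ n, n ≤ 2 → Finite (Ext S.X₃ Y n)) (h3 : ∀ e : Ext S.X₃ Y 3, e = 0) :
    ecm S.X₂ Y = ecm S.X₁ Y * ecm S.X₃ Y := by
  have key : ∀ n, Nat.card (Ext S.X₃ Y n) * Nat.card (Ext S.X₁ Y n) =
      Nat.card (Ext S.X₂ Y n) *
        (Nat.card (clesA Y (S := S) n).ker * Nat.card (clesA Y (S := S) (n + 1)).ker) := by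
    intro n
    rw [← clesD_range Y hS n]
    exact card_mul_card_eq _ _ _ (clesA_range Y hS n) (clesB_range Y hS n)
  have hk0 : Nat.card (clesA Y (S := S) 0).ker = 1 := by
    rw [(AddMonoidHom.ker_eq_bot_iff _).mpr (clesA_zero_injective Y hS)]
    exact Nat.card_unique
  have hk3 : Nat.card (clesA Y (S := S) 3).ker = 1 := by
    haveI : Subsingleton (Ext S.X₃ Y 3) := ⟨fun x y => by rw [h3 x, h3 y]⟩
    exact Nat.card_unique
  haveI := hfin₁ 0 (by omega); haveI := hfin₁ 1 (by omega); haveI := hfin₁ 2 (by omega)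
  haveI := hfin₂ 0 (by omega); haveI := hfin₂ 1 (by omega); haveI := hfin₂ 2 (by omega)
  haveI := hfin₃ 0 (by omega); haveI := hfin₃ 1 (by omega); haveI := hfin₃ 2 (by omega)
  have hpos : ∀ (A : Type w) [AddCommGroup A] [Finite A], (Nat.card A : ℚ≥0) ≠ 0 := by
    intro A _ _
    exact_mod_cast (Nat.card_pos (α := A)).ne'
  have k0 := key 0
  have k1 := key 1
  have k2 := key 2
  rw [hk0] at k0
  rw [hk3] at k2
  have k0' : (Nat.card (Ext S.X₃ Y 0) : ℚ≥0) * Nat.card (Ext S.X₁ Y 0) =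
      Nat.card (Ext S.X₂ Y 0) * (1 * Nat.card (clesA Y (S := S) 1).ker) := by exact_mod_cast k0
  have k1' : (Nat.card (Ext S.X₃ Y 1) : ℚ≥0) * Nat.card (Ext S.X₁ Y 1) =
      Nat.card (Ext S.X₂ Y 1) *
        (Nat.card (clesA Y (S := S) 1).ker * Nat.card (clesA Y (S := S) 2).ker) := by
    exact_mod_cast k1
  have k2' : (Nat.card (Ext S.X₃ Y 2) : ℚ≥0) * Nat.card (Ext S.X₁ Y 2) =
      Nat.card (Ext S.X₂ Y 2) * (Nat.card (clesA Y (S := S) 2).ker * 1) := by exact_mod_cast k2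
  unfold ecm
  have h11 := hpos (Ext S.X₁ Y 1)
  have h21 := hpos (Ext S.X₂ Y 1)
  have h31 := hpos (Ext S.X₃ Y 1)
  rw [div_mul_div_comm, div_eq_div_iff h21 (mul_ne_zero h11 h31)]
  have e1 : (Nat.card (Ext S.X₁ Y 0) : ℚ≥0) * Nat.card (Ext S.X₁ Y 2) *
      (Nat.card (Ext S.X₃ Y 0) * Nat.card (Ext S.X₃ Y 2)) =
      ((Nat.card (Ext S.X₃ Y 0) : ℚ≥0) * Nat.card (Ext S.X₁ Y 0)) *
        (Nat.card (Ext S.X₃ Y 2) * Nat.card (Ext S.X₁ Y 2)) := by ring
  rw [e1, k0', k2']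
  have e2 : (Nat.card (Ext S.X₂ Y 0) : ℚ≥0) * Nat.card (Ext S.X₂ Y 2) *
      (Nat.card (Ext S.X₁ Y 1) * Nat.card (Ext S.X₃ Y 1)) =
      (Nat.card (Ext S.X₂ Y 0) : ℚ≥0) * Nat.card (Ext S.X₂ Y 2) *
      (Nat.card (Ext S.X₃ Y 1) * Nat.card (Ext S.X₁ Y 1)) := by ring
  rw [e2, k1']
  ring

/-- `Ext` groups of isomorphic sources. -/
theorem ecm_congr_left {X X' : 𝒞} (e : X ≅ X') : ecm X Y = ecm X' Y := by
  have h : ∀ n, Nat.card (Ext X Y n) = Nat.card (Ext X' Y n) := fun n =>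
    Nat.card_congr
      { toFun := fun x => (Ext.mk₀ e.inv).comp x (zero_add n)
        invFun := fun x => (Ext.mk₀ e.hom).comp x (zero_add n)
        left_inv := fun x => by
          show (Ext.mk₀ e.hom).comp ((Ext.mk₀ e.inv).comp x (zero_add n)) (zero_add n) = x
          rw [← Ext.comp_assoc_of_second_deg_zero, Ext.mk₀_comp_mk₀, e.hom_inv_id,
            Ext.mk₀_id_comp]
        right_inv := fun x => by
          show (Ext.mk₀ e.inv).comp ((Ext.mk₀ e.hom).comp x (zero_add n)) (zero_add n) = x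
          rw [← Ext.comp_assoc_of_second_deg_zero, Ext.mk₀_comp_mk₀, e.inv_hom_id,
            Ext.mk₀_id_comp] }
  unfold ecm
  rw [h 0, h 1, h 2]

end Contra

end Fermat.Agent.TW.EC
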