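import Mathlib

set_option autoImplicit false
set_option linter.style.haveILetI false

open Polynomial

namespace Fermat.Agent.TW.Ind

section Charpoly

variable {k : Type*} [Field k]

/-- charpoly of a block upper triangular endomorphism of a product. -/
theorem charpoly_prod_triangular {V₁ V₂ : Type*} [AddCommGroup V₁] [Module k V₁]
    [FiniteDimensional k V₁] [AddCommGroup V₂] [Module k V₂] [FiniteDimensional k V₂]
    (a : V₁ →ₗ[k] V₁) (b : V₂ →ₗ[k] V₁) (d : V₂ →ₗ[k] V₂) :
    ((a.coprod b).prod (d.comp (LinearMap.snd k V₁ V₂))).charpoly = a.charpoly * d.charpoly := by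
  classical
  let b₁ := Module.Free.chooseBasis k V₁
  let b₂ := Module.Free.chooseBasis k V₂
  let bb := b₁.prod b₂
  rw [← LinearMap.charpoly_toMatrix a b₁, ← LinearMap.charpoly_toMatrix d b₂,
    ← LinearMap.charpoly_toMatrix _ bb, ← Matrix.charpoly_fromBlocks_zero₂₁
      (M₁₂ := LinearMap.toMatrix b₂ b₁ b)]
  congr 1
  ext i j
  rcases i with i | i <;> rcases j with j | j <;>
    simp [bb, LinearMap.toMatrix_apply, Matrix.fromBlocks]

variable {V : Type*} [AddCommGroup V] [Module k V] [FiniteDimensional k V]

/-- The characteristic polynomial is multiplicative along an invariant subspace. -/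
theorem charpoly_eq_restrict_mul_mapQ (φ : V →ₗ[k] V) (N : Submodule k V)
    (hN : N ≤ N.comap φ) :
    φ.charpoly = (φ.restrict hN).charpoly * (N.mapQ N φ hN).charpoly := by
  obtain ⟨N', hc⟩ := Submodule.exists_isCompl N
  let e : (N × N') ≃ₗ[k] V := Submodule.prodEquivOfIsCompl N N' hc
  let q : (V ⧸ N) ≃ₗ[k] N' := Submodule.quotientEquivOfIsCompl N N' hc
  let a : N →ₗ[k] N := φ.restrict hN
  let b : N' →ₗ[k] N := (N.projectionOnto N' hc).comp (φ.comp N'.subtype)
  let d : N' →ₗ[k] N' := (N'.projectionOnto N hc.symm).comp (φ.comp N'.subtype)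
  have hd : d.charpoly = (N.mapQ N φ hN).charpoly := by
    rw [← LinearEquiv.charpoly_conj q (N.mapQ N φ hN)]
    congr 1
  have key : e.symm.conj φ = (a.coprod b).prod (d.comp (LinearMap.snd k N N')) := by
    apply LinearMap.ext
    rintro ⟨x, y⟩
    have hx : φ (x : V) ∈ N := hN x.2
    simp only [LinearEquiv.conj_apply, LinearMap.comp_apply, LinearEquiv.coe_coe, e,
      LinearEquiv.symm_symm, Submodule.coe_prodEquivOfIsCompl', map_add,
      Submodule.prodEquivOfIsCompl_symm_apply, LinearMap.prod_apply,
      a, b, d, Prod.mk_add_mk]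
    congr 1
    · congr 1
      apply Subtype.ext
      rw [Submodule.coe_projectionOnto_apply, Submodule.projection_apply_of_mem_left hc hx]
      rfl
    · rw [(Submodule.projectionOnto_apply_eq_zero_iff hc.symm).mpr hx, zero_add]
      rfl
  rw [← LinearEquiv.charpoly_conj e.symm φ, key, charpoly_prod_triangular, hd]

end Charpoly

section TraceTower

variable {k D S : Type*} [Field k] [Field D] [Algebra k D] [FiniteDimensional k D]
  [AddCommGroup S] [Module k S] [Module D S] [IsScalarTower k D S] [FiniteDimensional D S]

/-- transitivity of the trace of endomorphisms in a tower. -/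
theorem trace_restrictScalars_eq (f : S →ₗ[D] S) :
    LinearMap.trace k S (f.restrictScalars k) = Algebra.trace k D (LinearMap.trace D S f) := by
  classical
  let bA := Module.Free.chooseBasis k D
  let bM := Module.Free.chooseBasis D S
  rw [LinearMap.trace_eq_matrix_trace k (bA.smulTower' bM), LinearMap.restrictScalars_toMatrix,
    LinearMap.trace_eq_matrix_trace D bM]
  rw [Matrix.trace, Matrix.trace, map_sum, Fintype.sum_prod_type]
  refine Finset.sum_congr rfl fun j _ => ?_
  rw [Algebra.trace_eq_matrix_trace bA]
  rfl

/-- over finite fields there is a `D`-linear endomorphism of `k`-trace one. -/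
theorem exists_linearMap_trace_one [Finite k] [Nontrivial S] :
    ∃ f : S →ₗ[D] S, LinearMap.trace k S (f.restrictScalars k) = 1 := by
  classical
  obtain ⟨c, hc⟩ := Algebra.trace_surjective k D 1
  let b := Module.Free.chooseBasis D S
  haveI : Nonempty (Module.Free.ChooseBasisIndex D S) := b.index_nonempty
  let j₀ : Module.Free.ChooseBasisIndex D S := Classical.arbitrary _
  refine ⟨(c • b.coord j₀).smulRight (b j₀), ?_⟩
  rw [trace_restrictScalars_eq, LinearMap.trace_smulRight]
  simp [hc]

end TraceTower

/-- A bundled finite module over a `k`-algebra `A` (with its `k`-structure). -/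
structure FinMod (k A : Type) [Field k] [Ring A] [Algebra k A] where
  /-- the underlying type -/
  carrier : Type
  [acg : AddCommGroup carrier]
  [modk : Module k carrier]
  [modA : Module A carrier]
  [tower : IsScalarTower k A carrier]
  [fin : Finite carrier]

namespace FinMod

variable {k A : Type} [Field k] [Ring A] [Algebra k A]

instance : CoeSort (FinMod k A) Type := ⟨FinMod.carrier⟩

instance (M : FinMod k A) : AddCommGroup M := M.acg
instance (M : FinMod k A) : Module k M := M.modk
instance (M : FinMod k A) : Module A M := M.modA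
instance (M : FinMod k A) : IsScalarTower k A M := M.tower
instance (M : FinMod k A) : Finite M := M.fin

/-- bundle a type -/
abbrev of (k A : Type) [Field k] [Ring A] [Algebra k A] (X : Type) [AddCommGroup X] [Module k X]
    [Module A X] [IsScalarTower k A X] [Finite X] : FinMod k A := ⟨X⟩

instance (M : FinMod k A) : FiniteDimensional k M := Module.Finite.of_finite

/-- the submodule as a bundled module -/
abbrev sub {M : FinMod k A} (N : Submodule A M) : FinMod k A := of k A N

instance {M : FinMod k A} (N : Submodule A M) : Finite (M ⧸ N) :=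
  Finite.of_surjective N.mkQ (Submodule.mkQ_surjective N)

/-- the quotient as a bundled module -/
abbrev quot {M : FinMod k A} (N : Submodule A M) : FinMod k A := of k A (M ⧸ N)

end FinMod

variable {k A : Type} [Field k] [Ring A] [Algebra k A]

/-- A multiplicative invariant of finite modules: iso-invariant, multiplicative on
sub/quotient, trivial on zero modules. -/
structure IsMulInv {Γ : Type} [CommMonoid Γ] (χ : FinMod k A → Γ) : Prop where
  iso : ∀ M N : FinMod k A, Nonempty (M ≃ₗ[A] N) → χ M = χ N
  mul : ∀ (M : FinMod k A) (N : Submodule A M), χ M = χ (FinMod.sub N) * χ (FinMod.quot N)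
  zero : ∀ M : FinMod k A, Subsingleton M → χ M = 1

/-- the `k`-linear action of `a : A` on `M`. -/
noncomputable def actL (a : A) (M : FinMod k A) : M →ₗ[k] M :=
  Algebra.lsmul k k M a

@[simp] lemma actL_apply (a : A) (M : FinMod k A) (x : M) : actL a M x = a • x := rfl

/-- the characteristic polynomial of `a : A` on `M`. -/
noncomputable def cp (a : A) (M : FinMod k A) : k[X] := (actL a M).charpoly

lemma cp_monic (a : A) (M : FinMod k A) : (cp a M).Monic := LinearMap.charpoly_monic _

lemma cp_ne_zero (a : A) (M : FinMod k A) : cp a M ≠ 0 := (cp_monic a M).ne_zero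

theorem isMulInv_cp (a : A) : IsMulInv (cp (k := k) a) where
  iso M N := by
    rintro ⟨e⟩
    let e' : M ≃ₗ[k] N := e.restrictScalars k
    rw [cp, cp, ← LinearEquiv.charpoly_conj e' (actL a M)]
    congr 1
    apply LinearMap.ext
    intro x
    simp [LinearEquiv.conj_apply, e']
  mul M N := by
    have hN : N.restrictScalars k ≤ (N.restrictScalars k).comap (actL a M) := by
      intro x hx
      exact N.smul_mem a hx
    rw [cp, charpoly_eq_restrict_mul_mapQ (actL a M) (N.restrictScalars k) hN]
    rfl
  zero M hM := by
    rw [cp]
    have : Module.finrank k M = 0 := Module.finrank_zero_of_subsingleton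
    have h1 := LinearMap.charpoly_natDegree (actL a M)
    rw [this] at h1
    exact Polynomial.eq_one_of_monic_natDegree_zero (LinearMap.charpoly_monic _) h1


/-- every finite module has a "Jordan–Hölder list" of simple modules computing all
multiplicative invariants. -/
theorem exists_simple_list (M : FinMod k A) :
    ∃ L : List (FinMod k A), (∀ S ∈ L, IsSimpleModule A S) ∧
      ∀ {Γ : Type} [CommMonoid Γ] (χ : FinMod k A → Γ), IsMulInv χ → χ M = (L.map χ).prod := by
  obtain ⟨n, hn⟩ : ∃ n, Nat.card M = n := ⟨_, rfl⟩
  induction n using Nat.strong_induction_on generalizing M with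
  | _ n ih =>
    by_cases hM : Subsingleton M
    · exact ⟨[], by simp, fun χ hχ => by simpa using hχ.zero M hM⟩
    · rw [not_subsingleton_iff_nontrivial] at hM
      -- a simple submodule
      obtain ⟨N, hN⟩ : ∃ N : Submodule A M, IsAtom N := by
        haveI : IsArtinian A M := isArtinian_of_finite
        exact IsAtomic.exists_atom (Submodule A M)
      have hsimple : IsSimpleModule A N := isSimpleModule_iff_isAtom.mpr hN
      have hlt : Nat.card (M ⧸ N) < n := by
        rw [← hn, Submodule.card_eq_card_quotient_mul_card N]
        have h1 : 1 < Nat.card N := by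
          haveI : Nontrivial N := IsSimpleModule.nontrivial A N
          exact Finite.one_lt_card
        have h2 : 0 < Nat.card (M ⧸ N) := Nat.card_pos
        nlinarith
      obtain ⟨L, hL, hLχ⟩ := ih _ hlt (FinMod.quot N) rfl
      refine ⟨FinMod.sub N :: L, ?_, fun χ hχ => ?_⟩
      · intro S hS
        rcases List.mem_cons.mp hS with rfl | hS
        · exact hsimple
        · exact hL S hS
      · rw [List.map_cons, List.prod_cons, hχ.mul M N, hLχ χ hχ]

end Fermat.Agent.TW.Ind
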