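/-
S56 / (EC-G), helper3: the characteristic polynomial `cpz p σ` of an additive endomorphism of a
finite abelian group killed by `p` (`= 1` otherwise), its multiplicativity along exact sequences.
-/
import Fermat.Agent.TW.Ind_helper3_FinMod

set_option autoImplicit false
set_option linter.style.haveILetI false
set_option linter.unusedSectionVars false

open Polynomial

namespace Fermat.Agent.TW.EC

open Fermat.Agent.TW.Ind

variable (p : ℕ) [hp : Fact p.Prime]

section Def

variable {T : Type*} [AddCommGroup T]

/-- auxiliary: the characteristic polynomial for a given `𝔽_p`-module structure. -/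
noncomputable def cpzAux [Module (ZMod p) T] [Finite T] (σ : T →+ T) : (ZMod p)[X] :=
  (σ.toZModLinearMap p).charpoly

open Classical in
/-- the characteristic polynomial of an additive endomorphism of a finite abelian group killed by
`p`, as an `𝔽_p`-linear map (`1` if the group is not finite or not killed by `p`). -/
noncomputable def cpz (σ : T →+ T) : (ZMod p)[X] :=
  if h : (∀ x : T, p • x = 0) ∧ Finite T then
    @cpzAux p hp T _ (AddCommGroup.zmodModule h.1) h.2 σ
  else 1

/-- `cpz` computed with any `𝔽_p`-module structure. -/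
theorem cpz_eq [Module (ZMod p) T] [Finite T] (σ : T →+ T) :
    cpz p σ = (σ.toZModLinearMap p).charpoly := by
  have hT : ∀ x : T, p • x = 0 := fun x => by
    rw [← Nat.cast_smul_eq_nsmul (ZMod p), ZMod.natCast_self, zero_smul]
  have h : (∀ x : T, p • x = 0) ∧ Finite T := ⟨hT, inferInstance⟩
  unfold cpz
  rw [dif_pos h]
  have : AddCommGroup.zmodModule h.1 = (inferInstance : Module (ZMod p) T) :=
    Subsingleton.elim _ _
  subst this
  rfl

theorem cpz_eq' [Module (ZMod p) T] [Finite T] (φ : T →ₗ[ZMod p] T) :
    cpz p φ.toAddMonoidHom = φ.charpoly := by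
  rw [cpz_eq]
  congr 1

theorem cpzAux_monic [Module (ZMod p) T] [Finite T] (σ : T →+ T) : (cpzAux p σ).Monic :=
  LinearMap.charpoly_monic _

theorem cpz_monic (σ : T →+ T) : (cpz p σ).Monic := by
  unfold cpz
  split_ifs with h
  · exact @cpzAux_monic p hp T _ (AddCommGroup.zmodModule h.1) h.2 σ
  · exact monic_one

theorem cpz_ne_zero (σ : T →+ T) : cpz p σ ≠ 0 := (cpz_monic p σ).ne_zero

end Def

section Congr

variable {T T' : Type*} [AddCommGroup T] [AddCommGroup T']

/-- `cpz` is invariant under equivariant isomorphisms. -/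
theorem cpz_congr (e : T ≃+ T') (σ : T →+ T) (σ' : T' →+ T') (h : ∀ x, e (σ x) = σ' (e x)) :
    cpz p σ = cpz p σ' := by
  classical
  by_cases hT : (∀ x : T, p • x = 0) ∧ Finite T
  · have hT' : (∀ x : T', p • x = 0) ∧ Finite T' := by
      refine ⟨fun x => ?_, ?_⟩
      · obtain ⟨y, rfl⟩ := e.surjective x
        rw [← map_nsmul, hT.1, map_zero]
      · haveI := hT.2
        exact Finite.of_equiv T e.toEquiv
    haveI : Module (ZMod p) T := AddCommGroup.zmodModule hT.1
    haveI : Module (ZMod p) T' := AddCommGroup.zmodModule hT'.1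
    haveI := hT.2
    haveI := hT'.2
    haveI : Module.Finite (ZMod p) T := Module.Finite.of_finite
    haveI : Module.Finite (ZMod p) T' := Module.Finite.of_finite
    haveI : Module.Free (ZMod p) T := Module.Free.of_divisionRing (ZMod p) T
    haveI : Module.Free (ZMod p) T' := Module.Free.of_divisionRing (ZMod p) T'
    rw [cpz_eq, cpz_eq]
    let eL : T ≃ₗ[ZMod p] T' :=
      { e.toAddMonoidHom.toZModLinearMap p with
        invFun := e.symm
        left_inv := e.left_inv
        right_inv := e.right_inv }
    rw [← LinearEquiv.charpoly_conj eL (σ.toZModLinearMap p)]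
    congr 1
    apply LinearMap.ext
    intro x
    show e (σ (e.symm x)) = σ' x
    rw [h, AddEquiv.apply_symm_apply]
  · have hT' : ¬ ((∀ x : T', p • x = 0) ∧ Finite T') := by
      intro hT'
      apply hT
      refine ⟨fun x => ?_, ?_⟩
      · apply e.injective
        rw [map_nsmul, hT'.1, map_zero]
      · haveI := hT'.2
        exact Finite.of_equiv T' e.symm.toEquiv
    unfold cpz
    rw [dif_neg hT, dif_neg hT']

end Congr

section Exact

variable {T : Type*} [AddCommGroup T]

/-- the restriction of an endomorphism to an invariant subgroup. -/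
def restrictSub (σ : T →+ T) (N : AddSubgroup T) (hN : ∀ x ∈ N, σ x ∈ N) : N →+ N where
  toFun x := ⟨σ (x : T), hN x x.2⟩
  map_zero' := Subtype.ext (map_zero σ)
  map_add' x y := Subtype.ext (map_add σ (x : T) (y : T))

@[simp] lemma restrictSub_coe (σ : T →+ T) (N : AddSubgroup T) (hN : ∀ x ∈ N, σ x ∈ N) (x : N) :
    (restrictSub σ N hN x : T) = σ (x : T) := rfl

/-- the endomorphism induced on the quotient by an invariant subgroup. -/
def quotSub (σ : T →+ T) (N : AddSubgroup T) (hN : ∀ x ∈ N, σ x ∈ N) : T ⧸ N →+ T ⧸ N :=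
  QuotientAddGroup.map N N σ (fun x hx => hN x hx)

@[simp] lemma quotSub_mk (σ : T →+ T) (N : AddSubgroup T) (hN : ∀ x ∈ N, σ x ∈ N) (x : T) :
    quotSub σ N hN (QuotientAddGroup.mk x) = QuotientAddGroup.mk (σ x) := rfl

/-- multiplicativity of `cpz` along an invariant subgroup. -/
theorem cpz_eq_sub_mul_quot (hT : ∀ x : T, p • x = 0) [Finite T] (σ : T →+ T) (N : AddSubgroup T)
    (hN : ∀ x ∈ N, σ x ∈ N) :
    cpz p σ = cpz p (restrictSub σ N hN) * cpz p (quotSub σ N hN) := by
  haveI : Module (ZMod p) T := AddCommGroup.zmodModule hT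
  let φ : T →ₗ[ZMod p] T := σ.toZModLinearMap p
  let NL : Submodule (ZMod p) T := N.toZModSubmodule p
  have hNL : NL ≤ NL.comap φ := by
    intro x hx
    exact hN x hx
  have h1 := charpoly_eq_restrict_mul_mapQ φ NL hNL
  haveI : Finite (T ⧸ NL) := Finite.of_surjective NL.mkQ (Submodule.mkQ_surjective _)
  rw [cpz_eq, h1]
  congr 1
  · -- restriction
    have hTN : ∀ x : N, p • x = 0 := fun x => Subtype.ext (hT x)
    rw [← cpz_eq' p (φ.restrict hNL)]
    refine cpz_congr p (AddEquiv.refl _) _ _ (fun x => ?_)
    rfl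
  · rw [← cpz_eq' p (NL.mapQ NL φ hNL)]
    refine cpz_congr p (AddEquiv.refl _) _ _ (fun x => ?_)
    induction x using QuotientAddGroup.induction_on with
    | H x => rfl

variable {A B C : Type*} [AddCommGroup A] [AddCommGroup B] [AddCommGroup C]

/-- invariance of the range of an equivariant map. -/
lemma range_invariant (f : A →+ B) (α : A →+ A) (β : B →+ B) (hf : ∀ a, f (α a) = β (f a)) :
    ∀ x ∈ f.range, β x ∈ f.range := by
  rintro _ ⟨a, rfl⟩
  exact ⟨α a, hf a⟩

/-- `cpz` of the range of an equivariant map (with the restricted endomorphism). -/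
noncomputable def cpzRange (f : A →+ B) (α : A →+ A) (β : B →+ B)
    (hf : ∀ a, f (α a) = β (f a)) : (ZMod p)[X] :=
  cpz p (restrictSub β f.range (range_invariant f α β hf))

/-- **(EX)** for an exact sequence `A → B → C` of finite abelian groups killed by `p` with
compatible endomorphisms: `cpz B = cpz(range f) * cpz(range g)`. -/
theorem cpz_exact (hB : ∀ x : B, p • x = 0) [Finite B]
    (f : A →+ B) (g : B →+ C) (α : A →+ A) (β : B →+ B) (γ : C →+ C)
    (hf : ∀ a, f (α a) = β (f a)) (hg : ∀ b, g (β b) = γ (g b))
    (hex : ∀ b, g b = 0 ↔ b ∈ f.range) :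
    cpz p β = cpzRange p f α β hf * cpzRange p g β γ hg := by
  rw [cpz_eq_sub_mul_quot p hB β f.range (range_invariant f α β hf)]
  unfold cpzRange
  congr 1
  -- `B ⧸ range f ≃ range g`
  have hker : g.ker = f.range := by
    ext b
    rw [AddMonoidHom.mem_ker, hex]
  let e : B ⧸ f.range ≃+ g.range :=
    (QuotientAddGroup.quotientAddEquivOfEq hker.symm).trans
      (QuotientAddGroup.quotientKerEquivRange g)
  refine cpz_congr p e _ _ (fun x => ?_)
  induction x using QuotientAddGroup.induction_on with
  | H b =>
    apply Subtype.ext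
    show g (β b) = γ (g b)
    exact hg b

/-- an injective equivariant map: `cpz A = cpz(range f)`. -/
theorem cpz_eq_cpzRange_of_injective (f : A →+ B) (α : A →+ A) (β : B →+ B)
    (hf : ∀ a, f (α a) = β (f a)) (hinj : Function.Injective f) :
    cpz p α = cpzRange p f α β hf := by
  unfold cpzRange
  let e : A ≃+ f.range := AddMonoidHom.ofInjective hinj
  refine cpz_congr p e _ _ (fun a => ?_)
  apply Subtype.ext
  exact hf a

/-- a surjective equivariant map: `cpz B = cpz(range f)`. -/
theorem cpz_eq_cpzRange_of_surjective (f : A →+ B) (α : A →+ A) (β : B →+ B)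
    (hf : ∀ a, f (α a) = β (f a)) (hsurj : Function.Surjective f) :
    cpz p β = cpzRange p f α β hf := by
  unfold cpzRange
  have htop : f.range = ⊤ := AddMonoidHom.range_eq_top.mpr hsurj
  let e : B ≃+ f.range := (AddSubgroup.topEquiv.symm).trans (AddEquiv.addSubgroupCongr htop.symm)
  refine cpz_congr p e _ _ (fun b => ?_)
  apply Subtype.ext
  rfl

/-- the zero map has trivial range. -/
theorem cpzRange_of_eq_zero (f : A →+ B) (α : A →+ A) (β : B →+ B)
    (hf : ∀ a, f (α a) = β (f a)) (h0 : ∀ a, f a = 0) : cpzRange p f α β hf = 1 := by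
  unfold cpzRange
  have hsub : Subsingleton f.range := by
    refine ⟨fun x y => ?_⟩
    obtain ⟨_, a, rfl⟩ := x
    obtain ⟨_, b, rfl⟩ := y
    apply Subtype.ext
    show f a = f b
    rw [h0, h0]
  haveI : Module (ZMod p) f.range := AddCommGroup.zmodModule (fun x => Subsingleton.elim _ _)
  haveI : Finite f.range := Finite.of_subsingleton
  haveI : Module.Finite (ZMod p) f.range := Module.Finite.of_finite
  haveI : Module.Free (ZMod p) f.range := Module.Free.of_divisionRing (ZMod p) f.range
  rw [cpz_eq]
  have h1 := LinearMap.charpoly_natDegree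
    ((restrictSub β f.range (range_invariant f α β hf)).toZModLinearMap p)
  rw [Module.finrank_zero_of_subsingleton] at h1
  exact (LinearMap.charpoly_monic _).natDegree_eq_zero.mp h1

end Exact

end Fermat.Agent.TW.EC
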