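/-
S56 / (EC-G) — helper3.  Mathlib + `cpz`.
Endomorphisms of the source object acting on `Ext` groups (first variable functoriality):
every map of the covariant long exact sequence is equivariant, every map of the contravariant
long exact sequence of an endomorphism of a short exact sequence is equivariant, and the
alternating product formula for characteristic polynomials along a nine term exact sequence.
-/
import Mathlib
import Fermat.Agent.TW.ECEngine_helper3_Count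
import Fermat.Agent.TW.EC_helper3_Contra
import Fermat.Agent.TW.EC_helper3_Cpz

set_option autoImplicit false
set_option linter.style.haveILetI false
set_option linter.unusedSectionVars false

open CategoryTheory CategoryTheory.Abelian Polynomial

namespace Fermat.Agent.TW.EC

section Nine

variable (p : ℕ) [hp : Fact p.Prime]

variable {A₀ A₁ A₂ A₃ A₄ A₅ A₆ A₇ A₈ : Type*}
  [AddCommGroup A₀] [AddCommGroup A₁] [AddCommGroup A₂] [AddCommGroup A₃] [AddCommGroup A₄]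
  [AddCommGroup A₅] [AddCommGroup A₆] [AddCommGroup A₇] [AddCommGroup A₈]

/-- the alternating product formula for `cpz` along an exact sequence
`0 → A₀ → A₁ → ⋯ → A₈ → 0` of finite groups killed by `p` with compatible endomorphisms. -/
theorem cpz_nine
    (h₁ : ∀ x : A₁, p • x = 0) (h₂ : ∀ x : A₂, p • x = 0)
    (h₃ : ∀ x : A₃, p • x = 0) (h₄ : ∀ x : A₄, p • x = 0) (h₅ : ∀ x : A₅, p • x = 0)
    (h₆ : ∀ x : A₆, p • x = 0) (h₇ : ∀ x : A₇, p • x = 0)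
    [Finite A₁] [Finite A₂] [Finite A₃] [Finite A₄] [Finite A₅] [Finite A₆]
    [Finite A₇]
    (f₀ : A₀ →+ A₁) (f₁ : A₁ →+ A₂) (f₂ : A₂ →+ A₃) (f₃ : A₃ →+ A₄) (f₄ : A₄ →+ A₅)
    (f₅ : A₅ →+ A₆) (f₆ : A₆ →+ A₇) (f₇ : A₇ →+ A₈)
    (σ₀ : A₀ →+ A₀) (σ₁ : A₁ →+ A₁) (σ₂ : A₂ →+ A₂) (σ₃ : A₃ →+ A₃) (σ₄ : A₄ →+ A₄)
    (σ₅ : A₅ →+ A₅) (σ₆ : A₆ →+ A₆) (σ₇ : A₇ →+ A₇) (σ₈ : A₈ →+ A₈)
    (e₀ : ∀ a, f₀ (σ₀ a) = σ₁ (f₀ a)) (e₁ : ∀ a, f₁ (σ₁ a) = σ₂ (f₁ a))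
    (e₂ : ∀ a, f₂ (σ₂ a) = σ₃ (f₂ a)) (e₃ : ∀ a, f₃ (σ₃ a) = σ₄ (f₃ a))
    (e₄ : ∀ a, f₄ (σ₄ a) = σ₅ (f₄ a)) (e₅ : ∀ a, f₅ (σ₅ a) = σ₆ (f₅ a))
    (e₆ : ∀ a, f₆ (σ₆ a) = σ₇ (f₆ a)) (e₇ : ∀ a, f₇ (σ₇ a) = σ₈ (f₇ a))
    (hinj : Function.Injective f₀)
    (x₁ : ∀ b, f₁ b = 0 ↔ b ∈ f₀.range) (x₂ : ∀ b, f₂ b = 0 ↔ b ∈ f₁.range)
    (x₃ : ∀ b, f₃ b = 0 ↔ b ∈ f₂.range) (x₄ : ∀ b, f₄ b = 0 ↔ b ∈ f₃.range)
    (x₅ : ∀ b, f₅ b = 0 ↔ b ∈ f₄.range) (x₆ : ∀ b, f₆ b = 0 ↔ b ∈ f₅.range)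
    (x₇ : ∀ b, f₇ b = 0 ↔ b ∈ f₆.range)
    (hsurj : Function.Surjective f₇) :
    cpz p σ₀ * cpz p σ₂ * cpz p σ₄ * cpz p σ₆ * cpz p σ₈ =
      cpz p σ₁ * cpz p σ₃ * cpz p σ₅ * cpz p σ₇ := by
  rw [cpz_eq_cpzRange_of_injective p f₀ σ₀ σ₁ e₀ hinj,
    cpz_exact p h₁ f₀ f₁ σ₀ σ₁ σ₂ e₀ e₁ x₁, cpz_exact p h₂ f₁ f₂ σ₁ σ₂ σ₃ e₁ e₂ x₂,
    cpz_exact p h₃ f₂ f₃ σ₂ σ₃ σ₄ e₂ e₃ x₃, cpz_exact p h₄ f₃ f₄ σ₃ σ₄ σ₅ e₃ e₄ x₄,
    cpz_exact p h₅ f₄ f₅ σ₄ σ₅ σ₆ e₄ e₅ x₅, cpz_exact p h₆ f₅ f₆ σ₅ σ₆ σ₇ e₅ e₆ x₆,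
    cpz_exact p h₇ f₆ f₇ σ₆ σ₇ σ₈ e₆ e₇ x₇,
    cpz_eq_cpzRange_of_surjective p f₇ σ₇ σ₈ e₇ hsurj]
  ring

end Nine

section Pre

universe w v u

variable {𝒞 : Type u} [Category.{v} 𝒞] [Abelian 𝒞] [HasExt.{w} 𝒞]

/-- the action of an endomorphism `r` of `P` on `Extⁿ(P, M)`. -/
noncomputable def preE {P : 𝒞} (r : P ⟶ P) (M : 𝒞) (n : ℕ) : Ext P M n →+ Ext P M n :=
  (Ext.mk₀ r).precomp M (zero_add n)

lemma preE_apply {P : 𝒞} (r : P ⟶ P) (M : 𝒞) (n : ℕ) (x : Ext P M n) :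
    preE r M n x = (Ext.mk₀ r).comp x (zero_add n) := rfl

/-- post-composition is equivariant. -/
lemma preE_comp {P : 𝒞} (r : P ⟶ P) {M M' : 𝒞} {n m k : ℕ} (x : Ext P M n) (y : Ext M M' m)
    (h : n + m = k) : preE r M' k (x.comp y h) = (preE r M n x).comp y h := by
  rw [preE_apply, preE_apply]
  exact (Ext.comp_assoc _ _ _ (zero_add n) h (by omega)).symm

lemma preE_id {P : 𝒞} (M : 𝒞) (n : ℕ) (x : Ext P M n) : preE (𝟙 P) M n x = x := by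
  rw [preE_apply, Ext.mk₀_id_comp]

lemma preE_comp_endo {P : 𝒞} (r r' : P ⟶ P) (M : 𝒞) (n : ℕ) (x : Ext P M n) :
    preE (r ≫ r') M n x = preE r M n (preE r' M n x) := by
  rw [preE_apply, preE_apply, preE_apply, ← Ext.mk₀_comp_mk₀,
    Ext.comp_assoc_of_second_deg_zero]

lemma preE_add {P : 𝒞} (r r' : P ⟶ P) (M : 𝒞) (n : ℕ) (x : Ext P M n) :
    preE (r + r') M n x = preE r M n x + preE r' M n x := by
  rw [preE_apply, preE_apply, preE_apply, Ext.mk₀_add, Ext.add_comp]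

lemma preE_zero {P : 𝒞} (M : 𝒞) (n : ℕ) (x : Ext P M n) : preE (0 : P ⟶ P) M n x = 0 := by
  rw [preE_apply, Ext.mk₀_zero, Ext.zero_comp]

/-- a morphism intertwining two endomorphisms induces an intertwining map on `Ext`. -/
lemma preE_intertwine {P P' : 𝒞} (f : P ⟶ P') (r : P ⟶ P) (r' : P' ⟶ P')
    (hf : f ≫ r' = r ≫ f) (M : 𝒞) (n : ℕ) (x : Ext P' M n) :
    (Ext.mk₀ f).comp (preE r' M n x) (zero_add n) =
      preE r M n ((Ext.mk₀ f).comp x (zero_add n)) := by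
  rw [preE_apply, preE_apply, ← Ext.comp_assoc_of_second_deg_zero,
    ← Ext.comp_assoc_of_second_deg_zero, Ext.mk₀_comp_mk₀, Ext.mk₀_comp_mk₀, hf]

/-- `r ↦ r^*` as an additive map. -/
noncomputable def preEHom {P : 𝒞} (M : 𝒞) (n : ℕ) (x : Ext P M n) : (P ⟶ P) →+ Ext P M n :=
  AddMonoidHom.mk' (fun r => preE r M n x) (fun r r' => preE_add r r' M n x)

lemma preE_nsmul {P : 𝒞} (m : ℕ) (r : P ⟶ P) (M : 𝒞) (n : ℕ) (x : Ext P M n) :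
    preE (m • r) M n x = m • preE r M n x :=
  map_nsmul (preEHom M n x) m r

lemma preE_zsmul {P : 𝒞} (m : ℤ) (r : P ⟶ P) (M : 𝒞) (n : ℕ) (x : Ext P M n) :
    preE (m • r) M n x = m • preE r M n x :=
  map_zsmul (preEHom M n x) m r

lemma preE_sum {P : 𝒞} {ι : Type*} (s : Finset ι) (r : ι → (P ⟶ P)) (M : 𝒞) (n : ℕ)
    (x : Ext P M n) : preE (∑ i ∈ s, r i) M n x = ∑ i ∈ s, preE (r i) M n x :=
  map_sum (preEHom M n x) r s

/-- groups `Extⁿ(P, M)` are killed by `p` as soon as `P` is. -/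
lemma ext_nsmul_eq_zero_of_source {P : 𝒞} (p : ℕ) (hP : p • (𝟙 P) = 0) (M : 𝒞) (n : ℕ)
    (x : Ext P M n) : p • x = 0 := by
  have h1 := preE_nsmul p (𝟙 P) M n x
  rw [hP, preE_zero, preE_id] at h1
  exact h1.symm

end Pre

section Les

universe w v u

variable {𝒞 : Type u} [Category.{v} 𝒞] [Abelian 𝒞] [HasExt.{w} 𝒞]

variable {P : 𝒞} (r : P ⟶ P) {S : ShortComplex 𝒞} (hS : S.ShortExact)

lemma lesA_preE (n : ℕ) (x : Ext P S.X₁ n) :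
    lesA P (S := S) n (preE r S.X₁ n x) = preE r S.X₂ n (lesA P (S := S) n x) :=
  (preE_comp r x (Ext.mk₀ S.f) (add_zero n)).symm

lemma lesB_preE (n : ℕ) (x : Ext P S.X₂ n) :
    lesB P (S := S) n (preE r S.X₂ n x) = preE r S.X₃ n (lesB P (S := S) n x) :=
  (preE_comp r x (Ext.mk₀ S.g) (add_zero n)).symm

lemma lesD_preE (n : ℕ) (x : Ext P S.X₃ n) :
    lesD P hS n (preE r S.X₃ n x) = preE r S.X₁ (n + 1) (lesD P hS n x) :=
  (preE_comp r x hS.extClass rfl).symm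

include hS in
/-- **the alternating product of characteristic polynomials along the covariant long exact
sequence** of `Ext(P, −)`, for an endomorphism `r` of `P`. -/
theorem cpz_les (p : ℕ) [hp : Fact p.Prime] (hP : p • (𝟙 P) = 0)
    (hfin₁ : ∀ n, n ≤ 2 → Finite (Ext P S.X₁ n)) (hfin₂ : ∀ n, n ≤ 2 → Finite (Ext P S.X₂ n))
    (hfin₃ : ∀ n, n ≤ 2 → Finite (Ext P S.X₃ n)) (h3 : ∀ e : Ext P S.X₁ 3, e = 0) :
    cpz p (preE r S.X₁ 0) * cpz p (preE r S.X₃ 0) * cpz p (preE r S.X₂ 1) *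
        cpz p (preE r S.X₁ 2) * cpz p (preE r S.X₃ 2) =
      cpz p (preE r S.X₂ 0) * cpz p (preE r S.X₁ 1) * cpz p (preE r S.X₃ 1) *
        cpz p (preE r S.X₂ 2) := by
  haveI := hfin₁ 0 (by omega); haveI := hfin₁ 1 (by omega); haveI := hfin₁ 2 (by omega)
  haveI := hfin₂ 0 (by omega); haveI := hfin₂ 1 (by omega); haveI := hfin₂ 2 (by omega)
  haveI := hfin₃ 0 (by omega); haveI := hfin₃ 1 (by omega); haveI := hfin₃ 2 (by omega)
  have tors : ∀ (M : 𝒞) (n : ℕ) (x : Ext P M n), p • x = 0 :=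
    fun M n x => ext_nsmul_eq_zero_of_source p hP M n x
  have hsurj : Function.Surjective (lesB P (S := S) 2) := by
    intro y
    have hy : y ∈ (lesD P hS 2).ker := by
      rw [AddMonoidHom.mem_ker]
      exact h3 _
    rw [← lesB_range P hS 2] at hy
    exact hy
  exact cpz_nine p (tors _ _) (tors _ _) (tors _ _) (tors _ _) (tors _ _) (tors _ _) (tors _ _)
    (lesA P (S := S) 0) (lesB P (S := S) 0) (lesD P hS 0)
    (lesA P (S := S) 1) (lesB P (S := S) 1) (lesD P hS 1)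
    (lesA P (S := S) 2) (lesB P (S := S) 2)
    _ _ _ _ _ _ _ _ _
    (lesA_preE r 0) (lesB_preE r 0) (lesD_preE r hS 0)
    (lesA_preE r 1) (lesB_preE r 1) (lesD_preE r hS 1)
    (lesA_preE r 2) (lesB_preE r 2)
    (lesA_zero_injective P hS)
    (fun b => by rw [lesA_range P hS 0]; exact AddMonoidHom.mem_ker.symm)
    (fun b => by rw [lesB_range P hS 0]; exact AddMonoidHom.mem_ker.symm)
    (fun b => by rw [lesD_range P hS 0]; exact AddMonoidHom.mem_ker.symm)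
    (fun b => by rw [lesA_range P hS 1]; exact AddMonoidHom.mem_ker.symm)
    (fun b => by rw [lesB_range P hS 1]; exact AddMonoidHom.mem_ker.symm)
    (fun b => by rw [lesD_range P hS 1]; exact AddMonoidHom.mem_ker.symm)
    (fun b => by rw [lesA_range P hS 2]; exact AddMonoidHom.mem_ker.symm)
    hsurj

end Les

section ContraEquiv

universe w v u

variable {𝒞 : Type u} [Category.{v} 𝒞] [Abelian 𝒞] [HasExt.{w} 𝒞]

variable (Y : 𝒞) {S : ShortComplex 𝒞} (hS : S.ShortExact) (φ : S ⟶ S)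

lemma clesA_preE (n : ℕ) (x : Ext S.X₃ Y n) :
    clesA Y (S := S) n (preE φ.τ₃ Y n x) = preE φ.τ₂ Y n (clesA Y (S := S) n x) :=
  preE_intertwine S.g φ.τ₂ φ.τ₃ φ.comm₂₃.symm Y n x

lemma clesB_preE (n : ℕ) (x : Ext S.X₂ Y n) :
    clesB Y (S := S) n (preE φ.τ₂ Y n x) = preE φ.τ₁ Y n (clesB Y (S := S) n x) :=
  preE_intertwine S.f φ.τ₁ φ.τ₂ φ.comm₁₂.symm Y n x

lemma clesD_preE (n : ℕ) (x : Ext S.X₁ Y n) :
    clesD Y hS n (preE φ.τ₁ Y n x) = preE φ.τ₃ Y (n + 1) (clesD Y hS n x) := by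
  rw [clesD_apply, clesD_apply, preE_apply, preE_apply,
    ← Ext.comp_assoc _ _ _ (add_zero 1) (zero_add n) (by omega),
    ShortComplex.ShortExact.extClass_naturality hS hS φ,
    Ext.comp_assoc _ _ _ (zero_add 1) (add_comm 1 n) (by omega)]

end ContraEquiv

end Fermat.Agent.TW.EC
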