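/-
S56 / (EC-G) — helper3.  Mathlib + (IND).
* `repMod ρ`: the bundled finite `k[B]`-module of a representation `ρ` of `B` on a finite
  `k`-vector space, with `cp (of b) (repMod ρ) = (ρ b).charpoly`;
* `idemCard e`: the multiplicative invariant `M ↦ #(e • M)` attached to an idempotent `e`;
* a retract `Z` of `P` has `#Extⁿ(Z, Y) = #range(R^*)`, `R` the idempotent endomorphism of `P`.
-/
import Fermat.Agent.TW.Ind_helper3_Main
import Fermat.Agent.TW.EC_helper3_Equiv

set_option autoImplicit false
set_option linter.style.haveILetI false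
set_option linter.unusedSectionVars false

open CategoryTheory CategoryTheory.Abelian Polynomial

namespace Fermat.Agent.TW.EC

open Fermat.Agent.TW.Ind

section RepMod

variable {k : Type} [Field k] {B : Type} [Group B] {T : Type} [AddCommGroup T] [Module k T]
  [Finite T] (ρ : Representation k B T)

instance repMod_finite : Finite ρ.asModule := inferInstanceAs (Finite T)

/-- the bundled finite module of a representation. -/
noncomputable abbrev repMod : FinMod k (MonoidAlgebra k B) :=
  FinMod.of k (MonoidAlgebra k B) ρ.asModule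

variable {ρ}

/-- the underlying vector. -/
def repMod.toT (x : repMod ρ) : T := x

/-- a vector as an element of the module. -/
def repMod.ofT (x : T) : repMod ρ := x

@[simp] lemma repMod.toT_ofT (x : T) : repMod.toT (repMod.ofT (ρ := ρ) x) = x := rfl

@[simp] lemma repMod.ofT_toT (x : repMod ρ) : repMod.ofT (repMod.toT x) = x := rfl

lemma repMod.toT_injective : Function.Injective (repMod.toT (ρ := ρ)) := fun _ _ h => h

lemma repMod_smul_toT (a : MonoidAlgebra k B) (x : repMod ρ) :
    repMod.toT (a • x) = ρ.asAlgebraHom a (repMod.toT x) :=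
  ρ.asModuleEquiv_map_smul a x

lemma repMod_of_smul_toT (b : B) (x : repMod ρ) :
    repMod.toT (MonoidAlgebra.of k B b • x) = ρ b (repMod.toT x) := by
  rw [repMod_smul_toT, Representation.asAlgebraHom_of]

lemma repMod_add_toT (x y : repMod ρ) : repMod.toT (x + y) = repMod.toT x + repMod.toT y := rfl

lemma repMod_ksmul_toT (c : k) (x : repMod ρ) : repMod.toT (c • x) = c • repMod.toT x := rfl

/-- the `k`-linear identification. -/
noncomputable def repModEquiv : repMod ρ ≃ₗ[k] T := ρ.asModuleEquiv

lemma repModEquiv_apply (x : repMod ρ) : repModEquiv (ρ := ρ) x = repMod.toT x := rfl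

variable (ρ) in
/-- the characteristic polynomial of a group element on `repMod ρ`. -/
theorem cp_repMod (b : B) : cp (MonoidAlgebra.of k B b) (repMod ρ) = (ρ b).charpoly := by
  unfold cp
  rw [← LinearEquiv.charpoly_conj (repModEquiv (ρ := ρ)) (actL (MonoidAlgebra.of k B b) (repMod ρ))]
  congr 1
  apply LinearMap.ext
  intro x
  rw [LinearEquiv.conj_apply_apply]
  show repMod.toT (MonoidAlgebra.of k B b • (repModEquiv (ρ := ρ)).symm x) = ρ b x
  rw [repMod_of_smul_toT]
  rfl

end RepMod

section Idem

variable {k A : Type} [Field k] [Ring A] [Algebra k A]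

/-- the number of elements of `e • M`. -/
noncomputable def idemCard (e : A) (M : FinMod k A) : ℚ≥0 :=
  (Nat.card (LinearMap.range (actL e M)) : ℚ≥0)

lemma idemCard_ne_zero (e : A) (M : FinMod k A) : idemCard e M ≠ 0 := by
  unfold idemCard
  exact_mod_cast (Nat.card_pos (α := LinearMap.range (actL e M))).ne'

/-- `M ↦ #(e • M)` is a multiplicative invariant when `e` is idempotent. -/
theorem isMulInv_idemCard (e : A) (he : e * e = e) : IsMulInv (idemCard (k := k) e) where
  iso M N := by
    rintro ⟨φ⟩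
    unfold idemCard
    congr 1
    refine Nat.card_congr ?_
    refine
      { toFun := fun x => ⟨φ x.1, ?_⟩
        invFun := fun y => ⟨φ.symm y.1, ?_⟩
        left_inv := fun x => Subtype.ext (φ.symm_apply_apply x.1)
        right_inv := fun y => Subtype.ext (φ.apply_symm_apply y.1) }
    · obtain ⟨m, hm⟩ := x.2
      refine ⟨φ m, ?_⟩
      rw [actL_apply, ← map_smul, ← hm]
      rfl
    · obtain ⟨m, hm⟩ := y.2
      refine ⟨φ.symm m, ?_⟩
      rw [actL_apply, ← map_smul, ← hm]
      rfl
  mul M N := by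
    unfold idemCard
    let f : LinearMap.range (actL e M) →+ (M ⧸ N) :=
      (N.mkQ.toAddMonoidHom).comp (LinearMap.range (actL e M)).subtype.toAddMonoidHom
    have hf : ∀ x, f x = N.mkQ x.1 := fun x => rfl
    have h1 := card_eq_card_ker_mul_card_range f
    have h2 : Nat.card f.ker = Nat.card (LinearMap.range (actL e (FinMod.sub N))) := by
      refine Nat.card_congr ?_
      refine
        { toFun := fun x => ⟨⟨x.1.1, ?_⟩, ?_⟩
          invFun := fun y => ⟨⟨y.1.1, ?_⟩, ?_⟩
          left_inv := fun x => rfl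
          right_inv := fun y => rfl }
      · have hx : f x.1 = 0 := x.2
        rw [hf] at hx
        exact (Submodule.Quotient.mk_eq_zero N).mp hx
      · obtain ⟨m, hm⟩ := x.1.2
        have hx : f x.1 = 0 := x.2
        rw [hf] at hx
        have hxN : x.1.1 ∈ N := (Submodule.Quotient.mk_eq_zero N).mp hx
        refine ⟨⟨x.1.1, hxN⟩, ?_⟩
        apply Subtype.ext
        show e • x.1.1 = x.1.1
        rw [← hm, actL_apply, ← mul_smul, he]
      · obtain ⟨n, hn⟩ := y.2
        refine ⟨n.1, ?_⟩
        have := congrArg Subtype.val hn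
        exact this
      · show f _ = 0
        rw [hf]
        exact (Submodule.Quotient.mk_eq_zero N).mpr y.1.2
    have h3 : Nat.card f.range = Nat.card (LinearMap.range (actL e (FinMod.quot N))) := by
      refine Nat.card_congr (Equiv.subtypeEquivRight ?_)
      intro y
      constructor
      · rintro ⟨x, rfl⟩
        obtain ⟨m, hm⟩ := x.2
        refine ⟨N.mkQ m, ?_⟩
        rw [hf, ← hm]
        rfl
      · rintro ⟨q, rfl⟩
        obtain ⟨m, rfl⟩ := N.mkQ_surjective q
        exact ⟨⟨e • m, ⟨m, rfl⟩⟩, rfl⟩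
    rw [h1, h2, h3]
    push_cast
    ring
  zero M hM := by
    unfold idemCard
    haveI : Subsingleton (LinearMap.range (actL e M)) := ⟨fun x y => Subtype.ext (Subsingleton.elim _ _)⟩
    rw [Nat.card_unique]
    simp

end Idem

section Retract

universe w v u

variable {𝒞 : Type u} [Category.{v} 𝒞] [Abelian 𝒞] [HasExt.{w} 𝒞]

/-- `Ext` groups of a retract. -/
theorem card_ext_of_retract {Z P : 𝒞} (ι : Z ⟶ P) (ρ : P ⟶ Z) (h : ι ≫ ρ = 𝟙 Z) (Y : 𝒞) (n : ℕ) :
    Nat.card (Ext Z Y n) = Nat.card (preE (ρ ≫ ι) Y n).range := by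
  let φ : Ext Z Y n →+ Ext P Y n := (Ext.mk₀ ρ).precomp Y (zero_add n)
  let ψ : Ext P Y n →+ Ext Z Y n := (Ext.mk₀ ι).precomp Y (zero_add n)
  have hψφ : ∀ z, ψ (φ z) = z := by
    intro z
    show (Ext.mk₀ ι).comp ((Ext.mk₀ ρ).comp z (zero_add n)) (zero_add n) = z
    rw [← Ext.comp_assoc_of_second_deg_zero, Ext.mk₀_comp_mk₀, h, Ext.mk₀_id_comp]
  have hφψ : ∀ x, φ (ψ x) = preE (ρ ≫ ι) Y n x := by
    intro x
    show (Ext.mk₀ ρ).comp ((Ext.mk₀ ι).comp x (zero_add n)) (zero_add n) = _
    rw [← Ext.comp_assoc_of_second_deg_zero, Ext.mk₀_comp_mk₀]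
    rfl
  have hinj : Function.Injective φ := fun a b hab => by
    rw [← hψφ a, ← hψφ b, hab]
  have hrange : φ.range = (preE (ρ ≫ ι) Y n).range := by
    ext x
    constructor
    · rintro ⟨z, rfl⟩
      exact ⟨φ z, by rw [← hφψ, hψφ]⟩
    · rintro ⟨y, rfl⟩
      exact ⟨ψ y, hφψ y⟩
  rw [← hrange]
  exact Nat.card_congr (AddMonoidHom.ofInjective hinj).toEquiv

end Retract

end Fermat.Agent.TW.EC
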