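/-
S56 / (EC-G) — helper3.
The regular object `regSm = toSm (regFun)` with its right translations `trR a` (`a ∈ 𝔽_p[G]`),
the summands `toSm (Pe e)` as retracts, and the `𝔽_p[B]`-module structures on `Extⁿ(regSm, Y)`
for a commutative subgroup `B`.
-/
import Fermat.Agent.TW.EC_helper3_RepMod
import Fermat.Agent.TW.EC_helper3_Perm

set_option autoImplicit false
set_option linter.style.haveILetI false
set_option linter.unusedSectionVars false

open CategoryTheory CategoryTheory.Limits CategoryTheory.Abelian Polynomial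

namespace Fermat.Agent.TW.EC

open Fermat.Agent.CFT.Sm Fermat.Agent.TW.Ind

variable {Γ : Type} [Group Γ] {𝒰 : OpenBasis Γ} {p : ℕ} [hp : Fact p.Prime]
  {G : Type} [Group G] [Finite G] (π : Γ →* G) (hπ : 𝒰.IsOpen π.ker)

section ToSmMap

variable {M N L : FinMod (ZMod p) (MonoidAlgebra (ZMod p) G)}

lemma toSmMap_comp (f : M →ₗ[MonoidAlgebra (ZMod p) G] N) (f' : N →ₗ[MonoidAlgebra (ZMod p) G] L) :
    toSmMap π hπ (f' ∘ₗ f) = toSmMap π hπ f ≫ toSmMap π hπ f' := by
  apply smRep_hom_ext'
  intro x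
  rfl

lemma toSmMap_id : toSmMap π hπ (LinearMap.id : M →ₗ[MonoidAlgebra (ZMod p) G] M) = 𝟙 _ := by
  apply smRep_hom_ext'
  intro x
  rfl

lemma toSmMap_add (f f' : M →ₗ[MonoidAlgebra (ZMod p) G] N) :
    toSmMap π hπ (f + f') = toSmMap π hπ f + toSmMap π hπ f' := by
  apply smRep_hom_ext'
  intro x
  rfl

end ToSmMap

variable (p) in
/-- the regular object. -/
noncomputable abbrev regSm : SmRep ℤ 𝒰 := toSm π hπ (regFun (ZMod p) G)

/-- right translation by an element of the group algebra, on the regular object. -/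
noncomputable def trR (a : MonoidAlgebra (ZMod p) G) : regSm p π hπ ⟶ regSm p π hπ :=
  toSmMap π hπ (rightTr (ZMod p) G a)

lemma trR_apply (a : MonoidAlgebra (ZMod p) G) (F : regFun (ZMod p) G) :
    (trR π hπ a).hom.hom F = rightTr (ZMod p) G a F := rfl

lemma trR_mul (a a' : MonoidAlgebra (ZMod p) G) :
    trR π hπ (a * a') = trR π hπ a' ≫ trR π hπ a := by
  unfold trR
  rw [rightTr_mul, toSmMap_comp]

lemma trR_one : trR (p := p) π hπ 1 = 𝟙 _ := by
  unfold trR
  rw [rightTr_one, toSmMap_id]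

lemma trR_add (a a' : MonoidAlgebra (ZMod p) G) :
    trR π hπ (a + a') = trR π hπ a + trR π hπ a' := by
  unfold trR
  rw [rightTr_add, toSmMap_add]

lemma trR_smul (c : ZMod p) (a : MonoidAlgebra (ZMod p) G) :
    trR π hπ (c • a) = c.val • trR π hπ a := by
  apply smRep_hom_ext'
  intro F
  rw [smRep_nsmul_hom_apply]
  show rightTr (ZMod p) G (c • a) F = c.val • rightTr (ZMod p) G a F
  rw [rightTr_smul, ← Nat.cast_smul_eq_nsmul (ZMod p), ZMod.natCast_zmod_val]

lemma regSm_killed : p • (𝟙 (regSm p π hπ)) = 0 :=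
  smRep_nsmul_id_eq_zero _ p (isFinTor_toSm π hπ _).2

section Retract

variable (e : MonoidAlgebra (ZMod p) G)

/-- the inclusion of the summand. -/
noncomputable def peIncl : toSm π hπ (Pe e) ⟶ regSm p π hπ :=
  toSmMap π hπ (M := Pe e) (N := regFun (ZMod p) G) (LinearMap.range (rightTr (ZMod p) G e)).subtype

/-- the projection onto the summand. -/
noncomputable def peProj : regSm p π hπ ⟶ toSm π hπ (Pe e) :=
  toSmMap π hπ (M := regFun (ZMod p) G) (N := Pe e) (rightTr (ZMod p) G e).rangeRestrict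

lemma peProj_peIncl : peProj π hπ e ≫ peIncl π hπ e = trR π hπ e := by
  apply smRep_hom_ext'
  intro F
  rfl

lemma peIncl_peProj (he : e * e = e) : peIncl π hπ e ≫ peProj π hπ e = 𝟙 _ := by
  apply smRep_hom_ext'
  intro F
  have hF : (show Pe e from F) ∈ (⊤ : Submodule (MonoidAlgebra (ZMod p) G) (Pe e)) := trivial
  apply Subtype.ext
  show rightTr (ZMod p) G e (show Pe e from F).1 = (show Pe e from F).1
  exact (mem_range_rightTr_iff he _).mp (show Pe e from F).2

/-- `Ext` of the summand. -/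
theorem card_ext_pe (he : e * e = e) (Y : SmRep ℤ 𝒰) (n : ℕ) :
    Nat.card (Ext.{0} (toSm π hπ (Pe e)) Y n) = Nat.card (preE (trR π hπ e) Y n).range := by
  rw [← peProj_peIncl]
  exact card_ext_of_retract (peIncl π hπ e) (peProj π hπ e) (peIncl_peProj π hπ e he) Y n

end Retract

end Fermat.Agent.TW.EC
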