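/-
S56 / (EC-G) — helper3.
The `𝔽_p[B]`-modules `Tn = Extⁿ(regSm, Y)` (for a commutative subgroup `B ≤ G`, acting through
right translations) and `Tc` (left-`c̄`-invariant functions on `G`), with
`cp (of b) Tn = cpz (b^* | Extⁿ)` and `#(e • Tn) = #Extⁿ(toSm (Pe e), Y)`.
-/
import Fermat.Agent.TW.EC_helper3_Top1

set_option autoImplicit false
set_option linter.style.haveILetI false
set_option linter.unusedSectionVars false
set_option warn.classDefReducibility false

open CategoryTheory CategoryTheory.Limits CategoryTheory.Abelian Polynomial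

namespace Fermat.Agent.TW.EC

open Fermat.Agent.CFT.Sm Fermat.Agent.TW.Ind

variable {Γ : Type} [Group Γ] {𝒰 : OpenBasis Γ} {p : ℕ} [hp : Fact p.Prime]
  {G : Type} [Group G] [Finite G] (π : Γ →* G) (hπ : 𝒰.IsOpen π.ker)

section Tn

variable (Y : SmRep ℤ 𝒰) (n : ℕ)

/-- the `𝔽_p`-structure on `Extⁿ(regSm, Y)`. -/
noncomputable def extModule : Module (ZMod p) (Ext.{0} (regSm p π hπ) Y n) :=
  AddCommGroup.zmodModule (fun x => ext_nsmul_eq_zero_of_source p (regSm_killed π hπ) Y n x)

attribute [local instance] extModule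

variable (B : Subgroup G) (hB : ∀ b b' : B, b * b' = b' * b)

/-- the action of `B` on `Extⁿ(regSm, Y)` through right translations. -/
noncomputable def extRep : Representation (ZMod p) B (Ext.{0} (regSm p π hπ) Y n) where
  toFun b := (preE (trR π hπ (MonoidAlgebra.of (ZMod p) G (b : G))) Y n).toZModLinearMap p
  map_one' := by
    apply LinearMap.ext
    intro x
    show preE (trR π hπ (MonoidAlgebra.of (ZMod p) G ((1 : B) : G))) Y n x = x
    rw [Subgroup.coe_one, map_one, trR_one, preE_id]
  map_mul' b b' := by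
    apply LinearMap.ext
    intro x
    show preE (trR π hπ (MonoidAlgebra.of (ZMod p) G ((b * b' : B) : G))) Y n x =
      preE (trR π hπ (MonoidAlgebra.of (ZMod p) G (b : G))) Y n
        (preE (trR π hπ (MonoidAlgebra.of (ZMod p) G (b' : G))) Y n x)
    rw [hB b b', Subgroup.coe_mul, map_mul, trR_mul, preE_comp_endo]

lemma extRep_apply (b : B) (x : Ext.{0} (regSm p π hπ) Y n) :
    extRep π hπ Y n B hB b x = preE (trR π hπ (MonoidAlgebra.of (ZMod p) G (b : G))) Y n x := rfl

/-- the algebra action is right translation by the image in `𝔽_p[G]`. -/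
lemma extRep_asAlgebraHom (e : MonoidAlgebra (ZMod p) B) (x : Ext.{0} (regSm p π hπ) Y n) :
    (extRep π hπ Y n B hB).asAlgebraHom e x =
      preE (trR π hπ (MonoidAlgebra.mapDomain B.subtype e)) Y n x := by
  induction e using MonoidAlgebra.induction_on with
  | of b =>
    rw [Representation.asAlgebraHom_of, extRep_apply]
    congr 3
    simp [MonoidAlgebra.of_apply, MonoidAlgebra.mapDomain_single]
  | add a a' ha ha' =>
    rw [map_add, LinearMap.add_apply, ha, ha', MonoidAlgebra.mapDomain_add, trR_add, preE_add]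
  | smul c a ha =>
    rw [map_smul, LinearMap.smul_apply, ha, MonoidAlgebra.mapDomain_smul, trR_smul, preE_nsmul,
      ← Nat.cast_smul_eq_nsmul (ZMod p), ZMod.natCast_zmod_val]

variable [hfin : Finite (Ext.{0} (regSm p π hπ) Y n)]

/-- `Extⁿ(regSm, Y)` as a finite `𝔽_p[B]`-module. -/
noncomputable def Tn : FinMod (ZMod p) (MonoidAlgebra (ZMod p) B) :=
  repMod (extRep π hπ Y n B hB)

theorem cp_Tn (b : B) :
    cp (MonoidAlgebra.of (ZMod p) B b) (Tn π hπ Y n B hB) =
      cpz p (preE (trR π hπ (MonoidAlgebra.of (ZMod p) G (b : G))) Y n) := by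
  unfold Tn
  rw [cp_repMod, cpz_eq]
  rfl

theorem idemCard_Tn (e : MonoidAlgebra (ZMod p) B) :
    idemCard e (Tn π hπ Y n B hB) =
      (Nat.card (preE (trR π hπ (MonoidAlgebra.mapDomain B.subtype e)) Y n).range : ℚ≥0) := by
  unfold idemCard
  congr 1
  refine Nat.card_congr ?_
  refine
    { toFun := fun x => ⟨repMod.toT x.1, ?_⟩
      invFun := fun y => ⟨repMod.ofT y.1, ?_⟩
      left_inv := fun x => rfl
      right_inv := fun y => rfl }
  · obtain ⟨m, hm⟩ := x.2
    refine ⟨repMod.toT m, ?_⟩
    rw [← hm, actL_apply]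
    unfold Tn
    rw [repMod_smul_toT, extRep_asAlgebraHom]
  · obtain ⟨m, hm⟩ := y.2
    refine ⟨repMod.ofT m, ?_⟩
    apply repMod.toT_injective
    rw [actL_apply]
    unfold Tn
    rw [repMod_smul_toT, extRep_asAlgebraHom]
    exact hm

end Tn

end Fermat.Agent.TW.EC
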