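/-
S56 / (EC-G) — helper3.
The module `Tc` of left-`c̄`-invariant functions, `#(e • Tc) = #(toSm (Pe e))^c`, and the
reduction of the Euler characteristic of the summands `toSm (Pe e)` to the CORE identity
(via Brauer–Nesbitt).
-/
import Fermat.Agent.TW.EC_helper3_Top2

set_option autoImplicit false
set_option linter.style.haveILetI false
set_option linter.unusedSectionVars false
set_option warn.classDefReducibility false

open CategoryTheory CategoryTheory.Limits CategoryTheory.Abelian Polynomial

namespace Fermat.Agent.TW.EC

open Fermat.Agent.CFT.Sm Fermat.Agent.TW.Ind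

variable {Γ : Type} [Group Γ] {𝒰 : OpenBasis Γ} {p : ℕ} [hp : Fact p.Prime]
  {G : Type} [Group G] [Finite G] (π : Γ →* G) (hπ : 𝒰.IsOpen π.ker)

section Tc

variable (p) (cbar : G) (B : Subgroup G)

/-- functions on `G` invariant under left translation by `cbar`. -/
def invFunSub : Submodule (ZMod p) (G → ZMod p) where
  carrier := {F | ∀ x, F (cbar * x) = F x}
  add_mem' := fun {F F'} hF hF' x => by
    show F (cbar * x) + F' (cbar * x) = F x + F' x
    rw [hF x, hF' x]
  zero_mem' := fun x => rfl
  smul_mem' := fun c F hF x => by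
    show c • F (cbar * x) = c • F x
    rw [hF x]

lemma mem_invFunSub (F : G → ZMod p) : F ∈ invFunSub p cbar ↔ ∀ x, F (cbar * x) = F x := Iff.rfl

instance : Finite (invFunSub p cbar) :=
  Finite.of_injective (fun F => (F.1 : G → ZMod p)) Subtype.val_injective

lemma invFunSub_stable (g : G) :
    invFunSub p cbar ≤ (invFunSub p cbar).comap (rightTrHom (ZMod p) G g) := by
  intro F hF x
  show F (cbar * x * g) = F (x * g)
  rw [mul_assoc]
  exact hF (x * g)

/-- right translation by `B` on the invariant functions. -/
noncomputable def invFunRep : Representation (ZMod p) B (invFunSub p cbar) where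
  toFun b := (rightTrHom (ZMod p) G (b : G)).restrict (invFunSub_stable p cbar (b : G))
  map_one' := by
    apply LinearMap.ext
    intro F
    apply Subtype.ext
    show rightTrHom (ZMod p) G ((1 : B) : G) F.1 = F.1
    rw [Subgroup.coe_one, map_one]
    rfl
  map_mul' b b' := by
    apply LinearMap.ext
    intro F
    apply Subtype.ext
    show rightTrHom (ZMod p) G ((b * b' : B) : G) F.1 =
      rightTrHom (ZMod p) G (b : G) (rightTrHom (ZMod p) G (b' : G) F.1)
    rw [Subgroup.coe_mul, map_mul]
    rfl

lemma invFunRep_apply_coe (b : B) (F : invFunSub p cbar) :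
    ((invFunRep p cbar B b F : invFunSub p cbar) : G → ZMod p) =
      rightTrHom (ZMod p) G (b : G) F.1 := rfl

lemma invFunRep_asAlgebraHom (e : MonoidAlgebra (ZMod p) B) (F : invFunSub p cbar) :
    (((invFunRep p cbar B).asAlgebraHom e F : invFunSub p cbar) : G → ZMod p) =
      rightTrK (ZMod p) G (MonoidAlgebra.mapDomain B.subtype e) F.1 := by
  induction e using MonoidAlgebra.induction_on with
  | of b =>
    rw [Representation.asAlgebraHom_of, invFunRep_apply_coe]
    have : MonoidAlgebra.mapDomain B.subtype (MonoidAlgebra.of (ZMod p) B b) =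
        MonoidAlgebra.of (ZMod p) G (b : G) := by
      simp [MonoidAlgebra.of_apply, MonoidAlgebra.mapDomain_single]
    rw [this, rightTrK_of]
  | add a a' ha ha' =>
    rw [map_add, LinearMap.add_apply, Submodule.coe_add, ha, ha', MonoidAlgebra.mapDomain_add,
      map_add, LinearMap.add_apply]
  | smul c a ha =>
    rw [map_smul, LinearMap.smul_apply, Submodule.coe_smul, ha, MonoidAlgebra.mapDomain_smul,
      map_smul, LinearMap.smul_apply]

/-- the module of left-`cbar`-invariant functions. -/
noncomputable def Tc : FinMod (ZMod p) (MonoidAlgebra (ZMod p) B) :=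
  repMod (invFunRep p cbar B)

end Tc

section Card

variable (B : Subgroup G)

lemma mapDomain_idem {e : MonoidAlgebra (ZMod p) B} (he : e * e = e) :
    MonoidAlgebra.mapDomain B.subtype e * MonoidAlgebra.mapDomain B.subtype e =
      MonoidAlgebra.mapDomain B.subtype e := by
  rw [← MonoidAlgebra.mapDomain_mul, he]

/-- `#(e • Tc)` is the number of `c`-invariants of the summand `toSm (Pe e)`. -/
theorem idemCard_Tc (e : MonoidAlgebra (ZMod p) B) (he : e * e = e) (c : Γ) :
    idemCard e (Tc p (π c) B) =
      (Nat.card {z : (toSm π hπ (Pe (MonoidAlgebra.mapDomain B.subtype e))).obj.V //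
        (toSm π hπ (Pe (MonoidAlgebra.mapDomain B.subtype e))).obj.ρ c z = z} : ℚ≥0) := by
  set e' := MonoidAlgebra.mapDomain B.subtype e with he'
  have hee : e' * e' = e' := mapDomain_idem B he
  unfold idemCard
  congr 1
  let S : Type := {F : G → ZMod p // (∀ x, F (π c * x) = F x) ∧ rightTrK (ZMod p) G e' F = F}
  have h1 : Nat.card (LinearMap.range (actL e (Tc p (π c) B))) = Nat.card S := by
    refine Nat.card_congr ?_
    refine
      { toFun := fun x => ⟨(repMod.toT x.1 : invFunSub p (π c)).1, (repMod.toT x.1).2, ?_⟩
        invFun := fun F => ⟨repMod.ofT ⟨F.1, F.2.1⟩, ?_⟩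
        left_inv := fun x => rfl
        right_inv := fun F => rfl }
    · obtain ⟨m, hm⟩ := x.2
      rw [← hm, actL_apply]
      unfold Tc
      rw [repMod_smul_toT, invFunRep_asAlgebraHom, ← he', ← LinearMap.comp_apply,
        ← Module.End.mul_eq_comp, ← map_mul, hee]
    · refine ⟨repMod.ofT ⟨F.1, F.2.1⟩, ?_⟩
      apply repMod.toT_injective
      rw [actL_apply]
      unfold Tc
      rw [repMod_smul_toT]
      apply Subtype.ext
      rw [invFunRep_asAlgebraHom, ← he']
      exact F.2.2
  have h2 : Nat.card {z : (toSm π hπ (Pe e')).obj.V // (toSm π hπ (Pe e')).obj.ρ c z = z} =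
      Nat.card S := by
    refine Nat.card_congr ?_
    refine
      { toFun := fun z => ⟨regFun.toFun' (show Pe e' from z.1).1, ?_, ?_⟩
        invFun := fun F => ⟨(⟨regFun.mk' F.1, ?_⟩ : Pe e'), ?_⟩
        left_inv := fun z => rfl
        right_inv := fun F => rfl }
    · intro x
      have hz : MonoidAlgebra.of (ZMod p) G (π c) • (show Pe e' from z.1) = (show Pe e' from z.1) :=
        z.2
      have hz' := congrArg (fun t : Pe e' => regFun.toFun' t.1 (π c * x)) hz
      simp only at hz'
      rw [Submodule.coe_smul, regFun_of_smul_apply, inv_mul_cancel_left] at hz'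
      exact hz'.symm
    · have hz := (mem_range_rightTr_iff hee _).mp (show Pe e' from z.1).2
      have := congrArg regFun.toFun' hz
      rw [rightTr_toFun'] at this
      exact this
    · rw [mem_range_rightTr_iff hee]
      apply regFun_ext
      intro x
      rw [rightTr_toFun']
      exact congrFun F.2.2 x
    · show MonoidAlgebra.of (ZMod p) G (π c) • (⟨regFun.mk' F.1, _⟩ : Pe e') = _
      apply Subtype.ext
      rw [Submodule.coe_smul]
      apply regFun_ext
      intro x
      rw [regFun_of_smul_apply]
      show F.1 ((π c)⁻¹ * x) = F.1 x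
      have := F.2.1 ((π c)⁻¹ * x)
      rw [mul_inv_cancel_left] at this
      exact this.symm
  rw [h1, h2]

end Card

end Fermat.Agent.TW.EC
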