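/-
S56 / (EC-G) — helper3.
Reduction of the Euler characteristic of the summands `toSm (Pe e)` (`e` an idempotent of
`𝔽_p[B]`, `B` a commutative subgroup) to the CORE identity of characteristic polynomials,
via Brauer–Nesbitt.
-/
import Fermat.Agent.TW.EC_helper3_Top3

set_option autoImplicit false
set_option linter.style.haveILetI false
set_option linter.unusedSectionVars false
set_option warn.classDefReducibility false

open CategoryTheory CategoryTheory.Limits CategoryTheory.Abelian Polynomial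

namespace Fermat.Agent.TW.EC

open Fermat.Agent.CFT.Sm Fermat.Agent.TW.Ind

variable {Γ : Type} [Group Γ] {𝒰 : OpenBasis Γ} {p : ℕ} [hp : Fact p.Prime]
  {G : Type} [Group G] [Finite G] (π : Γ →* G) (hπ : 𝒰.IsOpen π.ker)

/-- **the Euler characteristic of the summand cut out by an idempotent**, from the CORE identity
of characteristic polynomials. -/
theorem ecm_pe_eq (E : SmRep ℤ 𝒰) (B : Subgroup G) (hB : ∀ b b' : B, b * b' = b' * b) (c : Γ)
    (hfin : ∀ n, n ≤ 2 → Finite (Ext.{0} (regSm p π hπ) E n))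
    (hcore : ∀ b : B,
      cpz p (preE (trR π hπ (MonoidAlgebra.of (ZMod p) G (b : G))) E 0) *
        cpz p (preE (trR π hπ (MonoidAlgebra.of (ZMod p) G (b : G))) E 2) *
          cp (MonoidAlgebra.of (ZMod p) B b) (Tc p (π c) B) =
        cpz p (preE (trR π hπ (MonoidAlgebra.of (ZMod p) G (b : G))) E 1))
    (e : MonoidAlgebra (ZMod p) B) (he : e * e = e) :
    ecm (toSm π hπ (Pe (MonoidAlgebra.mapDomain B.subtype e))) E =
      (Nat.card {z : (toSm π hπ (Pe (MonoidAlgebra.mapDomain B.subtype e))).obj.V //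
        (toSm π hπ (Pe (MonoidAlgebra.mapDomain B.subtype e))).obj.ρ c z = z} : ℚ≥0)⁻¹ := by
  haveI h0 := hfin 0 (by omega)
  haveI h1 := hfin 1 (by omega)
  haveI h2 := hfin 2 (by omega)
  have hee := mapDomain_idem B he
  have hbn := bn p (Set.range (MonoidAlgebra.of (ZMod p) B)) span_range_of_eq_top
    [Tn π hπ E 0 B hB, Tn π hπ E 2 B hB, Tc p (π c) B] [Tn π hπ E 1 B hB]
    (by
      rintro _ ⟨b, rfl⟩
      simp only [List.map_cons, List.map_nil, List.prod_cons, List.prod_nil, mul_one]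
      rw [cp_Tn, cp_Tn, cp_Tn, ← mul_assoc]
      exact hcore b)
    (idemCard e) (isMulInv_idemCard e he)
  simp only [List.map_cons, List.map_nil, List.prod_cons, List.prod_nil, mul_one] at hbn
  rw [idemCard_Tn, idemCard_Tn, idemCard_Tn, idemCard_Tc π hπ B e he c,
    ← card_ext_pe π hπ _ hee, ← card_ext_pe π hπ _ hee, ← card_ext_pe π hπ _ hee] at hbn
  unfold ecm
  set a0 : ℚ≥0 := (Nat.card (Ext.{0} (toSm π hπ (Pe (MonoidAlgebra.mapDomain B.subtype e))) E 0) : ℚ≥0)
  set a1 : ℚ≥0 := (Nat.card (Ext.{0} (toSm π hπ (Pe (MonoidAlgebra.mapDomain B.subtype e))) E 1) : ℚ≥0)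
  set a2 : ℚ≥0 := (Nat.card (Ext.{0} (toSm π hπ (Pe (MonoidAlgebra.mapDomain B.subtype e))) E 2) : ℚ≥0)
  set t : ℚ≥0 := (Nat.card {z : (toSm π hπ (Pe (MonoidAlgebra.mapDomain B.subtype e))).obj.V //
        (toSm π hπ (Pe (MonoidAlgebra.mapDomain B.subtype e))).obj.ρ c z = z} : ℚ≥0)
  have ht : t ≠ 0 := by
    have := idemCard_ne_zero e (Tc p (π c) B)
    rw [idemCard_Tc π hπ B e he c] at this
    exact this
  have ha1 : a1 ≠ 0 := by
    have := idemCard_ne_zero e (Tn π hπ E 1 B hB)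
    rw [idemCard_Tn, ← card_ext_pe π hπ _ hee] at this
    exact this
  rw [div_eq_iff ha1, ← hbn]
  field_simp

end Fermat.Agent.TW.EC
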