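/-
S56 / (EC-G) — helper3.
Small inputs of the concrete CORE: `Ext¹(perm ℤ, C)[p] = 0` for a `p`-class formation module `C`,
the characteristic polynomial of `Tc`, and the general "first variable" expected-value property
of `Z ↦ #Ext⁰(Z,E) #Ext²(Z,E) / #Ext¹(Z,E)`.
-/
import Fermat.Agent.TW.EC_helper3_Top4
import Fermat.Agent.TW.EC_helper3_InvFun
import Fermat.Agent.TW.EC_helper3_PermShapiro
import Fermat.Agent.CFT.Sm.Bockstein_helper9

set_option autoImplicit false
set_option linter.style.haveILetI false
set_option linter.unusedSectionVars false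
set_option warn.classDefReducibility false

open CategoryTheory CategoryTheory.Limits CategoryTheory.Abelian Polynomial

namespace Fermat.Agent.TW.EC

open Fermat.Agent.CFT.Sm Fermat.Agent.TW.Ind

variable {Γ : Type} [Group Γ] {𝒰 : OpenBasis Γ} {p : ℕ} [hp : Fact p.Prime]
  {G : Type} [Group G] [Finite G] (π : Γ →* G) (hπ : 𝒰.IsOpen π.ker)

section Tors

/-- `Ext¹(perm ℤ, C)` has no `p`-torsion for a `p`-class formation module `C`. -/
theorem ext_perm_one_torsionFree {C : SmRep ℤ 𝒰} (F : PClassFormation 𝒰 p C)
    (hsurj : Function.Surjective π) (x : Ext.{0} (perm π ℤ hπ) C 1) (hx : p • x = 0) : x = 0 := by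
  apply (permShapiro π hπ ℤ hsurj C 1).injective
  rw [map_zero]
  refine (F.baseU π.ker hπ).ext_one_nsmul_injective _ ?_
  rw [← map_nsmul, hx, map_zero]

end Tors

section CpTc

variable (cbar : G) (B : Subgroup G)

lemma invFunSub_eq_invFunH : invFunSub p cbar = invFunH (ZMod p) (Subgroup.zpowers cbar) := by
  ext F
  rw [mem_invFunSub, mem_invFunH]
  constructor
  · intro h a ha x
    obtain ⟨n, rfl⟩ := Subgroup.mem_zpowers_iff.mp ha
    clear ha
    induction n using Int.induction_on generalizing x with
    | zero => rw [zpow_zero, one_mul]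
    | succ n ih =>
      rw [zpow_add_one, mul_assoc, ih (cbar * x), h]
    | pred n ih =>
      rw [zpow_sub_one, mul_assoc, ih (cbar⁻¹ * x)]
      have := h (cbar⁻¹ * x)
      rw [mul_inv_cancel_left] at this
      exact this.symm
  · intro h x
    exact h cbar (Subgroup.mem_zpowers cbar) x

/-- the characteristic polynomial of a group element on `Tc`. -/
theorem cp_Tc (b : B) :
    cp (MonoidAlgebra.of (ZMod p) B b) (Tc p cbar B) =
      (invFunTr (ZMod p) (Subgroup.zpowers cbar) (b : G)).charpoly := by
  unfold Tc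
  rw [cp_repMod]
  let e : invFunSub p cbar ≃ₗ[ZMod p] invFunH (ZMod p) (Subgroup.zpowers cbar) :=
    LinearEquiv.ofEq _ _ (invFunSub_eq_invFunH cbar)
  rw [← LinearEquiv.charpoly_conj e]
  congr 1

end CpTc

end Fermat.Agent.TW.EC
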