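import Mathlib
import Fermat.Agent.TW.Ind_helper3_FinMod

set_option autoImplicit false

open Polynomial Module

namespace Fermat.Agent.TW.EC

universe u

section General

variable {K : Type*} [Field K] {V : Type*} [AddCommGroup V] [Module K V]

/-- polynomials in intertwined endomorphisms are intertwined. -/
theorem aeval_comp_of_comp {W : Type*} [AddCommGroup W] [Module K W] (f : V →ₗ[K] V)
    (g : W →ₗ[K] W) (u : V →ₗ[K] W) (h : g ∘ₗ u = u ∘ₗ f) (P : K[X]) :
    (aeval g P) ∘ₗ u = u ∘ₗ (aeval f P) := by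
  induction P using Polynomial.induction_on' with
  | add p q hp hq => simp [LinearMap.comp_add, LinearMap.add_comp, hp, hq]
  | monomial n a =>
    simp only [aeval_monomial, Module.algebraMap_end_eq_smul_id]
    have := Module.End.commute_pow_left_of_commute h n
    ext x
    have h2 := LinearMap.congr_fun this x
    simp only [LinearMap.comp_apply] at h2
    simp [h2]

theorem aeval_restrict_apply (f : V →ₗ[K] V) (N : Submodule K V) (hN : N ≤ N.comap f)
    (P : K[X]) (x : N) : ((aeval (f.restrict hN) P) x : V) = (aeval f P) (x : V) := by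
  have h := aeval_comp_of_comp (f.restrict hN) f N.subtype (by ext; rfl) P
  exact (LinearMap.congr_fun h x).symm

/-- the kernel of a polynomial in `f` is `f`-stable. -/
theorem ker_aeval_le_comap (f : V →ₗ[K] V) (P : K[X]) :
    LinearMap.ker (aeval f P) ≤ (LinearMap.ker (aeval f P)).comap f := by
  intro x hx
  rw [Submodule.mem_comap, LinearMap.mem_ker]
  have h1 : (aeval f P) (f x) = ((aeval f P) * (aeval f (X : K[X]))) x := by simp
  have h2 : ((aeval f P) * (aeval f (X : K[X]))) = (aeval f (X : K[X])) * (aeval f P) := by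
    rw [← map_mul, ← map_mul, mul_comm]
  rw [h1, h2, Module.End.mul_apply, LinearMap.mem_ker.mp hx, map_zero]

variable [FiniteDimensional K V]

/-- charpoly of the restriction of `f` to a stable submodule (`1` if not stable). -/
noncomputable def cpOn (f : V →ₗ[K] V) (N : Submodule K V) : K[X] := by
  classical exact if h : N ≤ N.comap f then (f.restrict h).charpoly else 1

theorem cpOn_eq (f : V →ₗ[K] V) (N : Submodule K V) (h : N ≤ N.comap f) :
    cpOn f N = (f.restrict h).charpoly := by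
  classical exact dif_pos h

theorem cpOn_top (f : V →ₗ[K] V) : cpOn f ⊤ = f.charpoly := by
  rw [cpOn_eq f ⊤ (fun _ _ => Submodule.mem_top),
    ← LinearEquiv.charpoly_conj (Submodule.topEquiv (R := K) (M := V))]
  congr 1

theorem charpoly_eq_one_of_subsingleton {W : Type*} [AddCommGroup W] [Module K W]
    [FiniteDimensional K W] [Subsingleton W] (g : W →ₗ[K] W) : g.charpoly = 1 := by
  have : Module.finrank K W = 0 := Module.finrank_zero_of_subsingleton
  have h1 := LinearMap.charpoly_natDegree g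
  rw [this] at h1
  exact Polynomial.eq_one_of_monic_natDegree_zero (LinearMap.charpoly_monic _) h1

theorem cpOn_bot (f : V →ₗ[K] V) : cpOn f ⊥ = 1 := by
  rw [cpOn_eq f ⊥ (by simp)]
  exact charpoly_eq_one_of_subsingleton _

theorem cpOn_sup_of_disjoint (f : V →ₗ[K] V) (N₁ N₂ : Submodule K V)
    (h₁ : N₁ ≤ N₁.comap f) (h₂ : N₂ ≤ N₂.comap f) (hd : Disjoint N₁ N₂) :
    cpOn f (N₁ ⊔ N₂) = cpOn f N₁ * cpOn f N₂ := by
  have h₁₂ : N₁ ⊔ N₂ ≤ (N₁ ⊔ N₂).comap f := by
    intro x hx
    obtain ⟨y, hy, z, hz, rfl⟩ := Submodule.mem_sup.mp hx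
    rw [Submodule.mem_comap, map_add]
    exact Submodule.add_mem_sup (h₁ hy) (h₂ hz)
  rw [cpOn_eq f _ h₁₂, cpOn_eq f _ h₁, cpOn_eq f _ h₂, ← LinearMap.charpoly_prodMap]
  let u : (N₁ × N₂) →ₗ[K] ↥(N₁ ⊔ N₂) :=
    LinearMap.codRestrict (N₁ ⊔ N₂) (N₁.subtype.coprod N₂.subtype) (by
      rintro ⟨x, y⟩
      exact Submodule.add_mem_sup x.2 y.2)
  have hu : Function.Bijective u := by
    constructor
    · rw [← LinearMap.ker_eq_bot, LinearMap.ker_eq_bot']
      rintro ⟨x, y⟩ hxy
      have h0 : (x : V) + (y : V) = 0 := congrArg Subtype.val hxy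
      have hx : (x : V) ∈ N₁ ⊓ N₂ := by
        refine ⟨x.2, ?_⟩
        have : (x : V) = - (y : V) := eq_neg_of_add_eq_zero_left h0
        rw [this]
        exact N₂.neg_mem y.2
      rw [hd.eq_bot, Submodule.mem_bot] at hx
      have hy : (y : V) = 0 := by rw [hx, zero_add] at h0; exact h0
      ext <;> simp [hx, hy]
    · rintro ⟨x, hx⟩
      obtain ⟨y, hy, z, hz, rfl⟩ := Submodule.mem_sup.mp hx
      exact ⟨(⟨y, hy⟩, ⟨z, hz⟩), rfl⟩
  let e : (N₁ × N₂) ≃ₗ[K] ↥(N₁ ⊔ N₂) := LinearEquiv.ofBijective u hu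
  rw [← LinearEquiv.charpoly_conj e]
  congr 1
  apply LinearMap.ext
  intro x
  obtain ⟨⟨y, z⟩, rfl⟩ := e.surjective x
  rw [LinearEquiv.conj_apply_apply, LinearEquiv.symm_apply_apply]
  apply Subtype.ext
  simp [e, u]

theorem finrank_ker_aeval_mul_of_coprime (f : V →ₗ[K] V) {P Q : K[X]} (h : IsCoprime P Q) :
    finrank K (LinearMap.ker (aeval f (P * Q))) =
      finrank K (LinearMap.ker (aeval f P)) + finrank K (LinearMap.ker (aeval f Q)) := by
  rw [← Polynomial.sup_ker_aeval_eq_ker_aeval_mul_of_coprime f h,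
    ← Submodule.finrank_sup_add_finrank_inf_eq,
    (Polynomial.disjoint_ker_aeval_of_isCoprime f h).eq_bot, finrank_bot, add_zero]

theorem cpOn_ker_aeval_mul_of_coprime (f : V →ₗ[K] V) {P Q : K[X]} (h : IsCoprime P Q) :
    cpOn f (LinearMap.ker (aeval f (P * Q))) =
      cpOn f (LinearMap.ker (aeval f P)) * cpOn f (LinearMap.ker (aeval f Q)) := by
  rw [← Polynomial.sup_ker_aeval_eq_ker_aeval_mul_of_coprime f h]
  exact cpOn_sup_of_disjoint f _ _ (ker_aeval_le_comap f P) (ker_aeval_le_comap f Q)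
    (Polynomial.disjoint_ker_aeval_of_isCoprime f h)

end General

/-- an endomorphism killed by an irreducible polynomial `P` has charpoly a power of `P`. -/
theorem charpoly_eq_pow_of_irreducible {K : Type*} [Field K] (P : K[X]) (hP : Irreducible P)
    (hPm : P.Monic) (n : ℕ) : ∀ {V : Type u} [AddCommGroup V] [Module K V] [FiniteDimensional K V]
    (f : V →ₗ[K] V), finrank K V = n → aeval f P = 0 → f.charpoly = P ^ (n / P.natDegree) := by
  induction n using Nat.strong_induction_on with
  | _ n ih =>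
  intro V _ _ _ f hn hPf
  by_cases hV : Subsingleton V
  · have : n = 0 := by rw [← hn]; exact Module.finrank_zero_of_subsingleton
    subst this
    have h1 := LinearMap.charpoly_natDegree f
    rw [hn] at h1
    rw [Nat.zero_div, pow_zero]
    exact Polynomial.eq_one_of_monic_natDegree_zero (LinearMap.charpoly_monic _) h1
  rw [not_subsingleton_iff_nontrivial] at hV
  obtain ⟨v, hv⟩ := exists_ne (0 : V)
  set d := P.natDegree with hd
  have hd0 : 0 < d := hP.natDegree_pos
  let φ : K[X] →ₗ[K] V := (LinearMap.applyₗ (R := K) v).comp (aeval f).toLinearMap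
  have hφ : ∀ Q, φ Q = (aeval f Q) v := fun Q => rfl
  obtain ⟨W, hWdef⟩ : ∃ W : Submodule K V, W = LinearMap.range φ := ⟨_, rfl⟩
  have hvW : v ∈ W := by rw [hWdef]; exact ⟨1, by simp [hφ]⟩
  have hW : W ≤ W.comap f := by
    rw [hWdef]
    rintro _ ⟨Q, rfl⟩
    refine ⟨X * Q, ?_⟩
    simp [hφ]
  have hWle : finrank K W ≤ d := by
    have hWeq : W = (degreeLT K d).map φ := by
      rw [hWdef]
      apply le_antisymm
      · rintro _ ⟨Q, rfl⟩
        refine ⟨Q %ₘ P, ?_, ?_⟩
        · rw [SetLike.mem_coe, mem_degreeLT]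
          calc (Q %ₘ P).degree < P.degree := degree_modByMonic_lt Q hPm
            _ = (d : WithBot ℕ) := degree_eq_natDegree hPm.ne_zero
        · have h := modByMonic_add_div Q P
          conv_rhs => rw [← h]
          rw [map_add, hφ (P * _), map_mul, hPf, zero_mul, LinearMap.zero_apply, add_zero]
      · exact LinearMap.map_le_range
    rw [hWeq]
    calc finrank K ((degreeLT K d).map φ) ≤ finrank K (degreeLT K d) := Submodule.finrank_map_le _ _
      _ = d := by rw [(degreeLTEquiv K d).finrank_eq, Module.finrank_fin_fun]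
  have : Nontrivial W := ⟨⟨⟨v, hvW⟩, 0, fun h => hv (congrArg Subtype.val h)⟩⟩
  have hPW : aeval (f.restrict hW) P = 0 := by
    apply LinearMap.ext
    intro x
    apply Subtype.ext
    rw [aeval_restrict_apply, hPf]
    rfl
  have hmin : minpoly K (f.restrict hW) = P := by
    have h1 : minpoly K (f.restrict hW) ∣ P := minpoly.dvd K _ hPW
    obtain ⟨R, hR⟩ := h1
    have h2 : ¬ IsUnit (minpoly K (f.restrict hW)) := minpoly.not_isUnit K _
    have h3 : IsUnit R := (hP.isUnit_or_isUnit hR).resolve_left h2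
    have h4 : Associated (minpoly K (f.restrict hW)) P := ⟨h3.unit, by rw [hR]; rfl⟩
    exact eq_of_monic_of_associated (minpoly.monic (Algebra.IsIntegral.isIntegral _)) hPm h4
  have hcW : (f.restrict hW).charpoly = P := by
    refine eq_of_monic_of_dvd_of_natDegree_le hPm (LinearMap.charpoly_monic _) ?_ ?_
    · rw [← hmin]; exact LinearMap.minpoly_dvd_charpoly _
    · rw [LinearMap.charpoly_natDegree]; exact hWle
  have hWd : finrank K W = d := by
    have := LinearMap.charpoly_natDegree (f.restrict hW)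
    rw [hcW] at this
    exact this.symm
  have hquot : finrank K (V ⧸ W) = n - d := by
    have := Submodule.finrank_quotient_add_finrank W
    omega
  have hdn : d ≤ n := by
    rw [← hn, ← hWd]; exact Submodule.finrank_le W
  have hPq : aeval (W.mapQ W f hW) P = 0 := by
    have h := aeval_comp_of_comp f (W.mapQ W f hW) W.mkQ (by ext; rfl) P
    rw [hPf, LinearMap.comp_zero] at h
    apply LinearMap.ext
    intro x
    obtain ⟨y, rfl⟩ := W.mkQ_surjective x
    exact LinearMap.congr_fun h y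
  rw [Ind.charpoly_eq_restrict_mul_mapQ f W hW, hcW,
    ih (n - d) (by omega) (W.mapQ W f hW) hquot hPq, ← pow_succ']
  congr 1
  rw [Nat.div_eq n d, if_pos ⟨hd0, hdn⟩]

section Cyclo

variable {V : Type*} [AddCommGroup V] [Module ℚ V] [FiniteDimensional ℚ V]

/-- the dimension of the `Φ_d`-isotypic part of `f`. -/
noncomputable def kap (f : V →ₗ[ℚ] V) (d : ℕ) : ℕ :=
  finrank ℚ (LinearMap.ker (aeval f (cyclotomic d ℚ)))

theorem isCoprime_cyclotomic_prod (a : ℕ) (s : Finset ℕ) (ha : a ∉ s) :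
    IsCoprime (cyclotomic a ℚ) (∏ d ∈ s, cyclotomic d ℚ) :=
  IsCoprime.prod_right fun _ hd => cyclotomic.isCoprime_rat (fun h => ha (h ▸ hd))

theorem finrank_ker_prod_cyclotomic (f : V →ₗ[ℚ] V) (s : Finset ℕ) :
    finrank ℚ (LinearMap.ker (aeval f (∏ d ∈ s, cyclotomic d ℚ))) = ∑ d ∈ s, kap f d := by
  classical
  induction s using Finset.induction_on with
  | empty =>
    rw [Finset.prod_empty, Finset.sum_empty, map_one, Module.End.one_eq_id, LinearMap.ker_id,
      finrank_bot]
  | insert a s ha ih =>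
    rw [Finset.prod_insert ha, Finset.sum_insert ha,
      finrank_ker_aeval_mul_of_coprime f (isCoprime_cyclotomic_prod a s ha), ih]
    rfl

theorem cpOn_ker_cyclotomic (f : V →ₗ[ℚ] V) (d : ℕ) (hd : 0 < d) :
    cpOn f (LinearMap.ker (aeval f (cyclotomic d ℚ))) =
      cyclotomic d ℚ ^ (kap f d / (cyclotomic d ℚ).natDegree) := by
  rw [cpOn_eq f _ (ker_aeval_le_comap f _)]
  refine charpoly_eq_pow_of_irreducible _ (cyclotomic.irreducible_rat hd) (cyclotomic.monic d ℚ)
    _ _ rfl ?_
  apply LinearMap.ext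
  intro x
  apply Subtype.ext
  rw [aeval_restrict_apply]
  exact LinearMap.mem_ker.mp x.2

theorem cpOn_ker_prod_cyclotomic (f : V →ₗ[ℚ] V) (s : Finset ℕ) (hs : ∀ d ∈ s, 0 < d) :
    cpOn f (LinearMap.ker (aeval f (∏ d ∈ s, cyclotomic d ℚ))) =
      ∏ d ∈ s, cyclotomic d ℚ ^ (kap f d / (cyclotomic d ℚ).natDegree) := by
  classical
  induction s using Finset.induction_on with
  | empty =>
    rw [Finset.prod_empty, Finset.prod_empty, map_one, Module.End.one_eq_id, LinearMap.ker_id,
      cpOn_bot]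
  | insert a s ha ih =>
    rw [Finset.prod_insert ha, Finset.prod_insert ha,
      cpOn_ker_aeval_mul_of_coprime f (isCoprime_cyclotomic_prod a s ha),
      ih (fun d hd => hs d (Finset.mem_insert_of_mem hd)),
      cpOn_ker_cyclotomic f a (hs a (Finset.mem_insert_self a s))]

omit [FiniteDimensional ℚ V] in
theorem aeval_X_pow_sub_one (f : V →ₗ[ℚ] V) (e : ℕ) :
    aeval f ((X : ℚ[X]) ^ e - 1) = f ^ e - 1 := by simp

theorem finrank_ker_pow_sub_one (f : V →ₗ[ℚ] V) (e : ℕ) (he : 0 < e) :
    finrank ℚ (LinearMap.ker (f ^ e - 1)) = ∑ d ∈ e.divisors, kap f d := by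
  rw [← finrank_ker_prod_cyclotomic, prod_cyclotomic_eq_X_pow_sub_one he, aeval_X_pow_sub_one]

theorem charpoly_eq_prod_cyclotomic (f : V →ₗ[ℚ] V) (m : ℕ) (hm : 0 < m) (hf : f ^ m = 1) :
    f.charpoly = ∏ d ∈ m.divisors, cyclotomic d ℚ ^ (kap f d / (cyclotomic d ℚ).natDegree) := by
  rw [← cpOn_ker_prod_cyclotomic f _ (fun d hd => Nat.pos_of_mem_divisors hd),
    prod_cyclotomic_eq_X_pow_sub_one hm, aeval_X_pow_sub_one, hf, sub_self, LinearMap.ker_zero,
    cpOn_top]

theorem kap_eq_of_finrank_ker_eq {W : Type*} [AddCommGroup W] [Module ℚ W] [FiniteDimensional ℚ W]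
    (f : V →ₗ[ℚ] V) (g : W →ₗ[ℚ] W) (m : ℕ) (hm : 0 < m)
    (h : ∀ d, d ∣ m → finrank ℚ (LinearMap.ker (f ^ d - 1)) = finrank ℚ (LinearMap.ker (g ^ d - 1))) :
    ∀ d, d ∣ m → kap f d = kap g d := by
  intro d
  induction d using Nat.strong_induction_on with
  | _ d ih =>
    intro hd
    have hd0 : 0 < d := Nat.pos_of_dvd_of_pos hd hm
    have h1 := finrank_ker_pow_sub_one f d hd0
    have h2 := finrank_ker_pow_sub_one g d hd0
    rw [← Nat.insert_self_properDivisors hd0.ne', Finset.sum_insert Nat.self_notMem_properDivisors]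
      at h1 h2
    have h3 : ∑ i ∈ d.properDivisors, kap f i = ∑ i ∈ d.properDivisors, kap g i := by
      refine Finset.sum_congr rfl fun i hi => ?_
      rw [Nat.mem_properDivisors] at hi
      exact ih i hi.2 (hi.1.trans hd)
    have h4 := h d hd
    omega

/-- **Key theorem**: two rational endomorphisms of finite order dividing `m` whose powers have
fixed spaces of the same dimensions have the same characteristic polynomial. -/
theorem charpoly_eq_of_finrank_ker_eq {W : Type*} [AddCommGroup W] [Module ℚ W]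
    [FiniteDimensional ℚ W] (f : V →ₗ[ℚ] V) (g : W →ₗ[ℚ] W) (m : ℕ) (hm : 0 < m)
    (hf : f ^ m = 1) (hg : g ^ m = 1)
    (h : ∀ d, d ∣ m → finrank ℚ (LinearMap.ker (f ^ d - 1)) = finrank ℚ (LinearMap.ker (g ^ d - 1))) :
    f.charpoly = g.charpoly := by
  rw [charpoly_eq_prod_cyclotomic f m hm hf, charpoly_eq_prod_cyclotomic g m hm hg]
  refine Finset.prod_congr rfl fun d hd => ?_
  rw [kap_eq_of_finrank_ker_eq f g m hm h d (Nat.dvd_of_mem_divisors hd)]

end Cyclo

end Fermat.Agent.TW.EC
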