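import Mathlib
import Fermat.Agent.TW.ECA_helper5_Cyclo

set_option autoImplicit false

open Polynomial Module

namespace Fermat.Agent.TW.EC

section Defs

variable (p : ℕ)

/-- the `p`-torsion subgroup `A[p]`. -/
def torP (A : Type*) [AddCommGroup A] : AddSubgroup A := (nsmulAddMonoidHom p : A →+ A).ker

/-- the subgroup `pA`. -/
def mulP (A : Type*) [AddCommGroup A] : AddSubgroup A := (nsmulAddMonoidHom p : A →+ A).range

variable {A B C : Type*} [AddCommGroup A] [AddCommGroup B] [AddCommGroup C]

theorem mem_torP (a : A) : a ∈ torP p A ↔ p • a = 0 := Iff.rfl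

theorem mem_mulP (a : A) : a ∈ mulP p A ↔ ∃ b : A, p • b = a := Iff.rfl

variable (A) in
/-- the quotient `A/pA`. -/
def quotP : Type _ := A ⧸ mulP p A

instance : AddCommGroup (quotP p A) := inferInstanceAs (AddCommGroup (A ⧸ mulP p A))

/-- the projection `A → A/pA`. -/
def quotPmk : A →+ quotP p A := QuotientAddGroup.mk' (mulP p A)

theorem quotPmk_surjective : Function.Surjective (quotPmk p (A := A)) :=
  QuotientAddGroup.mk'_surjective _

theorem quotPmk_eq_zero_iff (a : A) : quotPmk p a = 0 ↔ ∃ b : A, p • b = a :=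
  (QuotientAddGroup.eq_zero_iff a).trans (mem_mulP p a)

theorem quotPmk_eq_iff (a b : A) : quotPmk p a = quotPmk p b ↔ ∃ c : A, p • c = a - b := by
  rw [← sub_eq_zero, ← map_sub, quotPmk_eq_zero_iff]

instance : Module (ZMod p) (torP p A) :=
  AddCommGroup.zmodModule (by
    rintro ⟨x, hx⟩
    exact Subtype.ext ((mem_torP p x).mp hx))

instance : Module (ZMod p) (quotP p A) :=
  AddCommGroup.zmodModule (by
    intro x
    obtain ⟨a, rfl⟩ := quotPmk_surjective p x
    rw [← map_nsmul, quotPmk_eq_zero_iff]
    exact ⟨a, rfl⟩)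

/-- the map induced on `p`-torsion. -/
def torMap (f : A →+ B) : torP p A →ₗ[ZMod p] torP p B :=
  AddMonoidHom.toZModLinearMap p
    ((f.comp (torP p A).subtype).codRestrict (torP p B) (by
      rintro ⟨x, hx⟩
      rw [mem_torP] at hx ⊢
      simp only [AddMonoidHom.coe_comp, AddSubgroup.coe_subtype, Function.comp_apply]
      rw [← map_nsmul, hx, map_zero]))

@[simp] theorem torMap_coe (f : A →+ B) (x : torP p A) : (torMap p f x : B) = f x := rfl

/-- the map induced on `A/pA`. -/
def quotMap (f : A →+ B) : quotP p A →ₗ[ZMod p] quotP p B :=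
  AddMonoidHom.toZModLinearMap p
    (QuotientAddGroup.map (mulP p A) (mulP p B) f (by
      rintro _ ⟨b, rfl⟩
      exact ⟨f b, by simp⟩))

@[simp] theorem quotMap_mk (f : A →+ B) (a : A) : quotMap p f (quotPmk p a) = quotPmk p (f a) := rfl

theorem torMap_comp (g : B →+ C) (f : A →+ B) :
    torMap p (g.comp f) = (torMap p g).comp (torMap p f) := rfl

theorem quotMap_comp (g : B →+ C) (f : A →+ B) :
    quotMap p (g.comp f) = (quotMap p g).comp (quotMap p f) := by
  apply LinearMap.ext
  intro x
  obtain ⟨a, rfl⟩ := quotPmk_surjective p x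
  rfl

variable [Fact p.Prime]

/-- the charpoly of `σ` on `A[p]` (`1` if `A[p]` is infinite). -/
noncomputable def cpTor (σ : A →+ A) : (ZMod p)[X] := by
  classical exact if h : Finite (torP p A) then (torMap p σ).charpoly else 1

/-- the charpoly of `σ` on `A/pA` (`1` if `A/pA` is infinite). -/
noncomputable def cpQuot (σ : A →+ A) : (ZMod p)[X] := by
  classical exact if h : Finite (quotP p A) then (quotMap p σ).charpoly else 1

theorem cpTor_eq (σ : A →+ A) [h : Finite (torP p A)] : cpTor p σ = (torMap p σ).charpoly := by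
  classical exact dif_pos h

theorem cpQuot_eq (σ : A →+ A) [h : Finite (quotP p A)] :
    cpQuot p σ = (quotMap p σ).charpoly := by
  classical exact dif_pos h

theorem cpTor_monic (σ : A →+ A) : (cpTor p σ).Monic := by
  classical
  unfold cpTor
  split_ifs with h
  · exact LinearMap.charpoly_monic _
  · exact monic_one

theorem cpQuot_monic (σ : A →+ A) : (cpQuot p σ).Monic := by
  classical
  unfold cpQuot
  split_ifs with h
  · exact LinearMap.charpoly_monic _
  · exact monic_one

end Defs

end Fermat.Agent.TW.EC
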