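import Mathlib
import Fermat.Agent.TW.ECA0_helper5_Defs

set_option autoImplicit false

open Polynomial Module

namespace Fermat.Agent.TW.EC

section Pres

variable (p : ℕ) [Fact p.Prime] {A : Type*} [AddCommGroup A]

/-- (a), torsion side: any presentation of `A[p]` computes `cpTor`. -/
theorem cpTor_eq_of_pres (σ : A →+ A) {V₂ : Type*} [AddCommGroup V₂] [Module (ZMod p) V₂]
    [Finite V₂] (σ₂ : V₂ →ₗ[ZMod p] V₂) (ι : V₂ →+ A) (hι : Function.Injective ι)
    (hι' : ∀ a, p • a = 0 ↔ a ∈ Set.range ι) (hισ : ∀ v, ι (σ₂ v) = σ (ι v)) :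
    Finite (torP p A) ∧ cpTor p σ = σ₂.charpoly := by
  let u : V₂ →ₗ[ZMod p] torP p A :=
    AddMonoidHom.toZModLinearMap p (ι.codRestrict (torP p A) (fun v => (hι' (ι v)).mpr ⟨v, rfl⟩))
  have hu : Function.Bijective u := by
    constructor
    · intro x y hxy
      exact hι (congrArg Subtype.val hxy)
    · rintro ⟨a, ha⟩
      obtain ⟨v, rfl⟩ := (hι' a).mp ha
      exact ⟨v, rfl⟩
  let e : V₂ ≃ₗ[ZMod p] torP p A := LinearEquiv.ofBijective u hu
  have hfin : Finite (torP p A) := Finite.of_equiv V₂ e.toEquiv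
  refine ⟨hfin, ?_⟩
  rw [cpTor_eq, ← LinearEquiv.charpoly_conj e σ₂]
  congr 1
  apply LinearMap.ext
  intro x
  obtain ⟨v, rfl⟩ := e.surjective x
  rw [LinearEquiv.conj_apply_apply, LinearEquiv.symm_apply_apply]
  apply Subtype.ext
  exact (hισ v).symm

/-- (a), quotient side: any presentation of `A/pA` computes `cpQuot`. -/
theorem cpQuot_eq_of_pres (σ : A →+ A) {V₁ : Type*} [AddCommGroup V₁] [Module (ZMod p) V₁]
    [Finite V₁] (σ₁ : V₁ →ₗ[ZMod p] V₁) (q : A →+ V₁) (hq : Function.Surjective q)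
    (hq' : ∀ a, q a = 0 ↔ ∃ a', a = p • a') (hqσ : ∀ a, q (σ a) = σ₁ (q a)) :
    Finite (quotP p A) ∧ cpQuot p σ = σ₁.charpoly := by
  let u : quotP p A →ₗ[ZMod p] V₁ :=
    AddMonoidHom.toZModLinearMap p (QuotientAddGroup.lift (mulP p A) q (by
      rintro _ ⟨b, rfl⟩
      exact (hq' _).mpr ⟨b, rfl⟩))
  have hu_mk : ∀ a, u (quotPmk p a) = q a := fun a => rfl
  have hu : Function.Bijective u := by
    constructor
    · rw [← LinearMap.ker_eq_bot, LinearMap.ker_eq_bot']
      intro x hx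
      obtain ⟨a, rfl⟩ := quotPmk_surjective p x
      rw [hu_mk] at hx
      obtain ⟨a', rfl⟩ := (hq' a).mp hx
      exact (quotPmk_eq_zero_iff p _).mpr ⟨a', rfl⟩
    · intro v
      obtain ⟨a, rfl⟩ := hq v
      exact ⟨quotPmk p a, rfl⟩
  let e : quotP p A ≃ₗ[ZMod p] V₁ := LinearEquiv.ofBijective u hu
  have hfin : Finite (quotP p A) := Finite.of_equiv V₁ e.symm.toEquiv
  refine ⟨hfin, ?_⟩
  rw [cpQuot_eq, ← LinearEquiv.charpoly_conj e (quotMap p σ)]
  congr 1
  apply LinearMap.ext
  intro v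
  obtain ⟨x, rfl⟩ := e.surjective v
  obtain ⟨a, rfl⟩ := quotPmk_surjective p x
  rw [LinearEquiv.conj_apply_apply, LinearEquiv.symm_apply_apply]
  exact hqσ a

end Pres

section Exact

variable {K : Type*} [Field K] {V W U : Type*} [AddCommGroup V] [Module K V]
  [AddCommGroup W] [Module K W] [FiniteDimensional K W]
  [AddCommGroup U] [Module K U] [FiniteDimensional K U]

/-- (e) the EX-lemma: along an exact `V → W → U` with compatible endomorphisms,
`charpoly β = charpoly (β | range f) * charpoly (γ | range g)`. -/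
theorem charpoly_eq_of_exact (f : V →ₗ[K] W) (g : W →ₗ[K] U)
    (hex : LinearMap.range f = LinearMap.ker g) (β : W →ₗ[K] W) (γ : U →ₗ[K] U)
    (hg : g ∘ₗ β = γ ∘ₗ g) :
    β.charpoly = cpOn β (LinearMap.range f) * cpOn γ (LinearMap.range g) := by
  have hker : LinearMap.ker g ≤ (LinearMap.ker g).comap β := by
    intro x hx
    rw [Submodule.mem_comap, LinearMap.mem_ker]
    have := LinearMap.congr_fun hg x
    simp only [LinearMap.comp_apply] at this
    rw [this, LinearMap.mem_ker.mp hx, map_zero]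
  have hrange : LinearMap.range g ≤ (LinearMap.range g).comap γ := by
    rintro _ ⟨w, rfl⟩
    refine ⟨β w, ?_⟩
    exact LinearMap.congr_fun hg w
  rw [hex, cpOn_eq β _ hker, cpOn_eq γ _ hrange,
    Ind.charpoly_eq_restrict_mul_mapQ β (LinearMap.ker g) hker]
  congr 1
  rw [← LinearEquiv.charpoly_conj g.quotKerEquivRange]
  congr 1
  apply LinearMap.ext
  intro x
  obtain ⟨y, rfl⟩ := g.quotKerEquivRange.surjective x
  obtain ⟨w, rfl⟩ := (LinearMap.ker g).mkQ_surjective y
  rw [LinearEquiv.conj_apply_apply, LinearEquiv.symm_apply_apply]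
  apply Subtype.ext
  exact LinearMap.congr_fun hg w

/-- charpoly on the range of an injective intertwiner. -/
theorem cpOn_range_of_injective [FiniteDimensional K V] (f : V →ₗ[K] W)
    (hf : Function.Injective f) (α : V →ₗ[K] V) (β : W →ₗ[K] W) (hfα : f ∘ₗ α = β ∘ₗ f) :
    cpOn β (LinearMap.range f) = α.charpoly := by
  have hrange : LinearMap.range f ≤ (LinearMap.range f).comap β := by
    rintro _ ⟨v, rfl⟩
    exact ⟨α v, LinearMap.congr_fun hfα v⟩
  rw [cpOn_eq β _ hrange, ← LinearEquiv.charpoly_conj (LinearEquiv.ofInjective f hf) α]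
  congr 1
  apply LinearMap.ext
  intro x
  obtain ⟨v, rfl⟩ := (LinearEquiv.ofInjective f hf).surjective x
  rw [LinearEquiv.conj_apply_apply, LinearEquiv.symm_apply_apply]
  apply Subtype.ext
  exact (LinearMap.congr_fun hfα v).symm

omit [FiniteDimensional K W] in
/-- charpoly on the range of a surjective map. -/
theorem cpOn_range_of_surjective (g : W →ₗ[K] U) (hg : Function.Surjective g)
    (γ : U →ₗ[K] U) : cpOn γ (LinearMap.range g) = γ.charpoly := by
  rw [LinearMap.range_eq_top.mpr hg, cpOn_top]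

end Exact

end Fermat.Agent.TW.EC
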