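import Mathlib
import Fermat.Agent.TW.ECA0_helper5_Pres

set_option autoImplicit false

open Polynomial Module

namespace Fermat.Agent.TW.EC

section Snake

variable (p : ℕ) {A' A A'' : Type*} [AddCommGroup A'] [AddCommGroup A] [AddCommGroup A'']

/-- a short exact sequence `0 → A' → A → A'' → 0` of abelian groups. -/
structure IsSES (i : A' →+ A) (π : A →+ A'') : Prop where
  inj : Function.Injective i
  surj : Function.Surjective π
  exact : ∀ a, π a = 0 ↔ a ∈ Set.range i

variable {i : A' →+ A} {π : A →+ A''}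

theorem IsSES.exists_lift (h : IsSES i π) (x : torP p A'') :
    ∃ a a', π a = x.1 ∧ i a' = p • a := by
  obtain ⟨a, ha⟩ := h.surj x.1
  have : π (p • a) = 0 := by rw [map_nsmul, ha]; exact x.2
  obtain ⟨a', ha'⟩ := (h.exact _).mp this
  exact ⟨a, a', ha, ha'⟩

/-- the connecting map `A''[p] → A'/pA'` as a function. -/
noncomputable def snakeFun (h : IsSES i π) (x : torP p A'') : quotP p A' :=
  quotPmk p (h.exists_lift p x).choose_spec.choose

theorem snakeFun_spec (h : IsSES i π) (x : torP p A'') (a : A) (a' : A') (h1 : π a = x.1)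
    (h2 : i a' = p • a) : snakeFun p h x = quotPmk p a' := by
  obtain ⟨h1', h2'⟩ := (h.exists_lift p x).choose_spec.choose_spec
  have h3 : π ((h.exists_lift p x).choose - a) = 0 := by rw [map_sub, h1, h1', sub_self]
  obtain ⟨b, hb⟩ := (h.exact _).mp h3
  have h4 : i ((h.exists_lift p x).choose_spec.choose - a') = i (p • b) := by
    rw [map_sub, h2, h2', map_nsmul, hb, smul_sub]
  have h5 := h.inj h4
  unfold snakeFun
  rw [quotPmk_eq_iff]
  exact ⟨b, h5.symm⟩

/-- the connecting map `A''[p] → A'/pA'`. -/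
noncomputable def snake (h : IsSES i π) : torP p A'' →ₗ[ZMod p] quotP p A' :=
  AddMonoidHom.toZModLinearMap p (AddMonoidHom.mk' (snakeFun p h) (by
    intro x y
    obtain ⟨a, a', h1, h2⟩ := h.exists_lift p x
    obtain ⟨b, b', h3, h4⟩ := h.exists_lift p y
    rw [snakeFun_spec p h x a a' h1 h2, snakeFun_spec p h y b b' h3 h4,
      snakeFun_spec p h (x + y) (a + b) (a' + b') (by simp [h1, h3]) (by simp [h2, h4]), map_add]))

theorem snake_spec (h : IsSES i π) (x : torP p A'') (a : A) (a' : A') (h1 : π a = x.1)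
    (h2 : i a' = p • a) : snake p h x = quotPmk p a' := snakeFun_spec p h x a a' h1 h2

theorem torMap_injective (h : IsSES i π) : Function.Injective (torMap p i) := by
  intro x y hxy
  apply Subtype.ext
  exact h.inj (congrArg Subtype.val hxy)

theorem range_torMap_eq_ker (h : IsSES i π) :
    LinearMap.range (torMap p i) = LinearMap.ker (torMap p π) := by
  apply le_antisymm
  · rintro _ ⟨x, rfl⟩
    rw [LinearMap.mem_ker]
    apply Subtype.ext
    exact (h.exact _).mpr ⟨x.1, rfl⟩
  · intro x hx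
    rw [LinearMap.mem_ker] at hx
    have h1 : π x.1 = 0 := congrArg Subtype.val hx
    obtain ⟨a', ha'⟩ := (h.exact _).mp h1
    have h2 : p • a' = 0 := by
      apply h.inj
      rw [map_nsmul, ha', map_zero]
      exact x.2
    exact ⟨⟨a', h2⟩, Subtype.ext ha'⟩

theorem range_torMap_eq_ker_snake (h : IsSES i π) :
    LinearMap.range (torMap p π) = LinearMap.ker (snake p h) := by
  apply le_antisymm
  · rintro _ ⟨t, rfl⟩
    rw [LinearMap.mem_ker, snake_spec p h _ t.1 0 rfl (by rw [map_zero]; exact t.2.symm), map_zero]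
  · intro x hx
    rw [LinearMap.mem_ker] at hx
    obtain ⟨a, a', h1, h2⟩ := h.exists_lift p x
    rw [snake_spec p h x a a' h1 h2, quotPmk_eq_zero_iff] at hx
    obtain ⟨b', hb'⟩ := hx
    have h3 : p • (a - i b') = 0 := by
      rw [smul_sub, ← h2, ← hb', map_nsmul, sub_self]
    refine ⟨⟨a - i b', h3⟩, Subtype.ext ?_⟩
    change π (a - i b') = x.1
    rw [map_sub, h1, (h.exact _).mpr ⟨b', rfl⟩, sub_zero]

theorem range_snake_eq_ker (h : IsSES i π) :
    LinearMap.range (snake p h) = LinearMap.ker (quotMap p i) := by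
  apply le_antisymm
  · rintro _ ⟨x, rfl⟩
    obtain ⟨a, a', h1, h2⟩ := h.exists_lift p x
    rw [LinearMap.mem_ker, snake_spec p h x a a' h1 h2, quotMap_mk, h2, quotPmk_eq_zero_iff]
    exact ⟨a, rfl⟩
  · intro y hy
    obtain ⟨a', rfl⟩ := quotPmk_surjective p y
    rw [LinearMap.mem_ker, quotMap_mk, quotPmk_eq_zero_iff] at hy
    obtain ⟨a, ha⟩ := hy
    have h3 : p • π a = 0 := by
      rw [← map_nsmul, ha]
      exact (h.exact _).mpr ⟨a', rfl⟩
    exact ⟨⟨π a, h3⟩, snake_spec p h _ a a' rfl ha.symm⟩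

theorem range_quotMap_eq_ker (h : IsSES i π) :
    LinearMap.range (quotMap p i) = LinearMap.ker (quotMap p π) := by
  apply le_antisymm
  · rintro _ ⟨y, rfl⟩
    obtain ⟨a', rfl⟩ := quotPmk_surjective p y
    rw [LinearMap.mem_ker, quotMap_mk, quotMap_mk, (h.exact _).mpr ⟨a', rfl⟩, map_zero]
  · intro y hy
    obtain ⟨a, rfl⟩ := quotPmk_surjective p y
    rw [LinearMap.mem_ker, quotMap_mk, quotPmk_eq_zero_iff] at hy
    obtain ⟨b'', hb''⟩ := hy
    obtain ⟨b, rfl⟩ := h.surj b''
    have h3 : π (a - p • b) = 0 := by rw [map_sub, map_nsmul, hb'', sub_self]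
    obtain ⟨a', ha'⟩ := (h.exact _).mp h3
    refine ⟨quotPmk p a', ?_⟩
    rw [quotMap_mk, ha', quotPmk_eq_iff]
    exact ⟨-b, by rw [smul_neg]; abel⟩

theorem quotMap_surjective (h : IsSES i π) : Function.Surjective (quotMap p π) := by
  intro y
  obtain ⟨a'', rfl⟩ := quotPmk_surjective p y
  obtain ⟨a, rfl⟩ := h.surj a''
  exact ⟨quotPmk p a, rfl⟩

theorem snake_comm (h : IsSES i π) (σ' : A' →+ A') (σ : A →+ A) (σ'' : A'' →+ A'')
    (h₁ : ∀ a, i (σ' a) = σ (i a)) (h₂ : ∀ a, π (σ a) = σ'' (π a)) :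
    (snake p h) ∘ₗ (torMap p σ'') = (quotMap p σ') ∘ₗ (snake p h) := by
  apply LinearMap.ext
  intro x
  obtain ⟨a, a', h1, h2⟩ := h.exists_lift p x
  rw [LinearMap.comp_apply, LinearMap.comp_apply, snake_spec p h x a a' h1 h2, quotMap_mk]
  refine snake_spec p h _ (σ a) (σ' a') ?_ ?_
  · rw [h₂, h1]; rfl
  · rw [h₁, h2, map_nsmul]

end Snake

end Fermat.Agent.TW.EC
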