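import Mathlib
import Fermat.Agent.TW.ECA0_helper5_Snake

set_option autoImplicit false

open Polynomial Module

namespace Fermat.Agent.TW.EC

universe u

section Mult

variable (p : ℕ) [Fact p.Prime]

/-- (b) multiplicativity of the Herbrand class `cpQuot / cpTor` in short exact sequences. -/
theorem cp_mul_of_isSES {A' A A'' : Type*} [AddCommGroup A'] [AddCommGroup A] [AddCommGroup A'']
    {i : A' →+ A} {π : A →+ A''} (h : IsSES i π)
    (σ' : A' →+ A') (σ : A →+ A) (σ'' : A'' →+ A'')
    (h₁ : ∀ a, i (σ' a) = σ (i a)) (h₂ : ∀ a, π (σ a) = σ'' (π a))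
    (hT' : Finite (torP p A')) (hT : Finite (torP p A)) (hT'' : Finite (torP p A''))
    (hQ' : Finite (quotP p A')) (hQ : Finite (quotP p A)) (hQ'' : Finite (quotP p A'')) :
    cpQuot p σ * cpTor p σ' * cpTor p σ'' = cpTor p σ * cpQuot p σ' * cpQuot p σ'' := by
  have hc₁ : i.comp σ' = σ.comp i := AddMonoidHom.ext h₁
  have hc₂ : π.comp σ = σ''.comp π := AddMonoidHom.ext h₂
  have e1 := charpoly_eq_of_exact (torMap p i) (torMap p π) (range_torMap_eq_ker p h)
    (torMap p σ) (torMap p σ'') (by rw [← torMap_comp, ← torMap_comp, hc₂])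
  rw [cpOn_range_of_injective (torMap p i) (torMap_injective p h) (torMap p σ') (torMap p σ)
    (by rw [← torMap_comp, ← torMap_comp, hc₁])] at e1
  have e2 := charpoly_eq_of_exact (torMap p π) (snake p h) (range_torMap_eq_ker_snake p h)
    (torMap p σ'') (quotMap p σ') (snake_comm p h σ' σ σ'' h₁ h₂)
  have e3 := charpoly_eq_of_exact (snake p h) (quotMap p i) (range_snake_eq_ker p h)
    (quotMap p σ') (quotMap p σ) (by rw [← quotMap_comp, ← quotMap_comp, hc₁])
  have e4 := charpoly_eq_of_exact (quotMap p i) (quotMap p π) (range_quotMap_eq_ker p h)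
    (quotMap p σ) (quotMap p σ'') (by rw [← quotMap_comp, ← quotMap_comp, hc₂])
  rw [cpOn_range_of_surjective _ (quotMap_surjective p h)] at e4
  rw [cpQuot_eq, cpQuot_eq, cpQuot_eq, cpTor_eq, cpTor_eq, cpTor_eq, e1, e2, e3, e4]
  ring

/-- on a group killed by `p`, `cpTor = cpQuot`. -/
theorem cpTor_eq_cpQuot_of_killed {B : Type*} [AddCommGroup B] [Finite B]
    (hB : ∀ b : B, p • b = 0) (τ : B →+ B) : cpTor p τ = cpQuot p τ := by
  let _ : Module (ZMod p) B := AddCommGroup.zmodModule hB
  have h1 := cpTor_eq_of_pres p τ (τ.toZModLinearMap p) (AddMonoidHom.id B)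
    (fun _ _ h => h) (fun a => ⟨fun _ => ⟨a, rfl⟩, fun _ => hB a⟩) (fun _ => rfl)
  have h2 := cpQuot_eq_of_pres p τ (τ.toZModLinearMap p) (AddMonoidHom.id B)
    (fun a => ⟨a, rfl⟩) (fun a => ⟨fun h => ⟨0, by rw [smul_zero]; exact h⟩, by
      rintro ⟨a', rfl⟩
      exact hB a'⟩) (fun _ => rfl)
  rw [h1.2, h2.2]

/-- (c) a finite group has trivial Herbrand class. -/
theorem cpQuot_eq_cpTor_of_finite (n : ℕ) : ∀ {A : Type u} [AddCommGroup A] [Finite A]
    (σ : A →+ A), Nat.card A = n → cpQuot p σ = cpTor p σ := by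
  induction n using Nat.strong_induction_on with
  | _ n ih =>
  intro A _ _ σ hn
  -- the sequence 0 → pA → A → A/pA → 0
  let i : mulP p A →+ A := (mulP p A).subtype
  let π : A →+ quotP p A := quotPmk p
  have hses : IsSES i π :=
    { inj := Subtype.val_injective
      surj := quotPmk_surjective p
      exact := fun a => by
        rw [quotPmk_eq_zero_iff]
        constructor
        · rintro ⟨b, rfl⟩
          exact ⟨⟨p • b, ⟨b, rfl⟩⟩, rfl⟩
        · rintro ⟨⟨x, ⟨b, hb⟩⟩, rfl⟩
          exact ⟨b, hb⟩ }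
  let σ' : mulP p A →+ mulP p A :=
    (σ.comp (mulP p A).subtype).codRestrict (mulP p A) (by
      rintro ⟨x, ⟨b, rfl⟩⟩
      exact ⟨σ b, by simp⟩)
  let σ'' : quotP p A →+ quotP p A := (quotMap p σ).toAddMonoidHom
  have : Finite (quotP p A) := Finite.of_surjective _ (quotPmk_surjective p)
  have key := cp_mul_of_isSES p hses σ' σ σ'' (fun _ => rfl) (fun _ => rfl)
    inferInstance inferInstance inferInstance
    (Finite.of_surjective _ (quotPmk_surjective p)) inferInstance
    (Finite.of_surjective _ (quotPmk_surjective p))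
  have hkill : ∀ b : quotP p A, p • b = 0 := by
    intro b
    obtain ⟨a, rfl⟩ := quotPmk_surjective p b
    rw [← map_nsmul, quotPmk_eq_zero_iff]
    exact ⟨a, rfl⟩
  have h3 := cpTor_eq_cpQuot_of_killed p hkill σ''
  by_cases htop : mulP p A = ⊤
  · -- `p` is surjective hence injective
    have hsurj : Function.Surjective (nsmulAddMonoidHom p : A →+ A) := by
      intro a
      have : a ∈ mulP p A := by rw [htop]; trivial
      exact this
    have hinj : Function.Injective (nsmulAddMonoidHom p : A →+ A) :=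
      Finite.injective_iff_surjective.mpr hsurj
    have : Subsingleton (torP p A) := by
      refine ⟨fun x y => Subtype.ext ?_⟩
      apply hinj
      change p • (x : A) = p • (y : A)
      rw [(mem_torP p _).mp x.2, (mem_torP p _).mp y.2]
    have : Subsingleton (quotP p A) := by
      refine ⟨fun x y => ?_⟩
      obtain ⟨a, rfl⟩ := quotPmk_surjective p x
      obtain ⟨b, rfl⟩ := quotPmk_surjective p y
      rw [quotPmk_eq_iff]
      exact hsurj (a - b)
    rw [cpQuot_eq, cpTor_eq, charpoly_eq_one_of_subsingleton, charpoly_eq_one_of_subsingleton]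
  · have hlt : Nat.card (mulP p A) < n := by
      rw [← hn]
      have hle : (mulP p A) < ⊤ := lt_top_iff_ne_top.mpr htop
      obtain ⟨a, -, ha⟩ := SetLike.exists_of_lt hle
      apply Finite.card_subtype_lt (x := a)
      exact ha
    have h4 := ih _ hlt σ' rfl
    rw [h4, h3] at key
    have hne : cpTor p σ' * cpQuot p σ'' ≠ 0 :=
      mul_ne_zero (cpTor_monic p σ').ne_zero (cpQuot_monic p σ'').ne_zero
    apply mul_right_cancel₀ hne
    rw [← mul_assoc, key, mul_assoc]

end Mult

end Fermat.Agent.TW.EC
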