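import Mathlib
import Fermat.Agent.TW.ECA0_helper5_Mult

set_option autoImplicit false

open Polynomial Module

namespace Fermat.Agent.TW.EC

section Four

variable (p : ℕ) [Fact p.Prime]

/-- (d) the Herbrand class along a four-term exact sequence `0 → A₁ → A₂ → A₃ → A₄ → 0` with
`A₄` finite. -/
theorem cp_mul_of_exact4 {A₁ A₂ A₃ A₄ : Type*} [AddCommGroup A₁] [AddCommGroup A₂]
    [AddCommGroup A₃] [AddCommGroup A₄] [Finite A₄]
    (f : A₁ →+ A₂) (g : A₂ →+ A₃) (k : A₃ →+ A₄)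
    (hf : Function.Injective f) (hfg : ∀ a, g a = 0 ↔ a ∈ Set.range f)
    (hgk : ∀ a, k a = 0 ↔ a ∈ Set.range g) (hk : Function.Surjective k)
    (σ₁ : A₁ →+ A₁) (σ₂ : A₂ →+ A₂) (σ₃ : A₃ →+ A₃) (σ₄ : A₄ →+ A₄)
    (h₁ : ∀ a, f (σ₁ a) = σ₂ (f a)) (h₂ : ∀ a, g (σ₂ a) = σ₃ (g a))
    (h₃ : ∀ a, k (σ₃ a) = σ₄ (k a))
    (hT₁ : Finite (torP p A₁)) (hT₂ : Finite (torP p A₂)) (hT₃ : Finite (torP p A₃))
    (hQ₁ : Finite (quotP p A₁)) (hQ₂ : Finite (quotP p A₂)) (hQ₃ : Finite (quotP p A₃)) :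
    cpQuot p σ₂ * cpTor p σ₁ * cpTor p σ₃ = cpTor p σ₂ * cpQuot p σ₁ * cpQuot p σ₃ := by
  obtain ⟨I, hI⟩ : ∃ I : AddSubgroup A₃, I = g.range := ⟨_, rfl⟩
  have hgI : ∀ a, g a ∈ I := fun a => by rw [hI]; exact ⟨a, rfl⟩
  let g' : A₂ →+ I := g.codRestrict I hgI
  let j : I →+ A₃ := I.subtype
  let σI : I →+ I := (σ₃.comp I.subtype).codRestrict I (by
    rintro ⟨x, hx⟩
    have hx' : x ∈ g.range := hI ▸ hx
    obtain ⟨a, rfl⟩ := hx'
    have : σ₃ (g a) ∈ I := by rw [← h₂]; exact hgI _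
    exact this)
  have ses1 : IsSES f g' :=
    { inj := hf
      surj := by
        rintro ⟨x, hx⟩
        have hx' : x ∈ g.range := hI ▸ hx
        obtain ⟨a, rfl⟩ := hx'
        exact ⟨a, rfl⟩
      exact := fun a => by
        rw [← hfg a]
        constructor
        · intro h; exact congrArg Subtype.val h
        · intro h; exact Subtype.ext h }
  have ses2 : IsSES j k :=
    { inj := Subtype.val_injective
      surj := hk
      exact := fun a => by
        rw [hgk a]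
        constructor
        · rintro ⟨b, rfl⟩
          exact ⟨⟨g b, hgI b⟩, rfl⟩
        · rintro ⟨⟨x, hx⟩, rfl⟩
          have hx' : x ∈ g.range := hI ▸ hx
          exact hx' }
  have hTI : Finite (torP p I) := Finite.of_injective _ (torMap_injective p ses2)
  have hQI : Finite (quotP p I) := Finite.of_surjective _ (quotMap_surjective p ses1)
  have hQ₄ : Finite (quotP p A₄) := Finite.of_surjective _ (quotPmk_surjective p)
  have key1 := cp_mul_of_isSES p ses1 σ₁ σ₂ σI h₁ (fun a => Subtype.ext (h₂ a))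
    hT₁ hT₂ hTI hQ₁ hQ₂ hQI
  have key2 := cp_mul_of_isSES p ses2 σI σ₃ σ₄ (fun _ => rfl) h₃
    hTI hT₃ inferInstance hQI hQ₃ hQ₄
  rw [cpQuot_eq_cpTor_of_finite p _ σ₄ rfl] at key2
  have hne : cpTor p σI * cpQuot p σI * cpTor p σ₄ ≠ 0 :=
    mul_ne_zero (mul_ne_zero (cpTor_monic p σI).ne_zero (cpQuot_monic p σI).ne_zero)
      (cpTor_monic p σ₄).ne_zero
  apply mul_right_cancel₀ hne
  linear_combination (cpTor p σ₃ * cpQuot p σI * cpTor p σ₄) * key1 -
    (cpTor p σ₂ * cpQuot p σ₁ * cpQuot p σI) * key2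

end Four

end Fermat.Agent.TW.EC
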