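/-
S56 / (EC-G) — helper3.
The Bockstein presentation: for a short exact sequence `0 → Pz --p--> Pz → P → 0` with a
compatible endomorphism `(rz, r)`, the `σ`-group `H = Hom(Pz, Y)` (`σ = rz^*`) has
`H[p] ≅ Hom(P, Y)` and, if `Ext¹(Pz, Y)` has no `p`-torsion, `H/pH ≅ Ext¹(P, Y)`, equivariantly.
-/
import Fermat.Agent.TW.EC_helper3_Equiv
import Fermat.Agent.TW.ECA0_helper5_Pres

set_option autoImplicit false
set_option linter.style.haveILetI false
set_option linter.unusedSectionVars false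

open CategoryTheory CategoryTheory.Abelian Polynomial

namespace Fermat.Agent.TW.EC

section Adapter

variable (p : ℕ) [hp : Fact p.Prime]

variable {A : Type*} [AddCommGroup A]

/-- `cpTor` from a presentation, in terms of `cpz`. -/
theorem cpTor_eq_cpz (σ : A →+ A) {V₂ : Type*} [AddCommGroup V₂] [Finite V₂]
    (hV : ∀ v : V₂, p • v = 0) (σ₂ : V₂ →+ V₂) (ι : V₂ →+ A) (hι : Function.Injective ι)
    (hι' : ∀ a, p • a = 0 ↔ a ∈ Set.range ι) (hισ : ∀ v, ι (σ₂ v) = σ (ι v)) :
    Finite (torP p A) ∧ cpTor p σ = cpz p σ₂ := by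
  haveI : Module (ZMod p) V₂ := AddCommGroup.zmodModule hV
  rw [cpz_eq]
  exact cpTor_eq_of_pres p σ (σ₂.toZModLinearMap p) ι hι hι' hισ

/-- `cpQuot` from a presentation, in terms of `cpz`. -/
theorem cpQuot_eq_cpz (σ : A →+ A) {V₁ : Type*} [AddCommGroup V₁] [Finite V₁]
    (hV : ∀ v : V₁, p • v = 0) (σ₁ : V₁ →+ V₁) (q : A →+ V₁) (hq : Function.Surjective q)
    (hq' : ∀ a, q a = 0 ↔ ∃ a', a = p • a') (hqσ : ∀ a, q (σ a) = σ₁ (q a)) :
    Finite (quotP p A) ∧ cpQuot p σ = cpz p σ₁ := by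
  haveI : Module (ZMod p) V₁ := AddCommGroup.zmodModule hV
  rw [cpz_eq]
  exact cpQuot_eq_of_pres p σ (σ₁.toZModLinearMap p) q hq hq' hqσ

end Adapter

section Bock

universe w v u

variable {𝒞 : Type u} [Category.{v} 𝒞] [Abelian 𝒞] [HasExt.{w} 𝒞]

variable (p : ℕ) [hp : Fact p.Prime] {Pz P : 𝒞} (f : Pz ⟶ Pz) (g : Pz ⟶ P) (zero : f ≫ g = 0)
  (hf : f = p • 𝟙 Pz) (hS : (ShortComplex.mk f g zero).ShortExact)
  (rz : Pz ⟶ Pz) (r : P ⟶ P) (hr : rz ≫ g = g ≫ r) (Y : 𝒞)

/-- the endomorphism of the Bockstein sequence -/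
def bockEnd : ShortComplex.mk f g zero ⟶ ShortComplex.mk f g zero where
  τ₁ := rz
  τ₂ := rz
  τ₃ := r
  comm₁₂ := by
    show rz ≫ f = f ≫ rz
    rw [hf, Preadditive.comp_nsmul, Preadditive.nsmul_comp, Category.comp_id, Category.id_comp]
  comm₂₃ := hr

include hf in
lemma clesB_bock (n : ℕ) (x : Ext Pz Y n) :
    clesB Y (S := ShortComplex.mk f g zero) n x = p • x := by
  rw [clesB_apply]
  show (Ext.mk₀ f).comp x (zero_add n) = p • x
  rw [hf]
  have h := preE_nsmul p (𝟙 Pz) Y n x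
  rw [preE_id] at h
  exact h

include hS hf in
lemma source_killed : p • (𝟙 P) = 0 := by
  haveI : Epi g := hS.epi_g
  rw [← cancel_epi g, Preadditive.comp_nsmul, Category.comp_id, Limits.comp_zero]
  have h1 : p • g = (p • 𝟙 Pz) ≫ g := by
    rw [Preadditive.nsmul_comp, Category.id_comp]
  rw [h1, ← hf, zero]

include hf hS hr in
/-- `Hom(Pz, Y)[p] ≅ Hom(P, Y)` equivariantly. -/
theorem bock_tor [Finite (Ext P Y 0)] :
    Finite (torP p (Ext Pz Y 0)) ∧ cpTor p (preE rz Y 0) = cpz p (preE r Y 0) := by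
  have hP : p • (𝟙 P) = 0 := source_killed p f g zero hf hS
  refine cpTor_eq_cpz p (preE rz Y 0) (fun v => ext_nsmul_eq_zero_of_source p hP Y 0 v)
    (preE r Y 0) (clesA Y (S := ShortComplex.mk f g zero) 0) (clesA_zero_injective Y hS) ?_ ?_
  · intro a
    rw [← clesB_bock p f g zero hf Y 0 a]
    have h := clesA_range Y hS 0
    constructor
    · intro ha
      have : a ∈ (clesB Y (S := ShortComplex.mk f g zero) 0).ker := ha
      rw [← h] at this
      exact this
    · intro ha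
      have : a ∈ (clesA Y (S := ShortComplex.mk f g zero) 0).range := ha
      rw [h] at this
      exact this
  · intro v
    exact clesA_preE Y (bockEnd p f g zero hf rz r hr) 0 v

include hf hS hr in
/-- `Hom(Pz, Y)/p ≅ Ext¹(P, Y)` equivariantly, if `Ext¹(Pz, Y)` has no `p`-torsion. -/
theorem bock_quot [Finite (Ext P Y 1)] (h1 : ∀ x : Ext Pz Y 1, p • x = 0 → x = 0) :
    Finite (quotP p (Ext Pz Y 0)) ∧ cpQuot p (preE rz Y 0) = cpz p (preE r Y 1) := by
  have hP : p • (𝟙 P) = 0 := source_killed p f g zero hf hS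
  refine cpQuot_eq_cpz p (preE rz Y 0) (fun v => ext_nsmul_eq_zero_of_source p hP Y 1 v)
    (preE r Y 1) (clesD Y hS 0) ?_ ?_ ?_
  · intro y
    have hy : clesA Y (S := ShortComplex.mk f g zero) 1 y = 0 := by
      apply h1
      rw [← clesB_bock p f g zero hf Y 1]
      have : clesA Y (S := ShortComplex.mk f g zero) 1 y ∈
          (clesA Y (S := ShortComplex.mk f g zero) 1).range := ⟨y, rfl⟩
      rw [clesA_range Y hS 1] at this
      exact this
    have : y ∈ (clesA Y (S := ShortComplex.mk f g zero) 1).ker := hy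
    rw [← clesD_range Y hS 0] at this
    exact this
  · intro a
    have h := clesB_range Y hS 0
    constructor
    · intro ha
      have : a ∈ (clesD Y hS 0).ker := ha
      rw [← h] at this
      obtain ⟨a', ha'⟩ := this
      exact ⟨a', by rw [← ha', clesB_bock p f g zero hf Y 0]⟩
    · rintro ⟨a', rfl⟩
      have : p • a' ∈ (clesB Y (S := ShortComplex.mk f g zero) 0).range :=
        ⟨a', clesB_bock p f g zero hf Y 0 a'⟩
      rw [h] at this
      exact this
  · intro a
    exact clesD_preE Y hS (bockEnd p f g zero hf rz r hr) 0 a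

end Bock

end Fermat.Agent.TW.EC
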