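/-
S56 / (EC-G) — helper3.
The alternating product formula for the characteristic polynomials of an endomorphism `r` of a
`p`-torsion smooth module `P` acting on `Extⁿ(P, −)` of `E → J → C` (`E = ker`, cokernel of
`J → C` uniquely `p`-divisible), `n ≤ 2`, assuming `Ext³(P, E) = 0` and finiteness.
-/
import Fermat.Agent.TW.EC_helper3_Equiv
import Fermat.Agent.CFT.Sm.PTLesDeg_helper9

set_option autoImplicit false
set_option linter.style.haveILetI false
set_option linter.unusedSectionVars false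

open CategoryTheory CategoryTheory.Limits CategoryTheory.Abelian Polynomial

namespace Fermat.Agent.TW.EC

open Fermat.Agent.CFT.Sm

section Les

variable {k Γ : Type} [CommRing k] [Group Γ] {𝒰 : OpenBasis Γ}

variable {E J C : SmRep k 𝒰} (i : E ⟶ J) (π : J ⟶ C) (p : ℕ) [hp : Fact p.Prime]

variable (i_inj : Function.Injective i.hom.hom)
  (comp_zero : ∀ e : E.obj.V, π.hom.hom (i.hom.hom e) = 0)
  (exact : ∀ j : J.obj.V, π.hom.hom j = 0 → ∃ e : E.obj.V, i.hom.hom e = j)
  (coker_div : ∀ c : C.obj.V, ∃ (j : J.obj.V) (c' : C.obj.V), c = π.hom.hom j + p • c')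
  (coker_tor : ∀ c : C.obj.V, (∃ j : J.obj.V, π.hom.hom j = p • c) →
    ∃ j' : J.obj.V, π.hom.hom j' = c)

include i_inj comp_zero exact coker_div coker_tor in
/-- the nine term formula for `E → J → C`. -/
theorem cpz_les_EJC (P : SmRep k 𝒰) (hP : ∀ x : P.obj.V, p • x = 0) (r : P ⟶ P)
    (hfinE : ∀ n, n ≤ 2 → Finite (Ext.{0} P E n)) (hfinJ : ∀ n, n ≤ 2 → Finite (Ext.{0} P J n))
    (hfinC : ∀ n, n ≤ 2 → Finite (Ext.{0} P C n)) (h3 : ∀ e : Ext.{0} P E 3, e = 0) :
    cpz p (preE r E 0) * cpz p (preE r C 0) * cpz p (preE r J 1) *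
        cpz p (preE r E 2) * cpz p (preE r C 2) =
      cpz p (preE r J 0) * cpz p (preE r E 1) * cpz p (preE r C 1) *
        cpz p (preE r J 2) := by
  have w : i ≫ π = 0 := comp_eq_zero_of_apply i π comp_zero
  let q : J ⟶ cokernel i := cokernel.π i
  let m : cokernel i ⟶ C := cokernel.desc i π w
  have hqm : q ≫ m = π := cokernel.π_desc i π w
  have hS₀ : (ShortComplex.mk i π w).Exact := (exact_iff _).2 exact
  have hm : Mono m := (ShortComplex.exact_iff_mono_cokernel_desc _).1 hS₀
  have hi : Mono i := (mono_iff_injective i).2 i_inj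
  let S₁ : ShortComplex (SmRep k 𝒰) := ShortComplex.mk i q (cokernel.condition i)
  have hS₁ : S₁.ShortExact :=
    { exact := ShortComplex.exact_cokernel i
      mono_f := hi
      epi_g := by change Epi (cokernel.π i); infer_instance }
  let r' : C ⟶ cokernel m := cokernel.π m
  let S₂ : ShortComplex (SmRep k 𝒰) := ShortComplex.mk m r' (cokernel.condition m)
  have hS₂ : S₂.ShortExact :=
    { exact := ShortComplex.exact_cokernel m
      mono_f := hm
      epi_g := by change Epi (cokernel.π m); infer_instance }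
  have hq_surj : Function.Surjective q.hom.hom := (epi_iff_surjective q).1 hS₁.epi_g
  obtain ⟨-, hS₂ex, hr_surj⟩ := (shortExact_iff S₂).1 hS₂
  have hrm : ∀ k, r'.hom.hom (m.hom.hom k) = 0 := fun k => by
    have h := congrArg (fun f => f.hom.hom k) (cokernel.condition m)
    exact h
  have hrπ : ∀ j, r'.hom.hom (π.hom.hom j) = 0 := fun j => by
    have h1 : π.hom.hom j = m.hom.hom (q.hom.hom j) := by
      have h := congrArg (fun f => f.hom.hom j) hqm
      exact h.symm
    rw [h1, hrm]
  have hker : ∀ c, r'.hom.hom c = 0 → ∃ j, π.hom.hom j = c := fun c hc => by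
    obtain ⟨k, hk⟩ := hS₂ex c hc
    obtain ⟨j, rfl⟩ := hq_surj k
    refine ⟨j, ?_⟩
    have h := congrArg (fun f => f.hom.hom j) hqm
    exact h.symm.trans hk
  have hQ : Function.Bijective (fun y : (cokernel m).obj.V => p • y) := by
    constructor
    · intro y y' hyy'
      have hyy'' : p • y = p • y' := hyy'
      obtain ⟨c, hc⟩ := hr_surj (y - y')
      have h1 : r'.hom.hom (p • c) = 0 := by
        rw [map_nsmul, hc, smul_sub, hyy'', sub_self]
      obtain ⟨j, hj⟩ := hker _ h1
      obtain ⟨j', hj'⟩ := coker_tor c ⟨j, hj⟩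
      have h2 : y - y' = 0 := by rw [← hc, ← hj', hrπ]
      exact sub_eq_zero.1 h2
    · intro y
      obtain ⟨c, rfl⟩ := hr_surj y
      obtain ⟨j, c', hc⟩ := coker_div c
      refine ⟨r'.hom.hom c', ?_⟩
      change p • r'.hom.hom c' = r'.hom.hom c
      rw [hc, map_add, hrπ, zero_add, map_nsmul]
  have hExtQ : ∀ (n : ℕ) (e : Ext.{0} P (cokernel m) n), e = 0 := fun n e =>
    smRep_ext_eq_zero_of_torsion_of_divisible P (cokernel m) p hP hQ e
  have hinj : ∀ n, Function.Injective ((Ext.mk₀ m).postcomp P (add_zero n)) := by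
    intro n
    rw [injective_iff_map_eq_zero]
    intro x hx
    cases n with
    | zero =>
      obtain ⟨f, rfl⟩ := (Ext.mk₀_bijective _ _).2 x
      have h1 : Ext.mk₀ (f ≫ m) = 0 := by
        rw [← Ext.mk₀_comp_mk₀]
        exact hx
      have h2 : f ≫ m = 0 :=
        (Ext.mk₀_bijective _ _).1 (h1.trans (Ext.mk₀_zero (X := P) (Y := C)).symm)
      have h3 : f = 0 := by
        rw [← cancel_mono m, h2, Limits.zero_comp]
      rw [h3, Ext.mk₀_zero]
    | succ n' =>
      obtain ⟨x₃, rfl⟩ := Ext.covariant_sequence_exact₁ P hS₂ x hx rfl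
      rw [hExtQ n' x₃, Ext.zero_comp]
  have hsurj : ∀ n, Function.Surjective ((Ext.mk₀ m).postcomp P (add_zero n)) := by
    intro n c
    exact Ext.covariant_sequence_exact₂ P hS₂ c (hExtQ n _)
  let φ : ∀ n, Ext.{0} P (cokernel i) n ≃+ Ext.{0} P C n := fun n =>
    AddEquiv.ofBijective ((Ext.mk₀ m).postcomp P (add_zero n)) ⟨hinj n, hsurj n⟩
  have hφ : ∀ n k, φ n k = k.comp (Ext.mk₀ m) (add_zero n) := fun n k => rfl
  have hfinK : ∀ n, n ≤ 2 → Finite (Ext.{0} P (cokernel i) n) := fun n hn => by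
    haveI := hfinC n hn
    exact Finite.of_equiv _ (φ n).symm.toEquiv
  have hcp : ∀ n, cpz p (preE r (cokernel i) n) = cpz p (preE r C n) := fun n =>
    cpz_congr p (φ n) _ _ (fun x => by
      rw [hφ, hφ]
      exact (preE_comp r x (Ext.mk₀ m) (add_zero n)).symm)
  have hP' : p • (𝟙 P) = 0 := smRep_nsmul_id_eq_zero P p hP
  have key := cpz_les r hS₁ p hP' hfinE hfinJ hfinK h3
  rw [← hcp 0, ← hcp 1, ← hcp 2]
  exact key

end Les

end Fermat.Agent.TW.EC
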