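/-
S56 / (EC-G) — helper3.
The four term sequence `0 → Hom(Pz,E) → Hom(Pz,J) → Hom(Pz,C) → Cl → 0` (`Cl` finite) combined with
the Bockstein presentations for `J` and `C`:
`cpz(T¹J) · cpz(T⁰E) · cpz(T⁰C) = cpz(T⁰J) · cpQuot(Hom(Pz,E)) · cpz(T¹C)`.
-/
import Fermat.Agent.TW.EC_helper3_Bock
import Fermat.Agent.TW.EC_helper3_NineSm
import Fermat.Agent.TW.ECA0_helper5_Four

set_option autoImplicit false
set_option linter.style.haveILetI false
set_option linter.unusedSectionVars false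

open CategoryTheory CategoryTheory.Limits CategoryTheory.Abelian Polynomial

namespace Fermat.Agent.TW.EC

open Fermat.Agent.CFT.Sm

section Four

variable {k Γ : Type} [CommRing k] [Group Γ] {𝒰 : OpenBasis Γ}

variable {E J C : SmRep k 𝒰} (i : E ⟶ J) (π : J ⟶ C) (p : ℕ) [hp : Fact p.Prime]

variable (i_inj : Function.Injective i.hom.hom)
  (comp_zero : ∀ e : E.obj.V, π.hom.hom (i.hom.hom e) = 0)
  (exact : ∀ j : J.obj.V, π.hom.hom j = 0 → ∃ e : E.obj.V, i.hom.hom e = j)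

variable {Pz P : SmRep k 𝒰} (f : Pz ⟶ Pz) (g : Pz ⟶ P) (zero : f ≫ g = 0)
  (hf : f = p • 𝟙 Pz) (hS : (ShortComplex.mk f g zero).ShortExact)
  (rz : Pz ⟶ Pz) (r : P ⟶ P) (hr : rz ≫ g = g ≫ r)

include i_inj comp_zero exact hf hS hr in
/-- the Herbrand identity for `E → J → C`. -/
theorem cpz_four_EJC
    (hE0 : Finite (Ext.{0} P E 0)) (hE1 : Finite (Ext.{0} P E 1))
    (hJ0 : Finite (Ext.{0} P J 0)) (hJ1 : Finite (Ext.{0} P J 1))
    (hC0 : Finite (Ext.{0} P C 0)) (hC1 : Finite (Ext.{0} P C 1))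
    (hJt : ∀ x : Ext.{0} Pz J 1, p • x = 0 → x = 0)
    (hCt : ∀ x : Ext.{0} Pz C 1, p • x = 0 → x = 0)
    (hCl : Finite (Ext.{0} Pz C 0 ⧸ ((Ext.mk₀ π).postcomp Pz (add_zero 0)).range)) :
    cpz p (preE r J 1) * cpz p (preE r E 0) * cpz p (preE r C 0) =
      cpz p (preE r J 0) * cpQuot p (preE rz E 0) * cpz p (preE r C 1) := by
  have w : i ≫ π = 0 := comp_eq_zero_of_apply i π comp_zero
  have hS₀ : (ShortComplex.mk i π w).Exact := (exact_iff _).2 exact
  haveI hi : Mono i := (mono_iff_injective i).2 i_inj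
  obtain ⟨hTE, eTE⟩ := bock_tor p f g zero hf hS rz r hr E
  obtain ⟨hTJ, eTJ⟩ := bock_tor p f g zero hf hS rz r hr J
  obtain ⟨hTC, eTC⟩ := bock_tor p f g zero hf hS rz r hr C
  obtain ⟨hQJ, eQJ⟩ := bock_quot p f g zero hf hS rz r hr J hJt
  obtain ⟨hQC, eQC⟩ := bock_quot p f g zero hf hS rz r hr C hCt
  -- `Hom(Pz,E)/p` embeds into `Ext¹(P, E)`
  have hQE : Finite (quotP p (Ext.{0} Pz E 0)) := by
    let q : Ext.{0} Pz E 0 →+ Ext.{0} P E 1 := clesD E hS 0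
    have hq : ∀ a ∈ mulP p (Ext.{0} Pz E 0), q a = 0 := by
      rintro _ ⟨b, rfl⟩
      have : (nsmulAddMonoidHom p : Ext.{0} Pz E 0 →+ _) b = p • b := rfl
      rw [this, ← clesB_bock p f g zero hf E 0 b]
      have h2 : clesB E (S := ShortComplex.mk f g zero) 0 b ∈
          (clesB E (S := ShortComplex.mk f g zero) 0).range := ⟨b, rfl⟩
      rw [clesB_range E hS 0] at h2
      exact h2
    let q' : quotP p (Ext.{0} Pz E 0) →+ Ext.{0} P E 1 :=
      QuotientAddGroup.lift (mulP p (Ext.{0} Pz E 0)) q hq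
    have hq'inj : Function.Injective q' := by
      rw [injective_iff_map_eq_zero]
      intro x hx
      obtain ⟨a, rfl⟩ := quotPmk_surjective p x
      have h1 : q a = 0 := hx
      have h2 : a ∈ (clesD E hS 0).ker := h1
      rw [← clesB_range E hS 0] at h2
      obtain ⟨b, hb⟩ := h2
      rw [quotPmk_eq_zero_iff]
      exact ⟨b, by rw [← hb, clesB_bock p f g zero hf E 0]⟩
    exact Finite.of_injective q' hq'inj
  let F : Ext.{0} Pz E 0 →+ Ext.{0} Pz J 0 := (Ext.mk₀ i).postcomp Pz (add_zero 0)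
  let G : Ext.{0} Pz J 0 →+ Ext.{0} Pz C 0 := (Ext.mk₀ π).postcomp Pz (add_zero 0)
  let K : Ext.{0} Pz C 0 →+ Ext.{0} Pz C 0 ⧸ G.range := QuotientAddGroup.mk' G.range
  have hFG : ∀ a, G a = 0 ↔ a ∈ Set.range F := by
    intro a
    constructor
    · intro ha
      obtain ⟨x, rfl⟩ := (Ext.mk₀_bijective _ _).2 a
      have h1 : Ext.mk₀ (x ≫ π) = 0 := by
        rw [← Ext.mk₀_comp_mk₀]
        exact ha
      have h2 : x ≫ π = 0 :=
        (Ext.mk₀_bijective _ _).1 (h1.trans (Ext.mk₀_zero (X := Pz) (Y := C)).symm)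
      refine ⟨Ext.mk₀ (hS₀.lift x h2), ?_⟩
      show (Ext.mk₀ (hS₀.lift x h2)).comp (Ext.mk₀ i) (add_zero 0) = Ext.mk₀ x
      rw [Ext.mk₀_comp_mk₀]
      congr 1
      exact hS₀.lift_f x h2
    · rintro ⟨b, rfl⟩
      show (b.comp (Ext.mk₀ i) (add_zero 0)).comp (Ext.mk₀ π) (add_zero 0) = 0
      rw [Ext.comp_assoc_of_third_deg_zero, Ext.mk₀_comp_mk₀, w, Ext.mk₀_zero, Ext.comp_zero]
  have hFinj : Function.Injective F := by
    rw [injective_iff_map_eq_zero]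
    intro a ha
    obtain ⟨x, rfl⟩ := (Ext.mk₀_bijective _ _).2 a
    have h1 : Ext.mk₀ (x ≫ i) = 0 := by
      rw [← Ext.mk₀_comp_mk₀]
      exact ha
    have h2 : x ≫ i = 0 :=
      (Ext.mk₀_bijective _ _).1 (h1.trans (Ext.mk₀_zero (X := Pz) (Y := J)).symm)
    have h3 : x = 0 := by
      rw [← cancel_mono i, h2, Limits.zero_comp]
    rw [h3, Ext.mk₀_zero]
  have hGK : ∀ a, K a = 0 ↔ a ∈ Set.range G := by
    intro a
    exact QuotientAddGroup.eq_zero_iff a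
  have hinv : ∀ x ∈ G.range, preE rz C 0 x ∈ G.range :=
    range_invariant G (preE rz J 0) (preE rz C 0)
      (fun a => (preE_comp rz a (Ext.mk₀ π) (add_zero 0)).symm)
  have key := cp_mul_of_exact4 p F G K hFinj hFG hGK (QuotientAddGroup.mk'_surjective _)
    (preE rz E 0) (preE rz J 0) (preE rz C 0) (quotSub (preE rz C 0) G.range hinv)
    (fun a => (preE_comp rz a (Ext.mk₀ i) (add_zero 0)).symm)
    (fun a => (preE_comp rz a (Ext.mk₀ π) (add_zero 0)).symm)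
    (fun a => rfl) hTE hTJ hTC hQE hQJ hQC
  rw [eTE, eTJ, eTC, eQJ, eQC] at key
  rw [key]

end Four

end Fermat.Agent.TW.EC
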