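/-
S56 / (EC-G) — helper3.
The abstract CORE identity: from the nine term formula, the Herbrand identity of the four term
sequence, the two duality computations and the unit theorem (in charpoly form),
`cpz(T⁰E) · cpz(T²E) · R = cpz(T¹E)`.
-/
import Fermat.Agent.TW.EC_helper3_Four

set_option autoImplicit false
set_option linter.style.haveILetI false
set_option linter.unusedSectionVars false

open CategoryTheory CategoryTheory.Limits CategoryTheory.Abelian Polynomial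

namespace Fermat.Agent.TW.EC

open Fermat.Agent.CFT.Sm

section Algebra

variable {R : Type*} [CommRing R] [IsDomain R]

/-- the algebra behind the CORE. -/
theorem core_algebra (a0 a1 a2 j0 j1 j2 c0 c1 c2 quot Q Rr t : R)
    (hj0 : j0 ≠ 0) (hc1 : c1 ≠ 0) (hQ : Q ≠ 0)
    (h9 : a0 * c0 * j1 * a2 * c2 = j0 * a1 * c1 * j2)
    (h4 : j1 * a0 * c0 = j0 * quot * c1)
    (hc2 : c2 = t) (hj2 : j2 = Q)
    (hH : quot * t = a0 * Q * Rr) :
    a0 * a2 * Rr = a1 := by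
  subst hc2 hj2
  have h1 : j0 * c1 * j2 * (a0 * a2 * Rr) = j0 * c1 * j2 * a1 := by
    calc j0 * c1 * j2 * (a0 * a2 * Rr) = j0 * c1 * a2 * (a0 * j2 * Rr) := by ring
      _ = j0 * c1 * a2 * (quot * c2) := by rw [hH]
      _ = (j0 * quot * c1) * a2 * c2 := by ring
      _ = (j1 * a0 * c0) * a2 * c2 := by rw [h4]
      _ = a0 * c0 * j1 * a2 * c2 := by ring
      _ = j0 * a1 * c1 * j2 := h9
      _ = j0 * c1 * j2 * a1 := by ring
  exact mul_left_cancel₀ (mul_ne_zero (mul_ne_zero hj0 hc1) hQ) h1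

end Algebra

section Core

variable {k Γ : Type} [CommRing k] [Group Γ] {𝒰 : OpenBasis Γ}

variable {E J C : SmRep k 𝒰} (i : E ⟶ J) (π : J ⟶ C) (p : ℕ) [hp : Fact p.Prime]

variable (i_inj : Function.Injective i.hom.hom)
  (comp_zero : ∀ e : E.obj.V, π.hom.hom (i.hom.hom e) = 0)
  (exact : ∀ j : J.obj.V, π.hom.hom j = 0 → ∃ e : E.obj.V, i.hom.hom e = j)
  (coker_div : ∀ c : C.obj.V, ∃ (j : J.obj.V) (c' : C.obj.V), c = π.hom.hom j + p • c')
  (coker_tor : ∀ c : C.obj.V, (∃ j : J.obj.V, π.hom.hom j = p • c) →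
    ∃ j' : J.obj.V, π.hom.hom j' = c)

variable {Pz P : SmRep k 𝒰} (f : Pz ⟶ Pz) (g : Pz ⟶ P) (zero : f ≫ g = 0)
  (hf : f = p • 𝟙 Pz) (hS : (ShortComplex.mk f g zero).ShortExact)
  (rz : Pz ⟶ Pz) (r : P ⟶ P) (hr : rz ≫ g = g ≫ r)

include i_inj comp_zero exact coker_div coker_tor hf hS hr in
/-- **the abstract CORE.** -/
theorem core_abstract
    (hfinE : ∀ n, n ≤ 2 → Finite (Ext.{0} P E n)) (hfinJ : ∀ n, n ≤ 2 → Finite (Ext.{0} P J n))
    (hfinC : ∀ n, n ≤ 2 → Finite (Ext.{0} P C n)) (h3 : ∀ e : Ext.{0} P E 3, e = 0)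
    (hJt : ∀ x : Ext.{0} Pz J 1, p • x = 0 → x = 0)
    (hCt : ∀ x : Ext.{0} Pz C 1, p • x = 0 → x = 0)
    (hCl : Finite (Ext.{0} Pz C 0 ⧸ ((Ext.mk₀ π).postcomp Pz (add_zero 0)).range))
    (Q Rr : (ZMod p)[X])
    (hC2 : cpz p (preE r C 2) = X - 1) (hJ2 : cpz p (preE r J 2) = Q)
    (hH : cpQuot p (preE rz E 0) * (X - 1) = cpz p (preE r E 0) * Q * Rr) :
    cpz p (preE r E 0) * cpz p (preE r E 2) * Rr = cpz p (preE r E 1) := by
  have hP : ∀ x : P.obj.V, p • x = 0 := by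
    have h0 : p • (𝟙 P) = 0 := source_killed p f g zero hf hS
    intro x
    have h1 := congrArg (fun φ : P ⟶ P => φ.hom.hom x) h0
    simp only [smRep_nsmul_hom_apply] at h1
    exact h1
  have h9 := cpz_les_EJC i π p i_inj comp_zero exact coker_div coker_tor P hP r hfinE hfinJ hfinC h3
  have h4 := cpz_four_EJC i π p i_inj comp_zero exact f g zero hf hS rz r hr
    (hfinE 0 (by omega)) (hfinE 1 (by omega)) (hfinJ 0 (by omega)) (hfinJ 1 (by omega))
    (hfinC 0 (by omega)) (hfinC 1 (by omega)) hJt hCt hCl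
  refine core_algebra _ _ _ (cpz p (preE r J 0)) (cpz p (preE r J 1)) (cpz p (preE r J 2))
    (cpz p (preE r C 0)) (cpz p (preE r C 1)) (cpz p (preE r C 2)) (cpQuot p (preE rz E 0)) Q Rr
    (X - 1) (cpz_ne_zero p _) (cpz_ne_zero p _) ?_ h9 h4 hC2 hJ2 hH
  rw [← hJ2]
  exact cpz_ne_zero p _

end Core

end Fermat.Agent.TW.EC
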