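/-
S56 / (EC-G), leaf EC-B (S-unit ranks), part 2 (helper2): finite places as double cosets.

For a finite subextension `F` of `Ω = AlgebraicClosure ℚ` and a prime `ℓ`, the primes of `𝓞 F`
above `ℓ` are in bijection with the double cosets `D_ℓ \ Γ / Gal(Ω/F)`, `D_ℓ` the decomposition
group of `padicPlace ℓ`; and `D_ℓ` may be replaced by the image of the local Galois group.

* `PrimesAbove F ℓ`, `primeBelowOf`;
* `card_primesAbove_eq_decomposition`, `card_primesAbove_eq_range`.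
-/
import Fermat.Agent.CFT.Arith.Unr_lead
import Fermat.Agent.EC.Conjugacy_helper5
import Fermat.Agent.CFT.LocForm.DecLift_helper4
import Fermat.Agent.CFT.S14.Decomp_helper5
import Fermat.Agent.TW.Kill_helper1_Frob

set_option autoImplicit false
set_option linter.unusedSectionVars false
set_option linter.style.haveILetI false

open NumberField IsDedekindDomain
open scoped Pointwise

namespace Fermat.Agent.TW.EC

open Fermat.Agent.CFT.S14 Fermat.Agent.EC Fermat.Agent.CFT.Arith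

/-- `Ω = AlgebraicClosure ℚ`. -/
local notation "Ω" => AlgebraicClosure ℚ
/-- `Γ = Gal(Ω/ℚ)`. -/
local notation "Γ" => (AlgebraicClosure ℚ ≃ₐ[ℚ] AlgebraicClosure ℚ)

section Finite

variable (F : IntermediateField ℚ Ω)

/-- the primes of `𝓞 F` above `ℓ`. -/
def PrimesAbove (ℓ : ℕ) : Type :=
  {P : HeightOneSpectrum (𝓞 ↥F) // ((ℓ : ℕ) : 𝓞 ↥F) ∈ P.asIdeal}

/-- elements of `Gal(Ω/F)` do not change the prime of `𝓞 F` below a prime of `𝓞 Ω`. -/
lemma under_smul_of_mem_fixingSubgroup {w : Γ} (hw : w ∈ F.fixingSubgroup) (Q : Ideal (𝓞 Ω)) :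
    (w • Q).under (𝓞 ↥F) = Q.under (𝓞 ↥F) := by
  ext x
  rw [Ideal.under_def, Ideal.mem_comap, Ideal.mem_comap,
    Ideal.mem_pointwise_smul_iff_inv_smul_mem]
  have : w⁻¹ • algebraMap (𝓞 ↥F) (𝓞 Ω) x = algebraMap (𝓞 ↥F) (𝓞 Ω) x := by
    apply NumberField.RingOfIntegers.ext
    show w⁻¹ (((x : ↥F) : Ω)) = ((x : ↥F) : Ω)
    exact (IntermediateField.mem_fixingSubgroup_iff F w⁻¹).mp (inv_mem hw) _ (x : ↥F).2
  rw [this]

end Finite

section Finite2

variable (F : IntermediateField ℚ Ω) {ℓ : ℕ}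

/-- the stabiliser of the prime of a valuation subring is its decomposition subgroup. -/
lemma smul_primeQbar_eq_iff (hℓ : ℓ.Prime) {A : ValuationSubring Ω} (hA : A.LiesOverPrime ℓ)
    (g : Γ) : g • primeQbar A = primeQbar A ↔ g ∈ A.decompositionSubgroup ℚ := by
  constructor
  · intro h
    exact mem_decompositionSubgroup_of_smul_eq (Q := primeQbar A)
      (fun x => mem_iff_exists_fraction hℓ hA x) g h
  · intro h
    have h1 : g • A = A := MulAction.mem_stabilizer_iff.mp h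
    rw [← primeQbar_smul, h1]

/-- primes of `𝓞 Ω` containing `ℓ` are conjugate. -/
lemma exists_smul_eq_of_natCast_mem (hℓ : ℓ.Prime) (P Q : Ideal (𝓞 Ω)) [P.IsPrime] [Q.IsPrime]
    (hP : ((ℓ : ℕ) : 𝓞 Ω) ∈ P) (hQ : ((ℓ : ℕ) : 𝓞 Ω) ∈ Q) : ∃ τ : Γ, Q = τ • P := by
  letI : TopologicalSpace (𝓞 Ω) := ⊥
  haveI : DiscreteTopology (𝓞 Ω) := ⟨rfl⟩
  haveI : ContinuousSMul Γ (𝓞 Ω) := continuousSMul_GQ
  have hunder : ∀ (B : Ideal (𝓞 Ω)) [B.IsPrime], ((ℓ : ℕ) : 𝓞 Ω) ∈ B →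
      B.under ℤ = Ideal.span {(ℓ : ℤ)} := by
    intro B _ hB
    have hmax : (Ideal.span {(ℓ : ℤ)}).IsMaximal :=
      PrincipalIdealRing.isMaximal_of_irreducible (Nat.prime_iff_prime_int.mp hℓ).irreducible
    symm
    apply hmax.eq_of_le (Ideal.IsPrime.ne_top inferInstance)
    rw [Ideal.span_singleton_le_iff_mem]
    show (algebraMap ℤ (𝓞 Ω) (ℓ : ℤ)) ∈ B
    simpa using hB
  exact Algebra.IsInvariant.exists_smul_of_under_eq_of_profinite (A := ℤ) (G := Γ)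
    P Q ((hunder P hP).trans (hunder Q hQ).symm)

lemma natCast_mem_smul_iff (g : Γ) (Q : Ideal (𝓞 Ω)) :
    ((ℓ : ℕ) : 𝓞 Ω) ∈ g • Q ↔ ((ℓ : ℕ) : 𝓞 Ω) ∈ Q := by
  rw [Ideal.mem_pointwise_smul_iff_inv_smul_mem]
  have : g⁻¹ • ((ℓ : ℕ) : 𝓞 Ω) = ((ℓ : ℕ) : 𝓞 Ω) := by
    apply NumberField.RingOfIntegers.ext
    show g⁻¹ ((((ℓ : ℕ) : 𝓞 Ω) : Ω)) = _
    simp
  rw [this]

lemma natCast_mem_under_iff (Q : Ideal (𝓞 Ω)) :
    ((ℓ : ℕ) : 𝓞 ↥F) ∈ Q.under (𝓞 ↥F) ↔ ((ℓ : ℕ) : 𝓞 Ω) ∈ Q := by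
  rw [Ideal.under_def, Ideal.mem_comap, map_natCast]

variable [NumberField ↥F]

/-- the prime of `𝓞 F` below `g⁻¹ • Q₀`, `Q₀` the prime of the valuation subring `A`. -/
noncomputable def primeBelowOf (hℓ : ℓ.Prime) {A : ValuationSubring Ω} (hA : A.LiesOverPrime ℓ)
    (g : Γ) : PrimesAbove F ℓ :=
  ⟨⟨(g⁻¹ • primeQbar A).under (𝓞 ↥F), inferInstance, by
    intro h0
    have h1 : ((ℓ : ℕ) : 𝓞 ↥F) ∈ (g⁻¹ • primeQbar A).under (𝓞 ↥F) := by
      rw [natCast_mem_under_iff, natCast_mem_smul_iff]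
      exact natCast_mem_primeQbar hA
    rw [h0, Ideal.mem_bot] at h1
    exact hℓ.ne_zero (by exact_mod_cast h1)⟩, by
    show ((ℓ : ℕ) : 𝓞 ↥F) ∈ (g⁻¹ • primeQbar A).under (𝓞 ↥F)
    rw [natCast_mem_under_iff, natCast_mem_smul_iff]
    exact natCast_mem_primeQbar hA⟩

lemma primeBelowOf_asIdeal (hℓ : ℓ.Prime) {A : ValuationSubring Ω} (hA : A.LiesOverPrime ℓ) (g : Γ) :
    (primeBelowOf F hℓ hA g).1.asIdeal = (g⁻¹ • primeQbar A).under (𝓞 ↥F) := rfl

lemma primeBelowOf_eq_iff (hℓ : ℓ.Prime) {A : ValuationSubring Ω} (hA : A.LiesOverPrime ℓ) (g g' : Γ) :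
    primeBelowOf F hℓ hA g = primeBelowOf F hℓ hA g' ↔
      (g⁻¹ • primeQbar A).under (𝓞 ↥F) = (g'⁻¹ • primeQbar A).under (𝓞 ↥F) := by
  constructor
  · intro h
    have := congrArg (fun P : PrimesAbove F ℓ => P.1.asIdeal) h
    exact this
  · intro h
    apply Subtype.ext
    apply HeightOneSpectrum.ext
    exact h

lemma primeBelowOf_mul_mul (hℓ : ℓ.Prime) {A : ValuationSubring Ω} (hA : A.LiesOverPrime ℓ)
    {d : Γ} (hd : d ∈ A.decompositionSubgroup ℚ) (g : Γ) {w : Γ} (hw : w ∈ F.fixingSubgroup) :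
    primeBelowOf F hℓ hA (d * g * w) = primeBelowOf F hℓ hA g := by
  rw [primeBelowOf_eq_iff]
  have h1 : (d * g * w)⁻¹ • primeQbar A = w⁻¹ • (g⁻¹ • primeQbar A) := by
    rw [mul_inv_rev, mul_inv_rev, mul_smul, mul_smul,
      (smul_primeQbar_eq_iff hℓ hA d⁻¹).mpr (inv_mem hd)]
  rw [h1, under_smul_of_mem_fixingSubgroup F (inv_mem hw)]

lemma exists_of_primeBelowOf_eq (hℓ : ℓ.Prime) {A : ValuationSubring Ω} (hA : A.LiesOverPrime ℓ)
    {g g' : Γ} (h : primeBelowOf F hℓ hA g = primeBelowOf F hℓ hA g') :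
    ∃ d ∈ A.decompositionSubgroup ℚ, ∃ w ∈ F.fixingSubgroup, g' = d * g * w := by
  rw [primeBelowOf_eq_iff] at h
  obtain ⟨n, hn⟩ := exists_smul_eq_of_under_eq' F (g⁻¹ • primeQbar A) (g'⁻¹ • primeQbar A) h
  -- `g' n g⁻¹` stabilises `Q₀`
  have h1 : (g' * (n : Γ) * g⁻¹) • primeQbar A = primeQbar A := by
    rw [mul_smul, mul_smul]
    have : (n : Γ) • g⁻¹ • primeQbar A = g'⁻¹ • primeQbar A := hn.symm
    rw [this, smul_inv_smul]
  refine ⟨g' * (n : Γ) * g⁻¹, (smul_primeQbar_eq_iff hℓ hA _).mp h1, (n : Γ)⁻¹, inv_mem n.2, ?_⟩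
  group

lemma primeBelowOf_surjective (hℓ : ℓ.Prime) {A : ValuationSubring Ω} (hA : A.LiesOverPrime ℓ) :
    Function.Surjective (primeBelowOf F hℓ hA) := by
  rintro ⟨P, hP⟩
  haveI := P.isPrime
  obtain ⟨Q, -, hQprime, hQP⟩ := Ideal.exists_ideal_over_prime_of_isIntegral P.asIdeal
    (⊥ : Ideal (𝓞 Ω)) (by
      rw [← RingHom.ker_eq_comap_bot]
      have : Function.Injective (algebraMap (𝓞 ↥F) (𝓞 Ω)) :=
        FaithfulSMul.algebraMap_injective _ _
      rw [(RingHom.injective_iff_ker_eq_bot _).mp this]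
      exact bot_le)
  haveI := hQprime
  have hℓQ : ((ℓ : ℕ) : 𝓞 Ω) ∈ Q := by
    rw [← natCast_mem_under_iff F, Ideal.under_def, hQP]
    exact hP
  obtain ⟨τ, hτ⟩ := exists_smul_eq_of_natCast_mem hℓ (primeQbar A) Q
    (natCast_mem_primeQbar hA) hℓQ
  refine ⟨τ⁻¹, ?_⟩
  apply Subtype.ext
  apply HeightOneSpectrum.ext
  rw [primeBelowOf_asIdeal, inv_inv, ← hτ, Ideal.under_def, hQP]

/-- **primes above `ℓ` = double cosets** `D_ℓ \ Γ / Gal(Ω/F)`. -/
theorem card_primesAbove_eq_decomposition (hℓ : ℓ.Prime) {A : ValuationSubring Ω}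
    (hA : A.LiesOverPrime ℓ) :
    Nat.card (PrimesAbove F ℓ) =
      Nat.card (DoubleCoset.Quotient ((A.decompositionSubgroup ℚ : Subgroup Γ) : Set Γ)
        (F.fixingSubgroup : Set Γ)) := by
  symm
  refine Nat.card_congr (Equiv.ofBijective
    (Quotient.lift (primeBelowOf F hℓ hA) ?_) ⟨?_, ?_⟩)
  · intro a b hab
    obtain ⟨d, hd, w, hw, rfl⟩ := DoubleCoset.rel_iff.mp hab
    exact (primeBelowOf_mul_mul F hℓ hA hd a hw).symm
  · intro a b
    induction a using Quotient.inductionOn with | h a => ?_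
    induction b using Quotient.inductionOn with | h b => ?_
    intro hab
    rw [Quotient.lift_mk, Quotient.lift_mk] at hab
    exact Quotient.sound (DoubleCoset.rel_iff.mpr (exists_of_primeBelowOf_eq F hℓ hA hab))
  · intro v
    obtain ⟨g, hg⟩ := primeBelowOf_surjective F hℓ hA v
    exact ⟨Quotient.mk _ g, hg⟩

end Finite2

section Range

/-- the double coset relation does not change when `D` is replaced by a subgroup `H` with
`D ⊆ H · U`, `U ≤ W` normal. -/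
lemma doubleCoset_rel_iff_of_le {G : Type*} [Group G] {H D W U : Subgroup G} [U.Normal]
    (hHD : H ≤ D) (hUW : U ≤ W) (hD : ∀ d ∈ D, ∃ h ∈ H, h⁻¹ * d ∈ U) (x y : G) :
    DoubleCoset.setoid (H : Set G) (W : Set G) x y ↔
      DoubleCoset.setoid (D : Set G) (W : Set G) x y := by
  rw [DoubleCoset.rel_iff, DoubleCoset.rel_iff]
  constructor
  · rintro ⟨h, hh, w, hw, rfl⟩
    exact ⟨h, hHD hh, w, hw, rfl⟩
  · rintro ⟨d, hd, w, hw, rfl⟩
    obtain ⟨h, hh, hu⟩ := hD d hd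
    refine ⟨h, hh, x⁻¹ * (h⁻¹ * d) * x * w, ?_, ?_⟩
    · refine W.mul_mem (hUW ?_) hw
      have := (inferInstance : U.Normal).conj_mem _ hu x⁻¹
      simpa using this
    · group

variable (F : IntermediateField ℚ Ω) [FiniteDimensional ℚ F] [NumberField ↥F]
variable (ℓ : ℕ) [Fact ℓ.Prime]

/-- **primes above `ℓ` = double cosets** `G_ℓ \ Γ / Gal(Ω/F)`, `G_ℓ` the image of the local Galois
group. -/
theorem card_primesAbove_eq_range :
    Nat.card (PrimesAbove F ℓ) =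
      Nat.card (DoubleCoset.Quotient (Set.range (localGaloisToGlobal ℓ))
        (F.fixingSubgroup : Set Γ)) := by
  have hℓ : ℓ.Prime := Fact.out
  rw [card_primesAbove_eq_decomposition F hℓ (Fermat.Agent.TW.Kill.padicPlace_liesOverPrime ℓ)]
  -- the normal closure of `F`
  set N : IntermediateField ℚ Ω := IntermediateField.normalClosure ℚ F Ω with hN
  haveI : FiniteDimensional ℚ N := normalClosure.is_finiteDimensional ℚ F Ω
  have hFN : F ≤ N := IntermediateField.le_normalClosure F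
  haveI : IsGalois ℚ N := IsGalois.normalClosure ℚ F Ω
  haveI : N.fixingSubgroup.Normal := (InfiniteGalois.normal_iff_isGalois N).mpr inferInstance
  have hrange : Set.range (localGaloisToGlobal ℓ) = ((localGaloisToGlobal ℓ).range : Set Γ) :=
    (MonoidHom.coe_range _).symm
  rw [hrange]
  symm
  refine Nat.card_congr (Quotient.congrRight fun x y => ?_)
  refine doubleCoset_rel_iff_of_le (U := N.fixingSubgroup) ?_
    (IntermediateField.fixingSubgroup_antitone hFN) ?_ x y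
  · rintro _ ⟨τ, rfl⟩
    exact localGaloisToGlobal_mem_decompositionSubgroup ℓ τ
  · intro d hd
    obtain ⟨τ, hτ⟩ := Fermat.Agent.CFT.LocForm.exists_local_lift ℓ d hd N
    refine ⟨localGaloisToGlobal ℓ τ, ⟨τ, rfl⟩, ?_⟩
    rw [IntermediateField.mem_fixingSubgroup_iff]
    intro x hx
    rw [AlgEquiv.mul_apply, ← hτ x hx]
    exact AlgEquiv.symm_apply_apply _ x

end Range

end Fermat.Agent.TW.EC
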