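/-
S56 / (EC-G), leaf EC-B (S-unit ranks), part 3 (helper2): the `Gal(Ω/F)`-invariants of `E_S` are
the `S`-units of `F`.

For a finite subextension `F` of `Ω = AlgebraicClosure ℚ`, unramified outside `S`:

* `IsBelow P A` : the height one prime `P` of `𝓞 F` lies below the valuation subring `A` of `Ω`;
  `IsBelow.valuation_eq_one_iff` : `v_P(y) = 1 ↔ v_A(y) = 1` for `y ∈ F`;
* `belowOf`, `exists_isBelow` : going down / going up;
* `primesOverS S F` : the primes of `𝓞 F` over `S`;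
* `mem_unit_iff_mem_ES` : `x ∈ (primesOverS S F).unit F ↔ x ∈ E_S`;
* `fixedES S W`, `unitEquivFixedES : (primesOverS S F).unit F ≃* fixedES S (Gal(Ω/F))`.
-/
import Fermat.Agent.CFT.Arith.ES_helper7
import Fermat.Agent.CFT.Arith.Unr_lead
import Fermat.Agent.EC.InertiaField_helper5

set_option autoImplicit false
set_option linter.unusedSectionVars false
set_option linter.style.haveILetI false

open NumberField IsDedekindDomain
open scoped Pointwise

namespace Fermat.Agent.TW.EC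

open Fermat.Agent.CFT.S14 Fermat.Agent.EC Fermat.Agent.CFT.Arith

local notation "Ω" => AlgebraicClosure ℚ
local notation "Γ" => (AlgebraicClosure ℚ ≃ₐ[ℚ] AlgebraicClosure ℚ)

section Val

variable {F : IntermediateField ℚ Ω} [NumberField ↥F]

/-- compatibility of a height one prime `P` of `𝓞 F` with a valuation subring `A` of `Ω`. -/
def IsBelow (P : HeightOneSpectrum (𝓞 ↥F)) (A : ValuationSubring Ω) : Prop :=
  ∀ b : 𝓞 ↥F, b ∈ P.asIdeal ↔ A.valuation (((b : ↥F) : Ω)) < 1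

lemma valuation_coe_int_le_one (A : ValuationSubring Ω) (b : 𝓞 ↥F) :
    A.valuation (((b : ↥F) : Ω)) ≤ 1 :=
  valuation_coe_le_one A (algebraMap (𝓞 ↥F) (𝓞 Ω) b)

lemma IsBelow.valuation_eq_one {P : HeightOneSpectrum (𝓞 ↥F)} {A : ValuationSubring Ω}
    (h : IsBelow P A) (d : P.asIdeal.primeCompl) :
    A.valuation ((((d : 𝓞 ↥F) : ↥F) : Ω)) = 1 :=
  le_antisymm (valuation_coe_int_le_one A _) (not_lt.mp fun hlt => d.2 ((h _).mpr hlt))

/-- **(VB)** `v_P(y) ≤ 1 → y ∈ A`. -/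
lemma IsBelow.valuation_le_one {P : HeightOneSpectrum (𝓞 ↥F)} {A : ValuationSubring Ω}
    (h : IsBelow P A) {y : ↥F} (hy : P.valuation ↥F y ≤ 1) : A.valuation (y : Ω) ≤ 1 := by
  obtain ⟨n, d, hnd⟩ := P.exists_primeCompl_mul_eq_of_integer y hy
  have h1 : (y : Ω) * ((((d : 𝓞 ↥F) : ↥F) : Ω)) = (((n : 𝓞 ↥F) : ↥F) : Ω) :=
    congrArg Subtype.val hnd
  have h2 : A.valuation ((y : Ω) * ((((d : 𝓞 ↥F) : ↥F) : Ω))) ≤ 1 :=
    h1 ▸ valuation_coe_int_le_one A n
  rwa [map_mul, h.valuation_eq_one d, mul_one] at h2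

/-- `v_P(y) < 1 → y ∈ 𝔪_A`. -/
lemma IsBelow.valuation_lt_one {P : HeightOneSpectrum (𝓞 ↥F)} {A : ValuationSubring Ω}
    (h : IsBelow P A) {y : ↥F} (hy : P.valuation ↥F y < 1) : A.valuation (y : Ω) < 1 := by
  obtain ⟨n, d, hnd⟩ := P.exists_primeCompl_mul_eq_of_integer y hy.le
  have h1 : (y : Ω) * ((((d : 𝓞 ↥F) : ↥F) : Ω)) = (((n : 𝓞 ↥F) : ↥F) : Ω) :=
    congrArg Subtype.val hnd
  have hn : n ∈ P.asIdeal := by
    rw [← P.valuation_lt_one_iff_mem (K := ↥F)]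
    show P.valuation ↥F (algebraMap (𝓞 ↥F) ↥F n) < 1
    rw [← hnd, map_mul]
    have hd : P.valuation ↥F (algebraMap (𝓞 ↥F) ↥F (d : 𝓞 ↥F)) = 1 := by
      rw [P.valuation_of_algebraMap]
      exact (P.intValuation_eq_one_iff_mem_primeCompl _).mpr d.2
    rw [hd, mul_one]
    exact hy
  have h2 : A.valuation ((y : Ω) * ((((d : 𝓞 ↥F) : ↥F) : Ω))) < 1 :=
    h1 ▸ (h n).mp hn
  rwa [map_mul, h.valuation_eq_one d, mul_one] at h2

/-- **(VA)** `y ∈ A → v_P(y) ≤ 1`. -/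
lemma IsBelow.valuation_le_one' {P : HeightOneSpectrum (𝓞 ↥F)} {A : ValuationSubring Ω}
    (h : IsBelow P A) {y : ↥F} (hy : A.valuation (y : Ω) ≤ 1) : P.valuation ↥F y ≤ 1 := by
  by_contra hcon
  rw [not_le] at hcon
  have hy0 : y ≠ 0 := by
    rintro rfl
    rw [map_zero] at hcon
    exact absurd hcon (by simp)
  have h1 : P.valuation ↥F y⁻¹ < 1 := by
    rw [map_inv₀]
    exact inv_lt_one_of_one_lt₀ hcon
  have h2 := h.valuation_lt_one h1
  have h3 : A.valuation ((y : Ω) * ((y⁻¹ : ↥F) : Ω)) < 1 := by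
    rw [map_mul]
    calc A.valuation (y : Ω) * A.valuation ((y⁻¹ : ↥F) : Ω)
        ≤ 1 * A.valuation ((y⁻¹ : ↥F) : Ω) := mul_le_mul_left hy _
      _ < 1 := by rwa [one_mul]
  have h4 : (y : Ω) * ((y⁻¹ : ↥F) : Ω) = 1 := by
    have : y * y⁻¹ = 1 := mul_inv_cancel₀ hy0
    exact_mod_cast congrArg (fun z : ↥F => (z : Ω)) this
  rw [h4, map_one] at h3
  exact lt_irrefl _ h3

/-- unit at `A` iff unit at `P`. -/
lemma IsBelow.valuation_eq_one_iff {P : HeightOneSpectrum (𝓞 ↥F)} {A : ValuationSubring Ω}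
    (h : IsBelow P A) {y : ↥F} (hy0 : y ≠ 0) :
    P.valuation ↥F y = 1 ↔ A.valuation (y : Ω) = 1 := by
  have hinv : ((y⁻¹ : ↥F) : Ω) = ((y : ↥F) : Ω)⁻¹ := by push_cast; rfl
  constructor
  · intro h1
    refine le_antisymm (h.valuation_le_one h1.le) ?_
    have h2 : P.valuation ↥F y⁻¹ ≤ 1 := by rw [map_inv₀, h1, inv_one]
    have h3 := h.valuation_le_one h2
    rw [hinv, map_inv₀] at h3
    have hne : A.valuation (y : Ω) ≠ 0 := by
      rw [Valuation.ne_zero_iff]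
      exact fun h0 => hy0 (Subtype.ext h0)
    exact (inv_le_one₀ (zero_lt_iff.mpr hne)).mp h3
  · intro h1
    refine le_antisymm (h.valuation_le_one' h1.le) ?_
    have h2 : A.valuation ((y⁻¹ : ↥F) : Ω) ≤ 1 := by rw [hinv, map_inv₀, h1, inv_one]
    have h3 := h.valuation_le_one' h2
    rw [map_inv₀] at h3
    have hne : P.valuation ↥F y ≠ 0 := by
      rw [Valuation.ne_zero_iff]
      exact hy0
    exact (inv_le_one₀ (zero_lt_iff.mpr hne)).mp h3

end Val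

section Units

variable (S : Finset Nat.Primes) (F : IntermediateField ℚ Ω) [NumberField ↥F]

/-- the primes of `𝓞 F` above the primes of `S`. -/
def primesOverS : Set (HeightOneSpectrum (𝓞 ↥F)) :=
  {P | ∃ ℓ ∈ S, (((ℓ : Nat.Primes) : ℕ) : 𝓞 ↥F) ∈ P.asIdeal}

variable {S F}

/-- the prime of `𝓞 F` below a valuation subring of `Ω` over a prime number. -/
noncomputable def belowOf {ℓ : ℕ} (hℓ : ℓ.Prime) {A : ValuationSubring Ω}
    (hA : A.LiesOverPrime ℓ) : HeightOneSpectrum (𝓞 ↥F) :=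
  ⟨(primeQbar A).under (𝓞 ↥F), inferInstance, by
    intro h0
    have h1 : ((ℓ : ℕ) : 𝓞 ↥F) ∈ (primeQbar A).under (𝓞 ↥F) := by
      rw [Ideal.under_def, Ideal.mem_comap, map_natCast]
      exact natCast_mem_primeQbar hA
    rw [h0, Ideal.mem_bot] at h1
    exact hℓ.ne_zero (by exact_mod_cast h1)⟩

lemma isBelow_belowOf {ℓ : ℕ} (hℓ : ℓ.Prime) {A : ValuationSubring Ω}
    (hA : A.LiesOverPrime ℓ) : IsBelow (belowOf (F := F) hℓ hA) A := fun _ => Iff.rfl

lemma natCast_mem_belowOf {ℓ : ℕ} (hℓ : ℓ.Prime) {A : ValuationSubring Ω}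
    (hA : A.LiesOverPrime ℓ) : ((ℓ : ℕ) : 𝓞 ↥F) ∈ (belowOf (F := F) hℓ hA).asIdeal := by
  show ((ℓ : ℕ) : 𝓞 ↥F) ∈ (primeQbar A).under (𝓞 ↥F)
  rw [Ideal.under_def, Ideal.mem_comap, map_natCast]
  exact natCast_mem_primeQbar hA

/-- every height one prime of `𝓞 F` lies below a valuation subring of `Ω`. -/
lemma exists_isBelow (P : HeightOneSpectrum (𝓞 ↥F)) :
    ∃ (ℓ : ℕ) (_ : ℓ.Prime) (A : ValuationSubring Ω), A.LiesOverPrime ℓ ∧
      ((ℓ : ℕ) : 𝓞 ↥F) ∈ P.asIdeal ∧ IsBelow P A := by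
  haveI := P.isPrime
  obtain ⟨ℓ, hℓ, hℓP⟩ := exists_prime_natCast_mem_of_ne_bot P.asIdeal P.ne_bot
  obtain ⟨Q, -, hQprime, hQP⟩ := Ideal.exists_ideal_over_prime_of_isIntegral P.asIdeal
    (⊥ : Ideal (𝓞 Ω)) (by
      rw [← RingHom.ker_eq_comap_bot]
      have : Function.Injective (algebraMap (𝓞 ↥F) (𝓞 Ω)) :=
        FaithfulSMul.algebraMap_injective _ _
      rw [(RingHom.injective_iff_ker_eq_bot _).mp this]
      exact bot_le)
  haveI := hQprime
  obtain ⟨A, hA, hA'⟩ := exists_valuationSubring_of_prime_Qbar Q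
  have hℓQ : ((ℓ : ℕ) : 𝓞 Ω) ∈ Q := by
    have h1 : ((ℓ : ℕ) : 𝓞 ↥F) ∈ Q.comap (algebraMap (𝓞 ↥F) (𝓞 Ω)) := by rw [hQP]; exact hℓP
    rw [Ideal.mem_comap, map_natCast] at h1
    exact h1
  refine ⟨ℓ, hℓ, A, liesOverPrime_of_mem hA' hℓQ, hℓP, fun b => ?_⟩
  rw [← hQP, Ideal.mem_comap, ← ValuationSubring.mem_nonunits_iff, hA']
  constructor
  · intro hb
    exact ⟨algebraMap (𝓞 ↥F) (𝓞 Ω) b, 1, hb,
      fun h1 => (Ideal.IsPrime.ne_top hQprime) ((Ideal.eq_top_iff_one Q).mpr h1), by simp; rfl⟩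
  · rintro ⟨b₁, s, hb₁, hs, hbs⟩
    have h1 : algebraMap (𝓞 ↥F) (𝓞 Ω) b * s = b₁ := by
      apply NumberField.RingOfIntegers.ext
      push_cast
      exact hbs
    have h2 : algebraMap (𝓞 ↥F) (𝓞 Ω) b * s ∈ Q := h1 ▸ hb₁
    exact (hQprime.mem_or_mem h2).resolve_right hs

/-- the image in `Ωˣ` of a unit of `F`. -/
noncomputable def unitToΩ (x : (↥F)ˣ) : Ωˣ := Units.map (algebraMap ↥F Ω : ↥F →* Ω) x

lemma coe_unitToΩ (x : (↥F)ˣ) : ((unitToΩ x : Ωˣ) : Ω) = ((x : ↥F) : Ω) := rfl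

/-- **`S`-units of `F` = elements of `E_S` lying in `F`.** -/
theorem mem_unit_iff_mem_ES (hF : F.IsUnramifiedOutside S) (x : (↥F)ˣ) :
    x ∈ (primesOverS S F).unit ↥F ↔ unitToΩ x ∈ ES S := by
  have hx0 : (x : ↥F) ≠ 0 := x.ne_zero
  constructor
  · intro hx
    refine ⟨le_QS hF (x : ↥F).2, fun q hq A hA => ?_⟩
    rw [ValuationSubring.mem_unitGroup_iff, coe_unitToΩ]
    have hP : belowOf (F := F) q.2 hA ∉ primesOverS S F := by
      rintro ⟨ℓ, hℓS, hℓP⟩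
      have hne : (ℓ : ℕ) ≠ (q : ℕ) := by
        intro h
        apply hq
        have : ℓ = q := Subtype.ext h
        rwa [← this]
      have hcop : Nat.Coprime (ℓ : ℕ) (q : ℕ) := (Nat.coprime_primes ℓ.2 q.2).mpr hne
      obtain ⟨a, b, hab⟩ := Nat.Coprime.isCoprime hcop
      have h1 : ((a * ((ℓ : ℕ) : ℤ) + b * ((q : ℕ) : ℤ) : ℤ) : 𝓞 ↥F) ∈
          (belowOf (F := F) q.2 hA).asIdeal := by
        push_cast
        exact Ideal.add_mem _ (Ideal.mul_mem_left _ _ hℓP)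
          (Ideal.mul_mem_left _ _ (natCast_mem_belowOf q.2 hA))
      rw [hab, Int.cast_one] at h1
      exact (Ideal.IsPrime.ne_top (belowOf (F := F) q.2 hA).isPrime)
        ((Ideal.eq_top_iff_one _).mpr h1)
    have h2 : (belowOf (F := F) q.2 hA).valuation ↥F (x : ↥F) = 1 := hx _ hP
    exact ((isBelow_belowOf q.2 hA).valuation_eq_one_iff hx0).mp h2
  · rintro ⟨-, hx⟩ P hP
    obtain ⟨ℓ, hℓ, A, hA, hℓP, hbelow⟩ := exists_isBelow P
    have hℓS : (⟨ℓ, hℓ⟩ : Nat.Primes) ∉ S := fun h => hP ⟨⟨ℓ, hℓ⟩, h, hℓP⟩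
    have h1 := hx ⟨ℓ, hℓ⟩ hℓS A hA
    rw [ValuationSubring.mem_unitGroup_iff, coe_unitToΩ] at h1
    exact (hbelow.valuation_eq_one_iff hx0).mpr h1

variable (S)

/-- the elements of `E_S` fixed by a subgroup `W` of `Γ`. -/
def fixedES (W : Subgroup Γ) : Subgroup (ES S) where
  carrier := {e | ∀ w ∈ W, w • e = e}
  one_mem' := fun w _ => smul_one w
  mul_mem' := fun {a b} ha hb w hw => by rw [smul_mul', ha w hw, hb w hw]
  inv_mem' := fun {a} ha w hw => by rw [smul_inv', ha w hw]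

lemma mem_fixedES {W : Subgroup Γ} {e : ES S} : e ∈ fixedES S W ↔ ∀ w ∈ W, w • e = e := Iff.rfl

variable {S}

/-- the `S`-units of `F`, as elements of `E_S` fixed by `Gal(Ω/F)`. -/
noncomputable def unitToFixedES (hF : F.IsUnramifiedOutside S) :
    ↥((primesOverS S F).unit ↥F) →* ↥(fixedES S F.fixingSubgroup) where
  toFun x := ⟨⟨unitToΩ (x : (↥F)ˣ), (mem_unit_iff_mem_ES hF x).mp x.2⟩, fun w hw => by
    apply Subtype.ext
    apply Units.ext
    show w ((x : (↥F)ˣ) : ↥F) = (((x : (↥F)ˣ) : ↥F) : Ω)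
    exact (IntermediateField.mem_fixingSubgroup_iff F w).mp hw _ ((x : (↥F)ˣ) : ↥F).2⟩
  map_one' := by
    apply Subtype.ext
    apply Subtype.ext
    apply Units.ext
    simp [unitToΩ]
  map_mul' a b := by
    apply Subtype.ext
    apply Subtype.ext
    apply Units.ext
    simp [unitToΩ]

lemma unitToFixedES_injective (hF : F.IsUnramifiedOutside S) :
    Function.Injective (unitToFixedES (F := F) hF) := by
  intro a b hab
  have h1 := congrArg (fun e : ↥(fixedES S F.fixingSubgroup) => (((e : ES S) : Ωˣ) : Ω)) hab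
  apply Subtype.ext
  apply Units.ext
  apply Subtype.ext
  exact h1

lemma unitToFixedES_surjective (hF : F.IsUnramifiedOutside S) :
    Function.Surjective (unitToFixedES (F := F) hF) := by
  rintro ⟨e, he⟩
  -- `e` lies in `F`
  have hmem : (((e : ES S) : Ωˣ) : Ω) ∈ F := by
    rw [← InfiniteGalois.fixedField_fixingSubgroup F, IntermediateField.mem_fixedField_iff]
    intro w hw
    have := he w hw
    exact congrArg (fun e : ES S => ((e : Ωˣ) : Ω)) this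
  have hne : (⟨_, hmem⟩ : ↥F) ≠ 0 := by
    intro h0
    exact ((e : ES S) : Ωˣ).ne_zero (congrArg Subtype.val h0)
  set x : (↥F)ˣ := Units.mk0 ⟨_, hmem⟩ hne with hx
  have hxe : unitToΩ x = ((e : ES S) : Ωˣ) := Units.ext rfl
  have hxu : x ∈ (primesOverS S F).unit ↥F := by
    rw [mem_unit_iff_mem_ES hF, hxe]
    exact e.2
  refine ⟨⟨x, hxu⟩, ?_⟩
  apply Subtype.ext
  apply Subtype.ext
  exact hxe

/-- **`E_S ^ Gal(Ω/F)` is the group of `S`-units of `F`.** -/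
noncomputable def unitEquivFixedES (hF : F.IsUnramifiedOutside S) :
    ↥((primesOverS S F).unit ↥F) ≃* ↥(fixedES S F.fixingSubgroup) :=
  MulEquiv.ofBijective (unitToFixedES hF)
    ⟨unitToFixedES_injective hF, unitToFixedES_surjective hF⟩

end Units

end Fermat.Agent.TW.EC
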