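/-
S56 / (EC-G), leaf EC-B (S-unit ranks), part 4 (helper2): assembly.

* `ncard_primesOverS` : `#(primes of 𝓞 F over S) = ∑_{ℓ ∈ S} #(primes over ℓ)`;
* `finrank_unit_add_one` : Dirichlet's `S`-unit theorem for a finite subextension `F` of `Ω`, with
  the numbers of places expressed through double cosets;
* `finrank_invariants_ESSm` : **(EC-B)** for `W` open for `levelBasis S`:
  `rank_ℤ (E_S)^W + 1 = ∑_{v ∈ S} #(G_v \ Γ / W) + #(⟨c⟩ \ Γ / W)`.
-/
import Fermat.Agent.TW.ECB_helper2_Infinite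
import Fermat.Agent.TW.ECB_helper2_Finite
import Fermat.Agent.TW.ECB_helper2_Units
import Fermat.Agent.CFT.Global.G2a_helper6_SUnits
import Fermat.Agent.CFT.Arith.SmObjects_helper7
import Fermat.Agent.CFT.Bridge.Datum_helper6

set_option autoImplicit false
set_option linter.unusedSectionVars false
set_option linter.style.haveILetI false

open NumberField IsDedekindDomain
open scoped Pointwise

namespace Fermat.Agent.TW.EC

open Fermat.Agent.CFT.S14 Fermat.Agent.EC Fermat.Agent.CFT.Arith Fermat.Agent.CFT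

local notation "Ω" => AlgebraicClosure ℚ
local notation "Γ" => (AlgebraicClosure ℚ ≃ₐ[ℚ] AlgebraicClosure ℚ)

section Count

variable (S : Finset Nat.Primes) (F : IntermediateField ℚ Ω) [NumberField ↥F]

instance finite_primesAbove (ℓ : Nat.Primes) : Finite (PrimesAbove F (ℓ : ℕ)) := by
  have h0 : Ideal.span {(((ℓ : ℕ) : ℕ) : 𝓞 ↥F)} ≠ 0 := by
    rw [Ne, Ideal.zero_eq_bot, Ideal.span_singleton_eq_bot]
    exact_mod_cast ℓ.2.ne_zero
  have h1 := Ideal.finite_factors h0
  have h2 : {P : HeightOneSpectrum (𝓞 ↥F) | (((ℓ : ℕ) : ℕ) : 𝓞 ↥F) ∈ P.asIdeal} =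
      {v : HeightOneSpectrum (𝓞 ↥F) | v.asIdeal ∣ Ideal.span {(((ℓ : ℕ) : ℕ) : 𝓞 ↥F)}} := by
    ext P
    simp only [Set.mem_ofPred_eq, Ideal.dvd_span_singleton]
  rw [← h2] at h1
  exact h1.to_subtype

/-- the primes over `S` are the disjoint union of the primes over the elements of `S`. -/
noncomputable def sigmaPrimesAboveEquiv :
    (Σ ℓ : ↥S, PrimesAbove F ((ℓ : Nat.Primes) : ℕ)) ≃ ↥(primesOverS S F) :=
  Equiv.ofBijective (fun p => ⟨p.2.1, ⟨p.1.1, p.1.2, p.2.2⟩⟩) (by
    constructor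
    · rintro ⟨⟨ℓ, hℓ⟩, ⟨P, hP⟩⟩ ⟨⟨ℓ', hℓ'⟩, ⟨P', hP'⟩⟩ h
      have hPP' : P = P' := congrArg Subtype.val h
      subst hPP'
      have hℓℓ' : ℓ = ℓ' := by
        by_contra hne
        have hne' : (ℓ : ℕ) ≠ (ℓ' : ℕ) := fun h => hne (Subtype.ext h)
        have hcop : Nat.Coprime (ℓ : ℕ) (ℓ' : ℕ) := (Nat.coprime_primes ℓ.2 ℓ'.2).mpr hne'
        obtain ⟨a, b, hab⟩ := Nat.Coprime.isCoprime hcop
        have h1 : ((a * ((ℓ : ℕ) : ℤ) + b * ((ℓ' : ℕ) : ℤ) : ℤ) : 𝓞 ↥F) ∈ P.asIdeal := by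
          push_cast
          exact Ideal.add_mem _ (Ideal.mul_mem_left _ _ hP) (Ideal.mul_mem_left _ _ hP')
        rw [hab, Int.cast_one] at h1
        exact (Ideal.IsPrime.ne_top P.isPrime) ((Ideal.eq_top_iff_one _).mpr h1)
      subst hℓℓ'
      rfl
    · rintro ⟨P, ℓ, hℓ, hP⟩
      exact ⟨⟨⟨ℓ, hℓ⟩, ⟨P, hP⟩⟩, rfl⟩)

theorem ncard_primesOverS :
    (primesOverS S F).ncard = ∑ ℓ : ↥S, Nat.card (PrimesAbove F ((ℓ : Nat.Primes) : ℕ)) := by
  rw [← Nat.card_coe_set_eq, ← Nat.card_congr (sigmaPrimesAboveEquiv S F), Nat.card_sigma]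

theorem finite_primesOverS : (primesOverS S F).Finite := by
  haveI : Finite ↥(primesOverS S F) := Finite.of_equiv _ (sigmaPrimesAboveEquiv S F)
  exact Set.toFinite _

/-- **Dirichlet's `S`-unit theorem, double coset form**, for the `S`-units of `F`. -/
theorem finrank_unit_add_one [FiniteDimensional ℚ F] :
    Module.Finite ℤ (Additive ↥((primesOverS S F).unit ↥F)) ∧
      Module.finrank ℤ (Additive ↥((primesOverS S F).unit ↥F)) + 1 =
        ∑ ℓ : ↥S, Nat.card (DoubleCoset.Quotient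
          (Set.range (ExtCitation.primeLocalToGlobal (ℓ : Nat.Primes)))
          (F.fixingSubgroup : Set Γ)) +
        Nat.card (DoubleCoset.Quotient (Subgroup.zpowers complexConjugation : Set Γ)
          (F.fixingSubgroup : Set Γ)) := by
  obtain ⟨h1, h2⟩ := SUnit.sUnit_finite_and_finrank (F := ↥F) (primesOverS S F)
    (finite_primesOverS S F)
  refine ⟨h1, ?_⟩
  rw [h2, ncard_primesOverS, ← card_infinitePlace_eq, NumberField.Units.rank,
    Nat.card_eq_fintype_card]
  have hpos : 0 < Fintype.card (InfinitePlace ↥F) := Fintype.card_pos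
  have hsum : ∑ ℓ : ↥S, Nat.card (PrimesAbove F ((ℓ : Nat.Primes) : ℕ)) =
      ∑ ℓ : ↥S, Nat.card (DoubleCoset.Quotient
        (Set.range (ExtCitation.primeLocalToGlobal (ℓ : Nat.Primes)))
        (F.fixingSubgroup : Set Γ)) := by
    refine Finset.sum_congr rfl fun ℓ _ => ?_
    haveI : Fact ((ℓ : Nat.Primes) : ℕ).Prime := ⟨ℓ.1.2⟩
    exact card_primesAbove_eq_range F ((ℓ : Nat.Primes) : ℕ)
  rw [hsum]
  omega

end Count

section Main

variable (S : Finset Nat.Primes)

/-- **(EC-B) `S`-unit ranks**: for `W` open in `Γ` (for the level basis of `S`), the group of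
`W`-invariants of `E_S` is finitely generated and
`rank + 1 = ∑_{v ∈ S} #(G_v \ Γ / W) + #(⟨c⟩ \ Γ / W)`.  Stated for any additive subgroup `I` of
the underlying module of `ESSm S` cut out by the invariance condition. -/
theorem finrank_invariants_ESSm (W : Subgroup Γ) (hW : (levelBasis S).IsOpen W)
    (I : AddSubgroup (ESSm S).obj.V)
    (hI : ∀ x : (ESSm S).obj.V, x ∈ I ↔ ∀ γ ∈ W, (ESSm S).obj.ρ γ x = x) :
    Module.Finite ℤ ↥I ∧
      Module.finrank ℤ ↥I + 1 =
        ∑ v : ↥S, Nat.card (DoubleCoset.Quotient (Set.range (Bridge.locHom S v)) (W : Set Γ)) +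
        Nat.card (DoubleCoset.Quotient (Subgroup.zpowers complexConjugation : Set Γ)
          (W : Set Γ)) := by
  obtain ⟨F, hF, rfl⟩ := exists_eq_fixingSubgroup_of_isOpen hW
  haveI : FiniteDimensional ℚ ↥F := hF.1
  haveI : NumberField ↥F := { to_charZero := inferInstance, to_finiteDimensional := hF.1 }
  obtain ⟨h1, h2⟩ := finrank_unit_add_one S F
  -- `I ≃ Additive (fixedES S W) ≃ Additive (S-units of F)`
  have hmem : ∀ x : (ESSm S).obj.V, x ∈ I ↔
      (Additive.toMul (show Additive (ES S) from x) : ES S) ∈ fixedES S F.fixingSubgroup := by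
    intro x
    rw [hI, mem_fixedES]
    refine forall₂_congr fun γ _ => ?_
    constructor
    · intro h
      exact congrArg Additive.toMul h
    · intro h
      exact congrArg Additive.ofMul h
  let e₁ : ↥I ≃+ Additive ↥(fixedES S F.fixingSubgroup) :=
    { toFun := fun x => Additive.ofMul ⟨_, (hmem x.1).mp x.2⟩
      invFun := fun y => ⟨Additive.ofMul ((Additive.toMul y : ↥(fixedES S F.fixingSubgroup)) : ES S),
        (hmem _).mpr (Additive.toMul y).2⟩
      left_inv := fun _ => rfl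
      right_inv := fun _ => rfl
      map_add' := fun _ _ => rfl }
  let e₂ : Additive ↥((primesOverS S F).unit ↥F) ≃+ Additive ↥(fixedES S F.fixingSubgroup) :=
    MulEquiv.toAdditive (unitEquivFixedES hF)
  let e : ↥I ≃ₗ[ℤ] Additive ↥((primesOverS S F).unit ↥F) := (e₁.trans e₂.symm).toIntLinearEquiv
  refine ⟨Module.Finite.equiv e.symm, ?_⟩
  rw [e.finrank_eq]
  exact h2

end Main

end Fermat.Agent.TW.EC
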