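/-
S56 / (EC-G), leaf EC-B (S-unit ranks), part 5 (helper2): the statement in helper3's language
(`invSub` from `EC_helper3_Perm`).
-/
import Fermat.Agent.TW.ECB_helper2_Main
import Fermat.Agent.TW.EC_helper3_Perm

set_option autoImplicit false

namespace Fermat.Agent.TW.EC

open Fermat.Agent.CFT.Arith Fermat.Agent.CFT

/-- `Γ = Gal(Ω/ℚ)`. -/
local notation "Γ" => (AlgebraicClosure ℚ ≃ₐ[ℚ] AlgebraicClosure ℚ)

/-- **(EC-B) `S`-unit ranks**: for `W` open in `Γ` (for the level basis of `S`), the group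
`invSub (ESSm S) W` of `W`-invariants of `E_S` is finitely generated and
`rank + 1 = ∑_{v ∈ S} #(G_v \ Γ / W) + #(⟨c⟩ \ Γ / W)`. -/
theorem finrank_invSub_ESSm (S : Finset Nat.Primes) (W : Subgroup Γ)
    (hW : (levelBasis S).IsOpen W) :
    Module.Finite ℤ ↥(invSub (ESSm S) W) ∧
      Module.finrank ℤ ↥(invSub (ESSm S) W) + 1 =
        ∑ v : ↥S, Nat.card (DoubleCoset.Quotient (Set.range (Bridge.locHom S v)) (W : Set Γ)) +
        Nat.card (DoubleCoset.Quotient (Subgroup.zpowers complexConjugation : Set Γ)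
          (W : Set Γ)) :=
  finrank_invariants_ESSm S W hW (invSub (ESSm S) W) (fun _ => Iff.rfl)

end Fermat.Agent.TW.EC
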