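/-
S56 / EC-D1 (helper5): the permutation module of `⊔_i H_i \ G`:
(a) its characteristic polynomial is the product of those of right translation on the
    `H_i`-invariant functions; (b) orbit counts are sums of double coset counts;
(c) orders; (d) double cosets and surjections.
-/
import Fermat.Agent.TW.EC_helper3_InvFun
import Fermat.Agent.TW.ECD1_helper5_Block

set_option autoImplicit false

open Polynomial

namespace Fermat.Agent.TW.EC

section Conj

variable (k : Type) [Field k] {G : Type} [Group G]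

/-- pull back a function on `H \ G` to an `H`-invariant function on `G`. -/
noncomputable def invFunOfCoset (H : Subgroup G) :
    (Quotient (QuotientGroup.rightRel H) → k) →ₗ[k] invFunH k H :=
  (LinearMap.funLeft k k (Quotient.mk'' : G → Quotient (QuotientGroup.rightRel H))).codRestrict
    (invFunH k H) (fun φ h hh x => by
      show φ (Quotient.mk'' (h * x)) = φ (Quotient.mk'' x)
      congr 1
      apply Quotient.sound'
      rw [QuotientGroup.rightRel_apply]
      have : x * (h * x)⁻¹ = h⁻¹ := by group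
      rw [this]
      exact H.inv_mem hh)

lemma invFunOfCoset_apply (H : Subgroup G) (φ : Quotient (QuotientGroup.rightRel H) → k) (x : G) :
    (invFunOfCoset k H φ : G → k) x = φ (Quotient.mk'' x) := rfl

lemma invFunOfCoset_bijective (H : Subgroup G) : Function.Bijective (invFunOfCoset k H) := by
  constructor
  · intro φ ψ h
    funext q
    induction q using Quotient.inductionOn' with
    | h x =>
      have := congrFun (congrArg Subtype.val h) x
      exact this
  · intro F
    refine ⟨Quotient.lift (F : G → k) ?_, ?_⟩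
    · intro a b hab
      have hab' : QuotientGroup.rightRel H a b := hab
      rw [QuotientGroup.rightRel_apply] at hab'
      have := F.2 _ hab' a
      rw [inv_mul_cancel_right] at this
      exact this.symm
    · apply Subtype.ext
      funext x
      rfl

/-- `H`-invariant functions on `G` are functions on `H \ G`. -/
noncomputable def invFunEquivCoset (H : Subgroup G) :
    (Quotient (QuotientGroup.rightRel H) → k) ≃ₗ[k] invFunH k H :=
  LinearEquiv.ofBijective (invFunOfCoset k H) (invFunOfCoset_bijective k H)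

lemma invFunEquivCoset_conj (H : Subgroup G) (g : G) :
    (invFunEquivCoset k H).conj (LinearMap.funLeft k k (cosetPerm H g)) = invFunTr k H g := by
  apply LinearMap.ext
  intro F
  obtain ⟨φ, rfl⟩ := (invFunEquivCoset k H).surjective F
  rw [LinearEquiv.conj_apply_apply, LinearEquiv.symm_apply_apply]
  apply Subtype.ext
  funext x
  rfl

variable [Finite G]

theorem charpoly_invFunTr (H : Subgroup G) (g : G) :
    (invFunTr k H g).charpoly = (LinearMap.funLeft k k (cosetPerm H g)).charpoly := by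
  rw [← invFunEquivCoset_conj, LinearEquiv.charpoly_conj]

/-- **(EC-D1 a)** -/
theorem charpoly_funLeft_cosetSigmaPerm {ι : Type} [Fintype ι] (H : ι → Subgroup G) (g : G) :
    (LinearMap.funLeft k k (cosetSigmaPerm H g)).charpoly =
      ∏ i, (invFunTr k (H i) g).charpoly := by
  have h1 : cosetSigmaPerm H g = Equiv.sigmaCongrRight (fun i => cosetPerm (H i) g) := rfl
  rw [h1, charpoly_funLeft_sigmaCongrRight]
  refine Finset.prod_congr rfl fun i _ => ?_
  rw [charpoly_invFunTr]

end Conj

section Pow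

variable {G : Type} [Group G] {ι : Type} (H : ι → Subgroup G)

lemma cosetSigmaPerm_apply_mk (g : G) (i : ι) (x : G) :
    cosetSigmaPerm H g ⟨i, Quotient.mk'' x⟩ = ⟨i, Quotient.mk'' (x * g)⟩ := rfl

lemma cosetSigmaPerm_one : cosetSigmaPerm H (1 : G) = 1 := by
  apply Equiv.ext
  rintro ⟨i, q⟩
  induction q using Quotient.inductionOn' with
  | h x => rw [cosetSigmaPerm_apply_mk, mul_one, Equiv.Perm.one_apply]

lemma cosetSigmaPerm_mul (g g' : G) :
    cosetSigmaPerm H (g * g') = cosetSigmaPerm H g' * cosetSigmaPerm H g := by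
  apply Equiv.ext
  rintro ⟨i, q⟩
  induction q using Quotient.inductionOn' with
  | h x =>
    rw [Equiv.Perm.mul_apply, cosetSigmaPerm_apply_mk, cosetSigmaPerm_apply_mk,
      cosetSigmaPerm_apply_mk, mul_assoc]

lemma cosetSigmaPerm_pow (g : G) (m : ℕ) :
    cosetSigmaPerm H g ^ m = cosetSigmaPerm H (g ^ m) := by
  induction m with
  | zero => rw [pow_zero, pow_zero, cosetSigmaPerm_one]
  | succ m ih => rw [pow_succ, ih, pow_succ', cosetSigmaPerm_mul]

lemma cosetSigmaPerm_inv (g : G) : (cosetSigmaPerm H g)⁻¹ = cosetSigmaPerm H g⁻¹ := by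
  rw [inv_eq_iff_mul_eq_one, ← cosetSigmaPerm_mul, inv_mul_cancel, cosetSigmaPerm_one]

lemma cosetSigmaPerm_zpow (g : G) (n : ℤ) :
    cosetSigmaPerm H g ^ n = cosetSigmaPerm H (g ^ n) := by
  cases n with
  | ofNat m => rw [Int.ofNat_eq_natCast, zpow_natCast, zpow_natCast, cosetSigmaPerm_pow]
  | negSucc m => rw [zpow_negSucc, zpow_negSucc, cosetSigmaPerm_pow, cosetSigmaPerm_inv]

/-- **(EC-D1 c)** -/
theorem cosetSigmaPerm_pow_eq_one (g : G) (m : ℕ) (h : g ^ m = 1) :
    cosetSigmaPerm H g ^ m = 1 := by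
  rw [cosetSigmaPerm_pow, h, cosetSigmaPerm_one]

end Pow

section Orbits

variable {G : Type} [Group G] {ι : Type} (H : ι → Subgroup G)

/-- the map `⊔_i H_i \ G → ⊔_i H_i \ G / K`. -/
def cosetSigmaToDouble (K : Subgroup G) :
    cosetSigma H → Σ i, DoubleCoset.Quotient (H i : Set G) (K : Set G) :=
  fun a => ⟨a.1, Quotient.lift (fun x => DoubleCoset.mk (H a.1) K x) (by
    intro x y hxy
    have hxy' : QuotientGroup.rightRel (H a.1) x y := hxy
    rw [QuotientGroup.rightRel_apply] at hxy'
    rw [DoubleCoset.eq]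
    exact ⟨y * x⁻¹, hxy', 1, K.one_mem, by rw [mul_one, inv_mul_cancel_right]⟩) a.2⟩

lemma cosetSigmaToDouble_mk (K : Subgroup G) (i : ι) (x : G) :
    cosetSigmaToDouble H K ⟨i, Quotient.mk'' x⟩ = ⟨i, DoubleCoset.mk (H i) K x⟩ := rfl

lemma cosetSigmaToDouble_surjective (K : Subgroup G) :
    Function.Surjective (cosetSigmaToDouble H K) := by
  rintro ⟨i, q⟩
  induction q using Quotient.inductionOn' with
  | h x => exact ⟨⟨i, Quotient.mk'' x⟩, rfl⟩

lemma cosetSigmaToDouble_eq_iff (g : G) (a b : cosetSigma H) :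
    cosetSigmaToDouble H (Subgroup.zpowers g) a = cosetSigmaToDouble H (Subgroup.zpowers g) b ↔
      MulAction.orbitRel (Subgroup.zpowers (cosetSigmaPerm H g)) (cosetSigma H) a b := by
  obtain ⟨i, q⟩ := a
  obtain ⟨j, q'⟩ := b
  induction q using Quotient.inductionOn' with
  | h x =>
  induction q' using Quotient.inductionOn' with
  | h y =>
  rw [cosetSigmaToDouble_mk, cosetSigmaToDouble_mk, MulAction.orbitRel_apply]
  constructor
  · intro h
    obtain rfl : i = j := congrArg Sigma.fst h
    have h2 := eq_of_heq (Sigma.mk.inj h).2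
    rw [DoubleCoset.eq] at h2
    obtain ⟨h0, hh0, κ, hκ, rfl⟩ := h2
    obtain ⟨n, rfl⟩ := Subgroup.mem_zpowers_iff.mp hκ
    refine ⟨⟨(cosetSigmaPerm H g) ^ (-n), Subgroup.zpow_mem_zpowers _ _⟩, ?_⟩
    show ((cosetSigmaPerm H g) ^ (-n)) ⟨i, Quotient.mk'' (h0 * x * g ^ n)⟩ = ⟨i, Quotient.mk'' x⟩
    rw [cosetSigmaPerm_zpow, cosetSigmaPerm_apply_mk]
    congr 1
    apply Quotient.sound'
    rw [QuotientGroup.rightRel_apply]
    have : x * (h0 * x * g ^ n * g ^ (-n))⁻¹ = h0⁻¹ := by
      rw [zpow_neg]; group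
    rw [this]
    exact (H i).inv_mem hh0
  · rintro ⟨⟨s, hs⟩, hsab⟩
    obtain ⟨n, rfl⟩ := Subgroup.mem_zpowers_iff.mp hs
    have hsab' : ((cosetSigmaPerm H g) ^ n) ⟨j, Quotient.mk'' y⟩ = ⟨i, Quotient.mk'' x⟩ := hsab
    rw [cosetSigmaPerm_zpow, cosetSigmaPerm_apply_mk] at hsab'
    obtain rfl : j = i := congrArg Sigma.fst hsab'
    have h2 := eq_of_heq (Sigma.mk.inj hsab').2
    congr 1
    rw [DoubleCoset.eq]
    have h3 : QuotientGroup.rightRel (H j) (y * g ^ n) x := Quotient.exact' h2
    rw [QuotientGroup.rightRel_apply] at h3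
    refine ⟨(x * (y * g ^ n)⁻¹)⁻¹, (H j).inv_mem h3, g ^ (-n), Subgroup.zpow_mem_zpowers _ _, ?_⟩
    rw [zpow_neg]
    group

/-- **(EC-D1 b)** -/
theorem card_orbits_cosetSigmaPerm [Finite G] [Fintype ι] (g : G) (d : ℕ) :
    Nat.card (MulAction.orbitRel.Quotient (Subgroup.zpowers (cosetSigmaPerm H g ^ d))
      (cosetSigma H)) =
      ∑ i, Nat.card (DoubleCoset.Quotient (H i : Set G) (Subgroup.zpowers (g ^ d) : Set G)) := by
  have : ∀ i, Finite (DoubleCoset.Quotient (H i : Set G) (Subgroup.zpowers (g ^ d) : Set G)) :=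
    fun i => Quotient.finite _
  rw [← Nat.card_sigma, cosetSigmaPerm_pow]
  apply Nat.card_congr
  refine Equiv.ofBijective (Quotient.lift (cosetSigmaToDouble H (Subgroup.zpowers (g ^ d)))
    (fun a b hab => (cosetSigmaToDouble_eq_iff H (g ^ d) a b).mpr hab)) ⟨?_, ?_⟩
  · intro a b
    induction a using Quotient.inductionOn' with
    | h a =>
    induction b using Quotient.inductionOn' with
    | h b =>
    intro hab
    apply Quotient.sound'
    exact (cosetSigmaToDouble_eq_iff H (g ^ d) a b).mp hab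
  · intro c
    obtain ⟨a, rfl⟩ := cosetSigmaToDouble_surjective H _ c
    exact ⟨Quotient.mk'' a, rfl⟩

end Orbits

section Surj

/-- **(EC-D1 d)** -/
theorem card_doubleCoset_map {G : Type*} [Group G] {Γ : Type*} [Group Γ] (π : Γ →* G)
    (hπ : Function.Surjective π) (D W : Subgroup Γ) (hW : π.ker ≤ W) :
    Nat.card (DoubleCoset.Quotient (D : Set Γ) (W : Set Γ)) =
      Nat.card (DoubleCoset.Quotient (D.map π : Set G) (W.map π : Set G)) := by
  apply Nat.card_congr
  refine Equiv.ofBijective (Quotient.lift (fun x => DoubleCoset.mk (D.map π) (W.map π) (π x)) ?_)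
    ⟨?_, ?_⟩
  · intro x y hxy
    have hxy' : DoubleCoset.setoid (D : Set Γ) (W : Set Γ) x y := hxy
    rw [DoubleCoset.rel_iff] at hxy'
    obtain ⟨a, ha, b, hb, rfl⟩ := hxy'
    rw [DoubleCoset.eq]
    exact ⟨π a, Subgroup.mem_map_of_mem π ha, π b, Subgroup.mem_map_of_mem π hb, by
      rw [map_mul, map_mul]⟩
  · intro a b
    induction a using Quotient.inductionOn' with
    | h x =>
    induction b using Quotient.inductionOn' with
    | h y =>
    intro hab
    have hab' : DoubleCoset.mk (D.map π) (W.map π) (π x) = DoubleCoset.mk (D.map π) (W.map π) (π y) :=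
      hab
    rw [DoubleCoset.eq] at hab'
    obtain ⟨a', ⟨a, ha, rfl⟩, b', ⟨b, hb, rfl⟩, hy⟩ := hab'
    apply Quotient.sound'
    show DoubleCoset.setoid (D : Set Γ) (W : Set Γ) x y
    rw [DoubleCoset.rel_iff]
    have hker : (a * x * b)⁻¹ * y ∈ π.ker := by
      rw [MonoidHom.mem_ker, map_mul, map_inv, hy, map_mul, map_mul, inv_mul_cancel]
    refine ⟨a, ha, b * ((a * x * b)⁻¹ * y), W.mul_mem hb (hW hker), ?_⟩
    group
  · intro c
    induction c using Quotient.inductionOn' with
    | h z =>
    obtain ⟨x, rfl⟩ := hπ z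
    exact ⟨Quotient.mk'' x, rfl⟩

end Surj

end Fermat.Agent.TW.EC
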