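/-
S56 / (EC-G), leaf (EC-D2) — helper4.
`cpz` of Pontryagin duals, of finite products and of the identity.
-/
import Fermat.Agent.TW.EC_helper3_Cpz
import Fermat.Agent.CFT.Bridge.Glue_helper6

set_option autoImplicit false
set_option linter.style.haveILetI false
set_option linter.unusedSectionVars false

open Polynomial

namespace Fermat.Agent.TW.EC

open Fermat.Agent.TW.Ind

universe u v

variable (p : ℕ) [hp : Fact p.Prime]

section LinearAlgebra

/-- the characteristic polynomial of the dual map. -/
theorem charpoly_dualMap_helper4 {K V : Type*} [Field K] [AddCommGroup V] [Module K V]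
    [FiniteDimensional K V] (φ : V →ₗ[K] V) : φ.dualMap.charpoly = φ.charpoly := by
  classical
  let b := Module.finBasis K V
  rw [← LinearMap.charpoly_toMatrix φ.dualMap b.dualBasis, ← LinearMap.charpoly_toMatrix φ b,
    LinearMap.dualMap_def, LinearMap.toMatrix_transpose, Matrix.charpoly_transpose]

end LinearAlgebra

section Subsingleton

variable {T : Type*} [AddCommGroup T]

/-- `cpz` of the zero group. -/
theorem cpz_of_subsingleton [Subsingleton T] (σ : T →+ T) : cpz p σ = 1 := by
  haveI : Module (ZMod p) T := AddCommGroup.zmodModule (fun x => Subsingleton.elim _ _)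
  haveI : Finite T := Finite.of_subsingleton
  haveI : Module.Finite (ZMod p) T := Module.Finite.of_finite
  haveI : Module.Free (ZMod p) T := Module.Free.of_divisionRing (ZMod p) T
  rw [cpz_eq]
  have h1 := LinearMap.charpoly_natDegree (σ.toZModLinearMap p)
  rw [Module.finrank_zero_of_subsingleton] at h1
  exact (LinearMap.charpoly_monic _).natDegree_eq_zero.mp h1

end Subsingleton

section Dual

variable {A : Type*} [AddCommGroup A]

/-- **(EC-D2a)** `cpz` of the transpose on the Pontryagin dual. -/
theorem cpz_characterModule [Finite A] (hA : ∀ a : A, p • a = 0) (σ : A →+ A)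
    (τ : CharacterModule A →+ CharacterModule A) (hτ : ∀ χ a, τ χ a = χ (σ a)) :
    cpz p τ = cpz p σ := by
  haveI : Module (ZMod p) A := AddCommGroup.zmodModule hA
  haveI : Module.Finite (ZMod p) A := Module.Finite.of_finite
  -- step 1: to `A →+ ZMod p`
  let τ₁ : (A →+ ZMod p) →+ (A →+ ZMod p) :=
    AddMonoidHom.mk' (fun f => f.comp σ) (fun f g => by ext a; rfl)
  have h1 : cpz p τ₁ = cpz p τ := by
    refine cpz_congr p (Fermat.Agent.CFT.Bridge.characterEquiv p hA) τ₁ τ (fun f => ?_)
    refine DFunLike.ext _ _ (fun a => ?_)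
    rw [hτ]
    rfl
  -- step 2: to the linear dual
  let φ : A →ₗ[ZMod p] A := σ.toZModLinearMap p
  let e₂ : (A →+ ZMod p) ≃+ Module.Dual (ZMod p) A :=
    { toFun := AddMonoidHom.toZModLinearMap p
      invFun := fun f => f.toAddMonoidHom
      left_inv := fun f => by ext v; rfl
      right_inv := fun f => by ext v; rfl
      map_add' := fun f g => by ext v; rfl }
  have h2 : cpz p τ₁ = cpz p φ.dualMap.toAddMonoidHom := by
    refine cpz_congr p e₂ τ₁ _ (fun f => ?_)
    ext a
    rfl
  haveI : Finite (Module.Dual (ZMod p) A) := Module.finite_of_finite (ZMod p)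
  rw [← h1, h2, cpz_eq' p φ.dualMap, charpoly_dualMap_helper4, cpz_eq]

end Dual

section Pi

/-- auxiliary: the product formula by induction on the index type. -/
theorem cpz_pi_aux (ι : Type u) [Finite ι] :
    ∀ (_ : Fintype ι) (A : ι → Type v) [∀ i, AddCommGroup (A i)] [∀ i, Finite (A i)]
      (_ : ∀ i (a : A i), p • a = 0) (σ : ∀ i, A i →+ A i)
      (τ : (∀ i, A i) →+ (∀ i, A i)) (_ : ∀ x i, τ x i = σ i (x i)),
      cpz p τ = ∏ i, cpz p (σ i) := by
  classical
  refine Finite.induction_empty_option
    (P := fun ι : Type u => ∀ (_ : Fintype ι) (A : ι → Type v) [∀ i, AddCommGroup (A i)]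
      [∀ i, Finite (A i)]
      (_ : ∀ i (a : A i), p • a = 0) (σ : ∀ i, A i →+ A i)
      (τ : (∀ i, A i) →+ (∀ i, A i)) (_ : ∀ x i, τ x i = σ i (x i)),
      cpz p τ = ∏ i, cpz p (σ i)) ?_ ?_ ?_ ι
  · -- transport along an equivalence
    intro α β e hα instβ A _ _ hA σ τ hτ
    letI : Fintype α := Fintype.ofEquiv β e.symm
    let τ' : (∀ a, A (e a)) →+ (∀ a, A (e a)) :=
      AddMonoidHom.mk' (fun x a => σ (e a) (x a)) (fun x y => by
        funext a
        exact map_add (σ (e a)) (x a) (y a))
    have h1 := hα inferInstance (fun a => A (e a)) (fun a x => hA (e a) x) (fun a => σ (e a)) τ'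
      (fun x a => rfl)
    let r : (∀ b, A b) →+ (∀ a, A (e a)) :=
      AddMonoidHom.mk' (fun x a => x (e a)) (fun x y => rfl)
    have hr : Function.Bijective r := by
      constructor
      · intro x y hxy
        funext b
        obtain ⟨a, rfl⟩ := e.surjective b
        exact congrFun hxy a
      · intro z
        refine ⟨Equiv.piCongrLeft A e z, ?_⟩
        funext a
        exact Equiv.piCongrLeft_apply_apply A e z a
    have h2 : cpz p τ = cpz p τ' := by
      refine cpz_congr p (AddEquiv.ofBijective r hr) τ τ' (fun x => ?_)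
      funext a
      exact hτ x (e a)
    rw [h2, h1]
    exact Fintype.prod_equiv e _ _ (fun a => rfl)
  · -- the empty type
    intro inst A _ _ hA σ τ hτ
    rw [cpz_of_subsingleton]
    exact (Finset.prod_of_isEmpty _).symm
  · -- `Option α`
    intro α instα hα inst A _ _ hA σ τ hτ
    have hfin : Finite (∀ o, A o) := inferInstance
    have hB : ∀ x : (∀ o, A o), p • x = 0 := fun x => by
      funext o
      exact hA o (x o)
    let f : A none →+ (∀ o, A o) :=
      AddMonoidHom.mk' (fun a o => Option.rec (motive := A) a (fun _ => 0) o) (fun a b => by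
        funext o
        cases o with
        | none => rfl
        | some i => exact (add_zero (0 : A (some i))).symm)
    let g : (∀ o, A o) →+ (∀ a, A (some a)) :=
      AddMonoidHom.mk' (fun x a => x (some a)) (fun x y => rfl)
    let τ'' : (∀ a, A (some a)) →+ (∀ a, A (some a)) :=
      AddMonoidHom.mk' (fun x a => σ (some a) (x a)) (fun x y => by
        funext a
        exact map_add (σ (some a)) (x a) (y a))
    have hf : ∀ a, f (σ none a) = τ (f a) := fun a => by
      funext o
      rw [hτ]
      cases o with
      | none => rfl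
      | some i => exact (map_zero (σ (some i))).symm
    have hg : ∀ x, g (τ x) = τ'' (g x) := fun x => by
      funext a
      exact hτ x (some a)
    have hex : ∀ x, g x = 0 ↔ x ∈ f.range := by
      intro x
      constructor
      · intro hx
        refine ⟨x none, ?_⟩
        funext o
        cases o with
        | none => rfl
        | some i => exact (congrFun hx i).symm
      · rintro ⟨a, rfl⟩
        funext i
        rfl
    have hfinj : Function.Injective f := fun a b hab => congrFun hab none
    have hgsurj : Function.Surjective g := by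
      intro z
      refine ⟨fun o => Option.rec (motive := A) 0 (fun i => z i) o, ?_⟩
      funext a
      rfl
    have h1 := cpz_exact p hB f g (σ none) τ τ'' hf hg hex
    have h2 := cpz_eq_cpzRange_of_injective p f (σ none) τ hf hfinj
    have h3 := cpz_eq_cpzRange_of_surjective p g τ τ'' hg hgsurj
    have h4 := hα instα (fun a => A (some a)) (fun a x => hA (some a) x) (fun a => σ (some a)) τ''
      (fun x a => rfl)
    rw [h1, ← h2, ← h3, h4]
    convert (Fintype.prod_option (fun o => cpz p (σ o))).symm

/-- **(EC-D2b)** `cpz` of a product endomorphism is the product of the `cpz`. -/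
theorem cpz_pi {ι : Type u} [Fintype ι] (A : ι → Type v) [∀ i, AddCommGroup (A i)]
    [∀ i, Finite (A i)] (hA : ∀ i (a : A i), p • a = 0) (σ : ∀ i, A i →+ A i)
    (τ : (∀ i, A i) →+ (∀ i, A i)) (hτ : ∀ x i, τ x i = σ i (x i)) :
    cpz p τ = ∏ i, cpz p (σ i) :=
  cpz_pi_aux p ι inferInstance A hA σ τ hτ

/-- **(EC-D2b)**, packaged with `AddMonoidHom.piMap`-style endomorphism. -/
theorem cpz_piMap {ι : Type u} [Fintype ι] (A : ι → Type v) [∀ i, AddCommGroup (A i)]
    [∀ i, Finite (A i)] (hA : ∀ i (a : A i), p • a = 0) (σ : ∀ i, A i →+ A i) :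
    cpz p (AddMonoidHom.mk' (fun (x : ∀ i, A i) i => σ i (x i)) (fun x y => by
      funext i
      exact map_add (σ i) (x i) (y i)) : (∀ i, A i) →+ (∀ i, A i)) = ∏ i, cpz p (σ i) :=
  cpz_pi p A hA σ _ (fun _ _ => rfl)

end Pi

section Identity

variable {A : Type*} [AddCommGroup A]

/-- **(EC-D2c)** `cpz` of the identity on a group of order `p ^ d` killed by `p`. -/
theorem cpz_of_forall_eq_self (hA : ∀ a : A, p • a = 0) (σ : A →+ A) (hσ : ∀ a, σ a = a)
    (d : ℕ) (hd : Nat.card A = p ^ d) : cpz p σ = (X - 1) ^ d := by
  have hp1 : 1 < p := (Fact.out : p.Prime).one_lt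
  haveI : Finite A := Nat.finite_of_card_ne_zero (by rw [hd]; positivity)
  haveI : Module (ZMod p) A := AddCommGroup.zmodModule hA
  haveI : Module.Finite (ZMod p) A := Module.Finite.of_finite
  haveI : Module.Free (ZMod p) A := Module.Free.of_divisionRing (ZMod p) A
  rw [cpz_eq]
  have h1 : σ.toZModLinearMap p = (1 : A →ₗ[ZMod p] A) := LinearMap.ext hσ
  rw [h1, LinearMap.charpoly_one]
  congr 1
  have h2 := Module.natCard_eq_pow_finrank (K := ZMod p) (V := A)
  rw [hd, Nat.card_zmod] at h2
  exact (Nat.pow_right_injective hp1 h2).symm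

/-- **(EC-D2c)** `cpz` of the identity on a group of order `p`. -/
theorem cpz_of_card_eq_prime (σ : A →+ A) (hσ : ∀ a, σ a = a) (hcard : Nat.card A = p) :
    cpz p σ = X - 1 := by
  have hA : ∀ a : A, p • a = 0 := fun a => by
    haveI : Finite A := Nat.finite_of_card_ne_zero (by
      rw [hcard]; exact (Fact.out : p.Prime).ne_zero)
    rw [← hcard]
    exact card_nsmul_eq_zero'
  have := cpz_of_forall_eq_self p hA σ hσ 1 (by rw [hcard, pow_one])
  rwa [pow_one] at this

end Identity

end Fermat.Agent.TW.EC
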