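/-
S56 / (EC-G) — helper3.
Equivariance of the duality maps of a Poitou–Tate datum under endomorphisms of the first
variable: `globPairN (r^* c) x = globPairN c (x ∘ r)` and `phiJ (r^* j) y = phiJ j (y ∘ Res r)`.
-/
import Fermat.Agent.TW.EC_helper3_Equiv
import Fermat.Agent.CFT.Sm.SelmerCount_helper9

set_option autoImplicit false
set_option linter.style.haveILetI false
set_option linter.unusedSectionVars false

open CategoryTheory CategoryTheory.Limits CategoryTheory.Abelian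

namespace Fermat.Agent.TW.EC

open Fermat.Agent.CFT.Sm

variable {Γ : Type} [Group Γ] {𝒰 : OpenBasis Γ} {p : ℕ} [hp : Fact p.Prime] {ι : Type} [Fintype ι]
  {G : ι → Type} [∀ v, Group (G v)] {ψ : ∀ v, G v →* Γ} {𝒱 : ∀ v, OpenBasis (G v)}

variable (D : PTDatum 𝒰 p ψ 𝒱) {P : SmRep ℤ 𝒰} (r : P ⟶ P)

/-- post-composition with `r` on `Ext^s(𝟙, P)`. -/
noncomputable def postG (s : ℕ) : Ext.{0} (smUnit ℤ 𝒰) P s →+ Ext.{0} (smUnit ℤ 𝒰) P s :=
  (Ext.mk₀ r).postcomp (smUnit ℤ 𝒰) (add_zero s)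

lemma postG_apply (s : ℕ) (x : Ext.{0} (smUnit ℤ 𝒰) P s) :
    postG r s x = x.comp (Ext.mk₀ r) (add_zero s) := rfl

/-- post-composition with `Res_v r` on `Ext^s(𝟙, Res_v P)`. -/
noncomputable def postL (v : ι) (s : ℕ) :
    Ext.{0} (smUnit ℤ (𝒱 v)) ((D.Rv v).obj P) s →+ Ext.{0} (smUnit ℤ (𝒱 v)) ((D.Rv v).obj P) s :=
  (Ext.mk₀ ((D.Rv v).map r)).postcomp (smUnit ℤ (𝒱 v)) (add_zero s)

lemma postL_apply (v : ι) (s : ℕ) (y : Ext.{0} (smUnit ℤ (𝒱 v)) ((D.Rv v).obj P) s) :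
    postL D r v s y = y.comp (Ext.mk₀ ((D.Rv v).map r)) (add_zero s) := rfl

/-- the product of the local post-compositions. -/
noncomputable def postLPi (s : ℕ) :
    (∀ v, Ext.{0} (smUnit ℤ (𝒱 v)) ((D.Rv v).obj P) s) →+
      (∀ v, Ext.{0} (smUnit ℤ (𝒱 v)) ((D.Rv v).obj P) s) :=
  AddMonoidHom.mk' (fun y v => postL D r v s (y v)) (fun y y' => by
    funext v
    show postL D r v s (y v + y' v) = _
    rw [map_add]
    rfl)

lemma postLPi_apply (s : ℕ) (y : ∀ v, Ext.{0} (smUnit ℤ (𝒱 v)) ((D.Rv v).obj P) s) (v : ι) :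
    postLPi D r s y v = postL D r v s (y v) := rfl

/-- equivariance of the global pairing. -/
theorem globPairN_preE {rr s : ℕ} (h : s + rr = 2) (c : Ext.{0} P D.C rr)
    (x : Ext.{0} (smUnit ℤ 𝒰) P s) :
    D.globPairN P h (preE r D.C rr c) x = D.globPairN P h c (postG r s x) := by
  rw [D.globPairN_apply, D.globPairN_apply, preE_apply, postG_apply]
  congr 1
  exact (Ext.comp_assoc _ _ _ (add_zero s) (zero_add rr) (by omega)).symm

/-- equivariance of the semi-local duality map. -/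
theorem phiJ_preE (u : ι → ℤ) {rr s : ℕ} (h : s + rr = 2) (j : Ext.{0} P D.J rr)
    (y : ∀ v, Ext.{0} (smUnit ℤ (𝒱 v)) ((D.Rv v).obj P) s) :
    D.phiJ u P h (preE r D.J rr j) y = D.phiJ u P h j (postLPi D r s y) := by
  rw [D.phiJ_apply, D.phiJ_apply]
  refine Finset.sum_congr rfl fun v _ => ?_
  congr 1
  rw [← preE_comp, preE_apply, D.tau_comp v (zero_add rr), Ext.mapExactFunctor_mk₀,
    D.locPairN_apply, D.locPairN_apply, postLPi_apply, postL_apply]
  congr 1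
  exact (Ext.comp_assoc _ _ _ (add_zero s) (zero_add rr) (by omega)).symm

end Fermat.Agent.TW.EC
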