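/-
S56 / (EC-G) — helper3.
The characteristic polynomials of an endomorphism `r` of `P` on `Ext²(P, C)` and `Ext²(P, J)`
via the dualities of a Poitou–Tate datum: they are those of post-composition with `r` on
`H⁰(Γ, P)` resp. `∏_v H⁰(G_v, P)`.
-/
import Fermat.Agent.TW.EC_helper3_DualEq
import Fermat.Agent.TW.ECD2_helper4

set_option autoImplicit false
set_option linter.style.haveILetI false
set_option linter.unusedSectionVars false

open CategoryTheory CategoryTheory.Limits CategoryTheory.Abelian Polynomial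

namespace Fermat.Agent.TW.EC

open Fermat.Agent.CFT.Sm

section Abstract

variable (p : ℕ) [hp : Fact p.Prime]

/-- an endomorphism which is dual to `σ` under a perfect pairing has the same `cpz` as `σ`. -/
theorem cpz_of_dual_pairing {T A : Type*} [AddCommGroup T] [AddCommGroup A] [Finite A]
    (hA : ∀ a : A, p • a = 0) (Φ : T →+ CharacterModule A) (hΦ : Function.Bijective Φ)
    (β : T →+ T) (σ : A →+ A) (h : ∀ t a, Φ (β t) a = Φ t (σ a)) : cpz p β = cpz p σ := by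
  let e : T ≃+ CharacterModule A := AddEquiv.ofBijective Φ hΦ
  let τ : CharacterModule A →+ CharacterModule A :=
    e.toAddMonoidHom.comp (β.comp e.symm.toAddMonoidHom)
  have h1 : cpz p β = cpz p τ := cpz_congr p e β τ (fun t => by
    show e (β t) = e (β (e.symm (e t)))
    rw [AddEquiv.symm_apply_apply])
  rw [h1]
  refine cpz_characterModule p hA σ τ (fun χ a => ?_)
  show Φ (β (e.symm χ)) a = χ (σ a)
  rw [h]
  show e (e.symm χ) (σ a) = χ (σ a)
  rw [AddEquiv.apply_symm_apply]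

end Abstract

variable {Γ : Type} [Group Γ] {𝒰 : OpenBasis Γ} {p : ℕ} [hp : Fact p.Prime] {ι : Type} [Fintype ι]
  {G : ι → Type} [∀ v, Group (G v)] {ψ : ∀ v, G v →* Γ} {𝒱 : ∀ v, OpenBasis (G v)}

variable (D : PTDatum 𝒰 p ψ 𝒱) {P : SmRep ℤ 𝒰} (r : P ⟶ P)

/-- `cpz (r^* | Ext²(P, C)) = cpz (r_* | H⁰(Γ, P))`. -/
theorem cpz_T2C [Finite (Ext.{0} (smUnit ℤ 𝒰) P 0)]
    (h0 : ∀ x : Ext.{0} (smUnit ℤ 𝒰) P 0, p • x = 0)
    (hG : Function.Bijective (D.globPairN P (show 0 + 2 = 2 from rfl))) :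
    cpz p (preE r D.C 2) = cpz p (postG r 0) :=
  cpz_of_dual_pairing p h0 _ hG _ _ (fun c x => globPairN_preE D r _ c x)

/-- `cpz (r^* | Ext²(P, J)) = ∏_v cpz ((Res_v r)_* | H⁰(G_v, P))`. -/
theorem cpz_T2J (u : ι → ℤ) [∀ v, Finite (Ext.{0} (smUnit ℤ (𝒱 v)) ((D.Rv v).obj P) 0)]
    (h0 : ∀ v (x : Ext.{0} (smUnit ℤ (𝒱 v)) ((D.Rv v).obj P) 0), p • x = 0)
    (hφ : Function.Bijective (D.phiJ u P (show 0 + 2 = 2 from rfl))) :
    cpz p (preE r D.J 2) = ∏ v, cpz p (postL D r v 0) := by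
  have h1 : cpz p (preE r D.J 2) = cpz p (postLPi D r 0) :=
    cpz_of_dual_pairing p (fun y => by
      funext v
      exact h0 v (y v)) _ hφ _ _ (fun j y => phiJ_preE D r u _ j y)
  rw [h1]
  exact cpz_pi p _ h0 (fun v => postL D r v 0) _ (fun y v => rfl)

end Fermat.Agent.TW.EC
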