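/-
S56 / (EC-G) — helper3.
`H⁰` of a module of functions on `G`: for a smooth module `Y` of `Γ'` whose vectors are the
functions `G → 𝔽_p` with `Γ'` acting by left translation through `φ : Γ' → G`,
`Ext⁰(𝟙, Y) ≃ {F | F (h x) = F x ∀ h ∈ range φ}`, and post-composition with a right translation
corresponds to right translation.
-/
import Fermat.Agent.TW.EC_helper3_Top1
import Fermat.Agent.TW.EC_helper3_InvFun
import Fermat.Agent.TW.EC_helper3_Cpz
import Fermat.Agent.CFT.Sm.Compare_helper9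

set_option autoImplicit false
set_option linter.style.haveILetI false
set_option linter.unusedSectionVars false

open CategoryTheory CategoryTheory.Limits CategoryTheory.Abelian Polynomial

namespace Fermat.Agent.TW.EC

open Fermat.Agent.CFT.Sm Fermat.Agent.TW.Ind

variable {Γ' : Type} [Group Γ'] {𝒰' : OpenBasis Γ'} {p : ℕ} [hp : Fact p.Prime]
  {G : Type} [Group G] [Finite G]

section H0

variable (Y : SmRep ℤ 𝒰') (e : Y.obj.V ≃+ regFun (ZMod p) G) (φ : Γ' →* G)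
  (hρ : ∀ (τ : Γ') (v : Y.obj.V), e (Y.obj.ρ τ v) = MonoidAlgebra.of (ZMod p) G (φ τ) • e v)

include hρ in
lemma mem_invFunH_of_invariant (v : Y.obj.V) (hv : ∀ τ, Y.obj.ρ τ v = v) :
    regFun.toFun' (e v) ∈ invFunH (ZMod p) φ.range := by
  rintro _ ⟨τ, rfl⟩ x
  have h1 := hρ τ⁻¹ v
  rw [hv τ⁻¹] at h1
  have h2 := congrArg (fun F : regFun (ZMod p) G => regFun.toFun' F x) h1
  simp only at h2
  rw [regFun_of_smul_apply, map_inv, inv_inv] at h2
  exact h2.symm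

include hρ in
lemma invariant_of_mem_invFunH (v : Y.obj.V)
    (hv : regFun.toFun' (e v) ∈ invFunH (ZMod p) φ.range) (τ : Γ') : Y.obj.ρ τ v = v := by
  apply e.injective
  rw [hρ]
  apply regFun_ext
  intro x
  rw [regFun_of_smul_apply]
  exact hv (φ τ)⁻¹ (φ.range.inv_mem ⟨τ, rfl⟩) x

lemma unit_hom_invariant (f : smUnit ℤ 𝒰' ⟶ Y) (τ : Γ') :
    Y.obj.ρ τ (f.hom.hom (1 : ℤ)) = f.hom.hom (1 : ℤ) := by
  have := Rep.hom_comm_apply f.hom τ (1 : ℤ)
  exact this.symm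

/-- evaluation at `1`, landing in the `H`-invariant functions. -/
noncomputable def h0Hom : (smUnit ℤ 𝒰' ⟶ Y) →+ invFunH (ZMod p) φ.range where
  toFun f := ⟨regFun.toFun' (e (f.hom.hom (1 : ℤ))),
    mem_invFunH_of_invariant Y e φ hρ _ (unit_hom_invariant Y f)⟩
  map_zero' := by
    apply Subtype.ext
    show regFun.toFun' (e ((0 : smUnit ℤ 𝒰' ⟶ Y).hom.hom (1 : ℤ))) = 0
    have : (0 : smUnit ℤ 𝒰' ⟶ Y).hom.hom (1 : ℤ) = 0 := rfl
    rw [this, map_zero]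
    rfl
  map_add' f f' := by
    apply Subtype.ext
    show regFun.toFun' (e ((f + f').hom.hom (1 : ℤ))) = _
    have : (f + f').hom.hom (1 : ℤ) = f.hom.hom (1 : ℤ) + f'.hom.hom (1 : ℤ) := rfl
    rw [this, map_add]
    rfl

lemma h0Hom_coe (f : smUnit ℤ 𝒰' ⟶ Y) :
    ((h0Hom Y e φ hρ f : invFunH (ZMod p) φ.range) : G → ZMod p) =
      regFun.toFun' (e (f.hom.hom (1 : ℤ))) := rfl

lemma h0Hom_bijective : Function.Bijective (h0Hom Y e φ hρ) := by
  constructor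
  · intro f f' h
    have h1 : regFun.toFun' (e (f.hom.hom (1 : ℤ))) = regFun.toFun' (e (f'.hom.hom (1 : ℤ))) :=
      congrArg Subtype.val h
    have h2 : f.hom.hom (1 : ℤ) = f'.hom.hom (1 : ℤ) := e.injective h1
    apply (unitHomEquiv Y).injective
    apply Subtype.ext
    exact h2
  · intro F
    have hv : ∀ τ, Y.obj.ρ τ (e.symm (regFun.mk' F.1)) = e.symm (regFun.mk' F.1) := fun τ =>
      invariant_of_mem_invFunH Y e φ hρ _ (by rw [AddEquiv.apply_symm_apply]; exact F.2) τ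
    refine ⟨(unitHomEquiv Y).symm ⟨e.symm (regFun.mk' F.1), hv⟩, ?_⟩
    apply Subtype.ext
    rw [h0Hom_coe]
    have h1 : ((unitHomEquiv Y).symm ⟨e.symm (regFun.mk' F.1), hv⟩).hom.hom (1 : ℤ) =
        e.symm (regFun.mk' F.1) :=
      congrArg Subtype.val ((unitHomEquiv Y).apply_symm_apply ⟨e.symm (regFun.mk' F.1), hv⟩)
    rw [h1, AddEquiv.apply_symm_apply]
    rfl

/-- `Hom(𝟙, Y) ≃ H`-invariant functions. -/
noncomputable def h0HomEquiv : (smUnit ℤ 𝒰' ⟶ Y) ≃+ invFunH (ZMod p) φ.range :=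
  AddEquiv.ofBijective (h0Hom Y e φ hρ) (h0Hom_bijective Y e φ hρ)

/-- `Ext⁰(𝟙, Y) ≃ H`-invariant functions. -/
noncomputable def h0Equiv : Ext.{0} (smUnit ℤ 𝒰') Y 0 ≃+ invFunH (ZMod p) φ.range :=
  Ext.addEquiv₀.trans (h0HomEquiv Y e φ hρ)

lemma h0Equiv_mk₀ (f : smUnit ℤ 𝒰' ⟶ Y) :
    ((h0Equiv Y e φ hρ (Ext.mk₀ f) : invFunH (ZMod p) φ.range) : G → ZMod p) =
      regFun.toFun' (e (f.hom.hom (1 : ℤ))) := by
  unfold h0Equiv
  rw [AddEquiv.trans_apply]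
  have : (Ext.addEquiv₀ (Ext.mk₀ f) : smUnit ℤ 𝒰' ⟶ Y) = f := Ext.addEquiv₀.apply_symm_apply f
  rw [this]
  rfl

variable (R : Y ⟶ Y) (g : G)
  (hR : ∀ v : Y.obj.V, e (R.hom.hom v) = rightTr (ZMod p) G (MonoidAlgebra.of (ZMod p) G g) (e v))

include hρ hR in
/-- post-composition with a right translation is right translation. -/
lemma h0Equiv_comp (y : Ext.{0} (smUnit ℤ 𝒰') Y 0) :
    h0Equiv Y e φ hρ (y.comp (Ext.mk₀ R) (add_zero 0)) =
      invFunTr (ZMod p) φ.range g (h0Equiv Y e φ hρ y) := by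
  obtain ⟨f, rfl⟩ := (Ext.mk₀_bijective _ _).2 y
  apply Subtype.ext
  rw [Ext.mk₀_comp_mk₀, h0Equiv_mk₀]
  funext x
  rw [invFunTr_apply, h0Equiv_mk₀]
  show regFun.toFun' (e (R.hom.hom (f.hom.hom (1 : ℤ)))) x = _
  rw [hR, rightTr_of_apply]

include hρ hR in
/-- the characteristic polynomial of post-composition with a right translation on `H⁰`. -/
theorem cpz_h0 :
    cpz p ((Ext.mk₀ R).postcomp (smUnit ℤ 𝒰') (add_zero 0) :
      Ext.{0} (smUnit ℤ 𝒰') Y 0 →+ Ext.{0} (smUnit ℤ 𝒰') Y 0) =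
      (invFunTr (ZMod p) φ.range g).charpoly := by
  rw [← cpz_eq' p (invFunTr (ZMod p) φ.range g)]
  exact cpz_congr p (h0Equiv Y e φ hρ) _ _ (fun y => h0Equiv_comp Y e φ hρ R g hR y)

end H0

end Fermat.Agent.TW.EC
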