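/-
S56 / (EC-G) — helper3.
The two duality inputs of the CORE for `twDatum`: with `P = regSm`, `r` = right translation by `g`,
`cpz(r^* | Ext²(P, 𝔻)) = X − 1` and `cpz(r^* | Ext²(P, J)) = ∏_v charpoly(g | functions on H_v\G)`.
-/
import Fermat.Agent.TW.EC_helper3_DualCp
import Fermat.Agent.TW.EC_helper3_H0
import Fermat.Agent.TW.Glue_helper9

set_option autoImplicit false
set_option linter.style.haveILetI false
set_option linter.unusedSectionVars false

open CategoryTheory CategoryTheory.Limits CategoryTheory.Abelian Polynomial ExtCitation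

namespace Fermat.Agent.TW.EC

open Fermat.Agent.CFT.Sm Fermat.Agent.CFT.Bridge Fermat.Agent.CFT.Arith Fermat.Agent.CFT
  Fermat.Agent.TW.Ind

local notation "GQ" => (AlgebraicClosure ℚ ≃ₐ[ℚ] AlgebraicClosure ℚ)

section Top

variable (p : ℕ) [hp : Fact p.Prime] {G : Type} [Group G] [Finite G]

/-- invariant functions under the whole group are constant: the space has `p` elements. -/
lemma card_invFunH_top : Nat.card (invFunH (ZMod p) (⊤ : Subgroup G)) = p := by
  have e : invFunH (ZMod p) (⊤ : Subgroup G) ≃ ZMod p :=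
    { toFun := fun F => F.1 1
      invFun := fun c => ⟨fun _ => c, fun _ _ _ => rfl⟩
      left_inv := fun F => by
        apply Subtype.ext
        funext x
        have := F.2 x (Subgroup.mem_top x) 1
        rw [mul_one] at this
        exact this.symm
      right_inv := fun c => rfl }
  rw [Nat.card_congr e, Nat.card_zmod]

lemma invFunTr_top (g : G) (F : invFunH (ZMod p) (⊤ : Subgroup G)) :
    invFunTr (ZMod p) (⊤ : Subgroup G) g F = F := by
  apply Subtype.ext
  funext x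
  rw [invFunTr_apply]
  have := F.2 (x * g * x⁻¹) (Subgroup.mem_top _) x
  rw [inv_mul_cancel_right] at this
  exact this

lemma charpoly_invFunTr_top (g : G) :
    (invFunTr (ZMod p) (⊤ : Subgroup G) g).charpoly = X - 1 := by
  rw [← cpz_eq' p (invFunTr (ZMod p) (⊤ : Subgroup G) g)]
  exact cpz_of_card_eq_prime p _ (invFunTr_top p g) (card_invFunH_top p)

end Top

variable {p : ℕ} [hp : Fact p.Prime] (hp2 : p ≠ 2) (S : Finset Nat.Primes) (hpS : pPrime p ∈ S)
  {G : Type} [Group G] [Finite G] (π : GQ →* G) (hπ : (levelBasis S).IsOpen π.ker)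
  (hsurj : Function.Surjective π) (g : G)

omit [Finite G] in
lemma regSm_torsion' [Finite G] {Γ : Type} [Group Γ] {𝒰 : OpenBasis Γ} (π : Γ →* G)
    (hπ : 𝒰.IsOpen π.ker) (x : (regSm p π hπ).obj.V) : p • x = 0 :=
  (isFinTor_toSm π hπ _).2 x

instance regSm_finite' {Γ : Type} [Group Γ] {𝒰 : OpenBasis Γ} (π : Γ →* G)
    (hπ : 𝒰.IsOpen π.ker) : Finite (regSm p π hπ).obj.V := (isFinTor_toSm π hπ _).1

include hp2 hpS hsurj in
/-- **(EC-D, C)**: `cpz(g | Ext²(regSm, 𝔻)) = X − 1`. -/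
theorem cpz_T2C_twDatum :
    cpz p (preE (trR π hπ (MonoidAlgebra.of (ZMod p) G g)) (DSm S) 2) = X - 1 := by
  set P := regSm p π hπ with hP
  set r := trR π hπ (MonoidAlgebra.of (ZMod p) G g) with hr
  have hρ : ∀ (τ : GQ) (v : P.obj.V), (AddEquiv.refl _) (P.obj.ρ τ v) =
      MonoidAlgebra.of (ZMod p) G (π τ) • (AddEquiv.refl (regFun (ZMod p) G)) v :=
    fun τ v => rfl
  have hR : ∀ v : P.obj.V, (AddEquiv.refl (regFun (ZMod p) G)) (r.hom.hom v) =
      rightTr (ZMod p) G (MonoidAlgebra.of (ZMod p) G g) ((AddEquiv.refl _) v) := fun v => rfl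
  haveI : Finite (Ext.{0} (smUnit ℤ (levelBasis S)) P 0) :=
    Finite.of_equiv _ (h0Equiv P (AddEquiv.refl _) π hρ).symm.toEquiv
  have h0 : ∀ x : Ext.{0} (smUnit ℤ (levelBasis S)) P 0, p • x = 0 := fun x =>
    ext_nsmul_eq_zero_of_right p (smRep_nsmul_id_eq_zero P p (regSm_torsion' π hπ)) x
  have hG := (twDatum_globPairN_bijective hp2 S hpS P (regSm_torsion' π hπ)).1
  have h1 := cpz_T2C (twDatum hp2 S hpS) r h0 hG
  have h2 := cpz_h0 P (AddEquiv.refl _) π hρ r g hR
  have htop : π.range = ⊤ := MonoidHom.range_eq_top.mpr hsurj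
  have h3 : cpz p (preE r (DSm S) 2) = cpz p (postG r 0) := h1
  rw [h3]
  have h4 : cpz p (postG r 0) = (invFunTr (ZMod p) π.range g).charpoly := h2
  rw [h4, htop]
  exact charpoly_invFunTr_top p g

include hp2 hpS in
/-- **(EC-D, J)**: `cpz(g | Ext²(regSm, J)) = ∏_v charpoly(g | functions on H_v\G)`. -/
theorem cpz_T2J_twDatum :
    cpz p (preE (trR π hπ (MonoidAlgebra.of (ZMod p) G g)) (JSSm S) 2) =
      ∏ v : ↥S, (invFunTr (ZMod p) (π.comp (locHom S v)).range g).charpoly := by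
  set P := regSm p π hπ with hP
  set r := trR π hπ (MonoidAlgebra.of (ZMod p) G g) with hr
  set D := twDatum hp2 S hpS with hD
  have hPt := regSm_torsion' (p := p) π hπ
  have hρ : ∀ (v : ↥S) (τ : locGroup S v) (x : ((D.Rv v).obj P).obj.V),
      (AddEquiv.refl (regFun (ZMod p) G)) (((D.Rv v).obj P).obj.ρ τ x) =
      MonoidAlgebra.of (ZMod p) G ((π.comp (locHom S v)) τ) •
        (AddEquiv.refl (regFun (ZMod p) G)) x :=
    fun v τ x => rfl
  have hR : ∀ (v : ↥S) (x : ((D.Rv v).obj P).obj.V),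
      (AddEquiv.refl (regFun (ZMod p) G)) (((D.Rv v).map r).hom.hom x) =
      rightTr (ZMod p) G (MonoidAlgebra.of (ZMod p) G g) ((AddEquiv.refl _) x) := fun v x => rfl
  haveI : ∀ v : ↥S, Finite (Ext.{0} (smUnit ℤ (locFine S v)) ((D.Rv v).obj P) 0) := fun v =>
    Finite.of_equiv _ (h0Equiv ((D.Rv v).obj P) (AddEquiv.refl _) (π.comp (locHom S v))
      (hρ v)).symm.toEquiv
  have h0 : ∀ (v : ↥S) (x : Ext.{0} (smUnit ℤ (locFine S v)) ((D.Rv v).obj P) 0), p • x = 0 :=
    fun v x => ext_nsmul_eq_zero_of_right p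
      (smRep_nsmul_id_eq_zero ((D.Rv v).obj P) p (fun y => hPt y)) x
  let u : ↥S → ℤ := fun _ => 1
  have hu' : ∀ v, ¬ (p : ℤ) ∣ u v := fun v h => by
    have h1 : (p : ℤ) ∣ 1 := h
    have h2 := Int.natCast_dvd_natCast.mp (by simpa using h1 : ((p : ℕ) : ℤ) ∣ ((1 : ℕ) : ℤ))
    exact hp.out.one_lt.ne' (Nat.dvd_one.mp h2)
  have hφ : Function.Bijective (D.phiJ u P (show 0 + 2 = 2 from rfl)) :=
    ⟨D.phiJ_injective u hu' P hPt _
        (fun v => (twDatum_locPairN_bijective hp2 S hpS P hPt v).1.1)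
        (fun v => (twDatum_tau_two_bijective hp2 S hpS P hPt v).1),
      D.phiJ_surjective u hu' (twDatum_incl_proj hp2 S hpS)
        (fun v w h => twDatum_incl_proj_of_ne hp2 S hpS v w h) P hPt _
        (fun v => (twDatum_locPairN_bijective hp2 S hpS P hPt v).1.2)
        (fun v => (twDatum_tau_two_bijective hp2 S hpS P hPt v).2)⟩
  have h1 : cpz p (preE r D.J 2) = ∏ v, cpz p (postL D r v 0) := cpz_T2J D r u h0 hφ
  have h2 : ∀ v : ↥S, cpz p (postL D r v 0) =
      (invFunTr (ZMod p) (π.comp (locHom S v)).range g).charpoly := fun v =>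
    cpz_h0 ((D.Rv v).obj P) (AddEquiv.refl _) (π.comp (locHom S v)) (hρ v) ((D.Rv v).map r) g
      (hR v)
  have h3 : cpz p (preE r (JSSm S) 2) = cpz p (preE r D.J 2) := rfl
  rw [h3, h1]
  exact Finset.prod_congr rfl (fun v _ => h2 v)

end Fermat.Agent.TW.EC
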