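import Mathlib
import Fermat.Agent.TW.ECA0_helper5_Four
import Fermat.Agent.TW.ECA_helper5_Perm

set_option autoImplicit false

open Polynomial Module TensorProduct nonZeroDivisors

namespace Fermat.Agent.TW.EC

section Lattice

variable (p : ℕ) [Fact p.Prime]

/-- on a finite free `ℤ`-module, the charpoly of `τ` on `L/pL` is the reduction of the integral
charpoly. -/
theorem cpQuot_eq_map_charpoly {L : Type*} [AddCommGroup L] [Module.Free ℤ L]
    [Module.Finite ℤ L] (τ : L →ₗ[ℤ] L) :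
    cpQuot p τ.toAddMonoidHom = τ.charpoly.map (Int.castRingHom (ZMod p)) := by
  let q : L →+ (ZMod p) ⊗[ℤ] L := (TensorProduct.mk ℤ (ZMod p) L 1).toAddMonoidHom
  have hq_apply : ∀ a, q a = (1 : ZMod p) ⊗ₜ[ℤ] a := fun a => rfl
  have hq : Function.Surjective q := by
    intro x
    induction x using TensorProduct.induction_on with
    | zero => exact ⟨0, map_zero _⟩
    | tmul c a =>
      obtain ⟨n, rfl⟩ := ZMod.intCast_surjective c
      refine ⟨n • a, ?_⟩
      rw [hq_apply, ← TensorProduct.smul_tmul]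
      congr 1
      simp
    | add x y hx hy =>
      obtain ⟨a, rfl⟩ := hx
      obtain ⟨b, rfl⟩ := hy
      exact ⟨a + b, map_add _ _ _⟩
  let φ : (ZMod p) ⊗[ℤ] L →ₗ[ℤ] quotP p L :=
    TensorProduct.lift (LinearMap.mk₂ ℤ (fun (c : ZMod p) (a : L) => c • quotPmk p a)
      (fun c₁ c₂ a => add_smul _ _ _) (fun n c a => smul_assoc _ _ _)
      (fun c a b => by rw [map_add, smul_add])
      (fun n c a => by rw [map_zsmul, smul_comm]))
  have hφ : ∀ a, φ ((1 : ZMod p) ⊗ₜ[ℤ] a) = quotPmk p a := by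
    intro a
    change (TensorProduct.lift _) ((1 : ZMod p) ⊗ₜ[ℤ] a) = _
    rw [TensorProduct.lift.tmul, LinearMap.mk₂_apply, one_smul]
  have hq' : ∀ a, q a = 0 ↔ ∃ a', a = p • a' := by
    intro a
    constructor
    · intro h
      have h2 : quotPmk p a = 0 := by rw [← hφ, ← hq_apply, h, map_zero]
      obtain ⟨b, hb⟩ := (quotPmk_eq_zero_iff p a).mp h2
      exact ⟨b, hb.symm⟩
    · rintro ⟨a', rfl⟩
      rw [hq_apply]
      have : (p • a' : L) = (p : ℤ) • a' := by simp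
      rw [this, ← TensorProduct.smul_tmul]
      have : ((p : ℤ) • (1 : ZMod p)) = 0 := by simp
      rw [this, TensorProduct.zero_tmul]
  have : Finite ((ZMod p) ⊗[ℤ] L) := Module.finite_of_finite (ZMod p)
  have h := cpQuot_eq_of_pres p τ.toAddMonoidHom (τ.baseChange (ZMod p)) q hq hq'
    (fun a => (LinearMap.baseChange_tmul (A := ZMod p) τ (1 : ZMod p) a).symm)
  rw [h.2, LinearMap.charpoly_baseChange]
  rfl

end Lattice

section Torsion

variable {A : Type*} [AddCommGroup A]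

theorem baseChange_mkQ_torsion_bijective :
    Function.Bijective ((Submodule.torsion ℤ A).mkQ.baseChange ℚ) := by
  constructor
  · rw [← LinearMap.ker_eq_bot, LinearMap.ker_eq_bot']
    intro x hx
    let f : A →ₗ[ℤ] ℚ ⊗[ℤ] A := TensorProduct.mk ℤ ℚ A 1
    let fbar : (A ⧸ Submodule.torsion ℤ A) →ₗ[ℤ] ℚ ⊗[ℤ] (A ⧸ Submodule.torsion ℤ A) :=
      TensorProduct.mk ℤ ℚ _ 1
    have hloc : IsLocalizedModule ℤ⁰ f := IsLocalization.tensorProduct_isLocalizedModule ℤ⁰ ℚ
    have hlocbar : IsLocalizedModule ℤ⁰ fbar :=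
      IsLocalization.tensorProduct_isLocalizedModule ℤ⁰ ℚ
    obtain ⟨⟨a, s⟩, has⟩ := IsLocalizedModule.surj ℤ⁰ f x
    have hs0 : ((s : ℤ) : ℚ) ≠ 0 := by
      have := nonZeroDivisors.ne_zero s.2
      exact_mod_cast this
    have h1 : fbar ((Submodule.torsion ℤ A).mkQ a) = 0 := by
      have e1 : fbar ((Submodule.torsion ℤ A).mkQ a) =
          ((Submodule.torsion ℤ A).mkQ.baseChange ℚ) (f a) :=
        (LinearMap.baseChange_tmul (A := ℚ) _ (1 : ℚ) a).symm
      rw [e1, ← has]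
      change ((Submodule.torsion ℤ A).mkQ.baseChange ℚ) ((s : ℤ) • x) = 0
      rw [← Int.cast_smul_eq_zsmul ℚ, map_smul, hx, smul_zero]
    obtain ⟨c, hc⟩ := (IsLocalizedModule.eq_zero_iff ℤ⁰ fbar).mp h1
    have h2 : (c : ℤ) • a ∈ Submodule.torsion ℤ A := by
      rw [← Submodule.Quotient.mk_eq_zero, Submodule.Quotient.mk_smul]
      exact hc
    obtain ⟨n, hn⟩ := (Submodule.mem_torsion_iff _).mp h2
    have h3 : f a = 0 := (IsLocalizedModule.eq_zero_iff ℤ⁰ f).mpr ⟨n * c, by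
      rw [mul_smul]; exact hn⟩
    rw [h3] at has
    have h4 : ((s : ℤ) : ℚ) • x = 0 := by
      rw [Int.cast_smul_eq_zsmul]; exact has
    exact (smul_eq_zero.mp h4).resolve_left hs0
  · have : ((Submodule.torsion ℤ A).mkQ.baseChange ℚ : ℚ ⊗[ℤ] A → _) =
        (Submodule.torsion ℤ A).mkQ.lTensor ℚ := LinearMap.baseChange_eq_ltensor _
    rw [this]
    exact LinearMap.lTensor_surjective ℚ (Submodule.mkQ_surjective _)

theorem torsion_le_comap (τ : A →ₗ[ℤ] A) :
    Submodule.torsion ℤ A ≤ (Submodule.torsion ℤ A).comap τ := by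
  intro a ha
  obtain ⟨n, hn⟩ := (Submodule.mem_torsion_iff _).mp ha
  rw [Submodule.mem_comap, Submodule.mem_torsion_iff]
  refine ⟨n, ?_⟩
  change (n : ℤ) • τ a = 0
  rw [← map_zsmul]
  change τ (n • a) = 0
  rw [hn, map_zero]

/-- the endomorphism induced on `A / torsion`. -/
noncomputable def barMap (τ : A →ₗ[ℤ] A) :
    (A ⧸ Submodule.torsion ℤ A) →ₗ[ℤ] (A ⧸ Submodule.torsion ℤ A) :=
  (Submodule.torsion ℤ A).mapQ (Submodule.torsion ℤ A) τ (torsion_le_comap τ)

theorem charpoly_baseChange_rat_eq [Module.Finite ℤ A] (τ : A →ₗ[ℤ] A) :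
    (τ.baseChange ℚ).charpoly = (barMap τ).charpoly.map (Int.castRingHom ℚ) := by
  have h1 : ((barMap τ).baseChange ℚ).charpoly = (barMap τ).charpoly.map (Int.castRingHom ℚ) := by
    rw [LinearMap.charpoly_baseChange]; rfl
  rw [← h1]
  let E : ℚ ⊗[ℤ] A ≃ₗ[ℚ] ℚ ⊗[ℤ] (A ⧸ Submodule.torsion ℤ A) :=
    LinearEquiv.ofBijective _ baseChange_mkQ_torsion_bijective
  rw [← LinearEquiv.charpoly_conj E (τ.baseChange ℚ)]
  congr 1
  apply LinearMap.ext
  intro y
  obtain ⟨x, rfl⟩ := E.surjective y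
  rw [LinearEquiv.conj_apply_apply, LinearEquiv.symm_apply_apply]
  change ((Submodule.torsion ℤ A).mkQ.baseChange ℚ) ((τ.baseChange ℚ) x) =
    ((barMap τ).baseChange ℚ) (((Submodule.torsion ℤ A).mkQ.baseChange ℚ) x)
  rw [← LinearMap.comp_apply, ← LinearMap.comp_apply, ← LinearMap.baseChange_comp,
    ← LinearMap.baseChange_comp]
  rfl

end Torsion

end Fermat.Agent.TW.EC
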