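import Mathlib
import Fermat.Agent.TW.ECA_helper5_Lattice

set_option autoImplicit false

open Polynomial Module TensorProduct nonZeroDivisors

namespace Fermat.Agent.TW.EC

section TorsionSES

variable (p : ℕ) [Fact p.Prime] {A : Type*} [AddCommGroup A]

theorem subsingleton_torP_quotient_torsion :
    Subsingleton (torP p (A ⧸ Submodule.torsion ℤ A)) := by
  refine ⟨fun x y => ?_⟩
  have key : ∀ z : torP p (A ⧸ Submodule.torsion ℤ A), z = 0 := by
    rintro ⟨z, hz⟩
    apply Subtype.ext
    rw [mem_torP] at hz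
    obtain ⟨a, rfl⟩ := Submodule.mkQ_surjective _ z
    change (Submodule.Quotient.mk a : A ⧸ Submodule.torsion ℤ A) = 0
    rw [Submodule.Quotient.mk_eq_zero]
    have h1 : (Submodule.Quotient.mk (p • a) : A ⧸ Submodule.torsion ℤ A) = 0 := hz
    rw [Submodule.Quotient.mk_eq_zero] at h1
    obtain ⟨n, hn⟩ := (Submodule.mem_torsion_iff _).mp h1
    rw [Submodule.mem_torsion_iff]
    have hp0 : ((p : ℕ) : ℤ) ∈ ℤ⁰ := by
      rw [mem_nonZeroDivisors_iff_ne_zero]
      exact_mod_cast (Fact.out : p.Prime).ne_zero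
    refine ⟨n * ⟨(p : ℤ), hp0⟩, ?_⟩
    rw [mul_smul]
    have : (⟨(p : ℤ), hp0⟩ : ℤ⁰) • a = p • a := by
      change ((p : ℕ) : ℤ) • a = p • a
      simp
    rw [this]
    exact hn
  rw [key x, key y]

theorem cpQuot_eq_cpTor_mul_bar [Module.Finite ℤ A] (τ : A →ₗ[ℤ] A)
    (hT : Finite (torP p A)) (hQ : Finite (quotP p A)) :
    cpQuot p τ.toAddMonoidHom =
      cpTor p τ.toAddMonoidHom * cpQuot p (barMap τ).toAddMonoidHom := by
  let i : ↥(Submodule.torsion ℤ A) →+ A := (Submodule.torsion ℤ A).subtype.toAddMonoidHom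
  let π : A →+ A ⧸ Submodule.torsion ℤ A := (Submodule.torsion ℤ A).mkQ.toAddMonoidHom
  have ses : IsSES i π :=
    { inj := Subtype.val_injective
      surj := Submodule.mkQ_surjective _
      exact := fun a => by
        change (Submodule.Quotient.mk a : A ⧸ Submodule.torsion ℤ A) = 0 ↔ _
        rw [Submodule.Quotient.mk_eq_zero]
        constructor
        · intro h; exact ⟨⟨a, h⟩, rfl⟩
        · rintro ⟨x, rfl⟩; exact x.2 }
  let σT : ↥(Submodule.torsion ℤ A) →+ ↥(Submodule.torsion ℤ A) :=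
    (τ.restrict (torsion_le_comap τ)).toAddMonoidHom
  have hfinT : Finite ↥(Submodule.torsion ℤ A) :=
    Module.finite_of_fg_torsion _ (Submodule.torsion_isTorsion)
  have hQ' : Finite (quotP p ↥(Submodule.torsion ℤ A)) :=
    Finite.of_surjective _ (quotPmk_surjective p)
  have hsub := subsingleton_torP_quotient_torsion p (A := A)
  have hQ'' : Finite (quotP p (A ⧸ Submodule.torsion ℤ A)) :=
    Finite.of_surjective _ (quotMap_surjective p ses)
  have key := cp_mul_of_isSES p ses σT τ.toAddMonoidHom (barMap τ).toAddMonoidHom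
    (fun _ => rfl) (fun _ => rfl) inferInstance hT inferInstance hQ' hQ hQ''
  rw [cpQuot_eq_cpTor_of_finite p _ σT rfl, cpTor_eq p (barMap τ).toAddMonoidHom,
    charpoly_eq_one_of_subsingleton, mul_one] at key
  have hne : cpTor p σT ≠ 0 := (cpTor_monic p σT).ne_zero
  apply mul_right_cancel₀ hne
  rw [key]
  ring

end TorsionSES

end Fermat.Agent.TW.EC
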