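import Mathlib
import Fermat.Agent.TW.ECA_helper5_TorsionSES

set_option autoImplicit false

open Polynomial Module TensorProduct nonZeroDivisors

namespace Fermat.Agent.TW.EC

section Main

theorem prodMap_id_pow {K V : Type*} [Field K] [AddCommGroup V] [Module K V] (f : V →ₗ[K] V)
    (d : ℕ) : (f.prodMap (LinearMap.id : K →ₗ[K] K)) ^ d = (f ^ d).prodMap LinearMap.id := by
  induction d with
  | zero => simp [Module.End.one_eq_id]
  | succ d ih =>
    rw [pow_succ, ih, pow_succ]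
    apply LinearMap.ext
    rintro ⟨v, c⟩
    simp

theorem finrank_ker_prodMap_id_pow_sub_one {V : Type*} [AddCommGroup V] [Module ℚ V]
    [FiniteDimensional ℚ V] (f : V →ₗ[ℚ] V) (d : ℕ) :
    finrank ℚ (LinearMap.ker ((f.prodMap (LinearMap.id : ℚ →ₗ[ℚ] ℚ)) ^ d - 1)) =
      finrank ℚ (LinearMap.ker (f ^ d - 1)) + 1 := by
  rw [prodMap_id_pow]
  have hmem : ∀ (v : V) (c : ℚ), (v, c) ∈ LinearMap.ker ((f ^ d).prodMap LinearMap.id - 1) ↔
      v ∈ LinearMap.ker (f ^ d - 1) := by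
    intro v c
    simp [LinearMap.mem_ker, Prod.ext_iff]
  let e : (LinearMap.ker (f ^ d - 1) × ℚ) ≃ₗ[ℚ]
      LinearMap.ker ((f ^ d).prodMap (LinearMap.id : ℚ →ₗ[ℚ] ℚ) - 1) :=
    { toFun := fun x => ⟨(x.1.1, x.2), (hmem _ _).mpr x.1.2⟩
      invFun := fun y => (⟨y.1.1, (hmem _ y.1.2).mp (by exact y.2)⟩, y.1.2)
      left_inv := fun x => rfl
      right_inv := fun y => rfl
      map_add' := fun x y => rfl
      map_smul' := fun c x => rfl }
  rw [← e.finrank_eq, Module.finrank_prod, Module.finrank_self]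

variable (p : ℕ) [Fact p.Prime]

/-- the integral form of the unit-theorem comparison. -/
theorem charpoly_bar_mul_eq_permMat (m : ℕ) (hm0 : 0 < m)
    {A : Type*} [AddCommGroup A] [Module.Finite ℤ A] (τ : A →ₗ[ℤ] A) (hτ : τ ^ m = 1)
    {Ω : Type*} [Fintype Ω] [DecidableEq Ω] (s : Equiv.Perm Ω) (hs : s ^ m = 1)
    (hrank : ∀ d, d ∣ m → finrank ℤ (LinearMap.ker (τ ^ d - 1)) + 1 =
      Nat.card (MulAction.orbitRel.Quotient (Subgroup.zpowers (s ^ d)) Ω)) :
    (barMap τ).charpoly * (X - 1) = (permMat s).charpoly := by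
  apply Polynomial.map_injective (Int.castRingHom ℚ) Int.cast_injective
  rw [Polynomial.map_mul, ← charpoly_baseChange_rat_eq, Polynomial.map_sub, map_X,
    Polynomial.map_one, ← charpoly_funLeft ℚ s]
  have hcp : ((τ.baseChange ℚ).prodMap (LinearMap.id : ℚ →ₗ[ℚ] ℚ)).charpoly =
      (τ.baseChange ℚ).charpoly * (X - 1) := by
    rw [LinearMap.charpoly_prodMap]
    congr 1
    have : (LinearMap.id : ℚ →ₗ[ℚ] ℚ) = 1 := rfl
    rw [this, LinearMap.charpoly_one, Module.finrank_self, pow_one]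
  rw [← hcp]
  have hbc : ∀ d : ℕ, (τ.baseChange ℚ) ^ d - 1 = (τ ^ d - 1).baseChange ℚ := by
    intro d
    have h1 : (τ.baseChange ℚ) ^ d = (τ ^ d).baseChange ℚ :=
      (map_pow (Module.End.baseChangeHom ℤ ℚ A) τ d).symm
    have h2 : (1 : ℚ ⊗[ℤ] A →ₗ[ℚ] ℚ ⊗[ℤ] A) = (1 : A →ₗ[ℤ] A).baseChange ℚ :=
      (map_one (Module.End.baseChangeHom ℤ ℚ A)).symm
    rw [h1, h2, ← LinearMap.baseChange_sub]
  refine charpoly_eq_of_finrank_ker_eq _ _ m hm0 ?_ ?_ ?_
  · rw [prodMap_id_pow]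
    have h1 : (τ.baseChange ℚ) ^ m = 1 := by
      have := hbc m
      rw [hτ, sub_self, LinearMap.baseChange_zero] at this
      exact sub_eq_zero.mp this
    rw [h1]
    exact LinearMap.prodMap_one
  · rw [funLeft_pow, hs]
    apply LinearMap.ext; intro F; ext ω; simp [LinearMap.funLeft_apply]
  · intro d hd
    rw [finrank_ker_prodMap_id_pow_sub_one, hbc d, finrank_ker_baseChange, hrank d hd, funLeft_pow,
      finrank_ker_funLeft_sub_one]

end Main

end Fermat.Agent.TW.EC
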