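import Mathlib
import Fermat.Agent.TW.ECA_helper5_Integral

set_option autoImplicit false

open Polynomial Module

namespace Fermat.Agent.TW.EC

section Herbrand

variable (p : ℕ) [Fact p.Prime]

/-- **Herbrand charpoly**, general form: the fixed subgroups are given as any family `K d` of
subgroups with `a ∈ K d ↔ σ^[d] a = a`. -/
theorem herbrand_charpoly_of_fixed (m : ℕ) (hm0 : 0 < m)
    {A : Type*} [AddCommGroup A] [Module.Finite ℤ A] (σ : A →+ A) (hσ : (⇑σ)^[m] = id)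
    {V₁ V₂ : Type*} [AddCommGroup V₁] [Module (ZMod p) V₁] [Finite V₁]
    [AddCommGroup V₂] [Module (ZMod p) V₂] [Finite V₂]
    (σ₁ : V₁ →ₗ[ZMod p] V₁) (σ₂ : V₂ →ₗ[ZMod p] V₂)
    (ι : V₂ →+ A) (hι : Function.Injective ι) (hι' : ∀ a, p • a = 0 ↔ a ∈ Set.range ι)
    (hισ : ∀ v, ι (σ₂ v) = σ (ι v))
    (q : A →+ V₁) (hq : Function.Surjective q) (hq' : ∀ a, q a = 0 ↔ ∃ a', a = p • a')
    (hqσ : ∀ a, q (σ a) = σ₁ (q a))
    {Ω : Type*} [Fintype Ω] [DecidableEq Ω] (s : Equiv.Perm Ω) (hs : s ^ m = 1)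
    (K : ℕ → AddSubgroup A) (hK : ∀ d a, a ∈ K d ↔ (⇑σ)^[d] a = a)
    (hrank : ∀ d, d ∣ m → Module.finrank ℤ ↥(K d) + 1 =
      Nat.card (MulAction.orbitRel.Quotient (Subgroup.zpowers (s ^ d)) Ω)) :
    σ₁.charpoly * (X - 1) =
      σ₂.charpoly * (LinearMap.funLeft (ZMod p) (ZMod p) s).charpoly := by
  obtain ⟨hT, h2⟩ := cpTor_eq_of_pres p σ σ₂ ι hι hι' hισ
  obtain ⟨hQ, h1⟩ := cpQuot_eq_of_pres p σ σ₁ q hq hq' hqσ
  let τ : A →ₗ[ℤ] A := σ.toIntLinearMap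
  have hτσ : τ.toAddMonoidHom = σ := rfl
  have hpow : ∀ (d : ℕ) (a : A), (τ ^ d) a = (⇑σ)^[d] a := by
    intro d a
    rw [Module.End.pow_apply]
    rfl
  have hτ : τ ^ m = 1 := by
    apply LinearMap.ext
    intro a
    rw [hpow, hσ]
    rfl
  have hrank' : ∀ d, d ∣ m → finrank ℤ (LinearMap.ker (τ ^ d - 1)) + 1 =
      Nat.card (MulAction.orbitRel.Quotient (Subgroup.zpowers (s ^ d)) Ω) := by
    intro d hd
    rw [← hrank d hd]
    congr 1
    have hmem : ∀ a : A, a ∈ LinearMap.ker (τ ^ d - 1) ↔ a ∈ K d := by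
      intro a
      rw [LinearMap.mem_ker, LinearMap.sub_apply, Module.End.one_apply, sub_eq_zero, hpow, hK]
    let e : ↥(LinearMap.ker (τ ^ d - 1)) ≃+ ↥(K d) :=
      { toFun := fun x => ⟨x.1, (hmem _).mp x.2⟩
        invFun := fun x => ⟨x.1, (hmem _).mpr x.2⟩
        left_inv := fun x => rfl
        right_inv := fun x => rfl
        map_add' := fun x y => rfl }
    exact e.toIntLinearEquiv.finrank_eq
  have hint := charpoly_bar_mul_eq_permMat m hm0 τ hτ s hs hrank'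
  have hred := cpQuot_eq_cpTor_mul_bar p τ hT hQ
  rw [hτσ, h1, h2, cpQuot_eq_map_charpoly] at hred
  rw [hred, charpoly_funLeft (ZMod p) s, ← hint, Polynomial.map_mul, Polynomial.map_sub,
    Polynomial.map_X, Polynomial.map_one, mul_assoc]

/-- **Herbrand charpoly** (EC-A), with the fixed subgroups written as kernels of
`σ ^ d - 1` for the `ℤ`-linear map attached to `σ`. (The hypothesis `¬ p ∣ m` is not needed.) -/
theorem herbrand_charpoly (m : ℕ) (hm0 : 0 < m)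
    {A : Type*} [AddCommGroup A] [Module.Finite ℤ A] (σ : A →+ A) (hσ : (⇑σ)^[m] = id)
    {V₁ V₂ : Type*} [AddCommGroup V₁] [Module (ZMod p) V₁] [Finite V₁]
    [AddCommGroup V₂] [Module (ZMod p) V₂] [Finite V₂]
    (σ₁ : V₁ →ₗ[ZMod p] V₁) (σ₂ : V₂ →ₗ[ZMod p] V₂)
    (ι : V₂ →+ A) (hι : Function.Injective ι) (hι' : ∀ a, p • a = 0 ↔ a ∈ Set.range ι)
    (hισ : ∀ v, ι (σ₂ v) = σ (ι v))
    (q : A →+ V₁) (hq : Function.Surjective q) (hq' : ∀ a, q a = 0 ↔ ∃ a', a = p • a')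
    (hqσ : ∀ a, q (σ a) = σ₁ (q a))
    {Ω : Type*} [Fintype Ω] [DecidableEq Ω] (s : Equiv.Perm Ω) (hs : s ^ m = 1)
    (hrank : ∀ d, d ∣ m →
      Module.finrank ℤ ↥(LinearMap.ker (σ.toIntLinearMap ^ d - 1)) + 1 =
        Nat.card (MulAction.orbitRel.Quotient (Subgroup.zpowers (s ^ d)) Ω)) :
    σ₁.charpoly * (X - 1) =
      σ₂.charpoly * (LinearMap.funLeft (ZMod p) (ZMod p) s).charpoly := by
  refine herbrand_charpoly_of_fixed p m hm0 σ hσ σ₁ σ₂ ι hι hι' hισ q hq hq' hqσ s hs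
    (fun d => (LinearMap.ker (σ.toIntLinearMap ^ d - 1)).toAddSubgroup) ?_ hrank
  intro d a
  rw [Submodule.mem_toAddSubgroup, LinearMap.mem_ker, LinearMap.sub_apply, Module.End.one_apply,
    sub_eq_zero, Module.End.pow_apply]
  rfl

end Herbrand

end Fermat.Agent.TW.EC
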