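/-
S56 / (EC-G) — helper3.
The Bockstein sequence `0 → perm ℤ --p--> perm ℤ --red--> regSm → 0` with target the regular
object `regSm = toSm (regFun)`, compatible with right translations.
-/
import Fermat.Agent.TW.EC_helper3_Top1

set_option autoImplicit false
set_option linter.style.haveILetI false
set_option linter.unusedSectionVars false

open CategoryTheory CategoryTheory.Limits CategoryTheory.Abelian

namespace Fermat.Agent.TW.EC

open Fermat.Agent.CFT.Sm Fermat.Agent.TW.Ind

variable {Γ : Type} [Group Γ] {𝒰 : OpenBasis Γ} (p : ℕ) [hp : Fact p.Prime]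
  {G : Type} [Group G] [Finite G] (π : Γ →* G) (hπ : 𝒰.IsOpen π.ker)

/-- reduction mod `p` on functions, additively. -/
noncomputable def permRedAdd : (G → ℤ) →+ regFun (ZMod p) G where
  toFun F := regFun.mk' (fun x => ((F x : ℤ) : ZMod p))
  map_zero' := by
    apply regFun_ext
    intro x
    show (((0 : G → ℤ) x : ℤ) : ZMod p) = 0
    rw [Pi.zero_apply, Int.cast_zero]
  map_add' F F' := by
    apply regFun_ext
    intro x
    show (((F + F') x : ℤ) : ZMod p) = ((F x : ℤ) : ZMod p) + ((F' x : ℤ) : ZMod p)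
    rw [Pi.add_apply, Int.cast_add]

/-- reduction mod `p`: `perm ℤ ⟶ regSm`. -/
noncomputable def permRed : perm π ℤ hπ ⟶ regSm p π hπ :=
  ObjectProperty.homMk (Rep.ofHom (ρ := permρ π ℤ) (σ := toRepρ π (regFun (ZMod p) G))
    ⟨(permRedAdd p (G := G)).toIntLinearMap, fun γ => by
      apply LinearMap.ext
      intro F
      apply regFun_ext
      intro x
      show ((F ((π γ)⁻¹ * x) : ℤ) : ZMod p) =
        regFun.toFun' (MonoidAlgebra.of (ZMod p) G (π γ) •
          regFun.mk' (fun x => ((F x : ℤ) : ZMod p))) x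
      rw [regFun_of_smul_apply]
      rfl⟩)

lemma permRed_apply (F : (perm π ℤ hπ).obj.V) (x : G) :
    regFun.toFun' (show regFun (ZMod p) G from (permRed p π hπ).hom.hom F) x =
      ((perm.toFun' F x : ℤ) : ZMod p) := rfl

lemma permRed_zero : (p • 𝟙 (perm π ℤ hπ)) ≫ permRed p π hπ = 0 := by
  apply smRep_hom_ext'
  intro F
  apply regFun_ext
  intro x
  show ((perm.toFun' ((p • 𝟙 (perm π ℤ hπ)).hom.hom F) x : ℤ) : ZMod p) = 0
  rw [smRep_nsmul_hom_apply]
  show (((p • perm.toFun' F x : ℤ)) : ZMod p) = 0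
  rw [nsmul_eq_mul, Int.cast_mul, Int.cast_natCast, ZMod.natCast_self, zero_mul]

lemma permRed_shortExact :
    (ShortComplex.mk (p • 𝟙 (perm π ℤ hπ)) (permRed p π hπ) (permRed_zero p π hπ)).ShortExact := by
  rw [shortExact_iff]
  refine ⟨?_, ?_, ?_⟩
  · intro F F' h
    have h' : p • F = p • F' := by
      have h1 := h
      simp only [smRep_nsmul_hom_apply] at h1
      exact h1
    apply perm_ext (A := ℤ) (hπ := hπ)
    intro x
    have h2 : p • perm.toFun' (hπ := hπ) (A := ℤ) F x = p • perm.toFun' (hπ := hπ) (A := ℤ) F' x :=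
      congrArg (fun t => perm.toFun' (hπ := hπ) (A := ℤ) t x) h'
    have hp0 : (p : ℤ) ≠ 0 := Nat.cast_ne_zero.mpr hp.out.ne_zero
    rw [nsmul_eq_mul, nsmul_eq_mul] at h2
    exact mul_left_cancel₀ hp0 h2
  · intro F hF
    have h1 : ∀ x, ((perm.toFun' (hπ := hπ) (A := ℤ) F x : ℤ) : ZMod p) = 0 := fun x =>
      congrArg (fun t : regFun (ZMod p) G => regFun.toFun' t x) hF
    have h2 : ∀ x, ∃ c : ℤ, perm.toFun' (hπ := hπ) (A := ℤ) F x = p * c := fun x =>
      (ZMod.intCast_zmod_eq_zero_iff_dvd _ p).mp (h1 x)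
    choose c hc using h2
    refine ⟨perm.mk' (hπ := hπ) c, ?_⟩
    show (p • 𝟙 (perm π ℤ hπ)).hom.hom (perm.mk' (hπ := hπ) c) = F
    rw [smRep_nsmul_hom_apply]
    apply perm_ext (A := ℤ) (hπ := hπ)
    intro x
    show p • c x = _
    rw [hc x, nsmul_eq_mul]
  · intro F'
    refine ⟨perm.mk' (hπ := hπ) (fun x =>
      Function.surjInv ZMod.intCast_surjective (regFun.toFun' (show regFun (ZMod p) G from F') x)), ?_⟩
    apply regFun_ext
    intro x
    exact Function.surjInv_eq ZMod.intCast_surjective _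

/-- reduction mod `p` commutes with right translations. -/
lemma permR_permRed (g : G) :
    permR π ℤ hπ g ≫ permRed p π hπ =
      permRed p π hπ ≫ trR π hπ (MonoidAlgebra.of (ZMod p) G g) := by
  apply smRep_hom_ext'
  intro F
  apply regFun_ext
  intro x
  show ((perm.toFun' ((permR π ℤ hπ g).hom.hom F) x : ℤ) : ZMod p) =
    regFun.toFun' (rightTr (ZMod p) G (MonoidAlgebra.of (ZMod p) G g)
      ((permRed p π hπ).hom.hom F)) x
  rw [rightTr_of_apply, permR_apply]
  rfl

end Fermat.Agent.TW.EC
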