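/-
S56 / (EC-G) — helper3.
`Ext⁰(perm ℤ, 𝔐) ≃ 𝔐^{ker π}`, naturally in `𝔐` and equivariantly for right translations
(`permR (π γ)` corresponds to `ρ γ⁻¹`); transport of finiteness of cokernels.
-/
import Fermat.Agent.TW.EC_helper3_Red
import Fermat.Agent.TW.ECC_helper1_Inv

set_option autoImplicit false
set_option linter.style.haveILetI false
set_option linter.unusedSectionVars false

open CategoryTheory CategoryTheory.Limits CategoryTheory.Abelian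

namespace Fermat.Agent.TW.EC

open Fermat.Agent.CFT.Sm Fermat.Agent.TW.Ind Fermat.Agent.TW.ECC

variable {Γ : Type} [Group Γ] {𝒰 : OpenBasis Γ}
  {G : Type} [Group G] [Finite G] (π : Γ →* G) (hπ : 𝒰.IsOpen π.ker)
  (hsurj : Function.Surjective π)

/-- `Ext⁰(perm ℤ, 𝔐) ≃ 𝔐^{ker π}`. -/
noncomputable def extZeroEval (𝔐 : SmRep ℤ 𝒰) : Ext.{0} (perm π ℤ hπ) 𝔐 0 ≃+ invSub 𝔐 π.ker :=
  Ext.addEquiv₀.trans (permEvalEquiv π hπ hsurj 𝔐)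

lemma extZeroEval_mk₀ (𝔐 : SmRep ℤ 𝒰) (f : perm π ℤ hπ ⟶ 𝔐) :
    (extZeroEval π hπ hsurj 𝔐 (Ext.mk₀ f) : 𝔐.obj.V) = f.hom.hom (permDelta π hπ 1) := by
  unfold extZeroEval
  rw [AddEquiv.trans_apply]
  have : (Ext.addEquiv₀ (Ext.mk₀ f) : perm π ℤ hπ ⟶ 𝔐) = f :=
    Ext.addEquiv₀.apply_symm_apply f
  rw [this]
  rfl

/-- naturality in `𝔐`. -/
lemma extZeroEval_comp {𝔐 𝔐' : SmRep ℤ 𝒰} (φ : 𝔐 ⟶ 𝔐') (x : Ext.{0} (perm π ℤ hπ) 𝔐 0) :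
    extZeroEval π hπ hsurj 𝔐' (x.comp (Ext.mk₀ φ) (add_zero 0)) =
      invMap φ π.ker (extZeroEval π hπ hsurj 𝔐 x) := by
  obtain ⟨f, rfl⟩ := (Ext.mk₀_bijective _ _).2 x
  apply Subtype.ext
  rw [Ext.mk₀_comp_mk₀, extZeroEval_mk₀, coe_invMap, extZeroEval_mk₀]
  rfl

/-- equivariance: right translation by `π γ` corresponds to `ρ γ⁻¹`. -/
lemma extZeroEval_preE (𝔐 : SmRep ℤ 𝒰) (γ : Γ) (x : Ext.{0} (perm π ℤ hπ) 𝔐 0) :
    extZeroEval π hπ hsurj 𝔐 (preE (permR π ℤ hπ (π γ)) 𝔐 0 x) =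
      invAct 𝔐 π.ker γ⁻¹ (extZeroEval π hπ hsurj 𝔐 x) := by
  obtain ⟨f, rfl⟩ := (Ext.mk₀_bijective _ _).2 x
  apply Subtype.ext
  rw [preE_apply, Ext.mk₀_comp_mk₀, extZeroEval_mk₀, coe_invAct, extZeroEval_mk₀]
  exact permEval_permR π hπ f γ

/-- transport of finiteness of a cokernel along isomorphisms. -/
lemma finite_coker_of_equiv {A B A' B' : Type*} [AddCommGroup A] [AddCommGroup B]
    [AddCommGroup A'] [AddCommGroup B'] (f : A →+ B) (f' : A' →+ B') (e₁ : A ≃+ A')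
    (e₂ : B ≃+ B') (h : ∀ a, e₂ (f a) = f' (e₁ a)) (hfin : Finite (B' ⧸ f'.range)) :
    Finite (B ⧸ f.range) := by
  have he : f.range.map (e₂ : B →+ B') = f'.range := by
    ext y
    constructor
    · rintro ⟨_, ⟨a, rfl⟩, rfl⟩
      exact ⟨e₁ a, (h a).symm⟩
    · rintro ⟨a', rfl⟩
      refine ⟨f (e₁.symm a'), ⟨_, rfl⟩, ?_⟩
      show e₂ (f (e₁.symm a')) = f' a'
      rw [h, AddEquiv.apply_symm_apply]
  exact Finite.of_equiv _ (QuotientAddGroup.congr f.range f'.range e₂ he).symm.toEquiv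

include hsurj in
/-- finiteness of the cokernel of `Hom(perm ℤ, 𝔐) → Hom(perm ℤ, 𝔐')` from the invariants. -/
lemma finite_coker_postcomp {𝔐 𝔐' : SmRep ℤ 𝒰} (φ : 𝔐 ⟶ 𝔐')
    (hfin : Finite (↥(invSub 𝔐' π.ker) ⧸ (invMap φ π.ker).range)) :
    Finite (Ext.{0} (perm π ℤ hπ) 𝔐' 0 ⧸
      ((Ext.mk₀ φ).postcomp (perm π ℤ hπ) (add_zero 0)).range) :=
  finite_coker_of_equiv _ (invMap φ π.ker) (extZeroEval π hπ hsurj 𝔐)
    (extZeroEval π hπ hsurj 𝔐') (fun a => extZeroEval_comp π hπ hsurj φ a) hfin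

end Fermat.Agent.TW.EC
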