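/-
S56 / (EC-G) — helper3.
The Herbrand identity for `A = Hom(perm ℤ, E) ≅ E^{ker π}` with `σ` = right translation by
`g = π γ`: from the ranks of the invariants `E^{W_d}` (`W_d = π⁻¹⟨g^d⟩`) and a permutation set
`(Ω, s)` with matching orbit counts,
`cpQuot σ · (X − 1) = cpTor σ · charpoly(s | 𝔽_p[Ω])`   (helper5's EC-A).
-/
import Fermat.Agent.TW.EC_helper3_Conc1
import Fermat.Agent.TW.ECA_helper5_Main

set_option autoImplicit false
set_option linter.style.haveILetI false
set_option linter.unusedSectionVars false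

open CategoryTheory CategoryTheory.Limits CategoryTheory.Abelian Polynomial

namespace Fermat.Agent.TW.EC

open Fermat.Agent.CFT.Sm Fermat.Agent.TW.Ind Fermat.Agent.TW.ECC

variable {Γ : Type} [Group Γ] {𝒰 : OpenBasis Γ} (p : ℕ) [hp : Fact p.Prime]
  {G : Type} [Group G] [Finite G] (π : Γ →* G) (hπ : 𝒰.IsOpen π.ker)
  (hsurj : Function.Surjective π)

section Iterate

lemma preE_permR_iterate (𝔐 : SmRep ℤ 𝒰) (g : G) (n d : ℕ) (x : Ext.{0} (perm π ℤ hπ) 𝔐 n) :
    (⇑(preE (permR π ℤ hπ g) 𝔐 n))^[d] x = preE (permR π ℤ hπ (g ^ d)) 𝔐 n x := by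
  induction d with
  | zero => rw [Function.iterate_zero, id, pow_zero, permR_one, preE_id]
  | succ d ih =>
    rw [Function.iterate_succ_apply', ih, pow_succ, permR_mul, preE_comp_endo]

end Iterate

section Herbrand

variable (E : SmRep ℤ 𝒰) (γ : Γ)

/-- the open subgroup `W_d = π⁻¹⟨(π γ)^d⟩`. -/
def wSub (d : ℕ) : Subgroup Γ := (Subgroup.zpowers ((π γ) ^ d)).comap π

lemma ker_le_wSub (d : ℕ) : π.ker ≤ wSub π γ d := by
  intro u hu
  show π u ∈ Subgroup.zpowers ((π γ) ^ d)
  rw [MonoidHom.mem_ker.mp hu]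
  exact one_mem _

lemma pow_mem_wSub (d : ℕ) : γ ^ d ∈ wSub π γ d := by
  show π (γ ^ d) ∈ Subgroup.zpowers ((π γ) ^ d)
  rw [map_pow]
  exact Subgroup.mem_zpowers _

/-- a vector fixed by `ker π` and by `γ^d` is fixed by `W_d`. -/
lemma mem_invSub_wSub_iff (d : ℕ) (x : E.obj.V) (hx : x ∈ invSub E π.ker) :
    x ∈ invSub E (wSub π γ d) ↔ E.obj.ρ (γ ^ d) x = x := by
  constructor
  · intro h
    exact h _ (pow_mem_wSub π γ d)
  · intro h w hw
    let St : Subgroup Γ :=
      { carrier := {w | E.obj.ρ w x = x}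
        mul_mem' := fun {a b} ha hb => by
          show E.obj.ρ (a * b) x = x
          rw [rho_mul_apply, hb, ha]
        one_mem' := rho_one_apply E x
        inv_mem' := fun {a} ha => by
          show E.obj.ρ a⁻¹ x = x
          have ha' : E.obj.ρ a x = x := ha
          conv_lhs => rw [← ha']
          rw [← rho_mul_apply, inv_mul_cancel, rho_one_apply] }
    obtain ⟨n, hn⟩ := Subgroup.mem_zpowers_iff.mp hw
    have h1 : w * ((γ ^ d) ^ n)⁻¹ ∈ π.ker := by
      rw [MonoidHom.mem_ker, map_mul, map_inv, map_zpow, map_pow, hn, mul_inv_cancel]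
    have h2 : w = (w * ((γ ^ d) ^ n)⁻¹) * (γ ^ d) ^ n := by group
    have h3 : w ∈ St := by
      rw [h2]
      exact St.mul_mem (hx _ h1) (St.zpow_mem h n)
    exact h3

include hsurj in
/-- **the Herbrand identity for `Hom(perm ℤ, E)`.** -/
theorem herbrand_perm (m : ℕ) (hm0 : 0 < m) (hm : (π γ) ^ m = 1)
    (hfin : Module.Finite ℤ ↥(invSub E π.ker))
    (hT : Finite (torP p (Ext.{0} (perm π ℤ hπ) E 0)))
    (hQ : Finite (quotP p (Ext.{0} (perm π ℤ hπ) E 0)))
    {Ω : Type} [Fintype Ω] [DecidableEq Ω] (s : Equiv.Perm Ω) (hs : s ^ m = 1)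
    (hrank : ∀ d, d ∣ m → Module.finrank ℤ ↥(invSub E (wSub π γ d)) + 1 =
      Nat.card (MulAction.orbitRel.Quotient (Subgroup.zpowers (s ^ d)) Ω)) :
    cpQuot p (preE (permR π ℤ hπ (π γ)) E 0) * (X - 1) =
      cpTor p (preE (permR π ℤ hπ (π γ)) E 0) *
        (LinearMap.funLeft (ZMod p) (ZMod p) s).charpoly := by
  set A := Ext.{0} (perm π ℤ hπ) E 0 with hA
  set σ : A →+ A := preE (permR π ℤ hπ (π γ)) E 0 with hσdef
  let ev : A ≃+ ↥(invSub E π.ker) := extZeroEval π hπ hsurj E
  haveI : Module.Finite ℤ A := Module.Finite.equiv ev.symm.toIntLinearEquiv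
  have hiter : ∀ d a, (⇑σ)^[d] a = preE (permR π ℤ hπ ((π γ) ^ d)) E 0 a :=
    fun d a => preE_permR_iterate π hπ E (π γ) 0 d a
  have hσ : (⇑σ)^[m] = id := by
    funext a
    rw [hiter, hm, permR_one, preE_id]
    rfl
  have hev : ∀ d a, (ev ((⇑σ)^[d] a) : E.obj.V) = E.obj.ρ (γ ^ d)⁻¹ (ev a : E.obj.V) := by
    intro d a
    rw [hiter, ← map_pow]
    have := extZeroEval_preE π hπ hsurj E (γ ^ d) a
    exact congrArg Subtype.val this
  let K : ℕ → AddSubgroup A := fun d =>
    { carrier := {a | (ev a : E.obj.V) ∈ invSub E (wSub π γ d)}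
      zero_mem' := by
        show ((ev 0 : ↥(invSub E π.ker)) : E.obj.V) ∈ invSub E (wSub π γ d)
        rw [map_zero]
        exact (invSub E (wSub π γ d)).zero_mem
      add_mem' := fun {a b} ha hb => by
        show ((ev (a + b) : ↥(invSub E π.ker)) : E.obj.V) ∈ invSub E (wSub π γ d)
        rw [map_add]
        exact (invSub E (wSub π γ d)).add_mem ha hb
      neg_mem' := fun {a} ha => by
        show ((ev (-a) : ↥(invSub E π.ker)) : E.obj.V) ∈ invSub E (wSub π γ d)
        rw [map_neg]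
        exact (invSub E (wSub π γ d)).neg_mem ha }
  have hK : ∀ d a, a ∈ K d ↔ (⇑σ)^[d] a = a := by
    intro d a
    show (ev a : E.obj.V) ∈ invSub E (wSub π γ d) ↔ _
    rw [mem_invSub_wSub_iff π E γ d _ (ev a).2]
    constructor
    · intro h
      apply ev.injective
      apply Subtype.ext
      rw [hev]
      conv_lhs => rw [← h]
      rw [← rho_mul_apply, inv_mul_cancel, rho_one_apply]
    · intro h
      have h1 := hev d a
      rw [h] at h1
      conv_lhs => rw [h1]
      rw [← rho_mul_apply, mul_inv_cancel, rho_one_apply]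
  have hKrank : ∀ d, Module.finrank ℤ ↥(K d) = Module.finrank ℤ ↥(invSub E (wSub π γ d)) := by
    intro d
    let φ : ↥(K d) ≃+ ↥(invSub E (wSub π γ d)) :=
      { toFun := fun a => ⟨(ev a.1 : E.obj.V), a.2⟩
        invFun := fun x => ⟨ev.symm ⟨x.1, invSub_mono E (ker_le_wSub π γ d) x.2⟩, by
          show ((ev (ev.symm _) : ↥(invSub E π.ker)) : E.obj.V) ∈ invSub E (wSub π γ d)
          rw [AddEquiv.apply_symm_apply]
          exact x.2⟩
        left_inv := fun a => by
          apply Subtype.ext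
          show ev.symm ⟨(ev a.1 : E.obj.V), _⟩ = a.1
          have : (⟨(ev a.1 : E.obj.V), invSub_mono E (ker_le_wSub π γ d) a.2⟩ :
              ↥(invSub E π.ker)) = ev a.1 := Subtype.ext rfl
          rw [this, AddEquiv.symm_apply_apply]
        right_inv := fun x => by
          apply Subtype.ext
          show ((ev (ev.symm _) : ↥(invSub E π.ker)) : E.obj.V) = x.1
          rw [AddEquiv.apply_symm_apply]
        map_add' := fun a b => by
          apply Subtype.ext
          show ((ev (a.1 + b.1) : ↥(invSub E π.ker)) : E.obj.V) = _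
          rw [map_add]
          rfl }
    exact LinearEquiv.finrank_eq φ.toIntLinearEquiv
  have key := herbrand_charpoly_of_fixed p m hm0 σ hσ (quotMap p σ) (torMap p σ)
    (torP p A).subtype Subtype.val_injective
    (fun a => by
      constructor
      · intro ha
        exact ⟨⟨a, (mem_torP p a).mpr ha⟩, rfl⟩
      · rintro ⟨x, rfl⟩
        exact (mem_torP p _).mp x.2)
    (fun v => rfl)
    (quotPmk p) (quotPmk_surjective p)
    (fun a => by
      rw [quotPmk_eq_zero_iff]
      constructor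
      · rintro ⟨b, hb⟩
        exact ⟨b, hb.symm⟩
      · rintro ⟨b, hb⟩
        exact ⟨b, hb.symm⟩)
    (fun a => rfl) s hs K hK
    (fun d hd => by rw [hKrank, hrank d hd])
  rw [cpQuot_eq, cpTor_eq]
  exact key

end Herbrand

end Fermat.Agent.TW.EC
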