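/-
S56 / (EC-G) — helper3.
The Herbrand input of the CORE for `E_S`:
`cpQuot(g | Hom(perm ℤ, E_S)) · (X − 1) = cpz(g | Hom(regSm, E_S)) · Q · R`,
from helper5's Herbrand charpoly theorem (EC-A, EC-D1) and helper2's `S`-unit ranks (EC-B).
-/
import Fermat.Agent.TW.EC_helper3_Herb
import Fermat.Agent.TW.EC_helper3_Bock
import Fermat.Agent.TW.ECD1_helper5_Main
import Fermat.Agent.TW.ECB_helper2_Final
import Fermat.Agent.TW.EC_helper3_Red
import Fermat.Agent.TW.EC_helper3_CoreC1
import Fermat.Agent.TW.FinExt_helper4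

set_option autoImplicit false
set_option linter.style.haveILetI false
set_option linter.unusedSectionVars false

open CategoryTheory CategoryTheory.Limits CategoryTheory.Abelian Polynomial ExtCitation

namespace Fermat.Agent.TW.EC

open Fermat.Agent.CFT.Sm Fermat.Agent.CFT.Bridge Fermat.Agent.CFT.Arith Fermat.Agent.CFT
  Fermat.Agent.TW.Ind Fermat.Agent.TW.ECC

local notation "GQ" => (AlgebraicClosure ℚ ≃ₐ[ℚ] AlgebraicClosure ℚ)

variable {p : ℕ} [hp : Fact p.Prime] (S : Finset Nat.Primes)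
  {G : Type} [Group G] [Finite G] (π : GQ →* G) (hπ : (levelBasis S).IsOpen π.ker)
  (hsurj : Function.Surjective π)

/-- the images in `G` of the decomposition groups at the places of `S ∪ {∞}`. -/
noncomputable def locImg : Option ↥S → Subgroup G
  | none => Subgroup.zpowers (π complexConjugation)
  | some v => (π.comp (locHom S v)).range

include hπ in
lemma isOpen_wSub (γ : GQ) (d : ℕ) : (levelBasis S).IsOpen (wSub π γ d) := by
  obtain ⟨U, hU, hle⟩ := hπ
  exact ⟨U, hU, hle.trans (ker_le_wSub π γ d)⟩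

include hπ hsurj in
/-- the rank count in terms of orbits on `⊔_i H_i\G`. -/
theorem finrank_wSub_eq_card_orbits (γ : GQ) (d : ℕ) :
    Module.finrank ℤ ↥(invSub (ESSm S) (wSub π γ d)) + 1 =
      Nat.card (MulAction.orbitRel.Quotient
        (Subgroup.zpowers (cosetSigmaPerm (locImg S π) (π γ) ^ d)) (cosetSigma (locImg S π))) := by
  rw [(finrank_invSub_ESSm S (wSub π γ d) (isOpen_wSub S π hπ γ d)).2,
    card_orbits_cosetSigmaPerm, Fintype.sum_option]
  have hW : (wSub π γ d).map π = Subgroup.zpowers ((π γ) ^ d) :=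
    Subgroup.map_comap_eq_self_of_surjective hsurj _
  have hA : ∑ v : ↥S, Nat.card (DoubleCoset.Quotient (Set.range (locHom S v))
      (wSub π γ d : Set GQ)) =
      ∑ v : ↥S, Nat.card (DoubleCoset.Quotient (locImg S π (some v) : Set G)
        (Subgroup.zpowers ((π γ) ^ d) : Set G)) := by
    refine Finset.sum_congr rfl fun v _ => ?_
    have h1 := card_doubleCoset_map π hsurj (locHom S v).range (wSub π γ d) (ker_le_wSub π γ d)
    rw [hW, ← MonoidHom.range_comp] at h1
    exact h1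
  have hB : Nat.card (DoubleCoset.Quotient (Subgroup.zpowers complexConjugation : Set GQ)
      (wSub π γ d : Set GQ)) =
      Nat.card (DoubleCoset.Quotient (locImg S π none : Set G)
        (Subgroup.zpowers ((π γ) ^ d) : Set G)) := by
    have h1 := card_doubleCoset_map π hsurj (Subgroup.zpowers complexConjugation) (wSub π γ d)
      (ker_le_wSub π γ d)
    rw [hW, MonoidHom.map_zpowers] at h1
    exact h1
  rw [hA, hB, add_comm]

section BockFin

universe w v u

variable {𝒞 : Type u} [Category.{v} 𝒞] [Abelian 𝒞] [HasExt.{w} 𝒞]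

variable (p : ℕ) [hp : Fact p.Prime] {Pz P : 𝒞} (f : Pz ⟶ Pz) (g : Pz ⟶ P) (zero : f ≫ g = 0)
  (hf : f = p • 𝟙 Pz) (hS : (ShortComplex.mk f g zero).ShortExact) (Y : 𝒞)

include hf hS in
/-- `Hom(Pz, Y)/p` embeds into `Ext¹(P, Y)`. -/
theorem bock_quot_finite [Finite (Ext P Y 1)] : Finite (quotP p (Ext Pz Y 0)) := by
  let q : Ext Pz Y 0 →+ Ext P Y 1 := clesD Y hS 0
  have hq : ∀ a ∈ mulP p (Ext Pz Y 0), q a = 0 := by
    rintro _ ⟨b, rfl⟩
    have : (nsmulAddMonoidHom p : Ext Pz Y 0 →+ _) b = p • b := rfl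
    rw [this, ← clesB_bock p f g zero hf Y 0 b]
    have h2 : clesB Y (S := ShortComplex.mk f g zero) 0 b ∈
        (clesB Y (S := ShortComplex.mk f g zero) 0).range := ⟨b, rfl⟩
    rw [clesB_range Y hS 0] at h2
    exact h2
  let q' : quotP p (Ext Pz Y 0) →+ Ext P Y 1 :=
    QuotientAddGroup.lift (mulP p (Ext Pz Y 0)) q hq
  have hq'inj : Function.Injective q' := by
    rw [injective_iff_map_eq_zero]
    intro x hx
    obtain ⟨a, rfl⟩ := quotPmk_surjective p x
    have h1 : q a = 0 := hx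
    have h2 : a ∈ (clesD Y hS 0).ker := h1
    rw [← clesB_range Y hS 0] at h2
    obtain ⟨b, hb⟩ := h2
    rw [quotPmk_eq_zero_iff]
    exact ⟨b, by rw [← hb, clesB_bock p f g zero hf Y 0]⟩
  exact Finite.of_injective q' hq'inj

end BockFin

section HerbrandE

variable (hp2 : p ≠ 2) (hpS : pPrime p ∈ S)

include hp2 hpS hsurj in
/-- **the Herbrand input of the CORE for `E_S`.** -/
theorem herbrand_ESSm (g : G) :
    cpQuot p (preE (permR π ℤ hπ g) (ESSm S) 0) * (X - 1) =
      cpz p (preE (trR π hπ (MonoidAlgebra.of (ZMod p) G g)) (ESSm S) 0) *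
        (∏ v : ↥S, (invFunTr (ZMod p) (π.comp (locHom S v)).range g).charpoly) *
        (invFunTr (ZMod p) (Subgroup.zpowers (π complexConjugation)) g).charpoly := by
  classical
  obtain ⟨γ, rfl⟩ := hsurj g
  haveI : Fintype (cosetSigma (locImg S π)) := Fintype.ofFinite _
  have hPt := regSm_torsion' (p := p) π hπ
  haveI h0 : Finite (Ext.{0} (regSm p π hπ) (ESSm S) 0) :=
    finite_ext_ESSm hp2 S hpS (regSm p π hπ) hPt 0 (by omega)
  haveI h1 : Finite (Ext.{0} (regSm p π hπ) (ESSm S) 1) :=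
    finite_ext_ESSm hp2 S hpS (regSm p π hπ) hPt 1 (by omega)
  obtain ⟨hT, eT⟩ := bock_tor p (p • 𝟙 (perm π ℤ hπ)) (permRed p π hπ) (permRed_zero p π hπ) rfl
    (permRed_shortExact p π hπ) (permR π ℤ hπ (π γ))
    (trR π hπ (MonoidAlgebra.of (ZMod p) G (π γ))) (permR_permRed p π hπ (π γ)) (ESSm S)
  have hQ : Finite (quotP p (Ext.{0} (perm π ℤ hπ) (ESSm S) 0)) :=
    bock_quot_finite p (p • 𝟙 (perm π ℤ hπ)) (permRed p π hπ) (permRed_zero p π hπ) rfl
      (permRed_shortExact p π hπ) (ESSm S)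
  have key := herbrand_perm p π hπ hsurj (ESSm S) γ (orderOf (π γ)) (orderOf_pos (π γ))
    (pow_orderOf_eq_one (π γ)) (finrank_invSub_ESSm S π.ker hπ).1 hT hQ
    (cosetSigmaPerm (locImg S π) (π γ))
    (cosetSigmaPerm_pow_eq_one (locImg S π) (π γ) _ (pow_orderOf_eq_one (π γ)))
    (fun d _ => finrank_wSub_eq_card_orbits S π hπ hsurj γ d)
  rw [key, eT, charpoly_funLeft_cosetSigmaPerm (ZMod p) (locImg S π) (π γ), Fintype.prod_option]
  show _ * ((invFunTr (ZMod p) (Subgroup.zpowers (π complexConjugation)) (π γ)).charpoly *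
    ∏ v : ↥S, (invFunTr (ZMod p) (π.comp (locHom S v)).range (π γ)).charpoly) = _
  ring

end HerbrandE

end Fermat.Agent.TW.EC
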