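/-
S56 / (EC-G) — helper3.
The concrete CORE for `E_S`: with `P = regSm`, `r` = right translation by `g`,
`cpz(r^* | Hom(P, E_S)) · cpz(r^* | Ext²(P, E_S)) · charpoly(g | functions on ⟨c⟩\G)
  = cpz(r^* | Ext¹(P, E_S))`.
-/
import Fermat.Agent.TW.EC_helper3_CoreAbs
import Fermat.Agent.TW.EC_helper3_CoreC2
import Fermat.Agent.TW.EC_helper3_Conc2
import Fermat.Agent.TW.ECC_helper1_Inv
import Fermat.Agent.TW.ECH_helper9

set_option autoImplicit false
set_option linter.style.haveILetI false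
set_option linter.unusedSectionVars false

open CategoryTheory CategoryTheory.Limits CategoryTheory.Abelian Polynomial ExtCitation

namespace Fermat.Agent.TW.EC

open Fermat.Agent.CFT.Sm Fermat.Agent.CFT.Bridge Fermat.Agent.CFT.Arith Fermat.Agent.CFT
  Fermat.Agent.TW.Ind Fermat.Agent.TW.ECC

local notation "GQ" => (AlgebraicClosure ℚ ≃ₐ[ℚ] AlgebraicClosure ℚ)

variable {p : ℕ} [hp : Fact p.Prime] (hp2 : p ≠ 2) (S : Finset Nat.Primes) (hpS : pPrime p ∈ S)
  {G : Type} [Group G] [Finite G] (π : GQ →* G) (hπ : (levelBasis S).IsOpen π.ker)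
  (hsurj : Function.Surjective π)

include hp2 hpS hsurj in
/-- **the concrete CORE for `E_S`.** -/
theorem core_ESSm (g : G) :
    cpz p (preE (trR π hπ (MonoidAlgebra.of (ZMod p) G g)) (ESSm S) 0) *
        cpz p (preE (trR π hπ (MonoidAlgebra.of (ZMod p) G g)) (ESSm S) 2) *
        (invFunTr (ZMod p) (Subgroup.zpowers (π complexConjugation)) g).charpoly =
      cpz p (preE (trR π hπ (MonoidAlgebra.of (ZMod p) G g)) (ESSm S) 1) := by
  set D := twDatum hp2 S hpS with hD
  have hPt := regSm_torsion' (p := p) π hπ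
  exact core_abstract (E := ESSm S) (J := JSSm S) (C := DSm S) (diagESSm S) (piSm S) p
    D.i_inj D.comp_zero D.exact D.coker_div D.coker_tor
    (p • 𝟙 (perm π ℤ hπ)) (permRed p π hπ) (permRed_zero p π hπ) rfl
    (permRed_shortExact p π hπ) (permR π ℤ hπ g)
    (trR π hπ (MonoidAlgebra.of (ZMod p) G g)) (permR_permRed p π hπ g)
    (fun n hn => finite_ext_ESSm hp2 S hpS (regSm p π hπ) hPt n hn)
    (fun n hn => finite_ext_JSSm hp2 S hpS (regSm p π hπ) hPt n hn)
    (fun n hn => finite_ext_DSm hp2 S hpS (regSm p π hπ) hPt n hn)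
    (twDatum_ext_E_three_eq_zero hp2 S hpS (regSm p π hπ) hPt)
    (fun x _ => ext_perm_JSSm_one_eq_zero hp2 S hpS π hπ x)
    (ext_perm_one_torsionFree π hπ D.form hsurj)
    (finite_coker_postcomp π hπ hsurj (piSm S) (finite_coker_invMap_piSm ⟨_, hpS⟩ π.ker hπ))
    (∏ v : ↥S, (invFunTr (ZMod p) (π.comp (locHom S v)).range g).charpoly)
    (invFunTr (ZMod p) (Subgroup.zpowers (π complexConjugation)) g).charpoly
    (cpz_T2C_twDatum hp2 S hpS π hπ hsurj g) (cpz_T2J_twDatum hp2 S hpS π hπ g)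
    (herbrand_ESSm S π hπ hsurj hp2 hpS g)

end Fermat.Agent.TW.EC
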