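/-
S56 / (EC-G) — helper3.
**The global Euler characteristic formula with coefficients in the `S`-units**: for `p` odd,
`p ∈ S` and `Z` a finite smooth `G_{ℚ,S}`-module killed by `p`,
`#Ext¹(Z, E_S) = #Hom(Z, E_S) · #Ext²(Z, E_S) · #Z^{c}`.
-/
import Fermat.Agent.TW.EC_helper3_CoreC3
import Fermat.Agent.TW.EC_helper3_Top4
import Fermat.Agent.TW.ECEngine_helper3_General
import Fermat.Agent.TW.ECR_helper1_Main
import Fermat.Agent.TW.ECT_helper4

set_option autoImplicit false
set_option linter.style.haveILetI false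
set_option linter.unusedSectionVars false

open CategoryTheory CategoryTheory.Limits CategoryTheory.Abelian Polynomial ExtCitation

namespace Fermat.Agent.TW.EC

open Fermat.Agent.CFT.Sm Fermat.Agent.CFT.Bridge Fermat.Agent.CFT.Arith Fermat.Agent.CFT
  Fermat.Agent.TW.Ind Fermat.Agent.TW.ECC

local notation "GQ" => (AlgebraicClosure ℚ ≃ₐ[ℚ] AlgebraicClosure ℚ)

variable {p : ℕ} [hp : Fact p.Prime] (hp2 : p ≠ 2) (S : Finset Nat.Primes) (hpS : pPrime p ∈ S)

include hp2 hpS in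
/-- `Z ↦ χ(Z, E_S)` is an expected Euler characteristic. -/
theorem isExpected_ecm_ESSm :
    IsExpected (levelBasis S) p (fun Z : SmRep ℤ (levelBasis S) => ecm Z (ESSm S)) where
  iso X Y _ := fun ⟨e⟩ => ecm_congr_left (ESSm S) e
  mul T hT hT2 := by
    obtain ⟨hinj, -, hsurj⟩ := (shortExact_iff T).1 hT
    haveI := hT2.1
    haveI : Finite T.X₁.obj.V := Finite.of_injective _ hinj
    haveI : Finite T.X₃.obj.V := Finite.of_surjective _ hsurj
    have h1 : ∀ x : T.X₁.obj.V, p • x = 0 := fun x => hinj (by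
      rw [map_nsmul, hT2.2, map_zero])
    have h3 : ∀ x : T.X₃.obj.V, p • x = 0 := fun x => by
      obtain ⟨y, rfl⟩ := hsurj x
      rw [← map_nsmul, hT2.2, map_zero]
    exact ecm_mul_of_shortExact_left (ESSm S) hT (finite_ext_ESSm hp2 S hpS T.X₁ h1)
      (finite_ext_ESSm hp2 S hpS T.X₂ hT2.2) (finite_ext_ESSm hp2 S hpS T.X₃ h3)
      (twDatum_ext_E_three_eq_zero hp2 S hpS T.X₃ h3)
  ne_zero X hX := by
    haveI := hX.1
    exact ecm_ne_zero X (finite_ext_ESSm hp2 S hpS X hX.2)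

include hp2 hpS in
/-- the Euler characteristic of `E_S` is the archimedean term. -/
theorem ecm_ESSm_eq (Z : SmRep ℤ (levelBasis S)) [Finite Z.obj.V] (hZ : ∀ z : Z.obj.V, p • z = 0) :
    ecm Z (ESSm S) =
      (Nat.card {z : Z.obj.V // Z.obj.ρ complexConjugation z = z} : ℚ≥0)⁻¹ := by
  have hε := isExpected_ecm_ESSm hp2 S hpS
  have hτ := isExpected_tauFixed (𝒰 := levelBasis S) p hp2 complexConjugation
    complexConjugation_mul_self
  refine expected_eq_of_cyclic hε hτ ⊤ (levelBasis S).isOpen_top ?_ Z ⟨inferInstance, hZ⟩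
  intro U hU _ _ _ hπ M
  refine expected_toSm_eq_of_invariant (QuotientGroup.mk' U) hπ hε hτ ?_ M
  intro χ hχ hχdef B hBcyc hpB M'
  haveI : CharP (ZMod p) p := ZMod.charP p
  refine isMulInv_funMod_quotient_eq_one_of_not_dvd p hχ B hpB ?_ M'
  intro e he
  have hsurj : Function.Surjective (QuotientGroup.mk' U) := QuotientGroup.mk'_surjective U
  have hBcomm : ∀ b b' : B, b * b' = b' * b := fun b b' => by
    letI := IsCyclic.commGroup (α := B)
    exact mul_comm b b'
  have hfin : ∀ n, n ≤ 2 → Finite (Ext.{0} (regSm p (QuotientGroup.mk' U) hπ) (ESSm S) n) :=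
    fun n hn => finite_ext_ESSm hp2 S hpS _ (regSm_torsion' (p := p) (QuotientGroup.mk' U) hπ) n hn
  have hcore : ∀ b : B,
      cpz p (preE (trR (QuotientGroup.mk' U) hπ (MonoidAlgebra.of (ZMod p) _ (b : _))) (ESSm S) 0) *
        cpz p (preE (trR (QuotientGroup.mk' U) hπ (MonoidAlgebra.of (ZMod p) _ (b : _))) (ESSm S) 2) *
        cp (MonoidAlgebra.of (ZMod p) B b)
          (Tc p ((QuotientGroup.mk' U) complexConjugation) B) =
      cpz p (preE (trR (QuotientGroup.mk' U) hπ (MonoidAlgebra.of (ZMod p) _ (b : _)))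
        (ESSm S) 1) := fun b => by
    rw [cp_Tc]
    exact core_ESSm hp2 S hpS (QuotientGroup.mk' U) hπ hsurj (b : _)
  have key := ecm_pe_eq (QuotientGroup.mk' U) hπ (ESSm S) B hBcomm complexConjugation hfin
    hcore e he
  rw [hχdef]
  unfold quotInv₂
  show ecm _ (ESSm S) / _ = 1
  rw [key]
  exact div_self (hτ.ne_zero _ (isFinTor_toSm _ hπ _))

include hp2 hpS in
/-- **(EC) the global Euler characteristic formula for `E_S`.** -/
theorem ec_global (Z : SmRep ℤ (levelBasis S)) [Finite Z.obj.V] (hZ : ∀ z : Z.obj.V, p • z = 0) :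
    Nat.card (Ext Z (ESSm S) 1) =
      Nat.card (Ext Z (ESSm S) 0) * Nat.card (Ext Z (ESSm S) 2) *
        Nat.card {z : Z.obj.V // Z.obj.ρ complexConjugation z = z} := by
  have h := ecm_ESSm_eq hp2 S hpS Z hZ
  haveI := finite_ext_ESSm hp2 S hpS Z hZ 0 (by omega)
  haveI := finite_ext_ESSm hp2 S hpS Z hZ 1 (by omega)
  haveI := finite_ext_ESSm hp2 S hpS Z hZ 2 (by omega)
  haveI : Nonempty {z : Z.obj.V // Z.obj.ρ complexConjugation z = z} := ⟨⟨0, map_zero _⟩⟩
  have h1 : (Nat.card (Ext Z (ESSm S) 1) : ℚ≥0) ≠ 0 := by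
    exact_mod_cast (Nat.card_pos (α := Ext Z (ESSm S) 1)).ne'
  have hc : (Nat.card {z : Z.obj.V // Z.obj.ρ complexConjugation z = z} : ℚ≥0) ≠ 0 := by
    exact_mod_cast (Nat.card_pos (α := {z : Z.obj.V // Z.obj.ρ complexConjugation z = z})).ne'
  unfold ecm at h
  rw [div_eq_iff h1, eq_comm, inv_mul_eq_iff_eq_mul₀ hc] at h
  have h' : (Nat.card (Ext Z (ESSm S) 1) : ℚ≥0) =
      ((Nat.card (Ext Z (ESSm S) 0) * Nat.card (Ext Z (ESSm S) 2) *
        Nat.card {z : Z.obj.V // Z.obj.ρ complexConjugation z = z} : ℕ) : ℚ≥0) := by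
    rw [h]
    push_cast
    ring
  exact_mod_cast h'

end Fermat.Agent.TW.EC
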