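/-
F2 (flat local condition at p), Part A.1: abstract `p`-filtered commutative rings.

A `PFilt p B` is a decreasing family of ideals `F s` (`s : ℝ`) of a commutative ring `B`,
multiplicative, with `p ∈ F 1`, `F (s+1) = p • F s`, `B` `p`-torsion free and separated.
Examples: `𝓞_E` (`E ⊆ ℚ̄_p`) with `F s = {‖x‖ ≤ p^(-s)}`, and convolution rings
`Hom(C, 𝓞_E)` with the pointwise filtration.

Results (for `t > 1/(p-1)`):
* `PFilt.eq_zero_of_one_add_pow_eq_one` (rigidity): `x ∈ F t`, `(1+x)^p = 1` ⇒ `x = 0`;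
* `PFilt.eq_of_pow_eq_one` : `a^p = 1 = b^p`, `a - b ∈ F t` ⇒ `a = b`;
* `PFilt.exists_pow_mul_eq_one` (Newton): if complete and `a - 1 ∈ F (1+t)` then
  there is `y ≡ 1 mod F t` with `y^p * a = 1`.
-/
import Mathlib

set_option autoImplicit false

namespace Fermat.Agent.TW.Flat

open Finset

/-- `(1+b)^p = 1 + p b + p b² c + b^p` for a prime `p`. -/
theorem one_add_pow_prime_expand {B : Type*} [CommRing B] {p : ℕ} (hp : p.Prime) (b : B) :
    ∃ c : B, (1 + b) ^ p = 1 + p * b + p * b ^ 2 * c + b ^ p := by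
  obtain ⟨q, rfl⟩ : ∃ q, p = q + 2 := ⟨p - 2, by have := hp.two_le; omega⟩
  refine ⟨∑ i ∈ range q, b ^ i * (((q + 2).choose (i + 2) / (q + 2) : ℕ) : B), ?_⟩
  rw [add_comm 1 b, add_pow]
  simp only [one_pow, mul_one]
  rw [sum_range_succ, sum_range_succ', sum_range_succ']
  have hsum : ∑ i ∈ range q, b ^ (i + 1 + 1) * (((q + 2).choose (i + 1 + 1) : ℕ) : B) =
      ((q + 2 : ℕ) : B) * b ^ 2 *
        ∑ i ∈ range q, b ^ i * (((q + 2).choose (i + 2) / (q + 2) : ℕ) : B) := by
    rw [mul_sum]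
    refine sum_congr rfl fun i hi => ?_
    have hi' : i < q := mem_range.mp hi
    have hdvd : (q + 2) ∣ (q + 2).choose (i + 2) :=
      hp.dvd_choose_self (by omega) (by omega)
    obtain ⟨k, hk⟩ := hdvd
    have hk' : (q + 2).choose (i + 2) / (q + 2) = k := by
      rw [hk]; exact Nat.mul_div_cancel_left k (by omega)
    rw [hk', show i + 1 + 1 = i + 2 from rfl, hk]
    push_cast
    ring
  rw [hsum]
  simp only [Nat.choose_self, Nat.cast_one, mul_one, Nat.choose_zero_right, pow_zero,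
    zero_add, Nat.choose_one_right, pow_one]
  ring

/-- A `p`-filtration on a commutative ring. -/
structure PFilt (p : ℕ) (B : Type*) [CommRing B] where
  /-- the filtration -/
  F : ℝ → Ideal B
  anti : ∀ {s s' : ℝ}, s ≤ s' → F s' ≤ F s
  nonpos : ∀ {s : ℝ}, s ≤ 0 → F s = ⊤
  mul_mem : ∀ {s s' : ℝ} {x y : B}, 0 ≤ s → 0 ≤ s' → x ∈ F s → y ∈ F s' → x * y ∈ F (s + s')
  p_mem : (p : B) ∈ F 1
  div_p : ∀ {s : ℝ} {x : B}, 0 ≤ s → x ∈ F (s + 1) → ∃ y ∈ F s, x = p * y
  p_tf : ∀ x : B, (p : B) * x = 0 → x = 0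
  sep : ∀ x : B, (∀ n : ℕ, x ∈ F n) → x = 0

namespace PFilt

variable {p : ℕ} {B : Type*} [CommRing B] (Φ : PFilt p B)

/-- completeness with respect to linearly converging sequences -/
def IsComplete : Prop :=
  ∀ (a : ℕ → B) (c δ : ℝ), 0 < δ → (∀ n : ℕ, a (n + 1) - a n ∈ Φ.F (c + n * δ)) →
    ∃ l : B, ∀ n : ℕ, l - a n ∈ Φ.F (c + n * δ)

lemma mem_of_le {s s' : ℝ} {x : B} (h : s ≤ s') (hx : x ∈ Φ.F s') : x ∈ Φ.F s := Φ.anti h hx

lemma pow_mem {s : ℝ} {x : B} (hs : 0 ≤ s) (hx : x ∈ Φ.F s) (n : ℕ) : x ^ n ∈ Φ.F (n * s) := by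
  induction n with
  | zero => rw [Φ.nonpos (by simp)]; trivial
  | succ n ih =>
    rw [pow_succ]
    have := Φ.mul_mem (by positivity) hs ih hx
    refine Φ.mem_of_le (le_of_eq ?_) this
    push_cast; ring

lemma p_mul_mem {s : ℝ} {x : B} (hs : 0 ≤ s) (hx : x ∈ Φ.F s) : (p : B) * x ∈ Φ.F (1 + s) :=
  Φ.mul_mem zero_le_one hs Φ.p_mem hx

lemma mem_of_p_mul_mem {s : ℝ} {y : B} (hs : 0 ≤ s) (hy : (p : B) * y ∈ Φ.F (s + 1)) :
    y ∈ Φ.F s := by
  obtain ⟨y', hy', h⟩ := Φ.div_p hs hy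
  have : (p : B) * (y - y') = 0 := by rw [mul_sub, h, sub_self]
  have := Φ.p_tf _ this
  rwa [sub_eq_zero.mp this]

lemma sep' {c δ : ℝ} (hδ : 0 < δ) {x : B} (h : ∀ n : ℕ, x ∈ Φ.F (c + n * δ)) : x = 0 := by
  refine Φ.sep x fun N => ?_
  obtain ⟨n, hn⟩ := exists_nat_ge (((N : ℝ) - c) / δ)
  refine Φ.mem_of_le ?_ (h n)
  have := (div_le_iff₀ hδ).mp hn
  linarith

/-- **Rigidity.** -/
theorem eq_zero_of_one_add_pow_eq_one (hp : p.Prime) {t : ℝ} (ht : 1 < ((p : ℝ) - 1) * t)
    {x : B} (hx : x ∈ Φ.F t) (h1 : (1 + x) ^ p = 1) : x = 0 := by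
  have hp1 : (1 : ℝ) ≤ (p : ℝ) - 1 := by
    have : (2 : ℝ) ≤ p := by exact_mod_cast hp.two_le
    linarith
  have ht0 : 0 < t := by
    by_contra h
    have h := not_lt.mp h
    nlinarith
  set δ : ℝ := min t (((p : ℝ) - 1) * t - 1) with hδ
  have hδ0 : 0 < δ := lt_min ht0 (by linarith)
  obtain ⟨c, hc⟩ := one_add_pow_prime_expand hp x
  have key : ∀ n : ℕ, x ∈ Φ.F (t + n * δ) := by
    intro n
    induction n with
    | zero => simpa using hx
    | succ n ih =>
      set s : ℝ := t + n * δ with hs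
      have hst : t ≤ s := by
        have : 0 ≤ (n : ℝ) * δ := by positivity
        linarith
      have hs0 : 0 ≤ s := by linarith
      have hxp : x ^ p ∈ Φ.F (p * s) := Φ.pow_mem hs0 ih p
      have h2 : (p : B) * (x + x ^ 2 * c) = - x ^ p := by
        have : (1 : B) + p * x + p * x ^ 2 * c + x ^ p = 1 := by rw [← hc, h1]
        linear_combination this
      have h3 : x + x ^ 2 * c ∈ Φ.F (p * s - 1) := by
        refine Φ.mem_of_p_mul_mem ?_ ?_
        · have : 1 ≤ (p : ℝ) * s := by nlinarith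
          linarith
        · rw [h2, sub_add_cancel]
          exact (Φ.F _).neg_mem hxp
      have h4 : x ^ 2 * c ∈ Φ.F (2 * s) := by
        have := Φ.pow_mem hs0 ih 2
        exact (Φ.F _).mul_mem_right c (by exact_mod_cast this)
      have hδt : δ ≤ t := min_le_left _ _
      have hδ2 : δ ≤ ((p : ℝ) - 1) * t - 1 := min_le_right _ _
      have hx' : x = (x + x ^ 2 * c) - x ^ 2 * c := by ring
      have htarget : t + ((n + 1 : ℕ) : ℝ) * δ = s + δ := by
        rw [hs]; push_cast; ring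
      rw [htarget, hx']
      refine (Φ.F _).sub_mem (Φ.mem_of_le ?_ h3) (Φ.mem_of_le ?_ h4)
      · nlinarith
      · linarith
  exact Φ.sep' hδ0 key

/-- Two `p`-th roots of unity congruent modulo `F t`, `t > 1/(p-1)`, are equal. -/
theorem eq_of_pow_eq_one (hp : p.Prime) {t : ℝ} (ht : 1 < ((p : ℝ) - 1) * t)
    {a b : B} (ha : a ^ p = 1) (hb : b ^ p = 1) (hab : a - b ∈ Φ.F t) : a = b := by
  have hpos : 0 < p := hp.pos
  have hbb : b ^ (p - 1) * b = 1 := by rw [← pow_succ, Nat.sub_add_cancel hpos, hb]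
  have hx : a * b ^ (p - 1) - 1 ∈ Φ.F t := by
    have : a * b ^ (p - 1) - 1 = (a - b) * b ^ (p - 1) := by
      linear_combination hbb
    rw [this]
    exact (Φ.F _).mul_mem_right _ hab
  have h1 : (1 + (a * b ^ (p - 1) - 1)) ^ p = 1 := by
    rw [add_sub_cancel, mul_pow, ha, one_mul, ← pow_mul, mul_comm, pow_mul, hb, one_pow]
  have := Φ.eq_zero_of_one_add_pow_eq_one hp ht hx h1
  have h2 : a * b ^ (p - 1) = 1 := by linear_combination this
  calc a = a * (b ^ (p - 1) * b) := by rw [hbb, mul_one]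
    _ = (a * b ^ (p - 1)) * b := by ring
    _ = b := by rw [h2, one_mul]

section Newton

variable (a : B)

/-- division by `p` (junk value `0` if impossible) -/
noncomputable def divp (x : B) : B :=
  open Classical in if h : ∃ r : B, (p : B) * r = x then h.choose else 0

omit Φ in
lemma p_mul_divp {x : B} (h : ∃ r : B, (p : B) * r = x) : (p : B) * divp (p := p) x = x := by
  classical
  rw [divp, dif_pos h]
  exact h.choose_spec

/-- the Newton sequence for `y^p * a = 1` -/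
noncomputable def newtonSeq : ℕ → B
  | 0 => 1
  | n + 1 => newtonSeq n * (1 - divp (p := p) (newtonSeq n ^ p * a - 1))

omit Φ in
lemma newtonSeq_succ (n : ℕ) : newtonSeq (p := p) a (n + 1) =
    newtonSeq (p := p) a n * (1 - divp (p := p) (newtonSeq (p := p) a n ^ p * a - 1)) := rfl

end Newton

/-- **Newton / `p`-th roots.** -/
theorem exists_pow_mul_eq_one (hΦ : Φ.IsComplete) (hp : p.Prime) {t : ℝ}
    (ht : 1 < ((p : ℝ) - 1) * t) {a : B} (ha : a - 1 ∈ Φ.F (1 + t)) :
    ∃ y : B, y - 1 ∈ Φ.F t ∧ y ^ p * a = 1 := by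
  have hp1 : (1 : ℝ) ≤ (p : ℝ) - 1 := by
    have : (2 : ℝ) ≤ p := by exact_mod_cast hp.two_le
    linarith
  have ht0 : 0 < t := by
    by_contra h
    have h := not_lt.mp h
    nlinarith
  set δ : ℝ := min t (((p : ℝ) - 1) * t - 1) with hδ
  have hδ0 : 0 < δ := lt_min ht0 (by linarith)
  have hδt : δ ≤ t := min_le_left _ _
  have hδ2 : δ ≤ ((p : ℝ) - 1) * t - 1 := min_le_right _ _
  set y : ℕ → B := newtonSeq (p := p) a with hy
  -- invariant
  have inv : ∀ n : ℕ, y n ^ p * a - 1 ∈ Φ.F (1 + (t + n * δ)) := by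
    intro n
    induction n with
    | zero =>
      simp only [hy, newtonSeq, one_pow, one_mul, Nat.cast_zero, zero_mul, add_zero]
      exact ha
    | succ n ih =>
      set s : ℝ := t + n * δ with hs
      have hst : t ≤ s := by
        have : 0 ≤ (n : ℝ) * δ := by positivity
        linarith
      have hs0 : 0 ≤ s := by linarith
      obtain ⟨r, hr, hEr⟩ := Φ.div_p hs0 (by rw [add_comm] at ih; exact ih)
      have hdiv : divp (p := p) (y n ^ p * a - 1) = r := by
        have h1 := p_mul_divp (p := p) ⟨r, hEr.symm⟩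
        have : (p : B) * (divp (p := p) (y n ^ p * a - 1) - r) = 0 := by
          rw [mul_sub, h1, hEr, sub_self]
        exact sub_eq_zero.mp (Φ.p_tf _ this)
      have hsucc : y (n + 1) = y n * (1 - r) := by
        rw [hy, newtonSeq_succ, ← hy, hdiv]
      obtain ⟨c, hc⟩ := one_add_pow_prime_expand hp (-r)
      have hexp : y (n + 1) ^ p * a - 1 =
          -((p : B) * r) * ((p : B) * r) + (1 + p * r) * (p * (-r) ^ 2 * c + (-r) ^ p) := by
        rw [hsucc, mul_pow, sub_eq_add_neg 1 r, hc]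
        have : y n ^ p * a = 1 + p * r := by rw [← hEr]; ring
        linear_combination (1 + ↑p * -r + ↑p * (-r) ^ 2 * c + (-r) ^ p) * this
      have htarget : 1 + (t + ((n + 1 : ℕ) : ℝ) * δ) = 1 + s + δ := by
        rw [hs]; push_cast; ring
      rw [htarget, hexp]
      have hpr : (p : B) * r ∈ Φ.F (1 + s) := Φ.p_mul_mem hs0 hr
      have hnr : -r ∈ Φ.F s := (Φ.F _).neg_mem hr
      refine (Φ.F _).add_mem ?_ ((Φ.F _).mul_mem_left _ ((Φ.F _).add_mem ?_ ?_))
      · have := Φ.mul_mem (by linarith) (by linarith) ((Φ.F _).neg_mem hpr) hpr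
        exact Φ.mem_of_le (by linarith) this
      · have h2 := Φ.pow_mem hs0 hnr 2
        have h3 := Φ.p_mul_mem (by positivity) h2
        refine (Φ.F _).mul_mem_right c (Φ.mem_of_le ?_ h3)
        push_cast; linarith
      · have h2 := Φ.pow_mem hs0 hnr p
        refine Φ.mem_of_le ?_ h2
        nlinarith
  -- consecutive differences
  have hdiff : ∀ n : ℕ, y (n + 1) - y n ∈ Φ.F (t + n * δ) := by
    intro n
    set s : ℝ := t + n * δ with hs
    have hs0 : 0 ≤ s := by
      have : 0 ≤ (n : ℝ) * δ := by positivity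
      linarith
    obtain ⟨r, hr, hEr⟩ := Φ.div_p hs0 (by have := inv n; rw [add_comm] at this; exact this)
    have hdiv : divp (p := p) (y n ^ p * a - 1) = r := by
      have h1 := p_mul_divp (p := p) ⟨r, hEr.symm⟩
      have : (p : B) * (divp (p := p) (y n ^ p * a - 1) - r) = 0 := by
        rw [mul_sub, h1, hEr, sub_self]
      exact sub_eq_zero.mp (Φ.p_tf _ this)
    have hsucc : y (n + 1) = y n * (1 - r) := by
      rw [hy, newtonSeq_succ, ← hy, hdiv]
    have : y (n + 1) - y n = -(y n) * r := by rw [hsucc]; ring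
    rw [this]
    exact (Φ.F _).mul_mem_left _ hr
  obtain ⟨l, hl⟩ := hΦ y t δ hδ0 hdiff
  refine ⟨l, ?_, ?_⟩
  · have := hl 0
    simpa [hy, newtonSeq] using this
  · have : l ^ p * a - 1 = 0 := by
      refine Φ.sep' (c := t) hδ0 fun n => ?_
      have h1 : l ^ p * a - 1 = (l ^ p - y n ^ p) * a + (y n ^ p * a - 1) := by ring
      rw [h1]
      refine (Φ.F _).add_mem ((Φ.F _).mul_mem_right _ ?_) (Φ.mem_of_le (by linarith) (inv n))
      obtain ⟨d, hd⟩ := sub_dvd_pow_sub_pow l (y n) p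
      rw [hd]
      exact (Φ.F _).mul_mem_right _ (hl n)
    exact sub_eq_zero.mp this

end PFilt

end Fermat.Agent.TW.Flat
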