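/-
F2 (flat local condition at p), Part A.4: the valuation ring `𝓞_E` of `E ⊆ PadicAlgCl p` is a
`p`-filtered ring (`F s = 𝔞_E^s`), complete when `E/ℚ_p` is finite.
-/
import Mathlib
import Fermat.Agent.Ram.Defs_helper7
import Fermat.Agent.TW.Flat_helper7_PFilt

set_option autoImplicit false

namespace Fermat.Agent.TW.Flat

open Fermat.Agent.Ram Filter Topology

variable (p : ℕ) [Fact p.Prime] (E : IntermediateField ℚ_[p] (PadicAlgCl p))

lemma one_lt_p_real : (1 : ℝ) < p := by exact_mod_cast (Fact.out : p.Prime).one_lt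

lemma p_real_pos : (0 : ℝ) < p := by exact_mod_cast (Fact.out : p.Prime).pos

lemma norm_natCast_p : ‖((p : ℕ) : PadicAlgCl p)‖ = (p : ℝ)⁻¹ := by
  rw [← map_natCast (algebraMap ℚ_[p] (PadicAlgCl p)), PadicAlgCl.norm_extends, Padic.norm_p]

lemma norm_coe_natCast_p :
    ‖((((p : ℕ) : integerRing p E) : E) : PadicAlgCl p)‖ = (p : ℝ)⁻¹ := by
  have : ((((p : ℕ) : integerRing p E) : E) : PadicAlgCl p) = ((p : ℕ) : PadicAlgCl p) := by
    push_cast; rfl
  rw [this, norm_natCast_p]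

/-- `𝓞_E` with `F s = 𝔞_E^s`. -/
noncomputable def intPFilt : PFilt p (integerRing p E) where
  F := idealA p E
  anti := fun {s s'} h x hx => by
    rw [mem_idealA] at hx ⊢
    exact hx.trans (Real.rpow_le_rpow_of_exponent_le (one_lt_p_real p).le (by linarith))
  nonpos := fun {s} h => by
    rw [eq_top_iff]
    intro x _
    rw [mem_idealA]
    exact x.2.trans (Real.one_le_rpow (one_lt_p_real p).le (by linarith))
  mul_mem := fun {s s' x y} _ _ hx hy => by
    rw [mem_idealA] at hx hy ⊢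
    rw [Subring.coe_mul, MulMemClass.coe_mul, norm_mul, neg_add, Real.rpow_add (p_real_pos p)]
    exact mul_le_mul hx hy (norm_nonneg _) (by positivity)
  p_mem := by
    rw [mem_idealA, norm_coe_natCast_p, Real.rpow_neg_one]
  div_p := fun {s x} hs hx => by
    rw [mem_idealA] at hx
    have hp0 : ((p : ℕ) : E) ≠ 0 := Nat.cast_ne_zero.mpr (Fact.out : p.Prime).ne_zero
    have hnorm : ‖(((x : E) * ((p : ℕ) : E)⁻¹ : E) : PadicAlgCl p)‖ ≤ (p : ℝ) ^ (-s) := by
      have h1 : ‖(((x : E) * ((p : ℕ) : E)⁻¹ : E) : PadicAlgCl p)‖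
          = ‖((x : E) : PadicAlgCl p)‖ * (p : ℝ) := by
        have : (((x : E) * ((p : ℕ) : E)⁻¹ : E) : PadicAlgCl p)
            = ((x : E) : PadicAlgCl p) * ((p : ℕ) : PadicAlgCl p)⁻¹ := by
          push_cast; rfl
        rw [this, norm_mul, norm_inv, norm_natCast_p, inv_inv]
      rw [h1]
      calc ‖((x : E) : PadicAlgCl p)‖ * (p : ℝ) ≤ (p : ℝ) ^ (-(s + 1)) * (p : ℝ) :=
            mul_le_mul_of_nonneg_right hx (p_real_pos p).le
        _ = (p : ℝ) ^ (-s) := by
            rw [neg_add, Real.rpow_add (p_real_pos p), Real.rpow_neg_one, mul_assoc,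
              inv_mul_cancel₀ (p_real_pos p).ne', mul_one]
    have hint : (x : E) * ((p : ℕ) : E)⁻¹ ∈ integerRing p E :=
      hnorm.trans (Real.rpow_le_one_of_one_le_of_nonpos (one_lt_p_real p).le (by linarith))
    refine ⟨⟨_, hint⟩, hnorm, ?_⟩
    apply Subtype.ext
    show (x : E) = (((p : ℕ) : integerRing p E) : E) * ((x : E) * ((p : ℕ) : E)⁻¹)
    rw [Subring.coe_natCast]
    field_simp
  p_tf := fun x hx => by
    have hp0 : ((p : ℕ) : E) ≠ 0 := Nat.cast_ne_zero.mpr (Fact.out : p.Prime).ne_zero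
    have := congrArg (fun y : integerRing p E => (y : E)) hx
    simp only [Subring.coe_mul, Subring.coe_natCast, Subring.coe_zero] at this
    apply Subtype.ext
    rcases mul_eq_zero.mp this with h | h
    · exact absurd h hp0
    · exact h
  sep := fun x hx => by
    have hlim : Tendsto (fun n : ℕ => ((p : ℝ)⁻¹) ^ n) atTop (𝓝 0) :=
      tendsto_pow_atTop_nhds_zero_of_lt_one (by positivity)
        (inv_lt_one_of_one_lt₀ (one_lt_p_real p))
    have hle : ∀ n : ℕ, ‖((x : E) : PadicAlgCl p)‖ ≤ ((p : ℝ)⁻¹) ^ n := fun n => by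
      have := hx n
      rw [mem_idealA, Real.rpow_neg (p_real_pos p).le, Real.rpow_natCast, ← inv_pow] at this
      exact this
    have h0 : ‖((x : E) : PadicAlgCl p)‖ ≤ 0 := ge_of_tendsto' hlim hle
    have h1 : ((x : E) : PadicAlgCl p) = 0 := norm_le_zero_iff.mp h0
    apply Subtype.ext
    apply Subtype.ext
    exact h1

lemma mem_intPFilt_F {s : ℝ} {x : integerRing p E} :
    x ∈ (intPFilt p E).F s ↔ ‖((x : E) : PadicAlgCl p)‖ ≤ (p : ℝ) ^ (-s) := Iff.rfl

/-- `𝓞_E` is complete for finite `E/ℚ_p`. -/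
theorem intPFilt_isComplete [FiniteDimensional ℚ_[p] E] : (intPFilt p E).IsComplete := by
  intro a c δ hδ ha
  haveI : CompleteSpace E := FiniteDimensional.complete ℚ_[p] E
  set b : ℕ → E := fun n => (a n : E) with hb
  have hstep : ∀ n : ℕ, ‖b (n + 1) - b n‖ ≤ (p : ℝ) ^ (-(c + n * δ)) := fun n => ha n
  set r : ℝ := (p : ℝ) ^ (-δ) with hr
  have hr0 : 0 < r := Real.rpow_pos_of_pos (p_real_pos p) _
  have hr1 : r < 1 := Real.rpow_lt_one_of_one_lt_of_neg (one_lt_p_real p) (by linarith)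
  have hgeom : ∀ n : ℕ, (p : ℝ) ^ (-(c + n * δ)) = (p : ℝ) ^ (-c) * r ^ n := fun n => by
    rw [hr, ← Real.rpow_natCast, ← Real.rpow_mul (p_real_pos p).le, ← Real.rpow_add (p_real_pos p)]
    congr 1; ring
  have hcauchy : CauchySeq b := by
    refine cauchySeq_of_le_geometric r ((p : ℝ) ^ (-c)) hr1 fun n => ?_
    rw [dist_eq_norm, norm_sub_rev, ← hgeom]
    exact hstep n
  obtain ⟨l, hl⟩ := cauchySeq_tendsto_of_complete hcauchy
  have hmono : ∀ n k : ℕ, n ≤ k → (p : ℝ) ^ (-(c + k * δ)) ≤ (p : ℝ) ^ (-(c + n * δ)) := by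
    intro n k hnk
    refine Real.rpow_le_rpow_of_exponent_le (one_lt_p_real p).le ?_
    have : (n : ℝ) ≤ k := by exact_mod_cast hnk
    nlinarith
  have hdiff : ∀ n k : ℕ, n ≤ k → ‖b k - b n‖ ≤ (p : ℝ) ^ (-(c + n * δ)) := by
    intro n k hnk
    induction k, hnk using Nat.le_induction with
    | base => rw [sub_self, norm_zero]; positivity
    | succ k hk ih =>
      have : b (k + 1) - b n = (b (k + 1) - b k) + (b k - b n) := by ring
      rw [this]
      refine (IsUltrametricDist.norm_add_le_max _ _).trans (max_le ?_ ih)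
      exact (hstep k).trans (hmono n k hk)
  have hlim : ∀ n : ℕ, ‖l - b n‖ ≤ (p : ℝ) ^ (-(c + n * δ)) := by
    intro n
    have ht : Tendsto (fun k => ‖b k - b n‖) atTop (𝓝 ‖l - b n‖) :=
      (hl.sub_const (b n)).norm
    refine le_of_tendsto ht ?_
    filter_upwards [eventually_ge_atTop n] with k hk using hdiff n k hk
  have hl1 : ‖(l : PadicAlgCl p)‖ ≤ 1 := by
    have ht : Tendsto (fun k => ‖b k‖) atTop (𝓝 ‖l‖) := hl.norm
    exact le_of_tendsto' ht fun k => (a k).2
  refine ⟨⟨l, hl1⟩, fun n => ?_⟩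
  exact hlim n

end Fermat.Agent.TW.Flat
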