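/-
F2 (flat local condition at p), Part A.3: lifting approximate points of a cocommutative bialgebra.

`exists_algHom_lift`: let `H` be a cocommutative `R`-bialgebra, `O` a complete `p`-filtered
`R`-algebra, `t > 1/(p-1)`.  If `u₀ : H →ₗ[R] O` is unital and multiplicative modulo `F (1+t)`
and `u₀^{*p} ≡ ε` modulo `F (1+t)`, then there is an `R`-algebra map `u : H →ₐ[R] O` with
`u ≡ u₀` modulo `F t` and `u^{*p} = ε`.  Moreover such a `u` is unique (`algHom_ext_of_congr`).
-/
import Mathlib
import Fermat.Agent.TW.Flat_helper7_Conv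

set_option autoImplicit false
set_option linter.unusedSectionVars false

namespace Fermat.Agent.TW.Flat

open Coalgebra TensorProduct WithConv

variable {p : ℕ} {R : Type*} [CommRing R] {H : Type*} [CommRing H] [Bialgebra R H]
  [Coalgebra.IsCocomm R H] {O : Type*} [CommRing O] [Algebra R O]

/-- `f ↦ (a ⊗ b ↦ f (a * b))`, a ring hom of convolution rings. -/
noncomputable def convMulPre : WithConv (H →ₗ[R] O) →+* WithConv (H ⊗[R] H →ₗ[R] O) :=
  convPrecomp (Bialgebra.mulCoalgHom R H)

@[simp] lemma convMulPre_apply_tmul (f : WithConv (H →ₗ[R] O)) (a b : H) :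
    convMulPre f (a ⊗ₜ[R] b) = f (a * b) := by
  rw [convMulPre, convPrecomp_apply]
  simp

/-- `f ↦ (a ⊗ b ↦ f a * f b)`, a monoid hom of convolution rings. -/
noncomputable def convTensorSq : WithConv (H →ₗ[R] O) →* WithConv (H ⊗[R] H →ₗ[R] O) where
  toFun f := toConv (LinearMap.mul' R O ∘ₗ TensorProduct.map f.ofConv f.ofConv)
  map_one' := by
    apply WithConv.ext
    apply TensorProduct.ext'
    intro a b
    show (1 : WithConv (H →ₗ[R] O)) a * (1 : WithConv (H →ₗ[R] O)) b =
      (1 : WithConv (H ⊗[R] H →ₗ[R] O)) (a ⊗ₜ[R] b)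
    rw [LinearMap.convOne_apply, LinearMap.convOne_apply, LinearMap.convOne_apply,
      TensorProduct.counit_tmul, ← map_mul, smul_eq_mul, mul_comm]
  map_mul' f g := by
    apply WithConv.ext
    apply TensorProduct.ext'
    intro a b
    show (f * g) a * (f * g) b = (toConv (LinearMap.mul' R O ∘ₗ TensorProduct.map f.ofConv f.ofConv)
      * toConv (LinearMap.mul' R O ∘ₗ TensorProduct.map g.ofConv g.ofConv)) (a ⊗ₜ[R] b)
    rw [((ℛ R a).tmul (ℛ R b)).convMul_apply, (ℛ R a).convMul_apply, (ℛ R b).convMul_apply,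
      Finset.sum_mul_sum]
    simp only [Coalgebra.Repr.tmul_index, Coalgebra.Repr.tmul_left, Coalgebra.Repr.tmul_right]
    rw [Finset.sum_product]
    refine Finset.sum_congr rfl fun i _ => Finset.sum_congr rfl fun j _ => ?_
    show _ = (f (Repr.left (ℛ R a) i) * f (Repr.left (ℛ R b) j)) *
      (g (Repr.right (ℛ R a) i) * g (Repr.right (ℛ R b) j))
    ring

@[simp] lemma convTensorSq_apply_tmul (f : WithConv (H →ₗ[R] O)) (a b : H) :
    convTensorSq f (a ⊗ₜ[R] b) = f a * f b := rfl

/-- evaluation at `1`, a ring hom. -/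
noncomputable def convEvalOne : WithConv (H →ₗ[R] O) →+* O where
  toFun f := f 1
  map_one' := by
    show (1 : WithConv (H →ₗ[R] O)) 1 = 1
    rw [LinearMap.convOne_apply, Bialgebra.counit_one, map_one]
  map_mul' f g := by
    show (f * g) 1 = f 1 * g 1
    rw [LinearMap.convMul_apply, Bialgebra.comul_one, Algebra.TensorProduct.one_def]
    simp
  map_zero' := rfl
  map_add' f g := rfl

@[simp] lemma convEvalOne_apply (f : WithConv (H →ₗ[R] O)) : convEvalOne f = f 1 := rfl

/-- **Lifting approximate points.** -/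
theorem exists_algHom_lift (Φ : PFilt p O) (hΦ : Φ.IsComplete) (hp : p.Prime) {t : ℝ}
    (ht : 1 < ((p : ℝ) - 1) * t) (u₀ : H →ₗ[R] O)
    (h1 : u₀ 1 - 1 ∈ Φ.F (1 + t))
    (hmul : ∀ a b : H, u₀ (a * b) - u₀ a * u₀ b ∈ Φ.F (1 + t))
    (hpow : ∀ h : H, ((toConv u₀ : WithConv (H →ₗ[R] O)) ^ p) h
      - algebraMap R O (counit (R := R) h) ∈ Φ.F (1 + t)) :
    ∃ u : H →ₐ[R] O, (∀ h : H, u h - u₀ h ∈ Φ.F t) ∧
      (toConv u.toLinearMap : WithConv (H →ₗ[R] O)) ^ p = 1 := by
  have hp1 : (1 : ℝ) ≤ (p : ℝ) - 1 := by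
    have : (2 : ℝ) ≤ p := by exact_mod_cast hp.two_le
    linarith
  have ht0 : 0 < t := by
    by_contra h
    have h := not_lt.mp h
    nlinarith
  have hle : t ≤ 1 + t := by linarith
  set Ψ := Φ.conv R H with hΨ
  have hΨc : Ψ.IsComplete := Φ.conv_isComplete hΦ
  set U₀ : WithConv (H →ₗ[R] O) := toConv u₀ with hU₀
  have ha : U₀ ^ p - 1 ∈ Ψ.F (1 + t) := fun h => hpow h
  obtain ⟨y, hy1, hy⟩ := Ψ.exists_pow_mul_eq_one hΨc hp ht ha
  set U : WithConv (H →ₗ[R] O) := U₀ * y with hU
  have hUp : U ^ p = 1 := by rw [hU, mul_pow, mul_comm]; exact hy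
  have hUU₀ : U - U₀ ∈ Ψ.F t := by
    have : U - U₀ = U₀ * (y - 1) := by rw [hU]; ring
    rw [this]
    exact (Ψ.F _).mul_mem_left _ hy1
  have hcongr : ∀ h : H, U h - u₀ h ∈ Φ.F t := fun h => hUU₀ h
  -- unitality
  have hone : U 1 = 1 := by
    refine Φ.eq_of_pow_eq_one hp ht ?_ (one_pow p) ?_
    · have := congrArg (convEvalOne (R := R) (H := H) (O := O)) hUp
      rwa [map_pow, map_one] at this
    · have : U 1 - 1 = (U 1 - u₀ 1) + (u₀ 1 - 1) := by ring
      rw [this]
      exact (Φ.F _).add_mem (hcongr 1) (Φ.mem_of_le hle h1)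
  -- multiplicativity
  have hmulU : ∀ a b : H, U (a * b) = U a * U b := by
    set Ψ₂ := Φ.conv R (H ⊗[R] H) with hΨ₂
    have hA : (convMulPre U) ^ p = 1 := by rw [← map_pow, hUp, map_one]
    have hB : (convTensorSq U) ^ p = 1 := by rw [← map_pow, hUp, map_one]
    have hAB : convMulPre U - convTensorSq U ∈ Ψ₂.F t := by
      intro x
      induction x using TensorProduct.induction_on with
      | zero =>
        rw [show (convMulPre U - convTensorSq U) (0 : H ⊗[R] H) = 0 from
          map_zero (convMulPre U - convTensorSq U).ofConv]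
        exact (Φ.F _).zero_mem
      | tmul a b =>
        rw [PFilt.conv_sub_apply, convMulPre_apply_tmul, convTensorSq_apply_tmul]
        have : U (a * b) - U a * U b = (U (a * b) - u₀ (a * b)) + (u₀ (a * b) - u₀ a * u₀ b)
            - (U a - u₀ a) * U b - u₀ a * (U b - u₀ b) := by ring
        rw [this]
        refine (Φ.F _).sub_mem ((Φ.F _).sub_mem ((Φ.F _).add_mem (hcongr _)
          (Φ.mem_of_le hle (hmul a b))) ?_) ?_
        · exact (Φ.F _).mul_mem_right _ (hcongr a)
        · exact (Φ.F _).mul_mem_left _ (hcongr b)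
      | add x y hx hy =>
        rw [show (convMulPre U - convTensorSq U) (x + y) = (convMulPre U - convTensorSq U) x +
          (convMulPre U - convTensorSq U) y from map_add (convMulPre U - convTensorSq U).ofConv x y]
        exact (Φ.F _).add_mem hx hy
    have hEq := Ψ₂.eq_of_pow_eq_one hp ht hA hB hAB
    intro a b
    have := congrArg (fun F : WithConv (H ⊗[R] H →ₗ[R] O) => F (a ⊗ₜ[R] b)) hEq
    simpa using this
  refine ⟨AlgHom.ofLinearMap U.ofConv hone hmulU, fun h => hcongr h, ?_⟩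
  have : (AlgHom.ofLinearMap U.ofConv hone hmulU).toLinearMap = U.ofConv := by
    ext h; rfl
  rw [this, toConv_ofConv]
  exact hUp

/-- **Uniqueness of lifts**: two algebra maps killed by `p` (for the convolution product) that are
congruent modulo `F t`, `t > 1/(p-1)`, are equal.  No completeness needed. -/
theorem algHom_ext_of_congr (Φ : PFilt p O) (hp : p.Prime) {t : ℝ}
    (ht : 1 < ((p : ℝ) - 1) * t) (u v : H →ₗ[R] O)
    (hu : (toConv u : WithConv (H →ₗ[R] O)) ^ p = 1)
    (hv : (toConv v : WithConv (H →ₗ[R] O)) ^ p = 1)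
    (huv : ∀ h : H, u h - v h ∈ Φ.F t) : u = v := by
  have := (Φ.conv R H).eq_of_pow_eq_one hp ht hu hv (fun h => huv h)
  exact toConv_injective this

end Fermat.Agent.TW.Flat
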