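/-
F2 Part A.6: **Fontaine's property `(P_m)` for finite flat group schemes killed by `p`.**

`propertyPm_valueField`: let `H` be a finite projective (e.g. finite flat) cocommutative
bialgebra over `ℤ_(p) = GaloisRep.ratLocalizedAt p` all of whose `PadicAlgCl p`-points are
killed by `p` for the convolution product, and let `L = valueField p H` be the field generated
over `ℚ_p` by the values of all points.  Then `(P_m)` holds for `L` for every real
`m > p/(p-1)`; hence `FontaineBdd p L`.
-/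
import Mathlib
import Fermat.Prelude.Def_GaloisRep_Flat
import Fermat.Agent.Ram.Defs_helper7
import Fermat.Agent.TW.Flat_helper7_Lift
import Fermat.Agent.TW.Flat_helper7_Int
import Fermat.Agent.TW.Flat_helper7_RatLoc

set_option autoImplicit false
set_option linter.unusedSectionVars false
set_option linter.style.haveILetI false

namespace Fermat.Agent.TW.Flat

open GaloisRep Fermat.Agent.Ram Coalgebra WithConv

section postcomp

variable {R : Type*} [CommRing R] {C : Type*} [AddCommMonoid C] [Module R C] [Coalgebra R C]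
  {A B : Type*} [CommRing A] [CommRing B] [Algebra R A] [Algebra R B]

/-- postcomposition with an algebra map, as a ring hom of convolution rings. -/
noncomputable def convPostcomp (h : A →ₐ[R] B) :
    WithConv (C →ₗ[R] A) →+* WithConv (C →ₗ[R] B) where
  toFun f := toConv (h.toLinearMap ∘ₗ f.ofConv)
  map_one' := by
    apply WithConv.ext
    apply LinearMap.ext
    intro c
    show h (algebraMap R A (counit (R := R) c)) = algebraMap R B (counit (R := R) c)
    exact h.commutes _
  map_mul' f g := by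
    apply WithConv.ext
    exact LinearMap.algHom_comp_convMul_distrib h f g
  map_zero' := by
    apply WithConv.ext
    simp
  map_add' f g := by
    apply WithConv.ext
    simp [LinearMap.comp_add]

@[simp] lemma convPostcomp_apply (h : A →ₐ[R] B) (f : WithConv (C →ₗ[R] A)) (c : C) :
    convPostcomp h f c = h (f c) := rfl

lemma convPostcomp_injective (h : A →ₐ[R] B) (hh : Function.Injective h) :
    Function.Injective (convPostcomp (C := C) h) := by
  intro f g hfg
  apply WithConv.ext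
  apply LinearMap.ext
  intro c
  apply hh
  have := congrArg (fun F : WithConv (C →ₗ[R] B) => F c) hfg
  exact this


/-- compatibility of `convPostcomp` with the expression `U * U' ^ n - 1`. -/
lemma convPostcomp_mul_pow_sub_one {A' : Type*} [CommRing A'] [Algebra R A']
    (π : A →ₐ[R] B) (η : A' →ₐ[R] B)
    (Ux Uy : WithConv (C →ₗ[R] A)) (X Y : WithConv (C →ₗ[R] A'))
    (e1 : convPostcomp π Ux = convPostcomp η X) (e2 : convPostcomp π Uy = convPostcomp η Y)
    (n : ℕ) (c : C) : π ((Ux * Uy ^ n - 1) c) = η ((X * Y ^ n - 1) c) := by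
  have : convPostcomp π (Ux * Uy ^ n - 1) = convPostcomp η (X * Y ^ n - 1) := by
    rw [map_sub, map_sub, map_one, map_one, map_mul, map_mul, map_pow, map_pow, e1, e2]
  exact congrArg (fun F : WithConv (C →ₗ[R] B) => F c) this

omit [CommRing B] [Algebra R B] in
lemma convPostcomp_ext {A' : Type*} [CommRing A'] [Algebra R A'] {Q : Type*} [CommRing Q]
    [Algebra R Q] (π : A →ₐ[R] Q) (η : A' →ₐ[R] Q) (u : C →ₗ[R] A) (x : C →ₗ[R] A')
    (h : ∀ c, π (u c) = η (x c)) :
    convPostcomp π (toConv u) = convPostcomp η (toConv x) := by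
  apply WithConv.ext
  apply LinearMap.ext
  intro c
  exact h c

/-- pure ideal algebra: if `V^p = 1` and `Ux ≡ V ≡ Uy` modulo `I` then `Ux * Uy^(p-1) ≡ 1`. -/
lemma mul_pow_sub_one_mem {S : Type*} [CommRing S] (I : Ideal S) {p : ℕ} (hp : 0 < p)
    {V Ux Uy : S} (hV : V ^ p = 1) (h1 : V - Ux ∈ I) (h2 : V - Uy ∈ I) :
    Ux * Uy ^ (p - 1) - 1 ∈ I := by
  have hVV : V * V ^ (p - 1) = 1 := by rw [← pow_succ', Nat.sub_add_cancel hp, hV]
  obtain ⟨d, hd⟩ := sub_dvd_pow_sub_pow V Uy (p - 1)
  have : Ux * Uy ^ (p - 1) - 1 = -((V - Ux) * Uy ^ (p - 1)) - V * ((V - Uy) * d) := by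
    rw [← hd]
    linear_combination hVV
  rw [this]
  exact I.sub_mem (I.neg_mem (I.mul_mem_right _ h1)) (I.mul_mem_left _ (I.mul_mem_right _ h2))

end postcomp

variable (p : ℕ) [Fact p.Prime]

/-- `ℤ_(p) → 𝓞_E`. -/
noncomputable def ratLocToInt (E : IntermediateField ℚ_[p] (PadicAlgCl p)) :
    ratLocalizedAt p →+* integerRing p E where
  toFun r := ⟨algebraMap (ratLocalizedAt p) E r, norm_algebraMap_ratLoc_le_one p r⟩
  map_one' := by apply Subtype.ext; exact map_one _
  map_mul' a b := by apply Subtype.ext; exact map_mul _ a b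
  map_zero' := by apply Subtype.ext; exact map_zero _
  map_add' a b := by apply Subtype.ext; exact map_add _ a b

noncomputable instance intAlgebra (E : IntermediateField ℚ_[p] (PadicAlgCl p)) :
    Algebra (ratLocalizedAt p) (integerRing p E) := (ratLocToInt p E).toAlgebra

lemma coe_algebraMap_int (E : IntermediateField ℚ_[p] (PadicAlgCl p)) (r : ratLocalizedAt p) :
    (((algebraMap (ratLocalizedAt p) (integerRing p E) r : integerRing p E) : E) : PadicAlgCl p)
      = algebraMap (ratLocalizedAt p) (PadicAlgCl p) r := rfl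

/-- the inclusion `𝓞_E → PadicAlgCl p` as a `ℤ_(p)`-algebra map. -/
noncomputable def intIncl (E : IntermediateField ℚ_[p] (PadicAlgCl p)) :
    integerRing p E →ₐ[ratLocalizedAt p] PadicAlgCl p where
  toFun x := ((x : E) : PadicAlgCl p)
  map_one' := rfl
  map_mul' _ _ := rfl
  map_zero' := rfl
  map_add' _ _ := rfl
  commutes' r := coe_algebraMap_int p E r

@[simp] lemma intIncl_apply (E : IntermediateField ℚ_[p] (PadicAlgCl p)) (x : integerRing p E) :
    intIncl p E x = ((x : E) : PadicAlgCl p) := rfl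

lemma intIncl_injective (E : IntermediateField ℚ_[p] (PadicAlgCl p)) :
    Function.Injective (intIncl p E) := fun x y h => Subtype.ext (Subtype.ext h)

variable (H : Type*) [CommRing H] [Bialgebra (ratLocalizedAt p) H]

/-- the field generated over `ℚ_p` by the values of all `PadicAlgCl p`-points of `H`. -/
noncomputable def valueField : IntermediateField ℚ_[p] (PadicAlgCl p) :=
  IntermediateField.adjoin ℚ_[p]
    {z | ∃ (x : H →ₐ[ratLocalizedAt p] PadicAlgCl p) (h : H), x h = z}

variable {H}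

lemma apply_mem_valueField (x : H →ₐ[ratLocalizedAt p] PadicAlgCl p) (h : H) :
    x h ∈ valueField p H :=
  IntermediateField.subset_adjoin _ _ ⟨x, h, rfl⟩

lemma norm_point_le_one [Module.Finite (ratLocalizedAt p) H]
    (x : H →ₐ[ratLocalizedAt p] PadicAlgCl p) (h : H) : ‖x h‖ ≤ 1 := by
  haveI : Algebra.IsIntegral (ratLocalizedAt p) H := Algebra.IsIntegral.of_finite _ _
  exact norm_le_one_of_isIntegral p (norm_algebraMap_ratLoc_le_one p)
    ((Algebra.IsIntegral.isIntegral h).map x)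

/-- a point, with values in the integers of a field containing its values. -/
noncomputable def pointInt [Module.Finite (ratLocalizedAt p) H]
    (L : IntermediateField ℚ_[p] (PadicAlgCl p)) (x : H →ₐ[ratLocalizedAt p] PadicAlgCl p)
    (hx : ∀ h, x h ∈ L) : H →ₐ[ratLocalizedAt p] integerRing p L where
  toFun h := ⟨⟨x h, hx h⟩, norm_point_le_one p x h⟩
  map_one' := by apply Subtype.ext; apply Subtype.ext; exact map_one x
  map_mul' a b := by apply Subtype.ext; apply Subtype.ext; exact map_mul x a b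
  map_zero' := by apply Subtype.ext; apply Subtype.ext; exact map_zero x
  map_add' a b := by apply Subtype.ext; apply Subtype.ext; exact map_add x a b
  commutes' r := by
    apply Subtype.ext; apply Subtype.ext
    show x (algebraMap _ H r) = _
    rw [x.commutes, coe_algebraMap_int]

@[simp] lemma intIncl_pointInt [Module.Finite (ratLocalizedAt p) H]
    (L : IntermediateField ℚ_[p] (PadicAlgCl p)) (x : H →ₐ[ratLocalizedAt p] PadicAlgCl p)
    (hx : ∀ h, x h ∈ L) (h : H) : intIncl p L (pointInt p L x hx h) = x h := rfl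

section key

variable {L E : IntermediateField ℚ_[p] (PadicAlgCl p)} {m : ℝ}

/-- **Key valuation estimate.** If `η : 𝓞_L → 𝓞_E/𝔞^m` is a ring homomorphism, `(p-1)(m-1) > 1`,
and `η a` has a lift in `𝔞_E^{m-1}`, then `v_p(a) > 1/(p-1)`. -/
theorem norm_lt_of_lift_mem (hm : 1 < ((p : ℝ) - 1) * (m - 1))
    (η : integerRing p L →+* integerRing p E ⧸ idealA p E m)
    (a : integerRing p L) (a' : integerRing p E)
    (hlift : Ideal.Quotient.mk (idealA p E m) a' = η a) (ha' : a' ∈ idealA p E (m - 1)) :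
    ‖((a : L) : PadicAlgCl p)‖ < (p : ℝ) ^ (-(1 / ((p : ℝ) - 1))) := by
  have hpr : (1 : ℝ) < p := one_lt_p_real p
  have hp0 : (0 : ℝ) < p := p_real_pos p
  have hp1 : (0 : ℝ) < (p : ℝ) - 1 := by linarith
  have hm1 : 0 < m - 1 := by
    by_contra h
    have h := not_lt.mp h
    nlinarith
  by_contra hcon
  have hcon : (p : ℝ) ^ (-(1 / ((p : ℝ) - 1))) ≤ ‖((a : L) : PadicAlgCl p)‖ := not_lt.mp hcon
  have hpnat : ((p - 1 : ℕ) : ℝ) = (p : ℝ) - 1 := by
    rw [Nat.cast_sub (Fact.out : p.Prime).one_lt.le, Nat.cast_one]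
  -- `‖a‖^(p-1) ≥ p⁻¹`
  have hpow : (p : ℝ)⁻¹ ≤ ‖((a : L) : PadicAlgCl p)‖ ^ (p - 1) := by
    have h1 : ((p : ℝ) ^ (-(1 / ((p : ℝ) - 1)))) ^ (p - 1) = (p : ℝ)⁻¹ := by
      rw [← Real.rpow_natCast, ← Real.rpow_mul hp0.le, hpnat, ← Real.rpow_neg_one]
      congr 1
      field_simp
    rw [← h1]
    exact pow_le_pow_left₀ (by positivity) hcon _
  have ha0 : ((a : L) : PadicAlgCl p) ≠ 0 := by
    intro h0
    rw [h0, norm_zero] at hcon
    have : (0 : ℝ) < (p : ℝ) ^ (-(1 / ((p : ℝ) - 1))) := Real.rpow_pos_of_pos hp0 _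
    linarith
  have haL0 : (a : L) ≠ 0 := fun h => ha0 (by rw [h]; rfl)
  -- `b = p / a^(p-1) ∈ 𝓞_L`
  have hbnorm : ‖((((p : ℕ) : L) * ((a : L) ^ (p - 1))⁻¹ : L) : PadicAlgCl p)‖ ≤ 1 := by
    have : ((((p : ℕ) : L) * ((a : L) ^ (p - 1))⁻¹ : L) : PadicAlgCl p)
        = ((p : ℕ) : PadicAlgCl p) * (((a : L) : PadicAlgCl p) ^ (p - 1))⁻¹ := by
      push_cast; rfl
    rw [this, norm_mul, norm_inv, norm_pow, norm_natCast_p]
    have hpos : 0 < ‖((a : L) : PadicAlgCl p)‖ ^ (p - 1) := pow_pos (norm_pos_iff.mpr ha0) _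
    rw [← div_eq_mul_inv, div_le_one hpos]
    exact hpow
  set b : integerRing p L := ⟨((p : ℕ) : L) * ((a : L) ^ (p - 1))⁻¹, hbnorm⟩ with hb
  have hab : ((p : ℕ) : integerRing p L) = a ^ (p - 1) * b := by
    apply Subtype.ext
    show ((p : ℕ) : L) = (a : L) ^ (p - 1) * (((p : ℕ) : L) * ((a : L) ^ (p - 1))⁻¹)
    have : (a : L) ^ (p - 1) ≠ 0 := pow_ne_zero _ haL0
    field_simp
  obtain ⟨b', hb'⟩ := Ideal.Quotient.mk_surjective (η b)
  have hker : ((p : ℕ) : integerRing p E) - a' ^ (p - 1) * b' ∈ idealA p E m := by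
    rw [← Ideal.Quotient.eq, map_natCast, map_mul, map_pow, hlift, hb', ← map_pow, ← map_mul,
      ← hab, map_natCast]
  rw [mem_idealA] at hker ha'
  -- norms
  have h1 : ‖((((a' ^ (p - 1) * b' : integerRing p E)) : E) : PadicAlgCl p)‖
      ≤ (p : ℝ) ^ (-(((p : ℝ) - 1) * (m - 1))) := by
    rw [Subring.coe_mul, MulMemClass.coe_mul, norm_mul, Subring.coe_pow, SubmonoidClass.coe_pow,
      norm_pow]
    calc ‖((a' : E) : PadicAlgCl p)‖ ^ (p - 1) * ‖((b' : E) : PadicAlgCl p)‖
        ≤ ((p : ℝ) ^ (-(m - 1))) ^ (p - 1) * 1 :=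
          mul_le_mul (pow_le_pow_left₀ (norm_nonneg _) ha' _) b'.2 (norm_nonneg _) (by positivity)
      _ = (p : ℝ) ^ (-(((p : ℝ) - 1) * (m - 1))) := by
          rw [mul_one, ← Real.rpow_natCast, ← Real.rpow_mul hp0.le, hpnat]
          congr 1; ring
  have h2 : (p : ℝ) ^ (-(((p : ℝ) - 1) * (m - 1))) < (p : ℝ)⁻¹ := by
    rw [← Real.rpow_neg_one]
    exact Real.rpow_lt_rpow_of_exponent_lt hpr (by linarith)
  have h3 : (p : ℝ) ^ (-m) < (p : ℝ)⁻¹ := by
    rw [← Real.rpow_neg_one]
    exact Real.rpow_lt_rpow_of_exponent_lt hpr (by linarith)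
  have h4 : ‖((((p : ℕ) : integerRing p E) : E) : PadicAlgCl p)‖ < (p : ℝ)⁻¹ := by
    have : ((((p : ℕ) : integerRing p E) : E) : PadicAlgCl p)
        = ((((((p : ℕ) : integerRing p E) - a' ^ (p - 1) * b' : integerRing p E)) : E) :
            PadicAlgCl p)
          + ((((a' ^ (p - 1) * b' : integerRing p E)) : E) : PadicAlgCl p) := by
      push_cast; ring
    rw [this]
    refine (IsUltrametricDist.norm_add_le_max _ _).trans_lt (max_lt ?_ ?_)
    · exact hker.trans_lt h3
    · exact h1.trans_lt h2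
  rw [norm_coe_natCast_p] at h4
  exact lt_irrefl _ h4

end key

end Fermat.Agent.TW.Flat

namespace Fermat.Agent.TW.Flat

open GaloisRep Fermat.Agent.Ram Coalgebra WithConv

variable (p : ℕ) [Fact p.Prime]

local notation "R₀" => ratLocalizedAt p

variable {H : Type*} [CommRing H] [Bialgebra (ratLocalizedAt p) H]
  [Coalgebra.IsCocomm (ratLocalizedAt p) H] [Module.Finite (ratLocalizedAt p) H]

section inj

variable {L E : IntermediateField ℚ_[p] (PadicAlgCl p)} {m : ℝ}

/-- a linear map `H → 𝓞_L` which is uniformly small on a finite generating family is small. -/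
lemma exists_uniform_bound (g : H →ₗ[ratLocalizedAt p] integerRing p L) {B : ℝ}
    (hg : ∀ h : H, ‖(((g h : integerRing p L) : L) : PadicAlgCl p)‖ < B) :
    ∃ ρ : ℝ, 0 ≤ ρ ∧ ρ < B ∧ ∀ h : H, ‖(((g h : integerRing p L) : L) : PadicAlgCl p)‖ ≤ ρ := by
  obtain ⟨n, s, hs⟩ := Module.Finite.exists_fin (R := ratLocalizedAt p) (M := H)
  have hB : 0 < B := (norm_nonneg _).trans_lt (hg 0)
  obtain ⟨ρ, hρ0, hρB, hρ⟩ : ∃ ρ : ℝ, 0 ≤ ρ ∧ ρ < B ∧
      ∀ i : Fin n, ‖(((g (s i) : integerRing p L) : L) : PadicAlgCl p)‖ ≤ ρ := by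
    rcases isEmpty_or_nonempty (Fin n) with hn | hn
    · exact ⟨0, le_rfl, hB, fun i => (hn.false i).elim⟩
    · obtain ⟨i₀, hi₀⟩ := Finite.exists_max
        (fun i : Fin n => ‖(((g (s i) : integerRing p L) : L) : PadicAlgCl p)‖)
      exact ⟨_, norm_nonneg _, hg (s i₀), hi₀⟩
  refine ⟨ρ, hρ0, hρB, fun h => ?_⟩
  have hmem : h ∈ Submodule.span (ratLocalizedAt p) (Set.range s) := by rw [hs]; trivial
  induction hmem using Submodule.span_induction with
  | mem x hx =>
    obtain ⟨i, rfl⟩ := hx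
    exact hρ i
  | zero =>
    rw [map_zero]
    simpa using hρ0
  | add x y _ _ hx hy =>
    rw [map_add, Subring.coe_add, AddMemClass.coe_add]
    exact (IsUltrametricDist.norm_add_le_max _ _).trans (max_le hx hy)
  | smul r x _ hx =>
    rw [map_smul, Algebra.smul_def, Subring.coe_mul, MulMemClass.coe_mul, norm_mul,
      coe_algebraMap_int]
    calc _ ≤ 1 * ρ := mul_le_mul (norm_algebraMap_ratLoc_le_one p r) hx (norm_nonneg _) zero_le_one
      _ = ρ := one_mul _

/-- a point of order `p` which is uniformly close to the identity is the identity. -/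
theorem conv_eq_one_of_small (W : WithConv (H →ₗ[ratLocalizedAt p] integerRing p L))
    (hWp : W ^ p = 1)
    (hsmall : ∀ h : H, ‖((((W - 1) h : integerRing p L) : L) : PadicAlgCl p)‖
      < (p : ℝ) ^ (-(1 / ((p : ℝ) - 1)))) : W = 1 := by
  have hpr : (1 : ℝ) < p := one_lt_p_real p
  have hp0 : (0 : ℝ) < p := p_real_pos p
  have hp1 : (0 : ℝ) < (p : ℝ) - 1 := by linarith
  obtain ⟨ρ, hρ0, hρB, hρ⟩ := exists_uniform_bound p (W - 1).ofConv hsmall
  rcases hρ0.eq_or_lt with h0 | h0
  · apply sub_eq_zero.mp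
    apply WithConv.ext; apply LinearMap.ext; intro h
    have := hρ h
    rw [← h0] at this
    apply Subtype.ext; apply Subtype.ext
    exact norm_le_zero_iff.mp this
  · set s : ℝ := -Real.logb p ρ with hs
    have hps : (p : ℝ) ^ (-s) = ρ := by
      rw [hs, neg_neg]
      exact Real.rpow_logb hp0 hpr.ne' h0
    have hsκ : 1 / ((p : ℝ) - 1) < s := by
      have : (p : ℝ) ^ (-s) < (p : ℝ) ^ (-(1 / ((p : ℝ) - 1))) := by rw [hps]; exact hρB
      have := (Real.rpow_lt_rpow_left_iff hpr).mp this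
      linarith
    have hs1 : 1 < ((p : ℝ) - 1) * s := by
      have := mul_lt_mul_of_pos_left hsκ hp1
      rwa [mul_one_div_cancel hp1.ne'] at this
    refine ((intPFilt p L).conv (ratLocalizedAt p) H).eq_of_pow_eq_one (Fact.out) hs1 hWp
      (one_pow p) fun h => ?_
    show ‖((((W - 1) h : integerRing p L) : L) : PadicAlgCl p)‖ ≤ (p : ℝ) ^ (-s)
    rw [hps]
    exact hρ h

/-- **Injectivity of `x ↦ x'`.** -/
theorem pointInt_eq_of_lifts_congr (hm : 1 < ((p : ℝ) - 1) * (m - 1))
    (η : integerRing p L →+* integerRing p E ⧸ idealA p E m)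
    (xi yi : H →ₐ[ratLocalizedAt p] integerRing p L)
    (hX : (toConv xi.toLinearMap : WithConv (H →ₗ[ratLocalizedAt p] integerRing p L)) ^ p = 1)
    (hY : (toConv yi.toLinearMap : WithConv (H →ₗ[ratLocalizedAt p] integerRing p L)) ^ p = 1)
    (ux uy : H →ₗ[ratLocalizedAt p] integerRing p E)
    (hux : ∀ h, Ideal.Quotient.mk (idealA p E m) (ux h) = η (xi h))
    (huy : ∀ h, Ideal.Quotient.mk (idealA p E m) (uy h) = η (yi h))
    (V : WithConv (H →ₗ[ratLocalizedAt p] integerRing p E)) (hV : V ^ p = 1)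
    (hVx : ∀ h, V h - ux h ∈ idealA p E (m - 1))
    (hVy : ∀ h, V h - uy h ∈ idealA p E (m - 1)) : xi = yi := by
  have hppos : 0 < p := (Fact.out : p.Prime).pos
  obtain ⟨X, hXdef⟩ : ∃ X : WithConv (H →ₗ[R₀] integerRing p L), X = toConv xi.toLinearMap :=
    ⟨_, rfl⟩
  obtain ⟨Y, hYdef⟩ : ∃ Y : WithConv (H →ₗ[R₀] integerRing p L), Y = toConv yi.toLinearMap :=
    ⟨_, rfl⟩
  obtain ⟨Ux, hUx⟩ : ∃ Ux : WithConv (H →ₗ[R₀] integerRing p E), Ux = toConv ux := ⟨_, rfl⟩
  obtain ⟨Uy, hUy⟩ : ∃ Uy : WithConv (H →ₗ[R₀] integerRing p E), Uy = toConv uy := ⟨_, rfl⟩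
  have e1 : convPostcomp (Ideal.Quotient.mkₐ R₀ (idealA p E m)) Ux
      = convPostcomp (ratLocAlgHom p η) X := by
    rw [hUx, hXdef]
    exact convPostcomp_ext _ _ _ _ hux
  have e2 : convPostcomp (Ideal.Quotient.mkₐ R₀ (idealA p E m)) Uy
      = convPostcomp (ratLocAlgHom p η) Y := by
    rw [hUy, hYdef]
    exact convPostcomp_ext _ _ _ _ huy
  have hVUx : V - Ux ∈ ((intPFilt p E).conv R₀ H).F (m - 1) := by
    rw [hUx]; exact fun h => hVx h
  have hVUy : V - Uy ∈ ((intPFilt p E).conv R₀ H).F (m - 1) := by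
    rw [hUy]; exact fun h => hVy h
  have hW'1 : Ux * Uy ^ (p - 1) - 1 ∈ ((intPFilt p E).conv R₀ H).F (m - 1) :=
    mul_pow_sub_one_mem _ hppos hV hVUx hVUy
  rw [← hXdef] at hX
  rw [← hYdef] at hY
  have hWp : (X * Y ^ (p - 1)) ^ p = 1 := by
    rw [mul_pow, hX, one_mul, ← pow_mul, mul_comm, pow_mul, hY, one_pow]
  have hsmall : ∀ h : H, ‖((((X * Y ^ (p - 1) - 1) h : integerRing p L) : L) : PadicAlgCl p)‖
      < (p : ℝ) ^ (-(1 / ((p : ℝ) - 1))) := fun h =>
    norm_lt_of_lift_mem p hm η ((X * Y ^ (p - 1) - 1) h) ((Ux * Uy ^ (p - 1) - 1) h)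
      (convPostcomp_mul_pow_sub_one _ _ Ux Uy X Y e1 e2 (p - 1) h) (hW'1 h)
  have hW1 : X * Y ^ (p - 1) = 1 := conv_eq_one_of_small p _ hWp hsmall
  have hXY : X = Y := by
    have hYY : Y ^ (p - 1) * Y = 1 := by rw [← pow_succ, Nat.sub_add_cancel hppos, hY]
    calc X = X * (Y ^ (p - 1) * Y) := by rw [hYY, mul_one]
      _ = (X * Y ^ (p - 1)) * Y := by ring
      _ = Y := by rw [hW1, one_mul]
  apply AlgHom.toLinearMap_injective
  rw [hXdef, hYdef] at hXY
  exact toConv_injective hXY

end inj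

section main

variable [Module.Projective (ratLocalizedAt p) H]

/-- **Fontaine's `(P_m)` for the field of values of a finite flat group scheme killed by `p`.** -/
theorem propertyPm_valueField [Finite (H →ₐ[ratLocalizedAt p] PadicAlgCl p)]
    (hkill : ∀ x : H →ₐ[ratLocalizedAt p] PadicAlgCl p,
      (toConv x.toLinearMap : WithConv (H →ₗ[ratLocalizedAt p] PadicAlgCl p)) ^ p = 1)
    {m : ℝ} (hm : 1 < ((p : ℝ) - 1) * (m - 1)) : PropertyPm p (valueField p H) m := by
  intro E hE ⟨η⟩
  haveI := hE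
  set L := valueField p H with hL
  let ηA : integerRing p L →ₐ[R₀] (integerRing p E ⧸ idealA p E m) := ratLocAlgHom p η
  let π : integerRing p E →ₐ[R₀] (integerRing p E ⧸ idealA p E m) :=
    Ideal.Quotient.mkₐ R₀ (idealA p E m)
  have hπ : Function.Surjective π := Ideal.Quotient.mkₐ_surjective _ _
  let xi : (H →ₐ[R₀] PadicAlgCl p) → (H →ₐ[R₀] integerRing p L) :=
    fun x => pointInt p L x (apply_mem_valueField p x)
  have hxi : ∀ x, (toConv (xi x).toLinearMap : WithConv (H →ₗ[R₀] integerRing p L)) ^ p = 1 := by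
    intro x
    apply convPostcomp_injective (intIncl p L) (intIncl_injective p L)
    rw [map_pow, map_one]
    have : convPostcomp (intIncl p L) (toConv (xi x).toLinearMap) = toConv x.toLinearMap := by
      apply WithConv.ext; apply LinearMap.ext; intro h; rfl
    rw [this]
    exact hkill x
  set Φ := intPFilt p E with hΦdef
  have hΦ : Φ.IsComplete := intPFilt_isComplete p E
  have key : ∀ x : H →ₐ[R₀] PadicAlgCl p, ∃ (u₀ : H →ₗ[R₀] integerRing p E)
      (u : H →ₐ[R₀] integerRing p E),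
      (∀ h, Ideal.Quotient.mk (idealA p E m) (u₀ h) = η (xi x h)) ∧
      (∀ h, u h - u₀ h ∈ idealA p E (m - 1)) ∧
      (toConv u.toLinearMap : WithConv (H →ₗ[R₀] integerRing p E)) ^ p = 1 := by
    intro x
    obtain ⟨u₀, hu₀⟩ := Module.projective_lifting_property π.toLinearMap
      ((ηA.comp (xi x)).toLinearMap) hπ
    have hu₀' : ∀ h, π (u₀ h) = ηA (xi x h) := fun h => LinearMap.congr_fun hu₀ h
    have hmem : ∀ z : integerRing p E, π z = 0 → z ∈ Φ.F (1 + (m - 1)) := by
      intro z hz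
      rw [show 1 + (m - 1) = m by ring]
      exact Ideal.Quotient.eq_zero_iff_mem.mp hz
    obtain ⟨u, hu1, hu2⟩ := exists_algHom_lift Φ hΦ (Fact.out) hm u₀
      (by apply hmem; rw [map_sub, hu₀', map_one, map_one, map_one, sub_self])
      (by intro a b; apply hmem
          rw [map_sub, map_mul π, hu₀', hu₀', hu₀', map_mul (xi x), map_mul ηA, sub_self])
      (by
        intro h; apply hmem
        rw [map_sub]
        have e1 : π (((toConv u₀ : WithConv (H →ₗ[R₀] integerRing p E)) ^ p) h)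
            = (convPostcomp π ((toConv u₀ : WithConv (H →ₗ[R₀] integerRing p E)) ^ p)) h := rfl
        have e2 : convPostcomp π (toConv u₀ : WithConv (H →ₗ[R₀] integerRing p E))
            = convPostcomp ηA (toConv (xi x).toLinearMap) := by
          apply WithConv.ext; apply LinearMap.ext; intro h; exact hu₀' h
        rw [e1, map_pow, e2, ← map_pow, hxi x, map_one, LinearMap.convOne_apply, AlgHom.commutes,
          sub_self])
    exact ⟨u₀, u, hu₀', hu1, hu2⟩
  choose u₀ u hu₀ hu1 hu2 using key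
  let φ : (H →ₐ[R₀] PadicAlgCl p) → (H →ₐ[R₀] PadicAlgCl p) := fun x => (intIncl p E).comp (u x)
  have hinj : Function.Injective φ := by
    intro x y hxy
    have huxy : u x = u y := by
      apply AlgHom.ext; intro h
      apply intIncl_injective p E
      exact AlgHom.congr_fun hxy h
    have hxy' : xi x = xi y := by
      refine pointInt_eq_of_lifts_congr p hm η (xi x) (xi y) (hxi x) (hxi y) (u₀ x) (u₀ y)
        (hu₀ x) (hu₀ y) (toConv (u x).toLinearMap) (hu2 x) (hu1 x) ?_
      intro h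
      have := hu1 y h
      rw [← huxy] at this
      exact this
    apply AlgHom.ext; intro h
    have := AlgHom.congr_fun hxy' h
    exact congrArg (intIncl p L) this
  have hsurj : Function.Surjective φ := Finite.injective_iff_surjective.mp hinj
  rw [hL, valueField, IntermediateField.adjoin_le_iff]
  rintro z ⟨x, h, rfl⟩
  obtain ⟨y, rfl⟩ := hsurj x
  exact ((u y h : integerRing p E) : E).2

/-- Fontaine's bound for the field of values. -/
theorem fontaineBdd_valueField [Finite (H →ₐ[ratLocalizedAt p] PadicAlgCl p)]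
    (hkill : ∀ x : H →ₐ[ratLocalizedAt p] PadicAlgCl p,
      (toConv x.toLinearMap : WithConv (H →ₗ[ratLocalizedAt p] PadicAlgCl p)) ^ p = 1) :
    FontaineBdd p (valueField p H) := by
  intro m hm
  refine propertyPm_valueField p hkill ?_
  have hp1 : (0 : ℝ) < (p : ℝ) - 1 := by
    have := one_lt_p_real p
    linarith
  rw [div_lt_iff₀ hp1] at hm
  linarith

end main

end Fermat.Agent.TW.Flat
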