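/-
F2 Part E.1: interface between the Prelude's flatness condition (`IsFlatGaloisModule`,
helper6's repackaging of `GaloisRepAdic.IsFlatAt`) and Fontaine's bound.

`exists_fontaineBdd_field_of_isFlatGaloisModule`: if a finite Galois module `M` killed by `p` is
flat at `p`, then the kernel of the action of the local Galois group
`G_p = Gal(PadicAlgCl p / ℚ_p)` (through `localGaloisToGlobal p`) on `M` is the fixing subgroup of a
finite Galois extension `L/ℚ_p` with `FontaineBdd p L`.
-/
import Mathlib
import Fermat.Prelude.Def_GaloisRep_CompletionBridge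
import Fermat.Agent.TW.FlatModule_helper6
import Fermat.Agent.TW.Flat_helper7_Pm

set_option autoImplicit false
set_option linter.unusedSectionVars false
set_option linter.style.haveILetI false

namespace Fermat.Agent.TW.Flat

open GaloisRep Fermat.Agent.Ram WithConv

variable (p : ℕ) [Fact p.Prime]

local notation "R₀" => ratLocalizedAt p

/-- the embedding `ℚ̄ → PadicAlgCl p` of the Prelude, as a `ℤ_(p)`-algebra map. -/
noncomputable def iotaAlg : AlgebraicClosure ℚ →ₐ[R₀] PadicAlgCl p :=
  ratLocAlgHom p (padicEmbedding p).toRingHom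

@[simp] lemma iotaAlg_apply (z : AlgebraicClosure ℚ) : iotaAlg p z = padicEmbedding p z := rfl

lemma iotaAlg_injective : Function.Injective (iotaAlg p) := (padicEmbedding p).toRingHom.injective

/-- elements of `PadicAlgCl p` algebraic over `ℚ` come from `ℚ̄`. -/
lemma exists_padicEmbedding_eq_of_isIntegral {z : PadicAlgCl p} (hz : IsIntegral ℚ z) :
    ∃ w : AlgebraicClosure ℚ, padicEmbedding p w = z := by
  letI : Algebra (AlgebraicClosure ℚ) (PadicAlgCl p) := (padicEmbedding p).toRingHom.toAlgebra
  haveI : IsScalarTower ℚ (AlgebraicClosure ℚ) (PadicAlgCl p) :=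
    IsScalarTower.of_algebraMap_eq' (Subsingleton.elim _ _)
  have hz' : IsIntegral (AlgebraicClosure ℚ) z := hz.tower_top
  have hdeg : (minpoly (AlgebraicClosure ℚ) z).degree = 1 :=
    IsAlgClosed.degree_eq_one_of_irreducible _ (minpoly.irreducible hz')
  obtain ⟨w, hw⟩ := minpoly.mem_range_of_degree_eq_one (AlgebraicClosure ℚ) z hdeg
  exact ⟨w, hw⟩

lemma isIntegral_rat_of_isIntegral_ratLoc {z : PadicAlgCl p} (hz : IsIntegral R₀ z) :
    IsIntegral ℚ z := by
  haveI : IsScalarTower R₀ ℚ (PadicAlgCl p) := IsScalarTower.of_algebraMap_eq' rfl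
  exact hz.tower_top

variable {H : Type*} [CommRing H] [Bialgebra (ratLocalizedAt p) H]
  [Module.Finite (ratLocalizedAt p) H]

/-- a `PadicAlgCl p`-point of `H` comes from a unique `ℚ̄`-point. -/
lemma exists_point_qbar (y : H →ₐ[R₀] PadicAlgCl p) :
    ∃ x : H →ₐ[R₀] AlgebraicClosure ℚ, (iotaAlg p).comp x = y := by
  haveI : Algebra.IsIntegral R₀ H := Algebra.IsIntegral.of_finite _ _
  have hex : ∀ h : H, ∃ w : AlgebraicClosure ℚ, padicEmbedding p w = y h := fun h =>
    exists_padicEmbedding_eq_of_isIntegral p
      (isIntegral_rat_of_isIntegral_ratLoc p ((Algebra.IsIntegral.isIntegral h).map y))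
  choose f hf using hex
  have hinj := (padicEmbedding p).toRingHom.injective
  refine ⟨{ toFun := f
            map_one' := hinj (by simp [hf])
            map_mul' := fun a b => hinj (by simp [hf])
            map_zero' := hinj (by simp [hf])
            map_add' := fun a b => hinj (by simp [hf])
            commutes' := fun r => hinj (by
              show padicEmbedding p (f (algebraMap R₀ H r)) = padicEmbedding p (algebraMap R₀ _ r)
              rw [hf, y.commutes]
              exact ((iotaAlg p).commutes r).symm) }, ?_⟩
  apply AlgHom.ext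
  intro h
  exact hf h

end Fermat.Agent.TW.Flat

namespace Fermat.Agent.TW.Flat

open GaloisRep Fermat.Agent.Ram WithConv

variable (p : ℕ) [Fact p.Prime]

section points

variable {H : Type*} [CommRing H] [Bialgebra (ratLocalizedAt p) H]
  [Module.Finite (ratLocalizedAt p) H]

/-- transport of points `ℚ̄ ⟶ PadicAlgCl p`. -/
noncomputable def pointToPadic (x : H →ₐ[ratLocalizedAt p] AlgebraicClosure ℚ) :
    H →ₐ[ratLocalizedAt p] PadicAlgCl p := (iotaAlg p).comp x

@[simp] lemma pointToPadic_apply (x : H →ₐ[ratLocalizedAt p] AlgebraicClosure ℚ) (h : H) :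
    pointToPadic p x h = padicEmbedding p (x h) := rfl

lemma pointToPadic_injective :
    Function.Injective (pointToPadic p (H := H)) := by
  intro x y hxy
  apply AlgHom.ext
  intro h
  exact iotaAlg_injective p (AlgHom.congr_fun hxy h)

lemma pointToPadic_surjective :
    Function.Surjective (pointToPadic p (H := H)) := fun y => exists_point_qbar p y

/-- the field of values is generated by finitely many values. -/
lemma valueField_eq_adjoin_finite [Finite (H →ₐ[ratLocalizedAt p] PadicAlgCl p)] :
    ∃ S : Set (PadicAlgCl p), S.Finite ∧ (∀ z ∈ S, IsIntegral ℚ_[p] z) ∧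
      valueField p H = IntermediateField.adjoin ℚ_[p] S := by
  obtain ⟨n, s, hs⟩ := Module.Finite.exists_fin (R := ratLocalizedAt p) (M := H)
  haveI : Algebra.IsIntegral (ratLocalizedAt p) H := Algebra.IsIntegral.of_finite _ _
  refine ⟨Set.range (fun yi : (H →ₐ[ratLocalizedAt p] PadicAlgCl p) × Fin n => yi.1 (s yi.2)),
    Set.finite_range _, ?_, ?_⟩
  · rintro z ⟨⟨y, i⟩, rfl⟩
    have h1 : IsIntegral ℚ (y (s i)) :=
      isIntegral_rat_of_isIntegral_ratLoc p ((Algebra.IsIntegral.isIntegral (s i)).map y)
    exact h1.tower_top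
  · apply le_antisymm
    · rw [valueField, IntermediateField.adjoin_le_iff]
      rintro z ⟨y, h, rfl⟩
      have hmem : h ∈ Submodule.span (ratLocalizedAt p) (Set.range s) := by rw [hs]; trivial
      induction hmem using Submodule.span_induction with
      | mem x hx =>
        obtain ⟨i, rfl⟩ := hx
        exact IntermediateField.subset_adjoin _ _ ⟨(y, i), rfl⟩
      | zero => rw [map_zero]; exact zero_mem _
      | add a b _ _ ha hb => rw [map_add]; exact add_mem ha hb
      | smul r a _ ha =>
        rw [map_smul, Algebra.smul_def]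
        refine mul_mem ?_ ha
        have : algebraMap (ratLocalizedAt p) (PadicAlgCl p) r
            = algebraMap ℚ_[p] (PadicAlgCl p) ((r : ℚ) : ℚ_[p]) := rfl
        rw [this]
        exact IntermediateField.algebraMap_mem _ _
    · rw [IntermediateField.adjoin_le_iff]
      rintro z ⟨⟨y, i⟩, rfl⟩
      exact apply_mem_valueField p y (s i)

end points

/-- **Interface theorem.** A finite Galois module killed by `p` and flat at `p` is, as a module
over the local Galois group, unramified-bounded in Fontaine's sense: the kernel of the action is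
the fixing subgroup of a finite Galois extension `L/ℚ_p` with `FontaineBdd p L`. -/
theorem exists_fontaineBdd_field_of_isFlatGaloisModule {M : Type} [AddCommGroup M] [Finite M]
    (act : (AlgebraicClosure ℚ ≃ₐ[ℚ] AlgebraicClosure ℚ) → M → M)
    (hflat : IsFlatGaloisModule p M act) (hpM : ∀ m : M, p • m = 0) :
    ∃ L : IntermediateField ℚ_[p] (PadicAlgCl p), FiniteDimensional ℚ_[p] L ∧ IsGalois ℚ_[p] L ∧
      FontaineBdd p L ∧
      ∀ τ : PadicAlgCl p ≃ₐ[ℚ_[p]] PadicAlgCl p,
        (∀ z ∈ L, τ z = z) ↔ ∀ m : M, act (localGaloisToGlobal p τ) m = m := by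
  obtain ⟨H, i1, i2, hfin, hfl, hco, e, he1, he2⟩ := hflat
  letI := i1
  letI := i2
  haveI := hfin
  haveI := hfl
  haveI := hco
  haveI : Module.Projective (ratLocalizedAt p) H := ratLoc_projective_of_finite_flat p H
  -- finiteness of the set of points
  haveI : Finite (H →ₐ[ratLocalizedAt p] PadicAlgCl p) := by
    refine Finite.of_surjective (fun m : M => pointToPadic p (e.symm m).ofConv) ?_
    intro y
    obtain ⟨x, rfl⟩ := pointToPadic_surjective p y
    exact ⟨e (toConv x), by show pointToPadic p (e.symm (e (toConv x))).ofConv = _; rw [Equiv.symm_apply_apply]⟩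
  -- `e` is a group homomorphism
  have he_one : e 1 = 0 := by
    have := he1 1 1
    rw [mul_one] at this
    exact left_eq_add.mp this
  have he_pow : ∀ (X : WithConv (H →ₐ[ratLocalizedAt p] AlgebraicClosure ℚ)) (n : ℕ),
      e (X ^ n) = n • e X := by
    intro X n
    induction n with
    | zero => rw [pow_zero, zero_smul]; exact he_one
    | succ n ih => rw [pow_succ, he1, ih, succ_nsmul]
  -- points are killed by `p`
  have hkill : ∀ y : H →ₐ[ratLocalizedAt p] PadicAlgCl p,
      (toConv y.toLinearMap : WithConv (H →ₗ[ratLocalizedAt p] PadicAlgCl p)) ^ p = 1 := by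
    intro y
    obtain ⟨x, rfl⟩ := pointToPadic_surjective p y
    have hX : (toConv x : WithConv (H →ₐ[ratLocalizedAt p] AlgebraicClosure ℚ)) ^ p = 1 := by
      apply e.injective
      rw [he_pow, hpM, he_one]
    have hlin : (toConv x.toLinearMap : WithConv (H →ₗ[ratLocalizedAt p] AlgebraicClosure ℚ)) ^ p
        = 1 := by
      have h1 := AlgHom.toLinearMap_convPow
        (toConv x : WithConv (H →ₐ[ratLocalizedAt p] AlgebraicClosure ℚ)) p
      rw [hX] at h1
      rw [← h1]
      rfl
    have h2 : (toConv (pointToPadic p x).toLinearMap :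
        WithConv (H →ₗ[ratLocalizedAt p] PadicAlgCl p))
        = convPostcomp (iotaAlg p) (toConv x.toLinearMap) := rfl
    rw [h2, ← map_pow, hlin, map_one]
  refine ⟨valueField p H, ?_, ?_, fontaineBdd_valueField p hkill, ?_⟩
  · -- finite-dimensional
    obtain ⟨S, hSfin, hSint, hS⟩ := valueField_eq_adjoin_finite p (H := H)
    rw [hS]
    haveI : Finite S := hSfin
    exact IntermediateField.finiteDimensional_adjoin hSint
  · -- Galois
    haveI : Normal ℚ_[p] (valueField p H) := by
      rw [IntermediateField.normal_iff_forall_map_le']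
      intro τ
      rw [valueField, IntermediateField.adjoin_map, IntermediateField.adjoin_le_iff]
      rintro z ⟨w, ⟨y, h, rfl⟩, rfl⟩
      exact IntermediateField.subset_adjoin _ _
        ⟨(ratLocAlgHom p (τ : PadicAlgCl p →ₐ[ℚ_[p]] PadicAlgCl p).toRingHom).comp y, h, rfl⟩
    haveI : Algebra.IsAlgebraic ℚ_[p] (valueField p H) := by
      obtain ⟨S, hSfin, hSint, hS⟩ := valueField_eq_adjoin_finite p (H := H)
      haveI : Finite S := hSfin
      haveI : FiniteDimensional ℚ_[p] (valueField p H) := by
        rw [hS]; exact IntermediateField.finiteDimensional_adjoin hSint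
      exact Algebra.IsAlgebraic.of_finite _ _
    exact ⟨⟩
  · -- the kernel of the action
    intro τ
    set σ := localGaloisToGlobal p τ with hσ
    have hτι : ∀ z : AlgebraicClosure ℚ, τ (padicEmbedding p z) = padicEmbedding p (σ z) :=
      fun z => (padicEmbedding_localGaloisToGlobal p τ z).symm
    -- `σ ∘ x` as a point
    let σx : (H →ₐ[ratLocalizedAt p] AlgebraicClosure ℚ) →
        (H →ₐ[ratLocalizedAt p] AlgebraicClosure ℚ) := fun x =>
      (ratLocAlgHom p (σ : AlgebraicClosure ℚ →ₐ[ℚ] AlgebraicClosure ℚ).toRingHom).comp x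
    have hact : ∀ x : H →ₐ[ratLocalizedAt p] AlgebraicClosure ℚ,
        e (toConv (σx x)) = act σ (e (toConv x)) := fun x =>
      he2 σ (toConv x) (toConv (σx x)) (fun h => rfl)
    constructor
    · intro hfix m
      obtain ⟨X, rfl⟩ := e.surjective m
      have hX : toConv (σx X.ofConv) = X := by
        apply WithConv.ext
        apply AlgHom.ext
        intro h
        apply (padicEmbedding p).toRingHom.injective
        show padicEmbedding p (σ (X.ofConv h)) = padicEmbedding p (X.ofConv h)
        rw [← hτι]
        exact hfix _ (apply_mem_valueField p (pointToPadic p X.ofConv) h)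
      have := hact X.ofConv
      rw [hX] at this
      exact this.symm
    · intro hm z hz
      rw [valueField] at hz
      induction hz using IntermediateField.adjoin_induction with
      | mem z hz =>
        obtain ⟨y, h, rfl⟩ := hz
        obtain ⟨x, rfl⟩ := pointToPadic_surjective p y
        have hx : toConv (σx x) = toConv x := by
          apply e.injective
          rw [hact, hm]
        have hx' : σ (x h) = x h := by
          have := congrArg (fun X : WithConv (H →ₐ[ratLocalizedAt p] AlgebraicClosure ℚ) =>
            X.ofConv h) hx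
          exact this
        rw [pointToPadic_apply, hτι, hx']
      | algebraMap r => exact τ.commutes r
      | add a b _ _ ha hb => rw [map_add, ha, hb]
      | inv a _ ha => rw [map_inv₀, ha]
      | mul a b _ _ ha hb => rw [map_mul, ha, hb]

end Fermat.Agent.TW.Flat
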