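/-
F2 (flat local condition at p): the local condition `bddCond p Y ≤ H¹(G_p, Y)` of
Fontaine-bounded classes, and Theorem 1 (I-flat): the restriction to `G_p` of the `ad⁰`-class of a
flat deformation `rbar + ε b` lies in `bddCond`.
-/
import Mathlib
import Fermat.Agent.TW.LocalCond_helper6
import Fermat.Agent.TW.FlatIface_helper7

set_option autoImplicit false
set_option linter.unusedSectionVars false
set_option linter.style.haveILetI false

noncomputable section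

namespace Fermat.Agent.TW

open Fermat.Agent.S53 groupCohomology Matrix CategoryTheory ExtCitation Fermat.Agent.Ram

variable (p : ℕ) [Fact p.Prime] {k : Type} [Field k]

/-- A function `c` on the local Galois group `G_p` is *Fontaine-bounded* if it vanishes on the
fixing subgroup of a finite Galois extension `L/ℚ_p` satisfying Fontaine's bound
`FontaineBdd p L`. -/
def IsBddFun {V : Type*} [Zero V] (c : (PadicAlgCl p ≃ₐ[ℚ_[p]] PadicAlgCl p) → V) : Prop :=
  ∃ L : IntermediateField ℚ_[p] (PadicAlgCl p), FiniteDimensional ℚ_[p] L ∧ IsGalois ℚ_[p] L ∧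
    FontaineBdd p L ∧ ∀ τ : PadicAlgCl p ≃ₐ[ℚ_[p]] PadicAlgCl p, (∀ z ∈ L, τ z = z) → c τ = 0

variable {p}

theorem fontaineBdd_bot : FontaineBdd p (⊥ : IntermediateField ℚ_[p] (PadicAlgCl p)) :=
  fun _ _ _ _ _ => bot_le

theorem isBddFun_zero {V : Type*} [Zero V] :
    IsBddFun p (0 : (PadicAlgCl p ≃ₐ[ℚ_[p]] PadicAlgCl p) → V) :=
  ⟨⊥, inferInstance, inferInstance, fontaineBdd_bot, fun _ _ => rfl⟩

theorem IsBddFun.add {V : Type*} [AddZeroClass V]
    {c c' : (PadicAlgCl p ≃ₐ[ℚ_[p]] PadicAlgCl p) → V}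
    (h : IsBddFun p c) (h' : IsBddFun p c') : IsBddFun p (c + c') := by
  obtain ⟨L, hL1, hL2, hL3, hL4⟩ := h
  obtain ⟨L', hL1', hL2', hL3', hL4'⟩ := h'
  haveI := hL1; haveI := hL1'; haveI := hL2; haveI := hL2'
  refine ⟨L ⊔ L', inferInstance, inferInstance, hL3.sup hL3', fun τ hτ => ?_⟩
  have h1 := hL4 τ fun z hz => hτ z ((le_sup_left : L ≤ L ⊔ L') hz)
  have h2 := hL4' τ fun z hz => hτ z ((le_sup_right : L' ≤ L ⊔ L') hz)
  show c τ + c' τ = 0
  rw [h1, h2, add_zero]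

theorem IsBddFun.neg {V : Type*} [SubtractionMonoid V]
    {c : (PadicAlgCl p ≃ₐ[ℚ_[p]] PadicAlgCl p) → V}
    (h : IsBddFun p c) : IsBddFun p (-c) := by
  obtain ⟨L, hL1, hL2, hL3, hL4⟩ := h
  refine ⟨L, hL1, hL2, hL3, fun τ hτ => ?_⟩
  show -c τ = 0
  rw [hL4 τ hτ, neg_zero]

/-- two bounded functions vanish on the fixing subgroup of a common bounded field. -/
theorem IsBddFun.exists_common {V V' : Type*} [Zero V] [Zero V']
    {c : (PadicAlgCl p ≃ₐ[ℚ_[p]] PadicAlgCl p) → V}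
    {c' : (PadicAlgCl p ≃ₐ[ℚ_[p]] PadicAlgCl p) → V'}
    (h : IsBddFun p c) (h' : IsBddFun p c') :
    ∃ L : IntermediateField ℚ_[p] (PadicAlgCl p), FiniteDimensional ℚ_[p] L ∧ IsGalois ℚ_[p] L ∧
      FontaineBdd p L ∧ ∀ τ : PadicAlgCl p ≃ₐ[ℚ_[p]] PadicAlgCl p, (∀ z ∈ L, τ z = z) →
        c τ = 0 ∧ c' τ = 0 := by
  obtain ⟨L, hL1, hL2, hL3, hL4⟩ := h
  obtain ⟨L', hL1', hL2', hL3', hL4'⟩ := h'
  haveI := hL1; haveI := hL1'; haveI := hL2; haveI := hL2'
  exact ⟨L ⊔ L', inferInstance, inferInstance, hL3.sup hL3', fun τ hτ =>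
    ⟨hL4 τ fun z hz => hτ z ((le_sup_left : L ≤ L ⊔ L') hz),
      hL4' τ fun z hz => hτ z ((le_sup_right : L' ≤ L ⊔ L') hz)⟩⟩

variable (p)

/-- the Fontaine-bounded classes in `H¹(G_p, Y)`: those having a bounded representative. -/
def bddCond (Y : Rep.{0} ℤ (primeLocalGaloisGroup (pPrime p))) : AddSubgroup (H1 Y) where
  carrier := {x | ∃ c : cocycles₁ Y,
    IsBddFun p (fun τ : PadicAlgCl p ≃ₐ[ℚ_[p]] PadicAlgCl p =>
      (c : primeLocalGaloisGroup (pPrime p) → Y.V) τ) ∧ (H1π Y).hom c = x}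
  zero_mem' := ⟨0, isBddFun_zero, map_zero _⟩
  add_mem' := by
    rintro _ _ ⟨c, hc, rfl⟩ ⟨c', hc', rfl⟩
    exact ⟨c + c', hc.add hc', map_add _ _ _⟩
  neg_mem' := by
    rintro _ ⟨c, hc, rfl⟩
    exact ⟨-c, hc.neg, map_neg _ _⟩

theorem mem_bddCond (Y : Rep.{0} ℤ (primeLocalGaloisGroup (pPrime p))) (x : H1 Y) :
    x ∈ bddCond p Y ↔ ∃ c : cocycles₁ Y,
      IsBddFun p (fun τ : PadicAlgCl p ≃ₐ[ℚ_[p]] PadicAlgCl p =>
        (c : primeLocalGaloisGroup (pPrime p) → Y.V) τ) ∧ (H1π Y).hom c = x := Iff.rfl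


section IFlat

variable {p}

/-- **Theorem 1 (I-flat).** For a deformation `rbar + ε b` which is flat at `p`, the restriction
to `G_p` of its `ad⁰`-class is Fontaine-bounded. -/
theorem res_adCocycle_mem_bddCond [Finite k] (hpk : (p : k) = 0) {rbar : Gal →* M2 k}
    {b : Gal → M2 k} (hb : IsTwCocycle rbar b) (hc : MatCont (defOfCocycle rbar b hb))
    (hflat : (ofMatrix (defOfCocycle rbar b hb) hc).IsFlatAt p)
    (htr : ∀ σ, Matrix.trace (b σ * rbar σ⁻¹) = 0) :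
    (groupCohomology.map (primeLocalToGlobal (pPrime p))
        (𝟙 (Rep.res (primeLocalToGlobal (pPrime p)) (adRep rbar))) 1).hom
      ((H1π (adRep rbar)).hom (adCocycle hb htr)) ∈
      bddCond p (Rep.res (primeLocalToGlobal (pPrime p)) (adRep rbar)) := by
  haveI : Finite (DualNumber k) := inferInstanceAs (Finite (k × k))
  have hM := isFlatGaloisModule_of_isFlatAt_ofMatrix (defOfCocycle rbar b hb) hc hflat
  have hpM : ∀ m : Fin 2 → DualNumber k, p • m = 0 := by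
    intro m
    have hp0 : ((p : ℕ) : DualNumber k) = 0 := by
      rw [← TrivSqZeroExt.inl_natCast, hpk, TrivSqZeroExt.inl_zero]
    rw [← Nat.cast_smul_eq_nsmul (DualNumber k), hp0, zero_smul]
  obtain ⟨L, hL1, hL2, hL3, hL4⟩ :=
    Flat.exists_fontaineBdd_field_of_isFlatGaloisModule p _ hM hpM
  refine ⟨mapCocycles₁ (primeLocalToGlobal (pPrime p))
    (𝟙 (Rep.res (primeLocalToGlobal (pPrime p)) (adRep rbar))) (adCocycle hb htr), ?_,
    (H1π_comp_map_apply (primeLocalToGlobal (pPrime p))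
      (𝟙 (Rep.res (primeLocalToGlobal (pPrime p)) (adRep rbar))) (adCocycle hb htr)).symm⟩
  refine ⟨L, hL1, hL2, hL3, fun τ hτ => ?_⟩
  have h1 := (hL4 τ).1 hτ
  have h2 : defOfCocycle rbar b hb (localGaloisToGlobal p τ) = 1 := by
    apply Matrix.mulVec_injective
    funext m
    rw [Matrix.one_mulVec]
    exact h1 m
  obtain ⟨h3, h4⟩ := (defOfCocycle_eq_one_iff hb _).1 h2
  apply Subtype.ext
  show b (localGaloisToGlobal p τ) * rbar (localGaloisToGlobal p τ)⁻¹ = 0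
  rw [h4, zero_mul]

end IFlat

end Fermat.Agent.TW
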