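/-
F2 (flat local condition at p), Kummer dictionary over a finite Galois extension `L₀/ℚ_p`
containing a primitive `p`-th root of unity `ζ`, inside `Ω = PadicAlgCl p`.

`IsKummerGen L₀ ζ ψ w`: `w ≠ 0` and `τ w = ζ^(ψ τ) w` for every `τ ∈ G_p` fixing `L₀`.
* `exists_isKummerGen` (Lagrange resolvent): every character `ψ` of the fixing subgroup of `L₀`
  which is trivial on the fixing subgroup of a finite Galois `L ⊇ L₀` has a generator `w ∈ L`;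
* `IsKummerGen.pow_mem`, `.div_mem` (injectivity), `.mul`, `.map` (Galois equivariance),
  `.eq_zero_of_mem`.
-/
import Mathlib

set_option autoImplicit false
set_option linter.unusedSectionVars false
set_option linter.style.haveILetI false

namespace Fermat.Agent.TW.Flat

variable {p : ℕ} [Fact p.Prime]

local notation "Ω" => PadicAlgCl p
local notation "GP" => (PadicAlgCl p ≃ₐ[ℚ_[p]] PadicAlgCl p)

/-- an element of `Ω` fixed by the fixing subgroup of `L₀` lies in `L₀`. -/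
lemma mem_of_forall_fixing (L₀ : IntermediateField ℚ_[p] Ω) {x : Ω}
    (hx : ∀ τ : GP, (∀ z ∈ L₀, τ z = z) → τ x = x) : x ∈ L₀ := by
  rw [← InfiniteGalois.fixedField_fixingSubgroup L₀, IntermediateField.mem_fixedField_iff]
  intro τ hτ
  exact hx τ ((IntermediateField.mem_fixingSubgroup_iff L₀ τ).1 hτ)

/-- powers of a `p`-th root of unity indexed by `ZMod p`. -/
lemma zeta_pow_val_add {M : Type*} [Monoid M] {ζ : M} (hζ : ζ ^ p = 1) (x y : ZMod p) :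
    ζ ^ (x + y).val = ζ ^ x.val * ζ ^ y.val := by
  rw [← pow_add]
  have h1 : (x + y).val = (x.val + y.val) % p := ZMod.val_add x y
  rw [h1]
  conv_rhs => rw [← Nat.mod_add_div (x.val + y.val) p, pow_add, pow_mul, hζ, one_pow, mul_one]

lemma zeta_pow_val_mul {M : Type*} [Monoid M] {ζ : M} (hζ : ζ ^ p = 1) (x y : ZMod p) :
    ζ ^ (x * y).val = (ζ ^ x.val) ^ y.val := by
  rw [← pow_mul]
  have h1 : (x * y).val = (x.val * y.val) % p := ZMod.val_mul x y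
  rw [h1]
  conv_rhs => rw [← Nat.mod_add_div (x.val * y.val) p, pow_add, pow_mul, hζ, one_pow, mul_one]

lemma zeta_pow_val_eq_one_iff {ζ : Ω} (hζ : IsPrimitiveRoot ζ p) (x : ZMod p) :
    ζ ^ x.val = 1 ↔ x = 0 := by
  rw [hζ.pow_eq_one_iff_dvd]
  constructor
  · intro h
    have h1 : x.val < p := ZMod.val_lt x
    have h2 : x.val = 0 := Nat.eq_zero_of_dvd_of_lt h h1
    exact (ZMod.val_eq_zero x).1 h2
  · rintro rfl
    rw [ZMod.val_zero]
    exact dvd_zero p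

/-- `w` is a Kummer generator for the character `ψ` of the fixing subgroup of `L₀`. -/
def IsKummerGen (L₀ : IntermediateField ℚ_[p] Ω) (ζ : Ω) (ψ : GP → ZMod p) (w : Ω) : Prop :=
  w ≠ 0 ∧ ∀ τ : GP, (∀ z ∈ L₀, τ z = z) → τ w = ζ ^ (ψ τ).val * w

namespace IsKummerGen

variable {L₀ : IntermediateField ℚ_[p] (PadicAlgCl p)} {ζ : PadicAlgCl p}
  {ψ ψ' : (PadicAlgCl p ≃ₐ[ℚ_[p]] PadicAlgCl p) → ZMod p} {w w' : PadicAlgCl p}

lemma pow_mem (hζ : ζ ^ p = 1) (h : IsKummerGen L₀ ζ ψ w) : w ^ p ∈ L₀ := by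
  refine mem_of_forall_fixing L₀ fun τ hτ => ?_
  rw [map_pow, h.2 τ hτ, mul_pow, ← pow_mul, mul_comm (ψ τ).val p, pow_mul, hζ, one_pow, one_mul]

lemma div_mem (h : IsKummerGen L₀ ζ ψ w) (h' : IsKummerGen L₀ ζ ψ' w')
    (hψ : ∀ τ : GP, (∀ z ∈ L₀, τ z = z) → ψ τ = ψ' τ) (hζ0 : ζ ≠ 0) : w' / w ∈ L₀ := by
  refine mem_of_forall_fixing L₀ fun τ hτ => ?_
  rw [map_div₀, h.2 τ hτ, h'.2 τ hτ, hψ τ hτ]
  have h1 : ζ ^ (ψ' τ).val ≠ 0 := pow_ne_zero _ hζ0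
  field_simp

lemma mul (hζ : ζ ^ p = 1) (h : IsKummerGen L₀ ζ ψ w) (h' : IsKummerGen L₀ ζ ψ' w') :
    IsKummerGen L₀ ζ (fun τ => ψ τ + ψ' τ) (w * w') := by
  refine ⟨mul_ne_zero h.1 h'.1, fun τ hτ => ?_⟩
  rw [map_mul, h.2 τ hτ, h'.2 τ hτ, zeta_pow_val_add hζ]
  ring

lemma one (L₀ : IntermediateField ℚ_[p] Ω) (ζ : Ω) : IsKummerGen L₀ ζ (fun _ => 0) 1 := by
  refine ⟨one_ne_zero, fun τ _ => ?_⟩
  rw [map_one, ZMod.val_zero, pow_zero, one_mul]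

lemma congr (h : IsKummerGen L₀ ζ ψ w)
    (hψ : ∀ τ : GP, (∀ z ∈ L₀, τ z = z) → ψ τ = ψ' τ) : IsKummerGen L₀ ζ ψ' w :=
  ⟨h.1, fun τ hτ => by rw [← hψ τ hτ]; exact h.2 τ hτ⟩

/-- a generator lying in `L₀` has trivial character. -/
lemma eq_zero_of_mem (hζ : IsPrimitiveRoot ζ p) (h : IsKummerGen L₀ ζ ψ w) (hw : w ∈ L₀)
    (τ : GP) (hτ : ∀ z ∈ L₀, τ z = z) : ψ τ = 0 := by
  have h1 := h.2 τ hτ
  rw [hτ w hw] at h1
  have h2 : ζ ^ (ψ τ).val = 1 := by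
    have h3 : (ζ ^ (ψ τ).val - 1) * w = 0 := by rw [sub_mul, one_mul, ← h1, sub_self]
    rcases mul_eq_zero.1 h3 with h4 | h4
    · exact sub_eq_zero.1 h4
    · exact absurd h4 h.1
  exact (zeta_pow_val_eq_one_iff hζ _).1 h2

/-- a generator whose `p`-th power is a `p`-th power in `L₀` has trivial character. -/
lemma eq_zero_of_pow_eq (hζ : IsPrimitiveRoot ζ p) (hζL : ζ ∈ L₀) (h : IsKummerGen L₀ ζ ψ w)
    {y : Ω} (hy : y ∈ L₀) (hwy : w ^ p = y ^ p) (τ : GP) (hτ : ∀ z ∈ L₀, τ z = z) : ψ τ = 0 := by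
  have hp0 : 0 < p := (Fact.out : p.Prime).pos
  have hy0 : y ≠ 0 := by
    rintro rfl
    rw [zero_pow hp0.ne'] at hwy
    exact h.1 (pow_eq_zero_iff hp0.ne' |>.1 hwy)
  have h1 : (w / y) ^ p = 1 := by rw [div_pow, hwy, div_self (pow_ne_zero _ hy0)]
  obtain ⟨i, -, hi⟩ := hζ.eq_pow_of_pow_eq_one h1
  have hw : w ∈ L₀ := by
    have : w = ζ ^ i * y := by rw [hi]; field_simp
    rw [this]
    exact mul_mem (_root_.pow_mem hζL i) hy
  exact eq_zero_of_mem hζ h hw τ hτ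

/-- Galois equivariance: `σ w` is a generator for `τ ↦ e * ψ (σ⁻¹ τ σ)` where `σ ζ = ζ^e`. -/
lemma map (hζ : ζ ^ p = 1) (h : IsKummerGen L₀ ζ ψ w) (σ : PadicAlgCl p ≃ₐ[ℚ_[p]] PadicAlgCl p)
    (hσL : ∀ z ∈ L₀, σ z ∈ L₀) (e : ZMod p) (he : σ ζ = ζ ^ e.val) :
    IsKummerGen L₀ ζ (fun τ => e * ψ (σ⁻¹ * τ * σ)) (σ w) := by
  refine ⟨fun h0 => h.1 (by simpa using h0), fun τ hτ => ?_⟩
  have hfix : ∀ z ∈ L₀, (σ⁻¹ * τ * σ) z = z := by
    intro z hz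
    show σ⁻¹ (τ (σ z)) = z
    rw [hτ (σ z) (hσL z hz)]
    exact σ.symm_apply_apply z
  have h1 := h.2 (σ⁻¹ * τ * σ) hfix
  have h2 : τ (σ w) = σ ((σ⁻¹ * τ * σ) w) := by
    show τ (σ w) = σ (σ⁻¹ (τ (σ w)))
    exact (σ.apply_symm_apply _).symm
  rw [h2, h1, map_mul, map_pow, he, zeta_pow_val_mul hζ]

end IsKummerGen


section resolvent

open Classical in
/-- **Existence of Kummer generators (Lagrange resolvent).** -/
theorem exists_isKummerGen (L₀ L : IntermediateField ℚ_[p] (PadicAlgCl p))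
    [FiniteDimensional ℚ_[p] L] [IsGalois ℚ_[p] L] (hL : L₀ ≤ L) {ζ : PadicAlgCl p}
    (hζ : ζ ^ p = 1) (hζL₀ : ζ ∈ L₀) (ψ : (PadicAlgCl p ≃ₐ[ℚ_[p]] PadicAlgCl p) → ZMod p)
    (hadd : ∀ σ τ : PadicAlgCl p ≃ₐ[ℚ_[p]] PadicAlgCl p, (∀ z ∈ L₀, σ z = z) →
      (∀ z ∈ L₀, τ z = z) → ψ (σ * τ) = ψ σ + ψ τ)
    (htriv : ∀ τ : PadicAlgCl p ≃ₐ[ℚ_[p]] PadicAlgCl p, (∀ z ∈ L, τ z = z) → ψ τ = 0) :
    ∃ w ∈ L, IsKummerGen L₀ ζ ψ w := by
  -- restriction to `L`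
  obtain ⟨res, hres⟩ : ∃ res : GP →* (L ≃ₐ[ℚ_[p]] L), res = AlgEquiv.restrictNormalHom L :=
    ⟨_, rfl⟩
  have hres_apply : ∀ (τ : GP) (x : L), ((res τ x : L) : Ω) = τ (x : Ω) := by
    intro τ x
    rw [hres]
    exact AlgEquiv.restrictNormal_commutes τ L x
  have hsurj : Function.Surjective res := by
    rw [hres]
    exact AlgEquiv.restrictNormalHom_surjective Ω
  obtain ⟨lift, hlift⟩ : ∃ lift : (L ≃ₐ[ℚ_[p]] L) → GP, ∀ γ, res (lift γ) = γ :=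
    ⟨Function.surjInv hsurj, Function.surjInv_eq hsurj⟩
  -- the subgroup fixing `L₀`
  obtain ⟨P, hP⟩ : ∃ P : (L ≃ₐ[ℚ_[p]] L) → Prop,
      P = fun γ => ∀ x : L, (x : Ω) ∈ L₀ → γ x = x := ⟨_, rfl⟩
  have hPiff : ∀ τ : GP, (∀ z ∈ L₀, τ z = z) ↔ P (res τ) := by
    intro τ
    rw [hP]
    constructor
    · intro h x hx
      apply Subtype.ext
      rw [hres_apply]
      exact h _ hx
    · intro h z hz
      have := h ⟨z, hL hz⟩ hz
      have h2 := hres_apply τ ⟨z, hL hz⟩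
      rw [this] at h2
      exact h2.symm
  have hPone : P 1 := by rw [hP]; intro x _; rfl
  have hPmul : ∀ γ γ', P γ → P γ' → P (γ * γ') := by
    rw [hP]
    intro γ γ' h h' x hx
    show γ (γ' x) = x
    rw [h' x hx, h x hx]
  have hPinv : ∀ γ, P γ → P γ⁻¹ := by
    rw [hP]
    intro γ h x hx
    have := h x hx
    calc γ⁻¹ x = γ⁻¹ (γ x) := by rw [this]
      _ = x := γ.symm_apply_apply x
  -- `ψ` depends only on the restriction
  have hfixL : ∀ ν : GP, res ν = 1 → ∀ z ∈ L, ν z = z := by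
    intro ν hν z hz
    have := hres_apply ν ⟨z, hz⟩
    rw [hν] at this
    exact this.symm
  have hψres : ∀ τ : GP, (∀ z ∈ L₀, τ z = z) → ψ τ = ψ (lift (res τ)) := by
    intro τ hτ
    have h1 : ∀ z ∈ L₀, lift (res τ) z = z := (hPiff _).2 (by rw [hlift]; exact (hPiff τ).1 hτ)
    have h2 : res ((lift (res τ))⁻¹ * τ) = 1 := by
      rw [map_mul, map_inv, hlift, inv_mul_cancel]
    have h3 := hfixL _ h2
    have h4 : ∀ z ∈ L₀, ((lift (res τ))⁻¹ * τ) z = z := fun z hz => h3 z (hL hz)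
    have h5 : τ = lift (res τ) * ((lift (res τ))⁻¹ * τ) := by group
    have h6 := hadd _ _ h1 h4
    rw [← h5, htriv _ h3, add_zero] at h6
    exact h6
  obtain ⟨ψb, hψb⟩ : ∃ ψb : (L ≃ₐ[ℚ_[p]] L) → ZMod p, ψb = fun γ => ψ (lift γ) := ⟨_, rfl⟩
  have hψb_res : ∀ τ : GP, (∀ z ∈ L₀, τ z = z) → ψb (res τ) = ψ τ := by
    intro τ hτ
    rw [hψb]
    exact (hψres τ hτ).symm
  have hψb_mul : ∀ γ γ', P γ → P γ' → ψb (γ * γ') = ψb γ + ψb γ' := by
    intro γ γ' h h'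
    have h1 : ∀ z ∈ L₀, lift γ z = z := (hPiff _).2 (by rw [hlift]; exact h)
    have h2 : ∀ z ∈ L₀, lift γ' z = z := (hPiff _).2 (by rw [hlift]; exact h')
    have h3 : ∀ z ∈ L₀, (lift γ * lift γ') z = z := fun z hz => by
      show lift γ (lift γ' z) = z
      rw [h2 z hz, h1 z hz]
    have h4 := hψb_res (lift γ * lift γ') h3
    rw [map_mul, hlift, hlift] at h4
    rw [h4, hadd _ _ h1 h2, hψb]
  -- `ζ` in `L`
  obtain ⟨z, hz⟩ : ∃ z : L, (z : Ω) = ζ := ⟨⟨ζ, hL hζL₀⟩, rfl⟩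
  have hzp : z ^ p = 1 := by
    apply Subtype.ext
    show ((z ^ p : L) : Ω) = 1
    rw [SubmonoidClass.coe_pow, hz, hζ]
  have hz0 : z ≠ 0 := by
    intro h
    rw [h, zero_pow (Fact.out : p.Prime).ne_zero] at hzp
    exact zero_ne_one hzp
  have hPz : ∀ γ, P γ → γ z = z := by
    intro γ h
    rw [hP] at h
    exact h z (by rw [hz]; exact hζL₀)
  -- the resolvent
  obtain ⟨S, hS⟩ : ∃ S : Finset (L ≃ₐ[ℚ_[p]] L), S = Finset.univ.filter P := ⟨_, rfl⟩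
  have hmemS : ∀ γ, γ ∈ S ↔ P γ := by
    intro γ
    rw [hS, Finset.mem_filter]
    exact ⟨fun h => h.2, fun h => ⟨Finset.mem_univ _, h⟩⟩
  obtain ⟨R, hR⟩ : ∃ R : L → L, R = fun a => ∑ γ ∈ S, z ^ (-ψb γ).val * γ a := ⟨_, rfl⟩
  -- equivariance
  have hequiv : ∀ τ', P τ' → ∀ a, τ' (R a) = z ^ (ψb τ').val * R a := by
    intro τ' hτ' a
    rw [hR]
    show τ' (∑ γ ∈ S, z ^ (-ψb γ).val * γ a) = z ^ (ψb τ').val * ∑ γ ∈ S, z ^ (-ψb γ).val * γ a
    rw [map_sum, Finset.mul_sum]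
    refine Finset.sum_equiv (Equiv.mulLeft τ') ?_ ?_
    · intro γ
      rw [hmemS, hmemS]
      constructor
      · intro h
        exact hPmul _ _ hτ' h
      · intro h
        have := hPmul _ _ (hPinv _ hτ') h
        rwa [Equiv.coe_mulLeft, inv_mul_cancel_left] at this
    · intro γ hγ
      have hγP := (hmemS γ).1 hγ
      rw [Equiv.coe_mulLeft, map_mul, map_pow, hPz τ' hτ', hψb_mul _ _ hτ' hγP, ← mul_assoc,
        ← zeta_pow_val_add hzp]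
      congr 2
      ring_nf
  -- non-vanishing (Dedekind)
  have hne : ∃ a, R a ≠ 0 := by
    by_contra hcon
    push Not at hcon
    have hli : LinearIndependent L (fun γ : L ≃ₐ[ℚ_[p]] L => ((γ : L →* L) : L → L)) := by
      have h1 := linearIndependent_monoidHom L L
      refine h1.comp (fun γ : L ≃ₐ[ℚ_[p]] L => (γ : L →* L)) ?_
      intro γ γ' h
      apply AlgEquiv.ext
      intro x
      exact DFunLike.congr_fun h x
    rw [linearIndependent_iff'] at hli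
    have h2 := hli S (fun γ => z ^ (-ψb γ).val) (by
      funext a
      have := hcon a
      rw [hR] at this
      simpa using this) 1 ((hmemS 1).2 hPone)
    exact pow_ne_zero _ hz0 h2
  obtain ⟨a, ha⟩ := hne
  refine ⟨(R a : Ω), (R a).2, ?_, fun τ hτ => ?_⟩
  · intro h0
    apply ha
    apply Subtype.ext
    exact h0
  · have h1 := hres_apply τ (R a)
    rw [← h1, hequiv _ ((hPiff τ).1 hτ) a, hψb_res τ hτ]
    show ((z ^ (ψ τ).val : L) : Ω) * ((R a : L) : Ω) = _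
    rw [SubmonoidClass.coe_pow, hz]

end resolvent

end Fermat.Agent.TW.Flat
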