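/-
F2 (flat local condition at p), count, part 1: concrete facts about a finite Galois extension
`L₀/ℚ_p` inside `Ω = PadicAlgCl p` (uniformizer, perfect residue field, Newton for `p`-th roots),
and the normal form of a Kummer generator of a bounded character.
-/
import Mathlib
import Fermat.Agent.TW.FlatKummer_helper7
import Fermat.Agent.TW.Flat_helper7_Int
import Fermat.Agent.Ram.BddKummer_helper8
import Fermat.Agent.Ram.Bridge_helper7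
import Fermat.Agent.Ram.UnitFilt_helper7

set_option autoImplicit false
set_option linter.unusedSectionVars false
set_option linter.style.haveILetI false

namespace Fermat.Agent.TW.Flat

open Fermat.Agent.Ram

variable {p : ℕ} [Fact p.Prime]

local notation "Ω" => PadicAlgCl p
local notation "GP" => (PadicAlgCl p ≃ₐ[ℚ_[p]] PadicAlgCl p)

section Concrete

variable (L₀ : IntermediateField ℚ_[p] (PadicAlgCl p)) [FiniteDimensional ℚ_[p] L₀]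

/-- a uniformizer of `L₀`, as an element of `Ω`. -/
theorem exists_isUnif_toSubfield : ∃ π : Ω, IsUnif L₀.toSubfield π := by
  obtain ⟨α, hα⟩ := exists_isUnif_top L₀
  refine ⟨(α : Ω), α.2, hα.pos, hα.lt_one, fun x hx hx1 => ?_⟩
  exact hα.le ⟨x, hx⟩ (Subfield.mem_top _) hx1

/-- the residue field of `L₀` is perfect, with an explicit inverse Frobenius. -/
theorem exists_perfect_exponent :
    ∃ m : ℕ, ∀ a ∈ L₀, ‖a‖ ≤ 1 → ‖(a ^ m) ^ p - a‖ < 1 := by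
  have hp1 : ‖(p : L₀)‖ < 1 := by
    rw [norm_p_intermediateField]
    exact inv_lt_one_of_one_lt₀ (by exact_mod_cast (Fact.out : p.Prime).one_lt)
  obtain ⟨m, hm⟩ := exists_pow_pow_sub_lt_one (L := L₀) (Fact.out : p.Prime) hp1
  exact ⟨m, fun a ha ha1 => hm ⟨a, ha⟩ ha1⟩

/-- **Newton**: elements of `L₀` close to `1` are `p`-th powers in `L₀`. -/
theorem exists_pow_eq_of_norm_sub_one_lt {ζ : Ω} (hζ : IsPrimitiveRoot ζ p) {v : Ω}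
    (hv : v ∈ L₀) (h : ‖v - 1‖ < ‖ζ - 1‖ ^ p) : ∃ y ∈ L₀, y ^ p = v := by
  have hpp : p.Prime := Fact.out
  have hp1 : (1 : ℝ) < p := one_lt_p_real p
  have hp0 : (0 : ℝ) < p := p_real_pos p
  by_cases hv1 : v = 1
  · exact ⟨1, L₀.one_mem, by rw [hv1, one_pow]⟩
  obtain ⟨x, hx⟩ : ∃ x : ℝ, x = ‖v - 1‖ := ⟨_, rfl⟩
  have hx0 : 0 < x := by rw [hx, norm_pos_iff, sub_ne_zero]; exact hv1
  have hlamp : ‖ζ - 1‖ ^ (p - 1) = ‖(p : Ω)‖ := norm_sub_one_pow_eq hpp hζ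
  have hnp : ‖(p : Ω)‖ = (p : ℝ)⁻¹ := norm_natCast_p p
  have hp10 : p - 1 ≠ 0 := by have := hpp.two_le; omega
  -- `x^(p-1) < p^(-p)`
  have hxp : x ^ (p - 1) < ((p : ℝ)⁻¹) ^ p := by
    have h1 : x ^ (p - 1) < (‖ζ - 1‖ ^ p) ^ (p - 1) :=
      pow_lt_pow_left₀ (hx ▸ h) hx0.le hp10
    rwa [← pow_mul, mul_comm, pow_mul, hlamp, hnp] at h1
  obtain ⟨s, hs⟩ : ∃ s : ℝ, s = -Real.logb p x := ⟨_, rfl⟩
  have hps : (p : ℝ) ^ (-s) = x := by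
    rw [hs, neg_neg, Real.rpow_logb hp0 hp1.ne' hx0]
  have hs1 : (p : ℝ) < ((p : ℝ) - 1) * s := by
    have h1 : Real.logb p (x ^ (p - 1)) < Real.logb p (((p : ℝ)⁻¹) ^ p) :=
      Real.logb_lt_logb hp1 (pow_pos hx0 _) hxp
    rw [Real.logb_pow, Real.logb_pow, Real.logb_inv, Real.logb_self_eq_one hp1] at h1
    have h2 : ((p - 1 : ℕ) : ℝ) = (p : ℝ) - 1 := by
      rw [Nat.cast_sub hpp.one_le, Nat.cast_one]
    rw [h2] at h1
    rw [hs]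
    linarith
  obtain ⟨t, ht⟩ : ∃ t : ℝ, t = s - 1 := ⟨_, rfl⟩
  have ht1 : 1 < ((p : ℝ) - 1) * t := by rw [ht]; linarith
  -- the element of the ring of integers
  have hvn : ‖v‖ ≤ 1 := by
    have h1 : ‖v - 1‖ < 1 := h.trans_le (pow_le_one₀ (norm_nonneg _)
      (norm_sub_one_lt_one hpp (by rw [hnp]; exact inv_lt_one_of_one_lt₀ hp1) hζ).le)
    have h2 : v = (v - 1) + 1 := by ring
    rw [h2]
    exact (IsUltrametricDist.norm_add_le_max _ _).trans (max_le h1.le norm_one.le)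
  obtain ⟨a, ha⟩ : ∃ a : integerRing p L₀, a = ⟨⟨v, hv⟩, hvn⟩ := ⟨_, rfl⟩
  have haF : a - 1 ∈ (intPFilt p L₀).F (1 + t) := by
    rw [mem_intPFilt_F]
    have h1 : (((a - 1 : integerRing p L₀) : L₀) : Ω) = v - 1 := by rw [ha]; rfl
    rw [h1, ← hx, ← hps, ht]
    apply le_of_eq
    congr 1
    ring
  obtain ⟨y, -, hy⟩ := (intPFilt p L₀).exists_pow_mul_eq_one (intPFilt_isComplete p L₀) hpp ht1 haF
  have hy' : (((y : L₀) : Ω)) ^ p * v = 1 := by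
    have h1 := congrArg (fun z : integerRing p L₀ => ((z : L₀) : Ω)) hy
    simpa [ha] using h1
  have hy0 : ((y : L₀) : Ω) ≠ 0 := by
    intro h0
    rw [h0, zero_pow hpp.ne_zero, zero_mul] at hy'
    exact zero_ne_one hy'
  refine ⟨(((y : L₀) : Ω))⁻¹, L₀.inv_mem (y : L₀).2, ?_⟩
  rw [inv_pow]
  exact inv_eq_of_mul_eq_one_right hy'

end Concrete

section NormalForm

variable (L₀ L : IntermediateField ℚ_[p] (PadicAlgCl p))
  [FiniteDimensional ℚ_[p] L₀] [IsGalois ℚ_[p] L₀] [FiniteDimensional ℚ_[p] L] [IsGalois ℚ_[p] L]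

lemma norm_natCast_p_lt_one : ‖((p : ℕ) : Ω)‖ < 1 := by
  rw [norm_natCast_p]
  exact inv_lt_one_of_one_lt₀ (one_lt_p_real p)

/-- **Normal form** of a Kummer generator of a nontrivial bounded character of the fixing subgroup
of `L₀`: its `p`-th power has an exact level `c₀ < j ≤ p c₀`, maximal in its class, and either
`p ∤ j` or `j = p c₀`. -/
theorem exists_kummerGen_normal_form (hL : L₀ ≤ L) (hbdd : FontaineBdd p L)
    (htame : ¬ p ∣ Module.finrank ℚ_[p] L₀) (hp2 : p ≠ 2)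
    {ζ : Ω} (hζ : IsPrimitiveRoot ζ p) (hζL₀ : ζ ∈ L₀)
    {π : Ω} (hπ : IsUnif L₀.toSubfield π) {c₀ : ℕ} (hc₀ : ‖ζ - 1‖ = ‖π‖ ^ c₀)
    (ψ : GP → ZMod p)
    (hadd : ∀ σ τ : GP, (∀ z ∈ L₀, σ z = z) → (∀ z ∈ L₀, τ z = z) → ψ (σ * τ) = ψ σ + ψ τ)
    (htriv : ∀ τ : GP, (∀ z ∈ L, τ z = z) → ψ τ = 0)
    (hne : ∃ τ : GP, (∀ z ∈ L₀, τ z = z) ∧ ψ τ ≠ 0) :
    ∃ w : Ω, IsKummerGen L₀ ζ ψ w ∧ ∃ j : ℕ, c₀ < j ∧ j ≤ p * c₀ ∧ (¬ p ∣ j ∨ j = p * c₀) ∧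
      ‖w ^ p - 1‖ = ‖π‖ ^ j ∧ ∀ y ∈ L₀, y ≠ 0 → ‖π‖ ^ j ≤ ‖w ^ p * y ^ p - 1‖ := by
  have hpp : p.Prime := Fact.out
  have hodd : Odd p := hpp.odd_of_ne_two hp2
  have hnp : ‖((p : ℕ) : Ω)‖ < 1 := norm_natCast_p_lt_one
  obtain ⟨m, hm⟩ := exists_perfect_exponent L₀
  have hc₀' : (‖π‖ ^ c₀) ^ (p - 1) = ‖((p : ℕ) : Ω)‖ := by
    rw [← hc₀]; exact norm_sub_one_pow_eq hpp hζ
  have hNewton : ∀ v ∈ L₀.toSubfield, ‖v - 1‖ < ‖π‖ ^ (p * c₀) →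
      ∃ y ∈ L₀.toSubfield, y ^ p = v := by
    intro v hv h
    rw [mul_comm, pow_mul, ← hc₀] at h
    exact exists_pow_eq_of_norm_sub_one_lt L₀ hζ hv h
  obtain ⟨w₀, hw₀L, hgen₀⟩ := exists_isKummerGen L₀ L hL hζ.pow_eq_one hζL₀ ψ hadd htriv
  have hu₀ : w₀ ^ p ∈ L₀ := hgen₀.pow_mem hζ.pow_eq_one
  have hu₀0 : w₀ ^ p ≠ 0 := pow_ne_zero p hgen₀.1
  obtain ⟨y₁, hy₁L, hy₁0, hy₁⟩ := bddKummer L₀ L hL htame hp2 hζ hζL₀
    (hbdd.fontaineP_two hp2) hu₀ hu₀0 hw₀L rfl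
  have hnp' : ∀ y ∈ L₀.toSubfield, y ^ p ≠ w₀ ^ p := by
    intro y hy heq
    obtain ⟨τ, hτ, hψτ⟩ := hne
    exact hψτ (hgen₀.eq_zero_of_pow_eq hζ hζL₀ hy heq.symm τ hτ)
  obtain ⟨j, y, hyK, hy0, hj1, hj2, hjeq, hjdvd, hmax⟩ := exists_max_level hπ hpp hodd hnp hm hc₀'
    hNewton hu₀ ⟨y₁, hy₁L, hy₁0, by rw [← hc₀]; exact hy₁⟩ hnp'
  refine ⟨w₀ * y, ?_, j, hj1, hj2, hjdvd, by rw [mul_pow]; exact hjeq, fun y' hy' hy'0 => ?_⟩
  · have hy_gen : IsKummerGen L₀ ζ (fun _ => (0 : ZMod p)) y :=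
      ⟨hy0, fun τ hτ => by rw [hτ y hyK, ZMod.val_zero, pow_zero, one_mul]⟩
    exact (hgen₀.mul hζ.pow_eq_one hy_gen).congr (fun τ _ => add_zero _)
  · have h1 := hmax (y * y') (L₀.mul_mem hyK hy') (mul_ne_zero hy0 hy'0)
    have h2 : w₀ ^ p * (y * y') ^ p = (w₀ * y) ^ p * y' ^ p := by ring
    rwa [h2] at h1

end NormalForm

end Fermat.Agent.TW.Flat
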