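/-
F2 (flat local condition at p), count, part 2: the data of the supersingular case (`SSData`),
characters attached to scalar functions on the local Galois group, and their Kummer generators in
normal form.
-/
import Mathlib
import Fermat.Agent.TW.FlatCore_helper7_NF
import Fermat.Agent.TW.FlatBdd_helper7
import Fermat.Agent.Ram.ModCalc_helper7
import Fermat.Agent.Ram.Lead_helper7

set_option autoImplicit false
set_option linter.unusedSectionVars false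
set_option linter.style.haveILetI false

namespace Fermat.Agent.TW.Flat

open Fermat.Agent.Ram Fermat.Agent.TW

/-- the data of the supersingular (irreducible) case, in terms of `Ω = PadicAlgCl p`. -/
structure SSData (p : ℕ) [Fact p.Prime] (k : Type) [Field k] where
  /-- the splitting field of the residual representation -/
  L₀ : IntermediateField ℚ_[p] (PadicAlgCl p)
  fin : FiniteDimensional ℚ_[p] L₀
  gal : IsGalois ℚ_[p] L₀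
  bdd : FontaineBdd p L₀
  tame : ¬ p ∣ Module.finrank ℚ_[p] L₀
  /-- a primitive `p`-th root of unity -/
  ζ : PadicAlgCl p
  hζ : IsPrimitiveRoot ζ p
  hζL₀ : ζ ∈ L₀
  /-- a uniformizer of `L₀` -/
  π : PadicAlgCl p
  hπ : IsUnif L₀.toSubfield π
  hc₀ : ‖ζ - 1‖ = ‖π‖ ^ (p + 1)
  /-- a lift of a generator of the tame inertia -/
  σ₀ : PadicAlgCl p ≃ₐ[ℚ_[p]] PadicAlgCl p
  /-- a lift of the Frobenius -/
  F : PadicAlgCl p ≃ₐ[ℚ_[p]] PadicAlgCl p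
  hσ₀in : ∀ x ∈ L₀, ‖x‖ ≤ 1 → ‖σ₀ x - x‖ < 1
  /-- the cyclotomic character of `σ₀` -/
  d : ℕ
  hσ₀ζ : σ₀ ζ = ζ ^ d
  /-- the cyclotomic character of `F` -/
  εF : ℕ
  hFζ : F ζ = ζ ^ εF
  hFfrob : ∀ x ∈ L₀, ‖x‖ ≤ 1 → ‖F x - x ^ p‖ < 1
  /-- the eigenvalues of `σ₀` -/
  α : k
  β : k
  hαβ : α ≠ β
  hα : α ^ p = β
  hβ : β ^ p = α
  /-- minus the trace of `σ₀` -/
  t' : ℕ
  ht' : (t' : k) = -(α + β)
  ht'0 : (t' : k) ≠ 0
  hd : (d : k) = α * β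
  hLVLA : ∀ j : ℕ, p + 1 < j → j < p * (p + 1) → ¬ p ∣ j →
    ‖((σ₀ π / π) ^ j) ^ 2 + (((p - 1) * t' ^ 2 + 2 * d : ℕ) : PadicAlgCl p) * (σ₀ π / π) ^ j
      + ((d ^ 2 : ℕ) : PadicAlgCl p)‖ < 1 → j = p ^ 2 + 1
  hLVLB : ∀ j : ℕ, p + 1 < j → j < p * (p + 1) →
    ‖(σ₀ π / π) ^ j - (d : PadicAlgCl p)‖ < 1 → False

variable {p : ℕ} [Fact p.Prime] {k : Type} [Field k]

local notation "Ω" => PadicAlgCl p
local notation "GP" => (PadicAlgCl p ≃ₐ[ℚ_[p]] PadicAlgCl p)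

/-- `τ` fixes `L₀` pointwise. -/
def Fixes (L₀ : IntermediateField ℚ_[p] (PadicAlgCl p))
    (τ : PadicAlgCl p ≃ₐ[ℚ_[p]] PadicAlgCl p) : Prop := ∀ z ∈ L₀, τ z = z

lemma Fixes.mul {L₀ : IntermediateField ℚ_[p] (PadicAlgCl p)} {σ τ : GP}
    (hσ : Fixes L₀ σ) (hτ : Fixes L₀ τ) : Fixes L₀ (σ * τ) := by
  intro z hz
  show σ (τ z) = z
  rw [hτ z hz, hσ z hz]

lemma norm_galP_apply (τ : GP) (y : Ω) : ‖τ y‖ = ‖y‖ :=
  congrArg NNReal.toReal (nnnorm_padicAlgCl_algEquiv p τ y)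

/-- a normal subfield is stable under the Galois group. -/
lemma map_mem_of_isGalois (L₀ : IntermediateField ℚ_[p] (PadicAlgCl p)) [IsGalois ℚ_[p] L₀]
    (σ : GP) {z : Ω} (hz : z ∈ L₀) : σ z ∈ L₀ := by
  have h := AlgEquiv.restrictNormal_commutes σ L₀ ⟨z, hz⟩
  have h2 : σ z = ((σ.restrictNormal L₀) ⟨z, hz⟩ : L₀) := h.symm
  rw [h2]
  exact ((σ.restrictNormal L₀) ⟨z, hz⟩).2

lemma Fixes.conj {L₀ : IntermediateField ℚ_[p] (PadicAlgCl p)} [IsGalois ℚ_[p] L₀] {τ : GP}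
    (hτ : Fixes L₀ τ) (σ : GP) : Fixes L₀ (σ⁻¹ * τ * σ) := by
  intro z hz
  show σ⁻¹ (τ (σ z)) = z
  rw [hτ (σ z) (map_mem_of_isGalois L₀ σ hz)]
  exact σ.symm_apply_apply z

lemma Fixes.conj' {L₀ : IntermediateField ℚ_[p] (PadicAlgCl p)} [IsGalois ℚ_[p] L₀] {τ : GP}
    (hτ : Fixes L₀ τ) (σ : GP) : Fixes L₀ (σ * τ * σ⁻¹) := by
  have h := hτ.conj σ⁻¹
  rwa [inv_inv] at h

section KummerExtras

variable {L₀ : IntermediateField ℚ_[p] (PadicAlgCl p)} {ζ : PadicAlgCl p}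
  {ψ : (PadicAlgCl p ≃ₐ[ℚ_[p]] PadicAlgCl p) → ZMod p} {w : PadicAlgCl p}

lemma zeta_pow_natCast_val {ζ : Ω} (hζ : ζ ^ p = 1) (n : ℕ) : ζ ^ ((n : ZMod p).val) = ζ ^ n := by
  rw [ZMod.val_natCast]
  conv_rhs => rw [← Nat.mod_add_div n p, pow_add, pow_mul, hζ, one_pow, mul_one]

lemma IsKummerGen.pow (hζ : ζ ^ p = 1) (h : IsKummerGen L₀ ζ ψ w) (n : ℕ) :
    IsKummerGen L₀ ζ (fun τ => (n : ZMod p) * ψ τ) (w ^ n) := by
  induction n with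
  | zero =>
    rw [pow_zero]
    refine (IsKummerGen.one L₀ ζ).congr fun τ _ => ?_
    rw [Nat.cast_zero, zero_mul]
  | succ n ih =>
    rw [pow_succ]
    refine (ih.mul hζ h).congr fun τ _ => ?_
    push_cast
    ring

lemma IsKummerGen.inv (hζ : ζ ^ p = 1) (h : IsKummerGen L₀ ζ ψ w) :
    IsKummerGen L₀ ζ (fun τ => -ψ τ) w⁻¹ := by
  refine ⟨inv_ne_zero h.1, fun τ hτ => ?_⟩
  have h1 : ζ ^ (ψ τ).val * ζ ^ (-ψ τ).val = 1 := by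
    rw [← zeta_pow_val_add hζ, add_neg_cancel, ZMod.val_zero, pow_zero]
  have h2 : ζ ^ (ψ τ).val ≠ 0 := left_ne_zero_of_mul_eq_one h1
  rw [map_inv₀, h.2 τ hτ, mul_inv, ← eq_inv_of_mul_eq_one_right h1]

lemma IsKummerGen.mapNat [IsGalois ℚ_[p] L₀] (hζ : ζ ^ p = 1) (h : IsKummerGen L₀ ζ ψ w)
    (σ : GP) (e : ℕ) (he : σ ζ = ζ ^ e) :
    IsKummerGen L₀ ζ (fun τ => (e : ZMod p) * ψ (σ⁻¹ * τ * σ)) (σ w) :=
  h.map hζ σ (fun _ hz => map_mem_of_isGalois L₀ σ hz) (e : ZMod p)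
    (by rw [zeta_pow_natCast_val hζ]; exact he)

lemma IsKummerGen.mem_of_zero (h : IsKummerGen L₀ ζ ψ w) (h0 : ∀ τ : GP, Fixes L₀ τ → ψ τ = 0) :
    w ∈ L₀ := by
  refine mem_of_forall_fixing L₀ fun τ hτ => ?_
  rw [h.2 τ hτ, h0 τ hτ, ZMod.val_zero, pow_zero, one_mul]

lemma isKummerGen_of_mem {y : Ω} (hy : y ∈ L₀) (hy0 : y ≠ 0) :
    IsKummerGen L₀ ζ (fun _ => (0 : ZMod p)) y :=
  ⟨hy0, fun τ hτ => by rw [hτ y hy, ZMod.val_zero, pow_zero, one_mul]⟩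

end KummerExtras

section Characters

/-- the character `τ ↦ λ₀ (a f(τ))`. -/
def chi (lam : k →+ ZMod p) (f : (PadicAlgCl p ≃ₐ[ℚ_[p]] PadicAlgCl p) → k) (a : k) :
    (PadicAlgCl p ≃ₐ[ℚ_[p]] PadicAlgCl p) → ZMod p := fun τ => lam (a * f τ)

lemma chi_apply (lam : k →+ ZMod p) (f : GP → k) (a : k) (τ : GP) :
    chi lam f a τ = lam (a * f τ) := rfl

lemma chi_add_left (lam : k →+ ZMod p) (f : GP → k) (a a' : k) (τ : GP) :
    chi lam f (a + a') τ = chi lam f a τ + chi lam f a' τ := by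
  rw [chi_apply, chi_apply, chi_apply, add_mul, map_add]

lemma chi_natCast_mul (lam : k →+ ZMod p) (f : GP → k) (n : ℕ) (a : k) (τ : GP) :
    chi lam f ((n : k) * a) τ = (n : ZMod p) * chi lam f a τ := by
  rw [chi_apply, chi_apply, mul_assoc, ← nsmul_eq_mul, map_nsmul, nsmul_eq_mul]

lemma chi_sub (lam : k →+ ZMod p) (f f' : GP → k) (a : k) (τ : GP) :
    chi lam (f - f') a τ = chi lam f a τ - chi lam f' a τ := by
  rw [chi_apply, chi_apply, chi_apply, Pi.sub_apply, mul_sub, map_sub]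

/-- admissible scalar functions: additive on the fixing subgroup of `L₀`, Fontaine-bounded. -/
def IsAdm (L₀ : IntermediateField ℚ_[p] (PadicAlgCl p))
    (f : (PadicAlgCl p ≃ₐ[ℚ_[p]] PadicAlgCl p) → k) : Prop :=
  (∀ σ τ : PadicAlgCl p ≃ₐ[ℚ_[p]] PadicAlgCl p, Fixes L₀ σ → Fixes L₀ τ →
    f (σ * τ) = f σ + f τ) ∧ IsBddFun p f

lemma IsAdm.sub {L₀ : IntermediateField ℚ_[p] (PadicAlgCl p)} {f f' : GP → k}
    (hf : IsAdm L₀ f) (hf' : IsAdm L₀ f') : IsAdm L₀ (f - f') := by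
  refine ⟨fun σ τ hσ hτ => ?_, ?_⟩
  · rw [Pi.sub_apply, Pi.sub_apply, Pi.sub_apply, hf.1 σ τ hσ hτ, hf'.1 σ τ hσ hτ]
    ring
  · have h := hf.2.add hf'.2.neg
    rwa [← sub_eq_add_neg] at h

lemma IsAdm.chi_add {L₀ : IntermediateField ℚ_[p] (PadicAlgCl p)} {f : GP → k}
    (hf : IsAdm L₀ f) (lam : k →+ ZMod p) (a : k) (σ τ : GP) (hσ : Fixes L₀ σ)
    (hτ : Fixes L₀ τ) : chi lam f a (σ * τ) = chi lam f a σ + chi lam f a τ := by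
  rw [chi_apply, chi_apply, chi_apply, hf.1 σ τ hσ hτ, mul_add, map_add]

end Characters

section Shared

variable [Finite k] [CharP k p]

lemma SSData.norm_p_lt_one : ‖((p : ℕ) : Ω)‖ < 1 := norm_natCast_p_lt_one

lemma SSData.hc₀' (D : SSData p k) :
    (‖D.π‖ ^ (p + 1)) ^ (p - 1) = ‖((p : ℕ) : Ω)‖ := by
  rw [← D.hc₀]; exact norm_sub_one_pow_eq (Fact.out : p.Prime) D.hζ

lemma SSData.norm_zeta_le (D : SSData p k) : ‖D.ζ‖ ≤ 1 :=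
  (norm_eq_one_of_pow_eq_one (Fact.out : p.Prime).ne_zero D.hζ.pow_eq_one).le

lemma SSData.norm_zeta_sub_one_lt (D : SSData p k) : ‖D.ζ - 1‖ < 1 :=
  norm_sub_one_lt_one (Fact.out : p.Prime) norm_natCast_p_lt_one D.hζ

lemma SSData.zeta_sub_one_ne_zero (D : SSData p k) : D.ζ - 1 ≠ 0 :=
  norm_pos_iff.mp (norm_sub_one_pos (Fact.out : p.Prime) D.hζ)

lemma SSData.pi_ne_zero (D : SSData p k) : D.π ≠ 0 := D.hπ.ne_zero

lemma SSData.pi_mem (D : SSData p k) : D.π ∈ D.L₀ := D.hπ.mem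

/-- **normal form** for the character attached to an admissible function. -/
theorem SSData.exists_nf (D : SSData p k) (hp2 : p ≠ 2) (lam : k →+ ZMod p) {f : GP → k}
    (hf : IsAdm D.L₀ f) (a : k) (hne : ∃ τ : GP, Fixes D.L₀ τ ∧ chi lam f a τ ≠ 0) :
    ∃ w : Ω, IsKummerGen D.L₀ D.ζ (chi lam f a) w ∧ ∃ j : ℕ, p + 1 < j ∧ j ≤ p * (p + 1) ∧
      (¬ p ∣ j ∨ j = p * (p + 1)) ∧ ‖w ^ p - 1‖ = ‖D.π‖ ^ j ∧
      ∀ y ∈ D.L₀, y ≠ 0 → ‖D.π‖ ^ j ≤ ‖w ^ p * y ^ p - 1‖ := by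
  haveI := D.fin
  haveI := D.gal
  obtain ⟨L₁, hL1, hL2, hL3, hL4⟩ := hf.2
  haveI := hL1
  haveI := hL2
  refine exists_kummerGen_normal_form D.L₀ (L₁ ⊔ D.L₀) le_sup_right (hL3.sup D.bdd) D.tame hp2
    D.hζ D.hζL₀ D.hπ D.hc₀ (chi lam f a) (fun σ τ hσ hτ => hf.chi_add lam a σ τ hσ hτ)
    (fun τ hτ => ?_) hne
  have h1 : f τ = 0 := hL4 τ fun z hz => hτ z ((le_sup_left : L₁ ≤ L₁ ⊔ D.L₀) hz)
  rw [chi_apply, h1, mul_zero, map_zero]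

/-- the leading coefficient of an element of exact level `‖ϖ‖`. -/
lemma lead_of_norm_eq {ϖ u : Ω} (hϖ : ϖ ≠ 0) (h : ‖u - 1‖ = ‖ϖ‖) :
    ‖(u - 1) / ϖ‖ = 1 ∧ Lead ϖ u ((u - 1) / ϖ) := by
  have hpos : 0 < ‖ϖ‖ := norm_pos_iff.mpr hϖ
  refine ⟨by rw [norm_div, h, div_self hpos.ne'], ?_⟩
  unfold Lead
  rw [div_mul_cancel₀ _ hϖ, sub_self, norm_zero]
  exact hpos

/-- the action of the Galois group on leading coefficients. -/
lemma _root_.Fermat.Agent.Ram.Lead.galMap {ϖ u x t : Ω} (h : Lead ϖ u x) (g : GP) (ht : g ϖ = t * ϖ) :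
    Lead ϖ (g u) (g x * t) :=
  Lead.map (g := ((g : Ω ≃ₐ[ℚ_[p]] Ω) : Ω →+* Ω)) (norm_galP_apply g) h ht

/-- the geometric sum `1 + ζ + ⋯ + ζ^(n-1)`. -/
noncomputable def gsum (ζ : PadicAlgCl p) (n : ℕ) : PadicAlgCl p := ∑ i ∈ Finset.range n, ζ ^ i

lemma gsum_mul (ζ : Ω) (n : ℕ) : gsum ζ n * (ζ - 1) = ζ ^ n - 1 := geom_sum_mul ζ n

lemma SSData.gsum_mem (D : SSData p k) (n : ℕ) : gsum D.ζ n ∈ D.L₀ :=
  sum_mem fun i _ => pow_mem D.hζL₀ i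

lemma SSData.norm_gsum_sub_lt (D : SSData p k) (n : ℕ) : ‖gsum D.ζ n - (n : Ω)‖ < 1 :=
  norm_geom_sum_sub_natCast_lt D.norm_zeta_le D.norm_zeta_sub_one_lt n

lemma SSData.norm_gsum_le (D : SSData p k) (n : ℕ) : ‖gsum D.ζ n‖ ≤ 1 := by
  have h1 : gsum D.ζ n = (gsum D.ζ n - (n : Ω)) + (n : Ω) := by ring
  rw [h1]
  exact norm_add_le_of_le (D.norm_gsum_sub_lt n).le (IsUltrametricDist.norm_natCast_le_one Ω n)

/-- how a Galois element acts on the top-level uniformizer `(ζ - 1)^p`. -/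
lemma SSData.map_top (D : SSData p k) (g : GP) {e : ℕ} (he : g D.ζ = D.ζ ^ e) :
    g ((D.ζ - 1) ^ p) = (gsum D.ζ e) ^ p * (D.ζ - 1) ^ p := by
  rw [map_pow, map_sub, map_one, he, ← gsum_mul, mul_pow]

/-- `(gsum e)^p ≡ e`. -/
lemma SSData.norm_gsum_pow_sub_lt (D : SSData p k) (e : ℕ) :
    ‖(gsum D.ζ e) ^ p - (e : Ω)‖ < 1 := by
  have hpp : p.Prime := Fact.out
  have h1 : (gsum D.ζ e) ^ p - (e : Ω)
      = ((gsum D.ζ e) ^ p - (e : Ω) ^ p) + ((e : Ω) ^ p - (e : Ω)) := by ring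
  rw [h1]
  refine norm_add_lt_of_lt ?_ (norm_natCast_pow_sub_lt hpp norm_natCast_p_lt_one e)
  exact (norm_pow_sub_pow_le_of_le_one (D.norm_gsum_le e)
    (IsUltrametricDist.norm_natCast_le_one Ω e) p).trans_lt (D.norm_gsum_sub_lt e)

/-- the top level: a maximal element of top level has leading coefficient outside `℘(κ)`. -/
lemma SSData.top_absurd (D : SSData p k) {u x t₃ : Ω}
    (hmax : ∀ y ∈ D.L₀, y ≠ 0 → ‖D.π‖ ^ (p * (p + 1)) ≤ ‖u * y ^ p - 1‖)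
    (hlead : Lead ((D.ζ - 1) ^ p) u x) (ht₃ : t₃ ∈ D.L₀) (ht₃1 : ‖t₃‖ ≤ 1)
    (hx : ‖x - AS p t₃‖ < 1) : False := by
  have hpp : p.Prime := Fact.out
  have hϖ0 : (D.ζ - 1) ^ p ≠ 0 := pow_ne_zero p D.zeta_sub_one_ne_zero
  have h1 : Lead ((D.ζ - 1) ^ p) u (t₃ ^ p - t₃) := hlead.congr hx hϖ0
  obtain ⟨y, hy, hy0, hlt⟩ := Lead.exists_improve_top (K₀ := D.L₀.toSubfield) hpp
    norm_natCast_p_lt_one D.hζ D.hζL₀ ht₃ ht₃1 h1
  have h2 := hmax y hy hy0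
  rw [D.hc₀, ← pow_mul, mul_comm (p + 1) p] at hlt
  exact absurd h2 (not_le.mpr hlt)

end Shared

end Fermat.Agent.TW.Flat
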