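/-
F2 (flat local condition at p), supersingular case, assembly part 1: group theoretic plumbing.

* `exists_rep_of_fixes_iff`: a representation of the local Galois group whose kernel is the
  fixing subgroup of a finite Galois `L₀/ℚ_p` descends to a faithful representation of
  `Gal(L₀/ℚ_p)`.
* `exists_zeta_det`: a primitive `p`-th root of unity `ζ` of `PadicAlgCl p` such that the
  determinant of `rbar` on the local Galois group is the cyclotomic character of `ζ`.
* `zeta_mem_of_ker`: `ζ` lies in the splitting field of `rbar`.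
-/
import Mathlib
import Fermat.Agent.TW.FlatCore_helper7_Data
import Fermat.Agent.S53.Defs

set_option autoImplicit false
set_option linter.unusedSectionVars false
set_option linter.style.haveILetI false

namespace Fermat.Agent.TW.Flat

open Fermat.Agent.Ram Fermat.Agent.TW Fermat.Agent.S53 Matrix

variable {p : ℕ} [Fact p.Prime] {k : Type} [Field k]

local notation "Ω" => PadicAlgCl p
local notation "GP" => (PadicAlgCl p ≃ₐ[ℚ_[p]] PadicAlgCl p)

section Descend

variable (L₀ : IntermediateField ℚ_[p] (PadicAlgCl p)) [FiniteDimensional ℚ_[p] L₀]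
  [IsGalois ℚ_[p] L₀]

lemma restrictNormalHom_apply_coe (τ : GP) (x : L₀) :
    ((AlgEquiv.restrictNormalHom L₀ τ x : L₀) : Ω) = τ (x : Ω) :=
  AlgEquiv.restrictNormal_commutes τ L₀ x

lemma restrictNormalHom_eq_one_iff (τ : GP) :
    AlgEquiv.restrictNormalHom L₀ τ = 1 ↔ Fixes L₀ τ := by
  constructor
  · intro h z hz
    have h1 := restrictNormalHom_apply_coe L₀ τ ⟨z, hz⟩
    rw [h] at h1
    exact h1.symm
  · intro h
    apply AlgEquiv.ext
    intro x
    apply Subtype.ext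
    rw [restrictNormalHom_apply_coe]
    exact h x x.2

lemma restrictNormalHom_surj :
    Function.Surjective (AlgEquiv.restrictNormalHom L₀ : GP →* (L₀ ≃ₐ[ℚ_[p]] L₀)) :=
  AlgEquiv.restrictNormalHom_surjective (PadicAlgCl p)

/-- a representation of the local Galois group with kernel the fixing subgroup of `L₀` descends
to a faithful representation of `Gal(L₀/ℚ_p)`. -/
theorem exists_rep_of_fixes_iff (ρ : GP →* Matrix (Fin 2) (Fin 2) k)
    (hker : ∀ τ : GP, Fixes L₀ τ ↔ ρ τ = 1) :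
    ∃ r : (L₀ ≃ₐ[ℚ_[p]] L₀) →* Matrix (Fin 2) (Fin 2) k, Function.Injective r ∧
      ∀ τ : GP, r (AlgEquiv.restrictNormalHom L₀ τ) = ρ τ := by
  have hsurj := restrictNormalHom_surj L₀
  -- `ρ` only depends on the restriction
  have hinv : ∀ τ : GP, ρ τ⁻¹ * ρ τ = 1 := fun τ => by rw [← map_mul, inv_mul_cancel, map_one]
  have hwd : ∀ τ τ' : GP, AlgEquiv.restrictNormalHom L₀ τ = AlgEquiv.restrictNormalHom L₀ τ' →
      ρ τ = ρ τ' := by
    intro τ τ' h
    have h1 : AlgEquiv.restrictNormalHom L₀ (τ⁻¹ * τ') = 1 := by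
      rw [map_mul, map_inv, h, inv_mul_cancel]
    have h2 : ρ (τ⁻¹ * τ') = 1 := (hker _).mp ((restrictNormalHom_eq_one_iff L₀ _).mp h1)
    have h3 : ρ τ * ρ (τ⁻¹ * τ') = ρ τ' := by
      rw [← map_mul, mul_inv_cancel_left]
    rw [h2, mul_one] at h3
    exact h3
  have hr : ∀ g : L₀ ≃ₐ[ℚ_[p]] L₀, AlgEquiv.restrictNormalHom L₀ (Function.surjInv hsurj g) = g :=
    Function.surjInv_eq hsurj
  obtain ⟨r, hrdef⟩ : ∃ r : (L₀ ≃ₐ[ℚ_[p]] L₀) →* Matrix (Fin 2) (Fin 2) k,
      ∀ g, r g = ρ (Function.surjInv hsurj g) := by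
    refine ⟨{ toFun := fun g => ρ (Function.surjInv hsurj g)
              map_one' := ?_
              map_mul' := ?_ }, fun g => rfl⟩
    · have h1 := hwd (Function.surjInv hsurj 1) 1 (by rw [hr, map_one])
      rw [h1, map_one]
    · intro g h
      have h1 := hwd (Function.surjInv hsurj (g * h))
        (Function.surjInv hsurj g * Function.surjInv hsurj h) (by rw [hr, map_mul, hr, hr])
      rw [h1, map_mul]
  have hcomp : ∀ τ : GP, r (AlgEquiv.restrictNormalHom L₀ τ) = ρ τ := by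
    intro τ
    rw [hrdef]
    exact hwd _ _ (hr _)
  refine ⟨r, ?_, hcomp⟩
  intro g h hgh
  obtain ⟨τ, rfl⟩ := hsurj g
  obtain ⟨τ', rfl⟩ := hsurj h
  rw [hcomp, hcomp] at hgh
  have h1 : ρ (τ⁻¹ * τ') = 1 := by
    rw [map_mul, ← hgh, hinv]
  have h2 := (restrictNormalHom_eq_one_iff L₀ _).mpr ((hker _).mpr h1)
  rw [map_mul, map_inv, inv_mul_eq_one] at h2
  exact h2

end Descend

section Cyclo

/-- a primitive `p`-th root of unity of `PadicAlgCl p` whose cyclotomic character is the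
determinant of `rbar` on the local Galois group. -/
theorem exists_zeta_det (rbar : Gal →* M2 k)
    (hdet : ∀ (σ : Gal) (a : ℕ), (∀ μ : AlgebraicClosure ℚ, μ ^ p = 1 → σ μ = μ ^ a) →
      (rbar σ).det = a) :
    ∃ ζ : Ω, IsPrimitiveRoot ζ p ∧ ∀ τ : GP, ∃ a : ℕ, τ ζ = ζ ^ a ∧
      (rbar (localGaloisToGlobal p τ)).det = (a : k) := by
  have hpp : p.Prime := Fact.out
  haveI : NeZero p := ⟨hpp.ne_zero⟩
  obtain ⟨ζ₀, hζ₀⟩ : ∃ ζ₀ : AlgebraicClosure ℚ, IsPrimitiveRoot ζ₀ p :=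
    HasEnoughRootsOfUnity.exists_primitiveRoot (AlgebraicClosure ℚ) p
  refine ⟨padicEmbedding p ζ₀, hζ₀.map_of_injective (padicEmbedding p).toRingHom.injective,
    fun τ => ?_⟩
  obtain ⟨σ, hσ⟩ : ∃ σ, σ = localGaloisToGlobal p τ := ⟨_, rfl⟩
  have h1 : (σ ζ₀) ^ p = 1 := by rw [← map_pow, hζ₀.pow_eq_one, map_one]
  obtain ⟨a, -, ha⟩ := hζ₀.eq_pow_of_pow_eq_one h1
  refine ⟨a, ?_, ?_⟩
  · rw [← padicEmbedding_localGaloisToGlobal, ← hσ, ← ha, map_pow]
  · rw [← hσ]
    apply hdet σ a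
    intro μ hμ
    obtain ⟨j, -, rfl⟩ := hζ₀.eq_pow_of_pow_eq_one hμ
    rw [map_pow, ← ha, ← pow_mul, ← pow_mul, mul_comm]

/-- `ζ` lies in the splitting field of `rbar`. -/
theorem zeta_mem_of_ker [CharP k p] (L₀ : IntermediateField ℚ_[p] (PadicAlgCl p))
    (rbar : Gal →* M2 k) (hker : ∀ τ : GP, Fixes L₀ τ → rbar (localGaloisToGlobal p τ) = 1)
    {ζ : Ω} (hζ : IsPrimitiveRoot ζ p)
    (hcyc : ∀ τ : GP, ∃ a : ℕ, τ ζ = ζ ^ a ∧ (rbar (localGaloisToGlobal p τ)).det = (a : k)) :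
    ζ ∈ L₀ := by
  apply mem_of_forall_fixing
  intro τ hτ
  obtain ⟨a, ha, hdet⟩ := hcyc τ
  rw [hker τ hτ, Matrix.det_one] at hdet
  have h1 : ((a : ℕ) : k) = ((1 : ℕ) : k) := by rw [← hdet, Nat.cast_one]
  have h2 : a ≡ 1 [MOD p] := (CharP.natCast_eq_natCast k p).mp h1
  rw [ha]
  have h3 : a % p = 1 := by
    have h4 : a % p = 1 % p := h2
    rw [h4]
    exact Nat.mod_eq_of_lt (Fact.out : p.Prime).one_lt
  conv_lhs => rw [← Nat.mod_add_div a p, pow_add, pow_mul, hζ.pow_eq_one, one_pow, mul_one, h3,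
    pow_one]

end Cyclo

end Fermat.Agent.TW.Flat
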