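/-
F2 (flat local condition at p), supersingular case, step 1 ("Raynaud-lite").

For a finite flat cocommutative bialgebra `H` over `ℤ_(p)` whose points are killed by `p`, the
map `x ↦ x - ε` from the group of points to the convolution ring is additive up to second order
terms.  Consequence (`exists_point_relation_bound`): for a flat Galois module `M` killed by `p`,
either inertia at `p` acts trivially on `M`, or there are `0 ≠ m ∈ M` and `z ∈ ℚ̄_p` with
`p^(-1/(p-1)) ≤ ‖z‖ < 1` such that every integral linear relation `∑ cᵢ τⁱ m = 0` forces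
`‖∑ cᵢ τⁱ z‖ ≤ ‖z‖²`.
-/
import Mathlib
import Fermat.Agent.TW.FlatIface_helper7

set_option autoImplicit false
set_option linter.unusedSectionVars false
set_option linter.style.haveILetI false

namespace Fermat.Agent.TW.Flat

open GaloisRep Fermat.Agent.Ram WithConv Coalgebra

section abstractRing

variable {B : Type*} [CommRing B]

/-- second order expansion of `(1+d)^n` modulo `I²`. -/
lemma one_add_pow_sub_mem (I J : Ideal B) (hIJ : I * I ≤ J) {d : B} (hd : d ∈ I) (n : ℕ) :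
    (1 + d) ^ n - 1 - n • d ∈ J := by
  induction n with
  | zero => simp
  | succ n ih =>
    have hdd : d * d ∈ J := hIJ (Ideal.mul_mem_mul hd hd)
    have : (1 + d) ^ (n + 1) - 1 - (n + 1) • d
        = (1 + d) * ((1 + d) ^ n - 1 - n • d) + n • (d * d) := by
      rw [pow_succ]
      simp only [nsmul_eq_mul, Nat.cast_add, Nat.cast_one]
      ring
    rw [this]
    exact J.add_mem (J.mul_mem_left _ ih) (J.nsmul_mem hdd n)

/-- second order expansion of a product `∏ (1 + Dᵢ)^{cᵢ}` modulo `I²`. -/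
lemma prod_one_add_pow_sub_mem (I J : Ideal B) (hIJ : I * I ≤ J)
    {ι : Type*} (s : Finset ι) (D : ι → B) (c : ι → ℕ) (hD : ∀ i ∈ s, D i ∈ I) :
    ∏ i ∈ s, (1 + D i) ^ c i - 1 - ∑ i ∈ s, c i • D i ∈ J := by
  classical
  induction s using Finset.induction_on with
  | empty => simp
  | insert a s ha ih =>
    rw [Finset.prod_insert ha, Finset.sum_insert ha]
    have h1 := one_add_pow_sub_mem I J hIJ (hD a (Finset.mem_insert_self a s)) (c a)
    have h2 := ih (fun i hi => hD i (Finset.mem_insert_of_mem hi))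
    have h3 : c a • D a ∈ I := I.nsmul_mem (hD a (Finset.mem_insert_self a s)) _
    have h4 : ∑ i ∈ s, c i • D i ∈ I :=
      I.sum_mem fun i hi => I.nsmul_mem (hD i (Finset.mem_insert_of_mem hi)) _
    have h5 : c a • D a * ∑ i ∈ s, c i • D i ∈ J := hIJ (Ideal.mul_mem_mul h3 h4)
    set A := (1 + D a) ^ c a with hA
    set P := ∏ i ∈ s, (1 + D i) ^ c i with hP
    set u := c a • D a with hu
    set v := ∑ i ∈ s, c i • D i with hv
    have : A * P - 1 - (u + v) = (A - 1 - u) * P + (1 + u) * (P - 1 - v) + u * v := by ring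
    rw [this]
    exact J.add_mem (J.add_mem (J.mul_mem_right _ h1) (J.mul_mem_left _ h2)) h5

/-- in a `p`-filtered ring: if `Xᵢ ≡ 1` modulo `F t` and `∏ Xᵢ^{cᵢ} = 1`, then
`∑ cᵢ (Xᵢ - 1) ∈ F (2t)`. -/
lemma PFilt.sum_mem_of_prod_eq_one {p : ℕ} (Φ : PFilt p B) {t : ℝ} (ht0 : 0 ≤ t)
    {ι : Type*} (s : Finset ι) (X : ι → B) (c : ι → ℕ) (hX : ∀ i ∈ s, X i - 1 ∈ Φ.F t)
    (hprod : ∏ i ∈ s, X i ^ c i = 1) : ∑ i ∈ s, c i • (X i - 1) ∈ Φ.F (t + t) := by
  have hIJ : Φ.F t * Φ.F t ≤ Φ.F (t + t) := by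
    rw [Ideal.mul_le]
    intro a ha b hb
    exact Φ.mul_mem ht0 ht0 ha hb
  have key := prod_one_add_pow_sub_mem (Φ.F t) (Φ.F (t + t)) hIJ s (fun i => X i - 1) c hX
  have hrw : ∏ i ∈ s, (1 + (X i - 1)) ^ c i = 1 := by
    rw [← hprod]
    refine Finset.prod_congr rfl fun i _ => ?_
    rw [add_sub_cancel]
  rw [hrw, sub_self, zero_sub, neg_mem_iff] at key
  exact key

lemma sub_one_mem_of_eq_mul_pow (I : Ideal B) {X X₁ X₀ : B} {n : ℕ} (hXX : X = X₁ * X₀ ^ n)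
    (h0 : X₀ * X₀ ^ n = 1) (hI : X₁ - X₀ ∈ I) : X - 1 ∈ I := by
  have : X - 1 = (X₁ - X₀) * X₀ ^ n := by rw [sub_mul, h0, hXX]
  rw [this]
  exact I.mul_mem_right _ hI

end abstractRing


variable (p : ℕ) [Fact p.Prime]

local notation "R₀" => ratLocalizedAt p
local notation "Ω" => PadicAlgCl p
local notation "OΩ" => integerRing p (⊤ : IntermediateField ℚ_[p] (PadicAlgCl p))

section pointwiseIdeal

variable {R : Type*} [CommRing R] {C : Type*} [AddCommMonoid C] [Module R C]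
  [Coalgebra R C] [Coalgebra.IsCocomm R C] {O : Type*} [CommRing O] [Algebra R O]

/-- the ideal of the convolution ring of maps with values in a given ideal. -/
def convIdeal (R : Type*) [CommRing R] (C : Type*) [AddCommMonoid C] [Module R C]
    [Coalgebra R C] [Coalgebra.IsCocomm R C] {O : Type*} [CommRing O] [Algebra R O]
    (𝔞 : Ideal O) : Ideal (WithConv (C →ₗ[R] O)) where
  carrier := {f | ∀ c : C, f c ∈ 𝔞}
  add_mem' := fun {f g} hf hg c => by
    show (f + g).ofConv c ∈ 𝔞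
    rw [ofConv_add, LinearMap.add_apply]
    exact 𝔞.add_mem (hf c) (hg c)
  zero_mem' := fun c => by
    show (0 : WithConv (C →ₗ[R] O)).ofConv c ∈ 𝔞
    rw [ofConv_zero, LinearMap.zero_apply]
    exact 𝔞.zero_mem
  smul_mem' := fun g f hf c => by
    show (g * f) c ∈ 𝔞
    rw [(ℛ R c).convMul_apply]
    exact Ideal.sum_mem _ fun i _ => 𝔞.mul_mem_left _ (hf _)

lemma mem_convIdeal {𝔞 : Ideal O} {f : WithConv (C →ₗ[R] O)} :
    f ∈ convIdeal R C 𝔞 ↔ ∀ c : C, f c ∈ 𝔞 := Iff.rfl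

end pointwiseIdeal

/-- the maximal ideal of the integers of `PadicAlgCl p`. -/
def maxIdealTop : Ideal OΩ where
  carrier := {x | ‖((x : (⊤ : IntermediateField ℚ_[p] Ω)) : Ω)‖ < 1}
  add_mem' {a b} ha hb := by
    show ‖(((a + b : OΩ) : (⊤ : IntermediateField ℚ_[p] Ω)) : Ω)‖ < 1
    rw [Subring.coe_add, AddMemClass.coe_add]
    exact (IsUltrametricDist.norm_add_le_max _ _).trans_lt (max_lt ha hb)
  zero_mem' := by
    show ‖(((0 : OΩ) : (⊤ : IntermediateField ℚ_[p] Ω)) : Ω)‖ < 1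
    rw [Subring.coe_zero, ZeroMemClass.coe_zero, norm_zero]
    exact zero_lt_one
  smul_mem' c x hx := by
    show ‖(((c * x : OΩ) : (⊤ : IntermediateField ℚ_[p] Ω)) : Ω)‖ < 1
    rw [Subring.coe_mul, MulMemClass.coe_mul, norm_mul]
    calc _ ≤ 1 * ‖((x : (⊤ : IntermediateField ℚ_[p] Ω)) : Ω)‖ :=
          mul_le_mul_of_nonneg_right c.2 (norm_nonneg _)
      _ < 1 := by rw [one_mul]; exact hx

lemma mem_maxIdealTop {x : OΩ} :
    x ∈ maxIdealTop p ↔ ‖((x : (⊤ : IntermediateField ℚ_[p] Ω)) : Ω)‖ < 1 := Iff.rfl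


section points

variable {H : Type*} [CommRing H] [Bialgebra (ratLocalizedAt p) H]
  [Coalgebra.IsCocomm (ratLocalizedAt p) H] [Module.Finite (ratLocalizedAt p) H]

/-- a point, as an element of the convolution ring with values in the integers of `PadicAlgCl p`. -/
noncomputable def ptTop (x : H →ₐ[R₀] Ω) : WithConv (H →ₗ[R₀] OΩ) :=
  toConv (pointInt p ⊤ x (fun _ => IntermediateField.mem_top)).toLinearMap

lemma coe_ptTop_apply (x : H →ₐ[R₀] Ω) (h : H) :
    (((ptTop p x h : OΩ) : (⊤ : IntermediateField ℚ_[p] Ω)) : Ω) = x h := rfl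

lemma convPostcomp_intIncl_ptTop (x : H →ₐ[R₀] Ω) :
    convPostcomp (intIncl p ⊤) (ptTop p x) = toConv x.toLinearMap := by
  apply WithConv.ext; apply LinearMap.ext; intro h; rfl

lemma ptTop_injective : Function.Injective (ptTop p (H := H)) := by
  intro x y hxy
  apply AlgHom.ext
  intro h
  have := congrArg (fun F : WithConv (H →ₗ[R₀] OΩ) =>
    (((F h : OΩ) : (⊤ : IntermediateField ℚ_[p] Ω)) : Ω)) hxy
  exact this

/-- `ℚ̄`-points to the convolution ring, as a monoid homomorphism. -/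
noncomputable def ptHom : WithConv (H →ₐ[R₀] AlgebraicClosure ℚ) →* WithConv (H →ₗ[R₀] OΩ) where
  toFun f := ptTop p (pointToPadic p f.ofConv)
  map_one' := by
    apply convPostcomp_injective (intIncl p ⊤) (intIncl_injective p ⊤)
    rw [convPostcomp_intIncl_ptTop, map_one]
    have h2 : (toConv (pointToPadic p (1 : WithConv (H →ₐ[R₀] AlgebraicClosure ℚ)).ofConv).toLinearMap :
        WithConv (H →ₗ[R₀] Ω))
        = convPostcomp (iotaAlg p) (toConv (1 : WithConv (H →ₐ[R₀] AlgebraicClosure ℚ)).ofConv.toLinearMap) := rfl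
    rw [h2, AlgHom.toLinearMap_convOne, map_one]
  map_mul' f g := by
    apply convPostcomp_injective (intIncl p ⊤) (intIncl_injective p ⊤)
    rw [convPostcomp_intIncl_ptTop, map_mul, convPostcomp_intIncl_ptTop,
      convPostcomp_intIncl_ptTop]
    have h2 : ∀ F : WithConv (H →ₐ[R₀] AlgebraicClosure ℚ),
        (toConv (pointToPadic p F.ofConv).toLinearMap : WithConv (H →ₗ[R₀] Ω))
        = convPostcomp (iotaAlg p) (toConv F.ofConv.toLinearMap) := fun F => rfl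
    rw [h2, h2, h2, AlgHom.toLinearMap_convMul, map_mul]

lemma ptHom_apply (f : WithConv (H →ₐ[R₀] AlgebraicClosure ℚ)) :
    ptHom p f = ptTop p (pointToPadic p f.ofConv) := rfl

lemma ptHom_injective : Function.Injective (ptHom p (H := H)) := by
  intro f g hfg
  apply WithConv.ofConv_injective
  exact pointToPadic_injective p (ptTop_injective p hfg)

/-- the maximum of the norms of the values of a linear map `H → 𝓞` is attained. -/
lemma exists_max_norm (g : H →ₗ[R₀] OΩ) :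
    ∃ h₀ : H, ∀ h : H, ‖(((g h : OΩ) : (⊤ : IntermediateField ℚ_[p] Ω)) : Ω)‖
      ≤ ‖(((g h₀ : OΩ) : (⊤ : IntermediateField ℚ_[p] Ω)) : Ω)‖ := by
  obtain ⟨n, s, hs⟩ := Module.Finite.exists_fin (R := ratLocalizedAt p) (M := H)
  obtain ⟨h₀, hh₀⟩ : ∃ h₀ : H, ∀ i : Fin n,
      ‖(((g (s i) : OΩ) : (⊤ : IntermediateField ℚ_[p] Ω)) : Ω)‖
        ≤ ‖(((g h₀ : OΩ) : (⊤ : IntermediateField ℚ_[p] Ω)) : Ω)‖ := by
    rcases isEmpty_or_nonempty (Fin n) with hn | hn
    · exact ⟨0, fun i => (hn.false i).elim⟩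
    · obtain ⟨i₀, hi₀⟩ := Finite.exists_max
        (fun i : Fin n => ‖(((g (s i) : OΩ) : (⊤ : IntermediateField ℚ_[p] Ω)) : Ω)‖)
      exact ⟨s i₀, hi₀⟩
  refine ⟨h₀, fun h => ?_⟩
  have hmem : h ∈ Submodule.span (ratLocalizedAt p) (Set.range s) := by rw [hs]; trivial
  induction hmem using Submodule.span_induction with
  | mem x hx =>
    obtain ⟨i, rfl⟩ := hx
    exact hh₀ i
  | zero =>
    rw [map_zero]
    simp
  | add x y _ _ hx hy =>
    rw [map_add, Subring.coe_add, AddMemClass.coe_add]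
    exact (IsUltrametricDist.norm_add_le_max _ _).trans (max_le hx hy)
  | smul r x _ hx =>
    rw [map_smul, Algebra.smul_def, Subring.coe_mul, MulMemClass.coe_mul, norm_mul,
      coe_algebraMap_int]
    calc _ ≤ 1 * ‖(((g h₀ : OΩ) : (⊤ : IntermediateField ℚ_[p] Ω)) : Ω)‖ :=
          mul_le_mul (norm_algebraMap_ratLoc_le_one p r) hx (norm_nonneg _) zero_le_one
      _ = _ := one_mul _

end points


section core

variable {H : Type*} [CommRing H] [Bialgebra (ratLocalizedAt p) H]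
  [Coalgebra.IsCocomm (ratLocalizedAt p) H] [Module.Finite (ratLocalizedAt p) H]

/-- evaluation of an element of the convolution ring at `h`, as an additive map to `Ω`. -/
noncomputable def evalTop (h : H) : WithConv (H →ₗ[R₀] OΩ) →+ Ω where
  toFun F := (((F h : OΩ) : (⊤ : IntermediateField ℚ_[p] Ω)) : Ω)
  map_zero' := rfl
  map_add' _ _ := rfl

lemma evalTop_apply (h : H) (F : WithConv (H →ₗ[R₀] OΩ)) :
    evalTop p h F = (((F h : OΩ) : (⊤ : IntermediateField ℚ_[p] Ω)) : Ω) := rfl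

lemma eq_zero_of_evalTop_eq_zero (F : WithConv (H →ₗ[R₀] OΩ)) (hF : ∀ h : H, evalTop p h F = 0) :
    F = 0 := by
  apply WithConv.ext; apply LinearMap.ext; intro h
  apply Subtype.ext; apply Subtype.ext
  exact hF h

/-- **Second order additivity of points.**  If all `Xᵢ - 1` have values of norm `≤ d ≤ 1`
(`0 < d`) and `∏ Xᵢ^{cᵢ} = 1` then `∑ cᵢ (Xᵢ - 1)` has values of norm `≤ d²`. -/
theorem norm_sum_sub_one_le {d : ℝ} (hd0 : 0 < d) (hd1 : d ≤ 1) {ι : Type*} (s : Finset ι)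
    (X : ι → WithConv (H →ₗ[R₀] OΩ)) (c : ι → ℕ)
    (hX : ∀ i ∈ s, ∀ h : H, ‖evalTop p h (X i - 1)‖ ≤ d)
    (hprod : ∏ i ∈ s, X i ^ c i = 1) (h : H) :
    ‖∑ i ∈ s, (c i : Ω) * evalTop p h (X i - 1)‖ ≤ d ^ 2 := by
  have hpr : (1 : ℝ) < p := one_lt_p_real p
  have hp0 : (0 : ℝ) < p := p_real_pos p
  set t : ℝ := -Real.logb p d with ht
  have hpt : (p : ℝ) ^ (-t) = d := by
    rw [ht, neg_neg]
    exact Real.rpow_logb hp0 hpr.ne' hd0
  have ht0 : 0 ≤ t := by
    rw [ht, neg_nonneg]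
    exact Real.logb_nonpos hpr hd0.le hd1
  have hD : ∀ i ∈ s, X i - 1 ∈ ((intPFilt p (⊤ : IntermediateField ℚ_[p] Ω)).conv R₀ H).F t := by
    intro i hi h'
    show ‖evalTop p h' (X i - 1)‖ ≤ (p : ℝ) ^ (-t)
    rw [hpt]
    exact hX i hi h'
  have key := PFilt.sum_mem_of_prod_eq_one
    ((intPFilt p (⊤ : IntermediateField ℚ_[p] Ω)).conv R₀ H) ht0 s X c hD hprod
  have key' : ‖evalTop p h (∑ i ∈ s, c i • (X i - 1))‖ ≤ (p : ℝ) ^ (-(t + t)) := key h
  have hev : evalTop p h (∑ i ∈ s, c i • (X i - 1))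
      = ∑ i ∈ s, (c i : Ω) * evalTop p h (X i - 1) := by
    have h1 := map_sum (evalTop p h) (fun i => c i • (X i - 1)) s
    rw [h1]
    refine Finset.sum_congr rfl fun i _ => ?_
    have h2 := map_nsmul (evalTop p h) (c i) (X i - 1)
    rw [h2, nsmul_eq_mul]
  have h3 : (p : ℝ) ^ (-(t + t)) = d ^ 2 := by
    rw [neg_add, Real.rpow_add hp0, hpt, sq]
  calc ‖∑ i ∈ s, (c i : Ω) * evalTop p h (X i - 1)‖
      = ‖evalTop p h (∑ i ∈ s, c i • (X i - 1))‖ := congrArg norm hev.symm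
    _ ≤ (p : ℝ) ^ (-(t + t)) := key'
    _ = d ^ 2 := h3

end core


section galois

variable {H : Type*} [CommRing H] [Bialgebra (ratLocalizedAt p) H]
  [Coalgebra.IsCocomm (ratLocalizedAt p) H] [Module.Finite (ratLocalizedAt p) H]

local notation "GQ" => (AlgebraicClosure ℚ ≃ₐ[ℚ] AlgebraicClosure ℚ)
local notation "GP" => (PadicAlgCl p ≃ₐ[ℚ_[p]] PadicAlgCl p)

/-- the Galois action on `ℚ̄`-points. -/
noncomputable def galPt (σ : GQ) (f : WithConv (H →ₐ[R₀] AlgebraicClosure ℚ)) :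
    WithConv (H →ₐ[R₀] AlgebraicClosure ℚ) :=
  toConv ((ratLocAlgHom p (σ : AlgebraicClosure ℚ →ₐ[ℚ] AlgebraicClosure ℚ).toRingHom).comp
    f.ofConv)

lemma galPt_apply (σ : GQ) (f : WithConv (H →ₐ[R₀] AlgebraicClosure ℚ)) (h : H) :
    galPt p σ f h = σ (f h) := rfl

lemma evalTop_ptHom (f : WithConv (H →ₐ[R₀] AlgebraicClosure ℚ)) (h : H) :
    evalTop p h (ptHom p f) = padicEmbedding p (f h) := rfl

lemma evalTop_one (h : H) :
    evalTop p h 1 = algebraMap R₀ Ω (counit (R := R₀) h) := rfl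

lemma algEquiv_algebraMap_ratLoc (τ : GP) (r : R₀) :
    τ (algebraMap R₀ Ω r) = algebraMap R₀ Ω r := by
  have h1 : algebraMap R₀ Ω r = algebraMap ℚ_[p] Ω ((r : ℚ) : ℚ_[p]) := rfl
  rw [h1]
  exact τ.commutes _

lemma evalTop_ptHom_galPt_sub_one (τ : GP) (f : WithConv (H →ₐ[R₀] AlgebraicClosure ℚ)) (h : H) :
    evalTop p h (ptHom p (galPt p (localGaloisToGlobal p τ) f) - 1)
      = τ (evalTop p h (ptHom p f - 1)) := by
  have h1 := map_sub (evalTop p h) (ptHom p (galPt p (localGaloisToGlobal p τ) f)) 1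
  have h2 := map_sub (evalTop p h) (ptHom p f) 1
  have h3 := map_sub τ (evalTop p h (ptHom p f)) (evalTop p h 1)
  rw [h1, h2, h3]
  show padicEmbedding p (localGaloisToGlobal p τ (f h)) - algebraMap R₀ Ω (counit (R := R₀) h)
    = τ (padicEmbedding p (f h)) - τ (algebraMap R₀ Ω (counit (R := R₀) h))
  rw [algEquiv_algebraMap_ratLoc, padicEmbedding_localGaloisToGlobal]

lemma norm_algEquiv_apply (τ : GP) (y : Ω) : ‖τ y‖ = ‖y‖ :=
  congrArg NNReal.toReal (nnnorm_padicAlgCl_algEquiv p τ y)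

end galois


section main

local notation "GQ" => (AlgebraicClosure ℚ ≃ₐ[ℚ] AlgebraicClosure ℚ)
local notation "GP" => (PadicAlgCl p ≃ₐ[ℚ_[p]] PadicAlgCl p)

variable {H : Type*} [CommRing H] [Bialgebra (ratLocalizedAt p) H]
  [Coalgebra.IsCocomm (ratLocalizedAt p) H] [Module.Finite (ratLocalizedAt p) H]

/-- P1: the point `τ₀ x₀ - x₀` (`τ₀` in the inertia group) reduces to the identity. -/
lemma norm_evalTop_inertia_lt_one (hkill : ∀ x : WithConv (H →ₐ[R₀] AlgebraicClosure ℚ), x ^ p = 1)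
    (τ₀ : GP) (hτ₀ : ∀ a : Ω, ‖a‖ ≤ 1 → ‖τ₀ a - a‖ < 1)
    (x₀ : WithConv (H →ₐ[R₀] AlgebraicClosure ℚ)) (h : H) :
    ‖evalTop p h (ptHom p (galPt p (localGaloisToGlobal p τ₀) x₀ * x₀ ^ (p - 1)) - 1)‖ < 1 := by
  have hppos : 0 < p := (Fact.out : p.Prime).pos
  obtain ⟨X₀, hX₀⟩ : ∃ X₀, X₀ = ptHom p x₀ := ⟨_, rfl⟩
  obtain ⟨X₁, hX₁⟩ : ∃ X₁, X₁ = ptHom p (galPt p (localGaloisToGlobal p τ₀) x₀) := ⟨_, rfl⟩
  have hXX : ptHom p (galPt p (localGaloisToGlobal p τ₀) x₀ * x₀ ^ (p - 1))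
      = X₁ * X₀ ^ (p - 1) := by
    rw [map_mul, map_pow, hX₁, hX₀]
  have hX₀p : X₀ * X₀ ^ (p - 1) = 1 := by
    rw [← pow_succ', Nat.sub_add_cancel hppos, hX₀, ← map_pow, hkill, map_one]
  have hmem : ptHom p (galPt p (localGaloisToGlobal p τ₀) x₀ * x₀ ^ (p - 1)) - 1
      ∈ convIdeal R₀ H (maxIdealTop p) := by
    refine sub_one_mem_of_eq_mul_pow _ hXX hX₀p fun h => ?_
    show ‖evalTop p h (X₁ - X₀)‖ < 1
    have h1 := map_sub (evalTop p h) X₁ X₀
    rw [h1, hX₁, hX₀, evalTop_ptHom, evalTop_ptHom, galPt_apply,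
      padicEmbedding_localGaloisToGlobal]
    exact hτ₀ _ (norm_point_le_one p (pointToPadic p x₀.ofConv) h)
  exact hmem h

/-- P2: a nontrivial point of order `p` reducing to the identity has a value `z` (of `X - 1`) of
maximal norm, and `p^(-1/(p-1)) ≤ ‖z‖ < 1`. -/
lemma exists_max_value (X : WithConv (H →ₗ[R₀] OΩ)) (hXp : X ^ p = 1) (hXne : X ≠ 1)
    (hlt1 : ∀ h : H, ‖evalTop p h (X - 1)‖ < 1) :
    ∃ h₀ : H, (∀ h : H, ‖evalTop p h (X - 1)‖ ≤ ‖evalTop p h₀ (X - 1)‖) ∧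
      (p : ℝ) ^ (-(1 / ((p : ℝ) - 1))) ≤ ‖evalTop p h₀ (X - 1)‖ ∧
      ‖evalTop p h₀ (X - 1)‖ < 1 ∧ 0 < ‖evalTop p h₀ (X - 1)‖ := by
  obtain ⟨h₀, hh₀⟩ := exists_max_norm p (X - 1).ofConv
  have hh₀' : ∀ h : H, ‖evalTop p h (X - 1)‖ ≤ ‖evalTop p h₀ (X - 1)‖ := hh₀
  refine ⟨h₀, hh₀', ?_, hlt1 h₀, ?_⟩
  · by_contra hcon
    rw [not_le] at hcon
    exact hXne (conv_eq_one_of_small p X hXp fun h => (hh₀' h).trans_lt hcon)
  · rw [norm_pos_iff]
    intro h0
    apply hXne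
    apply sub_eq_zero.mp
    refine eq_zero_of_evalTop_eq_zero p _ fun h => ?_
    have h1 : ‖evalTop p h (X - 1)‖ ≤ 0 := (hh₀' h).trans_eq (h0 ▸ norm_zero)
    exact norm_le_zero_iff.mp h1

/-- P3: relations among Galois conjugates of a point give second order relations among the
conjugates of its values. -/
lemma norm_sum_conj_le (x : WithConv (H →ₐ[R₀] AlgebraicClosure ℚ)) (h₀ : H)
    (hmax : ∀ h : H, ‖evalTop p h (ptHom p x - 1)‖ ≤ ‖evalTop p h₀ (ptHom p x - 1)‖)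
    (hz0 : 0 < ‖evalTop p h₀ (ptHom p x - 1)‖) (hz1 : ‖evalTop p h₀ (ptHom p x - 1)‖ < 1)
    (τ : GP) (s : Finset ℕ) (c : ℕ → ℕ)
    (hprod : ∏ i ∈ s, (galPt p (localGaloisToGlobal p (τ ^ i)) x) ^ c i = 1) :
    ‖∑ i ∈ s, (c i : Ω) * (τ ^ i) (evalTop p h₀ (ptHom p x - 1))‖
      ≤ ‖evalTop p h₀ (ptHom p x - 1)‖ ^ 2 := by
  have hprod' : ∏ i ∈ s, (ptHom p (galPt p (localGaloisToGlobal p (τ ^ i)) x)) ^ c i = 1 := by
    have h1 := map_prod (ptHom p) (fun i => (galPt p (localGaloisToGlobal p (τ ^ i)) x) ^ c i) s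
    rw [hprod, map_one] at h1
    rw [h1]
    exact Finset.prod_congr rfl fun i _ => (map_pow (ptHom p) _ _).symm
  have hX : ∀ i ∈ s, ∀ h : H,
      ‖evalTop p h (ptHom p (galPt p (localGaloisToGlobal p (τ ^ i)) x) - 1)‖
        ≤ ‖evalTop p h₀ (ptHom p x - 1)‖ := by
    intro i _ h
    have h1 := evalTop_ptHom_galPt_sub_one p (τ ^ i) x h
    have h2 := norm_algEquiv_apply p (τ ^ i) (evalTop p h (ptHom p x - 1))
    exact (congrArg norm h1).trans h2 ▸ hmax h
  have key := norm_sum_sub_one_le p hz0 hz1.le s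
    (fun i => ptHom p (galPt p (localGaloisToGlobal p (τ ^ i)) x)) c hX hprod' h₀
  have hsum : ∑ i ∈ s, (c i : Ω) * evalTop p h₀
      (ptHom p (galPt p (localGaloisToGlobal p (τ ^ i)) x) - 1)
      = ∑ i ∈ s, (c i : Ω) * (τ ^ i) (evalTop p h₀ (ptHom p x - 1)) :=
    Finset.sum_congr rfl fun i _ =>
      congrArg (fun y => (c i : Ω) * y) (evalTop_ptHom_galPt_sub_one p (τ ^ i) x h₀)
  exact le_of_eq_of_le (congrArg norm hsum.symm) key

end main


section final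

local notation "GQ" => (AlgebraicClosure ℚ ≃ₐ[ℚ] AlgebraicClosure ℚ)
local notation "GP" => (PadicAlgCl p ≃ₐ[ℚ_[p]] PadicAlgCl p)

/-- **Raynaud-lite.**  For a flat Galois module `M` killed by `p`: either the inertia group at `p`
acts trivially on `M`, or there are `m ≠ 0` in `M` and `z ∈ PadicAlgCl p` with
`p^(-1/(p-1)) ≤ ‖z‖ < 1`, fixed by the stabiliser of `m`, such that every relation
`∑ cᵢ • τⁱ m = 0` (`cᵢ ∈ ℕ`) forces `‖∑ cᵢ τⁱ z‖ ≤ ‖z‖²`. -/
theorem exists_point_relation_bound {M : Type} [AddCommGroup M] [Finite M]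
    (act : GQ → M → M) (hflat : IsFlatGaloisModule p M act) (hpM : ∀ m : M, p • m = 0) :
    (∀ τ : GP, (∀ a : Ω, ‖a‖ ≤ 1 → ‖τ a - a‖ < 1) →
        ∀ m : M, act (localGaloisToGlobal p τ) m = m) ∨
    ∃ (m : M) (z : Ω), m ≠ 0 ∧ (p : ℝ) ^ (-(1 / ((p : ℝ) - 1))) ≤ ‖z‖ ∧ ‖z‖ < 1 ∧
      (∀ τ : GP, act (localGaloisToGlobal p τ) m = m → τ z = z) ∧
      ∀ (τ : GP) (s : Finset ℕ) (c : ℕ → ℕ),
        (∑ i ∈ s, c i • act (localGaloisToGlobal p (τ ^ i)) m) = 0 →
        ‖∑ i ∈ s, (c i : Ω) * (τ ^ i) z‖ ≤ ‖z‖ ^ 2 := by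
  obtain ⟨H, i1, i2, hfin, hfl, hco, e, he1, he2⟩ := hflat
  letI := i1
  letI := i2
  haveI := hfin
  haveI := hfl
  haveI := hco
  have hppos : 0 < p := (Fact.out : p.Prime).pos
  -- `e` is a homomorphism
  have he_one : e 1 = 0 := by
    have := he1 1 1
    rw [mul_one] at this
    exact left_eq_add.mp this
  have he_pow : ∀ (X : WithConv (H →ₐ[R₀] AlgebraicClosure ℚ)) (n : ℕ),
      e (X ^ n) = n • e X := by
    intro X n
    induction n with
    | zero => rw [pow_zero, zero_smul]; exact he_one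
    | succ n ih => rw [pow_succ, he1, ih, succ_nsmul]
  have he_prod : ∀ (s : Finset ℕ) (X : ℕ → WithConv (H →ₐ[R₀] AlgebraicClosure ℚ)),
      e (∏ i ∈ s, X i) = ∑ i ∈ s, e (X i) := by
    intro s X
    induction s using Finset.induction_on with
    | empty => rw [Finset.prod_empty, Finset.sum_empty]; exact he_one
    | insert a s ha ih => rw [Finset.prod_insert ha, Finset.sum_insert ha, he1, ih]
  have hact : ∀ (σ : GQ) (x : WithConv (H →ₐ[R₀] AlgebraicClosure ℚ)),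
      e (galPt p σ x) = act σ (e x) := fun σ x => he2 σ x (galPt p σ x) (fun h => rfl)
  have hkill : ∀ x : WithConv (H →ₐ[R₀] AlgebraicClosure ℚ), x ^ p = 1 := by
    intro x
    apply e.injective
    rw [he_pow, hpM, he_one]
  by_cases htriv : ∀ τ : GP, (∀ a : Ω, ‖a‖ ≤ 1 → ‖τ a - a‖ < 1) →
      ∀ m : M, act (localGaloisToGlobal p τ) m = m
  · exact Or.inl htriv
  right
  push Not at htriv
  obtain ⟨τ₀, hτ₀, m₀, hm₀⟩ := htriv
  obtain ⟨x₀, hx₀⟩ : ∃ x₀, x₀ = e.symm m₀ := ⟨_, rfl⟩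
  have hex₀ : e x₀ = m₀ := by rw [hx₀, Equiv.apply_symm_apply]
  obtain ⟨x, hx⟩ : ∃ x, x = galPt p (localGaloisToGlobal p τ₀) x₀ * x₀ ^ (p - 1) := ⟨_, rfl⟩
  have hpm : (p - 1) • m₀ = -m₀ := by
    have h1 : (p - 1) • m₀ + m₀ = 0 := by
      rw [← succ_nsmul, Nat.sub_add_cancel hppos, hpM]
    exact eq_neg_of_add_eq_zero_left h1
  have hex : e x = act (localGaloisToGlobal p τ₀) m₀ - m₀ := by
    rw [hx, he1, hact, he_pow, hex₀, hpm, sub_eq_add_neg]
  have hexne : e x ≠ 0 := by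
    rw [hex]
    exact sub_ne_zero.mpr hm₀
  have hlt1 : ∀ h : H, ‖evalTop p h (ptHom p x - 1)‖ < 1 := by
    intro h
    rw [hx]
    exact norm_evalTop_inertia_lt_one p hkill τ₀ hτ₀ x₀ h
  have hXp : ptHom p x ^ p = 1 := by rw [← map_pow, hkill, map_one]
  have hXne : ptHom p x ≠ 1 := by
    intro h
    apply hexne
    have : x = 1 := ptHom_injective p (by rw [h, map_one])
    rw [this, he_one]
  obtain ⟨h₀, hmax, hzlow, hz1, hz0⟩ := exists_max_value p (ptHom p x) hXp hXne hlt1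
  refine ⟨e x, evalTop p h₀ (ptHom p x - 1), hexne, hzlow, hz1, ?_, ?_⟩
  · intro τ hτ
    have h1 : galPt p (localGaloisToGlobal p τ) x = x := by
      apply e.injective
      rw [hact, hτ]
    have h2 := evalTop_ptHom_galPt_sub_one p τ x h₀
    rw [h1] at h2
    exact h2.symm
  · intro τ s c hrel
    refine norm_sum_conj_le p x h₀ hmax hz0 hz1 τ s c ?_
    apply e.injective
    rw [he_prod, he_one, ← hrel]
    refine Finset.sum_congr rfl fun i _ => ?_
    rw [he_pow, hact]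

end final

end Fermat.Agent.TW.Flat
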