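/-
F2 (flat local condition at p), supersingular case: the combined form of the interface theorem
(`FlatIface_helper7`) and of "Raynaud-lite" (`FlatRay_helper7_RL`), for one and the same field
`L` (the field of values of the points), with the inertia hypothesis of Raynaud-lite weakened to
"`τ₀` acts trivially on the residue field of `L`".
-/
import Mathlib
import Fermat.Agent.TW.FlatRay_helper7_RL

set_option autoImplicit false
set_option linter.unusedSectionVars false
set_option linter.style.haveILetI false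

namespace Fermat.Agent.TW.Flat

open GaloisRep Fermat.Agent.Ram WithConv Coalgebra

variable (p : ℕ) [Fact p.Prime]

local notation "R₀" => ratLocalizedAt p
local notation "Ω" => PadicAlgCl p
local notation "OΩ" => integerRing p (⊤ : IntermediateField ℚ_[p] (PadicAlgCl p))
local notation "GQ" => (AlgebraicClosure ℚ ≃ₐ[ℚ] AlgebraicClosure ℚ)
local notation "GP" => (PadicAlgCl p ≃ₐ[ℚ_[p]] PadicAlgCl p)

section weak

variable {H : Type*} [CommRing H] [Bialgebra (ratLocalizedAt p) H]
  [Coalgebra.IsCocomm (ratLocalizedAt p) H] [Module.Finite (ratLocalizedAt p) H]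

set_option maxHeartbeats 1000000 in
/-- P1, weak form: the point `τ₀ x₀ - x₀` reduces to the identity as soon as `τ₀` moves the
values of `x₀` by elements of norm `< 1`. -/
lemma norm_evalTop_lt_one_of_values
    (hkill : ∀ x : WithConv (H →ₐ[R₀] AlgebraicClosure ℚ), x ^ p = 1)
    (τ₀ : GP) (x₀ : WithConv (H →ₐ[R₀] AlgebraicClosure ℚ))
    (hτ₀ : ∀ h : H, ‖τ₀ (padicEmbedding p (x₀ h)) - padicEmbedding p (x₀ h)‖ < 1) (h : H) :
    ‖evalTop p h (ptHom p (galPt p (localGaloisToGlobal p τ₀) x₀ * x₀ ^ (p - 1)) - 1)‖ < 1 := by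
  have hppos : 0 < p := (Fact.out : p.Prime).pos
  obtain ⟨X₀, hX₀⟩ : ∃ X₀, X₀ = ptHom p x₀ := ⟨_, rfl⟩
  obtain ⟨X₁, hX₁⟩ : ∃ X₁, X₁ = ptHom p (galPt p (localGaloisToGlobal p τ₀) x₀) := ⟨_, rfl⟩
  have hXX : ptHom p (galPt p (localGaloisToGlobal p τ₀) x₀ * x₀ ^ (p - 1))
      = X₁ * X₀ ^ (p - 1) := by
    rw [map_mul, map_pow, hX₁, hX₀]
  have hX₀p : X₀ * X₀ ^ (p - 1) = 1 := by
    rw [← pow_succ', Nat.sub_add_cancel hppos, hX₀, ← map_pow, hkill, map_one]
  have hmem : ptHom p (galPt p (localGaloisToGlobal p τ₀) x₀ * x₀ ^ (p - 1)) - 1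
      ∈ convIdeal R₀ H (maxIdealTop p) := by
    refine sub_one_mem_of_eq_mul_pow _ hXX hX₀p fun h => ?_
    show ‖evalTop p h (X₁ - X₀)‖ < 1
    have h1 := map_sub (evalTop p h) X₁ X₀
    rw [h1, hX₁, hX₀, evalTop_ptHom, evalTop_ptHom, galPt_apply,
      padicEmbedding_localGaloisToGlobal]
    exact hτ₀ h
  exact hmem h

end weak

section final

/-- **Interface theorem + Raynaud-lite, combined.**  For a flat Galois module `M` killed by `p`
there is a finite Galois extension `L/ℚ_p` with Fontaine's bound, whose fixing subgroup is the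
kernel of the action of the local Galois group, and such that: for every `τ₀` acting trivially
on the residue field of `L` and every `m₀` with `τ₀ m₀ ≠ m₀`, the element `m = τ₀ m₀ - m₀` comes
with `z ∈ PadicAlgCl p`, `p^(-1/(p-1)) ≤ ‖z‖ < 1`, fixed by the stabiliser of `m`, such that every
relation `∑ cᵢ • τⁱ m = 0` (`cᵢ ∈ ℕ`) forces `‖∑ cᵢ τⁱ z‖ ≤ ‖z‖²`. -/
theorem exists_field_and_relation_bound {M : Type} [AddCommGroup M] [Finite M]
    (act : GQ → M → M) (hflat : IsFlatGaloisModule p M act) (hpM : ∀ m : M, p • m = 0) :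
    ∃ L : IntermediateField ℚ_[p] (PadicAlgCl p), FiniteDimensional ℚ_[p] L ∧ IsGalois ℚ_[p] L ∧
      FontaineBdd p L ∧
      (∀ τ : GP, (∀ z ∈ L, τ z = z) ↔ ∀ m : M, act (localGaloisToGlobal p τ) m = m) ∧
      ∀ τ₀ : GP, (∀ a ∈ L, ‖a‖ ≤ 1 → ‖τ₀ a - a‖ < 1) →
        ∀ m₀ : M, act (localGaloisToGlobal p τ₀) m₀ ≠ m₀ →
        ∃ z : Ω, (p : ℝ) ^ (-(1 / ((p : ℝ) - 1))) ≤ ‖z‖ ∧ ‖z‖ < 1 ∧
          (∀ τ : GP, act (localGaloisToGlobal p τ) (act (localGaloisToGlobal p τ₀) m₀ - m₀)
              = act (localGaloisToGlobal p τ₀) m₀ - m₀ → τ z = z) ∧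
          ∀ (τ : GP) (s : Finset ℕ) (c : ℕ → ℕ),
            (∑ i ∈ s, c i • act (localGaloisToGlobal p (τ ^ i))
              (act (localGaloisToGlobal p τ₀) m₀ - m₀)) = 0 →
            ‖∑ i ∈ s, (c i : Ω) * (τ ^ i) z‖ ≤ ‖z‖ ^ 2 := by
  obtain ⟨H, i1, i2, hfin, hfl, hco, e, he1, he2⟩ := hflat
  letI := i1
  letI := i2
  haveI := hfin
  haveI := hfl
  haveI := hco
  haveI : Module.Projective (ratLocalizedAt p) H := ratLoc_projective_of_finite_flat p H
  have hppos : 0 < p := (Fact.out : p.Prime).pos
  -- finiteness of the set of points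
  haveI : Finite (H →ₐ[ratLocalizedAt p] PadicAlgCl p) := by
    refine Finite.of_surjective (fun m : M => pointToPadic p (e.symm m).ofConv) ?_
    intro y
    obtain ⟨x, rfl⟩ := pointToPadic_surjective p y
    exact ⟨e (toConv x), by
      show pointToPadic p (e.symm (e (toConv x))).ofConv = _; rw [Equiv.symm_apply_apply]⟩
  -- `e` is a group homomorphism
  have he_one : e 1 = 0 := by
    have := he1 1 1
    rw [mul_one] at this
    exact left_eq_add.mp this
  have he_pow : ∀ (X : WithConv (H →ₐ[ratLocalizedAt p] AlgebraicClosure ℚ)) (n : ℕ),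
      e (X ^ n) = n • e X := by
    intro X n
    induction n with
    | zero => rw [pow_zero, zero_smul]; exact he_one
    | succ n ih => rw [pow_succ, he1, ih, succ_nsmul]
  have he_prod : ∀ (s : Finset ℕ) (X : ℕ → WithConv (H →ₐ[R₀] AlgebraicClosure ℚ)),
      e (∏ i ∈ s, X i) = ∑ i ∈ s, e (X i) := by
    intro s X
    induction s using Finset.induction_on with
    | empty => rw [Finset.prod_empty, Finset.sum_empty]; exact he_one
    | insert a s ha ih => rw [Finset.prod_insert ha, Finset.sum_insert ha, he1, ih]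
  have hactG : ∀ (σ : GQ) (x : WithConv (H →ₐ[R₀] AlgebraicClosure ℚ)),
      e (galPt p σ x) = act σ (e x) := fun σ x => he2 σ x (galPt p σ x) (fun h => rfl)
  have hkillQ : ∀ x : WithConv (H →ₐ[R₀] AlgebraicClosure ℚ), x ^ p = 1 := by
    intro x
    apply e.injective
    rw [he_pow, hpM, he_one]
  -- points are killed by `p`
  have hkill : ∀ y : H →ₐ[ratLocalizedAt p] PadicAlgCl p,
      (toConv y.toLinearMap : WithConv (H →ₗ[ratLocalizedAt p] PadicAlgCl p)) ^ p = 1 := by
    intro y
    obtain ⟨x, rfl⟩ := pointToPadic_surjective p y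
    have hX : (toConv x : WithConv (H →ₐ[ratLocalizedAt p] AlgebraicClosure ℚ)) ^ p = 1 :=
      hkillQ _
    have hlin : (toConv x.toLinearMap : WithConv (H →ₗ[ratLocalizedAt p] AlgebraicClosure ℚ)) ^ p
        = 1 := by
      have h1 := AlgHom.toLinearMap_convPow
        (toConv x : WithConv (H →ₐ[ratLocalizedAt p] AlgebraicClosure ℚ)) p
      rw [hX] at h1
      rw [← h1]
      rfl
    have h2 : (toConv (pointToPadic p x).toLinearMap :
        WithConv (H →ₗ[ratLocalizedAt p] PadicAlgCl p))
        = convPostcomp (iotaAlg p) (toConv x.toLinearMap) := rfl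
    rw [h2, ← map_pow, hlin, map_one]
  refine ⟨valueField p H, ?_, ?_, fontaineBdd_valueField p hkill, ?_, ?_⟩
  · -- finite-dimensional
    obtain ⟨S, hSfin, hSint, hS⟩ := valueField_eq_adjoin_finite p (H := H)
    rw [hS]
    haveI : Finite S := hSfin
    exact IntermediateField.finiteDimensional_adjoin hSint
  · -- Galois
    haveI : Normal ℚ_[p] (valueField p H) := by
      rw [IntermediateField.normal_iff_forall_map_le']
      intro τ
      rw [valueField, IntermediateField.adjoin_map, IntermediateField.adjoin_le_iff]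
      rintro z ⟨w, ⟨y, h, rfl⟩, rfl⟩
      exact IntermediateField.subset_adjoin _ _
        ⟨(ratLocAlgHom p (τ : PadicAlgCl p →ₐ[ℚ_[p]] PadicAlgCl p).toRingHom).comp y, h, rfl⟩
    haveI : Algebra.IsAlgebraic ℚ_[p] (valueField p H) := by
      obtain ⟨S, hSfin, hSint, hS⟩ := valueField_eq_adjoin_finite p (H := H)
      haveI : Finite S := hSfin
      haveI : FiniteDimensional ℚ_[p] (valueField p H) := by
        rw [hS]; exact IntermediateField.finiteDimensional_adjoin hSint
      exact Algebra.IsAlgebraic.of_finite _ _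
    exact ⟨⟩
  · -- the kernel of the action
    intro τ
    set σ := localGaloisToGlobal p τ with hσ
    have hτι : ∀ z : AlgebraicClosure ℚ, τ (padicEmbedding p z) = padicEmbedding p (σ z) :=
      fun z => (padicEmbedding_localGaloisToGlobal p τ z).symm
    -- `σ ∘ x` as a point
    let σx : (H →ₐ[ratLocalizedAt p] AlgebraicClosure ℚ) →
        (H →ₐ[ratLocalizedAt p] AlgebraicClosure ℚ) := fun x =>
      (ratLocAlgHom p (σ : AlgebraicClosure ℚ →ₐ[ℚ] AlgebraicClosure ℚ).toRingHom).comp x
    have hact : ∀ x : H →ₐ[ratLocalizedAt p] AlgebraicClosure ℚ,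
        e (toConv (σx x)) = act σ (e (toConv x)) := fun x =>
      he2 σ (toConv x) (toConv (σx x)) (fun h => rfl)
    constructor
    · intro hfix m
      obtain ⟨X, rfl⟩ := e.surjective m
      have hX : toConv (σx X.ofConv) = X := by
        apply WithConv.ext
        apply AlgHom.ext
        intro h
        apply (padicEmbedding p).toRingHom.injective
        show padicEmbedding p (σ (X.ofConv h)) = padicEmbedding p (X.ofConv h)
        rw [← hτι]
        exact hfix _ (apply_mem_valueField p (pointToPadic p X.ofConv) h)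
      have := hact X.ofConv
      rw [hX] at this
      exact this.symm
    · intro hm z hz
      rw [valueField] at hz
      induction hz using IntermediateField.adjoin_induction with
      | mem z hz =>
        obtain ⟨y, h, rfl⟩ := hz
        obtain ⟨x, rfl⟩ := pointToPadic_surjective p y
        have hx : toConv (σx x) = toConv x := by
          apply e.injective
          rw [hact, hm]
        have hx' : σ (x h) = x h := by
          have := congrArg (fun X : WithConv (H →ₐ[ratLocalizedAt p] AlgebraicClosure ℚ) =>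
            X.ofConv h) hx
          exact this
        rw [pointToPadic_apply, hτι, hx']
      | algebraMap r => exact τ.commutes r
      | add a b _ _ ha hb => rw [map_add, ha, hb]
      | inv a _ ha => rw [map_inv₀, ha]
      | mul a b _ _ ha hb => rw [map_mul, ha, hb]
  · -- Raynaud-lite
    intro τ₀ hτ₀ m₀ hm₀
    obtain ⟨x₀, hx₀⟩ : ∃ x₀, x₀ = e.symm m₀ := ⟨_, rfl⟩
    have hex₀ : e x₀ = m₀ := by rw [hx₀, Equiv.apply_symm_apply]
    obtain ⟨x, hx⟩ : ∃ x, x = galPt p (localGaloisToGlobal p τ₀) x₀ * x₀ ^ (p - 1) := ⟨_, rfl⟩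
    have hpm : (p - 1) • m₀ = -m₀ := by
      have h1 : (p - 1) • m₀ + m₀ = 0 := by
        rw [← succ_nsmul, Nat.sub_add_cancel hppos, hpM]
      exact eq_neg_of_add_eq_zero_left h1
    have hex : e x = act (localGaloisToGlobal p τ₀) m₀ - m₀ := by
      rw [hx, he1, hactG, he_pow, hex₀, hpm, sub_eq_add_neg]
    have hexne : e x ≠ 0 := by
      rw [hex]
      exact sub_ne_zero.mpr hm₀
    have hval : ∀ h : H, ‖τ₀ (padicEmbedding p (x₀ h)) - padicEmbedding p (x₀ h)‖ < 1 := by
      intro h
      exact hτ₀ _ (apply_mem_valueField p (pointToPadic p x₀.ofConv) h)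
        (norm_point_le_one p (pointToPadic p x₀.ofConv) h)
    have hlt1 : ∀ h : H, ‖evalTop p h (ptHom p x - 1)‖ < 1 := by
      intro h
      rw [hx]
      exact norm_evalTop_lt_one_of_values p hkillQ τ₀ x₀ hval h
    have hXp : ptHom p x ^ p = 1 := by rw [← map_pow, hkillQ, map_one]
    have hXne : ptHom p x ≠ 1 := by
      intro h
      apply hexne
      have : x = 1 := ptHom_injective p (by rw [h, map_one])
      rw [this, he_one]
    obtain ⟨h₀, hmax, hzlow, hz1, hz0⟩ := exists_max_value p (ptHom p x) hXp hXne hlt1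
    rw [← hex]
    refine ⟨evalTop p h₀ (ptHom p x - 1), hzlow, hz1, ?_, ?_⟩
    · intro τ hτ
      have h1 : galPt p (localGaloisToGlobal p τ) x = x := by
        apply e.injective
        rw [hactG, hτ]
      have h2 := evalTop_ptHom_galPt_sub_one p τ x h₀
      rw [h1] at h2
      exact h2.symm
    · intro τ s c hrel
      refine norm_sum_conj_le p x h₀ hmax hz0 hz1 τ s c ?_
      apply e.injective
      rw [he_prod, he_one, ← hrel]
      refine Finset.sum_congr rfl fun i _ => ?_
      rw [he_pow, hactG]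

end final

end Fermat.Agent.TW.Flat
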