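/-
F2 (flat local condition at p), count, part 3 (Core B): the diagonal component of a bounded
cocycle vanishes on the fixing subgroup of the splitting field.
-/
import Mathlib
import Fermat.Agent.TW.FlatCore_helper7_Data

set_option autoImplicit false
set_option linter.unusedSectionVars false
set_option linter.style.haveILetI false

namespace Fermat.Agent.TW.Flat

open Fermat.Agent.Ram Fermat.Agent.TW

variable {p : ℕ} [Fact p.Prime] {k : Type} [Field k]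

local notation "Ω" => PadicAlgCl p
local notation "GP" => (PadicAlgCl p ≃ₐ[ℚ_[p]] PadicAlgCl p)

section Operators

variable {L₀ : IntermediateField ℚ_[p] (PadicAlgCl p)} [IsGalois ℚ_[p] L₀] {ζ : PadicAlgCl p}
  {ψ : (PadicAlgCl p ≃ₐ[ℚ_[p]] PadicAlgCl p) → ZMod p} {w : PadicAlgCl p}

/-- if `e ψ(g⁻¹ τ g) + c ψ(τ) = 0` then `g(w) w^c ∈ L₀`. -/
lemma IsKummerGen.op_mem (hζ : ζ ^ p = 1) (h : IsKummerGen L₀ ζ ψ w) (g : GP) {e : ℕ}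
    (he : g ζ = ζ ^ e) (c : ℕ)
    (hrel : ∀ τ : GP, Fixes L₀ τ → (e : ZMod p) * ψ (g⁻¹ * τ * g) + (c : ZMod p) * ψ τ = 0) :
    g w * w ^ c ∈ L₀ :=
  ((h.mapNat hζ g e he).mul hζ (h.pow hζ c)).mem_of_zero hrel

/-- the leading coefficient of `g(u) u^c`. -/
lemma _root_.Fermat.Agent.Ram.Lead.op {ϖ u x t : Ω} (h : Lead ϖ u x) (hx : ‖x‖ ≤ 1) (hϖ0 : ϖ ≠ 0) (hϖ1 : ‖ϖ‖ < 1)
    (g : GP) (ht : g ϖ = t * ϖ) (ht1 : ‖t‖ ≤ 1) (c : ℕ) :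
    Lead ϖ (g u * u ^ c) (g x * t + (c : Ω) * x) := by
  refine (h.galMap g ht).mul (h.pow hx hϖ0 hϖ1 c) ?_ ?_ hϖ0 hϖ1
  · rw [norm_mul, norm_galP_apply]
    exact mul_le_one₀ hx (norm_nonneg _) ht1
  · rw [norm_mul]
    exact mul_le_one₀ (IsUltrametricDist.norm_natCast_le_one Ω c) (norm_nonneg _) hx

end Operators

section Lam

variable [Finite k] [CharP k p]

/-- a nonzero additive functional on `k`. -/
lemma exists_lam : ∃ lam : k →+ ZMod p, lam 1 = 1 := by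
  letI : Algebra (ZMod p) k := ZMod.algebra k p
  have hinj : LinearMap.ker (LinearMap.toSpanSingleton (ZMod p) k (1 : k)) = ⊥ := by
    rw [LinearMap.ker_eq_bot]
    intro a b hab
    simp only [LinearMap.toSpanSingleton_apply] at hab
    have h1 : (a - b) • (1 : k) = 0 := by rw [sub_smul, hab, sub_self]
    rcases smul_eq_zero.mp h1 with h | h
    · exact sub_eq_zero.mp h
    · exact absurd h one_ne_zero
  obtain ⟨g, hg⟩ := LinearMap.exists_leftInverse_of_injective _ hinj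
  refine ⟨g.toAddMonoidHom, ?_⟩
  have h1 := LinearMap.congr_fun hg (1 : ZMod p)
  simpa using h1

end Lam

section CoreB

variable [Finite k] [CharP k p]

/-- non-top levels are impossible for a character invariant under `σ₀`. -/
lemma SSData.coreB_level (D : SSData p k) {ψ : GP → ZMod p} {w : Ω}
    (hgen : IsKummerGen D.L₀ D.ζ ψ w)
    (hψσ : ∀ τ : GP, Fixes D.L₀ τ → ψ (D.σ₀⁻¹ * τ * D.σ₀) = ψ τ)
    {j : ℕ} (hj1 : p + 1 < j) (hjc : j < p * (p + 1)) (hjd : ¬ p ∣ j)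
    (hnorm : ‖w ^ p - 1‖ = ‖D.π‖ ^ j) : False := by
  haveI := D.gal
  have hpp : p.Prime := Fact.out
  have hp : ‖((p : ℕ) : Ω)‖ < 1 := norm_natCast_p_lt_one
  have hζp := D.hζ.pow_eq_one
  have hπ0 := D.pi_ne_zero
  obtain ⟨ϖ, hϖ⟩ : ∃ ϖ : Ω, ϖ = D.π ^ j := ⟨_, rfl⟩
  have hϖ0 : ϖ ≠ 0 := hϖ ▸ pow_ne_zero j hπ0
  have hj0 : j ≠ 0 := by omega
  have hϖ1 : ‖ϖ‖ < 1 := by
    rw [hϖ, norm_pow]; exact pow_lt_one₀ D.hπ.pos.le D.hπ.lt_one hj0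
  have hϖL : ϖ ∈ D.L₀ := hϖ ▸ pow_mem D.pi_mem j
  obtain ⟨u, hu⟩ : ∃ u : Ω, u = w ^ p := ⟨_, rfl⟩
  have huL : u ∈ D.L₀ := hu ▸ hgen.pow_mem hζp
  rw [← hu, ← norm_pow, ← hϖ] at hnorm
  obtain ⟨hx1, hlead⟩ := lead_of_norm_eq hϖ0 hnorm
  obtain ⟨x, hx⟩ : ∃ x : Ω, x = (u - 1) / ϖ := ⟨_, rfl⟩
  rw [← hx] at hx1 hlead
  have hxL : x ∈ D.L₀ := hx ▸ div_mem (sub_mem huL (one_mem _)) hϖL
  -- the uniformizer
  obtain ⟨q₀, hq₀⟩ : ∃ q₀ : Ω, q₀ = D.σ₀ D.π / D.π := ⟨_, rfl⟩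
  have hq₀1 : ‖q₀‖ = 1 := by
    rw [hq₀, norm_div, norm_galP_apply, div_self (norm_ne_zero_iff.mpr hπ0)]
  have hσπ : D.σ₀ ϖ = q₀ ^ j * ϖ := by
    rw [hϖ, map_pow, hq₀, ← mul_pow, div_mul_cancel₀ _ hπ0]
  have ht1 : ‖q₀ ^ j‖ ≤ 1 := by rw [norm_pow, hq₀1, one_pow]
  -- the relation
  obtain ⟨c, hc⟩ : ∃ c : ℕ, c = (p - 1) * D.d := ⟨_, rfl⟩
  have hcd : c + D.d = p * D.d := by
    rw [hc]
    obtain ⟨q, rfl⟩ : ∃ q, p = q + 1 := ⟨p - 1, by have := hpp.one_le; omega⟩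
    simp only [Nat.add_sub_cancel]; ring
  have hW : D.σ₀ w * w ^ c ∈ D.L₀ := by
    refine hgen.op_mem hζp D.σ₀ D.hσ₀ζ c fun τ hτ => ?_
    rw [hψσ τ hτ, ← add_mul, ← Nat.cast_add, add_comm D.d c, hcd, Nat.cast_mul,
      ZMod.natCast_self, zero_mul, zero_mul]
  have hWp : (D.σ₀ w * w ^ c) ^ p = D.σ₀ u * u ^ c := by
    rw [mul_pow, ← map_pow, ← pow_mul, mul_comm c p, pow_mul, ← hu]
  have hleadW := hlead.op hx1.le hϖ0 hϖ1 D.σ₀ hσπ ht1 c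
  rw [← hWp, hϖ] at hleadW
  have hcoef1 : ‖D.σ₀ x * q₀ ^ j + (c : Ω) * x‖ ≤ 1 := by
    refine norm_add_le_of_le ?_ ?_
    · rw [norm_mul, norm_galP_apply]; exact mul_le_one₀ hx1.le (norm_nonneg _) ht1
    · rw [norm_mul]
      exact mul_le_one₀ (IsUltrametricDist.norm_natCast_le_one Ω c) (norm_nonneg _) hx1.le
  have hlt := Lead.norm_lt_one_of_pow D.hπ hpp hp D.hc₀' hjd hjc hW hcoef1 hleadW
  -- simplify the coefficient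
  have h1 : Cg (D.σ₀ x * q₀ ^ j + (c : Ω) * x) (x * (q₀ ^ j - (D.d : Ω))) := by
    have h2 : Cg (D.σ₀ x) x := D.hσ₀in x hxL hx1.le
    have h3 : Cg ((c : Ω)) (-(D.d : Ω)) := by
      have h4 : Cg (((c + D.d : ℕ) : Ω)) 0 := Cg.natCast_of_dvd hp ⟨D.d, hcd⟩
      unfold Cg at h4 ⊢
      rwa [sub_neg_eq_add, ← Nat.cast_add, ← sub_zero (((c + D.d : ℕ) : Ω))]
    have h5 := (h2.mul_right ht1).add (h3.mul_right hx1.le)
    have h6 : x * q₀ ^ j + -(D.d : Ω) * x = x * (q₀ ^ j - (D.d : Ω)) := by ring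
    rwa [h6] at h5
  have h7 : Cg (x * (q₀ ^ j - (D.d : Ω))) 0 := by
    refine h1.symm.trans ?_
    unfold Cg; rwa [sub_zero]
  have h8 := Cg.of_mul_left hx1 h7
  unfold Cg at h8
  rw [sub_zero, hq₀] at h8
  exact D.hLVLB j hj1 hjc h8

/-- the cyclotomic character of `F` is prime to `p`. -/
lemma SSData.not_dvd_εF (D : SSData p k) : ¬ p ∣ D.εF := by
  intro h
  have hpp : p.Prime := Fact.out
  have h1 : D.ζ ^ D.εF = 1 := (D.hζ.pow_eq_one_iff_dvd _).mpr h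
  have h2 : D.F D.ζ = D.F 1 := by rw [D.hFζ, h1, map_one]
  exact D.hζ.ne_one hpp.one_lt (D.F.injective h2)

/-- the top level is impossible for a character anti-invariant under `F`. -/
lemma SSData.coreB_top (D : SSData p k) (hp2 : p ≠ 2) {ψ : GP → ZMod p} {w : Ω}
    (hgen : IsKummerGen D.L₀ D.ζ ψ w)
    (hψF : ∀ τ : GP, Fixes D.L₀ τ → ψ (D.F⁻¹ * τ * D.F) = -ψ τ)
    (hnorm : ‖w ^ p - 1‖ = ‖D.π‖ ^ (p * (p + 1)))
    (hmax : ∀ y ∈ D.L₀, y ≠ 0 → ‖D.π‖ ^ (p * (p + 1)) ≤ ‖w ^ p * y ^ p - 1‖) : False := by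
  haveI := D.gal
  have hpp : p.Prime := Fact.out
  have hodd : Odd p := hpp.odd_of_ne_two hp2
  have hp : ‖((p : ℕ) : Ω)‖ < 1 := norm_natCast_p_lt_one
  have hζp := D.hζ.pow_eq_one
  obtain ⟨ϖ, hϖ⟩ : ∃ ϖ : Ω, ϖ = (D.ζ - 1) ^ p := ⟨_, rfl⟩
  have hϖ0 : ϖ ≠ 0 := hϖ ▸ pow_ne_zero p D.zeta_sub_one_ne_zero
  have hϖn : ‖ϖ‖ = ‖D.π‖ ^ (p * (p + 1)) := by
    rw [hϖ, norm_pow, D.hc₀, ← pow_mul, mul_comm]
  have hϖ1 : ‖ϖ‖ < 1 := by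
    rw [hϖ, norm_pow]; exact pow_lt_one₀ (norm_nonneg _) D.norm_zeta_sub_one_lt hpp.ne_zero
  have hϖL : ϖ ∈ D.L₀ := hϖ ▸ pow_mem (sub_mem D.hζL₀ (one_mem _)) p
  obtain ⟨u, hu⟩ : ∃ u : Ω, u = w ^ p := ⟨_, rfl⟩
  have huL : u ∈ D.L₀ := hu ▸ hgen.pow_mem hζp
  rw [← hu] at hmax
  rw [← hu, ← hϖn] at hnorm
  obtain ⟨hx1, hlead⟩ := lead_of_norm_eq hϖ0 hnorm
  obtain ⟨x, hx⟩ : ∃ x : Ω, x = (u - 1) / ϖ := ⟨_, rfl⟩
  rw [← hx] at hx1 hlead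
  have hxL : x ∈ D.L₀ := hx ▸ div_mem (sub_mem huL (one_mem _)) hϖL
  -- the action of `F` on `ϖ`
  obtain ⟨t, ht⟩ : ∃ t : Ω, t = (gsum D.ζ D.εF) ^ p := ⟨_, rfl⟩
  have hFϖ : D.F ϖ = t * ϖ := by rw [hϖ, ht]; exact D.map_top D.F D.hFζ
  have ht1 : ‖t‖ ≤ 1 := by
    rw [ht, norm_pow]; exact pow_le_one₀ (norm_nonneg _) (D.norm_gsum_le _)
  have htε : Cg t (D.εF : Ω) := ht ▸ D.norm_gsum_pow_sub_lt D.εF
  -- the relation
  have hW : D.F w * w ^ D.εF ∈ D.L₀ := by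
    refine hgen.op_mem hζp D.F D.hFζ D.εF fun τ hτ => ?_
    rw [hψF τ hτ]; ring
  have hWp : (D.F w * w ^ D.εF) ^ p = D.F u * u ^ D.εF := by
    rw [mul_pow, ← map_pow, ← pow_mul, mul_comm D.εF p, pow_mul, ← hu]
  have hleadW := hlead.op hx1.le hϖ0 hϖ1 D.F hFϖ ht1 D.εF
  rw [← hWp, hϖ] at hleadW
  have hεx : ‖(D.εF : Ω) * x‖ ≤ 1 := by
    rw [norm_mul]
    exact mul_le_one₀ (IsUltrametricDist.norm_natCast_le_one Ω _) (norm_nonneg _) hx1.le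
  have hcoef1 : ‖D.F x * t + (D.εF : Ω) * x‖ ≤ 1 := by
    refine norm_add_le_of_le ?_ hεx
    rw [norm_mul, norm_galP_apply]; exact mul_le_one₀ hx1.le (norm_nonneg _) ht1
  obtain ⟨t₁, ht₁L, ht₁1, hAS⟩ := Lead.exists_artinSchreier_of_pow (K₀ := D.L₀.toSubfield) hpp hp
    D.hζ D.hζL₀ hW hcoef1 hleadW
  have hAS' : Cg (D.F x * t + (D.εF : Ω) * x) (AS p t₁) := hAS
  -- simplify the coefficient
  have hxp1 : ‖x ^ p‖ ≤ 1 := by rw [norm_pow, hx1, one_pow]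
  have h1 : Cg (D.F x * t + (D.εF : Ω) * x) ((D.εF : Ω) * (x ^ p + x)) := by
    have h2 : Cg (D.F x) (x ^ p) := D.hFfrob x hxL hx1.le
    have h3 := (h2.mul htε ht1 hxp1).add (Cg.rfl' ((D.εF : Ω) * x))
    have h4 : x ^ p * (D.εF : Ω) + (D.εF : Ω) * x = (D.εF : Ω) * (x ^ p + x) := by ring
    rwa [h4] at h3
  have h5 : Cg ((D.εF : Ω) * (x ^ p + x)) (AS p t₁) := h1.symm.trans hAS'
  -- invert `εF`
  obtain ⟨e', he'⟩ := exists_natCast_mul_sub_one_lt (L := Ω) hpp hp D.not_dvd_εF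
  have he'c : Cg ((e' : Ω) * (D.εF : Ω)) 1 := he'
  have hsum1 : ‖x ^ p + x‖ ≤ 1 := norm_add_le_of_le hxp1 hx1.le
  have he'1 : ‖(e' : Ω)‖ ≤ 1 := IsUltrametricDist.norm_natCast_le_one Ω e'
  have h6 : Cg (x ^ p + x) (AS p ((e' : Ω) * t₁)) := by
    have h7 : Cg (1 * (x ^ p + x)) ((e' : Ω) * (D.εF : Ω) * (x ^ p + x)) :=
      he'c.symm.mul_right hsum1
    rw [one_mul, mul_assoc] at h7
    exact (h7.trans (h5.mul_left he'1)).trans (Cg.natCast_mul_AS hpp hp e' ht₁1)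
  obtain ⟨t₂, ht₂⟩ : ∃ t₂ : Ω, t₂ = (e' : Ω) * t₁ := ⟨_, rfl⟩
  rw [← ht₂] at h6
  have ht₂L : t₂ ∈ D.L₀ := ht₂ ▸ mul_mem (natCast_mem _ e') ht₁L
  have ht₂1 : ‖t₂‖ ≤ 1 := by rw [ht₂, norm_mul]; exact mul_le_one₀ he'1 (norm_nonneg _) ht₁1
  -- `2 x ≡ ℘(t₂ - x)`
  have h8 : Cg ((2 : Ω) * x) (AS p (t₂ - x)) := by
    have h9 : (2 : Ω) * x = (x ^ p + x) - AS p x := by unfold AS; ring
    rw [h9]
    exact (h6.sub (Cg.rfl' _)).trans (Cg.AS_sub hpp hp hodd ht₂1 hx1.le)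
  -- `x ≡ ℘(h (t₂ - x))`
  obtain ⟨h, hh⟩ := hodd
  have hh2 : Cg (((h + 1 : ℕ) : Ω) * 2) 1 := by
    have h10 : (h + 1) * 2 ≡ 1 [MOD p] := by
      have h11 : (h + 1) * 2 = 1 + p * 1 := by rw [hh]; ring
      rw [h11]
      exact (Nat.modEq_iff_dvd' (by omega)).mpr ⟨1, by omega⟩ |>.symm
    have h12 := Cg.natCast_of_modEq (L := Ω) hp h10
    rwa [Nat.cast_mul, Nat.cast_one, Nat.cast_ofNat] at h12
  have hh1 : ‖((h + 1 : ℕ) : Ω)‖ ≤ 1 := IsUltrametricDist.norm_natCast_le_one Ω _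
  have hd1 : ‖t₂ - x‖ ≤ 1 := norm_sub_le_of_le ht₂1 hx1.le
  have h13 : Cg x (AS p (((h + 1 : ℕ) : Ω) * (t₂ - x))) := by
    have h14 : Cg (1 * x) (((h + 1 : ℕ) : Ω) * 2 * x) := hh2.symm.mul_right hx1.le
    rw [one_mul, mul_assoc] at h14
    exact (h14.trans (h8.mul_left hh1)).trans (Cg.natCast_mul_AS hpp hp (h + 1) hd1)
  refine D.top_absurd hmax (hϖ ▸ hlead)
    (mul_mem (natCast_mem _ (h + 1)) (sub_mem ht₂L hxL)) ?_ h13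
  rw [norm_mul]
  exact mul_le_one₀ hh1 (norm_nonneg _) hd1

/-- **Core B.** An admissible function invariant under `σ₀` and anti-invariant under `F`
vanishes on the fixing subgroup of `L₀`. -/
theorem SSData.coreB (D : SSData p k) (hp2 : p ≠ 2) {f : GP → k} (hf : IsAdm D.L₀ f)
    (hσ : ∀ τ : GP, Fixes D.L₀ τ → f (D.σ₀ * τ * D.σ₀⁻¹) = f τ)
    (hF : ∀ τ : GP, Fixes D.L₀ τ → f (D.F * τ * D.F⁻¹) = -f τ) :
    ∀ τ : GP, Fixes D.L₀ τ → f τ = 0 := by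
  haveI := D.gal
  intro τ₁ hτ₁
  by_contra hne
  obtain ⟨lam, hlam⟩ := exists_lam (p := p) (k := k)
  obtain ⟨a, ha⟩ : ∃ a : k, a = (f τ₁)⁻¹ := ⟨_, rfl⟩
  have hchi1 : chi lam f a τ₁ ≠ 0 := by
    rw [chi_apply, ha, inv_mul_cancel₀ hne, hlam]; exact one_ne_zero
  obtain ⟨w, hgen, j, hj1, hj2, hjd, hnorm, hmax⟩ := D.exists_nf hp2 lam hf a ⟨τ₁, hτ₁, hchi1⟩
  have hψσ : ∀ τ : GP, Fixes D.L₀ τ → chi lam f a (D.σ₀⁻¹ * τ * D.σ₀) = chi lam f a τ := by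
    intro τ hτ
    have h1 := hσ _ (hτ.conj D.σ₀)
    have h2 : D.σ₀ * (D.σ₀⁻¹ * τ * D.σ₀) * D.σ₀⁻¹ = τ := by group
    rw [h2] at h1
    rw [chi_apply, chi_apply, h1]
  have hψF : ∀ τ : GP, Fixes D.L₀ τ → chi lam f a (D.F⁻¹ * τ * D.F) = -chi lam f a τ := by
    intro τ hτ
    have h1 := hF _ (hτ.conj D.F)
    have h2 : D.F * (D.F⁻¹ * τ * D.F) * D.F⁻¹ = τ := by group
    rw [h2] at h1
    rw [chi_apply, chi_apply, h1, mul_neg, map_neg, neg_neg]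
  rcases hjd with hjd | hjtop
  · have hjc : j < p * (p + 1) := by
      rcases Nat.lt_or_ge j (p * (p + 1)) with h | h
      · exact h
      · exact absurd ⟨p + 1, le_antisymm hj2 h⟩ hjd
    exact D.coreB_level hgen hψσ hj1 hjc hjd hnorm
  · rw [hjtop] at hnorm hmax
    exact D.coreB_top hp2 hgen hψF hnorm hmax

end CoreB

end Fermat.Agent.TW.Flat
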