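/-
F2 (flat local condition at p), count, part 4 (Core A, levels): the off-diagonal component of a
bounded cocycle. Its characters `ψ_{f,a}` have Kummer generators of exact level `p² + 1`.
-/
import Mathlib
import Fermat.Agent.TW.FlatCore_helper7_B

set_option autoImplicit false
set_option linter.unusedSectionVars false
set_option linter.style.haveILetI false

namespace Fermat.Agent.TW.Flat

open Fermat.Agent.Ram Fermat.Agent.TW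

variable {p : ℕ} [Fact p.Prime] {k : Type} [Field k]

local notation "Ω" => PadicAlgCl p
local notation "GP" => (PadicAlgCl p ≃ₐ[ℚ_[p]] PadicAlgCl p)

section CoreA

variable [Finite k] [CharP k p]

/-- the coefficient `c₁ ≡ -(t'² - 2d)` of the quadratic relation. -/
noncomputable def SSData.c₁ (D : SSData p k) : ℕ := (p - 1) * D.t' ^ 2 + 2 * D.d

/-- the coefficient `c₂ = d²` of the quadratic relation. -/
noncomputable def SSData.c₂ (D : SSData p k) : ℕ := D.d ^ 2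

/-- the character of `W = σ₀²(w) σ₀(w)^c₁ w^c₂`. -/
noncomputable def SSData.relChar (D : SSData p k) (ψ : (PadicAlgCl p ≃ₐ[ℚ_[p]] PadicAlgCl p) → ZMod p) :
    (PadicAlgCl p ≃ₐ[ℚ_[p]] PadicAlgCl p) → ZMod p := fun τ =>
  (D.d : ZMod p) * ((D.d : ZMod p) * ψ (D.σ₀⁻¹ * (D.σ₀⁻¹ * τ * D.σ₀) * D.σ₀))
    + (D.c₁ : ZMod p) * ((D.d : ZMod p) * ψ (D.σ₀⁻¹ * τ * D.σ₀)) + (D.c₂ : ZMod p) * ψ τ

/-- the element `W = σ₀²(w) σ₀(w)^c₁ w^c₂` lies in `L₀` and its `p`-th power has the expected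
leading coefficient. -/
lemma SSData.relation_lead (D : SSData p k) {ψ : GP → ZMod p} {w : Ω}
    (hgen : IsKummerGen D.L₀ D.ζ ψ w)
    (hrel : ∀ τ : GP, Fixes D.L₀ τ → D.relChar ψ τ = 0)
    {ϖ x t : Ω} (hϖ0 : ϖ ≠ 0) (hϖ1 : ‖ϖ‖ < 1) (ht : D.σ₀ ϖ = t * ϖ) (ht1 : ‖t‖ ≤ 1)
    (htL : t ∈ D.L₀) (hxL : x ∈ D.L₀) (hx1 : ‖x‖ ≤ 1) (hlead : Lead ϖ (w ^ p) x) :
    ∃ W ∈ D.L₀, ∃ X : Ω, ‖X‖ ≤ 1 ∧ Lead ϖ (W ^ p) X ∧
      Cg X (x * (t ^ 2 + (D.c₁ : Ω) * t + (D.c₂ : Ω))) := by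
  haveI := D.gal
  have hζp := D.hζ.pow_eq_one
  obtain ⟨u, hu⟩ : ∃ u : Ω, u = w ^ p := ⟨_, rfl⟩
  rw [← hu] at hlead
  -- generators
  have hgen₁ := hgen.mapNat hζp D.σ₀ D.d D.hσ₀ζ
  have hgen₂ := hgen₁.mapNat hζp D.σ₀ D.d D.hσ₀ζ
  have hgenW := (hgen₂.mul hζp (hgen₁.pow hζp D.c₁)).mul hζp (hgen.pow hζp D.c₂)
  have hW : D.σ₀ (D.σ₀ w) * (D.σ₀ w) ^ D.c₁ * w ^ D.c₂ ∈ D.L₀ := hgenW.mem_of_zero hrel
  have hWp : (D.σ₀ (D.σ₀ w) * (D.σ₀ w) ^ D.c₁ * w ^ D.c₂) ^ p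
      = D.σ₀ (D.σ₀ u) * (D.σ₀ u) ^ D.c₁ * u ^ D.c₂ := by
    rw [hu, map_pow, map_pow]; ring
  -- leading coefficients
  obtain ⟨x₁, hx₁⟩ : ∃ x₁ : Ω, x₁ = D.σ₀ x * t := ⟨_, rfl⟩
  obtain ⟨x₂, hx₂⟩ : ∃ x₂ : Ω, x₂ = D.σ₀ x₁ * t := ⟨_, rfl⟩
  have hx₁1 : ‖x₁‖ ≤ 1 := by
    rw [hx₁, norm_mul, norm_galP_apply]; exact mul_le_one₀ hx1 (norm_nonneg _) ht1
  have hx₂1 : ‖x₂‖ ≤ 1 := by
    rw [hx₂, norm_mul, norm_galP_apply]; exact mul_le_one₀ hx₁1 (norm_nonneg _) ht1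
  have hx₁L : x₁ ∈ D.L₀ := hx₁ ▸ mul_mem (map_mem_of_isGalois D.L₀ D.σ₀ hxL) htL
  have hl₁ : Lead ϖ (D.σ₀ u) x₁ := hx₁ ▸ hlead.galMap D.σ₀ ht
  have hl₂ : Lead ϖ (D.σ₀ (D.σ₀ u)) x₂ := hx₂ ▸ hl₁.galMap D.σ₀ ht
  have hl₁c := hl₁.pow hx₁1 hϖ0 hϖ1 D.c₁
  have hlc := hlead.pow hx1 hϖ0 hϖ1 D.c₂
  have hc₁x : ‖(D.c₁ : Ω) * x₁‖ ≤ 1 := by
    rw [norm_mul]
    exact mul_le_one₀ (IsUltrametricDist.norm_natCast_le_one Ω _) (norm_nonneg _) hx₁1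
  have hc₂x : ‖(D.c₂ : Ω) * x‖ ≤ 1 := by
    rw [norm_mul]
    exact mul_le_one₀ (IsUltrametricDist.norm_natCast_le_one Ω _) (norm_nonneg _) hx1
  have hl₁₂ := hl₂.mul hl₁c hx₂1 hc₁x hϖ0 hϖ1
  have hsum1 : ‖x₂ + (D.c₁ : Ω) * x₁‖ ≤ 1 := norm_add_le_of_le hx₂1 hc₁x
  have hlW := hl₁₂.mul hlc hsum1 hc₂x hϖ0 hϖ1
  rw [← hWp] at hlW
  refine ⟨_, hW, _, norm_add_le_of_le hsum1 hc₂x, hlW, ?_⟩
  -- the congruence
  have h1 : Cg x₁ (x * t) := by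
    rw [hx₁]; exact Cg.mul_right ht1 (D.hσ₀in x hxL hx1)
  have h2 : Cg x₂ (x * t * t) := by
    rw [hx₂]
    exact (Cg.mul_right ht1 (D.hσ₀in x₁ hx₁L hx₁1)).trans (h1.mul_right ht1)
  have h3 := (h2.add (h1.mul_left (IsUltrametricDist.norm_natCast_le_one Ω D.c₁))).add
    (Cg.rfl' ((D.c₂ : Ω) * x))
  have h4 : x * t * t + (D.c₁ : Ω) * (x * t) + (D.c₂ : Ω) * x
      = x * (t ^ 2 + (D.c₁ : Ω) * t + (D.c₂ : Ω)) := by ring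
  rwa [h4] at h3

lemma SSData.α_ne_zero (D : SSData p k) : D.α ≠ 0 := by
  intro h
  have hpp : p.Prime := Fact.out
  have h1 : D.β = 0 := by rw [← D.hα, h, zero_pow hpp.ne_zero]
  exact D.hαβ (h.trans h1.symm)

lemma SSData.β_ne_zero (D : SSData p k) : D.β ≠ 0 := by
  intro h
  have hpp : p.Prime := Fact.out
  have h1 : D.α = 0 := by rw [← D.hβ, h, zero_pow hpp.ne_zero]
  exact D.hαβ (h1.trans h.symm)

lemma SSData.c₁_cast (D : SSData p k) : ((D.c₁ : ℕ) : k) = -(D.α + D.β) ^ 2 + 2 * (D.α * D.β) := by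
  have hpp : p.Prime := Fact.out
  unfold SSData.c₁
  rw [Nat.cast_add, Nat.cast_mul, Nat.cast_sub hpp.one_le, CharP.cast_eq_zero, Nat.cast_one,
    zero_sub, Nat.cast_pow, D.ht', Nat.cast_mul, D.hd]
  push_cast
  ring

lemma SSData.c₂_cast (D : SSData p k) : ((D.c₂ : ℕ) : k) = (D.α * D.β) ^ 2 := by
  unfold SSData.c₂
  rw [Nat.cast_pow, D.hd]

/-- `Q(d) ≢ 0` modulo `p`. -/
lemma SSData.not_dvd_NQ (D : SSData p k) : ¬ p ∣ D.d ^ 2 + D.c₁ * D.d + D.c₂ := by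
  intro h
  have h1 : ((D.d ^ 2 + D.c₁ * D.d + D.c₂ : ℕ) : k) = 0 := (CharP.cast_eq_zero_iff k p _).mpr h
  rw [Nat.cast_add, Nat.cast_add, Nat.cast_mul, Nat.cast_pow, D.c₁_cast, D.c₂_cast, D.hd] at h1
  have h2 : D.α * D.β * (D.α - D.β) ^ 2 = 0 := by linear_combination -h1
  rcases mul_eq_zero.mp h2 with h3 | h3
  · rcases mul_eq_zero.mp h3 with h4 | h4
    · exact D.α_ne_zero h4
    · exact D.β_ne_zero h4
  · exact D.hαβ (sub_eq_zero.mp ((pow_eq_zero_iff (two_ne_zero)).mp h3))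

/-- a non-top level of a generator satisfying the quadratic relation is `p² + 1`. -/
lemma SSData.coreA_level (D : SSData p k) {ψ : GP → ZMod p} {w : Ω}
    (hgen : IsKummerGen D.L₀ D.ζ ψ w)
    (hrel : ∀ τ : GP, Fixes D.L₀ τ → D.relChar ψ τ = 0)
    {j : ℕ} (hj1 : p + 1 < j) (hjc : j < p * (p + 1)) (hjd : ¬ p ∣ j)
    (hnorm : ‖w ^ p - 1‖ = ‖D.π‖ ^ j) : j = p ^ 2 + 1 := by
  haveI := D.gal
  have hpp : p.Prime := Fact.out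
  have hp : ‖((p : ℕ) : Ω)‖ < 1 := norm_natCast_p_lt_one
  have hζp := D.hζ.pow_eq_one
  have hπ0 := D.pi_ne_zero
  obtain ⟨ϖ, hϖ⟩ : ∃ ϖ : Ω, ϖ = D.π ^ j := ⟨_, rfl⟩
  have hϖ0 : ϖ ≠ 0 := hϖ ▸ pow_ne_zero j hπ0
  have hj0 : j ≠ 0 := by omega
  have hϖ1 : ‖ϖ‖ < 1 := by
    rw [hϖ, norm_pow]; exact pow_lt_one₀ D.hπ.pos.le D.hπ.lt_one hj0
  have hϖL : ϖ ∈ D.L₀ := hϖ ▸ pow_mem D.pi_mem j
  have huL : w ^ p ∈ D.L₀ := hgen.pow_mem hζp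
  rw [← norm_pow, ← hϖ] at hnorm
  obtain ⟨hx1, hlead⟩ := lead_of_norm_eq hϖ0 hnorm
  obtain ⟨x, hx⟩ : ∃ x : Ω, x = (w ^ p - 1) / ϖ := ⟨_, rfl⟩
  rw [← hx] at hx1 hlead
  have hxL : x ∈ D.L₀ := hx ▸ div_mem (sub_mem huL (one_mem _)) hϖL
  obtain ⟨q₀, hq₀⟩ : ∃ q₀ : Ω, q₀ = D.σ₀ D.π / D.π := ⟨_, rfl⟩
  have hq₀1 : ‖q₀‖ = 1 := by
    rw [hq₀, norm_div, norm_galP_apply, div_self (norm_ne_zero_iff.mpr hπ0)]
  have hq₀L : q₀ ∈ D.L₀ := hq₀ ▸ div_mem (map_mem_of_isGalois D.L₀ D.σ₀ D.pi_mem) D.pi_mem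
  have hσπ : D.σ₀ ϖ = q₀ ^ j * ϖ := by
    rw [hϖ, map_pow, hq₀, ← mul_pow, div_mul_cancel₀ _ hπ0]
  have ht1 : ‖q₀ ^ j‖ ≤ 1 := by rw [norm_pow, hq₀1, one_pow]
  obtain ⟨W, hW, X, hX1, hlW, hXc⟩ := D.relation_lead hgen hrel hϖ0 hϖ1 hσπ ht1
    (pow_mem hq₀L j) hxL hx1.le hlead
  rw [hϖ] at hlW
  have hlt := Lead.norm_lt_one_of_pow D.hπ hpp hp D.hc₀' hjd hjc hW hX1 hlW
  have h1 : Cg X 0 := by unfold Cg; rwa [sub_zero]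
  have h2 := Cg.of_mul_left hx1 (hXc.symm.trans h1)
  unfold Cg at h2
  rw [sub_zero, hq₀] at h2
  exact D.hLVLA j hj1 hjc hjd h2

/-- the top level is impossible for a generator satisfying the quadratic relation. -/
lemma SSData.coreA_top (D : SSData p k) {ψ : GP → ZMod p} {w : Ω}
    (hgen : IsKummerGen D.L₀ D.ζ ψ w)
    (hrel : ∀ τ : GP, Fixes D.L₀ τ → D.relChar ψ τ = 0)
    (hnorm : ‖w ^ p - 1‖ = ‖D.π‖ ^ (p * (p + 1)))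
    (hmax : ∀ y ∈ D.L₀, y ≠ 0 → ‖D.π‖ ^ (p * (p + 1)) ≤ ‖w ^ p * y ^ p - 1‖) : False := by
  haveI := D.gal
  have hpp : p.Prime := Fact.out
  have hp : ‖((p : ℕ) : Ω)‖ < 1 := norm_natCast_p_lt_one
  have hζp := D.hζ.pow_eq_one
  obtain ⟨ϖ, hϖ⟩ : ∃ ϖ : Ω, ϖ = (D.ζ - 1) ^ p := ⟨_, rfl⟩
  have hϖ0 : ϖ ≠ 0 := hϖ ▸ pow_ne_zero p D.zeta_sub_one_ne_zero
  have hϖn : ‖ϖ‖ = ‖D.π‖ ^ (p * (p + 1)) := by
    rw [hϖ, norm_pow, D.hc₀, ← pow_mul, mul_comm]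
  have hϖ1 : ‖ϖ‖ < 1 := by
    rw [hϖ, norm_pow]; exact pow_lt_one₀ (norm_nonneg _) D.norm_zeta_sub_one_lt hpp.ne_zero
  have hϖL : ϖ ∈ D.L₀ := hϖ ▸ pow_mem (sub_mem D.hζL₀ (one_mem _)) p
  have huL : w ^ p ∈ D.L₀ := hgen.pow_mem hζp
  rw [← hϖn] at hnorm
  obtain ⟨hx1, hlead⟩ := lead_of_norm_eq hϖ0 hnorm
  obtain ⟨x, hx⟩ : ∃ x : Ω, x = (w ^ p - 1) / ϖ := ⟨_, rfl⟩
  rw [← hx] at hx1 hlead
  have hxL : x ∈ D.L₀ := hx ▸ div_mem (sub_mem huL (one_mem _)) hϖL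
  obtain ⟨t, ht⟩ : ∃ t : Ω, t = (gsum D.ζ D.d) ^ p := ⟨_, rfl⟩
  have hσϖ : D.σ₀ ϖ = t * ϖ := by rw [hϖ, ht]; exact D.map_top D.σ₀ D.hσ₀ζ
  have ht1 : ‖t‖ ≤ 1 := by
    rw [ht, norm_pow]; exact pow_le_one₀ (norm_nonneg _) (D.norm_gsum_le _)
  have htL : t ∈ D.L₀ := ht ▸ pow_mem (D.gsum_mem _) p
  have htd : Cg t (D.d : Ω) := ht ▸ D.norm_gsum_pow_sub_lt D.d
  obtain ⟨W, hW, X, hX1, hlW, hXc⟩ := D.relation_lead hgen hrel hϖ0 hϖ1 hσϖ ht1 htL hxL hx1.le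
    hlead
  rw [hϖ] at hlW
  obtain ⟨t₁, ht₁L, ht₁1, hAS⟩ := Lead.exists_artinSchreier_of_pow (K₀ := D.L₀.toSubfield) hpp hp
    D.hζ D.hζL₀ hW hX1 hlW
  have hAS' : Cg X (AS p t₁) := hAS
  -- `t² + c₁ t + c₂ ≡ N_Q`
  have hd1 : ‖(D.d : Ω)‖ ≤ 1 := IsUltrametricDist.norm_natCast_le_one Ω _
  have hc₁1 : ‖(D.c₁ : Ω)‖ ≤ 1 := IsUltrametricDist.norm_natCast_le_one Ω _
  have h1 : Cg (t ^ 2 + (D.c₁ : Ω) * t + (D.c₂ : Ω))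
      (((D.d ^ 2 + D.c₁ * D.d + D.c₂ : ℕ) : Ω)) := by
    have h2 := ((htd.pow ht1 hd1 2).add (htd.mul_left hc₁1)).add (Cg.rfl' (D.c₂ : Ω))
    push_cast
    exact h2
  obtain ⟨N, hN⟩ : ∃ N : ℕ, N = D.d ^ 2 + D.c₁ * D.d + D.c₂ := ⟨_, rfl⟩
  rw [← hN] at h1
  have hNp : ¬ p ∣ N := hN ▸ D.not_dvd_NQ
  have h3 : Cg (x * (N : Ω)) (AS p t₁) := ((h1.mul_left hx1.le).symm.trans hXc.symm).trans hAS'
  obtain ⟨q', hq'⟩ := exists_natCast_mul_sub_one_lt (L := Ω) hpp hp hNp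
  have hq'c : Cg ((q' : Ω) * (N : Ω)) 1 := hq'
  have hq'1 : ‖(q' : Ω)‖ ≤ 1 := IsUltrametricDist.norm_natCast_le_one Ω q'
  have h4 : Cg x (AS p ((q' : Ω) * t₁)) := by
    have h5 : Cg (1 * x) ((q' : Ω) * (N : Ω) * x) := hq'c.symm.mul_right hx1.le
    have h6 : (q' : Ω) * (N : Ω) * x = (q' : Ω) * (x * (N : Ω)) := by ring
    rw [one_mul, h6] at h5
    exact (h5.trans (h3.mul_left hq'1)).trans (Cg.natCast_mul_AS hpp hp q' ht₁1)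
  refine D.top_absurd hmax (hϖ ▸ hlead) (mul_mem (natCast_mem _ q') ht₁L) ?_ h4
  rw [norm_mul]
  exact mul_le_one₀ hq'1 (norm_nonneg _) ht₁1

/-- the functions to be counted: admissible, with the `σ₀`- and `F²`-equivariance of the
upper-right matrix coefficient. -/
structure IsAdmA (D : SSData p k) (f : (PadicAlgCl p ≃ₐ[ℚ_[p]] PadicAlgCl p) → k) : Prop where
  adm : IsAdm D.L₀ f
  hσ : ∀ τ : PadicAlgCl p ≃ₐ[ℚ_[p]] PadicAlgCl p, Fixes D.L₀ τ →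
    f (D.σ₀ * τ * D.σ₀⁻¹) = D.α / D.β * f τ
  hF2 : ∀ τ : PadicAlgCl p ≃ₐ[ℚ_[p]] PadicAlgCl p, Fixes D.L₀ τ →
    f (D.F * D.F * τ * (D.F * D.F)⁻¹) = f τ

lemma IsAdmA.sub {D : SSData p k} {f f' : GP → k} (hf : IsAdmA D f) (hf' : IsAdmA D f') :
    IsAdmA D (f - f') := by
  refine ⟨hf.adm.sub hf'.adm, fun τ hτ => ?_, fun τ hτ => ?_⟩
  · rw [Pi.sub_apply, Pi.sub_apply, hf.hσ τ hτ, hf'.hσ τ hτ, mul_sub]
  · rw [Pi.sub_apply, Pi.sub_apply, hf.hF2 τ hτ, hf'.hF2 τ hτ]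

/-- the `σ₀`-rule for the characters: `d ψ_{f,a}(σ₀⁻¹ τ σ₀) = ψ_{f, a β²}(τ)`. -/
lemma IsAdmA.chi_conj {D : SSData p k} {f : GP → k} (hf : IsAdmA D f) (lam : k →+ ZMod p)
    (a : k) (τ : GP) (hτ : Fixes D.L₀ τ) :
    (D.d : ZMod p) * chi lam f a (D.σ₀⁻¹ * τ * D.σ₀) = chi lam f (a * D.β ^ 2) τ := by
  haveI := D.gal
  have h1 := hf.hσ _ (hτ.conj D.σ₀)
  have h2 : D.σ₀ * (D.σ₀⁻¹ * τ * D.σ₀) * D.σ₀⁻¹ = τ := by group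
  rw [h2] at h1
  rw [← chi_natCast_mul, chi_apply, chi_apply, h1, D.hd]
  congr 1
  have hα := D.α_ne_zero
  have hβ := D.β_ne_zero
  field_simp

/-- the quadratic relation for the characters `ψ_{f,a}`. -/
lemma IsAdmA.relChar_eq_zero {D : SSData p k} {f : GP → k} (hf : IsAdmA D f)
    (lam : k →+ ZMod p) (a : k) (τ : GP) (hτ : Fixes D.L₀ τ) :
    D.relChar (chi lam f a) τ = 0 := by
  haveI := D.gal
  unfold SSData.relChar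
  rw [hf.chi_conj lam a _ (hτ.conj D.σ₀), hf.chi_conj lam (a * D.β ^ 2) τ hτ,
    hf.chi_conj lam a τ hτ, ← chi_natCast_mul, ← chi_natCast_mul, ← chi_add_left,
    ← chi_add_left, D.c₁_cast, D.c₂_cast]
  have h1 : a * D.β ^ 2 * D.β ^ 2 + (-(D.α + D.β) ^ 2 + 2 * (D.α * D.β)) * (a * D.β ^ 2)
      + (D.α * D.β) ^ 2 * a = 0 := by ring
  rw [h1, chi_apply, zero_mul, map_zero]

/-- the level `j* = p² + 1`. -/
lemma not_dvd_sq_add_one : ¬ p ∣ p ^ 2 + 1 := by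
  have hpp : p.Prime := Fact.out
  intro h
  have h1 : p ∣ p ^ 2 := dvd_pow_self p two_ne_zero
  have h2 : p ∣ 1 := (Nat.dvd_add_right h1).mp h
  exact hpp.one_lt.ne' (Nat.dvd_one.mp h2)

lemma sq_add_one_lt : p ^ 2 + 1 < p * (p + 1) := by
  have hpp : p.Prime := Fact.out
  have := hpp.one_lt
  have h : p * (p + 1) = p ^ 2 + p := by ring
  omega

lemma lt_sq_add_one : p + 1 < p ^ 2 + 1 := by
  have hpp : p.Prime := Fact.out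
  have h1 : 2 ≤ p := hpp.two_le
  have h2 : 2 * p ≤ p ^ 2 := by rw [sq]; exact Nat.mul_le_mul_right p h1
  omega

/-- the relation `R(f, a, x)`: some Kummer generator of `ψ_{f,a}` has leading coefficient `x` at
the level `p² + 1`. -/
def RA (D : SSData p k) (lam : k →+ ZMod p) (f : (PadicAlgCl p ≃ₐ[ℚ_[p]] PadicAlgCl p) → k)
    (a : k) (x : PadicAlgCl p) : Prop :=
  x ∈ D.L₀ ∧ ‖x‖ ≤ 1 ∧ ∃ w : PadicAlgCl p, IsKummerGen D.L₀ D.ζ (chi lam f a) w ∧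
    Lead (D.π ^ (p ^ 2 + 1)) (w ^ p) x

lemma SSData.star_ne_zero (D : SSData p k) : D.π ^ (p ^ 2 + 1) ≠ 0 :=
  pow_ne_zero _ D.pi_ne_zero

lemma SSData.norm_star_lt_one (D : SSData p k) : ‖D.π ^ (p ^ 2 + 1)‖ < 1 := by
  rw [norm_pow]; exact pow_lt_one₀ D.hπ.pos.le D.hπ.lt_one (Nat.succ_ne_zero _)

/-- **(E)** existence. -/
theorem SSData.coreA_exists (D : SSData p k) (hp2 : p ≠ 2) (lam : k →+ ZMod p) {f : GP → k}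
    (hf : IsAdmA D f) (a : k) :
    ∃ x : Ω, RA D lam f a x ∧ ((∃ τ : GP, Fixes D.L₀ τ ∧ chi lam f a τ ≠ 0) → ‖x‖ = 1) := by
  haveI := D.gal
  have hζp := D.hζ.pow_eq_one
  by_cases hne : ∃ τ : GP, Fixes D.L₀ τ ∧ chi lam f a τ ≠ 0
  · obtain ⟨w, hgen, j, hj1, hj2, hjd, hnorm, hmax⟩ := D.exists_nf hp2 lam hf.adm a hne
    have hrel := fun τ hτ => hf.relChar_eq_zero lam a τ hτ
    have hj : j = p ^ 2 + 1 := by
      rcases hjd with hjd | hjtop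
      · have hjc : j < p * (p + 1) := by
          rcases Nat.lt_or_ge j (p * (p + 1)) with h | h
          · exact h
          · exact absurd ⟨p + 1, le_antisymm hj2 h⟩ hjd
        exact D.coreA_level hgen hrel hj1 hjc hjd hnorm
      · rw [hjtop] at hnorm hmax
        exact (D.coreA_top hgen hrel hnorm hmax).elim
    rw [hj, ← norm_pow] at hnorm
    obtain ⟨hx1, hlead⟩ := lead_of_norm_eq D.star_ne_zero hnorm
    refine ⟨_, ⟨?_, hx1.le, w, hgen, hlead⟩, fun _ => hx1⟩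
    exact div_mem (sub_mem (hgen.pow_mem hζp) (one_mem _)) (pow_mem D.pi_mem _)
  · push Not at hne
    refine ⟨0, ⟨zero_mem _, by rw [norm_zero]; exact zero_le_one, 1, ?_, ?_⟩, fun h => absurd h ?_⟩
    · exact (IsKummerGen.one D.L₀ D.ζ).congr fun τ hτ => (hne τ hτ).symm
    · rw [one_pow]; exact Lead.one _ D.star_ne_zero
    · push Not
      exact hne

/-- **(U)** uniqueness modulo the maximal ideal. -/
theorem SSData.coreA_unique (D : SSData p k) {lam : k →+ ZMod p} {f : GP → k} {a : k}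
    {x x' : Ω} (h : RA D lam f a x) (h' : RA D lam f a x') : Cg x x' := by
  have hpp : p.Prime := Fact.out
  have hp : ‖((p : ℕ) : Ω)‖ < 1 := norm_natCast_p_lt_one
  obtain ⟨-, hx1, w, hgen, hlead⟩ := h
  obtain ⟨-, hx'1, w', hgen', hlead'⟩ := h'
  have hζ0 : D.ζ ≠ 0 := D.hζ.ne_zero hpp.ne_zero
  have hy : w' / w ∈ D.L₀ := hgen.div_mem hgen' (fun _ _ => rfl) hζ0
  have hwp0 : w ^ p ≠ 0 := pow_ne_zero p hgen.1
  have hlinv := hlead.inv hx1 D.star_ne_zero D.norm_star_lt_one hwp0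
  have hl := hlead'.mul hlinv hx'1 (by rwa [norm_neg]) D.star_ne_zero D.norm_star_lt_one
  have hyp : (w' / w) ^ p = w' ^ p * (w ^ p)⁻¹ := by rw [div_pow, div_eq_mul_inv]
  rw [← hyp] at hl
  have hcoef : ‖x' + -x‖ ≤ 1 := norm_add_le_of_le hx'1 (by rwa [norm_neg])
  have hlt := Lead.norm_lt_one_of_pow D.hπ hpp hp D.hc₀' not_dvd_sq_add_one sq_add_one_lt hy
    hcoef hl
  unfold Cg
  rwa [← norm_neg, neg_sub, sub_eq_add_neg]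

/-- **(Sub)** additivity in `f`. -/
theorem RA.sub {D : SSData p k} {lam : k →+ ZMod p} {f f' : GP → k} {a : k} {x x' : Ω}
    (h : RA D lam f a x) (h' : RA D lam f' a x') : RA D lam (f - f') a (x - x') := by
  have hζp := D.hζ.pow_eq_one
  obtain ⟨hxL, hx1, w, hgen, hlead⟩ := h
  obtain ⟨hx'L, hx'1, w', hgen', hlead'⟩ := h'
  refine ⟨sub_mem hxL hx'L, norm_sub_le_of_le hx1 hx'1, w * w'⁻¹, ?_, ?_⟩
  · refine (hgen.mul hζp (hgen'.inv hζp)).congr fun τ _ => ?_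
    rw [chi_sub, sub_eq_add_neg]
  · have hw'p0 : w' ^ p ≠ 0 := pow_ne_zero p hgen'.1
    have hlinv := hlead'.inv hx'1 D.star_ne_zero D.norm_star_lt_one hw'p0
    have hl := hlead.mul hlinv hx1 (by rwa [norm_neg]) D.star_ne_zero D.norm_star_lt_one
    rw [mul_pow, inv_pow, sub_eq_add_neg]
    exact hl

/-- the unit `υ = F²(π)/π`. -/
noncomputable def SSData.υ (D : SSData p k) : PadicAlgCl p := D.F (D.F D.π) / D.π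

lemma SSData.υ_mem (D : SSData p k) : D.υ ∈ D.L₀ := by
  haveI := D.gal
  exact div_mem (map_mem_of_isGalois D.L₀ D.F (map_mem_of_isGalois D.L₀ D.F D.pi_mem)) D.pi_mem

lemma SSData.norm_υ (D : SSData p k) : ‖D.υ‖ = 1 := by
  unfold SSData.υ
  rw [norm_div, norm_galP_apply, norm_galP_apply, div_self (norm_ne_zero_iff.mpr D.pi_ne_zero)]

/-- `F²` acts on integral elements of `L₀` as `x ↦ x^(p²)` modulo the maximal ideal. -/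
lemma SSData.frob_sq (D : SSData p k) {x : Ω} (hxL : x ∈ D.L₀) (hx1 : ‖x‖ ≤ 1) :
    Cg (D.F (D.F x)) (x ^ (p ^ 2)) := by
  haveI := D.gal
  have h1 : Cg (D.F x) (x ^ p) := D.hFfrob x hxL hx1
  have hFx1 : ‖D.F x‖ ≤ 1 := by rwa [norm_galP_apply]
  have h2 : Cg (D.F (D.F x)) ((D.F x) ^ p) :=
    D.hFfrob _ (map_mem_of_isGalois D.L₀ D.F hxL) hFx1
  have hxp1 : ‖x ^ p‖ ≤ 1 := by rw [norm_pow]; exact pow_le_one₀ (norm_nonneg _) hx1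
  have h3 := h1.pow hFx1 hxp1 p
  rw [← pow_mul, ← sq] at h3
  exact h2.trans h3

/-- **(F²)** the Frobenius rule. -/
theorem SSData.coreA_frob (D : SSData p k) {lam : k →+ ZMod p} {f : GP → k} (hf : IsAdmA D f)
    {a : k} {x : Ω} (h : RA D lam f a x) :
    Cg (x ^ (p ^ 2) * D.υ ^ (p ^ 2 + 1)) (((D.εF * D.εF : ℕ) : Ω) * x) := by
  haveI := D.gal
  have hpp : p.Prime := Fact.out
  have hp : ‖((p : ℕ) : Ω)‖ < 1 := norm_natCast_p_lt_one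
  have hζp := D.hζ.pow_eq_one
  have hζ0 : D.ζ ≠ 0 := D.hζ.ne_zero hpp.ne_zero
  obtain ⟨hxL, hx1, w, hgen, hlead⟩ := h
  obtain ⟨F₂, hF₂⟩ : ∃ F₂ : GP, F₂ = D.F * D.F := ⟨_, rfl⟩
  have hF₂app : ∀ z : Ω, F₂ z = D.F (D.F z) := fun z => by rw [hF₂]; rfl
  obtain ⟨ε₂, hε₂⟩ : ∃ ε₂ : ℕ, ε₂ = D.εF * D.εF := ⟨_, rfl⟩
  have hF₂ζ : F₂ D.ζ = D.ζ ^ ε₂ := by
    rw [hF₂app, D.hFζ, map_pow, D.hFζ, ← pow_mul, hε₂]
  -- the two generators of `ε₂ ψ`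
  have hg1 := hgen.mapNat hζp F₂ ε₂ hF₂ζ
  have hg2 := hgen.pow hζp ε₂
  have hψ : ∀ τ : GP, Fixes D.L₀ τ →
      (ε₂ : ZMod p) * chi lam f a τ = (ε₂ : ZMod p) * chi lam f a (F₂⁻¹ * τ * F₂) := by
    intro τ hτ
    have h1 := hf.hF2 _ (hτ.conj F₂)
    rw [← hF₂] at h1
    have h2 : F₂ * (F₂⁻¹ * τ * F₂) * F₂⁻¹ = τ := by group
    rw [h2] at h1
    rw [chi_apply, chi_apply, h1]
  have hy : F₂ w / w ^ ε₂ ∈ D.L₀ := hg2.div_mem hg1 hψ hζ0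
  -- leading coefficients
  have hϖ0 := D.star_ne_zero
  have hϖ1 := D.norm_star_lt_one
  have hF₂ϖ : F₂ (D.π ^ (p ^ 2 + 1)) = D.υ ^ (p ^ 2 + 1) * D.π ^ (p ^ 2 + 1) := by
    rw [map_pow, hF₂app, ← mul_pow]
    unfold SSData.υ
    rw [div_mul_cancel₀ _ D.pi_ne_zero]
  have hυ1 : ‖D.υ ^ (p ^ 2 + 1)‖ ≤ 1 := by rw [norm_pow, D.norm_υ, one_pow]
  have hl1 := hlead.galMap F₂ hF₂ϖ
  have hl2 := hlead.pow hx1 hϖ0 hϖ1 ε₂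
  have hε₂x : ‖(ε₂ : Ω) * x‖ ≤ 1 := by
    rw [norm_mul]
    exact mul_le_one₀ (IsUltrametricDist.norm_natCast_le_one Ω _) (norm_nonneg _) hx1
  have hwp0 : (w ^ p) ^ ε₂ ≠ 0 := pow_ne_zero _ (pow_ne_zero p hgen.1)
  have hl2inv := hl2.inv hε₂x hϖ0 hϖ1 hwp0
  have hFx1 : ‖F₂ x * D.υ ^ (p ^ 2 + 1)‖ ≤ 1 := by
    rw [norm_mul, norm_galP_apply]; exact mul_le_one₀ hx1 (norm_nonneg _) hυ1
  have hl := hl1.mul hl2inv hFx1 (by rwa [norm_neg]) hϖ0 hϖ1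
  have hyp : (F₂ w / w ^ ε₂) ^ p = F₂ (w ^ p) * ((w ^ p) ^ ε₂)⁻¹ := by
    rw [div_pow, div_eq_mul_inv, map_pow, ← pow_mul, ← pow_mul, mul_comm ε₂ p]
  rw [← hyp] at hl
  have hcoef : ‖F₂ x * D.υ ^ (p ^ 2 + 1) + -((ε₂ : Ω) * x)‖ ≤ 1 :=
    norm_add_le_of_le hFx1 (by rwa [norm_neg])
  have hlt := Lead.norm_lt_one_of_pow D.hπ hpp hp D.hc₀' not_dvd_sq_add_one sq_add_one_lt hy
    hcoef hl
  have h1 : Cg (F₂ x * D.υ ^ (p ^ 2 + 1)) ((ε₂ : Ω) * x) := by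
    unfold Cg; rwa [sub_eq_add_neg]
  have h2 : Cg (F₂ x) (x ^ (p ^ 2)) := by rw [hF₂app]; exact D.frob_sq hxL hx1
  rw [← hε₂]
  exact (h2.mul_right hυ1).symm.trans h1

end CoreA

end Fermat.Agent.TW.Flat
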