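/-
F2 (flat local condition at p), count, part 5 (Core A, counting): there are at most `|k|`
functions `f` with the equivariance of the upper-right matrix coefficient of a bounded cocycle.
-/
import Mathlib
import Fermat.Agent.TW.FlatCore_helper7_A

set_option autoImplicit false
set_option linter.unusedSectionVars false
set_option linter.style.haveILetI false

namespace Fermat.Agent.TW.Flat

open Fermat.Agent.Ram Fermat.Agent.TW Polynomial

variable {p : ℕ} [Fact p.Prime] {k : Type} [Field k]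

local notation "Ω" => PadicAlgCl p
local notation "GP" => (PadicAlgCl p ≃ₐ[ℚ_[p]] PadicAlgCl p)

section ResC

variable [Finite k] [CharP k p]

/-- the residue class of an integral element of `L₀`. -/
noncomputable def SSData.resC (D : SSData p k) (x : PadicAlgCl p) (hxL : x ∈ D.L₀)
    (hx1 : ‖x‖ ≤ 1) : Res D.L₀ :=
  res D.L₀ ⟨⟨x, hxL⟩, hx1⟩

lemma SSData.resC_eq_iff (D : SSData p k) {x x' : Ω} (hxL : x ∈ D.L₀) (hx1 : ‖x‖ ≤ 1)
    (hx'L : x' ∈ D.L₀) (hx'1 : ‖x'‖ ≤ 1) :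
    D.resC x hxL hx1 = D.resC x' hx'L hx'1 ↔ Cg x x' := by
  unfold SSData.resC
  rw [res_eq_iff]
  rfl

lemma SSData.resC_mul (D : SSData p k) {x y : Ω} (hxL : x ∈ D.L₀) (hx1 : ‖x‖ ≤ 1)
    (hyL : y ∈ D.L₀) (hy1 : ‖y‖ ≤ 1) (hxyL : x * y ∈ D.L₀) (hxy1 : ‖x * y‖ ≤ 1) :
    D.resC (x * y) hxyL hxy1 = D.resC x hxL hx1 * D.resC y hyL hy1 := by
  unfold SSData.resC
  rw [← map_mul]
  rfl

lemma SSData.resC_pow (D : SSData p k) {x : Ω} (hxL : x ∈ D.L₀) (hx1 : ‖x‖ ≤ 1) (n : ℕ)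
    (hxnL : x ^ n ∈ D.L₀) (hxn1 : ‖x ^ n‖ ≤ 1) :
    D.resC (x ^ n) hxnL hxn1 = D.resC x hxL hx1 ^ n := by
  unfold SSData.resC
  rw [← map_pow]
  rfl

lemma SSData.resC_natCast (D : SSData p k) (n : ℕ) (hnL : (n : Ω) ∈ D.L₀)
    (hn1 : ‖(n : Ω)‖ ≤ 1) : D.resC (n : Ω) hnL hn1 = (n : Res D.L₀) := by
  unfold SSData.resC
  rw [← map_natCast (res D.L₀) n]
  rfl

end ResC

section SetS

variable [Finite k] [CharP k p]

/-- the residue class of the unit `υ`. -/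
noncomputable def SSData.υbar (D : SSData p k) : Res D.L₀ := D.resC D.υ D.υ_mem D.norm_υ.le

lemma SSData.υbar_ne_zero (D : SSData p k) : D.υbar ≠ 0 := by
  unfold SSData.υbar SSData.resC
  rw [res_ne_zero_iff]
  exact D.norm_υ

/-- the set of possible leading coefficients: solutions of `ξ^(p²) ῡ^(p²+1) = ε₂ ξ`. -/
def SSData.SA (D : SSData p k) : Set (Res D.L₀) :=
  {ξ | ξ ^ (p ^ 2) * D.υbar ^ (p ^ 2 + 1) = ((D.εF * D.εF : ℕ) : Res D.L₀) * ξ}

lemma SSData.zero_mem_SA (D : SSData p k) : (0 : Res D.L₀) ∈ D.SA := by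
  have hpp : p.Prime := Fact.out
  show (0 : Res D.L₀) ^ (p ^ 2) * D.υbar ^ (p ^ 2 + 1) = _ * 0
  rw [zero_pow (pow_ne_zero 2 hpp.ne_zero), zero_mul, mul_zero]

/-- `|S| ≤ p²`. -/
lemma SSData.card_SA_le (D : SSData p k) : Nat.card ↥D.SA ≤ p ^ 2 := by
  classical
  haveI := D.fin
  have hpp : p.Prime := Fact.out
  haveI : Fintype (Res D.L₀) := Fintype.ofFinite _
  obtain ⟨c, hc⟩ : ∃ c : Res D.L₀, c = D.υbar ^ (p ^ 2 + 1) := ⟨_, rfl⟩
  have hc0 : c ≠ 0 := hc ▸ pow_ne_zero _ D.υbar_ne_zero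
  obtain ⟨e, he⟩ : ∃ e : Res D.L₀, e = ((D.εF * D.εF : ℕ) : Res D.L₀) := ⟨_, rfl⟩
  obtain ⟨P, hP⟩ : ∃ P : (Res D.L₀)[X], P = C c * X ^ (p ^ 2) - C e * X := ⟨_, rfl⟩
  have hp2 : 2 ≤ p := hpp.two_le
  have hsq : 1 < p ^ 2 := by nlinarith
  have hdeg1 : (C e * X : (Res D.L₀)[X]).natDegree ≤ 1 := by
    refine (natDegree_C_mul_le _ _).trans ?_
    rw [natDegree_X]
  have hdeg2 : (C c * X ^ (p ^ 2) : (Res D.L₀)[X]).natDegree = p ^ 2 := natDegree_C_mul_X_pow _ _ hc0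
  have hPdeg : P.natDegree = p ^ 2 := by
    rw [hP, natDegree_sub_eq_left_of_natDegree_lt (by rw [hdeg2]; omega), hdeg2]
  have hP0 : P ≠ 0 := by
    intro h
    rw [h, natDegree_zero] at hPdeg
    omega
  obtain ⟨Z, hZ⟩ : ∃ Z : Finset (Res D.L₀), Z = Finset.univ.filter (· ∈ D.SA) := ⟨_, rfl⟩
  have hZroots : Z.val ⊆ P.roots := by
    intro ξ hξ
    rw [Finset.mem_val, hZ, Finset.mem_filter] at hξ
    rw [mem_roots hP0, IsRoot.def, hP, eval_sub, eval_mul, eval_mul, eval_C, eval_C, eval_pow,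
      eval_X, sub_eq_zero, hc, he, mul_comm]
    exact hξ.2
  have h1 := card_le_degree_of_subset_roots hZroots
  rw [hPdeg] at h1
  have h2 : Nat.card ↥D.SA = Z.card := by
    rw [Nat.card_eq_fintype_card, hZ, Fintype.card_subtype]
  rw [h2]
  exact h1

end SetS

section K2

variable [Finite k] [CharP k p]

/-- a subgroup of a finite field stable under multiplication by `b` is stable under the subfield
generated by `b`. -/
lemma mul_mem_of_mem_closure {Z : AddSubgroup k} {b : k} (hb : ∀ a ∈ Z, b * a ∈ Z) {c : k}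
    (hc : c ∈ Subfield.closure ({b} : Set k)) : ∀ a ∈ Z, c * a ∈ Z := by
  haveI : Fintype k := Fintype.ofFinite k
  induction hc using Subfield.closure_induction with
  | mem x hx =>
    rw [Set.mem_singleton_iff] at hx
    rw [hx]; exact hb
  | one => intro a ha; rwa [one_mul]
  | add x y _ _ hx hy => intro a ha; rw [add_mul]; exact Z.add_mem (hx a ha) (hy a ha)
  | neg x _ hx => intro a ha; rw [neg_mul]; exact Z.neg_mem (hx a ha)
  | inv x _ hx =>
    intro a ha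
    by_cases hx0 : x = 0
    · rw [hx0, inv_zero, zero_mul]; exact Z.zero_mem
    · have hpow : ∀ n : ℕ, x ^ n * a ∈ Z := by
        intro n
        induction n with
        | zero => rwa [pow_zero, one_mul]
        | succ n ih => rw [pow_succ', mul_assoc]; exact hx _ ih
      have h1 : x ^ (Fintype.card k - 1) = 1 := FiniteField.pow_card_sub_one_eq_one x hx0
      have h2 : 2 ≤ Fintype.card k := Fintype.one_lt_card
      have h3 : x⁻¹ = x ^ (Fintype.card k - 2) := by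
        have h4 : x ^ (Fintype.card k - 2) * x = 1 := by
          rw [← pow_succ, ← h1]; congr 1; omega
        exact (eq_inv_of_mul_eq_one_left h4).symm
      rw [h3]; exact hpow _
  | mul x y _ _ hx hy => intro a ha; rw [mul_assoc]; exact hx _ (hy a ha)

/-- a subgroup stable under the subfield `K₂` and containing a `K₂`-basis is everything. -/
lemma eq_top_of_basis_mem {K₂ : Subfield k} {Z : AddSubgroup k}
    (hZ : ∀ c ∈ K₂, ∀ a ∈ Z, c * a ∈ Z) {ι : Type*} [Fintype ι] (b : Module.Basis ι K₂ k)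
    (hb : ∀ i, b i ∈ Z) (a : k) : a ∈ Z := by
  rw [← b.sum_repr a]
  refine Z.sum_mem fun i _ => ?_
  rw [Subfield.smul_def]
  exact hZ _ (b.repr a i).2 _ (hb i)

/-- the subfield generated by `β²` has at least `p²` elements. -/
lemma sq_le_card_closure {α β : k} (hβ : β ^ p = α) (hsum : α + β ≠ 0) (hαβ : α ≠ β) :
    p ^ 2 ≤ Nat.card (Subfield.closure ({β ^ 2} : Set k)) := by
  have hpp : p.Prime := Fact.out
  obtain ⟨K₂, hK₂⟩ : ∃ K₂ : Subfield k, K₂ = Subfield.closure ({β ^ 2} : Set k) := ⟨_, rfl⟩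
  rw [← hK₂]
  haveI : Fintype K₂ := Fintype.ofFinite K₂
  haveI : CharP K₂ p := by
    have h := (RingHom.charP_iff (f := K₂.subtype) K₂.subtype_injective p).mpr ‹CharP k p›
    exact h
  obtain ⟨n, -, hn⟩ := FiniteField.card K₂ p
  rw [Nat.card_eq_fintype_card, hn]
  have hn2 : 2 ≤ (n : ℕ) := by
    by_contra hcon
    have hn1 : (n : ℕ) = 1 := by have := n.pos; omega
    rw [hn1, pow_one] at hn
    have hmem : β ^ 2 ∈ K₂ := hK₂ ▸ Subfield.subset_closure (Set.mem_singleton _)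
    have h1 := FiniteField.pow_card (⟨β ^ 2, hmem⟩ : K₂)
    rw [hn] at h1
    have h2 : (β ^ 2) ^ p = β ^ 2 := congrArg Subtype.val h1
    have h3 : α ^ 2 = β ^ 2 := by rw [← hβ, ← pow_mul, mul_comm, pow_mul]; exact h2
    have h4 : (α - β) * (α + β) = 0 := by linear_combination h3
    rcases mul_eq_zero.mp h4 with h5 | h5
    · exact hαβ (sub_eq_zero.mp h5)
    · exact hsum h5
  exact Nat.pow_le_pow_right hpp.pos hn2

end K2

section Count

variable [Finite k] [CharP k p]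

/-- the subgroup of `a ∈ k` with `ψ_{g,a} = 0` on the fixing subgroup of `L₀`. -/
def zeroSet (L₀ : IntermediateField ℚ_[p] (PadicAlgCl p)) (lam : k →+ ZMod p)
    (g : (PadicAlgCl p ≃ₐ[ℚ_[p]] PadicAlgCl p) → k) : AddSubgroup k where
  carrier := {a | ∀ τ : PadicAlgCl p ≃ₐ[ℚ_[p]] PadicAlgCl p, Fixes L₀ τ → chi lam g a τ = 0}
  zero_mem' := fun τ _ => by rw [chi_apply, zero_mul, map_zero]
  add_mem' := fun {a b} ha hb τ hτ => by rw [chi_add_left, ha τ hτ, hb τ hτ, add_zero]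
  neg_mem' := fun {a} ha τ hτ => by
    have h := ha τ hτ
    rw [chi_apply] at h ⊢
    rw [neg_mul, map_neg, h, neg_zero]

lemma mem_zeroSet {L₀ : IntermediateField ℚ_[p] (PadicAlgCl p)} {lam : k →+ ZMod p}
    {g : GP → k} {a : k} :
    a ∈ zeroSet L₀ lam g ↔ ∀ τ : GP, Fixes L₀ τ → chi lam g a τ = 0 := Iff.rfl

lemma IsAdmA.mul_mem_zeroSet {D : SSData p k} {g : GP → k} (hg : IsAdmA D g)
    (lam : k →+ ZMod p) {a : k} (ha : a ∈ zeroSet D.L₀ lam g) :
    D.β ^ 2 * a ∈ zeroSet D.L₀ lam g := by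
  haveI := D.gal
  intro τ hτ
  rw [mul_comm, ← hg.chi_conj lam a τ hτ, ha _ (hτ.conj D.σ₀), mul_zero]

lemma eq_zero_of_zeroSet_eq_top {L₀ : IntermediateField ℚ_[p] (PadicAlgCl p)}
    {lam : k →+ ZMod p} (hlam : lam 1 = 1) {g : GP → k}
    (h : ∀ a : k, a ∈ zeroSet L₀ lam g) (τ : GP) (hτ : Fixes L₀ τ) : g τ = 0 := by
  by_contra hne
  have h1 := h (g τ)⁻¹ τ hτ
  rw [chi_apply, inv_mul_cancel₀ hne, hlam] at h1
  exact one_ne_zero h1

/-- the residue class of the leading coefficient lies in `S`. -/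
lemma SSData.resC_mem_SA (D : SSData p k) {lam : k →+ ZMod p} {f : GP → k} (hf : IsAdmA D f)
    {a : k} {x : Ω} (h : RA D lam f a x) : D.resC x h.1 h.2.1 ∈ D.SA := by
  have hfrob := D.coreA_frob hf h
  obtain ⟨hxL, hx1, -⟩ := h
  have hxp1 : ‖x ^ (p ^ 2)‖ ≤ 1 := by rw [norm_pow]; exact pow_le_one₀ (norm_nonneg _) hx1
  have hυ1 : ‖D.υ ^ (p ^ 2 + 1)‖ ≤ 1 := by rw [norm_pow, D.norm_υ, one_pow]
  have hn1 : ‖(((D.εF * D.εF : ℕ) : Ω))‖ ≤ 1 := IsUltrametricDist.norm_natCast_le_one Ω _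
  have hxpL : x ^ (p ^ 2) ∈ D.L₀ := pow_mem hxL _
  have hυL : D.υ ^ (p ^ 2 + 1) ∈ D.L₀ := pow_mem D.υ_mem _
  have hnL : (((D.εF * D.εF : ℕ) : Ω)) ∈ D.L₀ := natCast_mem _ _
  have hm1 : ‖x ^ (p ^ 2) * D.υ ^ (p ^ 2 + 1)‖ ≤ 1 := by
    rw [norm_mul]; exact mul_le_one₀ hxp1 (norm_nonneg _) hυ1
  have hm2 : ‖(((D.εF * D.εF : ℕ) : Ω)) * x‖ ≤ 1 := by
    rw [norm_mul]; exact mul_le_one₀ hn1 (norm_nonneg _) hx1
  have h1 := (D.resC_eq_iff (mul_mem hxpL hυL) hm1 (mul_mem hnL hxL) hm2).mpr hfrob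
  rw [D.resC_mul hxpL hxp1 hυL hυ1, D.resC_mul hnL hn1 hxL hx1, D.resC_pow hxL hx1,
    D.resC_pow D.υ_mem D.norm_υ.le, D.resC_natCast] at h1
  exact h1

/-- **Core A.** There are at most `|k|` possibilities for the upper-right matrix coefficient of
a bounded cocycle, restricted to the fixing subgroup of `L₀`. -/
theorem SSData.coreA_count (D : SSData p k) (hp2 : p ≠ 2) :
    ∃ (T : Type) (_ : Finite T) (Ψ : ((PadicAlgCl p ≃ₐ[ℚ_[p]] PadicAlgCl p) → k) → T),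
      Nat.card T ≤ Nat.card k ∧
      ∀ f f' : (PadicAlgCl p ≃ₐ[ℚ_[p]] PadicAlgCl p) → k, IsAdmA D f → IsAdmA D f' →
        Ψ f = Ψ f' → ∀ τ : PadicAlgCl p ≃ₐ[ℚ_[p]] PadicAlgCl p, Fixes D.L₀ τ → f τ = f' τ := by
  classical
  haveI := D.fin
  have hpp : p.Prime := Fact.out
  obtain ⟨lam, hlam⟩ := exists_lam (p := p) (k := k)
  obtain ⟨K₂, hK₂⟩ : ∃ K₂ : Subfield k, K₂ = Subfield.closure ({D.β ^ 2} : Set k) := ⟨_, rfl⟩
  obtain ⟨r, hr⟩ : ∃ r : ℕ, r = Module.finrank K₂ k := ⟨_, rfl⟩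
  obtain ⟨b⟩ : Nonempty (Module.Basis (Fin r) K₂ k) := ⟨hr ▸ Module.finBasis K₂ k⟩
  obtain ⟨Pred, hPred⟩ : ∃ Pred : (GP → k) → Fin r → Res D.L₀ → Prop,
      Pred = fun f i ξ => ξ ∈ D.SA ∧ ∃ (x : Ω) (hx : RA D lam f (b i) x),
        ξ = D.resC x hx.1 hx.2.1 := ⟨_, rfl⟩
  have hPiff : ∀ f i ξ, Pred f i ξ ↔ (ξ ∈ D.SA ∧ ∃ (x : Ω) (hx : RA D lam f (b i) x),
      ξ = D.resC x hx.1 hx.2.1) := fun f i ξ => by rw [hPred]
  have hPmem : ∀ f i ξ, Pred f i ξ → ξ ∈ D.SA := fun f i ξ h => ((hPiff f i ξ).mp h).1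
  obtain ⟨Ψ, hΨ⟩ : ∃ Ψ : (GP → k) → (Fin r → ↥D.SA), Ψ = fun f i =>
      if h : ∃ ξ, Pred f i ξ then ⟨Classical.choose h, hPmem f i _ (Classical.choose_spec h)⟩
      else ⟨0, D.zero_mem_SA⟩ := ⟨_, rfl⟩
  refine ⟨Fin r → ↥D.SA, inferInstance, Ψ, ?_, ?_⟩
  · -- the cardinality
    rw [Nat.card_fun, Nat.card_fin]
    have h1 : Nat.card k = Nat.card K₂ ^ r := by
      rw [hr]; exact Module.natCard_eq_pow_finrank
    have hsum : D.α + D.β ≠ 0 := by
      intro h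
      apply D.ht'0
      rw [D.ht', h, neg_zero]
    have h2 : p ^ 2 ≤ Nat.card K₂ := hK₂ ▸ sq_le_card_closure D.hβ hsum D.hαβ
    rw [h1]
    exact Nat.pow_le_pow_left (D.card_SA_le.trans h2) r
  · intro f f' hf hf' hΨeq τ hτ
    have hex : ∀ f : GP → k, IsAdmA D f → ∀ i, ∃ ξ, Pred f i ξ := by
      intro f hf i
      obtain ⟨x, hx, -⟩ := D.coreA_exists hp2 lam hf (b i)
      exact ⟨_, (hPiff f i _).mpr ⟨D.resC_mem_SA hf hx, x, hx, rfl⟩⟩
    have hg := hf.sub hf'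
    -- the basis vectors lie in the zero set
    have hbi : ∀ i, b i ∈ zeroSet D.L₀ lam (f - f') := by
      intro i
      have h1 := congrFun hΨeq i
      rw [hΨ] at h1
      simp only [dif_pos (hex f hf i), dif_pos (hex f' hf' i)] at h1
      have h2 : Classical.choose (hex f hf i) = Classical.choose (hex f' hf' i) :=
        congrArg Subtype.val h1
      obtain ⟨-, x, hx, hξ⟩ := (hPiff f i _).mp (Classical.choose_spec (hex f hf i))
      obtain ⟨-, x', hx', hξ'⟩ := (hPiff f' i _).mp (Classical.choose_spec (hex f' hf' i))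
      have h3 : Cg x x' := (D.resC_eq_iff hx.1 hx.2.1 hx'.1 hx'.2.1).mp (by rw [← hξ, ← hξ', h2])
      have hsub := hx.sub hx'
      by_contra hcon
      rw [mem_zeroSet] at hcon
      push Not at hcon
      obtain ⟨x'', hx'', hnorm⟩ := D.coreA_exists hp2 lam hg (b i)
      have h4 := hnorm hcon
      have h5 : Cg x'' (x - x') := D.coreA_unique hx'' hsub
      have h6 : ‖x''‖ < 1 := by
        have h7 : x'' = (x'' - (x - x')) + (x - x') := by ring
        rw [h7]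
        exact norm_add_lt_of_lt h5 h3
      rw [h4] at h6
      exact lt_irrefl _ h6
    have hstab : ∀ c ∈ K₂, ∀ a ∈ zeroSet D.L₀ lam (f - f'), c * a ∈ zeroSet D.L₀ lam (f - f') :=
      fun c hc => mul_mem_of_mem_closure (fun a ha => hg.mul_mem_zeroSet lam ha) (hK₂ ▸ hc)
    have hall : ∀ a : k, a ∈ zeroSet D.L₀ lam (f - f') := eq_top_of_basis_mem hstab b hbi
    have h8 := eq_zero_of_zeroSet_eq_top hlam hall τ hτ
    rw [Pi.sub_apply] at h8
    exact sub_eq_zero.mp h8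

end Count

end Fermat.Agent.TW.Flat
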