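/-
F2 (flat local condition at p), count, part 6: the link between the data of the supersingular
case (`SSData`) and a representation of the local Galois group (interface between the
construction of the data and the count of bounded classes).
-/
import Mathlib
import Fermat.Agent.TW.FlatCore_helper7_Count

set_option autoImplicit false
set_option linter.unusedSectionVars false

namespace Fermat.Agent.TW.Flat

open Fermat.Agent.Ram Fermat.Agent.TW Matrix

/-- the link between supersingular data `D` and a representation `ρ` of the local Galois group: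
the kernel of `ρ` is the fixing subgroup of `D.L₀`, `ρ σ₀` is diagonalisable with eigenvalues
`D.α`, `D.β`, and `ρ F` exchanges the two eigenlines. -/
structure SSLink {p : ℕ} [Fact p.Prime] {k : Type} [Field k] (D : SSData p k)
    (ρ : (PadicAlgCl p ≃ₐ[ℚ_[p]] PadicAlgCl p) →* Matrix (Fin 2) (Fin 2) k) : Prop where
  ker : ∀ τ : PadicAlgCl p ≃ₐ[ℚ_[p]] PadicAlgCl p, Fixes D.L₀ τ ↔ ρ τ = 1
  eig : ∃ (v w : Fin 2 → k) (a b : k), v ≠ 0 ∧ w ≠ 0 ∧ a ≠ 0 ∧ b ≠ 0 ∧
    ρ D.σ₀ *ᵥ v = D.α • v ∧ ρ D.σ₀ *ᵥ w = D.β • w ∧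
    ρ D.F *ᵥ v = b • w ∧ ρ D.F *ᵥ w = a • v

end Fermat.Agent.TW.Flat
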