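/-
F2 (flat local condition at p), supersingular case, assembly part 2: construction of the data
`SSData p k` (and of its link `SSLink` with the representation) from a flat residual
representation without stable line on the decomposition group at `p`.
-/
import Mathlib
import Fermat.Agent.TW.FlatAsm_helper7_Rep
import Fermat.Agent.TW.FlatComb_helper7
import Fermat.Agent.TW.FlatLink_helper7
import Fermat.Agent.Ram.TameNum2_helper7
import Fermat.Agent.Ram.TameStr_helper2_Concrete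

set_option autoImplicit false
set_option linter.unusedSectionVars false
set_option linter.style.haveILetI false

namespace Fermat.Agent.TW.Flat

open Fermat.Agent.Ram Fermat.Agent.TW Fermat.Agent.S53 Matrix Polynomial

variable {p : ℕ} [Fact p.Prime] {k : Type} [Field k]

local notation "Ω" => PadicAlgCl p
local notation "GP" => (PadicAlgCl p ≃ₐ[ℚ_[p]] PadicAlgCl p)

section Coe

variable (L₀ : IntermediateField ℚ_[p] (PadicAlgCl p)) [FiniteDimensional ℚ_[p] L₀]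
  [IsGalois ℚ_[p] L₀]

lemma norm_coe_sub (x : L₀) : ‖x‖ = ‖(x : Ω)‖ := rfl

lemma smul_coe_of_restrict {g : L₀ ≃ₐ[ℚ_[p]] L₀} {τ : GP}
    (h : AlgEquiv.restrictNormalHom L₀ τ = g) (x : L₀) :
    ((g • x : L₀) : Ω) = τ (x : Ω) := by
  rw [← h]
  exact restrictNormalHom_apply_coe L₀ τ x

lemma pow_smul_coe_of_restrict {g : L₀ ≃ₐ[ℚ_[p]] L₀} {τ : GP}
    (h : AlgEquiv.restrictNormalHom L₀ τ = g) (i : ℕ) (x : L₀) :
    ((g ^ i • x : L₀) : Ω) = (τ ^ i) (x : Ω) := by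
  apply smul_coe_of_restrict
  rw [map_pow, h]

end Coe

/-- `‖ζ - 1‖ = p^(-1/(p-1))`, in the form of an inequality. -/
lemma norm_zeta_sub_one_le_of_le {ζ z : Ω} (hζ : IsPrimitiveRoot ζ p)
    (hz : (p : ℝ) ^ (-(1 / ((p : ℝ) - 1))) ≤ ‖z‖) : ‖ζ - 1‖ ≤ ‖z‖ := by
  have hpp : p.Prime := Fact.out
  have hp1 : (1 : ℝ) < p := by exact_mod_cast hpp.one_lt
  have hp0 : (0 : ℝ) < p := by linarith
  have hpnat : ((p - 1 : ℕ) : ℝ) = (p : ℝ) - 1 := by
    rw [Nat.cast_sub hpp.one_lt.le, Nat.cast_one]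
  have h1 : ((p : ℝ) ^ (-(1 / ((p : ℝ) - 1)))) ^ (p - 1) = (p : ℝ)⁻¹ := by
    rw [← Real.rpow_natCast, ← Real.rpow_mul hp0.le, hpnat, ← Real.rpow_neg_one]
    congr 1
    have : (p : ℝ) - 1 ≠ 0 := by linarith
    field_simp
  have hlamp : ‖ζ - 1‖ ^ (p - 1) = ‖(p : Ω)‖ := norm_sub_one_pow_eq hpp hζ
  have hnp : ‖(p : Ω)‖ = (p : ℝ)⁻¹ := norm_natCast_p p
  by_contra hcon
  rw [not_le] at hcon
  have hpm1 : p - 1 ≠ 0 := by have := hpp.two_le; omega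
  have h2 : ‖z‖ ^ (p - 1) < ‖ζ - 1‖ ^ (p - 1) := pow_lt_pow_left₀ hcon (norm_nonneg _) hpm1
  have h3 : (p : ℝ)⁻¹ ≤ ‖z‖ ^ (p - 1) := by
    rw [← h1]
    exact pow_le_pow_left₀ (Real.rpow_nonneg hp0.le _) hz _
  rw [hlamp, hnp] at h2
  exact absurd h3 (not_le.mpr h2)

section Main

variable [Finite k] [CharP k p]

/-- **Construction of the supersingular data.** -/
theorem exists_ssData_of_flat (hp2 : p ≠ 2) (rbar : Gal →* M2 k)
    (hflat : IsFlatGaloisModule p (Fin 2 → k) (fun σ v => (rbar σ).mulVec v))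
    (hdet : ∀ (σ : Gal) (a : ℕ), (∀ μ : AlgebraicClosure ℚ, μ ^ p = 1 → σ μ = μ ^ a) →
      (rbar σ).det = a)
    (hsplit : ∀ σ : Gal, ∃ a b : k, (rbar σ).charpoly = (X - C a) * (X - C b))
    (hline : ¬ ∃ e₁ : Fin 2 → k, e₁ ≠ 0 ∧
      ∀ τ : GP, ∃ t : k, rbar (localGaloisToGlobal p τ) *ᵥ e₁ = t • e₁) :
    ∃ D : SSData p k, SSLink D (rbar.comp (localGaloisToGlobal p)) := by
  classical
  have hpp : p.Prime := Fact.out
  have hpk : (p : k) = 0 := CharP.cast_eq_zero k p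
  have hpM : ∀ m : Fin 2 → k, p • m = 0 := by
    intro m
    funext i
    rw [Pi.smul_apply, nsmul_eq_mul, hpk, zero_mul, Pi.zero_apply]
  -- Step A: the field
  obtain ⟨L₀, hfin, hgal, hbdd, hkerM, hRLw⟩ :=
    exists_field_and_relation_bound p (fun σ v => (rbar σ).mulVec v) hflat hpM
  haveI := hfin
  haveI := hgal
  obtain ⟨ρ, hρ⟩ : ∃ ρ : GP →* M2 k, ρ = rbar.comp (localGaloisToGlobal p) := ⟨_, rfl⟩
  have hρa : ∀ τ : GP, ρ τ = rbar (localGaloisToGlobal p τ) := fun τ => by rw [hρ]; rfl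
  have hker : ∀ τ : GP, Fixes L₀ τ ↔ ρ τ = 1 := by
    intro τ
    rw [hρa]
    constructor
    · intro h
      apply Matrix.mulVec_injective
      funext m
      rw [Matrix.one_mulVec]
      exact (hkerM τ).mp h m
    · intro h
      apply (hkerM τ).mpr
      intro m
      show (rbar (localGaloisToGlobal p τ)).mulVec m = m
      rw [h, Matrix.one_mulVec]
  -- Step B: the faithful representation of the finite Galois group
  obtain ⟨r, hrinj, hrcomp⟩ := exists_rep_of_fixes_iff L₀ ρ hker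
  have hsurj := restrictNormalHom_surj L₀
  have hlineG : ∀ v : Fin 2 → k, v ≠ 0 →
      ∃ g : L₀ ≃ₐ[ℚ_[p]] L₀, ∀ c : k, r g *ᵥ v ≠ c • v := by
    intro v hv
    by_contra hcon
    push Not at hcon
    apply hline
    refine ⟨v, hv, fun τ => ?_⟩
    obtain ⟨c, hc⟩ := hcon (AlgEquiv.restrictNormalHom L₀ τ)
    rw [hrcomp, hρa] at hc
    exact ⟨c, hc⟩
  have hsplitG : ∀ g : L₀ ≃ₐ[ℚ_[p]] L₀, ∃ a b : k,
      (r g).charpoly = (X - C a) * (X - C b) := by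
    intro g
    obtain ⟨τ, rfl⟩ := hsurj g
    rw [hrcomp, hρa]
    exact hsplit _
  -- Step C: the tame structure
  obtain ⟨π, hπ, σ₀, F, hσ₀, hgen, hordσ, hordθ, hnorm, hcop, hF, hconj, hFσ, α, β, v, w, hv, hw,
    hαβ, hα, hβ, hchar, hαv, hβw, ⟨b, hb, hFv⟩, ⟨a, ha, hFw⟩⟩ :=
    tame_structure_padic L₀ r hrinj hlineG hsplitG
  have hp := norm_natCast_lt_one L₀
  obtain ⟨c, hc, hFsq⟩ := exists_map_frobenius_sq hπ hp r hrinj hlineG hsplitG hF hσ₀ hgen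
  have htame := not_dvd_card_padic L₀ r hrinj hlineG hsplitG hp2
  -- Step D: the root of unity
  obtain ⟨ζ, hζ, hcyc⟩ := exists_zeta_det rbar hdet
  have hζL : ζ ∈ L₀ :=
    zeta_mem_of_ker L₀ rbar (fun τ hτ => by rw [← hρa]; exact (hker τ).mp hτ) hζ hcyc
  -- lifts of `σ₀` and `F`
  obtain ⟨σt, hσt⟩ := hsurj σ₀
  obtain ⟨Ft, hFt⟩ := hsurj F
  obtain ⟨d, hσζ, hdetσ⟩ := hcyc σt
  obtain ⟨εF, hFζ, -⟩ := hcyc Ft
  have hrσ : r σ₀ = rbar (localGaloisToGlobal p σt) := by rw [← hσt, hrcomp, hρa]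
  have hrF : r F = rbar (localGaloisToGlobal p Ft) := by rw [← hFt, hrcomp, hρa]
  have hrσpow : ∀ i : ℕ, r (σ₀ ^ i) = rbar (localGaloisToGlobal p (σt ^ i)) := by
    intro i
    rw [← hσt, ← map_pow, hrcomp, hρa]
  -- Step E: `σt` acts trivially on the residue field of `L₀`, and nontrivially on `k²`
  have hσin : ∀ x ∈ L₀, ‖x‖ ≤ 1 → ‖σt x - x‖ < 1 := by
    intro x hx hx1
    have h1 : ‖σ₀ • (⟨x, hx⟩ : L₀) - ⟨x, hx⟩‖ < 1 := (mem_inertia.mp hσ₀) ⟨x, hx⟩ hx1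
    rw [norm_coe_sub, AddSubgroupClass.coe_sub, smul_coe_of_restrict L₀ hσt] at h1
    exact h1
  have hσne : r σ₀ ≠ 1 := by
    intro h
    rw [h, Matrix.one_mulVec] at hαv hβw
    have h1 : α = 1 := by
      by_contra hne
      apply hv
      have h2 : (1 - α) • v = 0 := by rw [sub_smul, one_smul, ← hαv, sub_self]
      exact (smul_eq_zero.mp h2).resolve_left (sub_ne_zero.mpr (Ne.symm hne))
    have h3 : β = 1 := by
      by_contra hne
      apply hw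
      have h2 : (1 - β) • w = 0 := by rw [sub_smul, one_smul, ← hβw, sub_self]
      exact (smul_eq_zero.mp h2).resolve_left (sub_ne_zero.mpr (Ne.symm hne))
    exact hαβ (h1.trans h3.symm)
  obtain ⟨m₀, hm₀⟩ : ∃ m₀ : Fin 2 → k, r σ₀ *ᵥ m₀ ≠ m₀ := by
    by_contra hcon
    push Not at hcon
    apply hσne
    apply Matrix.mulVec_injective
    funext m
    rw [Matrix.one_mulVec]
    exact hcon m
  rw [hrσ] at hm₀
  -- Step F: Raynaud-lite
  obtain ⟨z, hzlow, hz1, hzfix, hRL⟩ := hRLw σt hσin m₀ hm₀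
  obtain ⟨m, hm⟩ : ∃ m : Fin 2 → k, m = rbar (localGaloisToGlobal p σt) *ᵥ m₀ - m₀ := ⟨_, rfl⟩
  have hzL : z ∈ L₀ := by
    apply mem_of_forall_fixing
    intro τ hτ
    apply hzfix τ
    have h1 : rbar (localGaloisToGlobal p τ) = 1 := by rw [← hρa]; exact (hker τ).mp hτ
    show (rbar (localGaloisToGlobal p τ)).mulVec _ = _
    rw [h1, Matrix.one_mulVec]
  have hzζ : ‖ζ - 1‖ ≤ ‖z‖ := norm_zeta_sub_one_le_of_le hζ hzlow
  -- Step G: the numerics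
  have hζ' : IsPrimitiveRoot (⟨ζ, hζL⟩ : L₀) p :=
    IsPrimitiveRoot.of_map_of_injective (f := L₀.val) (h := hζ) Subtype.val_injective
  have hd' : σ₀ • (⟨ζ, hζL⟩ : L₀) = (⟨ζ, hζL⟩ : L₀) ^ d := by
    apply Subtype.ext
    rw [smul_coe_of_restrict L₀ hσt, SubmonoidClass.coe_pow]
    exact hσζ
  have hdet' : (r σ₀).det = (d : k) := by rw [hrσ]; exact hdetσ
  have hz' : ‖(⟨ζ, hζL⟩ : L₀) - 1‖ ≤ ‖(⟨z, hzL⟩ : L₀)‖ := hzζ
  have hz1' : ‖(⟨z, hzL⟩ : L₀)‖ < 1 := hz1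
  have hRL' : ∀ (s : Finset ℕ) (c : ℕ → ℕ), (∑ i ∈ s, c i • (r (σ₀ ^ i) *ᵥ m)) = 0 →
      ‖∑ i ∈ s, (c i : L₀) * (σ₀ ^ i • (⟨z, hzL⟩ : L₀))‖ ≤ ‖(⟨z, hzL⟩ : L₀)‖ ^ 2 := by
    intro s c hrel
    have h1 := hRL σt s c (by
      rw [← hm, ← hrel]
      exact Finset.sum_congr rfl fun i _ => by rw [hrσpow])
    have h2 : ((∑ i ∈ s, (c i : L₀) * (σ₀ ^ i • (⟨z, hzL⟩ : L₀)) : L₀) : Ω)
        = ∑ i ∈ s, (c i : Ω) * (σt ^ i) z := by
      rw [AddSubmonoidClass.coe_finsetSum]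
      refine Finset.sum_congr rfl fun i _ => ?_
      rw [MulMemClass.coe_mul, pow_smul_coe_of_restrict L₀ hσt]
      rfl
    rw [norm_coe_sub, h2]
    exact h1
  obtain ⟨hc₀, t', ht', hLVLA, hLVLB⟩ := tame_levels hπ hp hp2 r hrinj hσ₀ hordσ hordθ hnorm hconj
    ⟨c, hFsq⟩ hαβ hα hβ hchar hζ' hd' hdet' hz' hz1' hRL'
  have htr : α + β ≠ 0 := tame_trace_ne_zero hπ hp hp2 r hrinj hσ₀ hordσ hordθ hnorm hconj
    ⟨c, hFsq⟩ hαβ hα hβ hchar hζ' hd' hdet' hz' hz1' hRL'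
  -- Step H: the data
  have hFfrob : ∀ x ∈ L₀, ‖x‖ ≤ 1 → ‖Ft x - x ^ p‖ < 1 := by
    intro x hx hx1
    have h1 := hF (res L₀ ⟨⟨x, hx⟩, hx1⟩)
    rw [resHom_res, ← map_pow, res_eq_iff] at h1
    rw [coe_smulInt, Subring.coe_pow, norm_coe_sub, AddSubgroupClass.coe_sub,
      smul_coe_of_restrict L₀ hFt, SubmonoidClass.coe_pow] at h1
    exact h1
  have hcoeσ : ((σ₀ • π / π : L₀) : Ω) = σt (π : Ω) / (π : Ω) := by
    have h1 : ((σ₀ • π / π : L₀) : Ω) = ((σ₀ • π : L₀) : Ω) / (π : Ω) := rfl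
    rw [h1, smul_coe_of_restrict L₀ hσt]
  obtain ⟨D, hDL, hDσ, hDF, hDα, hDβ⟩ : ∃ D : SSData p k, D.L₀ = L₀ ∧ D.σ₀ = σt ∧ D.F = Ft ∧
      D.α = α ∧ D.β = β := by
    refine ⟨{ L₀ := L₀, fin := hfin, gal := hgal, bdd := hbdd, tame := ?_, ζ := ζ, hζ := hζ,
              hζL₀ := hζL, π := (π : Ω), hπ := ?_, hc₀ := hc₀, σ₀ := σt, F := Ft, hσ₀in := hσin,
              d := d, hσ₀ζ := hσζ, εF := εF, hFζ := hFζ, hFfrob := hFfrob, α := α, β := β,
              hαβ := hαβ, hα := hα, hβ := hβ, t' := t', ht' := ht', ht'0 := ?_, hd := ?_,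
              hLVLA := ?_, hLVLB := ?_ }, rfl, rfl, rfl, rfl, rfl⟩
    · rw [← IsGalois.card_aut_eq_finrank]
      exact htame
    · exact ⟨π.2, hπ.pos, hπ.lt_one, fun x hx hx1 => hπ.le ⟨x, hx⟩ (Subfield.mem_top _) hx1⟩
    · rw [ht']
      exact neg_ne_zero.mpr htr
    · rw [← hdet']
      exact (trace_det_of_charpoly hchar).2
    · intro j hj1 hj2 hpj hn
      apply hLVLA j hj1 hj2 hpj
      rw [norm_coe_sub]
      have h1 : ((((σ₀ • π / π) ^ j) ^ 2 + (((p - 1) * t' ^ 2 + 2 * d : ℕ) : L₀) * (σ₀ • π / π) ^ j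
          + ((d ^ 2 : ℕ) : L₀) : L₀) : Ω)
          = ((σt (π : Ω) / (π : Ω)) ^ j) ^ 2
            + (((p - 1) * t' ^ 2 + 2 * d : ℕ) : Ω) * (σt (π : Ω) / (π : Ω)) ^ j
            + ((d ^ 2 : ℕ) : Ω) := by
        rw [← hcoeσ]
        push_cast
        rfl
      rw [h1]
      exact hn
    · intro j hj1 hj2 hn
      apply hLVLB j hj1 hj2
      rw [norm_coe_sub]
      have h1 : (((σ₀ • π / π) ^ j - (d : L₀) : L₀) : Ω)
          = (σt (π : Ω) / (π : Ω)) ^ j - (d : Ω) := by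
        rw [← hcoeσ]
        push_cast
        rfl
      rw [h1]
      exact hn
  refine ⟨D, ⟨?_, ?_⟩⟩
  · intro τ
    rw [hDL, ← hρ]
    exact hker τ
  · refine ⟨v, w, a, b, hv, hw, ha, hb, ?_, ?_, ?_, ?_⟩
    · rw [hDσ, hDα]
      show rbar (localGaloisToGlobal p σt) *ᵥ v = α • v
      rw [← hrσ]; exact hαv
    · rw [hDσ, hDβ]
      show rbar (localGaloisToGlobal p σt) *ᵥ w = β • w
      rw [← hrσ]; exact hβw
    · rw [hDF]
      show rbar (localGaloisToGlobal p Ft) *ᵥ v = b • w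
      rw [← hrF]; exact hFv
    · rw [hDF]
      show rbar (localGaloisToGlobal p Ft) *ᵥ w = a • v
      rw [← hrF]; exact hFw

end Main

end Fermat.Agent.TW.Flat
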