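/-
TW (S56) — helper6 — leaf (F1), definitions.
* `chiRep χ : Rep ℤ G` — the `G`-module `k` with `g • x = χ g * x`, for a character `χ : G →* kˣ`;
* `cycloCharK p k : Gal(ℚ̄/ℚ) →* kˣ` — the mod `p` cyclotomic character with values in a field `k`
  of characteristic `p`, characterised by `cycloCharK_spec`;
* `cycloCharLoc p k` — its restriction to the local Galois group `G_p`, and the smoothness of
  `chiRep (cycloCharLoc p k)` for the local basis `locBasis (pPrime p)`.
-/
import Mathlib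
import Fermat.Agent.TW.LocalCond_helper6

set_option autoImplicit false
set_option linter.unusedSectionVars false
set_option linter.style.haveILetI false

noncomputable section

namespace Fermat.Agent.TW

open Fermat.Agent.S53 Fermat.Agent.CFT.Sm Fermat.Agent.CFT.Bridge Fermat.Agent.CFT.Arith
  groupCohomology CategoryTheory ExtCitation

section ChiRep

variable {G : Type} [Group G] {k : Type} [Field k]

/-- the representation of `G` on `k` through a character `χ`, `ℤ`-linearly -/
def chiRepresentation (χ : G →* kˣ) : Representation ℤ G k where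
  toFun g := LinearMap.mulLeft ℤ ((χ g : kˣ) : k)
  map_one' := by
    apply LinearMap.ext
    intro x
    show ((χ 1 : kˣ) : k) * x = x
    rw [map_one, Units.val_one, one_mul]
  map_mul' g h := by
    apply LinearMap.ext
    intro x
    show ((χ (g * h) : kˣ) : k) * x = ((χ g : kˣ) : k) * (((χ h : kˣ) : k) * x)
    rw [map_mul, Units.val_mul, mul_assoc]

/-- the `G`-module `k(χ)`: carrier `k`, `g • x = χ g * x` -/
def chiRep (χ : G →* kˣ) : Rep.{0} ℤ G := Rep.of (chiRepresentation χ)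

theorem chiRep_ρ_apply (χ : G →* kˣ) (g : G) (x : k) :
    ((chiRep χ).ρ g : (chiRep χ).V →ₗ[ℤ] (chiRep χ).V) x = ((χ g : kˣ) : k) * x := rfl

instance instFiniteChiRep [Finite k] (χ : G →* kˣ) : Finite (chiRep χ).V :=
  inferInstanceAs (Finite k)

instance instModuleChiRep (χ : G →* kˣ) : Module k (chiRep χ).V :=
  inferInstanceAs (Module k k)

theorem chiRep_ρ_apply_smul (χ : G →* kˣ) (g : G) (x : (chiRep χ).V) :
    ((chiRep χ).ρ g : (chiRep χ).V →ₗ[ℤ] (chiRep χ).V) x = ((χ g : kˣ) : k) • x := rfl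

theorem finrank_chiRep (χ : G →* kˣ) : Module.finrank k (chiRep χ).V = 1 :=
  Module.finrank_self k

/-- `k(χ)` is smooth as soon as `χ` is trivial on a basic open subgroup -/
theorem isSmooth_chiRep {𝒰 : OpenBasis G} (χ : G →* kˣ)
    (h : ∃ U ∈ 𝒰.sets, ∀ g ∈ U, χ g = 1) : IsSmooth 𝒰 (chiRep χ) := by
  obtain ⟨U, hU, hχ⟩ := h
  intro x
  refine ⟨U, hU, fun g hg => ?_⟩
  show ((χ g : kˣ) : k) * (show k from x) = x
  rw [hχ g hg, Units.val_one, one_mul]

end ChiRep

section Cyclo

/-- `Ω = AlgebraicClosure ℚ`. -/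
local notation "Ω" => AlgebraicClosure ℚ

variable (p : ℕ) [hp : Fact p.Prime] (k : Type) [Field k] [CharP k p]

theorem natCard_rootsOfUnity_algebraicClosure :
    Nat.card (rootsOfUnity p Ω) = p :=
  haveI : NeZero p := ⟨hp.out.ne_zero⟩
  HasEnoughRootsOfUnity.natCard_rootsOfUnity Ω p

/-- the mod `p` cyclotomic character of `Gal(ℚ̄/ℚ)` with values in `(ZMod p)ˣ` -/
def cycloCharZMod : Gal →* (ZMod p)ˣ :=
  haveI : NeZero p := ⟨hp.out.ne_zero⟩
  (modularCyclotomicCharacter Ω (natCard_rootsOfUnity_algebraicClosure p)).comp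
    (MulSemiringAction.toRingAut Gal Ω)

theorem cycloCharZMod_spec (σ : Gal) (a : ℕ)
    (ha : ∀ μ : Ω, μ ^ p = 1 → σ μ = μ ^ a) : ((cycloCharZMod p σ : (ZMod p)ˣ) : ZMod p) = a := by
  haveI : NeZero p := ⟨hp.out.ne_zero⟩
  symm
  refine modularCyclotomicCharacter.unique Ω (natCard_rootsOfUnity_algebraicClosure p)
    (MulSemiringAction.toRingAut Gal Ω σ) (c := (a : ZMod p)) fun t ht => ?_
  have h1 : ((t : Ωˣ) : Ω) ^ p = 1 := by
    rw [mem_rootsOfUnity] at ht
    rw [← Units.val_pow_eq_pow_val, ht, Units.val_one]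
  have h2 : (MulSemiringAction.toRingAut Gal Ω σ) ((t : Ωˣ) : Ω) = σ ((t : Ωˣ) : Ω) := rfl
  rw [h2, ha _ h1, ZMod.val_natCast]
  have h3 : a = p * (a / p) + a % p := (Nat.div_add_mod a p).symm
  conv_lhs => rw [h3, pow_add, pow_mul, h1, one_pow, one_mul]

/-- the mod `p` cyclotomic character of `Gal(ℚ̄/ℚ)` with values in `kˣ`, `char k = p` -/
def cycloCharK : Gal →* kˣ :=
  (Units.map ((ZMod.castHom (dvd_refl p) k : ZMod p →+* k) : ZMod p →* k)).comp (cycloCharZMod p)

/-- **the characterisation of the mod `p` cyclotomic character.** -/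
theorem cycloCharK_spec (σ : Gal) (a : ℕ) (ha : ∀ μ : Ω, μ ^ p = 1 → σ μ = μ ^ a) :
    ((cycloCharK p k σ : kˣ) : k) = a := by
  show (ZMod.castHom (dvd_refl p) k : ZMod p →+* k) ((cycloCharZMod p σ : (ZMod p)ˣ) : ZMod p) = a
  rw [cycloCharZMod_spec p σ a ha, map_natCast]

/-- the mod `p` cyclotomic character of the local Galois group `G_p` -/
def cycloCharLoc : primeLocalGaloisGroup (pPrime p) →* kˣ :=
  (cycloCharK p k).comp (primeLocalToGlobal (pPrime p))

theorem cycloCharLoc_spec (τ : primeLocalGaloisGroup (pPrime p)) (a : ℕ)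
    (ha : ∀ μ : Ω, μ ^ p = 1 → primeLocalToGlobal (pPrime p) τ μ = μ ^ a) :
    ((cycloCharLoc p k τ : kˣ) : k) = a :=
  cycloCharK_spec p k _ a ha

/-- the cyclotomic character is trivial on the fixing subgroup of `ℚ(μ_p)` -/
theorem cycloCharK_eq_one_of_fixes (σ : Gal) (h : ∀ μ : Ω, μ ^ p = 1 → σ μ = μ) :
    cycloCharK p k σ = 1 := by
  apply Units.ext
  rw [cycloCharK_spec p k σ 1 (fun μ hμ => by rw [h μ hμ, pow_one]), Nat.cast_one, Units.val_one]

/-- the cyclotomic character is trivial on a basic open subgroup of the full basis -/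
theorem exists_fullBasis_cycloCharK_eq_one :
    ∃ U ∈ fullBasis.sets, ∀ σ ∈ U, cycloCharK p k σ = 1 := by
  have hfin : ({μ : Ω | μ ^ p = 1} : Set Ω).Finite := by
    have h1 : ({μ : Ω | μ ^ p = 1} : Set Ω) ⊆
        ((Polynomial.X ^ p - 1 : Polynomial Ω).roots.toFinset : Set Ω) := by
      intro μ hμ
      have hne : (Polynomial.X ^ p - 1 : Polynomial Ω) ≠ 0 :=
        Polynomial.X_pow_sub_C_ne_zero hp.out.pos 1
      simp only [Finset.mem_coe, Multiset.mem_toFinset]
      rw [Polynomial.mem_roots hne]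
      simp only [Polynomial.IsRoot, Polynomial.eval_sub, Polynomial.eval_pow, Polynomial.eval_X,
        Polynomial.eval_one]
      rw [show μ ^ p = 1 from hμ, sub_self]
    exact (Finset.finite_toSet _).subset h1
  haveI : Finite ({μ : Ω | μ ^ p = 1} : Set Ω) := hfin
  haveI : FiniteDimensional ℚ (IntermediateField.adjoin ℚ ({μ : Ω | μ ^ p = 1} : Set Ω)) :=
    IntermediateField.finiteDimensional_adjoin
      (fun x _ => (Algebra.IsAlgebraic.isAlgebraic x).isIntegral)
  obtain ⟨U, hU, hle⟩ := isOpen_fullBasis_fixingSubgroup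
    (IntermediateField.adjoin ℚ ({μ : Ω | μ ^ p = 1} : Set Ω))
  refine ⟨U, hU, fun σ hσ => cycloCharK_eq_one_of_fixes p k σ fun μ hμ => ?_⟩
  have h1 := hle hσ
  rw [IntermediateField.mem_fixingSubgroup_iff] at h1
  exact h1 μ (IntermediateField.subset_adjoin ℚ _ hμ)

/-- `k(ε̄)` is smooth for the local basis at `p` -/
theorem isSmooth_chiRep_cycloCharLoc :
    IsSmooth (locBasis (pPrime p)) (chiRep (cycloCharLoc p k)) := by
  obtain ⟨U, hU, h⟩ := exists_fullBasis_cycloCharK_eq_one p k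
  exact isSmooth_chiRep (cycloCharLoc p k)
    ⟨U.comap (primeLocalToGlobal (pPrime p)), ⟨U, hU, rfl⟩, fun τ hτ => h _ hτ⟩

/-- `k(ε̄)` as a smooth `G_p`-module -/
def cycloSm : SmRep ℤ (locBasis (pPrime p)) :=
  mkSm (locBasis (pPrime p)) (chiRep (cycloCharLoc p k)) (isSmooth_chiRep_cycloCharLoc p k)

end Cyclo

end Fermat.Agent.TW
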