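/-
TW (S56) — helper6 — leaf (F1), abstract bookkeeping.
`Y₀ ≤ Y` a submodule (equivariantly isomorphic to `Y₁`), `B ≤ Y` a subgroup on which `G` acts
trivially modulo `Y₀`. Then
`#(locCond Y (valuedCond Y Y₀)) · #B ≤ #Ext¹(𝟙, Y₁) · #Y₁ · #Ext⁰(𝟙, Y)`
(`card_locCond_valuedCond_mul_le`).
-/
import Mathlib
import Fermat.Agent.TW.UnrCount_helper6
import Fermat.Agent.TW.ChiRep_helper6

set_option autoImplicit false
set_option linter.unusedSectionVars false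
set_option linter.style.haveILetI false

noncomputable section

namespace Fermat.Agent.TW

open Fermat.Agent.CFT.Sm Fermat.Agent.CFT.Bridge groupCohomology CategoryTheory
  CategoryTheory.Abelian

section General

theorem natCard_eq_range_mul_ker {A B : Type*} [AddGroup A] [AddGroup B] (f : A →+ B) :
    Nat.card A = Nat.card f.range * Nat.card f.ker := by
  rw [AddSubgroup.card_eq_card_quotient_mul_card_addSubgroup f.ker]
  congr 1
  exact Nat.card_congr (QuotientAddGroup.quotientKerEquivRange f).toEquiv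

theorem finite_of_finite_ker_range {A B : Type*} [AddGroup A] [AddGroup B] (f : A →+ B)
    [Finite f.ker] [Finite f.range] : Finite A := by
  haveI : Finite (A ⧸ f.ker) :=
    Finite.of_equiv _ (QuotientAddGroup.quotientKerEquivRange f).toEquiv.symm
  exact Finite.of_equiv _ (AddSubgroup.addGroupEquivQuotientProdAddSubgroup (s := f.ker)).symm

end General

section LC

variable {G : Type} [Group G] {𝒰 : OpenBasis G}

theorem isLC₁_const {X : Type*} (x : X) : IsLC₁ 𝒰 (fun _ : G => x) :=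
  ⟨⊤, 𝒰.isOpen_top, fun _ _ _ => rfl⟩

theorem isLC₁_add {X : Type*} [Add X] {f f' : G → X} (h : IsLC₁ 𝒰 f) (h' : IsLC₁ 𝒰 f') :
    IsLC₁ 𝒰 (fun g => f g + f' g) := by
  obtain ⟨H, hH, hf⟩ := h
  obtain ⟨H', hH', hf'⟩ := h'
  refine ⟨H ⊓ H', hH.inf _ hH', fun g s hs => ?_⟩
  show f (g * s) + f' (g * s) = f g + f' g
  rw [hf g s hs.1, hf' g s hs.2]

theorem isLC₁_comp {X X' : Type*} (φ : X → X') {f : G → X} (h : IsLC₁ 𝒰 f) :
    IsLC₁ 𝒰 (fun g => φ (f g)) := by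
  obtain ⟨H, hH, hf⟩ := h
  exact ⟨H, hH, fun g s hs => congrArg φ (hf g s hs)⟩

theorem isLC₁_of_comp_injective {X X' : Type*} {φ : X → X'} (hφ : Function.Injective φ)
    {f : G → X} (h : IsLC₁ 𝒰 (fun g => φ (f g))) : IsLC₁ 𝒰 f := by
  obtain ⟨H, hH, hf⟩ := h
  exact ⟨H, hH, fun g s hs => hφ (hf g s hs)⟩

/-- coboundaries of a smooth module are level-constant -/
theorem isLC₁_coboundary (Y : SmRep ℤ 𝒰) (w : Y.obj.V) :
    IsLC₁ 𝒰 (fun g : G => Y.obj.ρ g w - w) := by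
  obtain ⟨U, hU, hfix⟩ := ((smoothProp_iff 𝒰 Y.obj).1 Y.property) w
  refine ⟨U, 𝒰.isOpen_of_mem hU, fun g s hs => ?_⟩
  show Y.obj.ρ (g * s) w - w = Y.obj.ρ g w - w
  rw [ρ_mul_apply, hfix s hs]

/-- the coboundary of `w`, as a cocycle -/
def cobCocycle (Y : Rep.{0} ℤ G) (w : Y.V) : cocycles₁ Y :=
  ⟨(d₀₁ Y).hom w, d₀₁_apply_mem_cocycles₁ (A := Y) w⟩

theorem cobCocycle_apply (Y : Rep.{0} ℤ G) (w : Y.V) (g : G) :
    (cobCocycle Y w : G → Y.V) g = Y.ρ g w - w := rfl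

theorem H1π_cobCocycle (Y : Rep.{0} ℤ G) (w : Y.V) : (H1π Y).hom (cobCocycle Y w) = 0 :=
  (H1π_eq_zero_iff _).2 ⟨w, rfl⟩

/-- a cocycle cohomologous to a level-constant one is level-constant -/
theorem isLC₁_of_H1π_eq (Y : SmRep ℤ 𝒰) (c₁ c₂ : cocycles₁ Y.obj)
    (h₁ : IsLC₁ 𝒰 (c₁ : G → Y.obj.V)) (h : (H1π Y.obj).hom c₁ = (H1π Y.obj).hom c₂) :
    IsLC₁ 𝒰 (c₂ : G → Y.obj.V) := by
  obtain ⟨w, hw⟩ := (H1π_eq_iff c₁ c₂).1 h
  have h2 : (c₂ : G → Y.obj.V) = fun g => (c₁ : G → Y.obj.V) g + (Y.obj.ρ g (-w) - (-w)) := by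
    funext g
    have h1 : Y.obj.ρ g w - w = (c₁ : G → Y.obj.V) g - (c₂ : G → Y.obj.V) g := congrFun hw g
    rw [map_neg (Y.obj.ρ g)]
    have : (c₂ : G → Y.obj.V) g = (c₁ : G → Y.obj.V) g - (Y.obj.ρ g w - w) := by
      rw [h1]; abel
    rw [this]; abel
  rw [h2]
  exact isLC₁_add h₁ (isLC₁_coboundary Y (-w))

variable (Y : SmRep ℤ 𝒰) (Y₀ : AddSubgroup Y.obj.V)

/-- the level-constant cocycles with values in `Y₀` -/
def lcValued : AddSubgroup (cocycles₁ Y.obj) where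
  carrier := {c | IsLC₁ 𝒰 (c : G → Y.obj.V) ∧ ∀ g, (c : G → Y.obj.V) g ∈ Y₀}
  zero_mem' := ⟨isLC₁_const (0 : Y.obj.V), fun _ => Y₀.zero_mem⟩
  add_mem' := by
    rintro c c' ⟨h1, h2⟩ ⟨h1', h2'⟩
    exact ⟨isLC₁_add h1 h1', fun g => Y₀.add_mem (h2 g) (h2' g)⟩
  neg_mem' := by
    rintro c ⟨h1, h2⟩
    exact ⟨isLC₁_comp (fun y : Y.obj.V => -y) h1, fun g => Y₀.neg_mem (h2 g)⟩

theorem mem_lcValued (c : cocycles₁ Y.obj) :
    c ∈ lcValued Y Y₀ ↔ IsLC₁ 𝒰 (c : G → Y.obj.V) ∧ ∀ g, (c : G → Y.obj.V) g ∈ Y₀ := Iff.rfl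

/-- the class of a level-constant `Y₀`-valued cocycle in `H¹(G, Y)` -/
def lcValuedCls : lcValued Y Y₀ →+ H1 Y.obj where
  toFun c := (H1π Y.obj).hom (c : cocycles₁ Y.obj)
  map_zero' := map_zero (H1π Y.obj).hom
  map_add' a b := map_add (H1π Y.obj).hom (a : cocycles₁ Y.obj) (b : cocycles₁ Y.obj)

theorem lcValuedCls_apply (c : lcValued Y Y₀) :
    lcValuedCls Y Y₀ c = (H1π Y.obj).hom (c : cocycles₁ Y.obj) := rfl

/-- step (1): `locCond (valuedCond Y₀)` injects into the range of the class map -/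
theorem natCard_locCond_valuedCond_le [Finite (lcValued Y Y₀)] :
    Nat.card (locCond Y (valuedCond Y.obj Y₀)) ≤ Nat.card (lcValuedCls Y Y₀).range := by
  have h1 : ∀ e : locCond Y (valuedCond Y.obj Y₀), clsH1 Y e.1 ∈ (lcValuedCls Y Y₀).range := by
    rintro ⟨e, he⟩
    obtain ⟨c₂, hc₂, hc₂e⟩ := he
    obtain ⟨c₁, hlc₁, hc₁e⟩ := (mem_range_clsH1_iff Y _).1 ⟨e, rfl⟩
    have hlc₂ : IsLC₁ 𝒰 (c₂ : G → Y.obj.V) :=
      isLC₁_of_H1π_eq Y c₁ c₂ hlc₁ (hc₁e.trans hc₂e.symm)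
    exact ⟨⟨c₂, hlc₂, hc₂⟩, hc₂e⟩
  let Θ : locCond Y (valuedCond Y.obj Y₀) → (lcValuedCls Y Y₀).range :=
    fun e => ⟨clsH1 Y e.1, h1 e⟩
  have hΘ : Function.Injective Θ := by
    intro e e' h
    exact Subtype.ext (clsH1_injective Y (congrArg Subtype.val h))
  haveI : Finite (lcValuedCls Y Y₀).range :=
    Finite.of_surjective _ (lcValuedCls Y Y₀).rangeRestrict_surjective
  exact Nat.card_le_card_of_injective Θ hΘ

section Borel

variable (B : AddSubgroup Y.obj.V) (hB : ∀ g : G, ∀ b ∈ B, Y.obj.ρ g b - b ∈ Y₀)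

/-- the coboundary map on a subgroup `B` acting trivially modulo `Y₀` -/
def cobValued : B →+ lcValued Y Y₀ where
  toFun b := ⟨cobCocycle Y.obj (b : Y.obj.V), isLC₁_coboundary Y (b : Y.obj.V),
    fun g => hB g b b.2⟩
  map_zero' := by
    apply Subtype.ext
    apply Subtype.ext
    funext g
    show Y.obj.ρ g (0 : Y.obj.V) - 0 = 0
    rw [map_zero (Y.obj.ρ g), sub_zero]
  map_add' a b := by
    apply Subtype.ext
    apply Subtype.ext
    funext g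
    show Y.obj.ρ g ((a : Y.obj.V) + (b : Y.obj.V)) - ((a : Y.obj.V) + (b : Y.obj.V)) =
      (Y.obj.ρ g (a : Y.obj.V) - (a : Y.obj.V)) + (Y.obj.ρ g (b : Y.obj.V) - (b : Y.obj.V))
    rw [map_add (Y.obj.ρ g)]
    abel

theorem cobValued_apply (b : B) (g : G) :
    (((cobValued Y Y₀ B hB b : lcValued Y Y₀) : cocycles₁ Y.obj) : G → Y.obj.V) g =
      Y.obj.ρ g (b : Y.obj.V) - (b : Y.obj.V) := rfl

include hB in
/-- step (3): the kernel of the class map is at least as big as `B / B^G` -/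
theorem natCard_le_ker_mul_invariants [Finite Y.obj.V] [Finite (lcValued Y Y₀)] :
    Nat.card B ≤ Nat.card (lcValuedCls Y Y₀).ker *
      Nat.card {y : Y.obj.V // ∀ g : G, Y.obj.ρ g y = y} := by
  rw [natCard_eq_range_mul_ker (cobValued Y Y₀ B hB)]
  refine Nat.mul_le_mul ?_ ?_
  · have h1 : ∀ x : (cobValued Y Y₀ B hB).range, (x : lcValued Y Y₀) ∈ (lcValuedCls Y Y₀).ker := by
      rintro ⟨x, b, rfl⟩
      rw [AddMonoidHom.mem_ker]
      exact H1π_cobCocycle Y.obj (b : Y.obj.V)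
    exact Nat.card_le_card_of_injective (fun x => (⟨x.1, h1 x⟩ : (lcValuedCls Y Y₀).ker))
      (fun x x' h => Subtype.ext (Subtype.mk.inj h))
  · have h1 : ∀ b : (cobValued Y Y₀ B hB).ker, ∀ g : G,
        Y.obj.ρ g ((b : B) : Y.obj.V) = ((b : B) : Y.obj.V) := by
      rintro ⟨b, hb⟩ g
      rw [AddMonoidHom.mem_ker] at hb
      have h2 := cobValued_apply Y Y₀ B hB b g
      rw [hb] at h2
      exact (sub_eq_zero.1 h2.symm)
    haveI : Finite {y : Y.obj.V // ∀ g : G, Y.obj.ρ g y = y} := Subtype.finite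
    exact Nat.card_le_card_of_injective
      (fun b => (⟨((b : B) : Y.obj.V), h1 b⟩ : {y : Y.obj.V // ∀ g : G, Y.obj.ρ g y = y}))
      (fun b b' h => Subtype.ext (Subtype.ext (Subtype.mk.inj h)))

end Borel

section CountLC

variable (Y₁ : SmRep ℤ 𝒰)

/-- all level-constant cocycles of `Y₁`: finitely many, at most `#Ext¹(𝟙, Y₁) · #Y₁` -/
theorem finite_lcValued_top [Finite Y₁.obj.V] [Finite (Ext (smUnit ℤ 𝒰) Y₁ 1)] :
    Finite (lcValued Y₁ ⊤) ∧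
      Nat.card (lcValued Y₁ ⊤) ≤ Nat.card (Ext (smUnit ℤ 𝒰) Y₁ 1) * Nat.card Y₁.obj.V := by
  -- the range of the class map is the range of `clsH1`
  have h1 : ∀ x : (lcValuedCls Y₁ ⊤).range, ∃ e : Ext (smUnit ℤ 𝒰) Y₁ 1, clsH1 Y₁ e = x.1 := by
    rintro ⟨x, c, rfl⟩
    exact (mem_range_clsH1_iff Y₁ _).2 ⟨c.1, c.2.1, rfl⟩
  choose Φ hΦ using h1
  have hΦinj : Function.Injective Φ := by
    intro x x' h
    apply Subtype.ext
    rw [← hΦ x, ← hΦ x', h]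
  haveI : Finite (lcValuedCls Y₁ ⊤).range := Finite.of_injective Φ hΦinj
  have h2 : Nat.card (lcValuedCls Y₁ ⊤).range ≤ Nat.card (Ext (smUnit ℤ 𝒰) Y₁ 1) :=
    Nat.card_le_card_of_injective Φ hΦinj
  -- the kernel consists of coboundaries
  let Ψ : Y₁.obj.V → (lcValuedCls Y₁ ⊤).ker := fun w =>
    ⟨⟨cobCocycle Y₁.obj w, isLC₁_coboundary Y₁ w, fun _ => AddSubgroup.mem_top _⟩,
      (AddMonoidHom.mem_ker).2 (H1π_cobCocycle Y₁.obj w)⟩
  have hΨ : Function.Surjective Ψ := by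
    rintro ⟨⟨c, hc⟩, hker⟩
    rw [AddMonoidHom.mem_ker] at hker
    obtain ⟨w, hw⟩ := (H1π_eq_zero_iff c).1 hker
    refine ⟨w, ?_⟩
    apply Subtype.ext
    apply Subtype.ext
    apply Subtype.ext
    exact hw
  haveI : Finite (lcValuedCls Y₁ ⊤).ker := Finite.of_surjective Ψ hΨ
  have h3 : Nat.card (lcValuedCls Y₁ ⊤).ker ≤ Nat.card Y₁.obj.V :=
    Nat.card_le_card_of_surjective Ψ hΨ
  refine ⟨finite_of_finite_ker_range (lcValuedCls Y₁ ⊤), ?_⟩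
  rw [natCard_eq_range_mul_ker (lcValuedCls Y₁ ⊤)]
  exact Nat.mul_le_mul h2 h3

variable (j : Y₁.obj.V →+ Y.obj.V) (hj : ∀ (g : G) (y : Y₁.obj.V), j (Y₁.obj.ρ g y) = Y.obj.ρ g (j y))
  (hjinj : Function.Injective j) (hjsurj : ∀ w ∈ Y₀, ∃ y, j y = w)

include hj hjinj hjsurj in
/-- pulling back a `Y₀`-valued level-constant cocycle along `j : Y₁ ≅ Y₀` -/
theorem exists_pullback_lcValued (c : lcValued Y Y₀) :
    ∃ c₁ : lcValued Y₁ ⊤, ∀ g : G,
      j (((c₁ : cocycles₁ Y₁.obj) : G → Y₁.obj.V) g) = ((c : cocycles₁ Y.obj) : G → Y.obj.V) g := by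
  obtain ⟨⟨c, hcoc⟩, hlc, hval⟩ := c
  choose y hy using fun g => hjsurj (c g) (hval g)
  have hycoc : y ∈ cocycles₁ Y₁.obj := by
    rw [mem_cocycles₁_iff]
    intro g h
    apply hjinj
    rw [map_add, hj, hy, hy, hy]
    exact (mem_cocycles₁_iff c).1 hcoc g h
  refine ⟨⟨⟨y, hycoc⟩, ?_, fun _ => AddSubgroup.mem_top _⟩, fun g => hy g⟩
  refine isLC₁_of_comp_injective hjinj (f := y) ?_
  have : (fun g => j (y g)) = c := funext hy
  rw [this]
  exact hlc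

include hj hjinj hjsurj in
/-- step (4): finitely many `Y₀`-valued level-constant cocycles -/
theorem finite_lcValued [Finite Y₁.obj.V] [Finite (Ext (smUnit ℤ 𝒰) Y₁ 1)] :
    Finite (lcValued Y Y₀) ∧
      Nat.card (lcValued Y Y₀) ≤ Nat.card (Ext (smUnit ℤ 𝒰) Y₁ 1) * Nat.card Y₁.obj.V := by
  obtain ⟨hfin, hcard⟩ := finite_lcValued_top Y₁
  choose Φ hΦ using exists_pullback_lcValued Y Y₀ Y₁ j hj hjinj hjsurj
  have hΦinj : Function.Injective Φ := by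
    intro c c' h
    apply Subtype.ext
    apply Subtype.ext
    funext g
    exact (hΦ c g).symm.trans ((congrArg (fun d : lcValued Y₁ ⊤ =>
      j (((d : cocycles₁ Y₁.obj) : G → Y₁.obj.V) g)) h).trans (hΦ c' g))
  exact ⟨Finite.of_injective Φ hΦinj, (Nat.card_le_card_of_injective Φ hΦinj).trans hcard⟩

variable (B : AddSubgroup Y.obj.V) (hB : ∀ g : G, ∀ b ∈ B, Y.obj.ρ g b - b ∈ Y₀)

include hj hjinj hjsurj hB in
/-- **(F1), abstract bookkeeping.** `Y₀ ≤ Y` a submodule isomorphic to `Y₁`, `B ≤ Y` a subgroup on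
which `G` acts trivially modulo `Y₀`:
`#{classes of H¹(G, Y) coming from Y₀} · #B ≤ #Ext¹(𝟙, Y₁) · #Y₁ · #Ext⁰(𝟙, Y)`. -/
theorem card_locCond_valuedCond_mul_le [Finite Y.obj.V] [Finite Y₁.obj.V]
    [Finite (Ext (smUnit ℤ 𝒰) Y₁ 1)] :
    Nat.card (locCond Y (valuedCond Y.obj Y₀)) * Nat.card B ≤
      Nat.card (Ext (smUnit ℤ 𝒰) Y₁ 1) * Nat.card Y₁.obj.V * Nat.card (Ext (smUnit ℤ 𝒰) Y 0) := by
  obtain ⟨hfin, hZ⟩ := finite_lcValued Y Y₀ Y₁ j hj hjinj hjsurj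
  have h1 := natCard_locCond_valuedCond_le Y Y₀
  have h2 := natCard_eq_range_mul_ker (lcValuedCls Y Y₀)
  have h3 := natCard_le_ker_mul_invariants Y Y₀ B hB
  rw [natCard_ext_zero]
  calc Nat.card (locCond Y (valuedCond Y.obj Y₀)) * Nat.card B
      ≤ Nat.card (lcValuedCls Y Y₀).range * (Nat.card (lcValuedCls Y Y₀).ker *
          Nat.card {y : Y.obj.V // ∀ g : G, Y.obj.ρ g y = y}) := Nat.mul_le_mul h1 h3
    _ = Nat.card (lcValued Y Y₀) * Nat.card {y : Y.obj.V // ∀ g : G, Y.obj.ρ g y = y} := by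
        rw [h2, mul_assoc]
    _ ≤ Nat.card (Ext (smUnit ℤ 𝒰) Y₁ 1) * Nat.card Y₁.obj.V *
          Nat.card {y : Y.obj.V // ∀ g : G, Y.obj.ρ g y = y} := Nat.mul_le_mul_right _ hZ

end CountLC

end LC

end Fermat.Agent.TW
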