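/-
TW (S56) — helper1 — leaf (AVG) of helper7's supersingular count: a `1`-cocycle with values in a
`p`-torsion module which vanishes on a subgroup of finite index prime to `p` is a coboundary
(averaging over the cosets; no normality needed).
-/
import Mathlib
import Fermat.Agent.TW.OrdCountAbs_helper6

set_option autoImplicit false
set_option linter.unusedSectionVars false
set_option linter.style.haveILetI false

noncomputable section

namespace Fermat.Agent.TW.Flat

open groupCohomology CategoryTheory Fermat.Agent.TW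

/-- **(AVG)** a cocycle vanishing on a subgroup of index prime to `p` is a coboundary, for
`p`-torsion coefficients. -/
theorem H1π_eq_zero_of_vanishes_on_subgroup {G : Type} [Group G] (Y : Rep.{0} ℤ G)
    (N : Subgroup G) [N.FiniteIndex] (p : ℕ) (hpY : ∀ y : Y.V, p • y = 0)
    (hcop : (N.index).Coprime p) (c : cocycles₁ Y) (hc : ∀ g ∈ N, (c : G → Y.V) g = 0) :
    (H1π Y).hom c = 0 := by
  classical
  haveI : Fintype (G ⧸ N) := Subgroup.fintypeQuotientOfFiniteIndex
  have hmul : ∀ g h : G, (c : G → Y.V) (g * h) = Y.ρ g ((c : G → Y.V) h) + (c : G → Y.V) g :=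
    (mem_cocycles₁_iff (c : G → Y.V)).1 c.2
  -- `c` is constant on the left cosets of `N`
  have hconst : ∀ g g' : G, (QuotientGroup.leftRel N) g g' →
      (c : G → Y.V) g = (c : G → Y.V) g' := by
    intro g g' hgg'
    rw [QuotientGroup.leftRel_apply] at hgg'
    have h1 : g' = g * (g⁻¹ * g') := by group
    rw [h1, hmul, hc _ hgg', map_zero, zero_add]
  set cbar : G ⧸ N → Y.V := Quotient.lift (s := QuotientGroup.leftRel N) (c : G → Y.V) hconst
    with hcbar
  have hcbar_mk : ∀ g : G, cbar (g : G ⧸ N) = (c : G → Y.V) g := fun g => rfl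
  set w₀ : Y.V := ∑ q : G ⧸ N, cbar q with hw₀
  -- the key identity
  have hkey : ∀ h : G, Y.ρ h w₀ - w₀ = -((N.index : ℤ) • (c : G → Y.V) h) := by
    intro h
    have h1 : Y.ρ h w₀ = ∑ q : G ⧸ N, (cbar (h • q) - (c : G → Y.V) h) := by
      rw [hw₀, map_sum]
      apply Finset.sum_congr rfl
      intro q _
      induction q using QuotientGroup.induction_on with
      | H g =>
        have : h • (g : G ⧸ N) = ((h * g : G) : G ⧸ N) := rfl
        rw [this, hcbar_mk, hcbar_mk, hmul]
        abel
    have h2 : ∑ q : G ⧸ N, cbar (h • q) = w₀ := by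
      rw [hw₀]
      exact Fintype.sum_equiv (MulAction.toPerm h) _ _ (fun q => rfl)
    rw [h1, Finset.sum_sub_distrib, h2, Finset.sum_const, Finset.card_univ,
      Subgroup.index_eq_card, Nat.card_eq_fintype_card, natCast_zsmul]
    abel
  -- Bezout
  have hcop' : IsCoprime (N.index : ℤ) (p : ℤ) := Nat.isCoprime_iff_coprime.mpr hcop
  obtain ⟨m, t, hmt⟩ := hcop'
  have hpY' : ∀ y : Y.V, (p : ℤ) • y = 0 := fun y => by rw [natCast_zsmul]; exact hpY y
  rw [H1π_eq_zero_iff]
  refine ⟨-(m • w₀), ?_⟩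
  funext h
  show Y.ρ h (-(m • w₀)) - (-(m • w₀)) = (c : G → Y.V) h
  have h3 : Y.ρ h (-(m • w₀)) - (-(m • w₀)) = -(m • (Y.ρ h w₀ - w₀)) := by
    rw [map_neg, map_zsmul, smul_sub]
    abel
  rw [h3, hkey, smul_neg, neg_neg, ← mul_smul]
  have h4 : (c : G → Y.V) h = ((m * (N.index : ℤ) + t * (p : ℤ)) : ℤ) • (c : G → Y.V) h := by
    rw [hmt, one_smul]
  conv_rhs => rw [h4, add_smul, mul_smul t, hpY', smul_zero, add_zero]

end Fermat.Agent.TW.Flat
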