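/-
TW (S56) — helper1 — leaf (COUNT) of helper7's supersingular count, part 1: `2 × 2` matrix
algebra. Coordinates of a matrix in a basis of eigenvectors, conjugation by a diagonal and by an
anti-diagonal matrix.
-/
import Mathlib

set_option autoImplicit false
set_option linter.unusedSectionVars false
set_option linter.style.haveILetI false

namespace Fermat.Agent.TW.Flat

open Matrix

variable {k : Type} [Field k]

/-- the matrix with columns `v`, `w`. -/
def colMat (v w : Fin 2 → k) : Matrix (Fin 2) (Fin 2) k := !![v 0, w 0; v 1, w 1]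

lemma mul_colMat (M : Matrix (Fin 2) (Fin 2) k) (v w : Fin 2 → k) :
    M * colMat v w = colMat (M *ᵥ v) (M *ᵥ w) := by
  ext i j
  fin_cases i <;> fin_cases j <;>
    simp [colMat, Matrix.mul_apply, Matrix.mulVec, dotProduct, Fin.sum_univ_two]

lemma colMat_smul_smul (v w : Fin 2 → k) (α β : k) :
    colMat (α • v) (β • w) = colMat v w * !![α, 0; 0, β] := by
  ext i j
  fin_cases i <;> fin_cases j <;>
    simp [colMat, Matrix.mul_apply, Fin.sum_univ_two, mul_comm]

lemma colMat_swap (v w : Fin 2 → k) (a b : k) :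
    colMat (b • w) (a • v) = colMat v w * !![0, a; b, 0] := by
  ext i j
  fin_cases i <;> fin_cases j <;>
    simp [colMat, Matrix.mul_apply, Fin.sum_univ_two, mul_comm]

lemma det_colMat (v w : Fin 2 → k) : (colMat v w).det = v 0 * w 1 - w 0 * v 1 := by
  rw [colMat, Matrix.det_fin_two_of]

/-- eigenvectors for distinct eigenvalues are independent. -/
lemma det_colMat_ne_zero {M : Matrix (Fin 2) (Fin 2) k} {v w : Fin 2 → k} {α β : k}
    (hv : M *ᵥ v = α • v) (hw : M *ᵥ w = β • w) (hαβ : α ≠ β) (hv0 : v ≠ 0) (hw0 : w ≠ 0) :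
    (colMat v w).det ≠ 0 := by
  rw [det_colMat]
  intro hdet
  have e1 : M 0 0 * v 0 + M 0 1 * v 1 = α * v 0 := by
    have := congrFun hv 0
    simpa [Matrix.mulVec, dotProduct, Fin.sum_univ_two] using this
  have e2 : M 1 0 * v 0 + M 1 1 * v 1 = α * v 1 := by
    have := congrFun hv 1
    simpa [Matrix.mulVec, dotProduct, Fin.sum_univ_two] using this
  have e3 : M 0 0 * w 0 + M 0 1 * w 1 = β * w 0 := by
    have := congrFun hw 0
    simpa [Matrix.mulVec, dotProduct, Fin.sum_univ_two] using this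
  have e4 : M 1 0 * w 0 + M 1 1 * w 1 = β * w 1 := by
    have := congrFun hw 1
    simpa [Matrix.mulVec, dotProduct, Fin.sum_univ_two] using this
  have hab : α - β ≠ 0 := sub_ne_zero.mpr hαβ
  have h00 : v 0 * w 0 = 0 := by
    have : (α - β) * (v 0 * w 0) = 0 := by
      linear_combination (-(w 0)) * e1 + v 0 * e3 - M 0 1 * hdet
    exact (mul_eq_zero.mp this).resolve_left hab
  have h01 : v 0 * w 1 = 0 := by
    have : (α - β) * (v 0 * w 1) = 0 := by
      linear_combination (-(w 1)) * e1 + v 1 * e3 + (M 0 0 - β) * hdet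
    exact (mul_eq_zero.mp this).resolve_left hab
  have h10 : v 1 * w 0 = 0 := by
    have : (α - β) * (v 1 * w 0) = 0 := by
      linear_combination (-(w 0)) * e2 + v 0 * e4 + (β - M 1 1) * hdet
    exact (mul_eq_zero.mp this).resolve_left hab
  have h11 : v 1 * w 1 = 0 := by
    have : (α - β) * (v 1 * w 1) = 0 := by
      linear_combination (-(w 1)) * e2 + v 1 * e4 + M 1 0 * hdet
    exact (mul_eq_zero.mp this).resolve_left hab
  apply hw0
  by_cases hv00 : v 0 = 0
  · have hv1 : v 1 ≠ 0 := by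
      intro hv1
      apply hv0
      funext i
      fin_cases i
      · exact hv00
      · exact hv1
    funext i
    fin_cases i
    · exact (mul_eq_zero.mp h10).resolve_left hv1
    · exact (mul_eq_zero.mp h11).resolve_left hv1
  · funext i
    fin_cases i
    · exact (mul_eq_zero.mp h00).resolve_left hv00
    · exact (mul_eq_zero.mp h01).resolve_left hv00

/-! ### coordinates in the basis `(v, w)` -/

/-- the matrix of `X` in the basis given by the columns of `P`. -/
noncomputable def coordMat (P X : Matrix (Fin 2) (Fin 2) k) : Matrix (Fin 2) (Fin 2) k :=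
  P⁻¹ * X * P

lemma coordMat_mul_mul {P : Matrix (Fin 2) (Fin 2) k} (hP : P.det ≠ 0)
    (A X A' : Matrix (Fin 2) (Fin 2) k) :
    coordMat P (A * X * A') = coordMat P A * coordMat P X * coordMat P A' := by
  have h1 : P * P⁻¹ = 1 := Matrix.mul_nonsing_inv P (isUnit_iff_ne_zero.mpr hP)
  unfold coordMat
  calc P⁻¹ * (A * X * A') * P = P⁻¹ * A * 1 * X * 1 * A' * P := by
        simp only [Matrix.mul_one, Matrix.mul_assoc]
    _ = P⁻¹ * A * (P * P⁻¹) * X * (P * P⁻¹) * A' * P := by rw [h1]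
    _ = P⁻¹ * A * P * (P⁻¹ * X * P) * (P⁻¹ * A' * P) := by simp only [Matrix.mul_assoc]

lemma coordMat_mul {P : Matrix (Fin 2) (Fin 2) k} (hP : P.det ≠ 0)
    (A B : Matrix (Fin 2) (Fin 2) k) :
    coordMat P (A * B) = coordMat P A * coordMat P B := by
  have h1 : P * P⁻¹ = 1 := Matrix.mul_nonsing_inv P (isUnit_iff_ne_zero.mpr hP)
  unfold coordMat
  calc P⁻¹ * (A * B) * P = P⁻¹ * A * 1 * B * P := by
        simp only [Matrix.mul_one, Matrix.mul_assoc]
    _ = P⁻¹ * A * (P * P⁻¹) * B * P := by rw [h1]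
    _ = P⁻¹ * A * P * (P⁻¹ * B * P) := by simp only [Matrix.mul_assoc]

lemma coordMat_of_mul_eq {P A Δ : Matrix (Fin 2) (Fin 2) k} (hP : P.det ≠ 0)
    (h : A * P = P * Δ) : coordMat P A = Δ := by
  have h1 : P⁻¹ * P = 1 := Matrix.nonsing_inv_mul P (isUnit_iff_ne_zero.mpr hP)
  unfold coordMat
  rw [Matrix.mul_assoc, h, ← Matrix.mul_assoc, h1, Matrix.one_mul]

lemma coordMat_one {P : Matrix (Fin 2) (Fin 2) k} (hP : P.det ≠ 0) : coordMat P 1 = 1 := by
  apply coordMat_of_mul_eq hP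
  rw [Matrix.one_mul, Matrix.mul_one]

lemma trace_coordMat {P : Matrix (Fin 2) (Fin 2) k} (hP : P.det ≠ 0)
    (X : Matrix (Fin 2) (Fin 2) k) : (coordMat P X).trace = X.trace := by
  have h1 : P * P⁻¹ = 1 := Matrix.mul_nonsing_inv P (isUnit_iff_ne_zero.mpr hP)
  unfold coordMat
  rw [Matrix.trace_mul_comm, ← Matrix.mul_assoc, h1, Matrix.one_mul]

lemma coordMat_injective {P : Matrix (Fin 2) (Fin 2) k} (hP : P.det ≠ 0) :
    Function.Injective (coordMat P) := by
  intro X X' h
  have h1 : P * P⁻¹ = 1 := Matrix.mul_nonsing_inv P (isUnit_iff_ne_zero.mpr hP)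
  have h2 : P * coordMat P X * P⁻¹ = P * coordMat P X' * P⁻¹ := by rw [h]
  unfold coordMat at h2
  simp only [← Matrix.mul_assoc, h1, Matrix.one_mul] at h2
  simpa only [Matrix.mul_assoc, h1, Matrix.mul_one] using h2

lemma coordMat_sub (P X X' : Matrix (Fin 2) (Fin 2) k) :
    coordMat P (X - X') = coordMat P X - coordMat P X' := by
  unfold coordMat
  rw [Matrix.mul_sub, Matrix.sub_mul]

lemma coordMat_add (P X X' : Matrix (Fin 2) (Fin 2) k) :
    coordMat P (X + X') = coordMat P X + coordMat P X' := by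
  unfold coordMat
  rw [Matrix.mul_add, Matrix.add_mul]

lemma coordMat_zero (P : Matrix (Fin 2) (Fin 2) k) : coordMat P 0 = 0 := by
  unfold coordMat
  rw [Matrix.mul_zero, Matrix.zero_mul]

/-- an inverse pair of matrices is determined. -/
lemma eq_of_mul_eq_one_of_mul_eq_one {A B C : Matrix (Fin 2) (Fin 2) k} (h1 : A * B = 1)
    (h2 : C * A = 1) : B = C := by
  calc B = 1 * B := (Matrix.one_mul B).symm
    _ = C * A * B := by rw [h2]
    _ = C * (A * B) := Matrix.mul_assoc _ _ _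
    _ = C := by rw [h1, Matrix.mul_one]

lemma coordMat_inv_of_mul_eq {P A A' Δ Δ' : Matrix (Fin 2) (Fin 2) k} (hP : P.det ≠ 0)
    (hAA' : A * A' = 1) (h : A * P = P * Δ) (hΔ : Δ' * Δ = 1) : coordMat P A' = Δ' := by
  have h1 : coordMat P A * coordMat P A' = 1 := by
    rw [← coordMat_mul hP, hAA', coordMat_one hP]
  rw [coordMat_of_mul_eq hP h] at h1
  exact eq_of_mul_eq_one_of_mul_eq_one h1 hΔ

/-- conjugation by a diagonal matrix. -/
lemma diag_conj {α β : k} (hα : α ≠ 0) (hβ : β ≠ 0) (X : Matrix (Fin 2) (Fin 2) k) :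
    !![α, 0; 0, β] * X * !![α⁻¹, 0; 0, β⁻¹] =
      !![X 0 0, α / β * X 0 1; β / α * X 1 0, X 1 1] := by
  ext i j
  fin_cases i <;> fin_cases j <;>
    simp [Matrix.mul_apply, Fin.sum_univ_two, Matrix.vecMul, dotProduct] <;> field_simp

/-- conjugation by an anti-diagonal matrix. -/
lemma antidiag_conj {a b : k} (ha : a ≠ 0) (hb : b ≠ 0) (X : Matrix (Fin 2) (Fin 2) k) :
    !![0, a; b, 0] * X * !![0, b⁻¹; a⁻¹, 0] =
      !![X 1 1, a / b * X 1 0; b / a * X 0 1, X 0 0] := by
  ext i j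
  fin_cases i <;> fin_cases j <;>
    simp [Matrix.mul_apply, Fin.sum_univ_two, Matrix.vecMul, dotProduct] <;> field_simp

lemma diag_mul_inv {α β : k} (hα : α ≠ 0) (hβ : β ≠ 0) :
    !![α⁻¹, 0; 0, β⁻¹] * !![α, 0; 0, β] = (1 : Matrix (Fin 2) (Fin 2) k) := by
  ext i j
  fin_cases i <;> fin_cases j <;>
    simp [Matrix.mul_apply, Fin.sum_univ_two, hα, hβ]

lemma antidiag_mul_inv {a b : k} (ha : a ≠ 0) (hb : b ≠ 0) :
    !![0, b⁻¹; a⁻¹, 0] * !![0, a; b, 0] = (1 : Matrix (Fin 2) (Fin 2) k) := by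
  ext i j
  fin_cases i <;> fin_cases j <;>
    simp [Matrix.mul_apply, Fin.sum_univ_two, ha, hb]

end Fermat.Agent.TW.Flat
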