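/-
TW (S56) — helper1 — leaf (COUNT) of helper7's supersingular (no stable line) case, part 2:
the bounded classes in `H¹(G_p, ad⁰ ρ̄)` number at most `|k|`, from the cores A and B
(`SSData.coreA_count`, `SSData.coreB`) and the averaging lemma (AVG).
-/
import Mathlib
import Fermat.Agent.TW.FlatLink_helper7
import Fermat.Agent.TW.FlatBdd_helper7
import Fermat.Agent.TW.FlatLeaf_helper1_AVG
import Fermat.Agent.TW.FlatLeaf_helper1_CountMat

set_option autoImplicit false
set_option linter.unusedSectionVars false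
set_option linter.style.haveILetI false

namespace Fermat.Agent.TW.Flat

open Fermat.Agent.S53 groupCohomology Matrix CategoryTheory ExtCitation Fermat.Agent.Ram
  Fermat.Agent.TW Fermat.Agent.TW.Flat

variable {p : ℕ} [Fact p.Prime] {k : Type} [Field k]

local notation "GP" => (PadicAlgCl p ≃ₐ[ℚ_[p]] PadicAlgCl p)

/-- the restriction of `rbar` to the local Galois group. -/
noncomputable def locRep (p : ℕ) [Fact p.Prime] (rbar : Gal →* M2 k) :
    (PadicAlgCl p ≃ₐ[ℚ_[p]] PadicAlgCl p) →* M2 k :=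
  rbar.comp (localGaloisToGlobal p)

lemma locRep_apply (rbar : Gal →* M2 k) (g : GP) :
    locRep p rbar g = rbar (localGaloisToGlobal p g) := rfl

lemma locRep_mul_inv (rbar : Gal →* M2 k) (g : GP) :
    locRep p rbar g * locRep p rbar g⁻¹ = 1 := by
  rw [← map_mul, mul_inv_cancel, map_one]

lemma locRep_inv_eq_one (rbar : Gal →* M2 k) {g : GP} (hg : locRep p rbar g = 1) :
    locRep p rbar g⁻¹ = 1 := by
  have h := locRep_mul_inv rbar g
  rwa [hg, Matrix.one_mul] at h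

/-- the matrix-valued function underlying a cocycle. -/
noncomputable def cocMat (rbar : Gal →* M2 k)
    (c : cocycles₁ (Rep.res (primeLocalToGlobal (pPrime p)) (adRep rbar))) :
    (PadicAlgCl p ≃ₐ[ℚ_[p]] PadicAlgCl p) → M2 k :=
  fun τ => ((show sl2 k from
    (c : primeLocalGaloisGroup (pPrime p) →
      (Rep.res (primeLocalToGlobal (pPrime p)) (adRep rbar)).V) τ) : M2 k)

section Coc

variable (rbar : Gal →* M2 k)
  (c : cocycles₁ (Rep.res (primeLocalToGlobal (pPrime p)) (adRep rbar)))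

lemma cocMat_mul (g h : GP) :
    cocMat rbar c (g * h) = locRep p rbar g * cocMat rbar c h * locRep p rbar g⁻¹ +
      cocMat rbar c g := by
  have h1 := (mem_cocycles₁_iff (c : primeLocalGaloisGroup (pPrime p) →
      (Rep.res (primeLocalToGlobal (pPrime p)) (adRep rbar)).V)).1 c.2 g h
  have h2 := congrArg (fun y : (Rep.res (primeLocalToGlobal (pPrime p)) (adRep rbar)).V =>
    ((show sl2 k from y) : M2 k)) h1
  rw [locRep_apply, locRep_apply, map_inv]
  exact h2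

lemma trace_cocMat (τ : GP) : (cocMat rbar c τ).trace = 0 :=
  (mem_sl2_iff _).1 (show sl2 k from
    (c : primeLocalGaloisGroup (pPrime p) →
      (Rep.res (primeLocalToGlobal (pPrime p)) (adRep rbar)).V) τ).2

/-- on the kernel of `ρ` the cocycle is additive. -/
lemma cocMat_mul_of_eq_one {σ : GP} (hσ : locRep p rbar σ = 1) (τ : GP) :
    cocMat rbar c (σ * τ) = cocMat rbar c σ + cocMat rbar c τ := by
  rw [cocMat_mul, hσ, locRep_inv_eq_one rbar hσ, Matrix.one_mul, Matrix.mul_one, add_comm]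

/-- the conjugation rule on the kernel of `ρ`. -/
lemma cocMat_conj {τ : GP} (hτ : locRep p rbar τ = 1) (g : GP) :
    cocMat rbar c (g * τ * g⁻¹) =
      locRep p rbar g * cocMat rbar c τ * locRep p rbar g⁻¹ := by
  have h1 : locRep p rbar (g * τ * g⁻¹) = 1 := by
    rw [map_mul, map_mul, hτ, Matrix.mul_one, locRep_mul_inv]
  have h2 : g * τ * g⁻¹ * g = g * τ := by group
  have h3 := cocMat_mul_of_eq_one rbar c h1 g
  rw [h2, cocMat_mul] at h3
  have h4 : locRep p rbar g * cocMat rbar c τ * locRep p rbar g⁻¹ + cocMat rbar c g -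
      cocMat rbar c g = cocMat rbar c (g * τ * g⁻¹) + cocMat rbar c g - cocMat rbar c g := by
    rw [h3]
  rw [add_sub_cancel_right, add_sub_cancel_right] at h4
  exact h4.symm

end Coc

section Coord

variable (rbar : Gal →* M2 k) (D : SSData p k)
  (hker : ∀ τ : PadicAlgCl p ≃ₐ[ℚ_[p]] PadicAlgCl p, Fixes D.L₀ τ ↔ locRep p rbar τ = 1)
  {P : M2 k} (hP : P.det ≠ 0) {a b : k} (ha : a ≠ 0) (hb : b ≠ 0)
  (hσP : locRep p rbar D.σ₀ * P = P * !![D.α, 0; 0, D.β])
  (hFP : locRep p rbar D.F * P = P * !![0, a; b, 0])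
  (c : cocycles₁ (Rep.res (primeLocalToGlobal (pPrime p)) (adRep rbar)))

/-- the coordinate functions of a cocycle in the basis `P`. -/
noncomputable def cf (P : M2 k) (i j : Fin 2) : (PadicAlgCl p ≃ₐ[ℚ_[p]] PadicAlgCl p) → k :=
  fun τ => coordMat P (cocMat rbar c τ) i j

lemma cf_apply (P : M2 k) (i j : Fin 2) (τ : GP) :
    cf rbar c P i j τ = coordMat P (cocMat rbar c τ) i j := rfl

include hP in
lemma cf_trace (τ : GP) : cf rbar c P 1 1 τ = -cf rbar c P 0 0 τ := by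
  have h := trace_coordMat hP (cocMat rbar c τ)
  rw [trace_cocMat, Matrix.trace_fin_two] at h
  rw [cf_apply, cf_apply]
  exact eq_neg_of_add_eq_zero_right h

include hker in
lemma cf_add {σ τ : GP} (hσ : Fixes D.L₀ σ) (i j : Fin 2) :
    cf rbar c P i j (σ * τ) = cf rbar c P i j σ + cf rbar c P i j τ := by
  rw [cf_apply, cocMat_mul_of_eq_one rbar c ((hker σ).1 hσ), coordMat_add]
  rfl

include hker hP hσP in
lemma coordMat_cocMat_conj_σ₀ [Finite k] [CharP k p] {τ : GP} (hτ : Fixes D.L₀ τ) :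
    coordMat P (cocMat rbar c (D.σ₀ * τ * D.σ₀⁻¹)) =
      !![cf rbar c P 0 0 τ, D.α / D.β * cf rbar c P 0 1 τ;
         D.β / D.α * cf rbar c P 1 0 τ, cf rbar c P 1 1 τ] := by
  have hinv : coordMat P (locRep p rbar D.σ₀⁻¹) = !![D.α⁻¹, 0; 0, D.β⁻¹] :=
    coordMat_inv_of_mul_eq hP (locRep_mul_inv rbar D.σ₀) hσP
      (diag_mul_inv D.α_ne_zero D.β_ne_zero)
  rw [cocMat_conj rbar c ((hker τ).1 hτ), coordMat_mul_mul hP, coordMat_of_mul_eq hP hσP, hinv,
    diag_conj D.α_ne_zero D.β_ne_zero]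
  rfl

include hker hP hFP ha hb in
lemma coordMat_cocMat_conj_F {τ : GP} (hτ : Fixes D.L₀ τ) :
    coordMat P (cocMat rbar c (D.F * τ * D.F⁻¹)) =
      !![cf rbar c P 1 1 τ, a / b * cf rbar c P 1 0 τ;
         b / a * cf rbar c P 0 1 τ, cf rbar c P 0 0 τ] := by
  have hinv : coordMat P (locRep p rbar D.F⁻¹) = !![0, b⁻¹; a⁻¹, 0] :=
    coordMat_inv_of_mul_eq hP (locRep_mul_inv rbar D.F) hFP (antidiag_mul_inv ha hb)
  rw [cocMat_conj rbar c ((hker τ).1 hτ), coordMat_mul_mul hP, coordMat_of_mul_eq hP hFP, hinv,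
    antidiag_conj ha hb]
  rfl

lemma isBddFun_cf
    (hbdd : IsBddFun p (fun τ : PadicAlgCl p ≃ₐ[ℚ_[p]] PadicAlgCl p =>
      (c : primeLocalGaloisGroup (pPrime p) →
        (Rep.res (primeLocalToGlobal (pPrime p)) (adRep rbar)).V) τ)) (P : M2 k) (i j : Fin 2) :
    IsBddFun p (cf rbar c P i j) := by
  obtain ⟨L, h1, h2, h3, h4⟩ := hbdd
  refine ⟨L, h1, h2, h3, fun τ hτ => ?_⟩
  have h5 : (c : primeLocalGaloisGroup (pPrime p) →
        (Rep.res (primeLocalToGlobal (pPrime p)) (adRep rbar)).V) τ = 0 := h4 τ hτ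
  have h6 : cocMat rbar c τ = 0 := by
    have h7 := congrArg (fun y : (Rep.res (primeLocalToGlobal (pPrime p)) (adRep rbar)).V =>
      ((show sl2 k from y) : M2 k)) h5
    exact h7
  rw [cf_apply, h6, coordMat_zero]
  rfl

end Coord

section Main

variable [Finite k] [CharP k p] (rbar : Gal →* M2 k) (D : SSData p k)
  (hker : ∀ τ : PadicAlgCl p ≃ₐ[ℚ_[p]] PadicAlgCl p, Fixes D.L₀ τ ↔ locRep p rbar τ = 1)
  {P : M2 k} (hP : P.det ≠ 0) {a b : k} (ha : a ≠ 0) (hb : b ≠ 0)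
  (hσP : locRep p rbar D.σ₀ * P = P * !![D.α, 0; 0, D.β])
  (hFP : locRep p rbar D.F * P = P * !![0, a; b, 0])
  (c : cocycles₁ (Rep.res (primeLocalToGlobal (pPrime p)) (adRep rbar)))
  (hbdd : IsBddFun p (fun τ : PadicAlgCl p ≃ₐ[ℚ_[p]] PadicAlgCl p =>
      (c : primeLocalGaloisGroup (pPrime p) →
        (Rep.res (primeLocalToGlobal (pPrime p)) (adRep rbar)).V) τ))

include hker hbdd in
lemma isAdm_cf (i j : Fin 2) : IsAdm D.L₀ (cf rbar c P i j) :=
  ⟨fun _ _ hσ _ => cf_add rbar D hker c hσ i j, isBddFun_cf rbar c hbdd P i j⟩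

include hker hP hσP in
lemma cf_conj_σ₀ {τ : GP} (hτ : Fixes D.L₀ τ) :
    cf rbar c P 0 0 (D.σ₀ * τ * D.σ₀⁻¹) = cf rbar c P 0 0 τ ∧
      cf rbar c P 0 1 (D.σ₀ * τ * D.σ₀⁻¹) = D.α / D.β * cf rbar c P 0 1 τ := by
  have h := coordMat_cocMat_conj_σ₀ rbar D hker hP hσP c hτ
  exact ⟨congrFun (congrFun h 0) 0, congrFun (congrFun h 0) 1⟩

include hker hP hFP ha hb in
lemma cf_conj_F {τ : GP} (hτ : Fixes D.L₀ τ) :
    cf rbar c P 0 0 (D.F * τ * D.F⁻¹) = -cf rbar c P 0 0 τ ∧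
      cf rbar c P 0 1 (D.F * τ * D.F⁻¹) = a / b * cf rbar c P 1 0 τ ∧
      cf rbar c P 1 0 (D.F * τ * D.F⁻¹) = b / a * cf rbar c P 0 1 τ := by
  have h := coordMat_cocMat_conj_F rbar D hker hP ha hb hFP c hτ
  refine ⟨?_, congrFun (congrFun h 0) 1, congrFun (congrFun h 1) 0⟩
  rw [← cf_trace rbar hP c τ]
  exact congrFun (congrFun h 0) 0

include hker hP hσP hFP ha hb hbdd in
/-- Core B applies to the diagonal coordinate. -/
lemma cf_diag_eq_zero (hp2 : p ≠ 2) {τ : GP} (hτ : Fixes D.L₀ τ) : cf rbar c P 0 0 τ = 0 :=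
  D.coreB hp2 (isAdm_cf rbar D hker c hbdd 0 0)
    (fun _ hτ => (cf_conj_σ₀ rbar D hker hP hσP c hτ).1)
    (fun _ hτ => (cf_conj_F rbar D hker hP ha hb hFP c hτ).1) τ hτ

include hker hP hσP hFP ha hb hbdd in
/-- the upper right coordinate is of the type counted by Core A. -/
lemma isAdmA_cf : IsAdmA D (cf rbar c P 0 1) := by
  haveI := D.gal
  refine ⟨isAdm_cf rbar D hker c hbdd 0 1,
    fun τ hτ => (cf_conj_σ₀ rbar D hker hP hσP c hτ).2, fun τ hτ => ?_⟩
  have h1 : D.F * D.F * τ * (D.F * D.F)⁻¹ = D.F * (D.F * τ * D.F⁻¹) * D.F⁻¹ := by group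
  have hτ₁ : Fixes D.L₀ (D.F * τ * D.F⁻¹) := hτ.conj' D.F
  rw [h1, (cf_conj_F rbar D hker hP ha hb hFP c hτ₁).2.1,
    (cf_conj_F rbar D hker hP ha hb hFP c hτ).2.2]
  field_simp

include hker hP hFP ha hb in
/-- the lower left coordinate is determined by the upper right one. -/
lemma cf_lower_eq {τ : GP} (hτ : Fixes D.L₀ τ) :
    cf rbar c P 1 0 τ = b / a * cf rbar c P 0 1 (D.F * τ * D.F⁻¹) := by
  rw [(cf_conj_F rbar D hker hP ha hb hFP c hτ).2.1]
  field_simp

end Main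

section Final

variable [Finite k] [CharP k p]

/-- two bounded cocycles with the same upper right coordinate on the kernel of `ρ̄` agree on the
kernel. -/
lemma cocMat_eq_of_cf_eq (hp2 : p ≠ 2) (rbar : Gal →* M2 k) (D : SSData p k)
    (hker : ∀ τ : PadicAlgCl p ≃ₐ[ℚ_[p]] PadicAlgCl p, Fixes D.L₀ τ ↔ locRep p rbar τ = 1)
    {P : M2 k} (hP : P.det ≠ 0) {a b : k} (ha : a ≠ 0) (hb : b ≠ 0)
    (hσP : locRep p rbar D.σ₀ * P = P * !![D.α, 0; 0, D.β])
    (hFP : locRep p rbar D.F * P = P * !![0, a; b, 0])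
    (c c' : cocycles₁ (Rep.res (primeLocalToGlobal (pPrime p)) (adRep rbar)))
    (hbdd : IsBddFun p (fun τ : PadicAlgCl p ≃ₐ[ℚ_[p]] PadicAlgCl p =>
      (c : primeLocalGaloisGroup (pPrime p) →
        (Rep.res (primeLocalToGlobal (pPrime p)) (adRep rbar)).V) τ))
    (hbdd' : IsBddFun p (fun τ : PadicAlgCl p ≃ₐ[ℚ_[p]] PadicAlgCl p =>
      (c' : primeLocalGaloisGroup (pPrime p) →
        (Rep.res (primeLocalToGlobal (pPrime p)) (adRep rbar)).V) τ))
    (heq : ∀ τ : GP, Fixes D.L₀ τ → cf rbar c P 0 1 τ = cf rbar c' P 0 1 τ)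
    {τ : GP} (hτ : Fixes D.L₀ τ) : cocMat rbar c τ = cocMat rbar c' τ := by
  haveI := D.gal
  apply coordMat_injective hP
  have h00 : cf rbar c P 0 0 τ = cf rbar c' P 0 0 τ := by
    rw [cf_diag_eq_zero rbar D hker hP ha hb hσP hFP c hbdd hp2 hτ,
      cf_diag_eq_zero rbar D hker hP ha hb hσP hFP c' hbdd' hp2 hτ]
  have h10 : cf rbar c P 1 0 τ = cf rbar c' P 1 0 τ := by
    rw [cf_lower_eq rbar D hker hP ha hb hFP c hτ, cf_lower_eq rbar D hker hP ha hb hFP c' hτ,
      heq _ (hτ.conj' D.F)]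
  have h11 : cf rbar c P 1 1 τ = cf rbar c' P 1 1 τ := by
    rw [cf_trace rbar hP c τ, cf_trace rbar hP c' τ, h00]
  ext i j
  fin_cases i <;> fin_cases j
  · exact h00
  · exact heq τ hτ
  · exact h10
  · exact h11

/-- **(COUNT)** in the supersingular (no stable line) case, the Fontaine-bounded classes in
`H¹(G_p, ad⁰ ρ̄)` number at most `|k|`. -/
theorem card_bddCond_le_of_ssLink {p : ℕ} [Fact p.Prime] {k : Type} [Field k] [Finite k]
    [CharP k p] (hp2 : p ≠ 2) (rbar : Gal →* M2 k) (D : SSData p k)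
    (hlink : SSLink D (rbar.comp (localGaloisToGlobal p))) :
    Finite ↥(bddCond p (Rep.res (primeLocalToGlobal (pPrime p)) (adRep rbar))) ∧
    Nat.card ↥(bddCond p (Rep.res (primeLocalToGlobal (pPrime p)) (adRep rbar))) ≤
      Nat.card k := by
  classical
  haveI := D.fin
  haveI := D.gal
  have hpp : p.Prime := Fact.out
  obtain ⟨v, w, a, b, hv0, hw0, ha, hb, hσv, hσw, hFv, hFw⟩ := hlink.eig
  have hker : ∀ τ : PadicAlgCl p ≃ₐ[ℚ_[p]] PadicAlgCl p,
      Fixes D.L₀ τ ↔ locRep p rbar τ = 1 := hlink.ker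
  have hP : (colMat v w).det ≠ 0 := det_colMat_ne_zero hσv hσw D.hαβ hv0 hw0
  have hσP : locRep p rbar D.σ₀ * colMat v w = colMat v w * !![D.α, 0; 0, D.β] := by
    rw [mul_colMat, ← colMat_smul_smul]
    congr 1
  have hFP : locRep p rbar D.F * colMat v w = colMat v w * !![0, a; b, 0] := by
    rw [mul_colMat, ← colMat_swap]
    congr 1
  obtain ⟨T, hT, Ψ, hcard, hΨ⟩ := D.coreA_count hp2
  haveI := hT
  -- representatives
  have hrep : ∀ x : ↥(bddCond p (Rep.res (primeLocalToGlobal (pPrime p)) (adRep rbar))),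
      ∃ c : cocycles₁ (Rep.res (primeLocalToGlobal (pPrime p)) (adRep rbar)),
        IsBddFun p (fun τ : PadicAlgCl p ≃ₐ[ℚ_[p]] PadicAlgCl p =>
          (c : primeLocalGaloisGroup (pPrime p) →
            (Rep.res (primeLocalToGlobal (pPrime p)) (adRep rbar)).V) τ) ∧
        (H1π (Rep.res (primeLocalToGlobal (pPrime p)) (adRep rbar))).hom c = x.1 := fun x => x.2
  choose cx hcx_bdd hcx_cls using hrep
  -- the subgroup `N`
  obtain ⟨N, hN⟩ : ∃ N : Subgroup (primeLocalGaloisGroup (pPrime p)),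
      ∀ τ : PadicAlgCl p ≃ₐ[ℚ_[p]] PadicAlgCl p, τ ∈ N ↔ Fixes D.L₀ τ :=
    ⟨(D.L₀.fixingSubgroup : Subgroup (PadicAlgCl p ≃ₐ[ℚ_[p]] PadicAlgCl p)), fun τ =>
      IntermediateField.mem_fixingSubgroup_iff D.L₀ τ⟩
  have hNidx : N.index = Module.finrank ℚ_[p] D.L₀ := by
    have h1 : N = (D.L₀.fixingSubgroup : Subgroup (PadicAlgCl p ≃ₐ[ℚ_[p]] PadicAlgCl p)) := by
      ext τ
      exact (hN τ).trans (IntermediateField.mem_fixingSubgroup_iff D.L₀ τ).symm
    rw [h1]
    exact (IntermediateField.finrank_eq_fixingSubgroup_index (PadicAlgCl p) D.L₀).symm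
  haveI : N.FiniteIndex := ⟨by rw [hNidx]; exact (Module.finrank_pos).ne'⟩
  have hcop : (N.index).Coprime p := by
    rw [hNidx]
    exact ((Nat.Prime.coprime_iff_not_dvd hpp).2 D.tame).symm
  set Φ : ↥(bddCond p (Rep.res (primeLocalToGlobal (pPrime p)) (adRep rbar))) → T :=
    fun x => Ψ (cf rbar (cx x) (colMat v w) 0 1) with hΦ
  have hinj : Function.Injective Φ := by
    intro x y hxy
    have heq : ∀ τ : PadicAlgCl p ≃ₐ[ℚ_[p]] PadicAlgCl p, Fixes D.L₀ τ →
        cf rbar (cx x) (colMat v w) 0 1 τ = cf rbar (cx y) (colMat v w) 0 1 τ :=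
      hΨ _ _ (isAdmA_cf rbar D hker hP ha hb hσP hFP (cx x) (hcx_bdd x))
        (isAdmA_cf rbar D hker hP ha hb hσP hFP (cx y) (hcx_bdd y)) hxy
    have hvan : ∀ g ∈ N, ((cx x - cx y : cocycles₁ _) : primeLocalGaloisGroup (pPrime p) →
        (Rep.res (primeLocalToGlobal (pPrime p)) (adRep rbar)).V) g = 0 := by
      intro g hg
      have hg' : Fixes D.L₀ g := (hN g).1 hg
      have h1 := cocMat_eq_of_cf_eq hp2 rbar D hker hP ha hb hσP hFP (cx x) (cx y) (hcx_bdd x)
        (hcx_bdd y) heq hg'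
      have h2 : ((cx x : cocycles₁ _) : primeLocalGaloisGroup (pPrime p) →
          (Rep.res (primeLocalToGlobal (pPrime p)) (adRep rbar)).V) g =
          ((cx y : cocycles₁ _) : primeLocalGaloisGroup (pPrime p) →
          (Rep.res (primeLocalToGlobal (pPrime p)) (adRep rbar)).V) g := by
        apply Subtype.ext
        exact h1
      show ((cx x : cocycles₁ _) : primeLocalGaloisGroup (pPrime p) →
          (Rep.res (primeLocalToGlobal (pPrime p)) (adRep rbar)).V) g -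
          ((cx y : cocycles₁ _) : primeLocalGaloisGroup (pPrime p) →
          (Rep.res (primeLocalToGlobal (pPrime p)) (adRep rbar)).V) g = 0
      rw [h2, sub_self]
    have h3 := H1π_eq_zero_of_vanishes_on_subgroup
      (Rep.res (primeLocalToGlobal (pPrime p)) (adRep rbar)) N p
      (fun y => nsmul_adRep p rbar y) hcop (cx x - cx y) hvan
    rw [map_sub, sub_eq_zero] at h3
    apply Subtype.ext
    rw [← hcx_cls x, ← hcx_cls y]
    exact h3
  exact ⟨Finite.of_injective Φ hinj, (Nat.card_le_card_of_injective Φ hinj).trans hcard⟩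

end Final

end Fermat.Agent.TW.Flat
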