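/-
F2 (flat local condition at p), reducible case — the `p`-adic norm on `ℚ̄` induced by
`padicEmbedding p`, and the hypotheses `Ram.FunModel.InertiaHyp` for the inertia group of
`padicPlace p` in `Gal(ℚ̄/ℚ)`.
-/
import Mathlib
import Fermat.Agent.TW.FlatIface_helper7
import Fermat.Agent.Ram.Model3_helper8
import Fermat.Agent.CFT.Arith.QS_helper7
import Fermat.Agent.EC.InertiaField_helper5

set_option autoImplicit false
set_option linter.unusedSectionVars false
set_option linter.style.haveILetI false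

namespace Fermat.Agent.TW.Flat

open GaloisRep Fermat.Agent.Ram

local notation "Ω" => AlgebraicClosure ℚ
local notation "GQ" => (AlgebraicClosure ℚ ≃ₐ[ℚ] AlgebraicClosure ℚ)

variable (p : ℕ) [Fact p.Prime]

/-- the `p`-adic norm on `ℚ̄` induced by `padicEmbedding p`. -/
@[reducible] noncomputable def qbarNormedField : NormedField Ω :=
  NormedField.induced Ω (PadicAlgCl p) (padicEmbedding p).toRingHom
    (padicEmbedding p).toRingHom.injective

lemma qbarNorm_def (z : Ω) :
    @norm Ω (qbarNormedField p).toNorm z = ‖padicEmbedding p z‖ := rfl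

theorem qbar_isUltrametricDist :
    letI := qbarNormedField p
    IsUltrametricDist Ω := by
  letI := qbarNormedField p
  refine IsUltrametricDist.isUltrametricDist_of_forall_norm_add_le_max_norm fun x y => ?_
  rw [qbarNorm_def, qbarNorm_def, qbarNorm_def, map_add]
  exact IsUltrametricDist.norm_add_le_max _ _

lemma qbarNorm_le_one_iff (z : Ω) :
    @norm Ω (qbarNormedField p).toNorm z ≤ 1 ↔ z ∈ padicPlace p := by
  rw [qbarNorm_def, mem_padicPlace_iff]
  exact (NNReal.coe_le_coe (r₁ := ‖padicEmbedding p z‖₊) (r₂ := 1)).symm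

lemma qbarNorm_lt_one_iff (z : Ω) :
    @norm Ω (qbarNormedField p).toNorm z < 1 ↔ z ∈ (padicPlace p).nonunits := by
  rw [ValuationSubring.mem_nonunits_iff_or]
  by_cases hz : z = 0
  · rw [hz, qbarNorm_def, map_zero, norm_zero]
    simp
  · rw [← qbarNorm_le_one_iff, qbarNorm_def, qbarNorm_def, map_inv₀, norm_inv]
    have h0 : 0 < ‖padicEmbedding p z‖ := by
      rw [norm_pos_iff]
      exact (map_ne_zero (padicEmbedding p)).mpr hz
    constructor
    · intro h
      right
      rw [not_le]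
      exact (one_lt_inv₀ h0).mpr h
    · rintro (h | h)
      · exact absurd h hz
      · rw [not_le] at h
        exact (one_lt_inv₀ h0).mp h

lemma norm_padicAlgCl_p : ‖(p : PadicAlgCl p)‖ = (p : ℝ)⁻¹ := by
  have h3 : ‖((p : ℕ) : PadicAlgCl p)‖₊ = 1 / ((p : ℕ) : NNReal) := by
    rw [← PadicAlgCl.valuation_def]
    exact PadicAlgCl.valuation_p p
  have := congrArg (fun x : NNReal => (x : ℝ)) h3
  simpa using this

lemma qbarNorm_p : @norm Ω (qbarNormedField p).toNorm (p : Ω) = (p : ℝ)⁻¹ := by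
  rw [qbarNorm_def, map_natCast, norm_padicAlgCl_p]

lemma qbarNorm_p_lt_one : @norm Ω (qbarNormedField p).toNorm (p : Ω) < 1 := by
  rw [qbarNorm_p]
  have : (1 : ℝ) < p := by exact_mod_cast (Fact.out : p.Prime).one_lt
  exact inv_lt_one_of_one_lt₀ this

/-- the decomposition group acts by isometries. -/
lemma qbarNorm_map_of_mem_decompositionSubgroup {σ : GQ}
    (hσ : σ ∈ (padicPlace p).decompositionSubgroup ℚ) (z : Ω) :
    @norm Ω (qbarNormedField p).toNorm (σ z) = @norm Ω (qbarNormedField p).toNorm z := by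
  letI := qbarNormedField p
  have hp : p.Prime := Fact.out
  have hA : (padicPlace p).LiesOverPrime p := by
    show (p : Ω) ∈ (padicPlace p).nonunits
    rw [← qbarNorm_lt_one_iff]
    exact qbarNorm_p_lt_one p
  by_cases hz : z = 0
  · rw [hz, map_zero]
  have h1 := Fermat.Agent.EC.valuation_map_eq_of_mem_decompositionSubgroup hp hA hσ z
  have hσz : σ z ≠ 0 := (map_ne_zero σ).mpr hz
  have h2 : (padicPlace p).valuation (σ z / z) = 1 := by
    rw [map_div₀, h1]
    exact div_self ((Valuation.ne_zero_iff _).mpr hz)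
  have h3 : σ z / z ∈ padicPlace p := ((padicPlace p).valuation_le_one_iff _).mp h2.le
  have h4 : (σ z / z)⁻¹ ∈ padicPlace p :=
    ((padicPlace p).valuation_le_one_iff _).mp (by rw [map_inv₀, h2, inv_one])
  rw [← qbarNorm_le_one_iff] at h3 h4
  rw [norm_inv] at h4
  rw [norm_div] at h3 h4
  have hz0 : 0 < ‖z‖ := norm_pos_iff.mpr hz
  have hσz0 : 0 < ‖σ z‖ := norm_pos_iff.mpr hσz
  apply le_antisymm
  · exact (div_le_one hz0).mp h3
  · rw [inv_div] at h4
    exact (div_le_one hσz0).mp h4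

/-- the hypotheses on the inertia group, for the induced `p`-adic norm on `ℚ̄`. -/
theorem qbar_inertiaHyp :
    letI := qbarNormedField p
    FunModel.InertiaHyp (𝒢 := GQ) Ω ((padicPlace p).inertiaSubgroupIn ℚ) p := by
  letI := qbarNormedField p
  have hp : p.Prime := Fact.out
  have hA : (padicPlace p).LiesOverPrime p := by
    show (p : Ω) ∈ (padicPlace p).nonunits
    rw [← qbarNorm_lt_one_iff]
    exact qbarNorm_p_lt_one p
  refine ⟨fun σ hσ z => ?_, fun σ hσ z hz => ?_, fun z hfix hz => ?_⟩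
  · exact qbarNorm_map_of_mem_decompositionSubgroup p
      (Fermat.Agent.EC.inertiaSubgroupIn_le_decompositionSubgroup' _ hσ) z
  · rw [qbarNorm_le_one_iff] at hz
    rw [qbarNorm_lt_one_iff]
    exact ((Fermat.Agent.CFT.Arith.mem_inertiaSubgroupIn_iff).mp hσ).2 z hz
  · by_cases hz0 : z = 0
    · rw [hz0, norm_zero]; exact norm_nonneg _
    obtain ⟨n, h1, h2⟩ := Fermat.Agent.EC.exists_zpow_div_mem_units_of_fixed hp hA z hz0 hfix
    rw [← qbarNorm_le_one_iff] at h1 h2
    have hp0 : (p : Ω) ≠ 0 := by exact_mod_cast hp.ne_zero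
    have hpn0 : 0 < ‖(p : Ω)‖ := norm_pos_iff.mpr hp0
    have hpow0 : 0 < ‖(p : Ω)‖ ^ n := zpow_pos hpn0 n
    rw [norm_inv] at h2
    rw [norm_div, norm_zpow] at h1 h2
    have h3 : ‖z‖ = ‖(p : Ω)‖ ^ n := by
      apply le_antisymm
      · exact (div_le_one hpow0).mp h1
      · rw [inv_div] at h2
        exact (div_le_one (norm_pos_iff.mpr hz0)).mp h2
    rw [h3] at hz ⊢
    have hn : 0 < n := by
      by_contra hn
      rw [not_lt] at hn
      have : 1 ≤ ‖(p : Ω)‖ ^ n :=
        one_le_zpow_of_nonpos₀ hpn0 (qbarNorm_p_lt_one p).le hn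
      exact absurd hz (not_lt.mpr this)
    calc ‖(p : Ω)‖ ^ n ≤ ‖(p : Ω)‖ ^ (1 : ℤ) :=
          zpow_le_zpow_right_of_le_one₀ hpn0 (qbarNorm_p_lt_one p).le (by omega)
      _ = ‖(p : Ω)‖ := zpow_one _

end Fermat.Agent.TW.Flat
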