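/-
F2 (flat local condition at p), reducible case — construction of a function model
(`Ram.FunModel`) of a flat Galois module (`IsFlatGaloisModule`), with values in `ℚ̄` equipped with
the `p`-adic norm induced by `padicEmbedding p`.
-/
import Mathlib
import Fermat.Agent.TW.FlatModelA_helper8
import Fermat.Agent.TW.FlatModelB_helper8

set_option autoImplicit false
set_option linter.unusedSectionVars false
set_option linter.style.haveILetI false

namespace Fermat.Agent.TW.Flat

open GaloisRep Fermat.Agent.Ram Coalgebra WithConv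

local notation "Ω" => AlgebraicClosure ℚ
local notation "GQ" => (AlgebraicClosure ℚ ≃ₐ[ℚ] AlgebraicClosure ℚ)

variable (p : ℕ) [Fact p.Prime]

local notation "R₀" => ratLocalizedAt p

lemma qbarNorm_algebraMap_ratLoc_le_one (r : R₀) :
    @norm Ω (qbarNormedField p).toNorm (algebraMap R₀ Ω r) ≤ 1 := by
  rw [qbarNorm_def]
  have h1 : padicEmbedding p (algebraMap R₀ Ω r) = algebraMap R₀ (PadicAlgCl p) r :=
    (iotaAlg p).commutes r
  rw [h1]
  exact norm_algebraMap_ratLoc_le_one p r

lemma algEquiv_algebraMap_ratLoc_qbar (g : GQ) (r : R₀) :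
    g (algebraMap R₀ Ω r) = algebraMap R₀ Ω r := by
  have h1 : algebraMap R₀ Ω r = algebraMap ℚ Ω (r : ℚ) := rfl
  rw [h1, g.commutes]

lemma qbar_fixed_mem_range (z : Ω) (hz : ∀ g : GQ, g • z = z) :
    z ∈ Set.range (algebraMap ℚ Ω) := by
  haveI : Algebra.IsAlgebraic ℚ Ω := AlgebraicClosure.isAlgebraic ℚ
  haveI : IsAlgClosure ℚ Ω := ⟨inferInstance, inferInstance⟩
  haveI : IsGalois ℚ Ω := IsAlgClosure.isGalois ℚ Ω
  exact (InfiniteGalois.mem_range_algebraMap_iff_fixed z).mpr hz

/-- **A flat Galois module has a function model.** -/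
theorem exists_funModel {M : Type} [AddCommGroup M] [Finite M] [DistribMulAction GQ M]
    (hflat : IsFlatGaloisModule p M (fun σ m => σ • m)) :
    letI := qbarNormedField p
    ∃ n : ℕ, Nonempty (FunModel GQ Ω M (Fin n)) := by
  letI := qbarNormedField p
  haveI := qbar_isUltrametricDist p
  classical
  obtain ⟨H, i1, i2, hfin, hfl, hco, e, he1, he2⟩ := hflat
  letI := i1
  letI := i2
  haveI := hfin
  have := Fintype.ofFinite M
  -- the points
  obtain ⟨pt, hpt⟩ : ∃ pt : M → (H →ₐ[R₀] Ω), ∀ m, pt m = (e.symm m).ofConv := ⟨_, fun _ => rfl⟩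
  have hpt_inj : Function.Injective pt := by
    intro m m' hmm
    rw [hpt, hpt] at hmm
    exact e.symm.injective (WithConv.ofConv_injective hmm)
  have hpt_add : ∀ (m m' : M) (h : H), pt (m + m') h
      = ∑ t ∈ (ℛ R₀ h).index, pt m ((ℛ R₀ h).left t) * pt m' ((ℛ R₀ h).right t) := by
    intro m m' h
    have h1 : e.symm (m + m') = e.symm m * e.symm m' := by
      apply e.injective
      rw [he1, e.apply_symm_apply, e.apply_symm_apply, e.apply_symm_apply]
    rw [hpt, hpt, hpt, h1]
    have h2 := AlgHom.toLinearMap_convMul (e.symm m) (e.symm m')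
    have h3 := (ℛ R₀ h).convMul_apply (toConv (e.symm m).ofConv.toLinearMap)
      (toConv (e.symm m').ofConv.toLinearMap)
    rw [← h2] at h3
    exact h3
  have hpt_smul : ∀ (σ : GQ) (m : M) (h : H), pt (σ • m) h = σ (pt m h) := by
    intro σ m h
    have h1 := he2 σ (e.symm m)
      (toConv ((ratLocAlgHom p (σ : Ω →ₐ[ℚ] Ω).toRingHom).comp (pt m)))
      (fun h => by rw [hpt]; rfl)
    rw [e.apply_symm_apply] at h1
    have h1' : e (toConv ((ratLocAlgHom p (σ : Ω →ₐ[ℚ] Ω).toRingHom).comp (pt m))) = σ • m := h1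
    have h2 : e.symm (σ • m)
        = toConv ((ratLocAlgHom p (σ : Ω →ₐ[ℚ] Ω).toRingHom).comp (pt m)) := by
      rw [← h1', e.symm_apply_apply]
    rw [hpt (σ • m), h2]
    rfl
  -- the evaluation map and its image
  obtain ⟨ev, hev⟩ : ∃ ev : H →ₗ[R₀] (M → Ω), ∀ h m, ev h m = pt m h :=
    ⟨LinearMap.pi fun m => (pt m).toLinearMap, fun _ _ => rfl⟩
  haveI : Module.Finite R₀ (LinearMap.range ev) := Module.Finite.range ev
  have halg_inj : Function.Injective (algebraMap R₀ Ω) := by
    intro r r' hrr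
    have h1 : algebraMap ℚ Ω (r : ℚ) = algebraMap ℚ Ω (r' : ℚ) := hrr
    exact Subtype.ext ((algebraMap ℚ Ω).injective h1)
  haveI : Module.IsTorsionFree R₀ (LinearMap.range ev) := by
    refine Module.IsTorsionFree.of_smul_eq_zero fun r v hrv => ?_
    by_cases hr : r = 0
    · exact Or.inl hr
    right
    apply Subtype.ext
    funext m
    have h1 := congrFun (congrArg Subtype.val hrv) m
    simp only [Submodule.coe_smul, Pi.smul_apply, Submodule.coe_zero, Pi.zero_apply,
      Algebra.smul_def] at h1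
    have h2 : algebraMap R₀ Ω r ≠ 0 := by
      intro h0
      exact hr (halg_inj (by rw [h0, map_zero]))
    exact (mul_eq_zero.mp h1).resolve_left h2
  obtain ⟨n, bH⟩ := Module.basisOfFiniteTypeTorsionFree' (R := R₀) (M := LinearMap.range ev)
  obtain ⟨f, hf⟩ : ∃ f : Fin n → M → Ω, ∀ i, f i = (bH i : M → Ω) := ⟨_, fun _ => rfl⟩
  have hfa : ∀ i, ∃ a : H, ev a = f i := fun i => by
    rw [hf]; exact (bH i).2
  choose a ha using hfa
  -- coordinates
  obtain ⟨co, hco⟩ : ∃ co : H → Fin n → R₀, ∀ h,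
      co h = fun j => bH.repr ⟨ev h, LinearMap.mem_range_self ev h⟩ j := ⟨_, fun _ => rfl⟩
  have hcoord : ∀ (h : H) (m : M), pt m h = ∑ j, algebraMap R₀ Ω (co h j) * f j m := by
    intro h m
    have h1 := bH.sum_repr ⟨ev h, LinearMap.mem_range_self ev h⟩
    have h2 := congrFun (congrArg Subtype.val h1) m
    rw [← hev]
    simp only at h2
    rw [← h2, Submodule.coe_sum, Finset.sum_apply]
    refine Finset.sum_congr rfl fun j _ => ?_
    rw [Submodule.coe_smul, Pi.smul_apply, Algebra.smul_def, hco, hf]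
  -- equivariance
  have hf_equiv : ∀ (σ : GQ) (i : Fin n) (y : M), f i (σ • y) = σ • f i y := by
    intro σ i y
    rw [← ha, hev, hev, hpt_smul]
    rfl
  -- linear independence
  have hindR : LinearIndependent R₀ f := by
    have h1 : LinearIndependent R₀ (fun i => (LinearMap.range ev).subtype (bH i)) :=
      bH.linearIndependent.map' _ (Submodule.ker_subtype _)
    have h2 : (fun i => (LinearMap.range ev).subtype (bH i)) = f := by
      funext i
      rw [hf]; rfl
    rwa [h2] at h1
  have hindQ : LinearIndependent ℚ f := (LinearIndependent.iff_fractionRing R₀ ℚ).mp hindR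
  have hindΩ : LinearIndependent Ω f :=
    linearIndependent_of_equivariant ℚ qbar_fixed_mem_range f hf_equiv hindQ
  -- spanning
  have hspan : ⊤ ≤ Submodule.span Ω (Set.range f) := by
    have h1 := span_eval_eq_top (F := Ω) (fun m => ((pt m : H →ₐ[R₀] Ω) : H →* Ω)) (by
      intro m m' hmm
      apply hpt_inj
      apply AlgHom.ext
      intro h
      exact DFunLike.congr_fun hmm h)
    rw [← h1, Submodule.span_le]
    rintro _ ⟨h, rfl⟩
    have h2 : (fun m : M => ((pt m : H →ₐ[R₀] Ω) : H →* Ω) h)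
        = ∑ j, algebraMap R₀ Ω (co h j) • f j := by
      funext m
      rw [Finset.sum_apply]
      simp only [Pi.smul_apply, smul_eq_mul]
      exact hcoord h m
    show (fun m : M => ((pt m : H →ₐ[R₀] Ω) : H →* Ω) h) ∈ _
    rw [h2]
    exact Submodule.sum_mem _ fun j _ =>
      Submodule.smul_mem _ _ (Submodule.subset_span ⟨j, rfl⟩)
  -- the basis and the structure constants
  obtain ⟨b, hb⟩ : ∃ b : Module.Basis (Fin n) Ω (M → Ω), ∀ i, b i = f i :=
    ⟨Module.Basis.mk hindΩ hspan, fun i => Module.Basis.mk_apply hindΩ hspan i⟩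
  obtain ⟨c, hc⟩ : ∃ c : Fin n → Fin n → Fin n → Ω, ∀ i j k, c i j k
      = ∑ t ∈ (ℛ R₀ (a i)).index, algebraMap R₀ Ω (co ((ℛ R₀ (a i)).left t) j)
          * algebraMap R₀ Ω (co ((ℛ R₀ (a i)).right t) k) := ⟨_, fun _ _ _ => rfl⟩
  refine ⟨n, ⟨{ b := b, c := c, h_le := ?_, c_le := ?_, c_fix := ?_, equiv := ?_, comul := ?_ }⟩⟩
  · intro i y
    rw [hb, ← ha, hev, qbarNorm_def]
    exact norm_point_le_one p (pointToPadic p (pt y)) (a i)
  · intro i j k
    rw [hc]
    refine norm_sum_le_of_forall_le' _ _ zero_le_one fun t _ => ?_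
    rw [norm_mul]
    exact mul_le_one₀ (qbarNorm_algebraMap_ratLoc_le_one p _) (norm_nonneg _)
      (qbarNorm_algebraMap_ratLoc_le_one p _)
  · intro g i j k
    rw [hc, Finset.smul_sum]
    refine Finset.sum_congr rfl fun t _ => ?_
    rw [smul_mul', AlgEquiv.smul_def, AlgEquiv.smul_def, algEquiv_algebraMap_ratLoc_qbar,
      algEquiv_algebraMap_ratLoc_qbar]
  · intro g i y
    rw [hb]
    exact hf_equiv g i y
  · intro i x y
    rw [hb, ← ha, hev, hpt_add]
    have h1 : ∀ t ∈ (ℛ R₀ (a i)).index,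
        pt x ((ℛ R₀ (a i)).left t) * pt y ((ℛ R₀ (a i)).right t)
        = ∑ j, ∑ k, (algebraMap R₀ Ω (co ((ℛ R₀ (a i)).left t) j)
          * algebraMap R₀ Ω (co ((ℛ R₀ (a i)).right t) k)) * f j x * f k y := by
      intro t _
      rw [hcoord, hcoord, Finset.sum_mul_sum]
      refine Finset.sum_congr rfl fun j _ => ?_
      refine Finset.sum_congr rfl fun k _ => ?_
      ring
    rw [Finset.sum_congr rfl h1, Finset.sum_comm]
    refine Finset.sum_congr rfl fun j _ => ?_
    rw [Finset.sum_comm]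
    refine Finset.sum_congr rfl fun k _ => ?_
    rw [hb, hb, hc, Finset.sum_mul, Finset.sum_mul]

end Fermat.Agent.TW.Flat
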