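/-
F2 (flat local condition at p), reducible case — structure theorems for flat Galois modules killed
by `p` (`p` odd), in norm-free form.  `I` is the inertia group of `padicPlace p` in `Gal(ℚ̄/ℚ)`.

* `flat_mem_of_smul_sub_mem` **(Q'')** : if `x ∈ I_aug • M`, `K ≤ M` is an `I`-stable subgroup and
  `σ • x - x ∈ K` for all `σ ∈ I`, then `x ∈ K`  (`I_aug • M` has no `I`-trivial subquotient).
* `flat_inertia_char` **(R')** : on a line of `I_aug • M` stable under `I` and a Frobenius element,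
  `I` acts through the mod `p` cyclotomic character.
-/
import Mathlib
import Fermat.Agent.TW.FlatModelC_helper8

set_option autoImplicit false
set_option linter.unusedSectionVars false
set_option linter.style.haveILetI false

namespace Fermat.Agent.TW.Flat

open GaloisRep Fermat.Agent.Ram

local notation "Ω" => AlgebraicClosure ℚ
local notation "GQ" => (AlgebraicClosure ℚ ≃ₐ[ℚ] AlgebraicClosure ℚ)

/-- the congruence defining a Frobenius element, in elementwise form. -/
lemma sub_pow_mem_nonunits_of_isFrobeniusAt {A : ValuationSubring Ω} {φ : GQ} {q : ℕ}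
    (hφ : A.IsFrobeniusAt φ q) {a : Ω} (ha : a ∈ A) : φ a - a ^ q ∈ A.nonunits := by
  have h := hφ.smul_residue_eq (IsLocalRing.residue A ⟨a, ha⟩)
  rw [← IsLocalRing.ResidueField.residue_smul, ← map_pow, ← sub_eq_zero, ← map_sub,
    IsLocalRing.residue_eq_zero_iff, A.valuation_lt_one_iff] at h
  rw [A.mem_nonunits_iff]
  exact h

variable (p : ℕ) [Fact p.Prime]

/-- the inertia group of `padicPlace p`. -/
noncomputable abbrev inertiaQ : Subgroup GQ := (padicPlace p).inertiaSubgroupIn ℚ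

lemma qbar_natCast_p_ne_zero : ((p : ℕ) : Ω) ≠ 0 := by
  exact_mod_cast (Fact.out : p.Prime).ne_zero

/-- **(Q'')** for flat Galois modules. -/
theorem flat_mem_of_smul_sub_mem (hp2 : p ≠ 2) {M : Type} [AddCommGroup M] [Finite M]
    [DistribMulAction GQ M] (hflat : IsFlatGaloisModule p M (fun σ m => σ • m))
    (hpM : ∀ m : M, p • m = 0) (K : AddSubgroup M)
    (hK : ∀ σ ∈ inertiaQ p, ∀ y ∈ K, σ • y ∈ K) {x : M}
    (hx : x ∈ FunModel.augSub (inertiaQ p) M)
    (hxK : ∀ σ ∈ inertiaQ p, σ • x - x ∈ K) : x ∈ K := by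
  letI := qbarNormedField p
  haveI := qbar_isUltrametricDist p
  obtain ⟨n, ⟨m⟩⟩ := exists_funModel p hflat
  have hI := qbar_inertiaHyp p
  exact m.mem_of_smul_sub_mem hI Fact.out hp2 (qbar_natCast_p_ne_zero p) (qbarNorm_p_lt_one p) K hK
    (hpM x) (m.augSub_le_conn hI hx) hxK

/-- **(R')** for flat Galois modules. -/
theorem flat_inertia_char (hp2 : p ≠ 2) {M : Type} [AddCommGroup M] [Finite M]
    [DistribMulAction GQ M] (hflat : IsFlatGaloisModule p M (fun σ m => σ • m))
    (hpM : ∀ m : M, p • m = 0) {k : Type*} [Field k] [Finite k] [CharP k p] [Module k M]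
    {x : M} (hx0 : x ≠ 0) (hx : x ∈ FunModel.augSub (inertiaQ p) M)
    (hψ : ∀ σ ∈ inertiaQ p, ∃ a : k, σ • x = a • x)
    (hlin : ∀ σ ∈ inertiaQ p, ∀ c : k, σ • (c • x) = c • (σ • x))
    {φ : GQ} (hφ : (padicPlace p).IsFrobeniusAt φ p)
    (hφx : ∀ σ ∈ inertiaQ p, (φ * σ * φ⁻¹) • x = σ • x) :
    ∀ σ ∈ inertiaQ p, ∃ n : ℕ, σ • x = n • x ∧ ∀ ζ : Ω, ζ ^ p = 1 → σ ζ = ζ ^ n := by
  letI := qbarNormedField p
  haveI := qbar_isUltrametricDist p
  obtain ⟨n, ⟨m⟩⟩ := exists_funModel p hflat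
  have hI := qbar_inertiaHyp p
  have hφD : φ ∈ (padicPlace p).decompositionSubgroup ℚ := hφ.mem_decompositionSubgroup
  have key := m.exists_nat_smul_eq_and_zeta hI Fact.out hp2 (qbar_natCast_p_ne_zero p)
    (qbarNorm_p_lt_one p) (k := k) hx0 (hpM x) (m.augSub_le_conn hI hx) hψ hlin (φ := φ)
    (fun z => qbarNorm_map_of_mem_decompositionSubgroup p hφD z)
    (fun u hu => by
      rw [qbarNorm_le_one_iff] at hu
      rw [qbarNorm_lt_one_iff]
      exact sub_pow_mem_nonunits_of_isFrobeniusAt hφ hu) hφx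
  intro σ hσ
  obtain ⟨n, hn1, hn2⟩ := key σ hσ
  exact ⟨n, hn1, fun ζ hζ => hn2 ζ hζ⟩

/-- `I_aug • M` is stable under the inertia group. -/
lemma smul_mem_augSub {G : Type*} [Group G] (I : Subgroup G) {M : Type*} [AddCommGroup M]
    [DistribMulAction G M] {σ : G} (hσ : σ ∈ I) {y : M} (hy : y ∈ FunModel.augSub I M) :
    σ • y ∈ FunModel.augSub I M := by
  have h1 : σ • y = (σ • y - y) + y := by abel
  rw [h1]
  exact (FunModel.augSub I M).add_mem (FunModel.smul_sub_mem_augSub hσ y) hy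

/-- `I_aug • M` is stable under every element normalising `I`. -/
lemma smul_mem_augSub_of_normalizes {G : Type*} [Group G] (I : Subgroup G) {M : Type*}
    [AddCommGroup M] [DistribMulAction G M] {g : G} (hg : ∀ σ ∈ I, g * σ * g⁻¹ ∈ I) {y : M}
    (hy : y ∈ FunModel.augSub I M) : g • y ∈ FunModel.augSub I M := by
  unfold FunModel.augSub at hy ⊢
  induction hy using AddSubgroup.closure_induction with
  | mem x hx =>
    obtain ⟨σ, hσ, z, rfl⟩ := hx
    apply AddSubgroup.subset_closure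
    refine ⟨g * σ * g⁻¹, hg σ hσ, g • z, ?_⟩
    rw [smul_sub, mul_smul, mul_smul, inv_smul_smul]
  | zero => rw [smul_zero]; exact AddSubgroup.zero_mem _
  | add a b _ _ ha hb => rw [smul_add]; exact AddSubgroup.add_mem _ ha hb
  | neg a _ ha => rw [smul_neg]; exact AddSubgroup.neg_mem _ ha

end Fermat.Agent.TW.Flat
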