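/-
F2 (flat local condition at p), reducible case — **(G2)**: a flat deformation `rbar + ε b` of an
ordinary residual representation is ordinary.

The deformation acts on `(k[ε])² = k² × k²` by `σ • (u, u') = (rbar σ u, rbar σ u' + b σ u)`
(`pairAction`).  If the module is flat, `e₀` spans a line with trivial inertia action on `k² / k e₀`,
and inertia acts nontrivially on `k²`, then (`exists_ordinary_normal_form_of_flat`) after
subtracting a twisted coboundary `X rbar − rbar X` the cocycle `b` maps `e₀` into `k e₀` on the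
decomposition group and maps `k²` into `k e₀` on the inertia group.
-/
import Mathlib
import Fermat.Agent.TW.FlatModelD_helper8
import Fermat.Agent.TW.CondCocycle_helper6

set_option autoImplicit false
set_option linter.unusedSectionVars false
set_option linter.style.haveILetI false

namespace Fermat.Agent.TW.Flat

open GaloisRep Fermat.Agent.Ram Fermat.Agent.S53 Fermat.Agent.TW Matrix

local notation "Ω" => AlgebraicClosure ℚ

section PairAction

variable {k : Type} [Field k]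

/-- the action of `Gal(ℚ̄/ℚ)` on `k² × k² = (k[ε])²` through `rbar + ε b`. -/
@[reducible] noncomputable def pairAction (rbar : Gal →* M2 k) (b : Gal → M2 k) (hb : IsTwCocycle rbar b) :
    DistribMulAction Gal ((Fin 2 → k) × (Fin 2 → k)) where
  smul σ v := ((rbar σ).mulVec v.1, (rbar σ).mulVec v.2 + (b σ).mulVec v.1)
  one_smul v := by
    show ((rbar 1).mulVec v.1, (rbar 1).mulVec v.2 + (b 1).mulVec v.1) = v
    rw [map_one, IsTwCocycle.map_one hb, Matrix.one_mulVec, Matrix.one_mulVec, Matrix.zero_mulVec,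
      add_zero]
  mul_smul σ τ v := by
    show ((rbar (σ * τ)).mulVec v.1, (rbar (σ * τ)).mulVec v.2 + (b (σ * τ)).mulVec v.1)
      = ((rbar σ).mulVec ((rbar τ).mulVec v.1),
        (rbar σ).mulVec ((rbar τ).mulVec v.2 + (b τ).mulVec v.1) + (b σ).mulVec ((rbar τ).mulVec v.1))
    rw [map_mul, hb σ τ, Matrix.mulVec_add, Matrix.add_mulVec, Matrix.mulVec_mulVec,
      Matrix.mulVec_mulVec, Matrix.mulVec_mulVec, Matrix.mulVec_mulVec]
    congr 1
    abel
  smul_zero σ := by
    show ((rbar σ).mulVec 0, (rbar σ).mulVec 0 + (b σ).mulVec 0) = 0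
    rw [Matrix.mulVec_zero, Matrix.mulVec_zero, add_zero]
    rfl
  smul_add σ v w := by
    show ((rbar σ).mulVec (v.1 + w.1), (rbar σ).mulVec (v.2 + w.2) + (b σ).mulVec (v.1 + w.1))
      = ((rbar σ).mulVec v.1 + (rbar σ).mulVec w.1,
        ((rbar σ).mulVec v.2 + (b σ).mulVec v.1) + ((rbar σ).mulVec w.2 + (b σ).mulVec w.1))
    rw [Matrix.mulVec_add, Matrix.mulVec_add, Matrix.mulVec_add]
    congr 1
    abel

/-- the additive equivalence `(k[ε])² ≃ k² × k²`. -/
def pairEquiv (k : Type) [Field k] : (Fin 2 → DualNumber k) ≃+ (Fin 2 → k) × (Fin 2 → k) where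
  toFun v := (fun i => (v i).fst, fun i => (v i).snd)
  invFun w := fun i => TrivSqZeroExt.inl (w.1 i) + TrivSqZeroExt.inr (w.2 i)
  left_inv v := by
    funext i
    exact TrivSqZeroExt.inl_fst_add_inr_snd_eq (v i)
  right_inv w := by
    apply Prod.ext
    · funext i; simp
    · funext i; simp
  map_add' v w := by
    apply Prod.ext
    · funext i; simp
    · funext i; simp

lemma pairEquiv_mulVec (A B : M2 k) (v : Fin 2 → DualNumber k) :
    pairEquiv k ((ofParts A B).mulVec v)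
      = (A.mulVec (pairEquiv k v).1, A.mulVec (pairEquiv k v).2 + B.mulVec (pairEquiv k v).1) := by
  apply Prod.ext
  · funext i
    show ((ofParts A B).mulVec v i).fst = A.mulVec (fun j => (v j).fst) i
    simp only [Matrix.mulVec, dotProduct, ofParts_apply, TrivSqZeroExt.fst_sum,
      TrivSqZeroExt.fst_mul, TrivSqZeroExt.fst_add, TrivSqZeroExt.fst_inl, TrivSqZeroExt.fst_inr,
      add_zero]
  · funext i
    show ((ofParts A B).mulVec v i).snd
      = A.mulVec (fun j => (v j).snd) i + B.mulVec (fun j => (v j).fst) i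
    simp only [Matrix.mulVec, dotProduct, ofParts_apply, TrivSqZeroExt.snd_sum,
      TrivSqZeroExt.snd_mul, TrivSqZeroExt.fst_add, TrivSqZeroExt.fst_inl, TrivSqZeroExt.fst_inr,
      TrivSqZeroExt.snd_add, TrivSqZeroExt.snd_inl, TrivSqZeroExt.snd_inr, add_zero, zero_add,
      smul_eq_mul, MulOpposite.smul_eq_mul_unop, MulOpposite.unop_op, Finset.sum_add_distrib]

/-- flatness of the deformation, in terms of the pair module. -/
theorem isFlatGaloisModule_pair {p : ℕ} {rbar : Gal →* M2 k} {b : Gal → M2 k}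
    (hb : IsTwCocycle rbar b)
    (hflat : IsFlatGaloisModule p (Fin 2 → DualNumber k)
      (fun σ v => (defOfCocycle rbar b hb σ).mulVec v)) :
    letI := pairAction rbar b hb
    IsFlatGaloisModule p ((Fin 2 → k) × (Fin 2 → k)) (fun σ m => σ • m) := by
  letI := pairAction rbar b hb
  refine IsFlatGaloisModule.of_equiv (pairEquiv k) (fun σ v => ?_) hflat
  rw [defOfCocycle_apply, pairEquiv_mulVec]
  rfl

end PairAction

section Structure

variable {k : Type} [Field k] [Finite k]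

/-- **(G2)**: normal form of a flat deformation of an ordinary residual representation. -/
theorem exists_ordinary_normal_form_of_flat {p : ℕ} [Fact p.Prime] (hp2 : p ≠ 2)
    (hpk : (p : k) = 0) {rbar : Gal →* M2 k} {b : Gal → M2 k} (hb : IsTwCocycle rbar b)
    (hflat : IsFlatGaloisModule p (Fin 2 → DualNumber k)
      (fun σ v => (defOfCocycle rbar b hb σ).mulVec v))
    {e₀ : Fin 2 → k} (he₀ : e₀ ≠ 0)
    (h1 : ∀ σ ∈ inertiaQ p, ∀ u : Fin 2 → k, ∃ t : k, (rbar σ).mulVec u - u = t • e₀)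
    (h2 : ∃ σ ∈ inertiaQ p, rbar σ ≠ 1) :
    ∃ X : M2 k,
      (∀ g ∈ (padicPlace p).decompositionSubgroup ℚ, ∃ t : k,
        (b g - (X * rbar g - rbar g * X)).mulVec e₀ = t • e₀) ∧
      (∀ σ ∈ inertiaQ p, ∀ u : Fin 2 → k, ∃ t : k,
        (b σ - (X * rbar σ - rbar σ * X)).mulVec u = t • e₀) := by
  classical
  letI := pairAction rbar b hb
  have hflat' := isFlatGaloisModule_pair hb hflat
  have hsmul : ∀ (σ : Gal) (v : (Fin 2 → k) × (Fin 2 → k)),
      σ • v = ((rbar σ).mulVec v.1, (rbar σ).mulVec v.2 + (b σ).mulVec v.1) := fun _ _ => rfl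
  have hpM : ∀ m : (Fin 2 → k) × (Fin 2 → k), p • m = 0 := by
    intro m
    have h : ∀ w : Fin 2 → k, p • w = 0 := by
      intro w
      funext i
      rw [Pi.smul_apply, nsmul_eq_mul, hpk, zero_mul, Pi.zero_apply]
    apply Prod.ext
    · exact h m.1
    · exact h m.2
  obtain ⟨V1, hV1⟩ : ∃ V1 : AddSubgroup ((Fin 2 → k) × (Fin 2 → k)),
      V1 = FunModel.augSub (inertiaQ p) ((Fin 2 → k) × (Fin 2 → k)) := ⟨_, rfl⟩
  -- `V1` is stable under scalars
  have hV1smul : ∀ (c : k) (v : (Fin 2 → k) × (Fin 2 → k)), v ∈ V1 → c • v ∈ V1 := by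
    intro c v hv
    rw [hV1] at hv ⊢
    unfold FunModel.augSub at hv ⊢
    induction hv using AddSubgroup.closure_induction with
    | mem x hx =>
      obtain ⟨σ, hσ, y, rfl⟩ := hx
      apply AddSubgroup.subset_closure
      refine ⟨σ, hσ, c • y, ?_⟩
      rw [smul_sub]
      congr 1
      rw [hsmul, hsmul]
      apply Prod.ext
      · show c • (rbar σ).mulVec y.1 = (rbar σ).mulVec (c • y.1)
        rw [Matrix.mulVec_smul]
      · show c • ((rbar σ).mulVec y.2 + (b σ).mulVec y.1)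
          = (rbar σ).mulVec (c • y.2) + (b σ).mulVec (c • y.1)
        rw [Matrix.mulVec_smul, Matrix.mulVec_smul, smul_add]
    | zero => rw [smul_zero]; exact AddSubgroup.zero_mem _
    | add a b' _ _ ha hb' => rw [smul_add]; exact AddSubgroup.add_mem _ ha hb'
    | neg a _ ha => rw [smul_neg]; exact AddSubgroup.neg_mem _ ha
  -- first components of `V1` lie on the line
  have hV1fst : ∀ v ∈ V1, ∃ s : k, v.1 = s • e₀ := by
    intro v hv
    rw [hV1] at hv
    unfold FunModel.augSub at hv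
    induction hv using AddSubgroup.closure_induction with
    | mem x hx =>
      obtain ⟨σ, hσ, y, rfl⟩ := hx
      obtain ⟨t, ht⟩ := h1 σ hσ y.1
      exact ⟨t, ht⟩
    | zero => exact ⟨0, by rw [zero_smul]; rfl⟩
    | add a b' _ _ ha hb' =>
      obtain ⟨s, hs⟩ := ha
      obtain ⟨s', hs'⟩ := hb'
      exact ⟨s + s', by rw [Prod.fst_add, hs, hs', add_smul]⟩
    | neg a _ ha =>
      obtain ⟨s, hs⟩ := ha
      exact ⟨-s, by rw [Prod.fst_neg, hs, neg_smul]⟩
  -- inertia acts on `e₀` by a scalar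
  have hIe₀ : ∀ σ ∈ inertiaQ p, ∃ t : k, (rbar σ).mulVec e₀ = t • e₀ := by
    intro σ hσ
    obtain ⟨t, ht⟩ := h1 σ hσ e₀
    exact ⟨t + 1, by rw [add_smul, one_smul, ← ht]; abel⟩
  -- **Step 2**: elements of `V1` with vanishing first component
  have hstep2 : ∀ u' : Fin 2 → k, ((0 : Fin 2 → k), u') ∈ V1 → ∃ t : k, u' = t • e₀ := by
    intro u' hu'
    let K : AddSubgroup ((Fin 2 → k) × (Fin 2 → k)) :=
      { carrier := {v | v.1 = 0 ∧ ∃ t : k, v.2 = t • e₀}
        zero_mem' := ⟨rfl, 0, by rw [zero_smul]; rfl⟩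
        add_mem' := by
          rintro v w ⟨hv1, t, hv2⟩ ⟨hw1, t', hw2⟩
          exact ⟨by rw [Prod.fst_add, hv1, hw1, add_zero], t + t',
            by rw [Prod.snd_add, hv2, hw2, add_smul]⟩
        neg_mem' := by
          rintro v ⟨hv1, t, hv2⟩
          exact ⟨by rw [Prod.fst_neg, hv1, neg_zero], -t, by rw [Prod.snd_neg, hv2, neg_smul]⟩ }
    have hK : ∀ σ ∈ inertiaQ p, ∀ y ∈ K, σ • y ∈ K := by
      rintro σ hσ y ⟨hy1, t, hy2⟩
      obtain ⟨s, hs⟩ := hIe₀ σ hσ
      refine ⟨?_, t * s, ?_⟩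
      · show (rbar σ).mulVec y.1 = 0
        rw [hy1, Matrix.mulVec_zero]
      · show (rbar σ).mulVec y.2 + (b σ).mulVec y.1 = (t * s) • e₀
        rw [hy1, hy2, Matrix.mulVec_zero, add_zero, Matrix.mulVec_smul, hs, smul_smul]
    have hxK : ∀ σ ∈ inertiaQ p, σ • ((0 : Fin 2 → k), u') - ((0 : Fin 2 → k), u') ∈ K := by
      intro σ hσ
      obtain ⟨t, ht⟩ := h1 σ hσ u'
      refine ⟨?_, t, ?_⟩
      · show (rbar σ).mulVec 0 - 0 = 0
        rw [Matrix.mulVec_zero, sub_zero]
      · show (rbar σ).mulVec u' + (b σ).mulVec 0 - u' = t • e₀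
        rw [Matrix.mulVec_zero, add_zero, ht]
    have := flat_mem_of_smul_sub_mem p hp2 hflat' hpM K hK (hV1 ▸ hu') hxK
    exact this.2
  -- **Step 3**: a lift of `e₀` in `V1`
  obtain ⟨e', he'⟩ : ∃ e' : Fin 2 → k, (e₀, e') ∈ V1 := by
    obtain ⟨σ₀, hσ₀, hne⟩ := h2
    have hex : ∃ u₀ : Fin 2 → k, (rbar σ₀).mulVec u₀ - u₀ ≠ 0 := by
      by_contra hcon
      push Not at hcon
      apply hne
      apply Matrix.toLin'.injective
      apply LinearMap.ext
      intro u
      rw [Matrix.toLin'_apply, Matrix.toLin'_one, LinearMap.id_apply]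
      exact sub_eq_zero.mp (hcon u)
    obtain ⟨u₀, hu₀⟩ := hex
    obtain ⟨t₀, ht₀⟩ := h1 σ₀ hσ₀ u₀
    have ht₀0 : t₀ ≠ 0 := by
      intro h0
      rw [h0, zero_smul] at ht₀
      exact hu₀ ht₀
    have hmem : σ₀ • (u₀, (0 : Fin 2 → k)) - (u₀, (0 : Fin 2 → k)) ∈ V1 := by
      rw [hV1]; exact FunModel.smul_sub_mem_augSub hσ₀ _
    have hmem' := hV1smul t₀⁻¹ _ hmem
    refine ⟨t₀⁻¹ • (b σ₀).mulVec u₀, ?_⟩
    have heq : t₀⁻¹ • (σ₀ • (u₀, (0 : Fin 2 → k)) - (u₀, (0 : Fin 2 → k)))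
        = (e₀, t₀⁻¹ • (b σ₀).mulVec u₀) := by
      rw [hsmul]
      apply Prod.ext
      · show t₀⁻¹ • ((rbar σ₀).mulVec u₀ - u₀) = e₀
        rw [ht₀, smul_smul, inv_mul_cancel₀ ht₀0, one_smul]
      · show t₀⁻¹ • ((rbar σ₀).mulVec 0 + (b σ₀).mulVec u₀ - 0) = t₀⁻¹ • (b σ₀).mulVec u₀
        rw [Matrix.mulVec_zero, zero_add, sub_zero]
    rwa [heq] at hmem'
  -- **Step 4**: description of `V1`
  have hstep4 : ∀ v ∈ V1, ∃ s t : k, v.1 = s • e₀ ∧ v.2 = s • e' + t • e₀ := by
    intro v hv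
    obtain ⟨s, hs⟩ := hV1fst v hv
    have hmem : v - s • (e₀, e') ∈ V1 := V1.sub_mem hv (hV1smul s _ he')
    have heq : v - s • (e₀, e') = ((0 : Fin 2 → k), v.2 - s • e') := by
      apply Prod.ext
      · show v.1 - s • e₀ = 0
        rw [hs, sub_self]
      · rfl
    rw [heq] at hmem
    obtain ⟨t, ht⟩ := hstep2 _ hmem
    exact ⟨s, t, hs, by rw [← ht]; abel⟩
  -- the matrix `X` with `X e₀ = e'`
  obtain ⟨X, hX⟩ : ∃ X : M2 k, X.mulVec e₀ = e' := by
    have hi : ∃ i, e₀ i ≠ 0 := by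
      by_contra hcon
      push Not at hcon
      exact he₀ (funext hcon)
    obtain ⟨i, hi⟩ := hi
    refine ⟨Matrix.vecMulVec e' (Pi.single i (e₀ i)⁻¹), ?_⟩
    funext j
    rw [Matrix.mulVec, Matrix.vecMulVec]
    simp only [Matrix.of_apply, dotProduct]
    rw [Finset.sum_eq_single i]
    · rw [Pi.single_eq_same, mul_assoc, inv_mul_cancel₀ hi, mul_one]
    · intro l _ hl
      rw [Pi.single_eq_of_ne hl, mul_zero, zero_mul]
    · intro h; exact absurd (Finset.mem_univ i) h
  refine ⟨X, fun g hg => ?_, fun σ hσ u => ?_⟩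
  · -- **Step 5**
    have hnorm : ∀ σ ∈ inertiaQ p, g * σ * g⁻¹ ∈ inertiaQ p := by
      intro σ hσ
      obtain ⟨τ, hτ, rfl⟩ := hσ
      have hnormal : ((padicPlace p).inertiaSubgroup ℚ).Normal := by
        unfold ValuationSubring.inertiaSubgroup
        exact MonoidHom.normal_ker _
      have := hnormal.conj_mem τ hτ ⟨g, hg⟩
      exact ⟨_, this, rfl⟩
    have hmem : g • (e₀, e') ∈ V1 := by
      rw [hV1] at he' ⊢
      exact smul_mem_augSub_of_normalizes _ hnorm he'
    obtain ⟨s, t, hs1, hs2⟩ := hstep4 _ hmem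
    have hs1' : (rbar g).mulVec e₀ = s • e₀ := hs1
    have hs2' : (rbar g).mulVec e' + (b g).mulVec e₀ = s • e' + t • e₀ := hs2
    refine ⟨t, ?_⟩
    rw [Matrix.sub_mulVec, Matrix.sub_mulVec, ← Matrix.mulVec_mulVec, ← Matrix.mulVec_mulVec, hX,
      hs1', Matrix.mulVec_smul, hX]
    have : (b g).mulVec e₀ = s • e' + t • e₀ - (rbar g).mulVec e' := by
      rw [← hs2']; abel
    rw [this]
    abel
  · -- **Step 6**
    have hmem : σ • (u, (0 : Fin 2 → k)) - (u, (0 : Fin 2 → k)) ∈ V1 := by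
      rw [hV1]; exact FunModel.smul_sub_mem_augSub hσ _
    obtain ⟨s, t, hs1, hs2⟩ := hstep4 _ hmem
    have hs1' : (rbar σ).mulVec u - u = s • e₀ := hs1
    have hs2' : (rbar σ).mulVec 0 + (b σ).mulVec u - 0 = s • e' + t • e₀ := hs2
    rw [Matrix.mulVec_zero, zero_add, sub_zero] at hs2'
    obtain ⟨t', ht'⟩ := h1 σ hσ (X.mulVec u)
    refine ⟨t + t', ?_⟩
    rw [Matrix.sub_mulVec, Matrix.sub_mulVec, ← Matrix.mulVec_mulVec, ← Matrix.mulVec_mulVec, hs2']
    have h3 : X.mulVec ((rbar σ).mulVec u) = X.mulVec u + s • e' := by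
      have : (rbar σ).mulVec u = u + s • e₀ := by rw [← hs1']; abel
      rw [this, Matrix.mulVec_add, Matrix.mulVec_smul, hX]
    rw [h3, add_smul, ← ht']
    abel

end Structure

end Fermat.Agent.TW.Flat
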