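/-
F2 (flat local condition at p), reducible case — **(G1)**: a flat residual representation
`rbar : Gal(ℚ̄/ℚ) → GL₂(k)` with cyclotomic determinant which is reducible on the decomposition
group at `p` (`p` odd) is ordinary: there is a line `k e₀`, stable under the decomposition group,
such that inertia acts trivially on `k² / k e₀` (and nontrivially on `k²`).
-/
import Mathlib
import Fermat.Agent.TW.FlatOrd1_helper8
import Fermat.Agent.TW.CycloRam_helper6
import Fermat.Agent.CFT.LocForm.FrobAt_helper4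

set_option autoImplicit false
set_option linter.unusedSectionVars false
set_option linter.style.haveILetI false

namespace Fermat.Agent.TW.Flat

open GaloisRep Fermat.Agent.Ram Fermat.Agent.S53 Fermat.Agent.TW Matrix

local notation "Ω" => AlgebraicClosure ℚ

section TwoByTwo

variable {k : Type} [Field k]

/-- vectors `w` with `det [e | w] = 0` are multiples of `e ≠ 0`. -/
lemma exists_smul_eq_of_det_eq_zero {e w : Fin 2 → k} (he : e ≠ 0)
    (h : e 0 * w 1 - e 1 * w 0 = 0) : ∃ t : k, w = t • e := by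
  by_cases h0 : e 0 = 0
  · have h1 : e 1 ≠ 0 := by
      intro h1
      apply he
      funext i
      fin_cases i
      · exact h0
      · exact h1
    refine ⟨w 1 / e 1, ?_⟩
    funext i
    fin_cases i
    · show w 0 = w 1 / e 1 * e 0
      rw [h0, zero_mul, zero_sub, neg_eq_zero] at h
      rw [h0, mul_zero]
      exact (mul_eq_zero.mp h).resolve_left h1
    · show w 1 = w 1 / e 1 * e 1
      rw [div_mul_cancel₀ _ h1]
  · refine ⟨w 0 / e 0, ?_⟩
    funext i
    fin_cases i
    · show w 0 = w 0 / e 0 * e 0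
      rw [div_mul_cancel₀ _ h0]
    · show w 1 = w 0 / e 0 * e 1
      field_simp
      linear_combination h

/-- a matrix with `A e = n e`, `det A = n ≠ 0` acts trivially modulo the line `k e`. -/
lemma exists_mulVec_sub_eq_smul {A : M2 k} {e : Fin 2 → k} (he : e ≠ 0) {n : k} (hn : n ≠ 0)
    (hAe : A.mulVec e = n • e) (hdet : A.det = n) (v : Fin 2 → k) :
    ∃ t : k, A.mulVec v - v = t • e := by
  apply exists_smul_eq_of_det_eq_zero he
  have h0 := congrFun hAe 0
  have h1 := congrFun hAe 1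
  simp only [Matrix.mulVec, dotProduct, Fin.sum_univ_two, Pi.smul_apply, smul_eq_mul] at h0 h1
  rw [Matrix.det_fin_two] at hdet
  simp only [Pi.sub_apply, Matrix.mulVec, dotProduct, Fin.sum_univ_two]
  apply mul_left_cancel₀ hn
  rw [mul_zero]
  linear_combination (v 1 * e 0 - v 0 * e 1) * hdet - (v 0 * A 1 0 + v 1 * A 1 1) * h0
    + (v 0 * A 0 0 + v 1 * A 0 1) * h1

end TwoByTwo

section Main

variable {k : Type} [Field k] [Finite k]

/-- the action of `Gal(ℚ̄/ℚ)` on `k²` through `rbar`. -/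
@[reducible] noncomputable def vecAction (rbar : Gal →* M2 k) :
    DistribMulAction Gal (Fin 2 → k) where
  smul σ v := (rbar σ).mulVec v
  one_smul v := by
    show (rbar 1).mulVec v = v
    rw [map_one, Matrix.one_mulVec]
  mul_smul σ τ v := by
    show (rbar (σ * τ)).mulVec v = (rbar σ).mulVec ((rbar τ).mulVec v)
    rw [map_mul, Matrix.mulVec_mulVec]
  smul_zero σ := Matrix.mulVec_zero _
  smul_add σ v w := Matrix.mulVec_add _ _ _

lemma padicPlace_liesOverPrime' (p : ℕ) [Fact p.Prime] : (padicPlace p).LiesOverPrime p := by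
  show (p : Ω) ∈ (padicPlace p).nonunits
  rw [← qbarNorm_lt_one_iff]
  exact qbarNorm_p_lt_one p

lemma mulVec_inv_eq_of_mulVec_eq (rbar : Gal →* M2 k) (g : Gal) {e : Fin 2 → k} {c : k}
    (he : e ≠ 0) (h : (rbar g).mulVec e = c • e) :
    c ≠ 0 ∧ (rbar g⁻¹).mulVec e = c⁻¹ • e := by
  have h1 : (rbar g⁻¹).mulVec ((rbar g).mulVec e) = e := by
    rw [Matrix.mulVec_mulVec, ← map_mul, inv_mul_cancel, map_one, Matrix.one_mulVec]
  have hc : c ≠ 0 := by
    intro hc
    rw [hc, zero_smul] at h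
    rw [h, Matrix.mulVec_zero] at h1
    exact he h1.symm
  refine ⟨hc, ?_⟩
  rw [h, Matrix.mulVec_smul] at h1
  have h2 := congrArg (fun w => c⁻¹ • w) h1
  simp only [smul_smul, inv_mul_cancel₀ hc, one_smul] at h2
  exact h2

/-- **(G1)**: a flat residual representation with cyclotomic determinant which is reducible on the
decomposition group at `p` has an ordinary line. -/
theorem exists_ordinary_line_of_flat {p : ℕ} [Fact p.Prime] (hp2 : p ≠ 2) (hpk : (p : k) = 0)
    (rbar : Gal →* M2 k)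
    (hflat : IsFlatGaloisModule p (Fin 2 → k) (fun σ v => (rbar σ).mulVec v))
    (hdet : ∀ (σ : Gal) (a : ℕ), (∀ μ : Ω, μ ^ p = 1 → σ μ = μ ^ a) → (rbar σ).det = a)
    (hline : ∃ e₁ : Fin 2 → k, e₁ ≠ 0 ∧
      ∀ g ∈ (padicPlace p).decompositionSubgroup ℚ, ∃ t : k, (rbar g).mulVec e₁ = t • e₁) :
    ∃ e₀ : Fin 2 → k, e₀ ≠ 0 ∧
      (∀ g ∈ (padicPlace p).decompositionSubgroup ℚ, ∃ t : k, (rbar g).mulVec e₀ = t • e₀) ∧
      (∀ σ ∈ inertiaQ p, ∀ u : Fin 2 → k, ∃ t : k, (rbar σ).mulVec u - u = t • e₀) ∧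
      ∃ σ ∈ inertiaQ p, rbar σ ≠ 1 := by
  classical
  have hp : p.Prime := Fact.out
  haveI : CharP k p := (CharP.charP_iff_prime_eq_zero hp).mpr hpk
  letI := vecAction rbar
  have hsmul : ∀ (σ : Gal) (v : Fin 2 → k), σ • v = (rbar σ).mulVec v := fun _ _ => rfl
  have hflat' : IsFlatGaloisModule p (Fin 2 → k) (fun σ m => σ • m) := hflat
  have hpM : ∀ m : Fin 2 → k, p • m = 0 := by
    intro w
    funext i
    rw [Pi.smul_apply, nsmul_eq_mul, hpk, zero_mul, Pi.zero_apply]
  have hP := padicPlace_liesOverPrime' p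
  -- inertia acts nontrivially
  obtain ⟨σ₀, hσ₀, hσ₀det⟩ := exists_mem_inertia_det_ne_one hp hp2 hpk rbar hdet hP
  have hσ₀ne : rbar σ₀ ≠ 1 := fun h => hσ₀det (by rw [h, Matrix.det_one])
  obtain ⟨M0, hM0⟩ : ∃ M0 : AddSubgroup (Fin 2 → k),
      M0 = FunModel.augSub (inertiaQ p) (Fin 2 → k) := ⟨_, rfl⟩
  have hgen : ∀ σ ∈ inertiaQ p, ∀ u : Fin 2 → k, (rbar σ).mulVec u - u ∈ M0 := by
    intro σ hσ u
    rw [hM0]; exact FunModel.smul_sub_mem_augSub hσ u
  -- `M0` is stable under scalars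
  have hM0smul : ∀ (c : k) (v : Fin 2 → k), v ∈ M0 → c • v ∈ M0 := by
    intro c v hv
    rw [hM0] at hv ⊢
    unfold FunModel.augSub at hv ⊢
    induction hv using AddSubgroup.closure_induction with
    | mem x hx =>
      obtain ⟨σ, hσ, y, rfl⟩ := hx
      apply AddSubgroup.subset_closure
      refine ⟨σ, hσ, c • y, ?_⟩
      rw [smul_sub, hsmul, hsmul, Matrix.mulVec_smul]
    | zero => rw [smul_zero]; exact AddSubgroup.zero_mem _
    | add a b' _ _ ha hb' => rw [smul_add]; exact AddSubgroup.add_mem _ ha hb'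
    | neg a _ ha => rw [smul_neg]; exact AddSubgroup.neg_mem _ ha
  -- `M0` is stable under the decomposition group
  have hM0D : ∀ g ∈ (padicPlace p).decompositionSubgroup ℚ, ∀ v ∈ M0, (rbar g).mulVec v ∈ M0 := by
    intro g hg v hv
    have hnorm : ∀ σ ∈ inertiaQ p, g * σ * g⁻¹ ∈ inertiaQ p := by
      intro σ hσ
      obtain ⟨τ, hτ, rfl⟩ := hσ
      have hnormal : ((padicPlace p).inertiaSubgroup ℚ).Normal := by
        unfold ValuationSubring.inertiaSubgroup
        exact MonoidHom.normal_ker _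
      have := hnormal.conj_mem τ hτ ⟨g, hg⟩
      exact ⟨_, this, rfl⟩
    rw [hM0] at hv ⊢
    exact smul_mem_augSub_of_normalizes _ hnorm hv
  -- there is a nonzero element in `M0`
  have hex : ∃ x ∈ M0, x ≠ 0 := by
    by_contra hcon
    push Not at hcon
    apply hσ₀ne
    apply Matrix.toLin'.injective
    apply LinearMap.ext
    intro u
    rw [Matrix.toLin'_apply, Matrix.toLin'_one, LinearMap.id_apply]
    exact sub_eq_zero.mp (hcon _ (hgen σ₀ hσ₀ u))
  obtain ⟨x, hxM0, hx0⟩ := hex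
  by_cases hall : ∀ y ∈ M0, ∃ t : k, y = t • x
  · -- `M0` is the line spanned by `x`
    refine ⟨x, hx0, fun g hg => ?_, fun σ hσ u => ?_, σ₀, hσ₀, hσ₀ne⟩
    · exact hall _ (hM0D g hg x hxM0)
    · exact hall _ (hgen σ hσ u)
  · -- `M0` is everything: contradiction
    exfalso
    push Not at hall
    obtain ⟨y, hyM0, hy⟩ := hall
    have hlam : x 0 * y 1 - x 1 * y 0 ≠ 0 := by
      intro h
      obtain ⟨t, ht⟩ := exists_smul_eq_of_det_eq_zero hx0 h
      exact hy t ht
    have htop : ∀ v : Fin 2 → k, v ∈ M0 := by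
      intro v
      obtain ⟨c, hc⟩ : ∃ c : k, c = (x 0 * v 1 - x 1 * v 0) / (x 0 * y 1 - x 1 * y 0) := ⟨_, rfl⟩
      have h1 : x 0 * (v - c • y) 1 - x 1 * (v - c • y) 0 = 0 := by
        simp only [Pi.sub_apply, Pi.smul_apply, smul_eq_mul]
        rw [hc]
        field_simp
        ring
      obtain ⟨t, ht⟩ := exists_smul_eq_of_det_eq_zero hx0 h1
      have h2 : v = t • x + c • y := by rw [← ht]; abel
      rw [h2]
      exact M0.add_mem (hM0smul t x hxM0) (hM0smul c y hyM0)
    obtain ⟨e₁, he₁0, he₁⟩ := hline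
    -- a Frobenius element
    obtain ⟨φ, hφ⟩ := Fermat.Agent.CFT.LocForm.exists_isFrobeniusAt (padicPlace p) hp hP
    have hφD : φ ∈ (padicPlace p).decompositionSubgroup ℚ := hφ.mem_decompositionSubgroup
    have hID : ∀ σ ∈ inertiaQ p, σ ∈ (padicPlace p).decompositionSubgroup ℚ := fun σ hσ =>
      Fermat.Agent.EC.inertiaSubgroupIn_le_decompositionSubgroup' _ hσ
    obtain ⟨c, hc⟩ := he₁ φ hφD
    obtain ⟨hc0, hcinv⟩ := mulVec_inv_eq_of_mulVec_eq rbar φ he₁0 hc
    have key := flat_inertia_char p hp2 hflat' hpM (k := k) he₁0 (hM0 ▸ htop e₁)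
      (fun σ hσ => he₁ σ (hID σ hσ))
      (fun σ hσ c' => by rw [hsmul, hsmul, Matrix.mulVec_smul]) hφ
      (fun σ hσ => by
        obtain ⟨a, ha⟩ := he₁ σ (hID σ hσ)
        rw [hsmul, hsmul, map_mul, map_mul, ← Matrix.mulVec_mulVec, ← Matrix.mulVec_mulVec, hcinv,
          Matrix.mulVec_smul, ha, Matrix.mulVec_smul, Matrix.mulVec_smul, hc, smul_smul,
          smul_smul]
        congr 1
        field_simp)
    -- inertia acts trivially modulo the line `k e₁`
    have htriv : ∀ σ ∈ inertiaQ p, ∀ v : Fin 2 → k, ∃ t : k, (rbar σ).mulVec v - v = t • e₁ := by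
      intro σ hσ v
      obtain ⟨n, hn1, hn2⟩ := key σ hσ
      have hn1' : (rbar σ).mulVec e₁ = (n : k) • e₁ := by
        rw [← hsmul, hn1, Nat.cast_smul_eq_nsmul]
      have hdetσ : (rbar σ).det = (n : k) := hdet σ n hn2
      have hn0 : (n : k) ≠ 0 := by
        obtain ⟨hh, -⟩ := mulVec_inv_eq_of_mulVec_eq rbar σ he₁0 hn1'
        exact hh
      exact exists_mulVec_sub_eq_smul he₁0 hn0 hn1' hdetσ v
    -- apply (Q'') with `K = k e₁`
    let K : AddSubgroup (Fin 2 → k) :=
      { carrier := {v | ∃ t : k, v = t • e₁}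
        zero_mem' := ⟨0, by rw [zero_smul]⟩
        add_mem' := by
          rintro v w ⟨t, rfl⟩ ⟨t', rfl⟩
          exact ⟨t + t', by rw [add_smul]⟩
        neg_mem' := by
          rintro v ⟨t, rfl⟩
          exact ⟨-t, by rw [neg_smul]⟩ }
    have hK : ∀ σ ∈ inertiaQ p, ∀ y ∈ K, σ • y ∈ K := by
      rintro σ hσ y ⟨t, rfl⟩
      obtain ⟨a, ha⟩ := he₁ σ (hID σ hσ)
      exact ⟨t * a, by rw [hsmul, Matrix.mulVec_smul, ha, smul_smul]⟩
    have hallK : ∀ v : Fin 2 → k, v ∈ K := fun v =>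
      flat_mem_of_smul_sub_mem p hp2 hflat' hpM K hK (hM0 ▸ htop v)
        (fun σ hσ => htriv σ hσ v)
    obtain ⟨t, ht⟩ := hallK ![1, 0]
    obtain ⟨t', ht'⟩ := hallK ![0, 1]
    have h00 := congrFun ht 0
    have h01 := congrFun ht 1
    have h10 := congrFun ht' 0
    have h11 := congrFun ht' 1
    simp only [Matrix.cons_val_zero, Matrix.cons_val_one, Pi.smul_apply, smul_eq_mul] at h00 h01 h10 h11
    have ht0 : t ≠ 0 := by
      intro h
      rw [h, zero_mul] at h00
      exact one_ne_zero h00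
    have ht'0 : t' ≠ 0 := by
      intro h
      rw [h, zero_mul] at h11
      exact one_ne_zero h11
    have he1 : e₁ 1 = 0 := (mul_eq_zero.mp h01.symm).resolve_left ht0
    have he0 : e₁ 0 = 0 := (mul_eq_zero.mp h10.symm).resolve_left ht'0
    rw [he1, mul_zero] at h11
    exact one_ne_zero h11

end Main

end Fermat.Agent.TW.Flat
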