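/-
TW (S56) — helper6 — definitions for the reducible flat case (T2'): the Borel `W¹ ⊆ ad⁰` of a line,
the "Selmer" local condition `seCond` (classes with a representative with values in `Y₁`, and in
`Y₀` on inertia) in helper8's literal shape, the generic `seCondOn`, and `funCond` (classes having a
representative in a given additive group of functions, e.g. the Fontaine-bounded ones).
-/
import Mathlib
import Fermat.Agent.TW.LocalCond_helper6
import Fermat.Agent.TW.FlatBdd_helper7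

set_option autoImplicit false
set_option linter.unusedSectionVars false
set_option linter.style.haveILetI false

noncomputable section

namespace Fermat.Agent.TW

open Fermat.Agent.S53 Fermat.Agent.CFT.Sm Fermat.Agent.CFT.Bridge Fermat.Agent.CFT.Arith
  groupCohomology Matrix CategoryTheory ExtCitation

section Abstract

variable {G : Type} [Group G]

/-- classes having a representative cocycle with values in `Y₁`, and in `Y₀` on the subgroup `I` -/
def seCondOn (Y : Rep.{0} ℤ G) (I : Subgroup G) (Y₁ Y₀ : AddSubgroup Y.V) : AddSubgroup (H1 Y) where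
  carrier := {x | ∃ c : cocycles₁ Y, (∀ g, (c : G → Y.V) g ∈ Y₁) ∧
    (∀ g ∈ I, (c : G → Y.V) g ∈ Y₀) ∧ (H1π Y).hom c = x}
  zero_mem' := ⟨0, fun _ => Y₁.zero_mem, fun _ _ => Y₀.zero_mem, map_zero _⟩
  add_mem' := by
    rintro _ _ ⟨c, hc, hc0, rfl⟩ ⟨c', hc', hc0', rfl⟩
    exact ⟨c + c', fun g => Y₁.add_mem (hc g) (hc' g),
      fun g hg => Y₀.add_mem (hc0 g hg) (hc0' g hg), map_add _ _ _⟩
  neg_mem' := by
    rintro _ ⟨c, hc, hc0, rfl⟩
    exact ⟨-c, fun g => Y₁.neg_mem (hc g), fun g hg => Y₀.neg_mem (hc0 g hg), map_neg _ _⟩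

theorem mem_seCondOn (Y : Rep.{0} ℤ G) (I : Subgroup G) (Y₁ Y₀ : AddSubgroup Y.V) (x : H1 Y) :
    x ∈ seCondOn Y I Y₁ Y₀ ↔ ∃ c : cocycles₁ Y, (∀ g, (c : G → Y.V) g ∈ Y₁) ∧
      (∀ g ∈ I, (c : G → Y.V) g ∈ Y₀) ∧ (H1π Y).hom c = x := Iff.rfl

/-- classes having a representative cocycle lying in the additive group of functions `P` -/
def funCond (Y : Rep.{0} ℤ G) (P : AddSubgroup (G → Y.V)) : AddSubgroup (H1 Y) where
  carrier := {x | ∃ c : cocycles₁ Y, (c : G → Y.V) ∈ P ∧ (H1π Y).hom c = x}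
  zero_mem' := ⟨0, P.zero_mem, map_zero _⟩
  add_mem' := by
    rintro _ _ ⟨c, hc, rfl⟩ ⟨c', hc', rfl⟩
    exact ⟨c + c', P.add_mem hc hc', map_add _ _ _⟩
  neg_mem' := by
    rintro _ ⟨c, hc, rfl⟩
    exact ⟨-c, P.neg_mem hc, map_neg _ _⟩

theorem mem_funCond (Y : Rep.{0} ℤ G) (P : AddSubgroup (G → Y.V)) (x : H1 Y) :
    x ∈ funCond Y P ↔ ∃ c : cocycles₁ Y, (c : G → Y.V) ∈ P ∧ (H1π Y).hom c = x := Iff.rfl

end Abstract

section Place

/-- **the "Selmer" local condition** (helper8's literal shape): classes in `H¹(G_v, Y)` having a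
representative with values in `Y₁`, and in `Y₀` on the inertia group -/
def seCond (v : Nat.Primes) (Y : Rep.{0} ℤ (primeLocalGaloisGroup v)) (Y₁ Y₀ : AddSubgroup Y.V) :
    AddSubgroup (H1 Y) :=
  seCondOn Y (locInertia v) Y₁ Y₀

theorem mem_seCond (v : Nat.Primes) (Y : Rep.{0} ℤ (primeLocalGaloisGroup v))
    (Y₁ Y₀ : AddSubgroup Y.V) (x : H1 Y) :
    x ∈ seCond v Y Y₁ Y₀ ↔ ∃ c : cocycles₁ Y,
      (∀ g, (c : primeLocalGaloisGroup v → Y.V) g ∈ Y₁) ∧
      (∀ g ∈ locInertia v, (c : primeLocalGaloisGroup v → Y.V) g ∈ Y₀) ∧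
      (H1π Y).hom c = x := Iff.rfl

variable (p : ℕ) [Fact p.Prime]

/-- the additive group of Fontaine-bounded functions on `G_p` -/
def bddFunSub (V : Type) [AddCommGroup V] :
    AddSubgroup (primeLocalGaloisGroup (pPrime p) → V) where
  carrier := {f | IsBddFun p (fun τ : PadicAlgCl p ≃ₐ[ℚ_[p]] PadicAlgCl p => f τ)}
  zero_mem' := isBddFun_zero
  add_mem' := fun h h' => h.add h'
  neg_mem' := fun h => h.neg

theorem mem_bddFunSub (V : Type) [AddCommGroup V] (f : primeLocalGaloisGroup (pPrime p) → V) :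
    f ∈ bddFunSub p V ↔
      IsBddFun p (fun τ : PadicAlgCl p ≃ₐ[ℚ_[p]] PadicAlgCl p => f τ) := Iff.rfl

theorem bddCond_eq_funCond (Y : Rep.{0} ℤ (primeLocalGaloisGroup (pPrime p))) :
    bddCond p Y = funCond Y (bddFunSub p Y.V) := by
  ext x
  exact Iff.rfl

end Place

section Borel

variable {k : Type} [Field k]

/-- the Borel `W¹ ⊆ ad⁰` of the line `k e₀`: trace-zero matrices stabilising the line -/
def W1 (e₀ : Fin 2 → k) : AddSubgroup (sl2 k) where
  carrier := {w | ∃ t : k, (w : M2 k).mulVec e₀ = t • e₀}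
  zero_mem' := ⟨0, by rw [zero_smul]; exact Matrix.zero_mulVec _⟩
  add_mem' := by
    rintro w w' ⟨t, ht⟩ ⟨t', ht'⟩
    refine ⟨t + t', ?_⟩
    show ((w : M2 k) + (w' : M2 k)).mulVec e₀ = (t + t') • e₀
    rw [Matrix.add_mulVec, ht, ht', add_smul]
  neg_mem' := by
    rintro w ⟨t, ht⟩
    refine ⟨-t, ?_⟩
    show (-(w : M2 k)).mulVec e₀ = (-t) • e₀
    rw [Matrix.neg_mulVec, ht, neg_smul]

theorem mem_W1 (e₀ : Fin 2 → k) (w : sl2 k) :
    w ∈ W1 e₀ ↔ ∃ t : k, (w : M2 k).mulVec e₀ = t • e₀ := Iff.rfl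

theorem W0_le_W1 (e₀ : Fin 2 → k) : W0 e₀ ≤ W1 e₀ := by
  intro w hw
  exact ⟨0, by rw [hw.1, zero_smul]⟩

end Borel

end Fermat.Agent.TW
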