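/-
F2 (flat local condition at p), reducible case — the local condition `flatOrdCond` and
**(T1)**: the restriction to `G_p` of the `ad⁰`-class of a flat deformation `rbar + ε b` of a
residual representation which is reducible at `p` lies in `flatOrdCond p rbar`.

* `isFlatGaloisModule_residual_of_isFlatAt`: a flat deformation to `k[ε]` has a flat residual
  representation (the ideal `(ε)` in the definition of `IsFlatAt`);
* `mulVec_eq_zero_of_trace_eq_zero` (a trace zero matrix with image in a line kills the line);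
* `IsFlatOrdLine p rbar e₀`, `flatOrdLine`, `flatOrdCond`;
* `res_adCocycle_mem_flatOrdCond` (T1).
-/
import Mathlib
import Fermat.Agent.TW.FlatOrd2_helper8
import Fermat.Agent.TW.FlatBdd_helper7
import Fermat.Agent.TW.SeCond_helper6

set_option autoImplicit false
set_option linter.unusedSectionVars false
set_option linter.style.haveILetI false

namespace Fermat.Agent.TW

open GaloisRep Fermat.Agent.Ram Fermat.Agent.S53 Fermat.Agent.TW.Flat Matrix groupCohomology
  CategoryTheory ExtCitation TrivSqZeroExt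

local notation "Ω" => AlgebraicClosure ℚ

section Residual

variable {k : Type} [Field k]

/-- the ideal `(ε)` of the dual numbers. -/
def epsIdeal (k : Type) [Field k] : Ideal (DualNumber k) :=
  RingHom.ker (TrivSqZeroExt.fstHom k k k).toRingHom

lemma mem_epsIdeal (a : DualNumber k) : a ∈ epsIdeal k ↔ a.fst = 0 := Iff.rfl

lemma fstV_add (v w : Fin 2 → DualNumber k) : fstV (v + w) = fstV v + fstV w := by
  funext i
  simp [fstV]

lemma fstV_eq_zero_of_mem_smul_top {v : Fin 2 → DualNumber k}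
    (hv : v ∈ epsIdeal k • (⊤ : Submodule (DualNumber k) (Fin 2 → DualNumber k))) :
    fstV v = 0 := by
  refine Submodule.smul_induction_on (p := fun v => fstV v = 0) hv (fun a ha w _ => ?_)
    (fun x y hx hy => ?_)
  · rw [fstV_smul, (mem_epsIdeal a).1 ha, zero_smul]
  · rw [fstV_add, hx, hy, add_zero]

lemma mem_smul_top_of_fstV_eq_zero {v : Fin 2 → DualNumber k} (hv : fstV v = 0) :
    v ∈ epsIdeal k • (⊤ : Submodule (DualNumber k) (Fin 2 → DualNumber k)) := by
  apply mem_smul_top_of_forall_mem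
  intro i
  rw [mem_epsIdeal]
  exact congrFun hv i

lemma inlV_add (u u' : Fin 2 → k) : inlV (u + u') = inlV u + inlV u' := by
  funext i
  simp [inlV]

/-- `u ↦ [u]`, from `k²` to the quotient of `(k[ε])²` by `(ε)`. -/
noncomputable def residualHom (k : Type) [Field k] :
    (Fin 2 → k) →+ ((Fin 2 → DualNumber k) ⧸
      (epsIdeal k • (⊤ : Submodule (DualNumber k) (Fin 2 → DualNumber k)))) where
  toFun := fun u => Submodule.Quotient.mk (inlV u)
  map_zero' := by
    have : inlV (0 : Fin 2 → k) = 0 := by funext i; simp [inlV]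
    rw [this, Submodule.Quotient.mk_zero]
  map_add' := fun u u' => by
    rw [inlV_add, Submodule.Quotient.mk_add]

lemma residualHom_apply (u : Fin 2 → k) :
    residualHom k u = Submodule.Quotient.mk (inlV u) := rfl

lemma residualHom_bijective : Function.Bijective (residualHom k) := by
  constructor
  · intro u u' h
    rw [residualHom_apply, residualHom_apply, Submodule.Quotient.eq] at h
    have h2 := fstV_eq_zero_of_mem_smul_top h
    rw [fstV_sub, fstV_inlV, fstV_inlV] at h2
    exact sub_eq_zero.1 h2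
  · intro x
    obtain ⟨v, rfl⟩ := Submodule.Quotient.mk_surjective _ x
    refine ⟨fstV v, ?_⟩
    rw [residualHom_apply, Submodule.Quotient.eq]
    apply mem_smul_top_of_fstV_eq_zero
    rw [fstV_sub, fstV_inlV, sub_self]

/-- the residual module `k²` as the quotient of `(k[ε])²` by `(ε)`. -/
noncomputable def residualEquiv (k : Type) [Field k] :
    (Fin 2 → k) ≃+ ((Fin 2 → DualNumber k) ⧸
      (epsIdeal k • (⊤ : Submodule (DualNumber k) (Fin 2 → DualNumber k)))) :=
  AddEquiv.ofBijective (residualHom k) residualHom_bijective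

lemma residualEquiv_apply (u : Fin 2 → k) :
    residualEquiv k u = Submodule.Quotient.mk (inlV u) := rfl

lemma residualEquiv_symm_mk (v : Fin 2 → DualNumber k) :
    (residualEquiv k).symm (Submodule.Quotient.mk v) = fstV v := by
  rw [AddEquiv.symm_apply_eq, residualEquiv_apply, Submodule.Quotient.eq]
  apply mem_smul_top_of_fstV_eq_zero
  rw [fstV_sub, fstV_inlV, sub_self]

/-- **a flat deformation to the dual numbers has a flat residual representation.** -/
theorem isFlatGaloisModule_residual_of_isFlatAt [Finite k] {p : ℕ} {rbar : Gal →* M2 k}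
    {b : Gal → M2 k} (hb : IsTwCocycle rbar b) (hc : MatCont (defOfCocycle rbar b hb))
    (hflat : (ofMatrix (defOfCocycle rbar b hb) hc).IsFlatAt p) :
    IsFlatGaloisModule p (Fin 2 → k) (fun σ v => (rbar σ).mulVec v) := by
  haveI : Finite (DualNumber k) := inferInstanceAs (Finite (k × k))
  rw [isFlatAt_iff] at hflat
  have hfin : Finite (DualNumber k ⧸ epsIdeal k) :=
    Finite.of_surjective _ Ideal.Quotient.mk_surjective
  have h2 := hflat.2 (epsIdeal k) hfin
  have h3 : IsFlatGaloisModule p ((Fin 2 → DualNumber k) ⧸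
      (epsIdeal k • (⊤ : Submodule (DualNumber k) (Fin 2 → DualNumber k))))
      (fun σ => ⇑((ofMatrix (defOfCocycle rbar b hb) hc).levelAction (epsIdeal k) σ)) := h2
  refine IsFlatGaloisModule.of_equiv (residualEquiv k).symm ?_ h3
  intro σ x
  obtain ⟨v, rfl⟩ := Submodule.Quotient.mk_surjective _ x
  show (residualEquiv k).symm (Submodule.Quotient.mk ((defOfCocycle rbar b hb σ).mulVec v)) =
    (rbar σ).mulVec ((residualEquiv k).symm (Submodule.Quotient.mk v))
  rw [residualEquiv_symm_mk, residualEquiv_symm_mk, defOfCocycle_apply, fstV_mulVec_ofParts]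

end Residual

section Conditions

variable {k : Type} [Field k]

/-- a trace zero matrix with image in the line `k e₀` kills `e₀`. -/
lemma mulVec_eq_zero_of_trace_eq_zero {w : M2 k} {e₀ : Fin 2 → k} (htr : w.trace = 0)
    (h : ∀ u : Fin 2 → k, ∃ t : k, w.mulVec u = t • e₀) : w.mulVec e₀ = 0 := by
  obtain ⟨t0, h0⟩ := h ![1, 0]
  obtain ⟨t1, h1⟩ := h ![0, 1]
  have h00 := congrFun h0 0
  have h01 := congrFun h0 1
  have h10 := congrFun h1 0
  have h11 := congrFun h1 1
  simp only [Matrix.mulVec, dotProduct, Fin.sum_univ_two, Matrix.cons_val_zero,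
    Matrix.cons_val_one, mul_one, mul_zero, add_zero, zero_add, Pi.smul_apply, smul_eq_mul]
    at h00 h01 h10 h11
  rw [Matrix.trace_fin_two] at htr
  funext i
  fin_cases i
  · show (w.mulVec e₀) 0 = 0
    simp only [Matrix.mulVec, dotProduct, Fin.sum_univ_two]
    rw [h00, h10]
    have : t0 * e₀ 0 + t1 * e₀ 1 = 0 := by rw [← h00, ← h11]; exact htr
    linear_combination e₀ 0 * this
  · show (w.mulVec e₀) 1 = 0
    simp only [Matrix.mulVec, dotProduct, Fin.sum_univ_two]
    rw [h01, h11]
    have : t0 * e₀ 0 + t1 * e₀ 1 = 0 := by rw [← h00, ← h11]; exact htr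
    linear_combination e₀ 1 * this

variable (p : ℕ) [Fact p.Prime]

/-- `e₀` spans a flat ordinary line of `rbar` at `p`: `rbar` is flat, the line is stable under the
decomposition group, inertia acts trivially on the quotient and nontrivially on `k²`. -/
def IsFlatOrdLine (rbar : Gal →* M2 k) (e₀ : Fin 2 → k) : Prop :=
  IsFlatGaloisModule p (Fin 2 → k) (fun σ v => (rbar σ).mulVec v) ∧ e₀ ≠ 0 ∧
  (∀ g ∈ (padicPlace p).decompositionSubgroup ℚ, ∃ t : k, (rbar g).mulVec e₀ = t • e₀) ∧
  (∀ σ ∈ inertiaQ p, ∀ u : Fin 2 → k, ∃ t : k, (rbar σ).mulVec u - u = t • e₀) ∧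
  ∃ σ ∈ inertiaQ p, rbar σ ≠ 1

/-- the flat ordinary line of `rbar` (junk value `0` if there is none). -/
noncomputable def flatOrdLine (rbar : Gal →* M2 k) : Fin 2 → k :=
  open scoped Classical in
  if h : ∃ e₀ : Fin 2 → k, IsFlatOrdLine p rbar e₀ then h.choose else 0

theorem isFlatOrdLine_flatOrdLine {rbar : Gal →* M2 k}
    (h : ∃ e₀ : Fin 2 → k, IsFlatOrdLine p rbar e₀) : IsFlatOrdLine p rbar (flatOrdLine p rbar) := by
  unfold flatOrdLine
  rw [dif_pos h]
  exact h.choose_spec

/-- **the flat local condition at `p`, reducible case**: classes having a representative which is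
Borel-valued and `W⁰`-valued on inertia, and a Fontaine-bounded representative (`⊥` if `rbar` has no
flat ordinary line). -/
noncomputable def flatOrdCond (rbar : Gal →* M2 k) :
    AddSubgroup (H1 (Rep.res (primeLocalToGlobal (pPrime p)) (adRep rbar))) :=
  open scoped Classical in
  if ∃ e₀ : Fin 2 → k, IsFlatOrdLine p rbar e₀ then
    seCond (pPrime p) (Rep.res (primeLocalToGlobal (pPrime p)) (adRep rbar))
      (W1 (flatOrdLine p rbar)) (W0 (flatOrdLine p rbar)) ⊓
    bddCond p (Rep.res (primeLocalToGlobal (pPrime p)) (adRep rbar))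
  else ⊥

theorem flatOrdCond_of_exists {rbar : Gal →* M2 k}
    (h : ∃ e₀ : Fin 2 → k, IsFlatOrdLine p rbar e₀) :
    flatOrdCond p rbar =
      seCond (pPrime p) (Rep.res (primeLocalToGlobal (pPrime p)) (adRep rbar))
        (W1 (flatOrdLine p rbar)) (W0 (flatOrdLine p rbar)) ⊓
      bddCond p (Rep.res (primeLocalToGlobal (pPrime p)) (adRep rbar)) := by
  unfold flatOrdCond
  rw [if_pos h]

theorem flatOrdCond_of_not_exists {rbar : Gal →* M2 k}
    (h : ¬ ∃ e₀ : Fin 2 → k, IsFlatOrdLine p rbar e₀) : flatOrdCond p rbar = ⊥ := by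
  unfold flatOrdCond
  rw [if_neg h]

end Conditions

section T1

variable {k : Type} [Field k] [Finite k] {p : ℕ} [hp : Fact p.Prime]

/-- **(T1), flat reducible case.** For a deformation `rbar + ε b` with cyclotomic determinant which
is flat at `p`, where `rbar` is reducible on the decomposition group at `p`, the restriction to
`G_p` of its `ad⁰`-class lies in `flatOrdCond p rbar`. -/
theorem res_adCocycle_mem_flatOrdCond (hp2 : p ≠ 2) (hpk : (p : k) = 0) {rbar : Gal →* M2 k}
    {b : Gal → M2 k} (hb : IsTwCocycle rbar b) (hc : MatCont (defOfCocycle rbar b hb))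
    (hdet : (ofMatrix (defOfCocycle rbar b hb) hc).DetIsCyclotomic p)
    (hflat : (ofMatrix (defOfCocycle rbar b hb) hc).IsFlatAt p)
    (htr : ∀ σ, Matrix.trace (b σ * rbar σ⁻¹) = 0)
    (hline : ∃ e₁ : Fin 2 → k, e₁ ≠ 0 ∧
      ∀ g ∈ (padicPlace p).decompositionSubgroup ℚ, ∃ t : k, (rbar g).mulVec e₁ = t • e₁) :
    (groupCohomology.map (primeLocalToGlobal (pPrime p))
        (𝟙 (Rep.res (primeLocalToGlobal (pPrime p)) (adRep rbar))) 1).hom
      ((H1π (adRep rbar)).hom (adCocycle hb htr)) ∈ flatOrdCond p rbar := by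
  haveI : Finite (DualNumber k) := inferInstanceAs (Finite (k × k))
  haveI : CharP k p := (CharP.charP_iff_prime_eq_zero hp.out).mpr hpk
  have h2 : (2 : k) ≠ 0 := by
    intro h
    have h3 : ((2 : ℕ) : k) = 0 := by exact_mod_cast h
    have h4 := (CharP.cast_eq_zero_iff k p 2).1 h3
    exact hp2 ((Nat.prime_dvd_prime_iff_eq hp.out Nat.prime_two).1 h4)
  -- flatness of the deformation and of the residual representation
  have hM := isFlatGaloisModule_of_isFlatAt_ofMatrix (defOfCocycle rbar b hb) hc hflat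
  have hres := isFlatGaloisModule_residual_of_isFlatAt hb hc hflat
  have hdet' := det_eq_of_detIsCyclotomic_defOfCocycle hpk hb hc hdet
  -- the ordinary line
  obtain ⟨e₁, he₁0, he₁D, he₁I, he₁N⟩ := exists_ordinary_line_of_flat hp2 hpk rbar hres hdet' hline
  have hex : ∃ e₀ : Fin 2 → k, IsFlatOrdLine p rbar e₀ := ⟨e₁, hres, he₁0, he₁D, he₁I, he₁N⟩
  obtain ⟨-, he₀, hD, hI, hN⟩ := isFlatOrdLine_flatOrdLine p hex
  rw [flatOrdCond_of_exists p hex]
  obtain ⟨e₀, hdef⟩ : ∃ e₀ : Fin 2 → k, e₀ = flatOrdLine p rbar := ⟨_, rfl⟩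
  rw [← hdef] at he₀ hD hI ⊢
  -- the normal form
  obtain ⟨X, hXD, hXI⟩ := exists_ordinary_normal_form_of_flat hp2 hpk hb hM he₀ hI hN
  -- the bounded field
  have hpM : ∀ m : Fin 2 → DualNumber k, p • m = 0 := by
    intro m
    have hp0 : ((p : ℕ) : DualNumber k) = 0 := by
      rw [← TrivSqZeroExt.inl_natCast, hpk, TrivSqZeroExt.inl_zero]
    rw [← Nat.cast_smul_eq_nsmul (DualNumber k), hp0, zero_smul]
  obtain ⟨L, hL1, hL2, hL3, hL4⟩ :=
    Flat.exists_fontaineBdd_field_of_isFlatGaloisModule p _ hM hpM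
  -- the representative
  have hcls := H1π_resCocycleSub (primeLocalToGlobal (pPrime p)) (adRep rbar) (adCocycle hb htr)
    (trZeroPart h2 X)
  suffices hsuff : (∀ τ, ((resCocycleSub (primeLocalToGlobal (pPrime p)) (adRep rbar)
        (adCocycle hb htr) (trZeroPart h2 X) : cocycles₁ _) :
          primeLocalGaloisGroup (pPrime p) → _) τ ∈ W1 e₀) ∧
      (∀ τ ∈ locInertia (pPrime p), ((resCocycleSub (primeLocalToGlobal (pPrime p)) (adRep rbar)
        (adCocycle hb htr) (trZeroPart h2 X) : cocycles₁ _) :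
          primeLocalGaloisGroup (pPrime p) → _) τ ∈ W0 e₀) ∧
      IsBddFun p (fun τ : PadicAlgCl p ≃ₐ[ℚ_[p]] PadicAlgCl p =>
        ((resCocycleSub (primeLocalToGlobal (pPrime p)) (adRep rbar)
          (adCocycle hb htr) (trZeroPart h2 X) : cocycles₁ _) :
            primeLocalGaloisGroup (pPrime p) → _) τ) by
    exact ⟨⟨_, hsuff.1, hsuff.2.1, hcls⟩, ⟨_, hsuff.2.2, hcls⟩⟩
  have hval : ∀ (σ : Gal) (w : sl2 k), (w : M2 k) = b σ * rbar σ⁻¹ +
      (rbar σ * ((trZeroPart h2 X : sl2 k) : M2 k) * rbar σ⁻¹ -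
        ((trZeroPart h2 X : sl2 k) : M2 k)) →
      (w : M2 k) = (b σ - (X * rbar σ - rbar σ * X)) * rbar σ⁻¹ := by
    intro σ w hw
    rw [hw, conj_trZeroPart_sub, sub_mul, sub_mul, mul_assoc X, map_mul_map_inv, mul_one]
    abel
  refine ⟨fun τ => ?_, fun τ hτ => ?_, ?_⟩
  · -- Borel-valued
    have hσD := primeLocalToGlobal_mem_decompositionSubgroup (pPrime p) τ
    obtain ⟨σ, hσ⟩ : ∃ σ : Gal, σ = primeLocalToGlobal (pPrime p) τ := ⟨_, rfl⟩
    rw [← hσ] at hσD
    obtain ⟨x₁, hx₁⟩ := hD _ (inv_mem hσD)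
    obtain ⟨t, ht⟩ := hXD _ hσD
    have key : ∀ w : sl2 k, (w : M2 k) = b σ * rbar σ⁻¹ +
        (rbar σ * ((trZeroPart h2 X : sl2 k) : M2 k) * rbar σ⁻¹ -
          ((trZeroPart h2 X : sl2 k) : M2 k)) → w ∈ W1 e₀ := by
      intro w hw
      rw [mem_W1, hval σ w hw]
      exact ⟨x₁ * t, by rw [← Matrix.mulVec_mulVec, hx₁, Matrix.mulVec_smul, ht, smul_smul]⟩
    refine key _ ?_
    rw [hσ]
    rfl
  · -- `W⁰`-valued on inertia
    have hσI : primeLocalToGlobal (pPrime p) τ ∈ inertiaQ p := (mem_locInertia (pPrime p) τ).1 hτ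
    obtain ⟨σ, hσ⟩ : ∃ σ : Gal, σ = primeLocalToGlobal (pPrime p) τ := ⟨_, rfl⟩
    rw [← hσ] at hσI
    have key : ∀ w : sl2 k, (w : M2 k) = b σ * rbar σ⁻¹ +
        (rbar σ * ((trZeroPart h2 X : sl2 k) : M2 k) * rbar σ⁻¹ -
          ((trZeroPart h2 X : sl2 k) : M2 k)) → w ∈ W0 e₀ := by
      intro w hw
      have himg : ∀ u : Fin 2 → k, ∃ t : k, (w : M2 k).mulVec u = t • e₀ := by
        intro u
        rw [hval σ w hw, ← Matrix.mulVec_mulVec]
        exact hXI _ hσI _
      rw [mem_W0]
      exact ⟨mulVec_eq_zero_of_trace_eq_zero ((mem_sl2_iff _).1 w.2) himg, himg⟩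
    refine key _ ?_
    rw [hσ]
    rfl
  · -- bounded
    refine ⟨L, hL1, hL2, hL3, fun τ hτ => ?_⟩
    have h1 := (hL4 τ).1 hτ
    have h3 : defOfCocycle rbar b hb (localGaloisToGlobal p τ) = 1 := by
      apply Matrix.mulVec_injective
      funext m
      rw [Matrix.one_mulVec]
      exact h1 m
    obtain ⟨h4, h5⟩ := (defOfCocycle_eq_one_iff hb _).1 h3
    apply Subtype.ext
    show b (localGaloisToGlobal p τ) * rbar (localGaloisToGlobal p τ)⁻¹ +
      (rbar (localGaloisToGlobal p τ) * ((trZeroPart h2 X : sl2 k) : M2 k) *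
        rbar (localGaloisToGlobal p τ)⁻¹ - ((trZeroPart h2 X : sl2 k) : M2 k)) = 0
    have h6 : rbar (localGaloisToGlobal p τ)⁻¹ = 1 := by
      have h : rbar (localGaloisToGlobal p τ)⁻¹ * rbar (localGaloisToGlobal p τ) = 1 :=
        map_inv_mul_map rbar _
      rwa [h4, mul_one] at h
    rw [h5, zero_mul, zero_add, h6, h4, one_mul, mul_one, sub_self]

end T1

end Fermat.Agent.TW
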