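/-
F2 (flat local condition at p), the case without stable line on the decomposition group at `p`
(supersingular case): the local condition `flatIrrCond p rbar` at `p`, with

* (T1) `res_adCocycle_mem_flatIrrCond`: the restriction to `G_p` of the `ad⁰`-class of a flat
  deformation `rbar + ε b` lies in `flatIrrCond p rbar`;
* (T2) `card_flatIrrCond_le`: `#flatIrrCond p rbar ≤ |k|` (at the level of `H¹`), if `rbar` has
  cyclotomic determinant, split characteristic polynomials and no stable line on `G_p`.
-/
import Mathlib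
import Fermat.Agent.TW.FlatAsm_helper7_Main
import Fermat.Agent.TW.FlatOrd3_helper8
import Fermat.Agent.TW.FlatLeaf_helper1_Count

set_option autoImplicit false
set_option linter.unusedSectionVars false
set_option linter.style.haveILetI false

noncomputable section

namespace Fermat.Agent.TW

open Fermat.Agent.S53 groupCohomology Matrix CategoryTheory ExtCitation Fermat.Agent.Ram
  Fermat.Agent.TW.Flat Polynomial

variable (p : ℕ) [Fact p.Prime] {k : Type} [Field k]

open Classical in
/-- the local condition at `p` in the flat case without stable line: the Fontaine-bounded classes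
if `rbar` is flat at `p` (and `⊥` otherwise: there is no flat deformation then). -/
def flatIrrCond (rbar : Gal →* M2 k) :
    AddSubgroup (H1 (Rep.res (primeLocalToGlobal (pPrime p)) (adRep rbar))) :=
  if IsFlatGaloisModule p (Fin 2 → k) (fun σ v => (rbar σ).mulVec v) then
    bddCond p (Rep.res (primeLocalToGlobal (pPrime p)) (adRep rbar))
  else ⊥

theorem flatIrrCond_of_flat {rbar : Gal →* M2 k}
    (h : IsFlatGaloisModule p (Fin 2 → k) (fun σ v => (rbar σ).mulVec v)) :
    flatIrrCond p rbar = bddCond p (Rep.res (primeLocalToGlobal (pPrime p)) (adRep rbar)) := by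
  unfold flatIrrCond
  rw [if_pos h]

theorem flatIrrCond_of_not_flat {rbar : Gal →* M2 k}
    (h : ¬ IsFlatGaloisModule p (Fin 2 → k) (fun σ v => (rbar σ).mulVec v)) :
    flatIrrCond p rbar = ⊥ := by
  unfold flatIrrCond
  rw [if_neg h]

variable {p}

/-- **(T1), flat case without stable line.** For a deformation `rbar + ε b` which is flat at `p`,
the restriction to `G_p` of its `ad⁰`-class lies in `flatIrrCond p rbar`. -/
theorem res_adCocycle_mem_flatIrrCond [Finite k] (hpk : (p : k) = 0) {rbar : Gal →* M2 k}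
    {b : Gal → M2 k} (hb : IsTwCocycle rbar b) (hc : MatCont (defOfCocycle rbar b hb))
    (hflat : (ofMatrix (defOfCocycle rbar b hb) hc).IsFlatAt p)
    (htr : ∀ σ, Matrix.trace (b σ * rbar σ⁻¹) = 0) :
    (groupCohomology.map (primeLocalToGlobal (pPrime p))
        (𝟙 (Rep.res (primeLocalToGlobal (pPrime p)) (adRep rbar))) 1).hom
      ((H1π (adRep rbar)).hom (adCocycle hb htr)) ∈ flatIrrCond p rbar := by
  rw [flatIrrCond_of_flat p (isFlatGaloisModule_residual_of_isFlatAt hb hc hflat)]
  exact res_adCocycle_mem_bddCond hpk hb hc hflat htr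

/-- **(T2), flat case without stable line**, at the level of `H¹`: `#flatIrrCond p rbar ≤ |k|`. -/
theorem card_flatIrrCond_le [Finite k] [CharP k p] (hp2 : p ≠ 2) (rbar : Gal →* M2 k)
    (hdet : ∀ (σ : Gal) (a : ℕ), (∀ μ : AlgebraicClosure ℚ, μ ^ p = 1 → σ μ = μ ^ a) →
      (rbar σ).det = a)
    (hsplit : ∀ σ : Gal, ∃ a b : k, (rbar σ).charpoly = (X - C a) * (X - C b))
    (hline : ¬ ∃ e₁ : Fin 2 → k, e₁ ≠ 0 ∧ ∀ τ : primeLocalGaloisGroup (pPrime p),
      ∃ t : k, rbar (primeLocalToGlobal (pPrime p) τ) *ᵥ e₁ = t • e₁) :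
    Finite ↥(flatIrrCond p rbar) ∧ Nat.card ↥(flatIrrCond p rbar) ≤ Nat.card k := by
  by_cases hflat : IsFlatGaloisModule p (Fin 2 → k) (fun σ v => (rbar σ).mulVec v)
  · rw [flatIrrCond_of_flat p hflat]
    obtain ⟨D, hlink⟩ := exists_ssData_of_flat hp2 rbar hflat hdet hsplit hline
    exact card_bddCond_le_of_ssLink hp2 rbar D hlink
  · rw [flatIrrCond_of_not_flat p hflat]
    refine ⟨inferInstance, ?_⟩
    rw [AddSubgroup.card_bot]
    exact Nat.card_pos

end Fermat.Agent.TW
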