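/-
TW (S56) — helper1 — sub-leaf (UNR) of helper8's reducible flat count:
a finite extension of `ℚ_p` inside `PadicAlgCl p` that is fixed by `unrInertia p` is unramified,
i.e. all its nonzero elements have norm an integral power of `p`.
-/
import Mathlib
import Fermat.Agent.TW.UnrArith2_helper6
import Fermat.Agent.Ram.Unram_helper8

set_option autoImplicit false
set_option linter.unusedSectionVars false
set_option linter.style.haveILetI false

noncomputable section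

namespace Fermat.Agent.TW.Flat

open Fermat.Agent.Ram Fermat.Agent.TW Polynomial IntermediateField

variable {p : ℕ} [hp : Fact p.Prime]

/-- an element fixed by `unrInertia p` lies in the maximal unramified extension -/
theorem mem_unrField_of_unrInertia_fixed {x : PadicAlgCl p}
    (hx : ∀ τ ∈ unrInertia p, τ x = x) : x ∈ unrField p := by
  have h1 : x ∈ IntermediateField.fixedField (unrField p).fixingSubgroup := by
    rw [fixingSubgroup_unrField]
    intro τ
    exact hx τ.1 τ.2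
  rwa [InfiniteGalois.fixedField_fixingSubgroup] at h1

/-- every element of the maximal unramified extension lies in a cyclotomic field of level prime
to `p` -/
theorem exists_coprime_mem_adjoin_of_mem_unrField {x : PadicAlgCl p} (hx : x ∈ unrField p) :
    ∃ m : ℕ, m.Coprime p ∧ 0 < m ∧ x ∈ adjoin ℚ_[p] {ξ : PadicAlgCl p | ξ ^ m = 1} := by
  classical
  obtain ⟨T, hT, hxT⟩ : ∃ T : Finset (PadicAlgCl p), (T : Set (PadicAlgCl p)) ⊆ unrRoots p ∧
      x ∈ adjoin ℚ_[p] (T : Set (PadicAlgCl p)) := exists_finset_of_mem_adjoin hx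
  have hT' : ∀ ξ ∈ T, ∃ m : ℕ, m.Coprime p ∧ ξ ^ m = 1 := fun ξ hξ => hT hξ
  choose! mξ hmξ hξm using hT'
  set m : ℕ := ∏ ξ ∈ T, mξ ξ with hm
  have hmq : m.Coprime p := Nat.Coprime.prod_left (fun ξ hξ => hmξ ξ hξ)
  have hm0 : 0 < m := by
    rcases Nat.eq_zero_or_pos m with h0 | h0
    · rw [h0, Nat.coprime_zero_left] at hmq
      exact absurd hmq hp.out.one_lt.ne'
    · exact h0
  refine ⟨m, hmq, hm0, ?_⟩
  have hTm : adjoin ℚ_[p] (T : Set (PadicAlgCl p)) ≤
      adjoin ℚ_[p] {ξ : PadicAlgCl p | ξ ^ m = 1} := by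
    apply IntermediateField.adjoin.mono
    intro ξ hξ
    obtain ⟨t, ht⟩ := Finset.dvd_prod_of_mem mξ hξ
    show ξ ^ m = 1
    rw [hm, ht, pow_mul, hξm ξ hξ, one_pow]
  exact hTm hxT

/-- elements of `ℚ_p(μ_m)`, `p ∤ m`, have norm an integral power of `p` -/
theorem exists_zpow_norm_eq_of_mem_adjoin {m : ℕ} (hm : m.Coprime p) (hm0 : 0 < m)
    {x : PadicAlgCl p} (hx : x ∈ adjoin ℚ_[p] {ξ : PadicAlgCl p | ξ ^ m = 1}) (hx0 : x ≠ 0) :
    ∃ k : ℤ, ‖x‖ = (p : ℝ) ^ k := by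
  classical
  set f : ℚ_[p][X] := X ^ m - 1 with hf
  have hf0 : f ≠ 0 := X_pow_sub_C_ne_zero hm0 1
  have hset : {ξ : PadicAlgCl p | ξ ^ m = 1} = f.rootSet (PadicAlgCl p) := by
    ext ξ
    rw [Polynomial.mem_rootSet, Set.mem_ofPred_eq]
    constructor
    · intro h
      refine ⟨hf0, ?_⟩
      rw [hf]
      simp [h]
    · rintro ⟨-, h⟩
      rw [hf] at h
      simpa [sub_eq_zero] using h
  obtain ⟨E, hE⟩ : ∃ E : IntermediateField ℚ_[p] (PadicAlgCl p),
      E = adjoin ℚ_[p] (f.rootSet (PadicAlgCl p)) := ⟨_, rfl⟩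
  haveI hsplit : f.IsSplittingField ℚ_[p] E := by
    rw [hE]
    exact IntermediateField.adjoin_rootSet_isSplittingField (IsAlgClosed.splits _)
  haveI : FiniteDimensional ℚ_[p] E := Polynomial.IsSplittingField.finiteDimensional E f
  have hsep : f.Separable := by
    rw [hf, X_pow_sub_one_separable_iff]
    exact_mod_cast hm0.ne'
  haveI : IsGalois ℚ_[p] E := IsGalois.of_separable_splitting_field hsep
  have hxE : x ∈ E := by rw [hE, ← hset]; exact hx
  -- the inertia group of `E / ℚ_p` is trivial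
  have hinert : ∀ σ ∈ inertia (E ≃ₐ[ℚ_[p]] E) E, ∀ z : E, σ z = z := by
    intro σ hσ z
    set σ' : PadicAlgCl p ≃ₐ[ℚ_[p]] PadicAlgCl p := σ.liftNormal (PadicAlgCl p) with hσ'
    have hcomm : ∀ z : E, σ' (z : PadicAlgCl p) = ((σ z : E) : PadicAlgCl p) := fun z =>
      AlgEquiv.liftNormal_commutes σ (PadicAlgCl p) z
    have hfix : σ' ∈ (adjoin ℚ_[p] {ξ : PadicAlgCl p | ξ ^ m = 1}).fixingSubgroup := by
      rw [fixingSubgroup_adjoin_iff]
      intro ξ hξ
      have hξE : ξ ∈ E := by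
        rw [hE, ← hset]
        exact subset_adjoin ℚ_[p] _ hξ
      have h1 : ‖(⟨ξ, hξE⟩ : E)‖ ≤ 1 := by
        show ‖ξ‖ ≤ 1
        exact (norm_eq_one_of_pow_eq_one hm0 hξ).le
      have h2 : ‖σ • (⟨ξ, hξE⟩ : E) - ⟨ξ, hξE⟩‖ < 1 := mem_inertia.1 hσ _ h1
      have h3 : ‖σ' ξ - ξ‖ < 1 := by
        have := hcomm ⟨ξ, hξE⟩
        rw [show ((⟨ξ, hξE⟩ : E) : PadicAlgCl p) = ξ from rfl] at this
        rw [this]
        exact h2
      have h4 : (σ' ξ) ^ m = 1 := by rw [← map_pow, show ξ ^ m = 1 from hξ, map_one]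
      exact eq_of_norm_sub_lt_one_of_pow_eq_one hm h4 hξ h3
    have h5 : σ' (z : PadicAlgCl p) = z := by
      rw [IntermediateField.mem_fixingSubgroup_iff] at hfix
      apply hfix
      rw [hset, ← hE]
      exact z.2
    rw [hcomm z] at h5
    exact Subtype.ext h5
  obtain ⟨α, hα⟩ := exists_isUnif_top E
  have hxfix : (⟨x, hxE⟩ : E) ∈ FixedPoints.subfield (inertia (E ≃ₐ[ℚ_[p]] E) E) E := by
    intro σ
    exact hinert σ.1 σ.2 _
  have hx0' : (⟨x, hxE⟩ : E) ≠ 0 := fun h0 => hx0 (congrArg Subtype.val h0)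
  obtain ⟨y, hy, hyn⟩ := exists_fixed_norm_eq (G := E ≃ₐ[ℚ_[p]] E) hα hxfix hx0'
  have h1 : y ∈ Set.range (algebraMap ℚ_[p] E) :=
    (IsGalois.mem_range_algebraMap_iff_fixed y).mpr (fun g => hy g)
  obtain ⟨c, rfl⟩ := h1
  have hc : ‖algebraMap ℚ_[p] E c‖ = ‖c‖ := by
    have h1 : ‖algebraMap ℚ_[p] E c‖ = ‖((algebraMap ℚ_[p] E c : E) : PadicAlgCl p)‖ := rfl
    have h2 : ((algebraMap ℚ_[p] E c : E) : PadicAlgCl p) =
        algebraMap ℚ_[p] (PadicAlgCl p) c := rfl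
    rw [h1, h2]
    exact PadicAlgCl.norm_extends p c
  have hc0 : c ≠ 0 := by
    rintro rfl
    rw [map_zero, norm_zero] at hyn
    exact hx0' (norm_eq_zero.1 hyn.symm)
  refine ⟨-c.valuation, ?_⟩
  have h2 : ‖x‖ = ‖(⟨x, hxE⟩ : E)‖ := rfl
  rw [h2, ← hyn, hc]
  exact Padic.norm_eq_zpow_neg_valuation hc0

/-- **(UNR)** a finite extension of `ℚ_p` fixed by `unrInertia p` is unramified: all its nonzero
elements have norm an integral power of `p`. -/
theorem exists_zpow_norm_eq_of_unrInertia_fixed (p : ℕ) [Fact p.Prime]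
    (K' : IntermediateField ℚ_[p] (PadicAlgCl p)) [FiniteDimensional ℚ_[p] K']
    (hK' : ∀ τ ∈ Fermat.Agent.TW.unrInertia p, ∀ z ∈ K', τ z = z) {x : PadicAlgCl p}
    (hx : x ∈ K') (hx0 : x ≠ 0) : ∃ m : ℤ, ‖x‖ = (p : ℝ) ^ m := by
  have h1 : x ∈ unrField p := mem_unrField_of_unrInertia_fixed (fun τ hτ => hK' τ hτ x hx)
  obtain ⟨m, hm, hm0, hxm⟩ := exists_coprime_mem_adjoin_of_mem_unrField h1
  exact exists_zpow_norm_eq_of_mem_adjoin hm hm0 hxm hx0

end Fermat.Agent.TW.Flat
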