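/-
S56 / F2 reducible case, sub-leaf (C1) of helper8 (msg 597) — helper5.
The fixed field of the kernel of a homomorphism `G_p → A` (finite level, `p ∤ #A`) is a finite
tame Galois extension of `ℚ_p`.
-/
import Mathlib

set_option autoImplicit false

namespace Fermat.Agent.TW.Flat

open IntermediateField

/-- the fixed field of the kernel of a homomorphism from an absolute Galois group to a finite group
that factors through a finite level. -/
theorem exists_fixedField_ker {k K : Type*} [Field k] [Field K] [Algebra k K] [IsGalois k K]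
    {A : Type*} [Group A] [Finite A] (f : (K ≃ₐ[k] K) →* A)
    (hf : ∃ L₁ : IntermediateField k K, FiniteDimensional k L₁ ∧
      ∀ τ : K ≃ₐ[k] K, (∀ z ∈ L₁, τ z = z) → f τ = 1) :
    ∃ L₀ : IntermediateField k K, FiniteDimensional k L₀ ∧ IsGalois k L₀ ∧
      Module.finrank k L₀ ∣ Nat.card A ∧ ∀ τ : K ≃ₐ[k] K, (∀ z ∈ L₀, τ z = z) ↔ f τ = 1 := by
  obtain ⟨L₁, hL₁, hL₁f⟩ := hf
  have hle : L₁.fixingSubgroup ≤ f.ker := by
    intro τ hτ
    rw [IntermediateField.mem_fixingSubgroup_iff] at hτ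
    exact MonoidHom.mem_ker.mpr (hL₁f τ hτ)
  have hopen : IsOpen (f.ker : Set (K ≃ₐ[k] K)) :=
    Subgroup.isOpen_mono hle (IntermediateField.fixingSubgroup_isOpen L₁)
  have hclosed : IsClosed (f.ker : Set (K ≃ₐ[k] K)) := Subgroup.isClosed_of_isOpen _ hopen
  let Hc : ClosedSubgroup (K ≃ₐ[k] K) := ⟨f.ker, hclosed⟩
  have hHc : Hc.1 = f.ker := rfl
  have : Hc.Normal := by
    show f.ker.Normal
    infer_instance
  let L₀ : IntermediateField k K := IntermediateField.fixedField Hc.1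
  have hfix : L₀.fixingSubgroup = f.ker := InfiniteGalois.fixingSubgroup_fixedField Hc
  have hfd : FiniteDimensional k L₀ := by
    rw [← InfiniteGalois.isOpen_iff_finite, hfix]
    exact hopen
  have hgal : IsGalois k L₀ := by
    rw [← InfiniteGalois.normal_iff_isGalois, hfix]
    infer_instance
  refine ⟨L₀, hfd, hgal, ?_, ?_⟩
  · rw [← IsGalois.card_aut_eq_finrank]
    have e1 : (K ≃ₐ[k] K) ⧸ f.ker ≃* (L₀ ≃ₐ[k] L₀) := InfiniteGalois.normalAutEquivQuotient Hc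
    have e2 : (K ≃ₐ[k] K) ⧸ f.ker ≃* f.range := QuotientGroup.quotientKerEquivRange f
    rw [← Nat.card_congr e1.toEquiv, Nat.card_congr e2.toEquiv]
    exact Subgroup.card_subgroup_dvd_card f.range
  · intro τ
    rw [← IntermediateField.mem_fixingSubgroup_iff, hfix, MonoidHom.mem_ker]

/-- **(C1)** -/
theorem exists_tame_galois_field (p : ℕ) [Fact p.Prime] {A : Type*} [Group A] [Finite A]
    (hA : ¬ p ∣ Nat.card A) (f : (PadicAlgCl p ≃ₐ[ℚ_[p]] PadicAlgCl p) →* A)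
    (hf : ∃ L₁ : IntermediateField ℚ_[p] (PadicAlgCl p), FiniteDimensional ℚ_[p] L₁ ∧
      ∀ τ : (PadicAlgCl p ≃ₐ[ℚ_[p]] PadicAlgCl p), (∀ z ∈ L₁, τ z = z) → f τ = 1) :
    ∃ L₀ : IntermediateField ℚ_[p] (PadicAlgCl p), FiniteDimensional ℚ_[p] L₀ ∧
      IsGalois ℚ_[p] L₀ ∧ ¬ p ∣ Module.finrank ℚ_[p] L₀ ∧
      ∀ τ : (PadicAlgCl p ≃ₐ[ℚ_[p]] PadicAlgCl p), (∀ z ∈ L₀, τ z = z) ↔ f τ = 1 := by
  obtain ⟨L₀, h1, h2, h3, h4⟩ := exists_fixedField_ker f hf
  exact ⟨L₀, h1, h2, fun h => hA (dvd_trans h h3), h4⟩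

end Fermat.Agent.TW.Flat
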