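/-
S56 / (F2), reducible case, sub-leaf (S) — helper4.
Vectors fixed by a family of semilinear endomorphisms whose common fixed field is the prime field:
`𝔽_p`-independent fixed vectors are `F`-independent, hence there are at most `p ^ dim_F E` of them.
-/
import Mathlib

set_option autoImplicit false
set_option linter.style.haveILetI false
set_option linter.unusedSectionVars false

namespace Fermat.Agent.TW.Flat

section Semilinear

variable {p : ℕ} [hp : Fact p.Prime] {F : Type*} [Field F] [CharP F p] {E : Type*}
  [AddCommGroup E] [Module F E] {ι : Type*}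

/-- the subgroup of vectors fixed by all the `Ψ i`. -/
def semilinearFixed (Ψ : ι → E →+ E) : AddSubgroup E where
  carrier := {x | ∀ i, Ψ i x = x}
  zero_mem' := fun i => map_zero (Ψ i)
  add_mem' {a b} ha hb := fun i => by rw [map_add, ha i, hb i]
  neg_mem' {a} ha := fun i => by rw [map_neg, ha i]

theorem mem_semilinearFixed (Ψ : ι → E →+ E) (x : E) :
    x ∈ semilinearFixed Ψ ↔ ∀ i, Ψ i x = x := Iff.rfl

/-- a `ZMod p`-vector space of rank at most `n` is finite with at most `p ^ n` elements. -/
theorem finite_card_le_of_rank_le {p : ℕ} [hp : Fact p.Prime] {V : Type*} [AddCommGroup V]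
    [Module (ZMod p) V] {n : ℕ} (h : Module.rank (ZMod p) V ≤ (n : Cardinal)) :
    Finite V ∧ Nat.card V ≤ p ^ n := by
  haveI : Module.Free (ZMod p) V := Module.Free.of_divisionRing (ZMod p) V
  haveI : Module.Finite (ZMod p) V := by
    rw [← Module.rank_lt_aleph0_iff]
    exact lt_of_le_of_lt h Cardinal.natCast_lt_aleph0
  haveI : Finite V := Module.finite_of_finite (ZMod p)
  have hfr : Module.finrank (ZMod p) V ≤ n := Module.finrank_le_of_rank_le h
  have hcard : Nat.card V = p ^ Module.finrank (ZMod p) V := by
    have h' := Module.natCard_eq_pow_finrank (K := ZMod p) (V := V)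
    rwa [Nat.card_zmod] at h'
  refine ⟨inferInstance, ?_⟩
  rw [hcard]
  exact Nat.pow_le_pow_right (Fact.out : p.Prime).pos hfr

/-- **core of (S)**: fixed vectors which are independent over the prime field (phrased with natural
number coefficients) are independent over `F`. -/
theorem linearIndependent_of_semilinear_fixed (φ : ι → F →+* F) (Ψ : ι → E →+ E)
    (hΨ : ∀ i (f : F) (x : E), Ψ i (f • x) = φ i f • Ψ i x)
    (hfix : ∀ f : F, (∀ i, φ i f = f) → ∃ n : ℕ, f = n)
    {κ : Type*} (v : κ → E) (hv : ∀ j i, Ψ i (v j) = v j)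
    (hind : ∀ (s : Finset κ) (n : κ → ℕ), ∑ j ∈ s, n j • v j = 0 → ∀ j ∈ s, p ∣ n j) :
    LinearIndependent F v := by
  classical
  rw [linearIndependent_iff']
  intro s
  induction s using Finset.strongInduction with
  | H s ih =>
    intro g hg j₀ hj₀
    by_contra hne
    -- normalise the coefficient of `j₀` to `1`
    let g' : κ → F := fun j => (g j₀)⁻¹ * g j
    have hg' : ∑ j ∈ s, g' j • v j = 0 := by
      have h1 : ∑ j ∈ s, g' j • v j = (g j₀)⁻¹ • ∑ j ∈ s, g j • v j := by
        rw [Finset.smul_sum]
        exact Finset.sum_congr rfl (fun j _ => mul_smul _ _ _)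
      rw [h1, hg, smul_zero]
    have hg'1 : g' j₀ = 1 := inv_mul_cancel₀ hne
    -- all coefficients are fixed by all `φ i`
    have hfixed : ∀ i, ∀ j ∈ s, φ i (g' j) = g' j := by
      intro i
      have h1 : ∑ j ∈ s, φ i (g' j) • v j = 0 := by
        have h0 := congrArg (Ψ i) hg'
        rw [map_sum, map_zero] at h0
        rw [← h0]
        refine Finset.sum_congr rfl (fun j _ => ?_)
        rw [hΨ, hv]
      have h3 : ∑ j ∈ s, (φ i (g' j) - g' j) • v j = 0 := by
        simp only [sub_smul, Finset.sum_sub_distrib, h1, hg', sub_zero]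
      rw [← Finset.add_sum_erase s _ hj₀, hg'1, map_one, sub_self, zero_smul, zero_add] at h3
      have h4 := ih (s.erase j₀) (Finset.erase_ssubset hj₀) _ h3
      intro j hj
      by_cases hjj : j = j₀
      · rw [hjj, hg'1, map_one]
      · exact sub_eq_zero.mp (h4 j (Finset.mem_erase.mpr ⟨hjj, hj⟩))
    -- hence natural numbers
    have hnat : ∀ j ∈ s, ∃ n : ℕ, g' j = n := fun j hj => hfix _ (fun i => hfixed i j hj)
    choose! n hn using hnat
    have hsum : ∑ j ∈ s, n j • v j = 0 := by
      rw [← hg']
      refine Finset.sum_congr rfl (fun j hj => ?_)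
      rw [hn j hj, Nat.cast_smul_eq_nsmul]
    have hdvd := hind s n hsum j₀ hj₀
    have h0 : (n j₀ : F) = 0 := (CharP.cast_eq_zero_iff F p _).mpr hdvd
    rw [← hn j₀ hj₀, hg'1] at h0
    exact one_ne_zero h0

/-- **(S)** the number of vectors fixed by a family of semilinear endomorphisms whose common fixed
field is the prime field is at most `p ^ dim_F E`. -/
theorem card_semilinear_fixed_le [Module.Finite F E] (φ : ι → F →+* F) (Ψ : ι → E →+ E)
    (hΨ : ∀ i (f : F) (x : E), Ψ i (f • x) = φ i f • Ψ i x)
    (hfix : ∀ f : F, (∀ i, φ i f = f) → ∃ n : ℕ, f = n) :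
    Finite {x : E // ∀ i, Ψ i x = x} ∧
      Nat.card {x : E // ∀ i, Ψ i x = x} ≤ p ^ Module.finrank F E := by
  classical
  set W : AddSubgroup E := semilinearFixed Ψ with hWdef
  have hW : ∀ x : W, p • x = 0 := fun x => Subtype.ext (by
    show p • (x : E) = 0
    rw [← Nat.cast_smul_eq_nsmul F, CharP.cast_eq_zero, zero_smul])
  letI instMod : Module (ZMod p) W := AddCommGroup.zmodModule hW
  have hrank : Module.rank (ZMod p) W ≤ (Module.finrank F E : ℕ) := by
    apply rank_le
    intro s hs
    have hli : LinearIndependent F (fun i : s => ((i : W) : E)) := by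
      refine linearIndependent_of_semilinear_fixed (p := p) φ Ψ hΨ hfix _ ?_ ?_
      · intro j i
        exact (j : W).2 i
      · intro t n hsum j hj
        have h1 : ∑ j ∈ t, (n j : ZMod p) • ((j : s) : W) = 0 := by
          apply Subtype.ext
          rw [AddSubgroup.val_finsetSum, AddSubgroup.coe_zero, ← hsum]
          refine Finset.sum_congr rfl (fun j _ => ?_)
          rw [Nat.cast_smul_eq_nsmul]
          rfl
        have h2 := linearIndependent_iff'.mp hs t (fun j => (n j : ZMod p)) h1 j hj
        exact (ZMod.natCast_eq_zero_iff _ _).mp h2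
    have h3 := hli.fintype_card_le_finrank
    simpa using h3
  obtain ⟨h1, h2⟩ := @finite_card_le_of_rank_le p hp W _ instMod _ hrank
  exact ⟨h1, h2⟩

end Semilinear

end Fermat.Agent.TW.Flat
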