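/-
S56 / F2 reducible case, sub-leaves (NF) and (FR) of helper8 (msg 609) — helper5.
(NF) norm/trace families: lifts to `G_p` of `Gal(L₀/K')`.
(FR) an integral element of a tame Galois extension of `ℚ_p` that is fixed modulo the maximal ideal
by all of `G_p` is congruent to a natural number.
-/
import Mathlib

set_option autoImplicit false

namespace Fermat.Agent.TW.Flat

open IntermediateField

section NF

variable {F Ω : Type*} [Field F] [Field Ω] [Algebra F Ω] [Normal F Ω]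

/-- general form of (NF): norm/trace families through lifts of `Gal(L₀/K')`. -/
theorem exists_norm_family_general (K' L₀ : IntermediateField F Ω) [FiniteDimensional F L₀]
    [IsGalois F L₀] (hKL : K' ≤ L₀) :
    ∃ (n : ℕ) (σ : Fin n → (Ω ≃ₐ[F] Ω)), n ∣ Module.finrank F L₀ ∧
      (∀ i, ∀ z ∈ K', σ i z = z) ∧ (∀ a ∈ L₀, ∏ i, σ i a ∈ K') ∧ (∀ a ∈ L₀, ∑ i, σ i a ∈ K') := by
  classical
  -- `K'` inside `L₀`
  let K'' : IntermediateField F L₀ := K'.comap L₀.val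
  let H : Subgroup (L₀ ≃ₐ[F] L₀) := K''.fixingSubgroup
  have hfix : IntermediateField.fixedField H = K'' := IsGalois.fixedField_fixingSubgroup K''
  -- lifts
  have hlift : ∀ h : L₀ ≃ₐ[F] L₀, ∃ τ : Ω ≃ₐ[F] Ω, AlgEquiv.restrictNormalHom L₀ τ = h :=
    AlgEquiv.restrictNormalHom_surjective Ω
  choose lift hliftspec using hlift
  have hlift_apply : ∀ (h : L₀ ≃ₐ[F] L₀) (a : L₀), lift h (a : Ω) = ((h a : L₀) : Ω) := by
    intro h a
    have := AlgEquiv.restrictNormal_commutes (lift h) L₀ a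
    have h2 : (lift h).restrictNormal L₀ = h := hliftspec h
    rw [h2] at this
    exact this.symm
  let n := Fintype.card H
  let e : H ≃ Fin n := Fintype.equivFin H
  refine ⟨n, fun i => lift ((e.symm i : H) : L₀ ≃ₐ[F] L₀), ?_, ?_, ?_, ?_⟩
  · have h1 : Nat.card H ∣ Nat.card (L₀ ≃ₐ[F] L₀) := Subgroup.card_subgroup_dvd_card H
    rw [IsGalois.card_aut_eq_finrank, Nat.card_eq_fintype_card] at h1
    exact h1
  · intro i z hz
    have hz' : (⟨z, hKL hz⟩ : L₀) ∈ K'' := hz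
    have h2 := (e.symm i).2 ⟨⟨z, hKL hz⟩, hz'⟩
    have h3 := hlift_apply ((e.symm i : H) : L₀ ≃ₐ[F] L₀) ⟨z, hKL hz⟩
    show lift ((e.symm i : H) : L₀ ≃ₐ[F] L₀) z = z
    rw [show (z : Ω) = ((⟨z, hKL hz⟩ : L₀) : Ω) from rfl, h3]
    exact congrArg Subtype.val h2
  · intro a ha
    have h1 : ∏ i, lift ((e.symm i : H) : L₀ ≃ₐ[F] L₀) a =
        ((∏ h : H, (h : L₀ ≃ₐ[F] L₀) ⟨a, ha⟩ : L₀) : Ω) := by
      rw [← Equiv.prod_comp e.symm (fun h : H => (h : L₀ ≃ₐ[F] L₀) ⟨a, ha⟩)]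
      rw [← L₀.coe_val, map_prod]
      apply Finset.prod_congr rfl
      intro i _
      exact hlift_apply _ ⟨a, ha⟩
    rw [h1]
    have h2 : (∏ h : H, (h : L₀ ≃ₐ[F] L₀) ⟨a, ha⟩ : L₀) ∈ IntermediateField.fixedField H := by
      rw [IntermediateField.mem_fixedField_iff]
      intro g hg
      rw [map_prod]
      exact Fintype.prod_equiv (Equiv.mulLeft (⟨g, hg⟩ : H)) _ _ (fun h => rfl)
    rw [hfix] at h2
    exact h2
  · intro a ha
    have h1 : ∑ i, lift ((e.symm i : H) : L₀ ≃ₐ[F] L₀) a =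
        ((∑ h : H, (h : L₀ ≃ₐ[F] L₀) ⟨a, ha⟩ : L₀) : Ω) := by
      rw [← Equiv.sum_comp e.symm (fun h : H => (h : L₀ ≃ₐ[F] L₀) ⟨a, ha⟩)]
      rw [← L₀.coe_val, map_sum]
      apply Finset.sum_congr rfl
      intro i _
      exact hlift_apply _ ⟨a, ha⟩
    rw [h1]
    have h2 : (∑ h : H, (h : L₀ ≃ₐ[F] L₀) ⟨a, ha⟩ : L₀) ∈ IntermediateField.fixedField H := by
      rw [IntermediateField.mem_fixedField_iff]
      intro g hg
      rw [map_sum]
      exact Fintype.sum_equiv (Equiv.mulLeft (⟨g, hg⟩ : H)) _ _ (fun h => rfl)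
    rw [hfix] at h2
    exact h2

end NF

section NFp

/-- **(NF)** -/
theorem exists_norm_family (p : ℕ) [Fact p.Prime]
    (K' L₀ : IntermediateField ℚ_[p] (PadicAlgCl p)) [FiniteDimensional ℚ_[p] L₀]
    [IsGalois ℚ_[p] L₀] (hKL : K' ≤ L₀) :
    ∃ (n : ℕ) (σ : Fin n → (PadicAlgCl p ≃ₐ[ℚ_[p]] PadicAlgCl p)),
      n ∣ Module.finrank ℚ_[p] L₀ ∧ (∀ i, ∀ z ∈ K', σ i z = z) ∧
      (∀ a ∈ L₀, ∏ i, σ i a ∈ K') ∧ (∀ a ∈ L₀, ∑ i, σ i a ∈ K') :=
  exists_norm_family_general K' L₀ hKL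

end NFp

section FR

variable (p : ℕ) [Fact p.Prime]

theorem exists_nat_norm_sub_lt_one_of_fixed
    (K' : IntermediateField ℚ_[p] (PadicAlgCl p)) [FiniteDimensional ℚ_[p] K']
    [IsGalois ℚ_[p] K'] (htame : ¬ p ∣ Module.finrank ℚ_[p] K') {x : PadicAlgCl p}
    (hx : x ∈ K') (hx1 : ‖x‖ ≤ 1)
    (hfix : ∀ τ : (PadicAlgCl p ≃ₐ[ℚ_[p]] PadicAlgCl p), ‖τ x - x‖ < 1) :
    ∃ n : ℕ, ‖x - (n : PadicAlgCl p)‖ < 1 := by
  classical
  set d := Module.finrank ℚ_[p] K' with hd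
  set x' : K' := ⟨x, hx⟩ with hx'
  set y₀ : ℚ_[p] := Algebra.trace ℚ_[p] K' x' with hy₀
  -- the trace as a sum over automorphisms, in `Ω`
  have htr : algebraMap ℚ_[p] (PadicAlgCl p) y₀ =
      ∑ σ : K' ≃ₐ[ℚ_[p]] K', ((σ x' : K') : PadicAlgCl p) := by
    have h1 := trace_eq_sum_automorphisms (K := ℚ_[p]) (L := K') x'
    have h2 := congrArg K'.val h1
    rw [map_sum] at h2
    exact h2
  -- each summand is close to `x`
  have hclose : ∀ σ : K' ≃ₐ[ℚ_[p]] K', ‖((σ x' : K') : PadicAlgCl p) - x‖ < 1 := by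
    intro σ
    obtain ⟨τ, hτ⟩ := AlgEquiv.restrictNormalHom_surjective (PadicAlgCl p) σ
    have h1 := AlgEquiv.restrictNormal_commutes τ K' x'
    have h2 : τ.restrictNormal K' = σ := hτ
    rw [h2] at h1
    have h3 : ((σ x' : K') : PadicAlgCl p) = τ x := h1
    rw [h3]
    exact hfix τ
  have hcard : Fintype.card (K' ≃ₐ[ℚ_[p]] K') = d := by
    rw [← Nat.card_eq_fintype_card, IsGalois.card_aut_eq_finrank]
  have hsum : ‖algebraMap ℚ_[p] (PadicAlgCl p) y₀ - (d : PadicAlgCl p) * x‖ < 1 := by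
    have h1 : algebraMap ℚ_[p] (PadicAlgCl p) y₀ - (d : PadicAlgCl p) * x =
        ∑ σ : K' ≃ₐ[ℚ_[p]] K', (((σ x' : K') : PadicAlgCl p) - x) := by
      rw [Finset.sum_sub_distrib, htr, Finset.sum_const, Finset.card_univ, hcard, nsmul_eq_mul]
    rw [h1]
    obtain ⟨σ, -, hσ⟩ := IsUltrametricDist.exists_norm_finsetSum_le_of_nonempty
      (Finset.univ_nonempty (α := K' ≃ₐ[ℚ_[p]] K'))
      (fun σ : K' ≃ₐ[ℚ_[p]] K' => ((σ x' : K') : PadicAlgCl p) - x)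
    exact lt_of_le_of_lt hσ (hclose σ)
  -- `d` is a unit
  have hdnorm : ‖(d : PadicAlgCl p)‖ = 1 := by
    have h1 : (d : PadicAlgCl p) = algebraMap ℚ_[p] (PadicAlgCl p) (d : ℚ_[p]) := by
      rw [map_natCast]
    rw [h1, PadicAlgCl.norm_extends, Padic.norm_natCast_eq_one_iff]
    exact (Nat.Prime.coprime_iff_not_dvd (Fact.out : p.Prime)).mpr htame
  have hd0 : (d : PadicAlgCl p) ≠ 0 := by
    intro h
    rw [h, norm_zero] at hdnorm
    exact zero_ne_one hdnorm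
  have hd0' : (d : ℚ_[p]) ≠ 0 := by
    intro h
    apply hd0
    have h1 : (d : PadicAlgCl p) = algebraMap ℚ_[p] (PadicAlgCl p) (d : ℚ_[p]) := by
      rw [map_natCast]
    rw [h1, h, map_zero]
  set y : ℚ_[p] := y₀ / d with hy
  have hyx : ‖algebraMap ℚ_[p] (PadicAlgCl p) y - x‖ < 1 := by
    have h1 : algebraMap ℚ_[p] (PadicAlgCl p) y - x =
        (algebraMap ℚ_[p] (PadicAlgCl p) y₀ - (d : PadicAlgCl p) * x) / (d : PadicAlgCl p) := by
      rw [hy, map_div₀, map_natCast]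
      field_simp
    rw [h1, norm_div, hdnorm, div_one]
    exact hsum
  have hy1 : ‖y‖ ≤ 1 := by
    rw [← PadicAlgCl.norm_extends]
    have h1 : algebraMap ℚ_[p] (PadicAlgCl p) y = (algebraMap ℚ_[p] (PadicAlgCl p) y - x) + x := by
      ring
    have h2 := IsUltrametricDist.norm_add_le_max (algebraMap ℚ_[p] (PadicAlgCl p) y - x) x
    rw [← h1] at h2
    exact h2.trans (max_le hyx.le hx1)
  set z : ℤ_[p] := ⟨y, hy1⟩ with hz
  obtain ⟨n, -, hn⟩ := PadicInt.exists_mem_range z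
  refine ⟨n, ?_⟩
  have h1 : ‖z - (n : ℤ_[p])‖ < 1 := by
    rw [← PadicInt.mem_nonunits]
    rwa [IsLocalRing.mem_maximalIdeal] at hn
  have h3 : ‖z - (n : ℤ_[p])‖ = ‖y - n‖ := by
    rw [PadicInt.norm_def, PadicInt.coe_sub, PadicInt.coe_natCast]
  rw [h3] at h1
  have h4 : ‖algebraMap ℚ_[p] (PadicAlgCl p) y - (n : PadicAlgCl p)‖ < 1 := by
    have : algebraMap ℚ_[p] (PadicAlgCl p) y - (n : PadicAlgCl p) =
        algebraMap ℚ_[p] (PadicAlgCl p) (y - n) := by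
      rw [map_sub, map_natCast]
    rw [this, PadicAlgCl.norm_extends]
    exact h1
  have h5 : x - (n : PadicAlgCl p) =
      (x - algebraMap ℚ_[p] (PadicAlgCl p) y) +
        (algebraMap ℚ_[p] (PadicAlgCl p) y - (n : PadicAlgCl p)) := by ring
  rw [h5]
  refine lt_of_le_of_lt (IsUltrametricDist.norm_add_le_max _ _) (max_lt ?_ h4)
  rw [← norm_neg, neg_sub]
  exact hyx

end FR

end Fermat.Agent.TW.Flat
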