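/-
F2 (flat local condition at p), reducible (ordinary) case, count, part 1: the data of the ordinary
case (`OrdData`) and the relation `RO` "the character `ψ_{f,a}` has a Kummer generator whose
`p`-th power is `≡ 1 + p b`", with existence, uniqueness, additivity, Galois equivariance and
the vanishing criterion.
-/
import Mathlib
import Fermat.Agent.TW.FlatCore_helper7_B
import Fermat.Agent.Ram.OrdCore_helper8

set_option autoImplicit false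
set_option linter.unusedSectionVars false
set_option linter.style.haveILetI false

namespace Fermat.Agent.TW.Flat

open Fermat.Agent.Ram Fermat.Agent.TW

/-- the data of the ordinary (reducible) case, in terms of `Ω = PadicAlgCl p`: a tame Galois
extension `L₀ ∋ ζ_p` of `ℚ_p`, an unramified Galois subextension `K'`, characters `χ = ε η`
with `η` trivial on the fixing subgroup of `K'`, and a "norm family" from `L₀` to `K'`. -/
structure OrdData (p : ℕ) [Fact p.Prime] (k : Type) [Field k] where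
  /-- the field cut out by `χ` and the cyclotomic character -/
  L₀ : IntermediateField ℚ_[p] (PadicAlgCl p)
  fin : FiniteDimensional ℚ_[p] L₀
  gal : IsGalois ℚ_[p] L₀
  tame : ¬ p ∣ Module.finrank ℚ_[p] L₀
  /-- a Fontaine-bounded field containing `L₀` -/
  Lb : IntermediateField ℚ_[p] (PadicAlgCl p)
  finb : FiniteDimensional ℚ_[p] Lb
  galb : IsGalois ℚ_[p] Lb
  bdd : FontaineBdd p Lb
  hLb : L₀ ≤ Lb
  /-- the unramified field cut out by `η` -/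
  K' : IntermediateField ℚ_[p] (PadicAlgCl p)
  finK : FiniteDimensional ℚ_[p] K'
  galK : IsGalois ℚ_[p] K'
  tameK : ¬ p ∣ Module.finrank ℚ_[p] K'
  hKL : K' ≤ L₀
  unr : ∀ x ∈ K', ‖x‖ < 1 → ‖x‖ ≤ ‖((p : ℕ) : PadicAlgCl p)‖
  /-- a primitive `p`-th root of unity -/
  ζ : PadicAlgCl p
  hζ : IsPrimitiveRoot ζ p
  hζL₀ : ζ ∈ L₀
  /-- a uniformizer of `L₀` -/
  π : PadicAlgCl p
  hπ : IsUnif L₀.toSubfield π
  /-- the level of `ζ - 1` -/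
  c₀ : ℕ
  hc₀ : ‖ζ - 1‖ = ‖π‖ ^ c₀
  hpc : ¬ p ∣ c₀
  /-- the character of the count -/
  χ : (PadicAlgCl p ≃ₐ[ℚ_[p]] PadicAlgCl p) →* kˣ
  /-- its unramified part -/
  η : (PadicAlgCl p ≃ₐ[ℚ_[p]] PadicAlgCl p) →* kˣ
  /-- the cyclotomic exponent -/
  ε : (PadicAlgCl p ≃ₐ[ℚ_[p]] PadicAlgCl p) → ℕ
  hε : ∀ τ : PadicAlgCl p ≃ₐ[ℚ_[p]] PadicAlgCl p, τ ζ = ζ ^ ε τ
  hχ : ∀ τ : PadicAlgCl p ≃ₐ[ℚ_[p]] PadicAlgCl p,
    ((χ τ : kˣ) : k) = (ε τ : k) * ((η τ : kˣ) : k)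
  hηK : ∀ τ : PadicAlgCl p ≃ₐ[ℚ_[p]] PadicAlgCl p, (∀ z ∈ K', τ z = z) → η τ = 1
  /-- the index set of the norm family -/
  ι : Type
  fintype : Fintype ι
  /-- the norm family -/
  σ : ι → (PadicAlgCl p ≃ₐ[ℚ_[p]] PadicAlgCl p)
  hσK : ∀ i, ∀ z ∈ K', σ i z = z
  hN : ∀ a ∈ L₀, ∏ i, σ i a ∈ K'
  hcard : ¬ p ∣ Fintype.card ι

variable {p : ℕ} [Fact p.Prime] {k : Type} [Field k]

local notation "Ω" => PadicAlgCl p
local notation "GP" => (PadicAlgCl p ≃ₐ[ℚ_[p]] PadicAlgCl p)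

/-- admissible functions for the ordinary count: additive on the fixing subgroup of `L₀`,
Fontaine-bounded, and `χ`-equivariant under conjugation. -/
structure IsAdmO (D : OrdData p k) (f : (PadicAlgCl p ≃ₐ[ℚ_[p]] PadicAlgCl p) → k) : Prop where
  adm : IsAdm D.L₀ f
  conj : ∀ σ τ : PadicAlgCl p ≃ₐ[ℚ_[p]] PadicAlgCl p, Fixes D.L₀ τ →
    f (σ⁻¹ * τ * σ) = (((D.χ σ)⁻¹ : kˣ) : k) * f τ

lemma IsAdmO.sub {D : OrdData p k} {f f' : GP → k} (hf : IsAdmO D f) (hf' : IsAdmO D f') :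
    IsAdmO D (f - f') := by
  refine ⟨hf.adm.sub hf'.adm, fun σ τ hτ => ?_⟩
  rw [Pi.sub_apply, Pi.sub_apply, hf.conj σ τ hτ, hf'.conj σ τ hτ, mul_sub]

section Basic

variable [Finite k] [CharP k p]

namespace OrdData

variable (D : OrdData p k)

lemma norm_p_lt_one : ‖((p : ℕ) : Ω)‖ < 1 := norm_natCast_p_lt_one

lemma p_ne_zero : ((p : ℕ) : Ω) ≠ 0 := by
  rw [← norm_pos_iff, norm_natCast_p]
  exact inv_pos.mpr (p_real_pos p)

lemma hc₀' : (‖D.π‖ ^ D.c₀) ^ (p - 1) = ‖((p : ℕ) : Ω)‖ := by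
  rw [← D.hc₀]; exact norm_sub_one_pow_eq (Fact.out : p.Prime) D.hζ

lemma zeta_ne_zero : D.ζ ≠ 0 := D.hζ.ne_zero (Fact.out : p.Prime).ne_zero

/-- `ε τ` is invertible in `k`, and `η τ⁻¹ = ε τ · χ τ⁻¹`. -/
lemma eta_inv (τ : GP) :
    (((D.η τ)⁻¹ : kˣ) : k) = (D.ε τ : k) * (((D.χ τ)⁻¹ : kˣ) : k) := by
  have h1 := D.hχ τ
  have h2 : ((D.χ τ : kˣ) : k) * (((D.χ τ)⁻¹ : kˣ) : k) = 1 := by
    rw [← Units.val_mul, mul_inv_cancel, Units.val_one]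
  have h3 : ((D.η τ : kˣ) : k) * (((D.η τ)⁻¹ : kˣ) : k) = 1 := by
    rw [← Units.val_mul, mul_inv_cancel, Units.val_one]
  have h4 : ((D.η τ : kˣ) : k) ≠ 0 := (D.η τ).ne_zero
  apply mul_left_cancel₀ h4
  rw [h3, ← mul_assoc, mul_comm ((D.η τ : kˣ) : k), ← h1, h2]

/-- the Galois action on the characters `ψ_{f,a}`. -/
lemma chi_conj {f : GP → k} (hf : IsAdmO D f) (lam : k →+ ZMod p) (a : k) (g τ : GP)
    (hτ : Fixes D.L₀ τ) :
    (D.ε g : ZMod p) * chi lam f a (g⁻¹ * τ * g) = chi lam f (a * (((D.η g)⁻¹ : kˣ) : k)) τ := by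
  rw [← chi_natCast_mul, chi_apply, chi_apply, hf.conj g τ hτ, D.eta_inv]
  congr 1
  ring

/-- the image of a Kummer generator of `ψ_{f,a}` is a Kummer generator of `ψ_{f, a η(g)⁻¹}`. -/
lemma map_gen {f : GP → k} (hf : IsAdmO D f) (lam : k →+ ZMod p) (a : k) {w : Ω}
    (hgen : IsKummerGen D.L₀ D.ζ (chi lam f a) w) (g : GP) :
    IsKummerGen D.L₀ D.ζ (chi lam f (a * (((D.η g)⁻¹ : kˣ) : k))) (g w) := by
  haveI := D.gal
  exact (hgen.mapNat D.hζ.pow_eq_one g (D.ε g) (D.hε g)).congr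
    fun τ hτ => D.chi_conj hf lam a g τ hτ

/-- the class of `w^p` modulo `p`-th powers is invariant under the norm family. -/
lemma exists_map_eq {f : GP → k} (hf : IsAdmO D f) (lam : k →+ ZMod p) (a : k) {w : Ω}
    (hgen : IsKummerGen D.L₀ D.ζ (chi lam f a) w) (i : D.ι) :
    ∃ y ∈ D.L₀.toSubfield, y ≠ 0 ∧
      ((D.σ i : Ω ≃ₐ[ℚ_[p]] Ω) : Ω →+* Ω) (w ^ p) = w ^ p * y ^ p := by
  have h1 := D.map_gen hf lam a hgen (D.σ i)
  rw [D.hηK (D.σ i) (D.hσK i), inv_one, Units.val_one, mul_one] at h1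
  have hmem : D.σ i w / w ∈ D.L₀ := hgen.div_mem h1 (fun _ _ => rfl) D.zeta_ne_zero
  refine ⟨D.σ i w / w, hmem, div_ne_zero h1.1 hgen.1, ?_⟩
  show D.σ i (w ^ p) = w ^ p * (D.σ i w / w) ^ p
  rw [map_pow, div_pow, mul_div_cancel₀ _ (pow_ne_zero p hgen.1)]

end OrdData

/-- the relation `RO(f, a, b)`: some Kummer generator `w` of `ψ_{f,a}` has `w^p ≡ 1 + p b` with
`b ∈ K'` integral. -/
def RO (D : OrdData p k) (lam : k →+ ZMod p) (f : (PadicAlgCl p ≃ₐ[ℚ_[p]] PadicAlgCl p) → k)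
    (a : k) (b : PadicAlgCl p) : Prop :=
  b ∈ D.K' ∧ ‖b‖ ≤ 1 ∧ ∃ w : PadicAlgCl p, IsKummerGen D.L₀ D.ζ (chi lam f a) w ∧
    Lead ((p : ℕ) : PadicAlgCl p) (w ^ p) b

namespace OrdData

variable (D : OrdData p k)

/-- **(E)** existence. -/
theorem exists_RO (hp2 : p ≠ 2) (lam : k →+ ZMod p) {f : GP → k} (hf : IsAdmO D f) (a : k) :
    ∃ b : Ω, RO D lam f a b := by
  haveI := D.fin
  haveI := D.gal
  haveI := D.finK
  letI := D.fintype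
  have hpp : p.Prime := Fact.out
  have hζp := D.hζ.pow_eq_one
  obtain ⟨L₁, hL1, hL2, hL3, hL4⟩ := hf.adm.2
  haveI := hL1
  haveI := hL2
  haveI := D.finb
  haveI := D.galb
  have hLbdd : FontaineBdd p (L₁ ⊔ D.Lb) := hL3.sup D.bdd
  have hLL : D.L₀ ≤ L₁ ⊔ D.Lb := D.hLb.trans le_sup_right
  -- a first generator
  obtain ⟨w₀, hw₀L, hgen₀⟩ := exists_isKummerGen D.L₀ (L₁ ⊔ D.Lb) hLL hζp D.hζL₀ (chi lam f a)
    (fun σ τ hσ hτ => hf.adm.chi_add lam a σ τ hσ hτ)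
    (fun τ hτ => by
      have h1 : f τ = 0 := hL4 τ fun z hz => hτ z ((le_sup_left : L₁ ≤ L₁ ⊔ D.Lb) hz)
      rw [chi_apply, h1, mul_zero, map_zero])
  have hu₀ : w₀ ^ p ∈ D.L₀ := hgen₀.pow_mem hζp
  have hu₀0 : w₀ ^ p ≠ 0 := pow_ne_zero p hgen₀.1
  obtain ⟨y₁, hy₁L, hy₁0, hy₁⟩ := bddKummer D.L₀ (L₁ ⊔ D.Lb) hLL D.tame hp2 D.hζ D.hζL₀
    (hLbdd.fontaineP_two hp2) hu₀ hu₀0 hw₀L rfl
  have hlam1 : ‖D.ζ - 1‖ < 1 := norm_sub_one_lt_one hpp norm_natCast_p_lt_one D.hζ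
  have hunit : ‖w₀ ^ p * y₁ ^ p‖ = 1 := norm_eq_one_of_norm_sub_one_lt (hy₁.trans hlam1)
  obtain ⟨m, hm⟩ := exists_perfect_exponent D.K'
  obtain ⟨y, hyL, hy0, b, hbK, hb1, hlead⟩ := exists_lead_of_invariant
    (K₀ := D.L₀.toSubfield) (K₁ := D.K'.toSubfield)
    (fun i => ((D.σ i : Ω ≃ₐ[ℚ_[p]] Ω) : Ω →+* Ω))
    (fun i a => norm_galP_apply (D.σ i) a)
    (fun i a ha => map_mem_of_isGalois D.L₀ (D.σ i) ha)
    D.hN hpp norm_natCast_p_lt_one p_ne_zero D.hKL D.unr D.hcard hm hu₀ hu₀0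
    ⟨y₁, hy₁L, hy₁0, hunit⟩ (fun i => D.exists_map_eq hf lam a hgen₀ i)
  refine ⟨b, hbK, hb1, w₀ * y, ?_, ?_⟩
  · exact (hgen₀.mul hζp (isKummerGen_of_mem hyL hy0)).congr fun τ _ => add_zero _
  · rw [mul_pow]
    exact hlead

/-- **(U)** uniqueness modulo the maximal ideal. -/
theorem RO_unique {lam : k →+ ZMod p} {f : GP → k} {a : k} {b b' : Ω}
    (h : RO D lam f a b) (h' : RO D lam f a b') : Cg b b' := by
  have hpp : p.Prime := Fact.out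
  obtain ⟨-, hb1, w, hgen, hlead⟩ := h
  obtain ⟨-, hb'1, w', hgen', hlead'⟩ := h'
  have hy : w' / w ∈ D.L₀ := hgen.div_mem hgen' (fun _ _ => rfl) D.zeta_ne_zero
  have hwp0 : w ^ p ≠ 0 := pow_ne_zero p hgen.1
  have h1 : w ^ p * (1 : Ω) ^ p = w ^ p := by rw [one_pow, mul_one]
  have h2 : w ^ p * (w' / w) ^ p = w' ^ p := by
    rw [div_pow, mul_div_cancel₀ _ hwp0]
  exact lead_unique_mod_pow (K₀ := D.L₀.toSubfield) hpp norm_natCast_p_lt_one D.hπ D.hc₀' D.hpc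
    hwp0 (one_mem _) one_ne_zero hy hb1 hb'1 (h1.symm ▸ hlead) (h2.symm ▸ hlead')

/-- **(Sub)** additivity in `f`. -/
theorem RO_sub {lam : k →+ ZMod p} {f f' : GP → k} {a : k} {b b' : Ω}
    (h : RO D lam f a b) (h' : RO D lam f' a b') : RO D lam (f - f') a (b - b') := by
  have hζp := D.hζ.pow_eq_one
  obtain ⟨hbK, hb1, w, hgen, hlead⟩ := h
  obtain ⟨hb'K, hb'1, w', hgen', hlead'⟩ := h'
  refine ⟨sub_mem hbK hb'K, norm_sub_le_of_le hb1 hb'1, w * w'⁻¹, ?_, ?_⟩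
  · refine (hgen.mul hζp (hgen'.inv hζp)).congr fun τ _ => ?_
    rw [chi_sub, sub_eq_add_neg]
  · have hw'p0 : w' ^ p ≠ 0 := pow_ne_zero p hgen'.1
    have hlinv := hlead'.inv hb'1 p_ne_zero norm_natCast_p_lt_one hw'p0
    have hl := hlead.mul hlinv hb1 (by rwa [norm_neg]) p_ne_zero norm_natCast_p_lt_one
    rw [mul_pow, inv_pow, sub_eq_add_neg]
    exact hl

/-- **(Add)** additivity in `a`. -/
theorem RO_add {lam : k →+ ZMod p} {f : GP → k} {a a' : k} {b b' : Ω}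
    (h : RO D lam f a b) (h' : RO D lam f a' b') : RO D lam f (a + a') (b + b') := by
  have hζp := D.hζ.pow_eq_one
  obtain ⟨hbK, hb1, w, hgen, hlead⟩ := h
  obtain ⟨hb'K, hb'1, w', hgen', hlead'⟩ := h'
  refine ⟨add_mem hbK hb'K, norm_add_le_of_le hb1 hb'1, w * w', ?_, ?_⟩
  · refine (hgen.mul hζp hgen').congr fun τ _ => ?_
    rw [chi_add_left]
  · rw [mul_pow]
    exact hlead.mul hlead' hb1 hb'1 p_ne_zero norm_natCast_p_lt_one

/-- **(Gal)** Galois equivariance. -/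
theorem RO_map {lam : k →+ ZMod p} {f : GP → k} (hf : IsAdmO D f) {a : k} {b : Ω}
    (h : RO D lam f a b) (g : GP) : RO D lam f (a * (((D.η g)⁻¹ : kˣ) : k)) (g b) := by
  haveI := D.galK
  obtain ⟨hbK, hb1, w, hgen, hlead⟩ := h
  refine ⟨map_mem_of_isGalois D.K' g hbK, by rwa [norm_galP_apply], g w,
    D.map_gen hf lam a hgen g, ?_⟩
  have h1 : g ((p : ℕ) : Ω) = 1 * ((p : ℕ) : Ω) := by rw [map_natCast, one_mul]
  have h2 := hlead.galMap g h1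
  rwa [mul_one, map_pow] at h2

/-- **(Z)** the vanishing criterion. -/
theorem RO_zero (hp2 : p ≠ 2) {lam : k →+ ZMod p} {f : GP → k} (hf : IsAdmO D f) {a : k} {b : Ω}
    (h : RO D lam f a b) (hb : ‖b‖ < 1) (τ : GP) (hτ : Fixes D.L₀ τ) : chi lam f a τ = 0 := by
  haveI := D.fin
  haveI := D.gal
  letI := D.fintype
  have hpp : p.Prime := Fact.out
  obtain ⟨-, -, w, hgen, hlead⟩ := h
  have hlt : ‖w ^ p * (1 : Ω) ^ p - 1‖ < ‖((p : ℕ) : Ω)‖ := by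
    rw [one_pow, mul_one]
    exact hlead.norm_sub_one_lt hb p_ne_zero
  have hNewton : ∀ v ∈ D.L₀.toSubfield, ‖v - 1‖ < ‖D.π‖ ^ (p * D.c₀) →
      ∃ y ∈ D.L₀.toSubfield, y ^ p = v := by
    intro v hv h
    rw [mul_comm, pow_mul, ← D.hc₀] at h
    exact exists_pow_eq_of_norm_sub_one_lt D.L₀ D.hζ hv h
  obtain ⟨z, hzL, hz⟩ := exists_pow_eq_of_invariant
    (K₀ := D.L₀.toSubfield) (K₁ := D.K'.toSubfield)
    (fun i => ((D.σ i : Ω ≃ₐ[ℚ_[p]] Ω) : Ω →+* Ω))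
    (fun i a => norm_galP_apply (D.σ i) a)
    (fun i a ha => map_mem_of_isGalois D.L₀ (D.σ i) ha)
    D.hN hpp norm_natCast_p_lt_one hp2 D.hKL D.unr D.hcard D.hπ D.hc₀' hNewton
    (hgen.pow_mem D.hζ.pow_eq_one) (pow_ne_zero p hgen.1)
    (fun i => D.exists_map_eq hf lam a hgen i) (one_mem _) one_ne_zero hlt
  exact hgen.eq_zero_of_pow_eq D.hζ D.hζL₀ hzL hz.symm τ hτ

end OrdData

end Basic

end Fermat.Agent.TW.Flat
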