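/-
F2 (flat local condition at p), reducible (ordinary) case, count, part 2: there are at most `|k|`
admissible functions modulo those vanishing on the fixing subgroup of `L₀`.
-/
import Mathlib
import Fermat.Agent.TW.FlatOrd4_helper8
import Fermat.Agent.TW.FlatLeaf_helper4_S
import Fermat.Agent.TW.FlatLeaf_helper5_NF

set_option autoImplicit false
set_option linter.unusedSectionVars false
set_option linter.style.haveILetI false

namespace Fermat.Agent.TW.Flat

open Fermat.Agent.Ram Fermat.Agent.TW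

variable {p : ℕ} [Fact p.Prime] {k : Type} [Field k]

local notation "Ω" => PadicAlgCl p
local notation "GP" => (PadicAlgCl p ≃ₐ[ℚ_[p]] PadicAlgCl p)

section HomSpace

variable [Finite k] [CharP k p] {F : Type} [Field F] [CharP F p]

/-- the space of additive maps `k → F` is finite dimensional over `F`, of dimension at most
`log_p |k|`. -/
lemma finite_addMonoidHom_finrank_le :
    Module.Finite F (k →+ F) ∧ p ^ Module.finrank F (k →+ F) ≤ Nat.card k := by
  letI : Algebra (ZMod p) k := ZMod.algebra k p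
  letI : Algebra (ZMod p) F := ZMod.algebra F p
  haveI : Module.Finite (ZMod p) k := Module.Finite.of_finite
  haveI : Module.Finite F (k →ₗ[ZMod p] F) := inferInstance
  have h1 : Module.finrank F (k →ₗ[ZMod p] F)
      = Module.finrank (ZMod p) k * Module.finrank F F :=
    Module.finrank_linearMap (ZMod p) F k F
  have h2 : Nat.card k = p ^ Module.finrank (ZMod p) k := by
    have h' := Module.natCard_eq_pow_finrank (K := ZMod p) (V := k)
    rwa [Nat.card_zmod] at h'
  obtain ⟨j, hj⟩ : ∃ j : (k →+ F) →ₗ[F] (k →ₗ[ZMod p] F),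
      ∀ T : k →+ F, j T = T.toZModLinearMap p :=
    ⟨{ toFun := fun T => T.toZModLinearMap p
       map_add' := fun T T' => by
         apply LinearMap.ext
         intro a
         rfl
       map_smul' := fun c T => by
         apply LinearMap.ext
         intro a
         rfl }, fun _ => rfl⟩
  have hjinj : Function.Injective j := by
    intro T T' h
    rw [hj, hj] at h
    exact AddMonoidHom.toZModLinearMap_injective p h
  haveI : Module.Finite F (k →+ F) := Module.Finite.of_injective j hjinj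
  refine ⟨inferInstance, ?_⟩
  have h3 := LinearMap.finrank_le_finrank_of_injective hjinj
  rw [h1, Module.finrank_self, mul_one] at h3
  rw [h2]
  exact Nat.pow_le_pow_right (Fact.out : p.Prime).pos h3

end HomSpace

section ResK

variable [Finite k] [CharP k p] (D : OrdData p k)

/-- the residue class of an integral element of `K'`. -/
noncomputable def OrdData.resK (x : PadicAlgCl p) (hxK : x ∈ D.K') (hx1 : ‖x‖ ≤ 1) : Res D.K' :=
  res D.K' ⟨⟨x, hxK⟩, hx1⟩

lemma OrdData.resK_eq_iff {x x' : Ω} (hxK : x ∈ D.K') (hx1 : ‖x‖ ≤ 1)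
    (hx'K : x' ∈ D.K') (hx'1 : ‖x'‖ ≤ 1) :
    D.resK x hxK hx1 = D.resK x' hx'K hx'1 ↔ Cg x x' := by
  unfold OrdData.resK
  rw [res_eq_iff]
  rfl

lemma OrdData.resK_add {x y : Ω} (hxK : x ∈ D.K') (hx1 : ‖x‖ ≤ 1)
    (hyK : y ∈ D.K') (hy1 : ‖y‖ ≤ 1) (hxyK : x + y ∈ D.K') (hxy1 : ‖x + y‖ ≤ 1) :
    D.resK (x + y) hxyK hxy1 = D.resK x hxK hx1 + D.resK y hyK hy1 := by
  unfold OrdData.resK
  rw [← map_add]
  rfl

lemma OrdData.resK_natCast (n : ℕ) (hnK : (n : Ω) ∈ D.K') (hn1 : ‖(n : Ω)‖ ≤ 1) :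
    D.resK (n : Ω) hnK hn1 = (n : Res D.K') := by
  unfold OrdData.resK
  rw [← map_natCast (res D.K') n]
  rfl

lemma OrdData.resK_surjective (ξ : Res D.K') :
    ∃ (x : Ω) (hxK : x ∈ D.K') (hx1 : ‖x‖ ≤ 1), D.resK x hxK hx1 = ξ := by
  obtain ⟨a, rfl⟩ := res_surjective ξ
  exact ⟨((a : D.K') : Ω), (a : D.K').2, a.2, rfl⟩

instance OrdData.charP_resK : CharP (Res D.K') p := by
  refine (CharP.charP_iff_prime_eq_zero (Fact.out : p.Prime)).mpr ?_
  have h1 : ((p : ℕ) : Res D.K') = D.resK ((p : ℕ) : Ω) (natCast_mem _ _)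
      norm_natCast_p_lt_one.le := (D.resK_natCast p _ _).symm
  rw [h1]
  unfold OrdData.resK
  rw [res_eq_zero_iff]
  exact norm_natCast_p_lt_one

/-- the automorphism of the residue field of `K'` induced by `g`. -/
noncomputable def OrdData.gbar (g : PadicAlgCl p ≃ₐ[ℚ_[p]] PadicAlgCl p) :
    Res D.K' →+* Res D.K' :=
  haveI := D.galK
  resHom (AlgEquiv.restrictNormalHom D.K' g)

lemma OrdData.gbar_resK (g : GP) {x : Ω} (hxK : x ∈ D.K') (hx1 : ‖x‖ ≤ 1)
    (hgK : g x ∈ D.K') (hg1 : ‖g x‖ ≤ 1) :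
    D.gbar g (D.resK x hxK hx1) = D.resK (g x) hgK hg1 := by
  haveI := D.galK
  unfold OrdData.gbar OrdData.resK
  rw [resHom_res]
  congr 1
  apply Subtype.ext
  apply Subtype.ext
  show ((AlgEquiv.restrictNormalHom D.K' g) ⟨x, hxK⟩ : D.K').1 = g x
  exact AlgEquiv.restrictNormal_commutes g D.K' ⟨x, hxK⟩

/-- the common fixed field of the `gbar g` is the prime field. -/
lemma OrdData.gbar_fixed (ξ : Res D.K') (h : ∀ g : GP, D.gbar g ξ = ξ) : ∃ n : ℕ, ξ = n := by
  haveI := D.finK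
  haveI := D.galK
  obtain ⟨x, hxK, hx1, rfl⟩ := D.resK_surjective ξ
  have hfix : ∀ τ : GP, ‖τ x - x‖ < 1 := by
    intro τ
    have h1 := h τ
    rw [D.gbar_resK τ hxK hx1 (map_mem_of_isGalois D.K' τ hxK) (by rwa [norm_galP_apply]),
      D.resK_eq_iff] at h1
    exact h1
  obtain ⟨n, hn⟩ := exists_nat_norm_sub_lt_one_of_fixed p D.K' D.tameK hxK hx1 hfix
  refine ⟨n, ?_⟩
  rw [← D.resK_natCast n (natCast_mem _ _) (IsUltrametricDist.norm_natCast_le_one Ω n),
    D.resK_eq_iff]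
  exact hn

end ResK

section Count

variable [Finite k] [CharP k p] (D : OrdData p k)

/-- the semilinear operators `T ↦ (a ↦ ḡ (T (a η(g))))` on additive maps `k → κ(K')`. -/
noncomputable def OrdData.PsiE (g : PadicAlgCl p ≃ₐ[ℚ_[p]] PadicAlgCl p) :
    (k →+ Res D.K') →+ (k →+ Res D.K') where
  toFun T := ((D.gbar g : Res D.K' →+* Res D.K') : Res D.K' →+ Res D.K').comp
    (T.comp (AddMonoidHom.mulRight ((D.η g : kˣ) : k)))
  map_zero' := by
    apply AddMonoidHom.ext
    intro a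
    show D.gbar g ((0 : k →+ Res D.K') (a * ((D.η g : kˣ) : k))) = 0
    rw [AddMonoidHom.zero_apply, map_zero]
  map_add' T T' := by
    apply AddMonoidHom.ext
    intro a
    show D.gbar g ((T + T') (a * ((D.η g : kˣ) : k)))
      = D.gbar g (T (a * ((D.η g : kˣ) : k))) + D.gbar g (T' (a * ((D.η g : kˣ) : k)))
    rw [AddMonoidHom.add_apply, map_add]

lemma OrdData.PsiE_apply (g : GP) (T : k →+ Res D.K') (a : k) :
    D.PsiE g T a = D.gbar g (T (a * ((D.η g : kˣ) : k))) := rfl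

/-- **Count (ordinary case).** There are at most `|k|` admissible functions, modulo those
vanishing on the fixing subgroup of `L₀`. -/
theorem OrdData.count (hp2 : p ≠ 2) :
    ∃ (T : Type) (_ : Finite T) (Ψ : ((PadicAlgCl p ≃ₐ[ℚ_[p]] PadicAlgCl p) → k) → T),
      Nat.card T ≤ Nat.card k ∧
      ∀ f f' : (PadicAlgCl p ≃ₐ[ℚ_[p]] PadicAlgCl p) → k, IsAdmO D f → IsAdmO D f' →
        Ψ f = Ψ f' → ∀ τ : PadicAlgCl p ≃ₐ[ℚ_[p]] PadicAlgCl p, Fixes D.L₀ τ → f τ = f' τ := by
  classical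
  haveI := D.galK
  obtain ⟨lam, hlam⟩ := exists_lam (p := p) (k := k)
  -- the leading coefficient function
  obtain ⟨Tfun, hTfun⟩ : ∃ Tfun : (GP → k) → k → Res D.K',
      ∀ (f : GP → k) (a : k) (b : Ω) (h : RO D lam f a b), Tfun f a = D.resK b h.1 h.2.1 := by
    refine ⟨fun f a => if h : ∃ b, RO D lam f a b then
      D.resK (Classical.choose h) (Classical.choose_spec h).1 (Classical.choose_spec h).2.1
      else 0, fun f a b h => ?_⟩
    have hex : ∃ b, RO D lam f a b := ⟨b, h⟩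
    beta_reduce
    rw [dif_pos hex, D.resK_eq_iff]
    exact D.RO_unique (Classical.choose_spec hex) h
  have hTadd : ∀ f : GP → k, IsAdmO D f → ∀ a a' : k,
      Tfun f (a + a') = Tfun f a + Tfun f a' := by
    intro f hf a a'
    obtain ⟨b, hb⟩ := D.exists_RO hp2 lam hf a
    obtain ⟨b', hb'⟩ := D.exists_RO hp2 lam hf a'
    have hsum := D.RO_add hb hb'
    rw [hTfun f a b hb, hTfun f a' b' hb', hTfun f (a + a') (b + b') hsum]
    exact D.resK_add hb.1 hb.2.1 hb'.1 hb'.2.1 hsum.1 hsum.2.1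
  obtain ⟨Thom, hThom⟩ : ∃ Thom : (GP → k) → (k →+ Res D.K'),
      ∀ f : GP → k, IsAdmO D f → ∀ a : k, Thom f a = Tfun f a := by
    refine ⟨fun f => if hf : IsAdmO D f then AddMonoidHom.mk' (Tfun f) (hTadd f hf) else 0,
      fun f hf a => ?_⟩
    beta_reduce
    rw [dif_pos hf]
    rfl
  -- fixed by the semilinear operators
  have hfixed : ∀ f : GP → k, IsAdmO D f → ∀ g : GP, D.PsiE g (Thom f) = Thom f := by
    intro f hf g
    apply AddMonoidHom.ext
    intro a
    rw [D.PsiE_apply, hThom f hf, hThom f hf]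
    obtain ⟨b, hb⟩ := D.exists_RO hp2 lam hf (a * ((D.η g : kˣ) : k))
    have hmap := D.RO_map hf hb g
    have h1 : a * ((D.η g : kˣ) : k) * (((D.η g)⁻¹ : kˣ) : k) = a := by
      rw [mul_assoc, ← Units.val_mul, mul_inv_cancel, Units.val_one, mul_one]
    rw [h1] at hmap
    rw [hTfun f _ b hb, hTfun f a (g b) hmap]
    exact D.gbar_resK g hb.1 hb.2.1 hmap.1 hmap.2.1
  -- the count
  obtain ⟨hfin, hrank⟩ := finite_addMonoidHom_finrank_le (p := p) (k := k) (F := Res D.K')
  haveI := hfin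
  obtain ⟨hTfin, hTcard⟩ := card_semilinear_fixed_le (p := p) (F := Res D.K')
    (E := k →+ Res D.K') (fun g : GP => D.gbar g) (fun g : GP => D.PsiE g)
    (fun g c T => by
      apply AddMonoidHom.ext
      intro a
      show D.gbar g ((c • T) (a * ((D.η g : kˣ) : k)))
        = D.gbar g c • D.gbar g (T (a * ((D.η g : kˣ) : k)))
      rw [AddMonoidHom.smul_apply, smul_eq_mul, map_mul, smul_eq_mul])
    (fun ξ h => D.gbar_fixed ξ h)
  refine ⟨{x : k →+ Res D.K' // ∀ g : GP, D.PsiE g x = x}, hTfin,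
    fun f => if hf : IsAdmO D f then ⟨Thom f, hfixed f hf⟩ else ⟨0, fun g => map_zero _⟩,
    hTcard.trans hrank, ?_⟩
  intro f f' hf hf' hΨ τ hτ
  simp only [dif_pos hf, dif_pos hf'] at hΨ
  have hT : Thom f = Thom f' := congrArg Subtype.val hΨ
  have hg := hf.sub hf'
  by_contra hne
  have hne' : (f - f') τ ≠ 0 := by
    rw [Pi.sub_apply]
    exact sub_ne_zero.mpr hne
  obtain ⟨a, ha⟩ : ∃ a : k, a = ((f - f') τ)⁻¹ := ⟨_, rfl⟩
  obtain ⟨b, hb⟩ := D.exists_RO hp2 lam hf a
  obtain ⟨b', hb'⟩ := D.exists_RO hp2 lam hf' a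
  have hbb' : Cg b b' := by
    rw [← D.resK_eq_iff hb.1 hb.2.1 hb'.1 hb'.2.1, ← hTfun f a b hb, ← hTfun f' a b' hb',
      ← hThom f hf, ← hThom f' hf', hT]
  have hzero := D.RO_zero hp2 hg (D.RO_sub hb hb') hbb' τ hτ
  rw [chi_apply, ha, inv_mul_cancel₀ hne', hlam] at hzero
  exact one_ne_zero hzero

end Count

end Fermat.Agent.TW.Flat
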