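/-
F2 (flat local condition at p), reducible (ordinary) case, count, part 3: construction of the
data `OrdData` from a character `χ` of `G_p` which is cyclotomic on inertia and factors through a
Fontaine-bounded field.
-/
import Mathlib
import Fermat.Agent.TW.FlatOrd5_helper8
import Fermat.Agent.TW.FlatLeaf_helper5_C1
import Fermat.Agent.TW.FlatLeaf_helper1_UNR
import Fermat.Agent.CFT.LocForm.F1Cyc_helper4

set_option autoImplicit false
set_option linter.unusedSectionVars false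
set_option linter.style.haveILetI false

namespace Fermat.Agent.TW.Flat

open Fermat.Agent.Ram Fermat.Agent.TW Fermat.Agent.CFT.LocForm

variable {p : ℕ} [Fact p.Prime] {k : Type} [Field k]

local notation "Ω" => PadicAlgCl p
local notation "GP" => (PadicAlgCl p ≃ₐ[ℚ_[p]] PadicAlgCl p)

section Card

variable [Finite k] [CharP k p]

lemma not_dvd_card_units : ¬ p ∣ Nat.card kˣ := by
  classical
  have hpp : p.Prime := Fact.out
  haveI : Fintype k := Fintype.ofFinite k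
  obtain ⟨n, -, hn⟩ := FiniteField.card k p
  rw [Nat.card_eq_fintype_card, Fintype.card_units, hn]
  intro h
  have h1 : p ∣ p ^ (n : ℕ) := dvd_pow_self p n.ne_zero
  have h2 : 1 ≤ p ^ (n : ℕ) := Nat.one_le_pow _ _ hpp.pos
  have h3 : p ∣ 1 := by
    have h4 : p ^ (n : ℕ) - (p ^ (n : ℕ) - 1) = 1 := by omega
    rw [← h4]
    exact Nat.dvd_sub h1 h
  exact hpp.one_lt.ne' (Nat.dvd_one.mp h3)

lemma not_dvd_card_units_prod : ¬ p ∣ Nat.card (kˣ × kˣ) := by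
  have hpp : p.Prime := Fact.out
  rw [Nat.card_prod]
  intro h
  rcases (Nat.Prime.dvd_mul hpp).mp h with h1 | h1 <;> exact not_dvd_card_units h1

end Card

section Zeta

/-- powers of a `p`-th root of unity only depend on the exponent modulo `p` (as seen in `k`). -/
lemma zeta_pow_eq_of_cast_eq [CharP k p] {ζ : Ω} (hζ : ζ ^ p = 1) {a b : ℕ}
    (h : (a : k) = (b : k)) : ζ ^ a = ζ ^ b := by
  have h1 : a ≡ b [MOD p] := (CharP.natCast_eq_natCast k p).mp h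
  have h2 : ∀ n : ℕ, ζ ^ n = ζ ^ (n % p) := by
    intro n
    conv_lhs => rw [← Nat.mod_add_div n p, pow_add, pow_mul, hζ, one_pow, mul_one]
  rw [h2 a, h2 b, h1]

end Zeta

section Construct

variable [Finite k] [CharP k p]

/-- **construction of the data of the ordinary case.** -/
theorem exists_ordData (χ εbar : (PadicAlgCl p ≃ₐ[ℚ_[p]] PadicAlgCl p) →* kˣ)
    (hε : ∀ τ : PadicAlgCl p ≃ₐ[ℚ_[p]] PadicAlgCl p,
      ((εbar τ : kˣ) : k) = (padicCycNat p p τ : k))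
    (hχI : ∀ τ ∈ unrInertia p, χ τ = εbar τ)
    (hbdd : ∃ L : IntermediateField ℚ_[p] (PadicAlgCl p), FiniteDimensional ℚ_[p] L ∧
      IsGalois ℚ_[p] L ∧ FontaineBdd p L ∧
      ∀ τ : PadicAlgCl p ≃ₐ[ℚ_[p]] PadicAlgCl p, (∀ z ∈ L, τ z = z) → χ τ = 1 ∧ εbar τ = 1) :
    ∃ D : OrdData p k, D.χ = χ ∧
      ∀ τ : PadicAlgCl p ≃ₐ[ℚ_[p]] PadicAlgCl p, Fixes D.L₀ τ ↔ (χ τ = 1 ∧ εbar τ = 1) := by
  classical
  have hpp : p.Prime := Fact.out
  obtain ⟨Lb, hLb1, hLb2, hLb3, hLb4⟩ := hbdd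
  haveI := hLb1
  haveI := hLb2
  -- the field `L₀`
  obtain ⟨L₀, hL1, hL2, hL3, hL4⟩ := exists_tame_galois_field p
    (not_dvd_card_units_prod (p := p) (k := k)) (χ.prod εbar)
    ⟨Lb, hLb1, fun τ hτ => by
      rw [MonoidHom.prod_apply, (hLb4 τ hτ).1, (hLb4 τ hτ).2]
      rfl⟩
  haveI := hL1
  haveI := hL2
  have hfixL₀ : ∀ τ : GP, Fixes L₀ τ ↔ (χ τ = 1 ∧ εbar τ = 1) := by
    intro τ
    unfold Fixes
    rw [hL4 τ, MonoidHom.prod_apply, Prod.mk_eq_one]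
  have hL₀Lb : L₀ ≤ Lb := by
    intro x hx
    refine mem_of_forall_fixing Lb fun τ hτ => ?_
    exact (hfixL₀ τ).mpr (hLb4 τ hτ) x hx
  -- the field `K'`
  obtain ⟨η, hη⟩ : ∃ η : GP →* kˣ, η = χ / εbar := ⟨_, rfl⟩
  have hηapp : ∀ τ : GP, η τ = χ τ / εbar τ := fun τ => by rw [hη]; rfl
  obtain ⟨K', hK1, hK2, hK3, hK4⟩ := exists_tame_galois_field p
    (not_dvd_card_units (p := p) (k := k)) η
    ⟨Lb, hLb1, fun τ hτ => by
      rw [hηapp, (hLb4 τ hτ).1, (hLb4 τ hτ).2, div_one]⟩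
  haveI := hK1
  haveI := hK2
  have hK'L₀ : K' ≤ L₀ := by
    intro x hx
    refine mem_of_forall_fixing L₀ fun τ hτ => ?_
    have h1 := (hfixL₀ τ).mp hτ
    have h2 : η τ = 1 := by rw [hηapp, h1.1, h1.2, div_one]
    exact (hK4 τ).mpr h2 x hx
  have hunrfix : ∀ τ ∈ unrInertia p, ∀ z ∈ K', τ z = z := by
    intro τ hτ
    refine (hK4 τ).mpr ?_
    rw [hηapp, hχI τ hτ, div_self']
  have hp1 : (1 : ℝ) < p := one_lt_p_real p
  have hunr : ∀ x ∈ K', ‖x‖ < 1 → ‖x‖ ≤ ‖((p : ℕ) : Ω)‖ := by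
    intro x hx hx1
    rw [norm_natCast_p]
    by_cases hx0 : x = 0
    · rw [hx0, norm_zero]
      exact inv_nonneg.mpr (p_real_pos p).le
    obtain ⟨m, hm⟩ := exists_zpow_norm_eq_of_unrInertia_fixed p K' hunrfix hx hx0
    rw [hm] at hx1 ⊢
    have hm0 : m < 0 := by
      by_contra hcon
      have h1 : (1 : ℝ) ≤ (p : ℝ) ^ m := one_le_zpow₀ hp1.le (not_lt.mp hcon)
      exact absurd hx1 (not_lt.mpr h1)
    have h2 : (p : ℝ) ^ m ≤ (p : ℝ) ^ (-1 : ℤ) := zpow_le_zpow_right₀ hp1.le (by omega)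
    rwa [zpow_neg_one] at h2
  -- the root of unity
  obtain ⟨ζ, hζdef⟩ : ∃ ζ : Ω, ζ = padicZeta p p := ⟨_, rfl⟩
  have hζ : IsPrimitiveRoot ζ p := hζdef ▸ padicZeta_spec p p
  have hεζ : ∀ τ : GP, τ ζ = ζ ^ padicCycNat p p τ := fun τ => by
    rw [hζdef]; exact padicCyc_spec_zeta p p τ
  have hζL₀ : ζ ∈ L₀ := by
    refine mem_of_forall_fixing L₀ fun τ hτ => ?_
    have h1 := ((hfixL₀ τ).mp hτ).2
    have h2 : ((padicCycNat p p τ : ℕ) : k) = ((1 : ℕ) : k) := by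
      rw [← hε τ, h1, Units.val_one, Nat.cast_one]
    rw [hεζ τ, zeta_pow_eq_of_cast_eq (k := k) hζ.pow_eq_one h2, pow_one]
  -- the uniformizer
  obtain ⟨π, hπ⟩ := exists_isUnif_toSubfield L₀
  have hlam1 : ‖ζ - 1‖ < 1 := norm_sub_one_lt_one hpp norm_natCast_p_lt_one hζ
  have hlam0 : ζ - 1 ≠ 0 := norm_pos_iff.mp (norm_sub_one_pos hpp hζ)
  obtain ⟨c₀, hc₀⟩ := hπ.exists_pow (x := ζ - 1) (sub_mem hζL₀ (one_mem _)) hlam0 hlam1.le
  have hc₀' : (‖π‖ ^ c₀) ^ (p - 1) = ‖((p : ℕ) : Ω)‖ := by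
    rw [← hc₀]; exact norm_sub_one_pow_eq hpp hζ
  -- `p ∤ c₀`
  have hpc : ¬ p ∣ c₀ := by
    obtain ⟨n₀, σ₀, hn₀, -, hN₀, -⟩ := exists_norm_family p ⊥ L₀ bot_le
    intro hdvd
    have hρ0 := hπ.pos
    have hρ1 := hπ.lt_one
    obtain ⟨c, hc⟩ := IntermediateField.mem_bot.mp (hN₀ π hπ.mem)
    have hnorm : ‖c‖ = ‖π‖ ^ n₀ := by
      rw [← PadicAlgCl.norm_extends, hc, norm_prod]
      simp only [norm_galP_apply]
      rw [Finset.prod_const, Finset.card_univ, Fintype.card_fin]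
    have hc0 : c ≠ 0 := by
      intro h0
      rw [h0, norm_zero] at hnorm
      exact absurd hnorm.symm (pow_pos hρ0 n₀).ne'
    have hfr0 : 0 < Module.finrank ℚ_[p] L₀ := Module.finrank_pos
    have hn₀0 : n₀ ≠ 0 := by
      rintro rfl
      rw [zero_dvd_iff] at hn₀
      omega
    rw [Padic.norm_eq_zpow_neg_valuation hc0] at hnorm
    have hlt : (p : ℝ) ^ (-c.valuation) < 1 := by
      rw [hnorm]; exact pow_lt_one₀ hρ0.le hρ1 hn₀0
    have hv : 0 < c.valuation := by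
      by_contra hcon
      have h1 : (1 : ℝ) ≤ (p : ℝ) ^ (-c.valuation) := one_le_zpow₀ hp1.le (by omega)
      exact absurd hlt (not_lt.mpr h1)
    obtain ⟨m, hm⟩ : ∃ m : ℕ, c.valuation = m := ⟨c.valuation.toNat, (Int.toNat_of_nonneg hv.le).symm⟩
    have h1 : ‖π‖ ^ n₀ = ‖π‖ ^ (c₀ * (p - 1) * m) := by
      rw [← hnorm, hm, pow_mul, pow_mul, hc₀', norm_natCast_p, zpow_neg, zpow_natCast, inv_pow]
    have h2 : n₀ = c₀ * (p - 1) * m := pow_right_injective₀ hρ0 hρ1.ne h1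
    have h3 : p ∣ Module.finrank ℚ_[p] L₀ :=
      (hdvd.trans ⟨(p - 1) * m, by rw [h2]; ring⟩).trans hn₀
    exact hL3 h3
  -- the norm family
  obtain ⟨n, σ, hn, hσK, hN, -⟩ := exists_norm_family p K' L₀ hK'L₀
  have hcard : ¬ p ∣ Fintype.card (Fin n) := by
    rw [Fintype.card_fin]
    exact fun h => hL3 (h.trans hn)
  refine ⟨{ L₀ := L₀, fin := hL1, gal := hL2, tame := hL3, Lb := Lb, finb := hLb1, galb := hLb2,
            bdd := hLb3, hLb := hL₀Lb, K' := K', finK := hK1, galK := hK2, tameK := hK3,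
            hKL := hK'L₀, unr := hunr, ζ := ζ, hζ := hζ, hζL₀ := hζL₀, π := π, hπ := hπ,
            c₀ := c₀, hc₀ := hc₀, hpc := hpc, χ := χ, η := η, ε := fun τ => padicCycNat p p τ,
            hε := hεζ, hχ := ?_, hηK := fun τ hτ => (hK4 τ).mp hτ, ι := Fin n,
            fintype := inferInstance, σ := σ, hσK := hσK, hN := hN, hcard := hcard },
    rfl, hfixL₀⟩
  intro τ
  rw [hηapp, ← hε τ, ← Units.val_mul, mul_div_cancel]

end Construct

end Fermat.Agent.TW.Flat
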