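/-
F2 (flat local condition at p), reducible (ordinary) case: the core count (C').
For a character `χ` of `G_p` which is cyclotomic on inertia and factors through a Fontaine-bounded
field, the Fontaine-bounded classes in `H¹(G_p, k(χ))` number at most `|k|`.
-/
import Mathlib
import Fermat.Agent.TW.FlatOrd6_helper8
import Fermat.Agent.TW.FlatLeaf_helper1_AVG
import Fermat.Agent.TW.ChiRep_helper6
import Fermat.Agent.TW.FlatBdd_helper7
import Fermat.Agent.TW.Hub_helper9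

set_option autoImplicit false
set_option linter.unusedSectionVars false
set_option linter.style.haveILetI false

namespace Fermat.Agent.TW.Flat

open Fermat.Agent.S53 groupCohomology CategoryTheory ExtCitation Fermat.Agent.Ram Fermat.Agent.TW
  Fermat.Agent.CFT.LocForm Fermat.Agent.CFT.Sm Fermat.Agent.CFT.Bridge Fermat.Agent.CFT.Arith

variable {p : ℕ} [Fact p.Prime] {k : Type} [Field k]

local notation "Ω" => PadicAlgCl p
local notation "GP" => (PadicAlgCl p ≃ₐ[ℚ_[p]] PadicAlgCl p)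

section ClsCount

/-- a local condition pulled back to `Ext¹` is no bigger than the condition itself. -/
theorem card_locCond_le_card_of_finite {Γ : Type} [Group Γ] {𝒰 : OpenBasis Γ} (X : SmRep ℤ 𝒰)
    (𝓛 : AddSubgroup (H1 X.obj)) [Finite 𝓛] :
    Finite (locCond X 𝓛) ∧ Nat.card (locCond X 𝓛) ≤ Nat.card 𝓛 := by
  obtain ⟨j, hj⟩ : ∃ j : locCond X 𝓛 → 𝓛, ∀ e, (j e : H1 X.obj) = clsH1 X e :=
    ⟨fun e => ⟨clsH1 X e, e.2⟩, fun _ => rfl⟩
  have hinj : Function.Injective j := by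
    intro e e' h
    apply Subtype.ext
    apply clsH1_injective X
    rw [← hj, ← hj, h]
  exact ⟨Finite.of_injective j hinj, Nat.card_le_card_of_injective j hinj⟩

end ClsCount

section Core

variable [Finite k] [CharP k p]

/-- cocycles with values in `k(χ)` are admissible. -/
lemma isAdmO_of_cocycle (D : OrdData p k) (c : (PadicAlgCl p ≃ₐ[ℚ_[p]] PadicAlgCl p) → k)
    (hcoc : ∀ g h : PadicAlgCl p ≃ₐ[ℚ_[p]] PadicAlgCl p,
      c (g * h) = ((D.χ g : kˣ) : k) * c h + c g)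
    (hχL : ∀ τ : PadicAlgCl p ≃ₐ[ℚ_[p]] PadicAlgCl p, Fixes D.L₀ τ → D.χ τ = 1)
    (hbdd : IsBddFun p c) : IsAdmO D c := by
  have hone : c 1 = 0 := by
    have h1 := hcoc 1 1
    rw [mul_one, map_one, Units.val_one, one_mul] at h1
    exact left_eq_add.mp h1
  refine ⟨⟨fun σ τ hσ _ => ?_, hbdd⟩, fun σ τ hτ => ?_⟩
  · rw [hcoc σ τ, hχL σ hσ, Units.val_one, one_mul, add_comm]
  · have h1 : c (σ⁻¹ * σ) = (((D.χ σ)⁻¹ : kˣ) : k) * c σ + c σ⁻¹ := by
      rw [hcoc σ⁻¹ σ, map_inv]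
    rw [inv_mul_cancel, hone] at h1
    rw [mul_assoc, hcoc σ⁻¹ (τ * σ), hcoc τ σ, hχL τ hτ, Units.val_one, one_mul, map_inv]
    linear_combination -h1

/-- **(C'), `H¹`-level.** -/
theorem card_bddCond_chiRep_le (hp2 : p ≠ 2)
    (χ : primeLocalGaloisGroup (pPrime p) →* kˣ)
    (hχI : ∀ τ ∈ locInertia (pPrime p), χ τ = cycloCharLoc p k τ)
    (hbdd : ∃ L : IntermediateField ℚ_[p] (PadicAlgCl p), FiniteDimensional ℚ_[p] L ∧
      IsGalois ℚ_[p] L ∧ FontaineBdd p L ∧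
      ∀ τ : PadicAlgCl p ≃ₐ[ℚ_[p]] PadicAlgCl p, (∀ z ∈ L, τ z = z) →
        χ τ = 1 ∧ cycloCharLoc p k τ = 1) :
    Finite ↥(bddCond p (chiRep χ)) ∧ Nat.card ↥(bddCond p (chiRep χ)) ≤ Nat.card k := by
  classical
  have hpp : p.Prime := Fact.out
  obtain ⟨χ', hχ'⟩ : ∃ χ' : GP →* kˣ, χ' = χ := ⟨χ, rfl⟩
  obtain ⟨εbar, hεbar⟩ : ∃ εbar : GP →* kˣ, εbar = cycloCharLoc p k := ⟨cycloCharLoc p k, rfl⟩
  have hε : ∀ τ : GP, ((εbar τ : kˣ) : k) = (padicCycNat p p τ : k) := by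
    intro τ
    rw [hεbar]
    exact cycloCharLoc_spec p k τ _ (fun μ hμ => localGaloisToGlobal_pow p p τ μ hμ)
  have hχI' : ∀ τ ∈ unrInertia p, χ' τ = εbar τ := by
    intro τ hτ
    rw [hχ', hεbar]
    exact hχI τ ((mem_locInertia (pPrime p) τ).mpr (localGaloisToGlobal_mem_inertiaSubgroupIn τ hτ))
  obtain ⟨D, hDχ, hfix⟩ := exists_ordData χ' εbar hε hχI' (by
    obtain ⟨L, h1, h2, h3, h4⟩ := hbdd
    exact ⟨L, h1, h2, h3, fun τ hτ => by rw [hχ', hεbar]; exact h4 τ hτ⟩)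
  obtain ⟨T, hT, Ψ, hcard, hinj⟩ := D.count hp2
  haveI := hT
  -- the subgroup fixing `L₀`
  obtain ⟨N, hN⟩ : ∃ N : Subgroup GP, N = (χ'.prod εbar).ker := ⟨_, rfl⟩
  have hNmem : ∀ τ : GP, τ ∈ N ↔ Fixes D.L₀ τ := by
    intro τ
    rw [hN, MonoidHom.mem_ker, MonoidHom.prod_apply, Prod.mk_eq_one, hfix τ]
  haveI hNfin : N.FiniteIndex := by
    rw [hN]
    infer_instance
  have hNcop : (N.index).Coprime p := by
    rw [hN, Subgroup.index_ker]
    refine (Nat.Coprime.symm ((Nat.Prime.coprime_iff_not_dvd hpp).mpr fun h => ?_))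
    exact not_dvd_card_units_prod (p := p) (k := k)
      (h.trans (Subgroup.card_subgroup_dvd_card _))
  have hpY : ∀ y : (chiRep χ).V, p • y = 0 := by
    intro y
    show p • (show k from y) = 0
    rw [nsmul_eq_mul, CharP.cast_eq_zero, zero_mul]
  -- chosen bounded representatives
  have hrep : ∀ x : ↥(bddCond p (chiRep χ)), ∃ c : cocycles₁ (chiRep χ),
      IsBddFun p (fun τ : GP => (c : primeLocalGaloisGroup (pPrime p) → (chiRep χ).V) τ) ∧
        (H1π (chiRep χ)).hom c = x := fun x => x.2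
  choose rep hrepb hrepx using hrep
  have hadm : ∀ x : ↥(bddCond p (chiRep χ)),
      IsAdmO D (fun τ : GP => (show k from (rep x : primeLocalGaloisGroup (pPrime p) →
        (chiRep χ).V) τ)) := by
    intro x
    refine isAdmO_of_cocycle D _ (fun g h => ?_) (fun τ hτ => ?_) (hrepb x)
    · have h1 := (mem_cocycles₁_iff (rep x : primeLocalGaloisGroup (pPrime p) →
        (chiRep χ).V)).1 (rep x).2 g h
      rw [hDχ, hχ']
      exact h1
    · rw [hDχ]
      exact ((hfix τ).mp hτ).1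
  obtain ⟨j, hj⟩ : ∃ j : ↥(bddCond p (chiRep χ)) → T, ∀ x, j x = Ψ (fun τ : GP =>
      (show k from (rep x : primeLocalGaloisGroup (pPrime p) → (chiRep χ).V) τ)) :=
    ⟨_, fun _ => rfl⟩
  have hjinj : Function.Injective j := by
    intro x y hxy
    rw [hj, hj] at hxy
    have h1 := hinj _ _ (hadm x) (hadm y) hxy
    have h2 : (H1π (chiRep χ)).hom (rep x - rep y) = 0 := by
      obtain ⟨N', hN'⟩ : ∃ N' : Subgroup (primeLocalGaloisGroup (pPrime p)), N' = N :=
        ⟨N, rfl⟩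
      haveI : N'.FiniteIndex := hN' ▸ hNfin
      have hN'cop : (N'.index).Coprime p := hN' ▸ hNcop
      refine H1π_eq_zero_of_vanishes_on_subgroup (chiRep χ) N' p hpY hN'cop (rep x - rep y) ?_
      intro g hg
      rw [hN'] at hg
      have h3 := h1 g ((hNmem g).mp hg)
      show (rep x : primeLocalGaloisGroup (pPrime p) → (chiRep χ).V) g
        - (rep y : primeLocalGaloisGroup (pPrime p) → (chiRep χ).V) g = 0
      exact sub_eq_zero.mpr h3
    rw [map_sub, hrepx, hrepx, sub_eq_zero] at h2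
    exact Subtype.ext h2
  exact ⟨Finite.of_injective j hjinj, (Nat.card_le_card_of_injective j hjinj).trans hcard⟩

/-- **(C')**: the core count of the reducible flat case. -/
theorem card_locCond_bddCond_chiRep_le (p : ℕ) [Fact p.Prime] (hp2 : p ≠ 2) {k : Type} [Field k]
    [Finite k] [CharP k p] (χ : primeLocalGaloisGroup (pPrime p) →* kˣ)
    (hχI : ∀ τ ∈ locInertia (pPrime p), χ τ = cycloCharLoc p k τ)
    (hsm : ∃ U ∈ (locBasis (pPrime p)).sets, ∀ g ∈ U, χ g = 1)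
    (hbdd : ∃ L : IntermediateField ℚ_[p] (PadicAlgCl p), FiniteDimensional ℚ_[p] L ∧
      IsGalois ℚ_[p] L ∧ FontaineBdd p L ∧
      ∀ τ : PadicAlgCl p ≃ₐ[ℚ_[p]] PadicAlgCl p, (∀ z ∈ L, τ z = z) →
        χ τ = 1 ∧ cycloCharLoc p k τ = 1) :
    Finite (locCond (mkSm _ (chiRep χ) (isSmooth_chiRep χ hsm)) (bddCond p (chiRep χ))) ∧
      Nat.card (locCond (mkSm _ (chiRep χ) (isSmooth_chiRep χ hsm)) (bddCond p (chiRep χ)))
        ≤ Nat.card k := by
  obtain ⟨hfin, hcard⟩ := card_bddCond_chiRep_le hp2 χ hχI hbdd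
  haveI := hfin
  obtain ⟨h1, h2⟩ := card_locCond_le_card_of_finite (mkSm _ (chiRep χ) (isSmooth_chiRep χ hsm))
    (bddCond p (chiRep χ))
  exact ⟨h1, h2.trans hcard⟩

end Core

end Fermat.Agent.TW.Flat
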