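/-
TW (S56) — helper6 — leaf (F1), bookkeeping for `ad⁰` with an ordinary line.
`card_locCond_valuedCond_W0_le`: for `rbar ∘ ψ : G → GL₂(k)` stabilising the line `k e₀`, acting on
it through `χ ·` (the character of the quotient),
`#(locCond Y (valuedCond Y (W0 e₀))) ≤ #Ext⁰(𝟙, Y) · |k|` provided `#Ext¹(𝟙, k(χ)) ≤ |k|²`.
-/
import Mathlib
import Fermat.Agent.TW.OrdCountAbs_helper6

set_option autoImplicit false
set_option linter.unusedSectionVars false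
set_option linter.style.haveILetI false

noncomputable section

namespace Fermat.Agent.TW

open Fermat.Agent.S53 Fermat.Agent.CFT.Sm Fermat.Agent.CFT.Bridge groupCohomology CategoryTheory
  CategoryTheory.Abelian Matrix

section LinAlg

variable {k : Type} [Field k]

theorem vecMulVec_mulVec_comm (u v w : Fin 2 → k) :
    (Matrix.vecMulVec u v).mulVec w = (v ⬝ᵥ w) • u := by
  rw [Matrix.vecMulVec_mulVec, op_smul_eq_smul]

/-- a basis `e₀, f₀` of `k²` through a nonzero vector `e₀`, with its dual basis `m, n` -/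
theorem exists_dualBasis_of_ne_zero {e₀ : Fin 2 → k} (he₀ : e₀ ≠ 0) :
    ∃ f₀ m n : Fin 2 → k, m ⬝ᵥ e₀ = 1 ∧ n ⬝ᵥ e₀ = 0 ∧ m ⬝ᵥ f₀ = 0 ∧ n ⬝ᵥ f₀ = 1 ∧
      ∀ u : Fin 2 → k, u = (m ⬝ᵥ u) • e₀ + (n ⬝ᵥ u) • f₀ := by
  by_cases ha : e₀ 0 = 0
  · have hc : e₀ 1 ≠ 0 := by
      intro hc
      apply he₀
      ext i
      fin_cases i
      · exact ha
      · exact hc
    refine ⟨![1, 0], ![0, (e₀ 1)⁻¹], ![1, 0], ?_, ?_, ?_, ?_, fun u => ?_⟩
    · simp [dotProduct, Fin.sum_univ_two, hc]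
    · simp [dotProduct, Fin.sum_univ_two, ha]
    · simp [dotProduct, Fin.sum_univ_two]
    · simp [dotProduct, Fin.sum_univ_two]
    · ext i
      fin_cases i
      · simp [dotProduct, Fin.sum_univ_two, ha]
      · simp [dotProduct, Fin.sum_univ_two]
        field_simp
  · refine ⟨![0, 1], ![(e₀ 0)⁻¹, 0], ![-(e₀ 1) * (e₀ 0)⁻¹, 1], ?_, ?_, ?_, ?_, fun u => ?_⟩
    · simp [dotProduct, Fin.sum_univ_two, ha]
    · simp [dotProduct, Fin.sum_univ_two]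
      field_simp
      ring
    · simp [dotProduct, Fin.sum_univ_two]
    · simp [dotProduct, Fin.sum_univ_two]
    · ext i
      fin_cases i
      · simp [dotProduct, Fin.sum_univ_two]
        field_simp
      · simp [dotProduct, Fin.sum_univ_two]
        field_simp
        ring

/-- the defining conditions of `W⁰`, on matrices -/
def InW0 (e₀ : Fin 2 → k) (M : M2 k) : Prop :=
  M.mulVec e₀ = 0 ∧ ∀ u : Fin 2 → k, ∃ t : k, M.mulVec u = t • e₀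

theorem mem_W0_iff_inW0 (e₀ : Fin 2 → k) (w : sl2 k) : w ∈ W0 e₀ ↔ InW0 e₀ (w : M2 k) := Iff.rfl

theorem InW0.add {e₀ : Fin 2 → k} {M M' : M2 k} (h : InW0 e₀ M) (h' : InW0 e₀ M') :
    InW0 e₀ (M + M') := by
  refine ⟨by rw [Matrix.add_mulVec, h.1, h'.1, add_zero], fun u => ?_⟩
  obtain ⟨t, ht⟩ := h.2 u
  obtain ⟨t', ht'⟩ := h'.2 u
  exact ⟨t + t', by rw [Matrix.add_mulVec, ht, ht', add_smul]⟩

theorem InW0.smul {e₀ : Fin 2 → k} {M : M2 k} (h : InW0 e₀ M) (c : k) : InW0 e₀ (c • M) := by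
  refine ⟨by rw [Matrix.smul_mulVec, h.1, smul_zero], fun u => ?_⟩
  obtain ⟨t, ht⟩ := h.2 u
  exact ⟨c * t, by rw [Matrix.smul_mulVec, ht, smul_smul]⟩

/-- the generator `w₀ = e₀ ⊗ n` of `W⁰` -/
def w0Mat (e₀ n : Fin 2 → k) : M2 k := Matrix.vecMulVec e₀ n

theorem w0Mat_mulVec (e₀ n u : Fin 2 → k) : (w0Mat e₀ n).mulVec u = (n ⬝ᵥ u) • e₀ :=
  vecMulVec_mulVec_comm e₀ n u

/-- the semisimple element `h₀ = 2 e₀ ⊗ m - 1` of the Borel -/
def h0Mat (e₀ m : Fin 2 → k) : M2 k := (2 : k) • Matrix.vecMulVec e₀ m - 1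

theorem h0Mat_mulVec (e₀ m u : Fin 2 → k) :
    (h0Mat e₀ m).mulVec u = (2 * (m ⬝ᵥ u)) • e₀ - u := by
  unfold h0Mat
  rw [Matrix.sub_mulVec, Matrix.smul_mulVec, vecMulVec_mulVec_comm, Matrix.one_mulVec, smul_smul]

section Flag

variable {e₀ f₀ m n : Fin 2 → k}

theorem trace_w0Mat (hne : n ⬝ᵥ e₀ = 0) : (w0Mat e₀ n).trace = 0 := by
  unfold w0Mat
  rw [Matrix.trace_vecMulVec, dotProduct_comm, hne]

theorem trace_h0Mat (hme : m ⬝ᵥ e₀ = 1) : (h0Mat e₀ m).trace = 0 := by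
  unfold h0Mat
  rw [Matrix.trace_sub, Matrix.trace_smul, Matrix.trace_vecMulVec, dotProduct_comm, hme,
    Matrix.trace_one, Fintype.card_fin, smul_eq_mul, mul_one]
  push_cast
  ring

theorem inW0_w0Mat (hne : n ⬝ᵥ e₀ = 0) : InW0 e₀ (w0Mat e₀ n) :=
  ⟨by rw [w0Mat_mulVec, hne, zero_smul], fun u => ⟨n ⬝ᵥ u, w0Mat_mulVec e₀ n u⟩⟩

/-- every element of `W⁰` is a multiple of `w₀` -/
theorem eq_smul_w0Mat_of_inW0
    (hdec : ∀ u : Fin 2 → k, u = (m ⬝ᵥ u) • e₀ + (n ⬝ᵥ u) • f₀) {M : M2 k} (hM : InW0 e₀ M) :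
    ∃ t : k, M = t • w0Mat e₀ n := by
  obtain ⟨t, ht⟩ := hM.2 f₀
  refine ⟨t, Matrix.mulVec_injective ?_⟩
  funext u
  conv_lhs => rw [hdec u]
  rw [Matrix.mulVec_add, Matrix.mulVec_smul, Matrix.mulVec_smul, hM.1, ht, Matrix.smul_mulVec,
    w0Mat_mulVec, smul_zero, zero_add, smul_smul, smul_smul, mul_comm]

section Conj

variable {R Rinv : M2 k} {x z : k}

theorem dotProduct_mulVec_of_flag (hne : n ⬝ᵥ e₀ = 0)
    (hz : ∀ u : Fin 2 → k, ∃ t : k, R.mulVec u - z • u = t • e₀) (u : Fin 2 → k) :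
    n ⬝ᵥ R.mulVec u = z * (n ⬝ᵥ u) := by
  obtain ⟨t, ht⟩ := hz u
  have h1 : R.mulVec u = z • u + t • e₀ := by rw [← ht]; abel
  rw [h1, dotProduct_add, dotProduct_smul, dotProduct_smul, hne, smul_zero, add_zero, smul_eq_mul]

theorem dotProduct_mulVec_inv_of_flag (hRR : R * Rinv = 1) (hne : n ⬝ᵥ e₀ = 0) (hz0 : z ≠ 0)
    (hz : ∀ u : Fin 2 → k, ∃ t : k, R.mulVec u - z • u = t • e₀) (u : Fin 2 → k) :
    n ⬝ᵥ Rinv.mulVec u = z⁻¹ * (n ⬝ᵥ u) := by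
  have h1 := dotProduct_mulVec_of_flag hne hz (Rinv.mulVec u)
  rw [Matrix.mulVec_mulVec, hRR, Matrix.one_mulVec] at h1
  rw [h1, ← mul_assoc, inv_mul_cancel₀ hz0, one_mul]

theorem mulVec_inv_of_flag (hRR' : Rinv * R = 1) (hx0 : x ≠ 0) (hx : R.mulVec e₀ = x • e₀) :
    Rinv.mulVec e₀ = x⁻¹ • e₀ := by
  have h1 : Rinv.mulVec (R.mulVec e₀) = e₀ := by
    rw [Matrix.mulVec_mulVec, hRR', Matrix.one_mulVec]
  rw [hx, Matrix.mulVec_smul] at h1
  have h2 : Rinv.mulVec e₀ = x⁻¹ • (x • Rinv.mulVec e₀) := by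
    rw [smul_smul, inv_mul_cancel₀ hx0, one_smul]
  rw [h2, h1]

/-- conjugation acts on `w₀` through the character `x / z` -/
theorem conj_w0Mat (hRR : R * Rinv = 1) (hne : n ⬝ᵥ e₀ = 0) (hz0 : z ≠ 0)
    (hx : R.mulVec e₀ = x • e₀)
    (hz : ∀ u : Fin 2 → k, ∃ t : k, R.mulVec u - z • u = t • e₀) :
    R * w0Mat e₀ n * Rinv = (x * z⁻¹) • w0Mat e₀ n := by
  apply Matrix.mulVec_injective
  funext u
  rw [← Matrix.mulVec_mulVec, ← Matrix.mulVec_mulVec, w0Mat_mulVec, Matrix.mulVec_smul, hx,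
    dotProduct_mulVec_inv_of_flag hRR hne hz0 hz, Matrix.smul_mulVec, w0Mat_mulVec, smul_smul,
    smul_smul]
  congr 1
  ring

/-- conjugation fixes `h₀` modulo `W⁰` -/
theorem inW0_conj_h0Mat_sub (hRR : R * Rinv = 1) (hRR' : Rinv * R = 1) (hme : m ⬝ᵥ e₀ = 1)
    (hx0 : x ≠ 0) (hx : R.mulVec e₀ = x • e₀) :
    InW0 e₀ (R * h0Mat e₀ m * Rinv - h0Mat e₀ m) := by
  have key : ∀ u : Fin 2 → k, (R * h0Mat e₀ m * Rinv - h0Mat e₀ m).mulVec u =
      (2 * (x * (m ⬝ᵥ Rinv.mulVec u) - m ⬝ᵥ u)) • e₀ := by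
    intro u
    rw [Matrix.sub_mulVec, ← Matrix.mulVec_mulVec, ← Matrix.mulVec_mulVec, h0Mat_mulVec,
      h0Mat_mulVec, Matrix.mulVec_sub, Matrix.mulVec_smul, hx, Matrix.mulVec_mulVec, hRR,
      Matrix.one_mulVec, smul_smul]
    rw [show (2 * (m ⬝ᵥ Rinv.mulVec u) * x) • e₀ - u - ((2 * (m ⬝ᵥ u)) • e₀ - u) =
      (2 * (m ⬝ᵥ Rinv.mulVec u) * x) • e₀ - (2 * (m ⬝ᵥ u)) • e₀ by abel, ← sub_smul]
    congr 1
    ring
  refine ⟨?_, fun u => ⟨_, key u⟩⟩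
  rw [key, mulVec_inv_of_flag hRR' hx0 hx, dotProduct_smul, hme, smul_eq_mul, mul_one,
    mul_inv_cancel₀ hx0, sub_self, mul_zero, zero_smul]

end Conj

end Flag

end LinAlg

section Final

variable {k : Type} [Field k] {Γ G : Type} [Group Γ] [Group G] {𝒰 : OpenBasis G}

theorem res_adRep_ρ_apply_coe (rbar : Γ →* M2 k) (ψ : G →* Γ) (g : G) (w : sl2 k) :
    ((show sl2 k from ((Rep.res ψ (adRep rbar)).ρ g :
      (Rep.res ψ (adRep rbar)).V →ₗ[ℤ] (Rep.res ψ (adRep rbar)).V) w) : M2 k) =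
      rbar (ψ g) * (w : M2 k) * rbar (ψ g)⁻¹ := rfl

/-- **(F1), bookkeeping.** For the `ad⁰` of a residual representation with a stable line `k e₀` on
which the group acts through `χ` times the character of the quotient: the classes coming from
`W⁰ = Hom(V / L̄, L̄)` number at most `#H⁰(G, ad⁰) · |k|`, as soon as
`#Ext¹(𝟙, k(χ)) ≤ |k|²`. -/
theorem card_locCond_valuedCond_W0_le [Finite k] (rbar : Γ →* M2 k) (ψ : G →* Γ)
    (hsm : IsSmooth 𝒰 (Rep.res ψ (adRep rbar))) {e₀ : Fin 2 → k} (he₀ : e₀ ≠ 0) (χ : G →* kˣ)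
    (hline : ∀ g : G, ∃ x z : k, (rbar (ψ g)).mulVec e₀ = x • e₀ ∧
      (∀ u : Fin 2 → k, ∃ t : k, (rbar (ψ g)).mulVec u - z • u = t • e₀) ∧
      x = ((χ g : kˣ) : k) * z)
    (hsm₁ : IsSmooth 𝒰 (chiRep χ))
    [Finite (Ext (smUnit ℤ 𝒰) (mkSm 𝒰 (chiRep χ) hsm₁) 1)]
    (hcore : Nat.card (Ext (smUnit ℤ 𝒰) (mkSm 𝒰 (chiRep χ) hsm₁) 1) ≤ Nat.card k ^ 2) :
    Nat.card (locCond (mkSm 𝒰 (Rep.res ψ (adRep rbar)) hsm)
        (valuedCond (Rep.res ψ (adRep rbar)) (W0 e₀))) ≤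
      Nat.card (Ext (smUnit ℤ 𝒰) (mkSm 𝒰 (Rep.res ψ (adRep rbar)) hsm) 0) * Nat.card k := by
  obtain ⟨f₀, m, n, hme, hne, hmf, hnf, hdec⟩ := exists_dualBasis_of_ne_zero he₀
  -- the two inverse matrices
  have hRR : ∀ g : G, rbar (ψ g) * rbar (ψ g)⁻¹ = 1 := fun g => by
    rw [← map_mul, mul_inv_cancel, map_one]
  have hRR' : ∀ g : G, rbar (ψ g)⁻¹ * rbar (ψ g) = 1 := fun g => by
    rw [← map_mul, inv_mul_cancel, map_one]
  -- nonvanishing of the characters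
  have hx0 : ∀ g : G, ∀ x : k, (rbar (ψ g)).mulVec e₀ = x • e₀ → x ≠ 0 := by
    rintro g x hx rfl
    rw [zero_smul] at hx
    have h1 : (rbar (ψ g)⁻¹).mulVec ((rbar (ψ g)).mulVec e₀) = e₀ := by
      rw [Matrix.mulVec_mulVec, hRR' g, Matrix.one_mulVec]
    rw [hx, Matrix.mulVec_zero] at h1
    exact he₀ h1.symm
  let w0 : sl2 k := ⟨w0Mat e₀ n, (mem_sl2_iff _).2 (trace_w0Mat hne)⟩
  let h0 : sl2 k := ⟨h0Mat e₀ m, (mem_sl2_iff _).2 (trace_h0Mat hme)⟩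
  let j : k →+ sl2 k :=
    { toFun := fun t => t • w0
      map_zero' := zero_smul k w0
      map_add' := fun a b => add_smul a b w0 }
  let bor : k × k →+ sl2 k :=
    { toFun := fun st => st.1 • h0 + st.2 • w0
      map_zero' := by
        show (0 : k) • h0 + (0 : k) • w0 = 0
        rw [zero_smul, zero_smul, add_zero]
      map_add' := fun a b => by
        show (a.1 + b.1) • h0 + (a.2 + b.2) • w0 = (a.1 • h0 + a.2 • w0) + (b.1 • h0 + b.2 • w0)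
        rw [add_smul, add_smul]
        abel }
  -- the action on `w0` and `h0`
  have hact_w0 : ∀ g : G, rbar (ψ g) * w0Mat e₀ n * rbar (ψ g)⁻¹ =
      ((χ g : kˣ) : k) • w0Mat e₀ n := by
    intro g
    obtain ⟨x, z, hx, hz, hxz⟩ := hline g
    have hxne := hx0 g x hx
    have hzne : z ≠ 0 := by
      rintro rfl
      rw [mul_zero] at hxz
      exact hxne hxz
    rw [conj_w0Mat (hRR g) hne hzne hx hz, hxz, mul_assoc, mul_inv_cancel₀ hzne, mul_one]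
  have hact_h0 : ∀ g : G, InW0 e₀ (rbar (ψ g) * h0Mat e₀ m * rbar (ψ g)⁻¹ - h0Mat e₀ m) := by
    intro g
    obtain ⟨x, z, hx, hz, hxz⟩ := hline g
    exact inW0_conj_h0Mat_sub (hRR g) (hRR' g) hme (hx0 g x hx) hx
  -- the hypotheses of the abstract count
  have hj : ∀ (g : G) (y : (mkSm 𝒰 (chiRep χ) hsm₁).obj.V),
      j ((mkSm 𝒰 (chiRep χ) hsm₁).obj.ρ g y) =
        (mkSm 𝒰 (Rep.res ψ (adRep rbar)) hsm).obj.ρ g (j y) := by
    intro g y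
    apply Subtype.ext
    show (((χ g : kˣ) : k) * (show k from y)) • w0Mat e₀ n =
      rbar (ψ g) * ((show k from y) • w0Mat e₀ n) * rbar (ψ g)⁻¹
    rw [Matrix.mul_smul, Matrix.smul_mul, hact_w0 g, smul_smul, mul_comm]
  have hjinj : Function.Injective j := by
    intro y y' h
    have h1 : y • w0Mat e₀ n = y' • w0Mat e₀ n := congrArg Subtype.val h
    have h2 := congrArg (fun M : M2 k => m ⬝ᵥ M.mulVec f₀) h1
    simp only [Matrix.smul_mulVec, w0Mat_mulVec, hnf, one_smul, dotProduct_smul, hme,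
      smul_eq_mul, mul_one] at h2
    exact h2
  have hjsurj : ∀ w ∈ W0 e₀, ∃ y, j y = w := by
    intro w hw
    obtain ⟨t, ht⟩ := eq_smul_w0Mat_of_inW0 hdec ((mem_W0_iff_inW0 e₀ w).1 hw)
    exact ⟨t, Subtype.ext ht.symm⟩
  let Bsub : AddSubgroup (mkSm 𝒰 (Rep.res ψ (adRep rbar)) hsm).obj.V := bor.range
  have hB : ∀ g : G, ∀ b : (mkSm 𝒰 (Rep.res ψ (adRep rbar)) hsm).obj.V, b ∈ Bsub →
      (mkSm 𝒰 (Rep.res ψ (adRep rbar)) hsm).obj.ρ g b - b ∈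
        (W0 e₀ : AddSubgroup (mkSm 𝒰 (Rep.res ψ (adRep rbar)) hsm).obj.V) := by
    rintro g _ ⟨⟨s, t⟩, rfl⟩
    have key : ∀ w : sl2 k, (w : M2 k) = s • (rbar (ψ g) * h0Mat e₀ m * rbar (ψ g)⁻¹ - h0Mat e₀ m) +
        (t * (((χ g : kˣ) : k) - 1)) • w0Mat e₀ n → w ∈ W0 e₀ := by
      intro w hw
      rw [mem_W0_iff_inW0, hw]
      exact ((hact_h0 g).smul s).add ((inW0_w0Mat hne).smul _)
    refine key _ ?_
    show rbar (ψ g) * (s • h0Mat e₀ m + t • w0Mat e₀ n) * rbar (ψ g)⁻¹ -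
      (s • h0Mat e₀ m + t • w0Mat e₀ n) = _
    rw [mul_add, add_mul, Matrix.mul_smul, Matrix.smul_mul, Matrix.mul_smul, Matrix.smul_mul,
      hact_w0 g, smul_sub, mul_sub, sub_smul, mul_one, smul_smul]
    abel
  have hmain := card_locCond_valuedCond_mul_le (mkSm 𝒰 (Rep.res ψ (adRep rbar)) hsm) (W0 e₀)
    (mkSm 𝒰 (chiRep χ) hsm₁) j hj hjinj hjsurj Bsub hB
  -- the cardinalities
  have hborinj : Function.Injective bor := by
    rintro ⟨s, t⟩ ⟨s', t'⟩ h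
    have h1 : s • h0Mat e₀ m + t • w0Mat e₀ n = s' • h0Mat e₀ m + t' • w0Mat e₀ n :=
      congrArg Subtype.val h
    have h2 := congrArg (fun M : M2 k => m ⬝ᵥ M.mulVec e₀) h1
    have h3 := congrArg (fun M : M2 k => m ⬝ᵥ M.mulVec f₀) h1
    simp only [Matrix.add_mulVec, Matrix.smul_mulVec, w0Mat_mulVec, h0Mat_mulVec, hne, hnf, hme,
      hmf, zero_smul, one_smul, smul_zero, add_zero, dotProduct_add, dotProduct_smul,
      dotProduct_sub, dotProduct_neg, smul_eq_mul, mul_one, mul_zero, zero_sub, smul_neg,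
      neg_zero, zero_add] at h2 h3
    have hs : s = s' := by linear_combination h2
    have ht : t = t' := by linear_combination h3
    rw [hs, ht]
  have hBcard : Nat.card Bsub = Nat.card k ^ 2 := by
    show Nat.card bor.range = Nat.card k ^ 2
    rw [← Nat.card_congr (AddMonoidHom.ofInjective hborinj).toEquiv, Nat.card_prod, sq]
  have hY₁card : Nat.card (mkSm 𝒰 (chiRep χ) hsm₁).obj.V = Nat.card k := rfl
  rw [hBcard, hY₁card] at hmain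
  have hkpos : 0 < Nat.card k ^ 2 := pow_pos Nat.card_pos 2
  refine Nat.le_of_mul_le_mul_right (hmain.trans ?_) hkpos
  calc Nat.card (Ext (smUnit ℤ 𝒰) (mkSm 𝒰 (chiRep χ) hsm₁) 1) * Nat.card k *
        Nat.card (Ext (smUnit ℤ 𝒰) (mkSm 𝒰 (Rep.res ψ (adRep rbar)) hsm) 0)
      ≤ Nat.card k ^ 2 * Nat.card k *
        Nat.card (Ext (smUnit ℤ 𝒰) (mkSm 𝒰 (Rep.res ψ (adRep rbar)) hsm) 0) :=
        Nat.mul_le_mul_right _ (Nat.mul_le_mul_right _ hcore)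
    _ = Nat.card (Ext (smUnit ℤ 𝒰) (mkSm 𝒰 (Rep.res ψ (adRep rbar)) hsm) 0) * Nat.card k *
        Nat.card k ^ 2 := by ring

end Final

end Fermat.Agent.TW
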