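import Mathlib
import Fermat.Agent.TW.OrdCountAbs_helper6
import Fermat.Agent.TW.SeCond_helper6

set_option autoImplicit false
set_option linter.unusedSectionVars false
set_option linter.style.haveILetI false

noncomputable section

namespace Fermat.Agent.TW

open Fermat.Agent.CFT.Sm Fermat.Agent.CFT.Bridge groupCohomology CategoryTheory
  CategoryTheory.Abelian

section General

/-- an index bound by the pigeonhole principle on finite subsets -/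
theorem card_quotient_le_of_forall_finset {Z : Type*} [AddCommGroup Z] (N : AddSubgroup Z)
    {T : Type*} [Finite T]
    (H : ∀ s : Finset Z, ∃ f : Z → T, ∀ c ∈ s, ∀ c' ∈ s, f c = f c' → c - c' ∈ N) :
    Finite (Z ⧸ N) ∧ Nat.card (Z ⧸ N) ≤ Nat.card T := by
  classical
  apply natCard_le_of_forall_finset
  intro t
  obtain ⟨f, hf⟩ := H (t.image Quotient.out)
  haveI := Fintype.ofFinite T
  rw [Nat.card_eq_fintype_card, ← Finset.card_univ]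
  refine Finset.card_le_card_of_injOn (fun q => f (Quotient.out q))
    (fun _ _ => Finset.mem_coe.2 (Finset.mem_univ _)) ?_
  intro q hq q' hq' h
  have h1 := hf _ (Finset.mem_image_of_mem _ hq) _ (Finset.mem_image_of_mem _ hq') h
  rw [← QuotientAddGroup.out_eq' q, ← QuotientAddGroup.out_eq' q']
  rw [QuotientAddGroup.eq]
  have h2 : -(Quotient.out q) + Quotient.out q' = -(Quotient.out q - Quotient.out q') := by abel
  rw [h2]
  exact N.neg_mem h1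

end General

section SeCount

variable {G : Type} [Group G] {𝒰 : OpenBasis G} (Y : SmRep ℤ 𝒰) (I : Subgroup G)
  (Y₁ Y₀ : AddSubgroup Y.obj.V) (P : AddSubgroup (G → Y.obj.V))

/-- the classes having ONE representative which is `Y₁`-valued, `Y₀`-valued on `I`, and in `P` -/
def sePCond : AddSubgroup (H1 Y.obj) where
  carrier := {x | ∃ c : cocycles₁ Y.obj, (∀ g, (c : G → Y.obj.V) g ∈ Y₁) ∧
    (∀ g ∈ I, (c : G → Y.obj.V) g ∈ Y₀) ∧ (c : G → Y.obj.V) ∈ P ∧ (H1π Y.obj).hom c = x}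
  zero_mem' := ⟨0, fun _ => Y₁.zero_mem, fun _ _ => Y₀.zero_mem, P.zero_mem, map_zero _⟩
  add_mem' := by
    rintro _ _ ⟨c, hc, hc0, hcP, rfl⟩ ⟨c', hc', hc0', hcP', rfl⟩
    exact ⟨c + c', fun g => Y₁.add_mem (hc g) (hc' g),
      fun g hg => Y₀.add_mem (hc0 g hg) (hc0' g hg), P.add_mem hcP hcP', map_add _ _ _⟩
  neg_mem' := by
    rintro _ ⟨c, hc, hc0, hcP, rfl⟩
    exact ⟨-c, fun g => Y₁.neg_mem (hc g), fun g hg => Y₀.neg_mem (hc0 g hg), P.neg_mem hcP,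
      map_neg _ _⟩

theorem mem_sePCond (x : H1 Y.obj) : x ∈ sePCond Y I Y₁ Y₀ P ↔
    ∃ c : cocycles₁ Y.obj, (∀ g, (c : G → Y.obj.V) g ∈ Y₁) ∧
      (∀ g ∈ I, (c : G → Y.obj.V) g ∈ Y₀) ∧ (c : G → Y.obj.V) ∈ P ∧
      (H1π Y.obj).hom c = x := Iff.rfl

theorem sePCond_le : sePCond Y I Y₁ Y₀ P ≤ seCondOn Y.obj I Y₁ Y₀ ⊓ funCond Y.obj P := by
  rintro x ⟨c, h1, h0, hP, rfl⟩
  exact ⟨⟨c, h1, h0, rfl⟩, ⟨c, hP, rfl⟩⟩

/-- the level-constant cocycles which are `Y₁`-valued, `Y₀`-valued on `I`, and in `P` -/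
def seCocycles : AddSubgroup (cocycles₁ Y.obj) where
  carrier := {c | IsLC₁ 𝒰 (c : G → Y.obj.V) ∧ (∀ g, (c : G → Y.obj.V) g ∈ Y₁) ∧
    (∀ g ∈ I, (c : G → Y.obj.V) g ∈ Y₀) ∧ (c : G → Y.obj.V) ∈ P}
  zero_mem' := ⟨isLC₁_const (0 : Y.obj.V), fun _ => Y₁.zero_mem, fun _ _ => Y₀.zero_mem,
    P.zero_mem⟩
  add_mem' := by
    rintro c c' ⟨h, h1, h0, hP⟩ ⟨h', h1', h0', hP'⟩
    exact ⟨isLC₁_add h h', fun g => Y₁.add_mem (h1 g) (h1' g),
      fun g hg => Y₀.add_mem (h0 g hg) (h0' g hg), P.add_mem hP hP'⟩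
  neg_mem' := by
    rintro c ⟨h, h1, h0, hP⟩
    exact ⟨isLC₁_comp (fun y : Y.obj.V => -y) h, fun g => Y₁.neg_mem (h1 g),
      fun g hg => Y₀.neg_mem (h0 g hg), P.neg_mem hP⟩

/-- the level-constant cocycles which are `Y₀`-valued and in `P` -/
def seCocycles₀ : AddSubgroup (cocycles₁ Y.obj) where
  carrier := {c | IsLC₁ 𝒰 (c : G → Y.obj.V) ∧ (∀ g, (c : G → Y.obj.V) g ∈ Y₀) ∧
    (c : G → Y.obj.V) ∈ P}
  zero_mem' := ⟨isLC₁_const (0 : Y.obj.V), fun _ => Y₀.zero_mem, P.zero_mem⟩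
  add_mem' := by
    rintro c c' ⟨h, h0, hP⟩ ⟨h', h0', hP'⟩
    exact ⟨isLC₁_add h h', fun g => Y₀.add_mem (h0 g) (h0' g), P.add_mem hP hP'⟩
  neg_mem' := by
    rintro c ⟨h, h0, hP⟩
    exact ⟨isLC₁_comp (fun y : Y.obj.V => -y) h, fun g => Y₀.neg_mem (h0 g), P.neg_mem hP⟩

variable {Y I Y₁ Y₀ P}

theorem seCocycles₀_le (h01 : Y₀ ≤ Y₁) : seCocycles₀ Y Y₀ P ≤ seCocycles Y I Y₁ Y₀ P := by
  rintro c ⟨h, h0, hP⟩
  exact ⟨h, fun g => h01 (h0 g), fun g _ => h0 g, hP⟩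

/-- for a `Y₁`-valued cocycle, the set where it is `Y₀`-valued is a subgroup, as soon as `G` acts
trivially on `Y₁ / Y₀` -/
def modSubgroup (hB : ∀ g : G, ∀ b ∈ Y₁, Y.obj.ρ g b - b ∈ Y₀) (h01 : Y₀ ≤ Y₁)
    (c : cocycles₁ Y.obj) (hc : ∀ g, (c : G → Y.obj.V) g ∈ Y₁) : Subgroup G where
  carrier := {g | (c : G → Y.obj.V) g ∈ Y₀}
  one_mem' := by
    show (c : G → Y.obj.V) 1 ∈ Y₀
    rw [cocycles₁_map_one c]
    exact Y₀.zero_mem
  mul_mem' := by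
    intro g h hg hh
    show (c : G → Y.obj.V) (g * h) ∈ Y₀
    rw [(mem_cocycles₁_iff (c : G → Y.obj.V)).1 c.2 g h]
    have h1 : Y.obj.ρ g ((c : G → Y.obj.V) h) ∈ Y₀ := by
      have := Y₀.add_mem (hB g _ (h01 hh)) hh
      rwa [sub_add_cancel] at this
    exact Y₀.add_mem h1 hg
  inv_mem' := by
    intro g hg
    show (c : G → Y.obj.V) g⁻¹ ∈ Y₀
    have h1 : Y.obj.ρ g ((c : G → Y.obj.V) g⁻¹) = -(c : G → Y.obj.V) g := cocycles₁_map_inv c g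
    have h2 := hB g _ (hc g⁻¹)
    rw [h1] at h2
    have h3 := Y₀.add_mem h2 hg
    have h4 : -(c : G → Y.obj.V) g - (c : G → Y.obj.V) g⁻¹ + (c : G → Y.obj.V) g =
        -(c : G → Y.obj.V) g⁻¹ := by abel
    rw [h4] at h3
    have := Y₀.neg_mem h3
    rwa [neg_neg] at this


variable (Y I Y₁ Y₀ P)

/-- the class of an element of `seCocycles` in `H¹(G, Y)` -/
def seCls : seCocycles Y I Y₁ Y₀ P →+ H1 Y.obj where
  toFun c := (H1π Y.obj).hom (c : cocycles₁ Y.obj)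
  map_zero' := map_zero (H1π Y.obj).hom
  map_add' a b := map_add (H1π Y.obj).hom (a : cocycles₁ Y.obj) (b : cocycles₁ Y.obj)

theorem seCls_apply (c : seCocycles Y I Y₁ Y₀ P) :
    seCls Y I Y₁ Y₀ P c = (H1π Y.obj).hom (c : cocycles₁ Y.obj) := rfl

/-- step (1): `locCond (sePCond …)` injects into the range of the class map -/
theorem natCard_locCond_sePCond_le [Finite (seCocycles Y I Y₁ Y₀ P)] :
    Finite (locCond Y (sePCond Y I Y₁ Y₀ P)) ∧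
    Nat.card (locCond Y (sePCond Y I Y₁ Y₀ P)) ≤ Nat.card (seCls Y I Y₁ Y₀ P).range := by
  have h1 : ∀ e : locCond Y (sePCond Y I Y₁ Y₀ P), clsH1 Y e.1 ∈ (seCls Y I Y₁ Y₀ P).range := by
    rintro ⟨e, he⟩
    obtain ⟨c₂, hc₂, hc₂0, hc₂P, hc₂e⟩ := he
    obtain ⟨c₁, hlc₁, hc₁e⟩ := (mem_range_clsH1_iff Y _).1 ⟨e, rfl⟩
    have hlc₂ : IsLC₁ 𝒰 (c₂ : G → Y.obj.V) :=
      isLC₁_of_H1π_eq Y c₁ c₂ hlc₁ (hc₁e.trans hc₂e.symm)
    exact ⟨⟨c₂, hlc₂, hc₂, hc₂0, hc₂P⟩, hc₂e⟩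
  let Θ : locCond Y (sePCond Y I Y₁ Y₀ P) → (seCls Y I Y₁ Y₀ P).range :=
    fun e => ⟨clsH1 Y e.1, h1 e⟩
  have hΘ : Function.Injective Θ := by
    intro e e' h
    exact Subtype.ext (clsH1_injective Y (congrArg Subtype.val h))
  haveI : Finite (seCls Y I Y₁ Y₀ P).range :=
    Finite.of_surjective _ (seCls Y I Y₁ Y₀ P).rangeRestrict_surjective
  exact ⟨Finite.of_injective Θ hΘ, Nat.card_le_card_of_injective Θ hΘ⟩

variable (h01 : Y₀ ≤ Y₁) (hB : ∀ g : G, ∀ b ∈ Y₁, Y.obj.ρ g b - b ∈ Y₀)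
  (hPcob : ∀ w ∈ Y₁, (fun g : G => Y.obj.ρ g w - w) ∈ P)

/-- the coboundary map `Y₁ → seCocycles` -/
def seCob : Y₁ →+ seCocycles Y I Y₁ Y₀ P where
  toFun b := ⟨cobCocycle Y.obj (b : Y.obj.V), isLC₁_coboundary Y (b : Y.obj.V),
    fun g => h01 (hB g b b.2), fun g _ => hB g b b.2, hPcob b b.2⟩
  map_zero' := by
    apply Subtype.ext
    apply Subtype.ext
    funext g
    show Y.obj.ρ g (0 : Y.obj.V) - 0 = 0
    rw [map_zero (Y.obj.ρ g), sub_zero]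
  map_add' a b := by
    apply Subtype.ext
    apply Subtype.ext
    funext g
    show Y.obj.ρ g ((a : Y.obj.V) + (b : Y.obj.V)) - ((a : Y.obj.V) + (b : Y.obj.V)) =
      (Y.obj.ρ g (a : Y.obj.V) - (a : Y.obj.V)) + (Y.obj.ρ g (b : Y.obj.V) - (b : Y.obj.V))
    rw [map_add (Y.obj.ρ g)]
    abel

theorem seCob_apply (b : Y₁) (g : G) :
    (((seCob Y I Y₁ Y₀ P h01 hB hPcob b : seCocycles Y I Y₁ Y₀ P) : cocycles₁ Y.obj) :
      G → Y.obj.V) g = Y.obj.ρ g (b : Y.obj.V) - (b : Y.obj.V) := rfl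

include h01 hB hPcob in
/-- step (3): the kernel of the class map is at least as big as `Y₁ / Y₁^G` -/
theorem natCard_le_seCls_ker_mul_invariants [Finite Y.obj.V]
    [Finite (seCocycles Y I Y₁ Y₀ P)] :
    Nat.card Y₁ ≤ Nat.card (seCls Y I Y₁ Y₀ P).ker *
      Nat.card {y : Y.obj.V // ∀ g : G, Y.obj.ρ g y = y} := by
  rw [natCard_eq_range_mul_ker (seCob Y I Y₁ Y₀ P h01 hB hPcob)]
  refine Nat.mul_le_mul ?_ ?_
  · have h1 : ∀ x : (seCob Y I Y₁ Y₀ P h01 hB hPcob).range,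
        (x : seCocycles Y I Y₁ Y₀ P) ∈ (seCls Y I Y₁ Y₀ P).ker := by
      rintro ⟨x, b, rfl⟩
      rw [AddMonoidHom.mem_ker]
      exact H1π_cobCocycle Y.obj (b : Y.obj.V)
    exact Nat.card_le_card_of_injective (fun x => (⟨x.1, h1 x⟩ : (seCls Y I Y₁ Y₀ P).ker))
      (fun x x' h => Subtype.ext (Subtype.mk.inj h))
  · have h1 : ∀ b : (seCob Y I Y₁ Y₀ P h01 hB hPcob).ker, ∀ g : G,
        Y.obj.ρ g ((b : Y₁) : Y.obj.V) = ((b : Y₁) : Y.obj.V) := by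
      rintro ⟨b, hb⟩ g
      rw [AddMonoidHom.mem_ker] at hb
      have h2 := seCob_apply Y I Y₁ Y₀ P h01 hB hPcob b g
      rw [hb] at h2
      exact (sub_eq_zero.1 h2.symm)
    haveI : Finite {y : Y.obj.V // ∀ g : G, Y.obj.ρ g y = y} := Subtype.finite
    exact Nat.card_le_card_of_injective
      (fun b => (⟨((b : Y₁) : Y.obj.V), h1 b⟩ : {y : Y.obj.V // ∀ g : G, Y.obj.ρ g y = y}))
      (fun b b' h => Subtype.ext (Subtype.ext (Subtype.mk.inj h)))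

include h01 hB in
/-- step (2): the index of `seCocycles₀` in `seCocycles` is at most `[Y₁ : Y₀]` -/
theorem card_seCocycles_quotient_le [Finite Y.obj.V]
    (hcyc : ∀ U ∈ 𝒰.sets, ∃ φ : G, ∀ g : G, ∃ k : ℕ, ∃ n ∈ I ⊔ U, g = φ ^ k * n) :
    Finite (↥(seCocycles Y I Y₁ Y₀ P) ⧸
      (seCocycles₀ Y Y₀ P).addSubgroupOf (seCocycles Y I Y₁ Y₀ P)) ∧
    Nat.card (↥(seCocycles Y I Y₁ Y₀ P) ⧸
      (seCocycles₀ Y Y₀ P).addSubgroupOf (seCocycles Y I Y₁ Y₀ P)) ≤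
      Nat.card (↥Y₁ ⧸ Y₀.addSubgroupOf Y₁) := by
  classical
  apply card_quotient_le_of_forall_finset
  intro s
  -- a common level
  have h1 : ∀ c : s, ∃ U ∈ 𝒰.sets, ∀ g u : G, u ∈ U →
      (((c : seCocycles Y I Y₁ Y₀ P) : cocycles₁ Y.obj) : G → Y.obj.V) (g * u) =
      (((c : seCocycles Y I Y₁ Y₀ P) : cocycles₁ Y.obj) : G → Y.obj.V) g := by
    intro c
    obtain ⟨H, ⟨U, hU, hUH⟩, hlc⟩ := (c : seCocycles Y I Y₁ Y₀ P).2.1
    exact ⟨U, hU, fun g u hu => hlc g u (hUH hu)⟩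
  choose U hU hlc using h1
  obtain ⟨W, hW, hWle⟩ := 𝒰.exists_mem_le_of_finite U (fun e => 𝒰.isOpen_of_mem (hU e))
  obtain ⟨φ, hφ⟩ := hcyc W hW
  refine ⟨fun c => QuotientAddGroup.mk
    (⟨((c : cocycles₁ Y.obj) : G → Y.obj.V) φ, c.2.2.1 φ⟩ : Y₁), ?_⟩
  intro c hc c' hc' hcc'
  rw [QuotientAddGroup.eq] at hcc'
  have hval : -((c : cocycles₁ Y.obj) : G → Y.obj.V) φ +
      ((c' : cocycles₁ Y.obj) : G → Y.obj.V) φ ∈ Y₀ := hcc'
  -- the difference cocycle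
  have hdmem : ((c - c' : seCocycles Y I Y₁ Y₀ P) : cocycles₁ Y.obj) ∈
      seCocycles Y I Y₁ Y₀ P := (c - c').2
  set d : cocycles₁ Y.obj := ((c - c' : seCocycles Y I Y₁ Y₀ P) : cocycles₁ Y.obj) with hd
  have hdval : ∀ g, (d : G → Y.obj.V) g = ((c : cocycles₁ Y.obj) : G → Y.obj.V) g -
      ((c' : cocycles₁ Y.obj) : G → Y.obj.V) g := fun g => rfl
  have hd1 : ∀ g, (d : G → Y.obj.V) g ∈ Y₁ := hdmem.2.1
  -- `W` lies in the subgroup where `d` is `Y₀`-valued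
  have hWsub : W ≤ modSubgroup hB h01 d hd1 := by
    intro u hu
    show (d : G → Y.obj.V) u ∈ Y₀
    have e1 := hlc ⟨c, hc⟩ 1 u (hWle ⟨c, hc⟩ hu)
    have e2 := hlc ⟨c', hc'⟩ 1 u (hWle ⟨c', hc'⟩ hu)
    rw [one_mul] at e1 e2
    have e1' : ((c : cocycles₁ Y.obj) : G → Y.obj.V) u = 0 :=
      e1.trans (cocycles₁_map_one (c : cocycles₁ Y.obj))
    have e2' : ((c' : cocycles₁ Y.obj) : G → Y.obj.V) u = 0 :=
      e2.trans (cocycles₁_map_one (c' : cocycles₁ Y.obj))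
    rw [hdval, e1', e2', sub_zero]
    exact Y₀.zero_mem
  have hIsub : I ≤ modSubgroup hB h01 d hd1 := fun g hg => hdmem.2.2.1 g hg
  have hφmem : φ ∈ modSubgroup hB h01 d hd1 := by
    show (d : G → Y.obj.V) φ ∈ Y₀
    rw [hdval]
    have := Y₀.neg_mem hval
    have e : -(-((c : cocycles₁ Y.obj) : G → Y.obj.V) φ +
        ((c' : cocycles₁ Y.obj) : G → Y.obj.V) φ) =
        ((c : cocycles₁ Y.obj) : G → Y.obj.V) φ - ((c' : cocycles₁ Y.obj) : G → Y.obj.V) φ := by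
      abel
    rwa [e] at this
  have hall : ∀ g, (d : G → Y.obj.V) g ∈ Y₀ := by
    intro g
    obtain ⟨k, n, hn, rfl⟩ := hφ g
    exact (modSubgroup hB h01 d hd1).mul_mem
      ((modSubgroup hB h01 d hd1).pow_mem hφmem k) ((sup_le hIsub hWsub) hn)
  show (c - c' : seCocycles Y I Y₁ Y₀ P) ∈
    (seCocycles₀ Y Y₀ P).addSubgroupOf (seCocycles Y I Y₁ Y₀ P)
  rw [AddSubgroup.mem_addSubgroupOf]
  exact ⟨hdmem.1, hall, hdmem.2.2.2⟩

include h01 hB hPcob in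
/-- **(T2'), abstract bookkeeping.** -/
theorem card_locCond_sePCond_mul_le [Finite Y.obj.V]
    (hcyc : ∀ U ∈ 𝒰.sets, ∃ φ : G, ∀ g : G, ∃ k : ℕ, ∃ n ∈ I ⊔ U, g = φ ^ k * n)
    (M : ℕ) (hfin : Finite (seCocycles₀ Y Y₀ P)) (hcore : Nat.card (seCocycles₀ Y Y₀ P) ≤ M) :
    Finite (locCond Y (sePCond Y I Y₁ Y₀ P)) ∧
    Nat.card (locCond Y (sePCond Y I Y₁ Y₀ P)) * Nat.card Y₀ ≤
      M * Nat.card (Ext (smUnit ℤ 𝒰) Y 0) := by
  obtain ⟨hfinq, hq⟩ := card_seCocycles_quotient_le Y I Y₁ Y₀ P h01 hB hcyc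
  -- `seCocycles` is finite, of cardinality at most `[Y₁ : Y₀] · M`
  have e0 : (seCocycles₀ Y Y₀ P).addSubgroupOf (seCocycles Y I Y₁ Y₀ P) ≃
      seCocycles₀ Y Y₀ P :=
    (AddSubgroup.addSubgroupOfEquivOfLe (seCocycles₀_le h01)).toEquiv
  haveI : Finite ((seCocycles₀ Y Y₀ P).addSubgroupOf (seCocycles Y I Y₁ Y₀ P)) :=
    Finite.of_equiv _ e0.symm
  haveI : Finite (seCocycles Y I Y₁ Y₀ P) :=
    Finite.of_equiv _ (AddSubgroup.addGroupEquivQuotientProdAddSubgroup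
      (s := (seCocycles₀ Y Y₀ P).addSubgroupOf (seCocycles Y I Y₁ Y₀ P))).symm
  have hZ : Nat.card (seCocycles Y I Y₁ Y₀ P) ≤ Nat.card (↥Y₁ ⧸ Y₀.addSubgroupOf Y₁) * M := by
    rw [AddSubgroup.card_eq_card_quotient_mul_card_addSubgroup
      ((seCocycles₀ Y Y₀ P).addSubgroupOf (seCocycles Y I Y₁ Y₀ P))]
    refine Nat.mul_le_mul hq ?_
    rw [Nat.card_congr e0]
    exact hcore
  obtain ⟨hfinL, h1⟩ := natCard_locCond_sePCond_le Y I Y₁ Y₀ P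
  refine ⟨hfinL, ?_⟩
  have h2 := natCard_eq_range_mul_ker (seCls Y I Y₁ Y₀ P)
  have h3 := natCard_le_seCls_ker_mul_invariants Y I Y₁ Y₀ P h01 hB hPcob
  have h4 : Nat.card Y₁ = Nat.card (↥Y₁ ⧸ Y₀.addSubgroupOf Y₁) * Nat.card Y₀ := by
    rw [AddSubgroup.card_eq_card_quotient_mul_card_addSubgroup (Y₀.addSubgroupOf Y₁)]
    congr 1
    exact Nat.card_congr (AddSubgroup.addSubgroupOfEquivOfLe h01).toEquiv
  rw [natCard_ext_zero]
  have hTpos : 0 < Nat.card (↥Y₁ ⧸ Y₀.addSubgroupOf Y₁) := Nat.card_pos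
  have h5 : Nat.card (locCond Y (sePCond Y I Y₁ Y₀ P)) * Nat.card Y₁ ≤
      Nat.card (↥Y₁ ⧸ Y₀.addSubgroupOf Y₁) * M *
        Nat.card {y : Y.obj.V // ∀ g : G, Y.obj.ρ g y = y} :=
    calc Nat.card (locCond Y (sePCond Y I Y₁ Y₀ P)) * Nat.card Y₁
        ≤ Nat.card (seCls Y I Y₁ Y₀ P).range * (Nat.card (seCls Y I Y₁ Y₀ P).ker *
            Nat.card {y : Y.obj.V // ∀ g : G, Y.obj.ρ g y = y}) := Nat.mul_le_mul h1 h3
      _ = Nat.card (seCocycles Y I Y₁ Y₀ P) *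
            Nat.card {y : Y.obj.V // ∀ g : G, Y.obj.ρ g y = y} := by rw [h2, mul_assoc]
      _ ≤ Nat.card (↥Y₁ ⧸ Y₀.addSubgroupOf Y₁) * M *
            Nat.card {y : Y.obj.V // ∀ g : G, Y.obj.ρ g y = y} := Nat.mul_le_mul_right _ hZ
  rw [h4] at h5
  have h6 : Nat.card (↥Y₁ ⧸ Y₀.addSubgroupOf Y₁) *
      (Nat.card (locCond Y (sePCond Y I Y₁ Y₀ P)) * Nat.card Y₀) ≤
      Nat.card (↥Y₁ ⧸ Y₀.addSubgroupOf Y₁) *
        (M * Nat.card {y : Y.obj.V // ∀ g : G, Y.obj.ρ g y = y}) := by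
    calc _ = Nat.card (locCond Y (sePCond Y I Y₁ Y₀ P)) *
          (Nat.card (↥Y₁ ⧸ Y₀.addSubgroupOf Y₁) * Nat.card Y₀) := by ring
      _ ≤ _ := h5
      _ = _ := by ring
  exact Nat.le_of_mul_le_mul_left h6 hTpos


/-- if all coboundaries lie in `P`, a class with a representative of type `(Y₁, Y₀)` and a
representative in `P` has one with both properties -/
theorem seCondOn_inf_funCond_le_sePCond
    (hPcob' : ∀ w : Y.obj.V, (fun g : G => Y.obj.ρ g w - w) ∈ P) :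
    seCondOn Y.obj I Y₁ Y₀ ⊓ funCond Y.obj P ≤ sePCond Y I Y₁ Y₀ P := by
  rintro x ⟨⟨c, h1, h0, hcx⟩, ⟨c', hP, hc'x⟩⟩
  refine ⟨c, h1, h0, ?_, hcx⟩
  obtain ⟨w, hw⟩ := (H1π_eq_iff c c').1 (hcx.trans hc'x.symm)
  have h2 : (c : G → Y.obj.V) = (c' : G → Y.obj.V) + fun g : G => Y.obj.ρ g w - w := by
    funext g
    have h3 : Y.obj.ρ g w - w = (c : G → Y.obj.V) g - (c' : G → Y.obj.V) g := congrFun hw g
    show (c : G → Y.obj.V) g = (c' : G → Y.obj.V) g + (Y.obj.ρ g w - w)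
    rw [h3]
    abel
  rw [h2]
  exact P.add_mem hP (hPcob' w)

end SeCount

section Transfer

variable {G : Type} [Group G] {𝒰 : OpenBasis G}

/-- the level-constant cocycles in `P₁` are at most `#(classes with a representative in P₁) · #Y₁`
-/
theorem card_seCocycles₀_top_le (Y₁ : SmRep ℤ 𝒰) (P₁ : AddSubgroup (G → Y₁.obj.V))
    [Finite Y₁.obj.V] [Finite (locCond Y₁ (funCond Y₁.obj P₁))] :
    Finite (seCocycles₀ Y₁ ⊤ P₁) ∧
    Nat.card (seCocycles₀ Y₁ ⊤ P₁) ≤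
      Nat.card (locCond Y₁ (funCond Y₁.obj P₁)) * Nat.card Y₁.obj.V := by
  -- the class map
  let f : seCocycles₀ Y₁ ⊤ P₁ →+ H1 Y₁.obj :=
    { toFun := fun c => (H1π Y₁.obj).hom (c : cocycles₁ Y₁.obj)
      map_zero' := map_zero (H1π Y₁.obj).hom
      map_add' := fun a b => map_add (H1π Y₁.obj).hom (a : cocycles₁ Y₁.obj)
        (b : cocycles₁ Y₁.obj) }
  have h1 : ∀ x : f.range, ∃ e : locCond Y₁ (funCond Y₁.obj P₁), clsH1 Y₁ e.1 = x.1 := by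
    rintro ⟨x, c, rfl⟩
    obtain ⟨e, he⟩ := (mem_range_clsH1_iff Y₁ _).2 ⟨c.1, c.2.1, rfl⟩
    refine ⟨⟨e, ?_⟩, he⟩
    show clsH1 Y₁ e ∈ funCond Y₁.obj P₁
    rw [he]
    exact ⟨c.1, c.2.2.2, rfl⟩
  choose Φ hΦ using h1
  have hΦinj : Function.Injective Φ := by
    intro x x' h
    apply Subtype.ext
    rw [← hΦ x, ← hΦ x', h]
  haveI : Finite f.range := Finite.of_injective Φ hΦinj
  have h2 : Nat.card f.range ≤ Nat.card (locCond Y₁ (funCond Y₁.obj P₁)) :=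
    Nat.card_le_card_of_injective Φ hΦinj
  -- the kernel consists of coboundaries
  have h3 : ∀ c : f.ker, ∃ w : Y₁.obj.V,
      (((c : seCocycles₀ Y₁ ⊤ P₁) : cocycles₁ Y₁.obj) : G → Y₁.obj.V) =
        fun g => Y₁.obj.ρ g w - w := by
    rintro ⟨⟨c, hc⟩, hker⟩
    rw [AddMonoidHom.mem_ker] at hker
    obtain ⟨w, hw⟩ := (H1π_eq_zero_iff c).1 hker
    exact ⟨w, hw.symm⟩
  choose Ψ hΨ using h3
  have hΨinj : Function.Injective Ψ := by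
    intro c c' h
    apply Subtype.ext
    apply Subtype.ext
    apply Subtype.ext
    have e1 := hΨ c
    have e2 := hΨ c'
    rw [h] at e1
    exact e1.trans e2.symm
  haveI : Finite f.ker := Finite.of_injective Ψ hΨinj
  have h4 : Nat.card f.ker ≤ Nat.card Y₁.obj.V := Nat.card_le_card_of_injective Ψ hΨinj
  refine ⟨finite_of_finite_ker_range f, ?_⟩
  rw [natCard_eq_range_mul_ker f]
  exact Nat.mul_le_mul h2 h4

variable (Y Y₁ : SmRep ℤ 𝒰) (Y₀ : AddSubgroup Y.obj.V) (P : AddSubgroup (G → Y.obj.V))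
  (P₁ : AddSubgroup (G → Y₁.obj.V))
  (j : Y₁.obj.V →+ Y.obj.V)
  (hj : ∀ (g : G) (y : Y₁.obj.V), j (Y₁.obj.ρ g y) = Y.obj.ρ g (j y))
  (hjinj : Function.Injective j) (hjsurj : ∀ w ∈ Y₀, ∃ y, j y = w)
  (hP : ∀ c₁ : G → Y₁.obj.V, (fun g => j (c₁ g)) ∈ P → c₁ ∈ P₁)

include hj hjinj hjsurj hP in
/-- transfer of the count of `Y₀`-valued cocycles in `P` along an equivariant isomorphism
`j : Y₁ ≅ Y₀` -/
theorem card_seCocycles₀_le_of_injective [Finite (seCocycles₀ Y₁ ⊤ P₁)] :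
    Finite (seCocycles₀ Y Y₀ P) ∧
    Nat.card (seCocycles₀ Y Y₀ P) ≤ Nat.card (seCocycles₀ Y₁ ⊤ P₁) := by
  have h1 : ∀ c : seCocycles₀ Y Y₀ P, ∃ c₁ : seCocycles₀ Y₁ ⊤ P₁, ∀ g : G,
      j (((c₁ : cocycles₁ Y₁.obj) : G → Y₁.obj.V) g) =
        ((c : cocycles₁ Y.obj) : G → Y.obj.V) g := by
    rintro ⟨c, hlc, hval, hcP⟩
    obtain ⟨⟨c₁, hlc₁, _⟩, hc₁⟩ :=
      exists_pullback_lcValued Y Y₀ Y₁ j hj hjinj hjsurj ⟨c, hlc, hval⟩
    refine ⟨⟨c₁, hlc₁, fun _ => AddSubgroup.mem_top _, hP _ ?_⟩, hc₁⟩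
    have : (fun g => j ((c₁ : G → Y₁.obj.V) g)) = (c : G → Y.obj.V) := funext hc₁
    rw [this]
    exact hcP
  choose Φ hΦ using h1
  have hΦinj : Function.Injective Φ := by
    intro c c' h
    apply Subtype.ext
    apply Subtype.ext
    funext g
    exact (hΦ c g).symm.trans ((congrArg (fun d : seCocycles₀ Y₁ ⊤ P₁ =>
      j (((d : cocycles₁ Y₁.obj) : G → Y₁.obj.V) g)) h).trans (hΦ c' g))
  exact ⟨Finite.of_injective Φ hΦinj, Nat.card_le_card_of_injective Φ hΦinj⟩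

end Transfer

end Fermat.Agent.TW
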