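/-
TW (S56) — helper6 — (T2'), reducible flat case: the count of the local condition
`seCond (W¹, W⁰) ⊓ bddCond` at `p`, given the core count (C') of the bounded classes of
`H¹(G_p, k(χ))`.
-/
import Mathlib
import Fermat.Agent.TW.SeCount_helper6
import Fermat.Agent.TW.OrdCount_helper6
import Fermat.Agent.TW.UnrLocal_helper6

set_option autoImplicit false
set_option linter.unusedSectionVars false
set_option linter.unusedSimpArgs false
set_option linter.style.haveILetI false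

noncomputable section

namespace Fermat.Agent.TW

open Fermat.Agent.S53 Fermat.Agent.CFT.Sm Fermat.Agent.CFT.Bridge Fermat.Agent.CFT.Arith
  groupCohomology CategoryTheory CategoryTheory.Abelian Matrix ExtCitation Fermat.Agent.Ram

/-- `Ω = AlgebraicClosure ℚ`. -/
local notation "Ω" => AlgebraicClosure ℚ

section LinAlg

variable {k : Type} [Field k]

/-- the determinant of a matrix which is unipotent modulo a stable line -/
theorem det_eq_of_sub_self_mem_line {R : M2 k} {e₀ : Fin 2 → k} (he₀ : e₀ ≠ 0) {x : k}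
    (hx : R.mulVec e₀ = x • e₀) (hI : ∀ u : Fin 2 → k, ∃ t : k, R.mulVec u - u = t • e₀) :
    R.det = x := by
  obtain ⟨t0, ht0⟩ := hI ![1, 0]
  obtain ⟨t1, ht1⟩ := hI ![0, 1]
  have a00 := congrFun ht0 0
  have a10 := congrFun ht0 1
  have a01 := congrFun ht1 0
  have a11 := congrFun ht1 1
  have b0 := congrFun hx 0
  have b1 := congrFun hx 1
  simp only [Matrix.mulVec, dotProduct, Fin.sum_univ_two, Pi.sub_apply, Pi.smul_apply,
    smul_eq_mul, Matrix.cons_val_zero, Matrix.cons_val_one, mul_one, mul_zero, add_zero,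
    zero_add] at a00 a10 a01 a11 b0 b1
  rw [Matrix.det_fin_two]
  have key : (e₀ 0) * (R 0 0 * R 1 1 - R 0 1 * R 1 0 - x) = 0 ∧
      (e₀ 1) * (R 0 0 * R 1 1 - R 0 1 * R 1 0 - x) = 0 := by
    have r00 : R 0 0 = 1 + t0 * e₀ 0 := by linear_combination a00
    have r10 : R 1 0 = t0 * e₀ 1 := by linear_combination a10
    have r01 : R 0 1 = t1 * e₀ 0 := by linear_combination a01
    have r11 : R 1 1 = 1 + t1 * e₀ 1 := by linear_combination a11
    simp only [r00, r10, r01, r11] at b0 b1 ⊢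
    constructor
    · linear_combination (1 + t1 * e₀ 1) * b0 - t1 * e₀ 0 * b1
    · linear_combination (1 + t0 * e₀ 0) * b1 - t0 * e₀ 1 * b0
  by_cases h0 : e₀ 0 = 0
  · have h1 : e₀ 1 ≠ 0 := by
      intro h1
      apply he₀
      funext i
      fin_cases i
      · exact h0
      · exact h1
    have := (mul_eq_zero.1 key.2).resolve_left h1
    linear_combination this
  · have := (mul_eq_zero.1 key.1).resolve_left h0
    linear_combination this

/-- the two characters of a flag are unique -/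
theorem flag_char_unique {R : M2 k} {e₀ : Fin 2 → k} (he₀ : e₀ ≠ 0) {x z x' z' : k}
    (hx : R.mulVec e₀ = x • e₀) (hz : ∀ u : Fin 2 → k, ∃ t : k, R.mulVec u - z • u = t • e₀)
    (hx' : R.mulVec e₀ = x' • e₀)
    (hz' : ∀ u : Fin 2 → k, ∃ t : k, R.mulVec u - z' • u = t • e₀) : x = x' ∧ z = z' := by
  obtain ⟨f₀, m, n, hme, hne, hmf, hnf, hdec⟩ := exists_dualBasis_of_ne_zero he₀
  constructor
  · have h1 : (x - x') • e₀ = 0 := by rw [sub_smul, ← hx, ← hx', sub_self]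
    exact sub_eq_zero.1 ((smul_eq_zero.1 h1).resolve_right he₀)
  · have h1 := dotProduct_mulVec_of_flag hne hz f₀
    have h2 := dotProduct_mulVec_of_flag hne hz' f₀
    rw [hnf, mul_one] at h1 h2
    exact h1.symm.trans h2


/-- the character `x / z` of a group acting on `k²` through matrices stabilising the line `k e₀`:
`x` the character of the line, `z` the character of the quotient -/
theorem exists_char_of_stable_line {G : Type} [Group G] (R : G →* M2 k) {e₀ : Fin 2 → k}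
    (he₀ : e₀ ≠ 0) (hstab : ∀ g : G, ∃ x : k, (R g).mulVec e₀ = x • e₀) :
    ∃ χ : G →* kˣ, ∀ g : G, ∃ x z : k, (R g).mulVec e₀ = x • e₀ ∧
      (∀ u : Fin 2 → k, ∃ t : k, (R g).mulVec u - z • u = t • e₀) ∧
      x = ((χ g : kˣ) : k) * z := by
  obtain ⟨f₀, m, n, hme, hne, hmf, hnf, hdec⟩ := exists_dualBasis_of_ne_zero he₀
  -- the coefficients of the action
  have hX : ∀ g : G, ∃ x : k, x = m ⬝ᵥ (R g).mulVec e₀ ∧ (R g).mulVec e₀ = x • e₀ := by
    intro g
    obtain ⟨x, hx⟩ := hstab g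
    refine ⟨x, ?_, hx⟩
    rw [hx, dotProduct_smul, hme, smul_eq_mul, mul_one]
  have hF : ∀ g : G, ∃ a z : k, z = n ⬝ᵥ (R g).mulVec f₀ ∧ (R g).mulVec f₀ = a • e₀ + z • f₀ :=
    fun g => ⟨_, _, rfl, hdec _⟩
  have hU : ∀ (g : G) (x a z : k), (R g).mulVec e₀ = x • e₀ → (R g).mulVec f₀ = a • e₀ + z • f₀ →
      ∀ u : Fin 2 → k, (R g).mulVec u =
        ((m ⬝ᵥ u) * x + (n ⬝ᵥ u) * a) • e₀ + ((n ⬝ᵥ u) * z) • f₀ := by
    intro g x a z hx hf u
    conv_lhs => rw [hdec u]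
    rw [Matrix.mulVec_add, Matrix.mulVec_smul, Matrix.mulVec_smul, hx, hf]
    simp only [smul_add, smul_smul, add_smul]
    abel
  let X₀ : G →* k :=
    { toFun := fun g => m ⬝ᵥ (R g).mulVec e₀
      map_one' := by rw [map_one, Matrix.one_mulVec, hme]
      map_mul' := fun g h => by
        obtain ⟨x, hx1, hx⟩ := hX g
        obtain ⟨x', hx1', hx'⟩ := hX h
        rw [← hx1, ← hx1', map_mul, ← Matrix.mulVec_mulVec, hx', Matrix.mulVec_smul, hx,
          dotProduct_smul, dotProduct_smul, hme, smul_eq_mul, smul_eq_mul, mul_one, mul_comm] }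
  let Z₀ : G →* k :=
    { toFun := fun g => n ⬝ᵥ (R g).mulVec f₀
      map_one' := by rw [map_one, Matrix.one_mulVec, hnf]
      map_mul' := fun g h => by
        obtain ⟨x, -, hx⟩ := hX g
        obtain ⟨a, z, hz1, hz⟩ := hF g
        obtain ⟨a', z', hz1', hz'⟩ := hF h
        rw [← hz1, ← hz1', map_mul, ← Matrix.mulVec_mulVec, hz', Matrix.mulVec_add,
          Matrix.mulVec_smul, Matrix.mulVec_smul, hx, hz]
        simp only [dotProduct_add, dotProduct_smul, hne, hnf, smul_eq_mul, mul_zero, mul_one,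
          zero_add]
        exact mul_comm _ _ }
  refine ⟨X₀.toHomUnits / Z₀.toHomUnits, fun g => ?_⟩
  obtain ⟨x, hx1, hx⟩ := hX g
  obtain ⟨a, z, hz1, hz⟩ := hF g
  have hXg : X₀ g = x := hx1.symm
  have hZg : Z₀ g = z := hz1.symm
  refine ⟨x, z, hx, fun u => ?_, ?_⟩
  · refine ⟨(m ⬝ᵥ u) * x + (n ⬝ᵥ u) * a - z * (m ⬝ᵥ u), ?_⟩
    have hu2 : z • u = (z * (m ⬝ᵥ u)) • e₀ + ((n ⬝ᵥ u) * z) • f₀ := by
      conv_lhs => rw [hdec u]
      rw [smul_add, smul_smul, smul_smul, mul_comm z (n ⬝ᵥ u)]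
    rw [hU g x a z hx hz u, hu2, sub_smul]
    abel
  · rw [MonoidHom.div_apply, Units.val_div_eq_div_val, MonoidHom.coe_toHomUnits,
      MonoidHom.coe_toHomUnits, hXg, hZg]
    have hz0 : z ≠ 0 := by
      have := (Z₀.toHomUnits g).ne_zero
      rwa [MonoidHom.coe_toHomUnits, hZg] at this
    rw [div_mul_cancel₀ _ hz0]


/-- the trace in a basis `e₀, f₀` with dual basis `m, n` -/
theorem trace_eq_dotProduct_dualBasis {e₀ f₀ m n : Fin 2 → k}
    (hdec : ∀ u : Fin 2 → k, u = (m ⬝ᵥ u) • e₀ + (n ⬝ᵥ u) • f₀) (b : M2 k) :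
    b.trace = m ⬝ᵥ b.mulVec e₀ + n ⬝ᵥ b.mulVec f₀ := by
  have h1 : (1 : M2 k) = Matrix.vecMulVec e₀ m + Matrix.vecMulVec f₀ n := by
    apply Matrix.mulVec_injective
    funext u
    rw [Matrix.one_mulVec, Matrix.add_mulVec, vecMulVec_mulVec_comm, vecMulVec_mulVec_comm]
    exact hdec u
  have h2 : b = Matrix.vecMulVec (b.mulVec e₀) m + Matrix.vecMulVec (b.mulVec f₀) n := by
    conv_lhs => rw [← mul_one b, h1, mul_add, Matrix.mul_vecMulVec, Matrix.mul_vecMulVec]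
  conv_lhs => rw [h2]
  rw [Matrix.trace_add, Matrix.trace_vecMulVec, Matrix.trace_vecMulVec, dotProduct_comm,
    dotProduct_comm (b.mulVec f₀)]

/-- the elements of the Borel `W¹` are the combinations of `h₀` and `w₀` -/
theorem exists_eq_smul_h0Mat_add_of_mem_W1 {e₀ f₀ m n : Fin 2 → k}
    (hme : m ⬝ᵥ e₀ = 1)
    (hdec : ∀ u : Fin 2 → k, u = (m ⬝ᵥ u) • e₀ + (n ⬝ᵥ u) • f₀) {w : sl2 k} (hw : w ∈ W1 e₀) :
    ∃ s t : k, (w : M2 k) = s • h0Mat e₀ m + t • w0Mat e₀ n := by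
  obtain ⟨s, hs⟩ := hw
  have htr : (w : M2 k).trace = 0 := (mem_sl2_iff _).1 w.2
  rw [trace_eq_dotProduct_dualBasis hdec, hs, dotProduct_smul, hme, smul_eq_mul, mul_one] at htr
  have hnf' : n ⬝ᵥ (w : M2 k).mulVec f₀ = -s := by linear_combination htr
  obtain ⟨a, ha⟩ : ∃ a : k, a = m ⬝ᵥ (w : M2 k).mulVec f₀ := ⟨_, rfl⟩
  have hwf : (w : M2 k).mulVec f₀ = a • e₀ + (-s) • f₀ := by
    rw [ha, ← hnf']
    exact hdec _
  refine ⟨s, a, ?_⟩
  have key : ∀ (α β : k) (u : Fin 2 → k), α = m ⬝ᵥ u → β = n ⬝ᵥ u → u = α • e₀ + β • f₀ →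
      (w : M2 k).mulVec u = (s • h0Mat e₀ m + a • w0Mat e₀ n).mulVec u := by
    intro α β u hα hβ hu
    rw [Matrix.add_mulVec, Matrix.smul_mulVec, Matrix.smul_mulVec, h0Mat_mulVec, w0Mat_mulVec,
      ← hα, ← hβ]
    rw [hu, Matrix.mulVec_add, Matrix.mulVec_smul, Matrix.mulVec_smul, hs, hwf]
    module
  apply Matrix.mulVec_injective
  funext u
  exact key _ _ u rfl rfl (hdec u)

end LinAlg


section General

variable {k : Type} [Field k] {Γ G : Type} [Group Γ] [Group G] {𝒰 : OpenBasis G}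

/-- **(T2'), bookkeeping for `ad⁰` with a stable line.** `rbar ∘ ψ : G → GL₂(k)` stabilises the
line `k e₀`, acting on `W⁰ = Hom(k²/k e₀, k e₀)` through `χ`; `I ◁ G` with `G / I·U` cyclic for
all basic open `U`; `P`, `P₁` additive groups of functions ("bounded" functions), `P` containing
all coboundaries of `ad⁰`, `P₁ ⊇ P` on `W⁰ ≅ k(χ)`.  If the classes of `H¹(G, k(χ))` with a
representative in `P₁` number at most `|k|`, then the classes of `H¹(G, ad⁰)` with a representative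
with values in the Borel `W¹`, in `W⁰` on `I`, and a representative in `P` number at most
`#H⁰(G, ad⁰) · |k|`. -/
theorem card_locCond_seCondOn_W1_inf_funCond_le [Finite k] (rbar : Γ →* M2 k) (ψ : G →* Γ)
    (hsm : IsSmooth 𝒰 (Rep.res ψ (adRep rbar))) {e₀ : Fin 2 → k} (he₀ : e₀ ≠ 0) (χ : G →* kˣ)
    (hline : ∀ g : G, ∃ x z : k, (rbar (ψ g)).mulVec e₀ = x • e₀ ∧
      (∀ u : Fin 2 → k, ∃ t : k, (rbar (ψ g)).mulVec u - z • u = t • e₀) ∧
      x = ((χ g : kˣ) : k) * z)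
    (I : Subgroup G)
    (hcyc : ∀ U ∈ 𝒰.sets, ∃ φ : G, ∀ g : G, ∃ r : ℕ, ∃ n ∈ I ⊔ U, g = φ ^ r * n)
    (P : AddSubgroup (G → (Rep.res ψ (adRep rbar)).V)) (P₁ : AddSubgroup (G → (chiRep χ).V))
    (hPcob : ∀ w : (Rep.res ψ (adRep rbar)).V,
      (fun g : G => (Rep.res ψ (adRep rbar)).ρ g w - w) ∈ P)
    (hPP₁ : ∀ w : sl2 k, w ≠ 0 → ∀ c₁ : G → k,
      (fun g : G => (show (Rep.res ψ (adRep rbar)).V from c₁ g • w)) ∈ P →
        (fun g : G => (show (chiRep χ).V from c₁ g)) ∈ P₁)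
    (hsm₁ : IsSmooth 𝒰 (chiRep χ))
    (hfin : Finite (locCond (mkSm 𝒰 (chiRep χ) hsm₁) (funCond (chiRep χ) P₁)))
    (hcore : Nat.card (locCond (mkSm 𝒰 (chiRep χ) hsm₁) (funCond (chiRep χ) P₁)) ≤ Nat.card k) :
    Nat.card (locCond (mkSm 𝒰 (Rep.res ψ (adRep rbar)) hsm)
        (seCondOn (Rep.res ψ (adRep rbar)) I (W1 e₀) (W0 e₀) ⊓
          funCond (Rep.res ψ (adRep rbar)) P)) ≤
      Nat.card (Ext (smUnit ℤ 𝒰) (mkSm 𝒰 (Rep.res ψ (adRep rbar)) hsm) 0) * Nat.card k := by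
  obtain ⟨f₀, m, n, hme, hne, hmf, hnf, hdec⟩ := exists_dualBasis_of_ne_zero he₀
  -- the two inverse matrices
  have hRR : ∀ g : G, rbar (ψ g) * rbar (ψ g)⁻¹ = 1 := fun g => by
    rw [← map_mul, mul_inv_cancel, map_one]
  have hRR' : ∀ g : G, rbar (ψ g)⁻¹ * rbar (ψ g) = 1 := fun g => by
    rw [← map_mul, inv_mul_cancel, map_one]
  -- nonvanishing of the characters
  have hx0 : ∀ g : G, ∀ x : k, (rbar (ψ g)).mulVec e₀ = x • e₀ → x ≠ 0 := by
    rintro g x hx rfl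
    rw [zero_smul] at hx
    have h1 : (rbar (ψ g)⁻¹).mulVec ((rbar (ψ g)).mulVec e₀) = e₀ := by
      rw [Matrix.mulVec_mulVec, hRR' g, Matrix.one_mulVec]
    rw [hx, Matrix.mulVec_zero] at h1
    exact he₀ h1.symm
  let w0 : sl2 k := ⟨w0Mat e₀ n, (mem_sl2_iff _).2 (trace_w0Mat hne)⟩
  have hw0ne : w0 ≠ 0 := by
    intro h
    have h1 : w0Mat e₀ n = 0 := congrArg Subtype.val h
    have h2 := congrArg (fun M : M2 k => m ⬝ᵥ M.mulVec f₀) h1
    simp only [w0Mat_mulVec, hnf, one_smul, hme, Matrix.zero_mulVec, dotProduct_zero] at h2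
    exact one_ne_zero h2
  let j : k →+ sl2 k :=
    { toFun := fun t => t • w0
      map_zero' := zero_smul k w0
      map_add' := fun a b => add_smul a b w0 }
  -- the action on `w0` and `h0`
  have hact_w0 : ∀ g : G, rbar (ψ g) * w0Mat e₀ n * rbar (ψ g)⁻¹ =
      ((χ g : kˣ) : k) • w0Mat e₀ n := by
    intro g
    obtain ⟨x, z, hx, hz, hxz⟩ := hline g
    have hxne := hx0 g x hx
    have hzne : z ≠ 0 := by
      rintro rfl
      rw [mul_zero] at hxz
      exact hxne hxz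
    rw [conj_w0Mat (hRR g) hne hzne hx hz, hxz, mul_assoc, mul_inv_cancel₀ hzne, mul_one]
  have hact_h0 : ∀ g : G, InW0 e₀ (rbar (ψ g) * h0Mat e₀ m * rbar (ψ g)⁻¹ - h0Mat e₀ m) := by
    intro g
    obtain ⟨x, z, hx, hz, hxz⟩ := hline g
    exact inW0_conj_h0Mat_sub (hRR g) (hRR' g) hme (hx0 g x hx) hx
  -- the hypotheses of the abstract count
  have hj : ∀ (g : G) (y : (mkSm 𝒰 (chiRep χ) hsm₁).obj.V),
      j ((mkSm 𝒰 (chiRep χ) hsm₁).obj.ρ g y) =
        (mkSm 𝒰 (Rep.res ψ (adRep rbar)) hsm).obj.ρ g (j y) := by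
    intro g y
    apply Subtype.ext
    show (((χ g : kˣ) : k) * (show k from y)) • w0Mat e₀ n =
      rbar (ψ g) * ((show k from y) • w0Mat e₀ n) * rbar (ψ g)⁻¹
    rw [Matrix.mul_smul, Matrix.smul_mul, hact_w0 g, smul_smul, mul_comm]
  have hjinj : Function.Injective j := by
    intro y y' h
    have h1 : y • w0Mat e₀ n = y' • w0Mat e₀ n := congrArg Subtype.val h
    have h2 := congrArg (fun M : M2 k => m ⬝ᵥ M.mulVec f₀) h1
    simp only [Matrix.smul_mulVec, w0Mat_mulVec, hnf, one_smul, dotProduct_smul, hme,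
      smul_eq_mul, mul_one] at h2
    exact h2
  have hjsurj : ∀ w ∈ W0 e₀, ∃ y, j y = w := by
    intro w hw
    obtain ⟨t, ht⟩ := eq_smul_w0Mat_of_inW0 hdec ((mem_W0_iff_inW0 e₀ w).1 hw)
    exact ⟨t, Subtype.ext ht.symm⟩
  have hB : ∀ g : G, ∀ b : (mkSm 𝒰 (Rep.res ψ (adRep rbar)) hsm).obj.V,
      b ∈ (W1 e₀ : AddSubgroup (mkSm 𝒰 (Rep.res ψ (adRep rbar)) hsm).obj.V) →
      (mkSm 𝒰 (Rep.res ψ (adRep rbar)) hsm).obj.ρ g b - b ∈
        (W0 e₀ : AddSubgroup (mkSm 𝒰 (Rep.res ψ (adRep rbar)) hsm).obj.V) := by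
    intro g b hb
    obtain ⟨s, t, hst⟩ := exists_eq_smul_h0Mat_add_of_mem_W1 hme hdec (w := b) hb
    have key : ∀ w : sl2 k, (w : M2 k) = s • (rbar (ψ g) * h0Mat e₀ m * rbar (ψ g)⁻¹ - h0Mat e₀ m) +
        (t * (((χ g : kˣ) : k) - 1)) • w0Mat e₀ n → w ∈ W0 e₀ := by
      intro w hw
      rw [mem_W0_iff_inW0, hw]
      exact ((hact_h0 g).smul s).add ((inW0_w0Mat hne).smul _)
    refine key _ ?_
    show rbar (ψ g) * ((show sl2 k from b) : M2 k) * rbar (ψ g)⁻¹ -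
      ((show sl2 k from b) : M2 k) = _
    rw [hst, mul_add, add_mul, Matrix.mul_smul, Matrix.smul_mul, Matrix.mul_smul, Matrix.smul_mul,
      hact_w0 g, smul_sub, mul_sub, sub_smul, mul_one, smul_smul]
    abel
  -- the core count
  have hcoc := card_seCocycles₀_top_le (mkSm 𝒰 (chiRep χ) hsm₁) P₁
  obtain ⟨hfinZ₁, hZ₁⟩ := hcoc
  have hP : ∀ c₁ : G → (mkSm 𝒰 (chiRep χ) hsm₁).obj.V, (fun g => j (c₁ g)) ∈ P → c₁ ∈ P₁ :=
    fun c₁ h => hPP₁ w0 hw0ne c₁ h
  obtain ⟨hfinZ, hZ⟩ := card_seCocycles₀_le_of_injective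
    (mkSm 𝒰 (Rep.res ψ (adRep rbar)) hsm) (mkSm 𝒰 (chiRep χ) hsm₁) (W0 e₀) P P₁ j hj hjinj hjsurj hP
  have hM : Nat.card (seCocycles₀ (mkSm 𝒰 (Rep.res ψ (adRep rbar)) hsm) (W0 e₀) P) ≤
      Nat.card k * Nat.card k := by
    refine hZ.trans (hZ₁.trans (Nat.mul_le_mul hcore ?_))
    exact le_of_eq rfl
  obtain ⟨hfinL, hmain⟩ := card_locCond_sePCond_mul_le (mkSm 𝒰 (Rep.res ψ (adRep rbar)) hsm) I
    (W1 e₀) (W0 e₀) P (W0_le_W1 e₀) hB (fun w _ => hPcob w) hcyc _ hfinZ hM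
  -- the cardinality of `W⁰`
  have hW0card : Nat.card (W0 e₀ : AddSubgroup (mkSm 𝒰 (Rep.res ψ (adRep rbar)) hsm).obj.V) =
      Nat.card k := by
    have hrange : j.range = W0 e₀ := by
      ext w
      constructor
      · rintro ⟨t, rfl⟩
        rw [mem_W0_iff_inW0]
        exact (inW0_w0Mat hne).smul t
      · intro hw
        exact hjsurj w hw
    rw [← hrange]
    exact (Nat.card_congr (AddMonoidHom.ofInjective hjinj).toEquiv).symm
  replace hmain := le_trans (Nat.mul_le_mul_left _ (le_of_eq hW0card.symm)) hmain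
  -- monotonicity
  have hle : locCond (mkSm 𝒰 (Rep.res ψ (adRep rbar)) hsm)
      (seCondOn (Rep.res ψ (adRep rbar)) I (W1 e₀) (W0 e₀) ⊓ funCond (Rep.res ψ (adRep rbar)) P) ≤
      locCond (mkSm 𝒰 (Rep.res ψ (adRep rbar)) hsm)
        (sePCond (mkSm 𝒰 (Rep.res ψ (adRep rbar)) hsm) I (W1 e₀) (W0 e₀) P) :=
    AddSubgroup.comap_mono (seCondOn_inf_funCond_le_sePCond
      (mkSm 𝒰 (Rep.res ψ (adRep rbar)) hsm) I (W1 e₀) (W0 e₀) P hPcob)
  have h1 := AddSubgroup.card_le_of_le hle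
  have hkpos : 0 < Nat.card k := Nat.card_pos
  refine Nat.le_of_mul_le_mul_right ((Nat.mul_le_mul_right _ h1).trans (hmain.trans ?_)) hkpos
  exact le_of_eq (by ring)

end General


section AtP

variable {k : Type} [Field k] [Finite k]

/-- **(T2'), reducible flat case, modulo the core (C').** For `rbar` with a `G_p`-stable line
`k e₀` on whose quotient inertia acts trivially, with cyclotomic determinant and Fontaine-bounded
(e.g. flat): the classes of `H¹(G_p, ad⁰)` of type `seCond (W¹, W⁰) ⊓ bddCond` number at most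
`#H⁰(G_p, ad⁰) · |k|`, provided that (C') the Fontaine-bounded classes of `H¹(G_p, k(χ))` number
at most `|k|` for the characters `χ` with `χ = ε̄` on inertia. -/
theorem card_locCond_seCond_inf_bddCond_le (p : ℕ) [hp : Fact p.Prime] [CharP k p]
    (rbar : Gal →* M2 k)
    (hsm : IsSmooth (locBasis (pPrime p)) (Rep.res (primeLocalToGlobal (pPrime p)) (adRep rbar)))
    {e₀ : Fin 2 → k} (he₀ : e₀ ≠ 0)
    (hD : ∀ σ ∈ (primeLocalPlace (pPrime p)).decompositionSubgroup ℚ,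
      ∃ t : k, (rbar σ).mulVec e₀ = t • e₀)
    (hI : ∀ σ ∈ (primeLocalPlace (pPrime p)).inertiaSubgroupIn ℚ, ∀ u : Fin 2 → k,
      ∃ t : k, (rbar σ).mulVec u - u = t • e₀)
    (hdet : ∀ (σ : Gal) (a : ℕ), (∀ μ : Ω, μ ^ p = 1 → σ μ = μ ^ a) → (rbar σ).det = a)
    (hρbdd : ∃ L : IntermediateField ℚ_[p] (PadicAlgCl p), FiniteDimensional ℚ_[p] L ∧
      IsGalois ℚ_[p] L ∧ FontaineBdd p L ∧
      ∀ τ : PadicAlgCl p ≃ₐ[ℚ_[p]] PadicAlgCl p, (∀ z ∈ L, τ z = z) →
        rbar (localGaloisToGlobal p τ) = 1)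
    (hcore : ∀ (χ : primeLocalGaloisGroup (pPrime p) →* kˣ)
      (_ : ∀ τ ∈ locInertia (pPrime p), χ τ = cycloCharLoc p k τ)
      (hsmχ : ∃ U ∈ (locBasis (pPrime p)).sets, ∀ g ∈ U, χ g = 1)
      (_ : ∃ L : IntermediateField ℚ_[p] (PadicAlgCl p), FiniteDimensional ℚ_[p] L ∧
        IsGalois ℚ_[p] L ∧ FontaineBdd p L ∧
        ∀ τ : PadicAlgCl p ≃ₐ[ℚ_[p]] PadicAlgCl p, (∀ z ∈ L, τ z = z) →
          χ τ = 1 ∧ cycloCharLoc p k τ = 1),
      Finite (locCond (mkSm (locBasis (pPrime p)) (chiRep χ) (isSmooth_chiRep χ hsmχ))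
        (bddCond p (chiRep χ))) ∧
      Nat.card (locCond (mkSm (locBasis (pPrime p)) (chiRep χ) (isSmooth_chiRep χ hsmχ))
        (bddCond p (chiRep χ))) ≤ Nat.card k) :
    Nat.card (locCond (mkSm (locBasis (pPrime p))
        (Rep.res (primeLocalToGlobal (pPrime p)) (adRep rbar)) hsm)
        (seCond (pPrime p) (Rep.res (primeLocalToGlobal (pPrime p)) (adRep rbar)) (W1 e₀) (W0 e₀) ⊓
          bddCond p (Rep.res (primeLocalToGlobal (pPrime p)) (adRep rbar)))) ≤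
      Nat.card (Ext (smUnit ℤ (locBasis (pPrime p))) (mkSm (locBasis (pPrime p))
        (Rep.res (primeLocalToGlobal (pPrime p)) (adRep rbar)) hsm) 0) * Nat.card k := by
  haveI : NeZero p := ⟨hp.out.ne_zero⟩
  -- the character
  have hstab : ∀ τ : primeLocalGaloisGroup (pPrime p),
      ∃ x : k, ((rbar.comp (primeLocalToGlobal (pPrime p))) τ).mulVec e₀ = x • e₀ := fun τ =>
    hD _ (primeLocalToGlobal_mem_decompositionSubgroup (pPrime p) τ)
  obtain ⟨χ, hχ⟩ := exists_char_of_stable_line (rbar.comp (primeLocalToGlobal (pPrime p))) he₀ hstab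
  have hline : ∀ τ : primeLocalGaloisGroup (pPrime p), ∃ x z : k,
      (rbar (primeLocalToGlobal (pPrime p) τ)).mulVec e₀ = x • e₀ ∧
      (∀ u : Fin 2 → k, ∃ t : k,
        (rbar (primeLocalToGlobal (pPrime p) τ)).mulVec u - z • u = t • e₀) ∧
      x = ((χ τ : kˣ) : k) * z := hχ
  -- the determinant is the cyclotomic character
  have hdetχ : ∀ τ : primeLocalGaloisGroup (pPrime p),
      (rbar (primeLocalToGlobal (pPrime p) τ)).det = ((cycloCharLoc p k τ : kˣ) : k) := by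
    intro τ
    obtain ⟨a, ha⟩ := exists_cyclotomic_exponent p (primeLocalToGlobal (pPrime p) τ)
    rw [hdet _ a ha, cycloCharLoc_spec p k τ a ha]
  -- `χ = ε̄` on inertia
  have hχI : ∀ τ ∈ locInertia (pPrime p), χ τ = cycloCharLoc p k τ := by
    intro τ hτ
    obtain ⟨x, z, hx, hz, hxz⟩ := hline τ
    have hI' := hI _ ((mem_locInertia (pPrime p) τ).1 hτ)
    have hz' : ∀ u : Fin 2 → k, ∃ t : k,
        (rbar (primeLocalToGlobal (pPrime p) τ)).mulVec u - (1 : k) • u = t • e₀ := by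
      intro u
      rw [one_smul]
      exact hI' u
    obtain ⟨-, hz1⟩ := flag_char_unique he₀ hx hz hx hz'
    apply Units.ext
    rw [← hdetχ τ, det_eq_of_sub_self_mem_line he₀ hx hI', hxz, hz1, mul_one]
  -- `χ` is smooth
  obtain ⟨f₀, m, n, hme, hne, hmf, hnf, hdec⟩ := exists_dualBasis_of_ne_zero he₀
  have hsmχ : ∃ U ∈ (locBasis (pPrime p)).sets, ∀ g ∈ U, χ g = 1 := by
    obtain ⟨U, hU, hfix⟩ := hsm (⟨w0Mat e₀ n, (mem_sl2_iff _).2 (trace_w0Mat hne)⟩ : sl2 k)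
    refine ⟨U, hU, fun g hg => ?_⟩
    have h1 := congrArg (fun w : sl2 k => (w : M2 k)) (hfix g hg)
    have h2 : rbar (primeLocalToGlobal (pPrime p) g) * w0Mat e₀ n *
        rbar (primeLocalToGlobal (pPrime p) g)⁻¹ = w0Mat e₀ n := h1
    obtain ⟨x, z, hx, hz, hxz⟩ := hline g
    have hRR : rbar (primeLocalToGlobal (pPrime p) g) * rbar (primeLocalToGlobal (pPrime p) g)⁻¹ = 1 := by
      rw [← map_mul, mul_inv_cancel, map_one]
    have hzne : z ≠ 0 := by
      rintro rfl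
      obtain ⟨t, ht⟩ := hz f₀
      rw [zero_smul, sub_zero] at ht
      have h3 : (rbar (primeLocalToGlobal (pPrime p) g)⁻¹).mulVec
          ((rbar (primeLocalToGlobal (pPrime p) g)).mulVec f₀) = f₀ := by
        rw [Matrix.mulVec_mulVec, ← map_mul, inv_mul_cancel, map_one, Matrix.one_mulVec]
      rw [ht, Matrix.mulVec_smul] at h3
      obtain ⟨x', z', hx', -, -⟩ := hχ g⁻¹
      have hx'' : (rbar (primeLocalToGlobal (pPrime p) g)⁻¹).mulVec e₀ = x' • e₀ := by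
        rw [← map_inv]; exact hx'
      rw [hx'', smul_smul] at h3
      have h4 := congrArg (fun v => n ⬝ᵥ v) h3
      simp only [dotProduct_smul, hne, hnf, smul_eq_mul, mul_zero] at h4
      exact zero_ne_one h4
    rw [conj_w0Mat hRR hne hzne hx hz] at h2
    have h3 := congrArg (fun M : M2 k => m ⬝ᵥ M.mulVec f₀) h2
    simp only [Matrix.smul_mulVec, w0Mat_mulVec, hnf, one_smul, dotProduct_smul, hme,
      smul_eq_mul, mul_one] at h3
    apply Units.ext
    rw [Units.val_one, ← h3]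
    rw [hxz, mul_assoc, mul_inv_cancel₀ hzne, mul_one]
  -- boundedness
  obtain ⟨L, hL1, hL2, hL3, hL4⟩ := hρbdd
  have hL4' : ∀ τ : PadicAlgCl p ≃ₐ[ℚ_[p]] PadicAlgCl p, (∀ z ∈ L, τ z = z) →
      rbar (primeLocalToGlobal (pPrime p) τ) = 1 := hL4
  have hbdd : ∃ L : IntermediateField ℚ_[p] (PadicAlgCl p), FiniteDimensional ℚ_[p] L ∧
      IsGalois ℚ_[p] L ∧ FontaineBdd p L ∧
      ∀ τ : PadicAlgCl p ≃ₐ[ℚ_[p]] PadicAlgCl p, (∀ z ∈ L, τ z = z) →
        χ τ = 1 ∧ cycloCharLoc p k τ = 1 := by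
    refine ⟨L, hL1, hL2, hL3, fun τ hτ => ?_⟩
    have h1 := hL4' τ hτ
    obtain ⟨x, z, hx, hz, hxz⟩ := hline τ
    have hx' : (rbar (primeLocalToGlobal (pPrime p) τ)).mulVec e₀ = (1 : k) • e₀ := by
      rw [h1, Matrix.one_mulVec, one_smul]
    have hz' : ∀ u : Fin 2 → k, ∃ t : k,
        (rbar (primeLocalToGlobal (pPrime p) τ)).mulVec u - (1 : k) • u = t • e₀ := by
      intro u
      exact ⟨0, by rw [h1, Matrix.one_mulVec, one_smul, sub_self, zero_smul]⟩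
    obtain ⟨hx1, hz1⟩ := flag_char_unique he₀ hx hz hx' hz'
    constructor
    · apply Units.ext
      have : ((χ τ : kˣ) : k) = 1 := by
        rw [hx1, hz1, mul_one] at hxz
        exact hxz.symm
      rw [this, Units.val_one]
    · apply Units.ext
      rw [← hdetχ τ, h1, Matrix.det_one, Units.val_one]
  obtain ⟨hfin, hcard⟩ := hcore χ hχI hsmχ hbdd
  rw [bddCond_eq_funCond] at hfin hcard ⊢
  refine card_locCond_seCondOn_W1_inf_funCond_le rbar (primeLocalToGlobal (pPrime p)) hsm he₀ χ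
    hline (locInertia (pPrime p)) (exists_generator_mod_locInertia_sup (pPrime p))
    (bddFunSub p _) (bddFunSub p _) ?_ ?_ (isSmooth_chiRep χ hsmχ) hfin hcard
  · -- coboundaries are bounded
    intro w
    refine ⟨L, hL1, hL2, hL3, fun τ hτ => ?_⟩
    apply Subtype.ext
    show rbar (primeLocalToGlobal (pPrime p) τ) * ((show sl2 k from w) : M2 k) *
      rbar (primeLocalToGlobal (pPrime p) τ)⁻¹ - ((show sl2 k from w) : M2 k) = 0
    have hinv : rbar (primeLocalToGlobal (pPrime p) τ)⁻¹ = 1 := by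
      have h : rbar (primeLocalToGlobal (pPrime p) τ)⁻¹ * rbar (primeLocalToGlobal (pPrime p) τ) =
          1 := by rw [← map_mul, inv_mul_cancel, map_one]
      rwa [hL4' τ hτ, mul_one] at h
    rw [hinv, hL4' τ hτ, one_mul, mul_one, sub_self]
  · -- transfer of boundedness
    rintro w hw c₁ ⟨L', hL1', hL2', hL3', hL4''⟩
    refine ⟨L', hL1', hL2', hL3', fun τ hτ => ?_⟩
    have h1 : c₁ τ • w = 0 := hL4'' τ hτ
    exact (smul_eq_zero.1 h1).resolve_right hw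


/-- a flat residual representation is Fontaine-bounded -/
theorem exists_fontaineBdd_of_isFlatGaloisModule_mulVec (p : ℕ) [hp : Fact p.Prime] [CharP k p]
    (rbar : Gal →* M2 k)
    (hflat : IsFlatGaloisModule p (Fin 2 → k) (fun σ v => (rbar σ).mulVec v)) :
    ∃ L : IntermediateField ℚ_[p] (PadicAlgCl p), FiniteDimensional ℚ_[p] L ∧
      IsGalois ℚ_[p] L ∧ FontaineBdd p L ∧
      ∀ τ : PadicAlgCl p ≃ₐ[ℚ_[p]] PadicAlgCl p, (∀ z ∈ L, τ z = z) →
        rbar (localGaloisToGlobal p τ) = 1 := by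
  have hpM : ∀ m : Fin 2 → k, p • m = 0 := by
    intro m
    funext i
    rw [Pi.smul_apply, nsmul_eq_mul, CharP.cast_eq_zero k p, zero_mul, Pi.zero_apply]
  obtain ⟨L, hL1, hL2, hL3, hL4⟩ :=
    Flat.exists_fontaineBdd_field_of_isFlatGaloisModule p _ hflat hpM
  refine ⟨L, hL1, hL2, hL3, fun τ hτ => ?_⟩
  apply Matrix.mulVec_injective
  funext m
  rw [Matrix.one_mulVec]
  exact (hL4 τ).1 hτ m

/-- **(T2'), reducible flat case, modulo the core (C')**, for a flat `rbar`. -/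
theorem card_locCond_seCond_inf_bddCond_le_of_flat (p : ℕ) [hp : Fact p.Prime] [CharP k p]
    (rbar : Gal →* M2 k)
    (hsm : IsSmooth (locBasis (pPrime p)) (Rep.res (primeLocalToGlobal (pPrime p)) (adRep rbar)))
    {e₀ : Fin 2 → k} (he₀ : e₀ ≠ 0)
    (hD : ∀ σ ∈ (primeLocalPlace (pPrime p)).decompositionSubgroup ℚ,
      ∃ t : k, (rbar σ).mulVec e₀ = t • e₀)
    (hI : ∀ σ ∈ (primeLocalPlace (pPrime p)).inertiaSubgroupIn ℚ, ∀ u : Fin 2 → k,
      ∃ t : k, (rbar σ).mulVec u - u = t • e₀)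
    (hdet : ∀ (σ : Gal) (a : ℕ), (∀ μ : Ω, μ ^ p = 1 → σ μ = μ ^ a) → (rbar σ).det = a)
    (hflat : IsFlatGaloisModule p (Fin 2 → k) (fun σ v => (rbar σ).mulVec v))
    (hcore : ∀ (χ : primeLocalGaloisGroup (pPrime p) →* kˣ)
      (_ : ∀ τ ∈ locInertia (pPrime p), χ τ = cycloCharLoc p k τ)
      (hsmχ : ∃ U ∈ (locBasis (pPrime p)).sets, ∀ g ∈ U, χ g = 1)
      (_ : ∃ L : IntermediateField ℚ_[p] (PadicAlgCl p), FiniteDimensional ℚ_[p] L ∧
        IsGalois ℚ_[p] L ∧ FontaineBdd p L ∧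
        ∀ τ : PadicAlgCl p ≃ₐ[ℚ_[p]] PadicAlgCl p, (∀ z ∈ L, τ z = z) →
          χ τ = 1 ∧ cycloCharLoc p k τ = 1),
      Finite (locCond (mkSm (locBasis (pPrime p)) (chiRep χ) (isSmooth_chiRep χ hsmχ))
        (bddCond p (chiRep χ))) ∧
      Nat.card (locCond (mkSm (locBasis (pPrime p)) (chiRep χ) (isSmooth_chiRep χ hsmχ))
        (bddCond p (chiRep χ))) ≤ Nat.card k) :
    Nat.card (locCond (mkSm (locBasis (pPrime p))
        (Rep.res (primeLocalToGlobal (pPrime p)) (adRep rbar)) hsm)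
        (seCond (pPrime p) (Rep.res (primeLocalToGlobal (pPrime p)) (adRep rbar)) (W1 e₀) (W0 e₀) ⊓
          bddCond p (Rep.res (primeLocalToGlobal (pPrime p)) (adRep rbar)))) ≤
      Nat.card (Ext (smUnit ℤ (locBasis (pPrime p))) (mkSm (locBasis (pPrime p))
        (Rep.res (primeLocalToGlobal (pPrime p)) (adRep rbar)) hsm) 0) * Nat.card k :=
  card_locCond_seCond_inf_bddCond_le p rbar hsm he₀ hD hI hdet
    (exists_fontaineBdd_of_isFlatGaloisModule_mulVec p rbar hflat) hcore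

end AtP

end Fermat.Agent.TW
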