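/-
TW (S56) — helper6 — (T2) for the reducible flat local condition `flatOrdCond p rbar` of helper8,
modulo the core count (C') of the Fontaine-bounded classes of `H¹(G_p, k(χ))`.
-/
import Mathlib
import Fermat.Agent.TW.SeLocal_helper6
import Fermat.Agent.TW.FlatOrd3_helper8

set_option autoImplicit false
set_option linter.unusedSectionVars false
set_option linter.style.haveILetI false

noncomputable section

namespace Fermat.Agent.TW

open Fermat.Agent.S53 Fermat.Agent.CFT.Sm Fermat.Agent.CFT.Bridge Fermat.Agent.CFT.Arith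
  groupCohomology CategoryTheory CategoryTheory.Abelian Matrix ExtCitation Fermat.Agent.Ram

/-- `Ω = AlgebraicClosure ℚ`. -/
local notation "Ω" => AlgebraicClosure ℚ

section Bot

variable {G : Type} [Group G] {𝒰 : OpenBasis G}

theorem locCond_bot (Y : SmRep ℤ 𝒰) : locCond Y ⊥ = ⊥ := by
  rw [eq_bot_iff]
  intro e he
  rw [AddSubgroup.mem_bot]
  have h1 : clsH1 Y e = 0 := (AddSubgroup.mem_bot).1 he
  exact clsH1_injective Y (h1.trans (map_zero _).symm)

theorem natCard_locCond_bot_le (Y : SmRep ℤ 𝒰) [Finite Y.obj.V] (N : ℕ) (hN : 0 < N) :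
    Nat.card (locCond Y ⊥) ≤ Nat.card (Ext (smUnit ℤ 𝒰) Y 0) * N := by
  rw [locCond_bot, natCard_ext_zero, AddSubgroup.card_bot]
  haveI : Finite {y : Y.obj.V // ∀ g, Y.obj.ρ g y = y} := Subtype.finite
  haveI : Nonempty {y : Y.obj.V // ∀ g, Y.obj.ρ g y = y} := ⟨⟨0, fun g => map_zero _⟩⟩
  have h1 : 0 < Nat.card {y : Y.obj.V // ∀ g, Y.obj.ρ g y = y} := Nat.card_pos
  exact Nat.mul_pos h1 hN

end Bot

section Count

variable {k : Type} [Field k] [Finite k]

/-- **(T2), reducible flat case, modulo the core (C').** -/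
theorem card_locCond_flatOrdCond_le_of_core (p : ℕ) [hp : Fact p.Prime] [CharP k p]
    (rbar : Gal →* M2 k)
    (hdet : ∀ (σ : Gal) (a : ℕ), (∀ μ : Ω, μ ^ p = 1 → σ μ = μ ^ a) → (rbar σ).det = a)
    (hcore : ∀ (χ : primeLocalGaloisGroup (pPrime p) →* kˣ)
      (_ : ∀ τ ∈ locInertia (pPrime p), χ τ = cycloCharLoc p k τ)
      (hsmχ : ∃ U ∈ (locBasis (pPrime p)).sets, ∀ g ∈ U, χ g = 1)
      (_ : ∃ L : IntermediateField ℚ_[p] (PadicAlgCl p), FiniteDimensional ℚ_[p] L ∧
        IsGalois ℚ_[p] L ∧ FontaineBdd p L ∧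
        ∀ τ : PadicAlgCl p ≃ₐ[ℚ_[p]] PadicAlgCl p, (∀ z ∈ L, τ z = z) →
          χ τ = 1 ∧ cycloCharLoc p k τ = 1),
      Finite (locCond (mkSm (locBasis (pPrime p)) (chiRep χ) (isSmooth_chiRep χ hsmχ))
        (bddCond p (chiRep χ))) ∧
      Nat.card (locCond (mkSm (locBasis (pPrime p)) (chiRep χ) (isSmooth_chiRep χ hsmχ))
        (bddCond p (chiRep χ))) ≤ Nat.card k)
    (hsm : IsSmooth (locBasis (pPrime p)) (Rep.res (primeLocalToGlobal (pPrime p)) (adRep rbar))) :
    Nat.card (locCond (mkSm (locBasis (pPrime p))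
        (Rep.res (primeLocalToGlobal (pPrime p)) (adRep rbar)) hsm) (flatOrdCond p rbar)) ≤
      Nat.card (Ext (smUnit ℤ (locBasis (pPrime p))) (mkSm (locBasis (pPrime p))
        (Rep.res (primeLocalToGlobal (pPrime p)) (adRep rbar)) hsm) 0) * Nat.card k := by
  by_cases h : ∃ e₀ : Fin 2 → k, IsFlatOrdLine p rbar e₀
  · obtain ⟨hflat, he₀, hD, hI, -⟩ := isFlatOrdLine_flatOrdLine p h
    rw [flatOrdCond_of_exists p h]
    exact card_locCond_seCond_inf_bddCond_le_of_flat p rbar hsm he₀ hD hI hdet hflat hcore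
  · rw [flatOrdCond_of_not_exists p h]
    exact natCard_locCond_bot_le _ _ Nat.card_pos

end Count

end Fermat.Agent.TW
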