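/-
F2 (flat local condition at p), reducible (ordinary) case: the final count (T2) for the local
condition `flatOrdCond p rbar`.
-/
import Mathlib
import Fermat.Agent.TW.FlatOrd7_helper8
import Fermat.Agent.TW.FlatOrdCount_helper6

set_option autoImplicit false
set_option linter.unusedSectionVars false
set_option linter.style.haveILetI false

namespace Fermat.Agent.TW

open Fermat.Agent.S53 Fermat.Agent.CFT.Sm Fermat.Agent.CFT.Bridge Fermat.Agent.CFT.Arith
  groupCohomology CategoryTheory CategoryTheory.Abelian Matrix ExtCitation Fermat.Agent.Ram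
  Fermat.Agent.TW.Flat

/-- `Ω = AlgebraicClosure ℚ`. -/
local notation "Ω" => AlgebraicClosure ℚ

variable {k : Type} [Field k] [Finite k]

/-- **(T2), reducible flat case.** -/
theorem card_locCond_flatOrdCond_le (p : ℕ) [Fact p.Prime] (hp2 : p ≠ 2) [CharP k p]
    (rbar : Gal →* M2 k)
    (hdet : ∀ (σ : Gal) (a : ℕ), (∀ μ : Ω, μ ^ p = 1 → σ μ = μ ^ a) → (rbar σ).det = a)
    (hsm : IsSmooth (locBasis (pPrime p)) (Rep.res (primeLocalToGlobal (pPrime p)) (adRep rbar))) :
    Nat.card (locCond (mkSm (locBasis (pPrime p))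
        (Rep.res (primeLocalToGlobal (pPrime p)) (adRep rbar)) hsm) (flatOrdCond p rbar)) ≤
      Nat.card (Ext (smUnit ℤ (locBasis (pPrime p))) (mkSm (locBasis (pPrime p))
        (Rep.res (primeLocalToGlobal (pPrime p)) (adRep rbar)) hsm) 0) * Nat.card k :=
  card_locCond_flatOrdCond_le_of_core p rbar hdet
    (fun χ h1 h2 h3 => card_locCond_bddCond_chiRep_le p hp2 χ h1 h2 h3) hsm

end Fermat.Agent.TW
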