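/-
S56 (Taylor–Wiles) — helper9. The final assembly: each half of S56 from
* `tw_primes_and_count` (Taylor–Wiles primes + Selmer bound),
* helper6's end products of the deformation side (`EndProduct_helper6`),
* the global Euler characteristic formula `ECGlobal` (helper3),
* at `p`: a local condition `𝓗p` with its count (T2) and, in the flat half, membership (T1).
-/
import Fermat.Agent.TW.Final_helper9
import Fermat.Agent.TW.EndProduct_helper6
import Fermat.Agent.TW.OrdLocal_helper6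

set_option autoImplicit false
set_option linter.unusedSectionVars false

open CategoryTheory CategoryTheory.Abelian groupCohomology ExtCitation Polynomial IsLocalRing

namespace Fermat.Agent.TW

open Fermat.Agent.CFT.Sm Fermat.Agent.CFT.Bridge Fermat.Agent.CFT.Arith Fermat.Agent.CFT.Local
  Fermat.Agent.CFT

/-- `Ω = AlgebraicClosure ℚ`. -/
local notation "Ω" => AlgebraicClosure ℚ
/-- `GQ = Gal(Ω/ℚ)`. -/
local notation "GQ" => (AlgebraicClosure ℚ ≃ₐ[ℚ] AlgebraicClosure ℚ)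

section Generic

variable {k : Type} [Field k] [Finite k] {p : ℕ} [Fact p.Prime] (hp2 : p ≠ 2) [CharP k p]
  (ρbar : ResidualGaloisRep k) (β : Module.Basis (Fin 2) k ρbar.V)
  (habs : ρbar.IsAbsolutelyIrreducible)
  (hdet : (GaloisRepAdic.ofResidualGaloisRep ρbar).DetIsCyclotomic p)
  (hsplit : ∀ σ : GQ, ∃ a b : k, LinearMap.charpoly (ρbar.ρ σ) = (X - C a) * (X - C b))
  (hTW : ∀ (K : Type) [Field K] [Algebra k K] (G : Subgroup GQ), G.index = 2 →
    ∀ V : Submodule K (ρbar.baseChange K).V,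
      (∀ σ ∈ G, ∀ x ∈ V, (ρbar.baseChange K).ρ σ x ∈ V) → V = ⊥ ∨ V = ⊤)
  (hEC : ECGlobal p)
  (S Smin : Finset ℕ) (hpSmin : p ∈ Smin)
  (hmin : ∀ q : ℕ, q.Prime → q ≠ p → (q ∈ Smin ↔ ¬ ρbar.IsUnramifiedAt q))

include hpSmin hmin in
lemma unramified_of_not_mem_primesOf (q : Nat.Primes) (hq : q ∉ primesOf Smin) :
    ρbar.IsUnramifiedAt (q : ℕ) := by
  have hq' : (q : ℕ) ∉ Smin := fun h => hq (mem_primesOf.2 h)
  have hqp : (q : ℕ) ≠ p := fun h => hq' (h ▸ hpSmin)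
  by_contra hne
  exact hq' ((hmin q q.2 hqp).2 hne)

include habs hdet hsplit hTW hEC hpSmin hmin in
/-- **The generic half of S56**: from a local condition `𝓗p` at `p` with the count (T2) and a
consumer `hGoal` of the Selmer bound. -/
theorem tw_half_generic
    (𝓗p : AddSubgroup (H1 (Rep.res (primeLocalToGlobal (pPrime p))
      (adRep (Fermat.Agent.S53.resMatrixOf ρbar β)))))
    (h𝓗p : ∀ hsm : IsSmooth (locBasis (pPrime p)) (Rep.res (primeLocalToGlobal (pPrime p))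
        (adRep (Fermat.Agent.S53.resMatrixOf ρbar β))),
      Nat.card (locCond (YLoc (adRep (Fermat.Agent.S53.resMatrixOf ρbar β)) (pPrime p) hsm) 𝓗p) ≤
      Nat.card (Ext (smUnit ℤ (locBasis (pPrime p)))
        (YLoc (adRep (Fermat.Agent.S53.resMatrixOf ρbar β)) (pPrime p) hsm) 0) * Nat.card k)
    (Goal : (r : ℕ) → (Fin r → ℕ) → Prop)
    (hGoal : ∀ (r : ℕ) (qv : Fin r → ℕ) (Q : Finset Nat.Primes)
      (hpS' : pPrime p ∈ primesOf Smin ∪ Q)
      (hS' : IsSmooth (levelBasis (primesOf Smin ∪ Q))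
        (adRep (Fermat.Agent.S53.resMatrixOf ρbar β)))
      (hloc : ∀ q : Nat.Primes, IsSmooth (locBasis q)
        (Rep.res (primeLocalToGlobal q) (adRep (Fermat.Agent.S53.resMatrixOf ρbar β)))),
      (∀ v : Nat.Primes, v ∉ primesOf Smin ∪ Q → (v : ℕ) ∉ Smin ∪ Finset.univ.image qv) →
      Nat.card ((twDatum hp2 (primesOf Smin ∪ Q) hpS').selmer
        (XS (adRep (Fermat.Agent.S53.resMatrixOf ρbar β)) (primesOf Smin ∪ Q) hS')
        (fun v => twFamily p (Fermat.Agent.S53.resMatrixOf ρbar β) (primesOf Smin) 𝓗p hloc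
          v.1)) ≤ Nat.card k ^ r →
      Goal r qv) :
    ∃ r : ℕ, ∀ n : ℕ, ∃ qv : Fin r → ℕ, Function.Injective qv ∧
      (∀ i, (qv i).Prime ∧ qv i ∉ S ∧ p ^ (n + 1) ∣ qv i - 1) ∧
      (∀ i, ∀ P : ValuationSubring Ω, P.LiesOverPrime (qv i) →
        ∀ φ : GQ, P.IsFrobeniusAt φ (qv i) →
          ∃ a b : k, a ≠ b ∧ LinearMap.charpoly (ρbar.ρ φ) = (X - C a) * (X - C b)) ∧
      Goal r qv := by
  classical
  have hpS : pPrime p ∈ primesOf Smin := mem_primesOf.2 hpSmin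
  have hunr := unramified_of_not_mem_primesOf ρbar Smin hpSmin hmin
  have hS0 := isSmooth_adRep_of_unramified ρbar β (primesOf Smin) hunr
  have hloc : ∀ q : Nat.Primes, IsSmooth (locBasis q)
      (Rep.res (primeLocalToGlobal q) (adRep (Fermat.Agent.S53.resMatrixOf ρbar β))) :=
    fun q => isSmooth_resQ _ (primesOf Smin) hS0 q
  obtain ⟨r, hr⟩ := tw_primes_and_count hp2 ρbar β habs hdet hsplit hTW hEC (primesOf Smin) hpS
    hunr hloc 𝓗p (h𝓗p (hloc _)) (primesOf S)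
  refine ⟨r, fun n => ?_⟩
  obtain ⟨Q, hcard, hdisjA, hdisjS, hQ, hcount⟩ := hr n
  let e : Fin r → Nat.Primes := fun i => ((Q.equivFin.symm (Fin.cast hcard.symm i) : Q) : Nat.Primes)
  have he_mem : ∀ i, e i ∈ Q := fun i => (Q.equivFin.symm (Fin.cast hcard.symm i)).2
  have he_inj : Function.Injective e := by
    intro i j hij
    have h1 : Q.equivFin.symm (Fin.cast hcard.symm i) = Q.equivFin.symm (Fin.cast hcard.symm j) :=
      Subtype.ext hij
    exact Fin.cast_injective _ (Q.equivFin.symm.injective h1)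
  refine ⟨fun i => (e i : ℕ), ?_, ?_, ?_, ?_⟩
  · intro i j hij
    exact he_inj (Subtype.ext hij)
  · intro i
    refine ⟨(e i).2, ?_, (hQ _ (he_mem i)).2.1⟩
    intro hS
    exact (Finset.disjoint_left.1 hdisjA (he_mem i)) (mem_primesOf.2 hS)
  · intro i P hP φ hφ
    exact (hQ _ (he_mem i)).2.2.2 P hP φ hφ
  · have hpS' : pPrime p ∈ primesOf Smin ∪ Q := Finset.mem_union_left _ hpS
    have hS' : IsSmooth (levelBasis (primesOf Smin ∪ Q))
        (adRep (Fermat.Agent.S53.resMatrixOf ρbar β)) :=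
      hS0.of_finer (levelBasis_finer_of_subset Finset.subset_union_left)
    refine hGoal r _ Q hpS' hS' hloc ?_ (hcount hpS' hS')
    intro v hv hmem
    rcases Finset.mem_union.1 hmem with h | h
    · exact hv (Finset.mem_union_left _ (mem_primesOf.2 h))
    · obtain ⟨i, -, hi⟩ := Finset.mem_image.1 h
      have : e i = v := Subtype.ext hi
      exact hv (Finset.mem_union_right _ (this ▸ he_mem i))

end Generic

section Halves

variable {𝒪 : Type} [CommRing 𝒪] [IsDomain 𝒪] [IsDiscreteValuationRing 𝒪]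
  [IsAdicComplete (maximalIdeal 𝒪) 𝒪] [Finite (ResidueField 𝒪)]
  (p : ℕ) [hp : Fact p.Prime] (hp2 : p ≠ 2) (hp𝒪 : (p : 𝒪) ∈ maximalIdeal 𝒪)
  (ρbar : ResidualGaloisRep (ResidueField 𝒪))
  (habs : ρbar.IsAbsolutelyIrreducible)
  (hdet : (GaloisRepAdic.ofResidualGaloisRep ρbar).DetIsCyclotomic p)
  (hsplit : ∀ σ : GQ, ∃ a b : ResidueField 𝒪,
    LinearMap.charpoly (ρbar.ρ σ) = (X - C a) * (X - C b))
  (hTW : ∀ (K : Type) [Field K] [Algebra (ResidueField 𝒪) K] (G : Subgroup GQ), G.index = 2 →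
    ∀ V : Submodule K (ρbar.baseChange K).V,
      (∀ σ ∈ G, ∀ x ∈ V, (ρbar.baseChange K).ρ σ x ∈ V) → V = ⊥ ∨ V = ⊤)
  (hEC : ECGlobal p)
  (S Smin : Finset ℕ) (hpSmin : p ∈ Smin)
  (hmin : ∀ q : ℕ, q.Prime → q ≠ p → (q ∈ Smin ↔ ¬ ρbar.IsUnramifiedAt q))

include hp𝒪 in
lemma charP_residueField_of_mem : CharP (ResidueField 𝒪) p := by
  have hpk : ((p : ℕ) : ResidueField 𝒪) = 0 := by
    have h1 : residue 𝒪 (p : 𝒪) = 0 := (residue_eq_zero_iff _).2 hp𝒪
    rwa [map_natCast] at h1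
  exact (CharP.charP_iff_prime_eq_zero hp.out).mpr hpk

include hp2 hp𝒪 habs hdet hsplit hTW hEC hpSmin hmin in
/-- **S56, strictly ordinary half** (modulo the global Euler characteristic formula). -/
theorem tw_half_strictOrdinary :
    ∃ r : ℕ, ∀ n : ℕ, ∃ qv : Fin r → ℕ, Function.Injective qv ∧
      (∀ i, (qv i).Prime ∧ qv i ∉ S ∧ p ^ (n + 1) ∣ qv i - 1) ∧
      (∀ i, ∀ P : ValuationSubring Ω, P.LiesOverPrime (qv i) →
        ∀ φ : GQ, P.IsFrobeniusAt φ (qv i) →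
          ∃ a b : ResidueField 𝒪, a ≠ b ∧
            LinearMap.charpoly (ρbar.ρ φ) = (X - C a) * (X - C b)) ∧
      ∀ DQ : GaloisRep.DeformationRingData 𝒪 ρbar (fun _A _ _ _ ρ =>
          GaloisRep.strictOrdinaryCondition 𝒪 p (Smin ∪ Finset.univ.image qv) ρ ∧
            ∀ q ∈ Smin, q.Prime → q ≠ p → ρ.IsUnipotentOnInertiaAt q),
        ∃ γ : MvPowerSeries (Fin r) 𝒪 →ₐ[𝒪] DQ.R, Function.Surjective γ := by
  have : CharP (ResidueField 𝒪) p := charP_residueField_of_mem p hp𝒪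
  let β : Module.Basis (Fin 2) (ResidueField 𝒪) ρbar.V :=
    Module.finBasisOfFinrankEq (ResidueField 𝒪) ρbar.V ρbar.finrank_eq
  exact tw_half_generic hp2 ρbar β habs hdet hsplit hTW hEC S Smin hpSmin hmin
    (ordCond p (Fermat.Agent.S53.resMatrixOf ρbar β))
    (fun hsm => card_locCond_ordCond_le p hp2 (Fermat.Agent.S53.resMatrixOf ρbar β) hsm)
    (fun r qv => ∀ DQ : GaloisRep.DeformationRingData 𝒪 ρbar (fun _A _ _ _ ρ =>
          GaloisRep.strictOrdinaryCondition 𝒪 p (Smin ∪ Finset.univ.image qv) ρ ∧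
            ∀ q ∈ Smin, q.Prime → q ≠ p → ρ.IsUnipotentOnInertiaAt q),
        ∃ γ : MvPowerSeries (Fin r) 𝒪 →ₐ[𝒪] DQ.R, Function.Surjective γ)
    (fun r qv Q hpS' hS' hloc hST hSel DQ =>
      exists_surjective_of_card_selmer_le_strictOrdinary hp2 hp𝒪 β Smin
        (Smin ∪ Finset.univ.image qv) (primesOf Smin) (primesOf Smin ∪ Q) hpS' hST
        (fun v hv _ => mem_primesOf.1 hv) hmin DQ hS' hloc r hSel)

open Fermat.Agent.S53 GaloisRepAdic in
include hp2 hp𝒪 habs hdet hsplit hTW hEC hpSmin hmin in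
/-- **S56, flat half**, from a local condition `𝓗p` at `p` containing the flat classes (T1) and
satisfying the count (T2) (modulo the global Euler characteristic formula). -/
theorem tw_half_flat (β : Module.Basis (Fin 2) (ResidueField 𝒪) ρbar.V)
    (𝓗p : AddSubgroup (H1 (Rep.res (primeLocalToGlobal (pPrime p))
      (adRep (resMatrixOf ρbar β)))))
    (hT1 : ∀ (b : GQ → Matrix (Fin 2) (Fin 2) (ResidueField 𝒪))
      (hb : IsTwCocycle (resMatrixOf ρbar β) b) (hs : IsSmoothFun b),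
      (ofMatrix (defOfCocycle (resMatrixOf ρbar β) b hb)
        (matCont_defOfCocycle (resMatrixOf_factors ρbar β) hb hs)).DetIsCyclotomic p →
      (ofMatrix (defOfCocycle (resMatrixOf ρbar β) b hb)
        (matCont_defOfCocycle (resMatrixOf_factors ρbar β) hb hs)).IsFlatAt p →
      ∀ htr : ∀ σ, Matrix.trace (b σ * resMatrixOf ρbar β σ⁻¹) = 0,
        (groupCohomology.map (primeLocalToGlobal (pPrime p))
          (𝟙 (Rep.res (primeLocalToGlobal (pPrime p)) (adRep (resMatrixOf ρbar β)))) 1).hom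
        ((H1π (adRep (resMatrixOf ρbar β))).hom (adCocycle hb htr)) ∈ 𝓗p)
    (h𝓗p : ∀ hsm : IsSmooth (locBasis (pPrime p)) (Rep.res (primeLocalToGlobal (pPrime p))
        (adRep (resMatrixOf ρbar β))),
      Nat.card (locCond (YLoc (adRep (resMatrixOf ρbar β)) (pPrime p) hsm) 𝓗p) ≤
      Nat.card (Ext (smUnit ℤ (locBasis (pPrime p)))
        (YLoc (adRep (resMatrixOf ρbar β)) (pPrime p) hsm) 0) * Nat.card (ResidueField 𝒪)) :
    ∃ r : ℕ, ∀ n : ℕ, ∃ qv : Fin r → ℕ, Function.Injective qv ∧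
      (∀ i, (qv i).Prime ∧ qv i ∉ S ∧ p ^ (n + 1) ∣ qv i - 1) ∧
      (∀ i, ∀ P : ValuationSubring Ω, P.LiesOverPrime (qv i) →
        ∀ φ : GQ, P.IsFrobeniusAt φ (qv i) →
          ∃ a b : ResidueField 𝒪, a ≠ b ∧
            LinearMap.charpoly (ρbar.ρ φ) = (X - C a) * (X - C b)) ∧
      ∀ DQ : GaloisRep.DeformationRingData 𝒪 ρbar (fun _A _ _ _ ρ =>
          GaloisRep.flatCondition 𝒪 p (Smin ∪ Finset.univ.image qv) ρ ∧
            ∀ q ∈ Smin, q.Prime → q ≠ p → ρ.IsUnipotentOnInertiaAt q),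
        ∃ γ : MvPowerSeries (Fin r) 𝒪 →ₐ[𝒪] DQ.R, Function.Surjective γ := by
  have : CharP (ResidueField 𝒪) p := charP_residueField_of_mem p hp𝒪
  exact tw_half_generic hp2 ρbar β habs hdet hsplit hTW hEC S Smin hpSmin hmin 𝓗p h𝓗p
    (fun r qv => ∀ DQ : GaloisRep.DeformationRingData 𝒪 ρbar (fun _A _ _ _ ρ =>
          GaloisRep.flatCondition 𝒪 p (Smin ∪ Finset.univ.image qv) ρ ∧
            ∀ q ∈ Smin, q.Prime → q ≠ p → ρ.IsUnipotentOnInertiaAt q),
        ∃ γ : MvPowerSeries (Fin r) 𝒪 →ₐ[𝒪] DQ.R, Function.Surjective γ)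
    (fun r qv Q hpS' hS' hloc hST hSel DQ =>
      exists_surjective_of_card_selmer_le_flat hp2 hp𝒪 β Smin
        (Smin ∪ Finset.univ.image qv) (primesOf Smin) (primesOf Smin ∪ Q) hpS' hST
        (fun v hv _ => mem_primesOf.1 hv) hmin DQ hS' hloc 𝓗p hT1 r hSel)

end Halves

end Fermat.Agent.TW
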