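/-
S56 (Taylor–Wiles) — helper9. Converting an `H¹`-level bound on a local condition into the
`locCond`-level bound (T2) consumed by `tw_half_flat`.
-/
import Fermat.Agent.TW.Halves_helper9
import Fermat.Agent.TW.UnrCount_helper6

set_option autoImplicit false
set_option linter.unusedSectionVars false

open CategoryTheory CategoryTheory.Abelian groupCohomology ExtCitation

namespace Fermat.Agent.TW

open Fermat.Agent.CFT.Sm Fermat.Agent.CFT.Bridge Fermat.Agent.CFT.Arith Fermat.Agent.CFT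

section Conv

variable {G : Type} [Group G] {𝒰 : OpenBasis G}

/-- `locCond X 𝓛` injects into `𝓛`. -/
theorem card_locCond_le_card (X : SmRep ℤ 𝒰) (𝓛 : AddSubgroup (H1 X.obj)) [Finite 𝓛] :
    Finite (locCond X 𝓛) ∧ Nat.card (locCond X 𝓛) ≤ Nat.card 𝓛 := by
  let Θ : locCond X 𝓛 → 𝓛 := fun e => ⟨clsH1 X e.1, e.2⟩
  have hΘ : Function.Injective Θ := by
    intro e e' h
    have h3 : clsH1 X e.1 = clsH1 X e'.1 := congrArg Subtype.val h
    exact Subtype.ext (clsH1_injective X h3)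
  exact ⟨Finite.of_injective Θ hΘ, Nat.card_le_card_of_injective Θ hΘ⟩

/-- `0 < #Ext⁰(𝟙, Y)` for finite `Y`. -/
theorem natCard_ext_zero_pos (Y : SmRep ℤ 𝒰) [Finite Y.obj.V] :
    0 < Nat.card (Ext (smUnit ℤ 𝒰) Y 0) := by
  rw [natCard_ext_zero]
  have : Finite {y : Y.obj.V // ∀ g : G, Y.obj.ρ g y = y} := Subtype.finite
  have : Nonempty {y : Y.obj.V // ∀ g : G, Y.obj.ρ g y = y} := ⟨⟨0, fun g => map_zero _⟩⟩
  exact Nat.card_pos

/-- **(T2) from an `H¹`-level bound `#𝓛 ≤ N`.** -/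
theorem card_locCond_le_mul_of_card_le (X : SmRep ℤ 𝒰) [Finite X.obj.V]
    (𝓛 : AddSubgroup (H1 X.obj)) (N : ℕ) (h : Finite 𝓛 ∧ Nat.card 𝓛 ≤ N) :
    Nat.card (locCond X 𝓛) ≤ Nat.card (Ext (smUnit ℤ 𝒰) X 0) * N := by
  have := h.1
  calc Nat.card (locCond X 𝓛) ≤ Nat.card 𝓛 := (card_locCond_le_card X 𝓛).2
    _ ≤ N := h.2
    _ = 1 * N := (one_mul N).symm
    _ ≤ Nat.card (Ext (smUnit ℤ 𝒰) X 0) * N :=
        Nat.mul_le_mul_right N (natCard_ext_zero_pos X)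

/-- **(T2) from an `H¹`-level bound `#𝓛 ≤ #H⁰ · N`**, with `H⁰` the invariants of the abstract
group. -/
theorem card_locCond_le_mul_of_card_le_invariants (X : SmRep ℤ 𝒰) [Finite X.obj.V]
    (𝓛 : AddSubgroup (H1 X.obj)) (N : ℕ)
    (h : Finite 𝓛 ∧
      Nat.card 𝓛 ≤ Nat.card {y : X.obj.V // ∀ g : G, X.obj.ρ g y = y} * N) :
    Nat.card (locCond X 𝓛) ≤ Nat.card (Ext (smUnit ℤ 𝒰) X 0) * N := by
  have := h.1
  rw [natCard_ext_zero]
  exact (card_locCond_le_card X 𝓛).2.trans h.2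

end Conv

section AtP

variable {k : Type} [Field k] [Finite k] {p : ℕ} [Fact p.Prime]

/-- the shape of (T2) in `tw_half_flat`, from an `H¹`-level bound `#𝓗p ≤ |k|`. -/
theorem card_locCond_YLoc_le_of_card_le
    (rbar : (AlgebraicClosure ℚ ≃ₐ[ℚ] AlgebraicClosure ℚ) →* Matrix (Fin 2) (Fin 2) k)
    (𝓗p : AddSubgroup (H1 (Rep.res (primeLocalToGlobal (pPrime p)) (adRep rbar))))
    (h : Finite 𝓗p ∧ Nat.card 𝓗p ≤ Nat.card k)
    (hsm : IsSmooth (locBasis (pPrime p)) (Rep.res (primeLocalToGlobal (pPrime p)) (adRep rbar))) :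
    Nat.card (locCond (YLoc (adRep rbar) (pPrime p) hsm) 𝓗p) ≤
      Nat.card (Ext (smUnit ℤ (locBasis (pPrime p))) (YLoc (adRep rbar) (pPrime p) hsm) 0) *
        Nat.card k := by
  have : Finite (YLoc (adRep rbar) (pPrime p) hsm).obj.V :=
    inferInstanceAs (Finite (adRep rbar).V)
  exact card_locCond_le_mul_of_card_le (YLoc (adRep rbar) (pPrime p) hsm) 𝓗p (Nat.card k) h

end AtP

end Fermat.Agent.TW
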