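/-
S56 (Taylor–Wiles) — helper9. Bridging lemmas for the final assembly of the flat half of S56:
* the residual determinant and the split characteristic polynomials in matrix form,
* a line stable under the local Galois group at `p` is stable under the decomposition group
  (surjectivity of `G_p → D_p` at finite level, helper4's `exists_primeLocal_lift`).
-/
import Fermat.Agent.TW.Halves_helper9
import Fermat.Agent.CFT.LocForm.DecLift_helper4

set_option autoImplicit false
set_option linter.unusedSectionVars false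

open ExtCitation Polynomial

namespace Fermat.Agent.TW

open Fermat.Agent.S53

/-- `Ω = AlgebraicClosure ℚ`. -/
local notation "Ω" => AlgebraicClosure ℚ
/-- `GQ = Gal(Ω/ℚ)`. -/
local notation "GQ" => (AlgebraicClosure ℚ ≃ₐ[ℚ] AlgebraicClosure ℚ)

section Bridge

variable {k : Type} [Field k]

/-- the residual determinant in matrix form. -/
theorem det_resMatrixOf_of_detIsCyclotomic {p : ℕ} (hpk : (p : k) = 0)
    (ρbar : ResidualGaloisRep k) (β : Module.Basis (Fin 2) k ρbar.V)
    (hdet : (GaloisRepAdic.ofResidualGaloisRep ρbar).DetIsCyclotomic p) (σ : GQ) (a : ℕ)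
    (ha : ∀ μ : Ω, μ ^ p = 1 → σ μ = μ ^ a) : (resMatrixOf ρbar β σ).det = a := by
  have h1 := hdet.2 1 σ a (by simpa using ha)
  have h0 : (((p ^ 1 : ℕ) : ℕ) : k) = 0 := by rw [pow_one]; exact hpk
  rw [h0, Ideal.span_singleton_zero, Ideal.mem_bot, sub_eq_zero] at h1
  rw [resMatrixOf_eq_toMatrix, LinearMap.det_toMatrix]
  exact h1

/-- split characteristic polynomials in matrix form. -/
theorem charpoly_resMatrixOf_split (ρbar : ResidualGaloisRep k)
    (β : Module.Basis (Fin 2) k ρbar.V)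
    (hsplit : ∀ σ : GQ, ∃ a b : k, LinearMap.charpoly (ρbar.ρ σ) = (X - C a) * (X - C b))
    (σ : GQ) : ∃ a b : k, (resMatrixOf ρbar β σ).charpoly = (X - C a) * (X - C b) := by
  obtain ⟨a, b, h⟩ := hsplit σ
  refine ⟨a, b, ?_⟩
  rw [resMatrixOf_eq_toMatrix, LinearMap.charpoly_toMatrix]
  exact h

/-- `G_v → D_v` is surjective modulo the kernel of a representation of finite level. -/
theorem exists_primeLocal_eq_of_mem_decomposition {M : Type} [Group M] (v : Nat.Primes)
    (r : GQ →* M) (hr : GaloisFactorsThroughFiniteLevel r) (g : GQ)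
    (hg : g ∈ (primeLocalPlace v).decompositionSubgroup ℚ) :
    ∃ τ : primeLocalGaloisGroup v, r (primeLocalToGlobal v τ) = r g := by
  obtain ⟨L, hL, h⟩ := hr
  have := hL
  obtain ⟨τ, hτ⟩ := Fermat.Agent.CFT.LocForm.exists_primeLocal_lift v g hg L
  refine ⟨τ, ?_⟩
  have h1 : r ((primeLocalToGlobal v τ)⁻¹ * g) = 1 := by
    apply h
    intro x hx
    rw [AlgEquiv.mul_apply, ← hτ x hx]
    exact (primeLocalToGlobal v τ).symm_apply_apply x
  rw [map_mul, map_inv, inv_mul_eq_one] at h1
  exact h1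

/-- a line stable under the local Galois group at `p` is stable under the decomposition group of
`padicPlace p`. -/
theorem exists_decomposition_line_of_exists_local_line {p : ℕ} [Fact p.Prime]
    (rbar : GQ →* M2 k) (hr : GaloisFactorsThroughFiniteLevel rbar)
    (h : ∃ e₁ : Fin 2 → k, e₁ ≠ 0 ∧ ∀ τ : primeLocalGaloisGroup (pPrime p),
      ∃ t : k, (rbar (primeLocalToGlobal (pPrime p) τ)).mulVec e₁ = t • e₁) :
    ∃ e₁ : Fin 2 → k, e₁ ≠ 0 ∧
      ∀ g ∈ (padicPlace p).decompositionSubgroup ℚ, ∃ t : k, (rbar g).mulVec e₁ = t • e₁ := by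
  obtain ⟨e₁, he, hloc⟩ := h
  refine ⟨e₁, he, fun g hg => ?_⟩
  have hg' : g ∈ (primeLocalPlace (pPrime p)).decompositionSubgroup ℚ := hg
  -- move to the unit group to apply the lifting lemma
  obtain ⟨L, hL, hker⟩ := hr
  have := hL
  obtain ⟨τ, hτ⟩ := Fermat.Agent.CFT.LocForm.exists_primeLocal_lift (pPrime p) g hg' L
  have h1 : rbar ((primeLocalToGlobal (pPrime p) τ)⁻¹ * g) = 1 := by
    apply hker
    intro x hx
    rw [AlgEquiv.mul_apply, ← hτ x hx]
    exact (primeLocalToGlobal (pPrime p) τ).symm_apply_apply x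
  have h2 : rbar g = rbar (primeLocalToGlobal (pPrime p) τ) := by
    have h3 : g = primeLocalToGlobal (pPrime p) τ * ((primeLocalToGlobal (pPrime p) τ)⁻¹ * g) := by
      rw [mul_inv_cancel_left]
    rw [h3, map_mul, h1, mul_one]
  rw [h2]
  exact hloc τ

/-- the converse (easy) direction. -/
theorem exists_local_line_of_exists_decomposition_line {p : ℕ} [Fact p.Prime]
    (rbar : GQ →* M2 k)
    (h : ∃ e₁ : Fin 2 → k, e₁ ≠ 0 ∧
      ∀ g ∈ (padicPlace p).decompositionSubgroup ℚ, ∃ t : k, (rbar g).mulVec e₁ = t • e₁) :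
    ∃ e₁ : Fin 2 → k, e₁ ≠ 0 ∧ ∀ τ : primeLocalGaloisGroup (pPrime p),
      ∃ t : k, (rbar (primeLocalToGlobal (pPrime p) τ)).mulVec e₁ = t • e₁ := by
  obtain ⟨e₁, he, hD⟩ := h
  exact ⟨e₁, he, fun τ => hD _ (primeLocalToGlobal_mem_decompositionSubgroup (pPrime p) τ)⟩

end Bridge

end Fermat.Agent.TW
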