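/-
S56 / TW (leaf F1-core, literal form) — helper4.
**`#Ext¹_{G_p}(1, k(ε̄)) ≤ |k|²`** for helper6's `cycloSm p k`, `p` odd.
-/
import Fermat.Agent.CFT.LocForm.F1Main_helper4
import Fermat.Agent.TW.ChiRep_helper6

set_option autoImplicit false
set_option linter.unusedSectionVars false

open CategoryTheory CategoryTheory.Abelian ExtCitation

namespace Fermat.Agent.TW

open Fermat.Agent.CFT.Sm Fermat.Agent.CFT.Bridge Fermat.Agent.CFT.LocForm

variable (p : ℕ) [hp : Fact p.Prime] (k : Type) [Field k] [CharP k p] [Finite k]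

/-- **(F1-core), literal form**: `#Ext¹_{G_p}(1, k(ε̄)) ≤ |k|²` for odd `p`. -/
theorem card_ext_one_cycloSm_le (hp2 : p ≠ 2) :
    Finite (Ext (smUnit ℤ (locBasis (pPrime p))) (cycloSm p k) 1) ∧
      Nat.card (Ext (smUnit ℤ (locBasis (pPrime p))) (cycloSm p k) 1) ≤ Nat.card k ^ 2 :=
  loc_card_ext_one_le_of_char p hp2 (cycloCharLoc p k) (cycloCharLoc_spec p k) (cycloSm p k)
    (AddEquiv.refl k) (fun _ _ => rfl)

end Fermat.Agent.TW
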