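/-
TW (S56) — helper6 — the strictly ordinary local condition at `p`, final form.
* `IsResOrdLine p rbar e₀` — the residual strictly ordinary structure (stable line, sub-character
  `= ε̄ ·` quotient character, inertia trivial on the quotient);
* `ordLine p rbar`, `ordCond p rbar := valuedCond _ (W0 (ordLine p rbar))`;
* (T1) `res_adCocycle_mem_ordCond`: strictly ordinary deformations to `k[ε]` land in `ordCond`;
* (T2) `card_locCond_ordCond_le`: `#(locCond Y (ordCond p rbar)) ≤ #Ext⁰(𝟙, Y) · |k|`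
  (unconditional: uses helper4's `card_ext_one_cycloSm_le`).
-/
import Mathlib
import Fermat.Agent.TW.OrdCount_helper6
import Fermat.Agent.TW.F1Core_helper4

set_option autoImplicit false
set_option linter.unusedSectionVars false
set_option linter.unusedSimpArgs false
set_option linter.style.haveILetI false

noncomputable section

namespace Fermat.Agent.TW

open Fermat.Agent.S53 Fermat.Agent.CFT.Sm Fermat.Agent.CFT.Bridge Fermat.Agent.CFT.Arith
  groupCohomology CategoryTheory CategoryTheory.Abelian Matrix ExtCitation IsLocalRing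
  GaloisRepAdic TrivSqZeroExt

/-- `Ω = AlgebraicClosure ℚ`. -/
local notation "Ω" => AlgebraicClosure ℚ

section ResOrd

variable {k : Type} [Field k]

/-- the residual strictly ordinary structure, for sets `SD` (decomposition group) and `SI`
(inertia group): a line `k e₀` stable under `SD`, with sub-character `= ε̄ ·` quotient character,
and trivial action of `SI` on the quotient -/
def IsResOrdLineOn (p : ℕ) (SD SI : Set Gal) (rbar : Gal →* M2 k) (e₀ : Fin 2 → k) : Prop :=
  e₀ ≠ 0 ∧
  (∀ σ ∈ SD, ∃ x z : k, (rbar σ).mulVec e₀ = x • e₀ ∧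
    (∀ u : Fin 2 → k, ∃ t : k, (rbar σ).mulVec u - z • u = t • e₀) ∧
    ∀ a : ℕ, (∀ μ : Ω, μ ^ p = 1 → σ μ = μ ^ a) → x = (a : k) * z) ∧
  (∀ σ ∈ SI, ∀ u : Fin 2 → k, ∃ t : k, (rbar σ).mulVec u - u = t • e₀)

/-- a strictly ordinary deformation to the dual numbers has a residually ordinary line -/
theorem exists_isResOrdLineOn_aux {p : ℕ} [Fact p.Prime] (hpk : (p : k) = 0)
    {rbar : Gal →* M2 k} {b : Gal → M2 k} (SD SI : Set Gal)
    (L : Submodule (DualNumber k) (Fin 2 → DualNumber k))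
    (bs : Module.Basis (Fin 2) (DualNumber k) (Fin 2 → DualNumber k))
    (hL : L = Submodule.span (DualNumber k) {bs 0})
    (hI : ∀ σ ∈ SI, ∀ v : Fin 2 → DualNumber k, (ofParts (rbar σ) (b σ)).mulVec v - v ∈ L)
    (hchar : ∀ σ ∈ SD, ∃ x z : DualNumber k,
      (∀ w ∈ L, (ofParts (rbar σ) (b σ)).mulVec w = x • w) ∧
      (∀ v : Fin 2 → DualNumber k, (ofParts (rbar σ) (b σ)).mulVec v - z • v ∈ L) ∧
      ∀ (n a : ℕ), (∀ μ : Ω, μ ^ p ^ n = 1 → σ μ = μ ^ a) →
        x - (a : DualNumber k) * z ∈ Ideal.span {((p ^ n : ℕ) : DualNumber k)}) :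
    ∃ e₀ : Fin 2 → k, IsResOrdLineOn p SD SI rbar e₀ := by
  classical
  let e : Fin 2 → DualNumber k := bs 0
  have hmemL : ∀ l : Fin 2 → DualNumber k, l ∈ L ↔ ∃ c : DualNumber k, l = c • e := by
    intro l
    rw [hL, Submodule.mem_span_singleton]
    constructor <;> rintro ⟨c, hc⟩ <;> exact ⟨c, hc.symm⟩
  have heL : e ∈ L := (hmemL e).2 ⟨1, (one_smul _ _).symm⟩
  have he₀ : fstV e ≠ 0 := by
    intro h0
    have h1 : (inr 1 : DualNumber k) • e = 0 := by
      ext i
      · simp
      · have := congrFun h0 i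
        simp only [fstV, Pi.zero_apply] at this
        simp [this]
    have h3 : bs.repr ((inr 1 : DualNumber k) • bs 0) = 0 := by
      show bs.repr ((inr 1 : DualNumber k) • e) = 0
      rw [h1, map_zero]
    rw [map_smul, Module.Basis.repr_self, Finsupp.smul_single, smul_eq_mul, mul_one,
      Finsupp.single_eq_zero] at h3
    have := congrArg TrivSqZeroExt.snd h3
    simp at this
  have hp0 : ((p ^ 1 : ℕ) : DualNumber k) = 0 := by
    rw [pow_one, ← TrivSqZeroExt.inl_natCast, hpk, TrivSqZeroExt.inl_zero]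
  have hbot : Ideal.span {((p ^ 1 : ℕ) : DualNumber k)} = ⊥ := by
    rw [hp0]; exact Ideal.span_singleton_eq_bot.mpr rfl
  refine ⟨fstV e, he₀, ?_, ?_⟩
  · intro σ hσ
    obtain ⟨x, z, hx, hz, hcyc⟩ := hchar σ hσ
    refine ⟨x.fst, z.fst, ?_, fun u => ?_, fun a ha => ?_⟩
    · have := congrArg fstV (hx e heL)
      rw [fstV_mulVec_ofParts, fstV_smul] at this
      exact this
    · obtain ⟨c, hc'⟩ := (hmemL _).1 (hz (inlV u))
      refine ⟨c.fst, ?_⟩
      have := congrArg fstV hc'
      rw [fstV_sub, fstV_mulVec_ofParts, fstV_smul, fstV_smul, fstV_inlV] at this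
      exact this
    · have hxz := hcyc 1 a (by simpa using ha)
      rw [hbot, Ideal.mem_bot, sub_eq_zero] at hxz
      have := congrArg TrivSqZeroExt.fst hxz
      simpa using this
  · intro σ hσ u
    obtain ⟨c, hc'⟩ := (hmemL _).1 (hI σ hσ (inlV u))
    refine ⟨c.fst, ?_⟩
    have := congrArg fstV hc'
    rw [fstV_sub, fstV_mulVec_ofParts, fstV_smul, fstV_inlV] at this
    exact this

/-- the residual strictly ordinary structure at `p` -/
def IsResOrdLine (p : ℕ) [Fact p.Prime] (rbar : Gal →* M2 k) (e₀ : Fin 2 → k) : Prop :=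
  IsResOrdLineOn p ((primeLocalPlace (pPrime p)).decompositionSubgroup ℚ : Set Gal)
    ((primeLocalPlace (pPrime p)).inertiaSubgroupIn ℚ : Set Gal) rbar e₀

theorem exists_isResOrdLine_of_isStrictOrdinaryAt {p : ℕ} [Fact p.Prime] (hpk : (p : k) = 0)
    {rbar : Gal →* M2 k} {b : Gal → M2 k} (hb : IsTwCocycle rbar b)
    (hc : MatCont (defOfCocycle rbar b hb))
    (hord : (ofMatrix (defOfCocycle rbar b hb) hc).IsStrictOrdinaryAt p) :
    ∃ e₀ : Fin 2 → k, IsResOrdLine p rbar e₀ := by
  obtain ⟨L, ⟨bs, hL⟩, -, hI, hchar⟩ := hord.2 (primeLocalPlace (pPrime p))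
    (primeLocalPlace_liesOverPrime (pPrime p))
  exact exists_isResOrdLineOn_aux hpk _ _ L bs hL hI hchar

/-- the residually ordinary line at `p` of `rbar` (junk value `0` if there is none) -/
def ordLine (p : ℕ) [Fact p.Prime] (rbar : Gal →* M2 k) : Fin 2 → k :=
  open scoped Classical in
  if h : ∃ e₀ : Fin 2 → k, IsResOrdLine p rbar e₀ then h.choose else 0

theorem isResOrdLine_ordLine {p : ℕ} [Fact p.Prime] {rbar : Gal →* M2 k}
    (h : ∃ e₀ : Fin 2 → k, IsResOrdLine p rbar e₀) : IsResOrdLine p rbar (ordLine p rbar) := by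
  unfold ordLine
  rw [dif_pos h]
  exact h.choose_spec

theorem ordLine_eq_zero {p : ℕ} [Fact p.Prime] {rbar : Gal →* M2 k}
    (h : ¬ ∃ e₀ : Fin 2 → k, IsResOrdLine p rbar e₀) : ordLine p rbar = 0 := by
  unfold ordLine
  rw [dif_neg h]

/-- **the strictly ordinary local condition at `p`**: classes coming from
`W⁰ = Hom(V / L̄, L̄)`, `L̄` the ordinary line of `rbar` -/
def ordCond (p : ℕ) [Fact p.Prime] (rbar : Gal →* M2 k) :
    AddSubgroup (H1 (Rep.res (primeLocalToGlobal (pPrime p)) (adRep rbar))) :=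
  valuedCond (Rep.res (primeLocalToGlobal (pPrime p)) (adRep rbar)) (W0 (ordLine p rbar))

/-- **(T1), strictly ordinary case**: the restriction to `G_p` of the `ad⁰`-class of a strictly
ordinary deformation with cyclotomic determinant lies in `ordCond`. -/
theorem res_adCocycle_mem_ordCond {p : ℕ} [hp : Fact p.Prime] (hp2 : p ≠ 2)
    (hpk : (p : k) = 0)
    (ρbar : ResidualGaloisRep k) (β : Module.Basis (Fin 2) k ρbar.V) {b : Gal → M2 k}
    (hb : IsTwCocycle (resMatrixOf ρbar β) b) (hsm : IsSmoothFun b)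
    (hdet : (ofMatrix (defOfCocycle (resMatrixOf ρbar β) b hb)
      (matCont_defOfCocycle (resMatrixOf_factors ρbar β) hb hsm)).DetIsCyclotomic p)
    (hord : (ofMatrix (defOfCocycle (resMatrixOf ρbar β) b hb)
      (matCont_defOfCocycle (resMatrixOf_factors ρbar β) hb hsm)).IsStrictOrdinaryAt p)
    (htr : ∀ σ, Matrix.trace (b σ * resMatrixOf ρbar β σ⁻¹) = 0) :
    (groupCohomology.map (primeLocalToGlobal (pPrime p))
        (𝟙 (Rep.res (primeLocalToGlobal (pPrime p)) (adRep (resMatrixOf ρbar β)))) 1).hom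
      ((H1π (adRep (resMatrixOf ρbar β))).hom (adCocycle hb htr)) ∈
      ordCond p (resMatrixOf ρbar β) := by
  have h1 := isResOrdLine_ordLine (exists_isResOrdLine_of_isStrictOrdinaryAt hpk hb _ hord)
  exact res_adCocycle_mem_valuedCond_W0 hp2 hpk ρbar β hb hsm hdet hord htr _ h1.2.2

theorem W0_zero : W0 (0 : Fin 2 → k) = ⊥ := by
  ext w
  rw [mem_W0, AddSubgroup.mem_bot]
  constructor
  · rintro ⟨-, h⟩
    apply Subtype.ext
    apply Matrix.mulVec_injective
    funext u
    obtain ⟨t, ht⟩ := h u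
    rw [ht, smul_zero]
    show (0 : Fin 2 → k) = (0 : M2 k).mulVec u
    rw [Matrix.zero_mulVec]
  · rintro rfl
    exact (W0 0).zero_mem

end ResOrd

section Count

variable {k : Type} [Field k] [Finite k]

/-- **(T2) = (F1), strictly ordinary case**: `#(locCond Y (ordCond)) ≤ #H⁰(G_p, ad⁰) · |k|`. -/
theorem card_locCond_ordCond_le (p : ℕ) [hp : Fact p.Prime] [CharP k p] (hp2 : p ≠ 2)
    (rbar : Gal →* M2 k)
    (hsm : IsSmooth (locBasis (pPrime p)) (Rep.res (primeLocalToGlobal (pPrime p)) (adRep rbar))) :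
    Nat.card (locCond (mkSm (locBasis (pPrime p))
        (Rep.res (primeLocalToGlobal (pPrime p)) (adRep rbar)) hsm) (ordCond p rbar)) ≤
      Nat.card (Ext (smUnit ℤ (locBasis (pPrime p))) (mkSm (locBasis (pPrime p))
        (Rep.res (primeLocalToGlobal (pPrime p)) (adRep rbar)) hsm) 0) * Nat.card k := by
  by_cases h : ∃ e₀ : Fin 2 → k, IsResOrdLine p rbar e₀
  · obtain ⟨he₀, hD, -⟩ := isResOrdLine_ordLine h
    obtain ⟨hfin, hcore⟩ := card_ext_one_cycloSm_le p k hp2
    haveI : Finite (Ext (smUnit ℤ (locBasis (pPrime p))) (mkSm (locBasis (pPrime p))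
      (chiRep (cycloCharLoc p k)) (isSmooth_chiRep_cycloCharLoc p k)) 1) := hfin
    haveI : NeZero p := ⟨hp.out.ne_zero⟩
    refine card_locCond_valuedCond_W0_le rbar (primeLocalToGlobal (pPrime p)) hsm he₀
      (cycloCharLoc p k) (fun τ => ?_) (isSmooth_chiRep_cycloCharLoc p k) hcore
    obtain ⟨x, z, hx, hz, hxz⟩ := hD _ (primeLocalToGlobal_mem_decompositionSubgroup (pPrime p) τ)
    obtain ⟨a, ha⟩ := exists_cyclotomic_exponent p (primeLocalToGlobal (pPrime p) τ)
    refine ⟨x, z, hx, hz, ?_⟩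
    rw [cycloCharLoc_spec p k τ a ha]
    exact hxz a ha
  · -- no ordinary line: the condition is trivial
    have hbot : locCond (mkSm (locBasis (pPrime p))
        (Rep.res (primeLocalToGlobal (pPrime p)) (adRep rbar)) hsm) (ordCond p rbar) = ⊥ := by
      rw [eq_bot_iff]
      intro e he
      rw [AddSubgroup.mem_bot]
      obtain ⟨c, hc, hce⟩ := he
      rw [ordLine_eq_zero h, W0_zero] at hc
      have hc0 : c = 0 := by
        apply Subtype.ext
        funext g
        exact (AddSubgroup.mem_bot).1 (hc g)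
      rw [hc0, map_zero] at hce
      exact clsH1_injective _ (hce.symm.trans (map_zero _).symm)
    rw [hbot, natCard_ext_zero]
    haveI : Finite {y : (mkSm (locBasis (pPrime p))
        (Rep.res (primeLocalToGlobal (pPrime p)) (adRep rbar)) hsm).obj.V //
        ∀ g, (mkSm (locBasis (pPrime p))
          (Rep.res (primeLocalToGlobal (pPrime p)) (adRep rbar)) hsm).obj.ρ g y = y} :=
      Subtype.finite
    haveI : Nonempty {y : (mkSm (locBasis (pPrime p))
        (Rep.res (primeLocalToGlobal (pPrime p)) (adRep rbar)) hsm).obj.V //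
        ∀ g, (mkSm (locBasis (pPrime p))
          (Rep.res (primeLocalToGlobal (pPrime p)) (adRep rbar)) hsm).obj.ρ g y = y} :=
      ⟨⟨0, fun g => map_zero _⟩⟩
    have h1 : 0 < Nat.card {y : (mkSm (locBasis (pPrime p))
        (Rep.res (primeLocalToGlobal (pPrime p)) (adRep rbar)) hsm).obj.V //
        ∀ g, (mkSm (locBasis (pPrime p))
          (Rep.res (primeLocalToGlobal (pPrime p)) (adRep rbar)) hsm).obj.ρ g y = y} :=
      Nat.card_pos
    have h2 : 0 < Nat.card k := Nat.card_pos
    rw [AddSubgroup.card_bot]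
    exact Nat.mul_pos h1 h2

end Count

end Fermat.Agent.TW
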