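/-
TW (S56) — helper6 — reduction of a count of classes with a representative in `P` to the
restrictions of the representatives to a subgroup of index prime to `p` (via helper1's (AVG)).
-/
import Mathlib
import Fermat.Agent.TW.SeCond_helper6
import Fermat.Agent.TW.ChiRep_helper6
import Fermat.Agent.TW.FlatLeaf_helper1_AVG

set_option autoImplicit false
set_option linter.unusedSectionVars false
set_option linter.style.haveILetI false

noncomputable section

namespace Fermat.Agent.TW

open Fermat.Agent.S53 Fermat.Agent.CFT.Sm Fermat.Agent.CFT.Bridge Fermat.Agent.CFT.Arith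
  groupCohomology CategoryTheory CategoryTheory.Abelian ExtCitation

section Restrict

variable {G : Type} [Group G]

/-- the classes with a representative in `P` are at most as many as the values of an invariant `Ψ`
which determines the restriction to `N` of the cocycles in `P`, `N` a subgroup of finite index
prime to `p` and `p • Y = 0` -/
theorem card_funCond_le_of_forall_eqOn (Y : Rep.{0} ℤ G) (P : AddSubgroup (G → Y.V))
    (N : Subgroup G) [N.FiniteIndex] (p : ℕ) (hpY : ∀ y : Y.V, p • y = 0)
    (hcop : (N.index).Coprime p) {T : Type*} [Finite T] (Ψ : (G → Y.V) → T)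
    (hΨ : ∀ c c' : cocycles₁ Y, (c : G → Y.V) ∈ P → (c' : G → Y.V) ∈ P →
      Ψ (c : G → Y.V) = Ψ (c' : G → Y.V) → ∀ τ ∈ N, (c : G → Y.V) τ = (c' : G → Y.V) τ) :
    Finite (funCond Y P) ∧ Nat.card (funCond Y P) ≤ Nat.card T := by
  have h1 : ∀ x : funCond Y P, ∃ c : cocycles₁ Y, (c : G → Y.V) ∈ P ∧ (H1π Y).hom c = x.1 :=
    fun x => x.2
  choose rep hrepP hrep using h1
  have hinj : Function.Injective (fun x : funCond Y P => Ψ (rep x : G → Y.V)) := by
    intro x y hxy
    have h2 := hΨ (rep x) (rep y) (hrepP x) (hrepP y) hxy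
    have h3 : (H1π Y).hom (rep x - rep y) = 0 := by
      apply Flat.H1π_eq_zero_of_vanishes_on_subgroup Y N p hpY hcop
      intro g hg
      show (rep x : G → Y.V) g - (rep y : G → Y.V) g = 0
      rw [h2 g hg, sub_self]
    rw [map_sub, sub_eq_zero, hrep x, hrep y] at h3
    exact Subtype.ext h3
  exact ⟨Finite.of_injective _ hinj, Nat.card_le_card_of_injective _ hinj⟩

end Restrict


section AtP

variable {k : Type} [Field k] [Finite k]

/-- **reduction of the core (C')** to an elementary statement on bounded `χ`-cocycles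
`c : G_p → k`: an invariant `Ψ` with values in a finite set `T` which determines their restriction
to a subgroup `N` of finite index prime to `p` bounds the number of Fontaine-bounded classes of
`H¹(G_p, k(χ))` by `#T`. -/
theorem card_locCond_bddCond_chiRep_le_of_forall_eqOn (p : ℕ) [hp : Fact p.Prime] [CharP k p]
    (χ : primeLocalGaloisGroup (pPrime p) →* kˣ)
    (hsm : IsSmooth (locBasis (pPrime p)) (chiRep χ))
    (N : Subgroup (primeLocalGaloisGroup (pPrime p))) [N.FiniteIndex]
    (hcop : (N.index).Coprime p) {T : Type*} [Finite T]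
    (Ψ : (primeLocalGaloisGroup (pPrime p) → k) → T)
    (hΨ : ∀ c c' : primeLocalGaloisGroup (pPrime p) → k,
      (∀ σ τ, c (σ * τ) = c σ + ((χ σ : kˣ) : k) * c τ) →
      (∀ σ τ, c' (σ * τ) = c' σ + ((χ σ : kˣ) : k) * c' τ) →
      IsBddFun p (fun τ : PadicAlgCl p ≃ₐ[ℚ_[p]] PadicAlgCl p => c τ) →
      IsBddFun p (fun τ : PadicAlgCl p ≃ₐ[ℚ_[p]] PadicAlgCl p => c' τ) →
      Ψ c = Ψ c' → ∀ τ ∈ N, c τ = c' τ) :
    Finite (locCond (mkSm (locBasis (pPrime p)) (chiRep χ) hsm) (bddCond p (chiRep χ))) ∧
    Nat.card (locCond (mkSm (locBasis (pPrime p)) (chiRep χ) hsm) (bddCond p (chiRep χ))) ≤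
      Nat.card T := by
  have hpY : ∀ y : (chiRep χ).V, p • y = 0 := by
    intro y
    show p • (show k from y) = 0
    rw [nsmul_eq_mul, CharP.cast_eq_zero k p, zero_mul]
  have hcoc : ∀ c : cocycles₁ (chiRep χ), ∀ σ τ,
      (show k from (c : primeLocalGaloisGroup (pPrime p) → (chiRep χ).V) (σ * τ)) =
        (show k from (c : primeLocalGaloisGroup (pPrime p) → (chiRep χ).V) σ) +
          ((χ σ : kˣ) : k) *
            (show k from (c : primeLocalGaloisGroup (pPrime p) → (chiRep χ).V) τ) := by
    intro c σ τ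
    have h := (mem_cocycles₁_iff (c : primeLocalGaloisGroup (pPrime p) → (chiRep χ).V)).1 c.2 σ τ
    rw [add_comm] at h
    exact h
  obtain ⟨hfin, hcard⟩ := card_funCond_le_of_forall_eqOn (chiRep χ) (bddFunSub p (chiRep χ).V) N p
    hpY hcop (fun f => Ψ (fun g => (show k from f g)))
    (fun c c' hc hc' h => hΨ _ _ (hcoc c) (hcoc c') hc hc' h)
  rw [bddCond_eq_funCond]
  let Θ : locCond (mkSm (locBasis (pPrime p)) (chiRep χ) hsm)
      (funCond (chiRep χ) (bddFunSub p (chiRep χ).V)) → funCond (chiRep χ) (bddFunSub p (chiRep χ).V) :=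
    fun e => ⟨clsH1 _ e.1, e.2⟩
  have hΘ : Function.Injective Θ := by
    intro e e' h
    have h3 : clsH1 _ e.1 = clsH1 _ e'.1 := congrArg Subtype.val h
    exact Subtype.ext (clsH1_injective _ h3)
  exact ⟨Finite.of_injective Θ hΘ, (Nat.card_le_card_of_injective Θ hΘ).trans hcard⟩

end AtP

end Fermat.Agent.TW
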