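/-
S56 / (EC-G), leaf EC-B (S-unit ranks), part 1 (helper2): infinite places as double cosets.

For a subfield `F` of `Ω = AlgebraicClosure ℚ`, the infinite places of `F` are in bijection with the
double cosets `⟨c⟩ \ Γ / Gal(Ω/F)` (`c = complexConjugation`): `g ↦` the place of the embedding
`x ↦ complexEmbedding (g x)`.

* `embOf`, `placeOf`, `placeOf_mul_mul`, `exists_of_placeOf_eq`, `exists_embOf_eq`,
  `placeOf_surjective`;
* `card_infinitePlace_eq`.
-/
import Mathlib
import Fermat.Prelude.Def_GaloisRep_ComplexConjugation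

set_option autoImplicit false
set_option linter.unusedSectionVars false
set_option linter.style.haveILetI false

open NumberField

namespace Fermat.Agent.TW.EC

/-- `Ω = AlgebraicClosure ℚ`. -/
local notation "Ω" => AlgebraicClosure ℚ
/-- `Γ = Gal(Ω/ℚ)`. -/
local notation "Γ" => (AlgebraicClosure ℚ ≃ₐ[ℚ] AlgebraicClosure ℚ)

section Infinite

variable (F : IntermediateField ℚ Ω)

/-- the complex embedding of `F` attached to `g : Γ`: `x ↦ ι (g x)`. -/
noncomputable def embOf (g : Γ) : ↥F →+* ℂ :=
  (complexEmbedding.toRingHom.comp (g : Ω →+* Ω)).comp (algebraMap ↥F Ω)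

lemma embOf_apply (g : Γ) (x : ↥F) : embOf F g x = complexEmbedding (g (x : Ω)) := rfl

/-- the infinite place of `F` attached to `g : Γ`. -/
noncomputable def placeOf (g : Γ) : InfinitePlace ↥F := InfinitePlace.mk (embOf F g)

lemma embOf_mul_of_mem (g : Γ) {w : Γ} (hw : w ∈ F.fixingSubgroup) :
    embOf F (g * w) = embOf F g := by
  ext x
  rw [embOf_apply, embOf_apply, AlgEquiv.mul_apply,
    (IntermediateField.mem_fixingSubgroup_iff F w).mp hw _ x.2]

lemma embOf_conj_mul (g : Γ) :
    embOf F (complexConjugation * g) = ComplexEmbedding.conjugate (embOf F g) := by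
  ext x
  rw [embOf_apply, AlgEquiv.mul_apply, complexEmbedding_complexConjugation,
    ComplexEmbedding.conjugate_coe_eq, embOf_apply]

lemma placeOf_mul_of_mem (g : Γ) {w : Γ} (hw : w ∈ F.fixingSubgroup) :
    placeOf F (g * w) = placeOf F g := by
  rw [placeOf, placeOf, embOf_mul_of_mem F g hw]

lemma placeOf_conj_mul (g : Γ) : placeOf F (complexConjugation * g) = placeOf F g := by
  rw [placeOf, placeOf, embOf_conj_mul, InfinitePlace.mk_conjugate_eq]

lemma mem_zpowers_complexConjugation {h : Γ} :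
    h ∈ Subgroup.zpowers complexConjugation ↔ h = 1 ∨ h = complexConjugation := by
  constructor
  · rintro ⟨n, rfl⟩
    show complexConjugation ^ n = 1 ∨ complexConjugation ^ n = complexConjugation
    rcases Int.even_or_odd' n with ⟨m, rfl | rfl⟩
    · left
      rw [zpow_mul, zpow_ofNat, complexConjugation_sq, one_zpow]
    · right
      rw [zpow_add, zpow_one, zpow_mul, zpow_ofNat, complexConjugation_sq, one_zpow, one_mul]
  · rintro (rfl | rfl)
    · exact one_mem _
    · exact Subgroup.mem_zpowers _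

lemma placeOf_mul_mul {h : Γ} (hh : h ∈ Subgroup.zpowers complexConjugation) (g : Γ) {w : Γ}
    (hw : w ∈ F.fixingSubgroup) : placeOf F (h * g * w) = placeOf F g := by
  rw [placeOf_mul_of_mem F _ hw]
  rcases mem_zpowers_complexConjugation.mp hh with rfl | rfl
  · rw [one_mul]
  · exact placeOf_conj_mul F g

lemma embOf_eq_iff (g g' : Γ) : embOf F g = embOf F g' ↔ g⁻¹ * g' ∈ F.fixingSubgroup := by
  rw [IntermediateField.mem_fixingSubgroup_iff]
  constructor
  · intro h x hx
    have h1 := RingHom.congr_fun h ⟨x, hx⟩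
    rw [embOf_apply, embOf_apply] at h1
    have h2 := complexEmbedding.toRingHom.injective h1
    rw [AlgEquiv.mul_apply, ← h2]
    exact AlgEquiv.symm_apply_apply g x
  · intro h
    ext x
    rw [embOf_apply, embOf_apply]
    have := h x x.2
    rw [AlgEquiv.mul_apply] at this
    have h2 : g' (x : Ω) = g (x : Ω) := by
      have := congrArg g this
      rwa [show g (g⁻¹ (g' (x : Ω))) = g' (x : Ω) from AlgEquiv.apply_symm_apply g _] at this
    rw [h2]

lemma exists_of_placeOf_eq {g g' : Γ} (h : placeOf F g = placeOf F g') :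
    ∃ h ∈ Subgroup.zpowers complexConjugation, ∃ w ∈ F.fixingSubgroup, g' = h * g * w := by
  rw [placeOf, placeOf, InfinitePlace.mk_eq_iff] at h
  rcases h with h | h
  · refine ⟨1, one_mem _, g⁻¹ * g', (embOf_eq_iff F g g').mp h, ?_⟩
    rw [one_mul, mul_inv_cancel_left]
  · rw [← embOf_conj_mul] at h
    refine ⟨complexConjugation, Subgroup.mem_zpowers _, (complexConjugation * g)⁻¹ * g',
      (embOf_eq_iff F _ g').mp h, ?_⟩
    rw [mul_inv_cancel_left]

/-- every complex embedding of `F` comes from `Γ`. -/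
lemma exists_embOf_eq (φ : ↥F →+* ℂ) : ∃ g : Γ, embOf F g = φ := by
  letI : Algebra Ω ℂ := complexEmbedding.toRingHom.toAlgebra
  haveI : IsScalarTower ℚ Ω ℂ := IsScalarTower.of_algebraMap_eq' (Subsingleton.elim _ _)
  haveI : Algebra.IsAlgebraic ℚ Ω := AlgebraicClosure.isAlgebraic ℚ
  haveI : IsAlgClosure ℚ Ω := ⟨inferInstance, inferInstance⟩
  haveI : Normal ℚ Ω := IsAlgClosure.normal ℚ Ω
  -- `φ` as a `ℚ`-algebra hom
  let φ' : ↥F →ₐ[ℚ] ℂ := { φ with commutes' := fun r => by simp }
  haveI : Algebra.IsAlgebraic ↥F Ω := Algebra.IsAlgebraic.tower_top (K := ℚ) ↥F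
  obtain ⟨ψ, hψ⟩ := IsAlgClosed.surjective_domRestrict_of_isAlgebraic (K := ℚ) (L := ↥F)
    (M := ℂ) (E := Ω) φ'
  refine ⟨Normal.algHomEquivAut ℚ ℂ Ω ψ, ?_⟩
  ext x
  rw [embOf_apply]
  have h1 : φ x = ψ (x : Ω) := by
    have := AlgHom.congr_fun hψ x
    exact this.symm
  rw [h1]
  have h2 := (Normal.algHomEquivAut ℚ ℂ Ω).left_inv ψ
  have h3 := AlgHom.congr_fun h2 (x : Ω)
  exact h3

lemma placeOf_surjective : Function.Surjective (placeOf F) := by
  intro v
  obtain ⟨g, hg⟩ := exists_embOf_eq F v.embedding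
  exact ⟨g, by rw [placeOf, hg, InfinitePlace.mk_embedding]⟩

/-- **infinite places = double cosets** `⟨c⟩ \ Γ / Gal(Ω/F)`. -/
theorem card_infinitePlace_eq :
    Nat.card (InfinitePlace ↥F) =
      Nat.card (DoubleCoset.Quotient (Subgroup.zpowers complexConjugation : Set Γ)
        (F.fixingSubgroup : Set Γ)) := by
  symm
  refine Nat.card_congr (Equiv.ofBijective
    (Quotient.lift (placeOf F) ?_) ⟨?_, ?_⟩)
  · intro a b hab
    obtain ⟨h, hh, w, hw, rfl⟩ := DoubleCoset.rel_iff.mp hab
    exact (placeOf_mul_mul F hh a hw).symm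
  · intro a b
    induction a using Quotient.inductionOn with | h a => ?_
    induction b using Quotient.inductionOn with | h b => ?_
    intro hab
    rw [Quotient.lift_mk, Quotient.lift_mk] at hab
    exact Quotient.sound (DoubleCoset.rel_iff.mpr (exists_of_placeOf_eq F hab))
  · intro v
    obtain ⟨g, hg⟩ := placeOf_surjective F v
    exact ⟨Quotient.mk _ g, hg⟩

end Infinite

end Fermat.Agent.TW.EC
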