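/-
F2 (flat local condition at p), Part A.2: the pointwise `p`-filtration on a convolution ring
`WithConv (C →ₗ[R] O)` (`C` a cocommutative coalgebra, `O` a `p`-filtered `R`-algebra),
its completeness, and functoriality (precomposition with coalgebra maps, evaluation at `1`).
-/
import Mathlib
import Fermat.Agent.TW.Flat_helper7_PFilt

set_option autoImplicit false
set_option linter.unusedSectionVars false

namespace Fermat.Agent.TW.Flat

open Coalgebra TensorProduct WithConv

variable {p : ℕ} {R : Type*} [CommRing R] {C : Type*} [AddCommMonoid C] [Module R C]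
  [Coalgebra R C] [Coalgebra.IsCocomm R C] {O : Type*} [CommRing O] [Algebra R O]

namespace PFilt

variable (Φ : PFilt p O)

lemma unique_limit {B : Type*} [CommRing B] (Ψ : PFilt p B) {a : ℕ → B} {c δ : ℝ} (hδ : 0 < δ)
    {l l' : B} (hl : ∀ n : ℕ, l - a n ∈ Ψ.F (c + n * δ))
    (hl' : ∀ n : ℕ, l' - a n ∈ Ψ.F (c + n * δ)) : l = l' := by
  refine sub_eq_zero.mp (Ψ.sep' (c := c) hδ fun n => ?_)
  have : l - l' = (l - a n) - (l' - a n) := by ring
  rw [this]
  exact (Ψ.F _).sub_mem (hl n) (hl' n)

variable (R C) in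
/-- the pointwise filtration on the convolution ring -/
def convF (s : ℝ) : Ideal (WithConv (C →ₗ[R] O)) where
  carrier := {f | ∀ c : C, f c ∈ Φ.F s}
  add_mem' := fun {f g} hf hg c => by
    show (f + g).ofConv c ∈ Φ.F s
    rw [ofConv_add, LinearMap.add_apply]
    exact (Φ.F s).add_mem (hf c) (hg c)
  zero_mem' := fun c => by
    show (0 : WithConv (C →ₗ[R] O)).ofConv c ∈ Φ.F s
    rw [ofConv_zero, LinearMap.zero_apply]
    exact (Φ.F s).zero_mem
  smul_mem' := fun g f hf c => by
    show (g * f) c ∈ Φ.F s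
    rw [(ℛ R c).convMul_apply]
    exact Ideal.sum_mem _ fun i _ => (Φ.F s).mul_mem_left _ (hf _)

lemma mem_convF {s : ℝ} {f : WithConv (C →ₗ[R] O)} :
    f ∈ Φ.convF R C s ↔ ∀ c : C, f c ∈ Φ.F s := Iff.rfl

omit [IsCocomm R C] in
lemma natCast_conv_apply (n : ℕ) (c : C) :
    ((n : WithConv (C →ₗ[R] O)) : WithConv (C →ₗ[R] O)) c
      = (n : O) * algebraMap R O (counit (R := R) c) := by
  rw [← nsmul_one (n : ℕ)]
  show (n • (1 : WithConv (C →ₗ[R] O))).ofConv c = _
  rw [ofConv_smul, LinearMap.smul_apply, nsmul_eq_mul]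
  rfl

omit [IsCocomm R C] in
lemma natCast_mul_conv_apply (n : ℕ) (f : WithConv (C →ₗ[R] O)) (c : C) :
    ((n : WithConv (C →ₗ[R] O)) * f) c = (n : O) * f c := by
  rw [← nsmul_eq_mul]
  show (n • f).ofConv c = _
  rw [ofConv_smul, LinearMap.smul_apply, nsmul_eq_mul]

/-- division by `p` of a linear map with values in `p • F s` -/
noncomputable def divpLin (f : C →ₗ[R] O) (hf : ∀ c : C, ∃ r : O, (p : O) * r = f c) :
    C →ₗ[R] O where
  toFun c := divp (p := p) (f c)
  map_add' c c' := by
    apply sub_eq_zero.mp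
    apply Φ.p_tf
    rw [mul_sub, mul_add, p_mul_divp (hf _), p_mul_divp (hf _), p_mul_divp (hf _), map_add,
      sub_self]
  map_smul' r c := by
    apply sub_eq_zero.mp
    apply Φ.p_tf
    rw [RingHom.id_apply, mul_sub, p_mul_divp (hf _), mul_smul_comm, p_mul_divp (hf _), map_smul,
      sub_self]

lemma p_mul_divpLin (f : C →ₗ[R] O) (hf : ∀ c : C, ∃ r : O, (p : O) * r = f c) (c : C) :
    (p : O) * Φ.divpLin f hf c = f c := p_mul_divp (hf c)

variable (R C) in
/-- the pointwise `p`-filtration on the convolution ring -/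
noncomputable def conv : PFilt p (WithConv (C →ₗ[R] O)) where
  F := Φ.convF R C
  anti := fun h f hf c => Φ.anti h (hf c)
  nonpos := fun h => by
    rw [eq_top_iff]
    intro f _ c
    rw [Φ.nonpos h]; trivial
  mul_mem := fun {s s' f g} hs hs' hf hg c => by
    rw [(ℛ R c).convMul_apply]
    exact Ideal.sum_mem _ fun i _ => Φ.mul_mem hs hs' (hf _) (hg _)
  p_mem := fun c => by
    rw [natCast_conv_apply]
    exact (Φ.F 1).mul_mem_right _ Φ.p_mem
  div_p := fun {s f} hs hf => by
    have hdiv : ∀ c : C, ∃ r : O, (p : O) * r = f.ofConv c := fun c => by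
      obtain ⟨y, _, hy⟩ := Φ.div_p hs (hf c)
      exact ⟨y, hy.symm⟩
    refine ⟨toConv (Φ.divpLin f.ofConv hdiv), fun c => ?_, ?_⟩
    · refine Φ.mem_of_p_mul_mem hs ?_
      show (p : O) * Φ.divpLin f.ofConv hdiv c ∈ _
      rw [p_mul_divpLin]
      exact hf c
    · apply WithConv.ext
      apply LinearMap.ext
      intro c
      show f.ofConv c = ((p : WithConv (C →ₗ[R] O)) * toConv (Φ.divpLin f.ofConv hdiv)) c
      rw [natCast_mul_conv_apply]
      exact (Φ.p_mul_divpLin f.ofConv hdiv c).symm
  p_tf := fun f hf => by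
    apply WithConv.ext
    apply LinearMap.ext
    intro c
    have : ((p : WithConv (C →ₗ[R] O)) * f) c = 0 := by rw [hf]; rfl
    rw [natCast_mul_conv_apply] at this
    exact Φ.p_tf _ this
  sep := fun f hf => by
    apply WithConv.ext
    apply LinearMap.ext
    intro c
    exact Φ.sep _ fun n => hf n c

lemma mem_conv_F {s : ℝ} {f : WithConv (C →ₗ[R] O)} :
    f ∈ (Φ.conv R C).F s ↔ ∀ c : C, f c ∈ Φ.F s := Iff.rfl

omit [IsCocomm R C] in
lemma conv_sub_apply (f g : WithConv (C →ₗ[R] O)) (c : C) : (f - g) c = f c - g c := rfl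

/-- the convolution ring is complete if the coefficient ring is. -/
theorem conv_isComplete (hΦ : Φ.IsComplete) : (Φ.conv R C).IsComplete := by
  intro a c δ hδ ha
  have hex : ∀ x : C, ∃ l : O, ∀ n : ℕ, l - a n x ∈ Φ.F (c + n * δ) := fun x =>
    hΦ (fun n => a n x) c δ hδ fun n => ha n x
  choose l hl using hex
  have huniq : ∀ (x : C) (l' : O), (∀ n : ℕ, l' - a n x ∈ Φ.F (c + n * δ)) → l' = l x :=
    fun x l' h => Φ.unique_limit hδ h (hl x)
  let L : C →ₗ[R] O :=
    { toFun := l
      map_add' := fun x y => by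
        symm
        refine huniq _ _ fun n => ?_
        have : l x + l y - (a n) (x + y) = (l x - a n x) + (l y - a n y) := by
          rw [show (a n) (x + y) = a n x + a n y from map_add (a n).ofConv x y]; ring
        rw [this]
        exact (Φ.F _).add_mem (hl x n) (hl y n)
      map_smul' := fun r x => by
        symm
        refine huniq _ _ fun n => ?_
        have : (RingHom.id R) r • l x - (a n) (r • x) = r • (l x - a n x) := by
          rw [show (a n) (r • x) = r • a n x from map_smul (a n).ofConv r x, RingHom.id_apply,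
            smul_sub]
        rw [this, Algebra.smul_def]
        exact (Φ.F _).mul_mem_left _ (hl x n) }
  exact ⟨toConv L, fun n x => hl x n⟩

end PFilt

section functoriality

variable {D : Type*} [AddCommMonoid D] [Module R D] [Coalgebra R D] [Coalgebra.IsCocomm R D]

omit [IsCocomm R C] [IsCocomm R D] in
/-- precomposition with a coalgebra map, as a ring hom of convolution rings -/
noncomputable def convPrecomp (φ : D →ₗc[R] C) :
    WithConv (C →ₗ[R] O) →+* WithConv (D →ₗ[R] O) where
  toFun f := toConv (f.ofConv ∘ₗ φ.toLinearMap)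
  map_one' := by
    apply WithConv.ext
    apply LinearMap.ext
    intro d
    show algebraMap R O (counit (R := R) (φ d)) = algebraMap R O (counit (R := R) d)
    rw [CoalgHomClass.counit_comp_apply]
  map_mul' f g := by
    apply WithConv.ext
    exact LinearMap.convMul_comp_coalgHom_distrib f g φ
  map_zero' := by
    apply WithConv.ext
    simp
  map_add' f g := by
    apply WithConv.ext
    simp [LinearMap.add_comp]

omit [IsCocomm R C] [IsCocomm R D] in
@[simp] lemma convPrecomp_apply (φ : D →ₗc[R] C) (f : WithConv (C →ₗ[R] O)) (d : D) :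
    convPrecomp φ f d = f (φ d) := rfl

end functoriality

end Fermat.Agent.TW.Flat
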