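/-
TW (S56) — helper6 — leaf (I), part 2: the glue theorem in Selmer-group form.  If every deformation
of type `𝒟` of `ρbar` to the dual numbers has its `ad⁰`-cocycle class in a subgroup `Sel` of
`Ext¹(𝟙, ad⁰ ρbar)` (in `SmRep ℤ 𝒰_S`) with at most `|k|^r` elements, then a universal deformation
ring of type `𝒟` is a quotient of `𝒪⟦X₁, …, X_r⟧`.
-/
import Mathlib
import Fermat.Agent.TW.DefCount_helper6
import Fermat.Agent.TW.AdCocycle_helper6

set_option autoImplicit false
set_option linter.unusedSectionVars false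
set_option linter.style.haveILetI false

noncomputable section

namespace Fermat.Agent.TW

open Fermat.Agent.S53 IsLocalRing GaloisRep Fermat.Agent.CFT.Sm Fermat.Agent.CFT.Bridge
  Fermat.Agent.CFT.Arith CategoryTheory CategoryTheory.Abelian

attribute [local instance] PS.dualNumberAlgebra

variable {𝒪 : Type} [CommRing 𝒪] [IsDomain 𝒪] [IsDiscreteValuationRing 𝒪]
  [IsAdicComplete (maximalIdeal 𝒪) 𝒪] [Finite (ResidueField 𝒪)]
  {ρbar : ResidualGaloisRep (ResidueField 𝒪)}
  {𝒟 : ∀ ⦃A : Type⦄ [CommRing A] [IsLocalRing A] [Algebra 𝒪 A], GaloisRepAdic A → Prop}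

/-- **(A3) + (I): the glue theorem, Selmer form.** -/
theorem exists_surjective_mvPowerSeries_of_selmer
    (DQ : DeformationRingData 𝒪 ρbar 𝒟) (β : Module.Basis (Fin 2) (ResidueField 𝒪) ρbar.V) (r : ℕ)
    (hk : 3 ≤ Nat.card (ResidueField 𝒪))
    (h𝒟equiv : ∀ ρ ρ' : GaloisRepAdic (DualNumber (ResidueField 𝒪)), ρ.IsEquiv ρ' → 𝒟 ρ → 𝒟 ρ')
    (h𝒟surj : ∀ (f : DQ.R →ₐ[𝒪] DualNumber (ResidueField 𝒪))
      (hf : IsLocalHom (f : DQ.R →+* DualNumber (ResidueField 𝒪))), Function.Surjective f →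
        𝒟 (DQ.ρ.baseChangeAlong (f : DQ.R →+* DualNumber (ResidueField 𝒪)) hf))
    (S : Finset Nat.Primes) (hS : IsSmooth (levelBasis S) (adRep (resMatrixOf ρbar β)))
    (Sel : AddSubgroup (Ext (smUnit ℤ (levelBasis S)) (adSm S (resMatrixOf ρbar β) hS) 1))
    [Finite Sel] (hSel : Nat.card Sel ≤ Nat.card (ResidueField 𝒪) ^ r)
    (hgood : ∀ (b : Gal → M2 (ResidueField 𝒪)) (hb : IsTwCocycle (resMatrixOf ρbar β) b)
      (hs : IsSmoothFun b),
      𝒟 (ofMatrix (defOfCocycle (resMatrixOf ρbar β) b hb)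
        (matCont_defOfCocycle (resMatrixOf_factors ρbar β) hb hs)) →
      ∃ (htr : ∀ σ, Matrix.trace (b σ * resMatrixOf ρbar β σ⁻¹) = 0)
        (hlc : IsLC₁ (levelBasis S)
          (adCocycle hb htr : Gal → (adRep (resMatrixOf ρbar β)).V)),
        clsOfCocycle S hS hb htr hlc ∈ Sel) :
    ∃ γ : MvPowerSeries (Fin r) 𝒪 →ₐ[𝒪] DQ.R, Function.Surjective γ := by
  classical
  set rbar := resMatrixOf ρbar β with hrbar
  -- the class map
  let Good : (Gal → M2 (ResidueField 𝒪)) → Prop := fun b =>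
    ∃ (hb : IsTwCocycle rbar b) (hs : IsSmoothFun b),
      𝒟 (ofMatrix (defOfCocycle rbar b hb)
        (matCont_defOfCocycle (resMatrixOf_factors ρbar β) hb hs))
  let cls : (Gal → M2 (ResidueField 𝒪)) → Sel := fun b =>
    if h : Good b then
      ⟨clsOfCocycle S hS h.choose (hgood b h.choose h.choose_spec.choose
          h.choose_spec.choose_spec).choose
        (hgood b h.choose h.choose_spec.choose h.choose_spec.choose_spec).choose_spec.choose,
        (hgood b h.choose h.choose_spec.choose h.choose_spec.choose_spec).choose_spec.choose_spec⟩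
    else 0
  refine exists_surjective_mvPowerSeries_of_cocycle_classes DQ β r hk h𝒟equiv h𝒟surj hSel cls ?_
  intro b b' hb hb' hs hs' h𝒟 h𝒟' hcls
  have hG : Good b := ⟨hb, hs, h𝒟⟩
  have hG' : Good b' := ⟨hb', hs', h𝒟'⟩
  simp only [cls, dif_pos hG, dif_pos hG'] at hcls
  have h1 := congrArg Subtype.val hcls
  exact exists_twCoboundary_of_clsOfCocycle_eq S hS _ _ _ _ _ _ h1

end Fermat.Agent.TW
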