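/-
TW (S56) — helper6 — leaf (I), final glue: the class of a deformation lies in the Selmer group
`D.selmer (ad⁰) (fun v => locCond _ (𝓛 v))` of a Poitou–Tate datum as soon as the restrictions of
its `ad⁰`-cocycle class to the local groups lie in the local conditions `𝓛 v ≤ H¹(G_v, ad⁰)`.
-/
import Mathlib
import Fermat.Agent.TW.LocalCond_helper6
import Fermat.Agent.CFT.Sm.SelmerCount_helper9

set_option autoImplicit false
set_option linter.unusedSectionVars false

noncomputable section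

namespace Fermat.Agent.TW

open Fermat.Agent.S53 Fermat.Agent.CFT.Sm Fermat.Agent.CFT.Bridge Fermat.Agent.CFT.Arith
  groupCohomology Matrix CategoryTheory CategoryTheory.Abelian

variable {k : Type} [Field k] {p : ℕ} [hp : Fact p.Prime] {ι : Type} [Fintype ι]
  {G : ι → Type} [∀ v, Group (G v)] {ψ : ∀ v, G v →* Gal} {𝒱 : ∀ v, OpenBasis (G v)}

/-- **(I), final form.** -/
theorem clsOfCocycle_mem_selmer (S : Finset Nat.Primes) (D : PTDatum (levelBasis S) p ψ 𝒱)
    {rbar : Gal →* M2 k} (hS : IsSmooth (levelBasis S) (adRep rbar)) {b : Gal → M2 k}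
    (hb : IsTwCocycle rbar b) (htr : ∀ σ, Matrix.trace (b σ * rbar σ⁻¹) = 0)
    (hlc : IsLC₁ (levelBasis S) (adCocycle hb htr : Gal → (adRep rbar).V))
    (𝓛 : ∀ v, AddSubgroup (H1 (Rep.res (ψ v) (adRep rbar))))
    (h : ∀ v, (groupCohomology.map (ψ v) (𝟙 (Rep.res (ψ v) (adRep rbar))) 1).hom
      ((H1π (adRep rbar)).hom (adCocycle hb htr)) ∈ 𝓛 v) :
    clsOfCocycle S hS hb htr hlc ∈
      D.selmer (adSm S rbar hS) (fun v => locCond ((D.Rv v).obj (adSm S rbar hS)) (𝓛 v)) := by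
  rw [PTDatum.mem_selmer]
  intro v
  have h1 := clsH1_res (ψ v) (D.fine v) (adSm S rbar hS) (clsOfCocycle S hS hb htr hlc)
  rw [clsH1_clsOfCocycle] at h1
  have h3 : (clsH1 ((D.Rv v).obj (adSm S rbar hS))
      (D.resU v (adSm S rbar hS) 1 (clsOfCocycle S hS hb htr hlc)) :
        H1 (Rep.res (ψ v) (adRep rbar))) =
      (groupCohomology.map (ψ v) (𝟙 (Rep.res (ψ v) (adRep rbar))) 1).hom
        ((H1π (adRep rbar)).hom (adCocycle hb htr)) := h1
  show (clsH1 ((D.Rv v).obj (adSm S rbar hS))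
      (D.resU v (adSm S rbar hS) 1 (clsOfCocycle S hS hb htr hlc)) :
        H1 (Rep.res (ψ v) (adRep rbar))) ∈ 𝓛 v
  rw [h3]
  exact h v

end Fermat.Agent.TW
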