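/-
TW (S56) — helper6 — the `hgood` assembly.
* `twLocCond p ρbar β 𝓛p v` — the family of local conditions (`𝓛p` at `p`, unramified classes at the
  ramified primes of `ρbar`, no condition elsewhere) and `twSelmer p ρbar β T D hT 𝓛p`;
* `exists_clsOfCocycle_mem_selmer` — the `ad⁰`-class of a deformation of the prescribed type lies
  in `twSelmer`;
* local counts `card_locCond_twLocCond_of_ramified` (LU), `…_of_unramified` (LQ), `…_ordCond` (F1);
* `exists_surjective_mvPowerSeries_strictOrdinary`, `exists_surjective_mvPowerSeries_flat`: the two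
  halves of S56 reduced to `Nat.card Sel ≤ |k|^r` for a finite `Sel ≥ twSelmer`.
-/
import Mathlib
import Fermat.Agent.TW.OrdLocal_helper6
import Fermat.Agent.TW.SelmerMem_helper6
import Fermat.Agent.TW.Datum_helper9
import Fermat.Agent.TW.SelmerGlue_helper6
import Fermat.Agent.TW.CondEquiv_helper6
import Fermat.Agent.TW.CondBaseChange_helper6
import Fermat.Agent.TW.UnrLocal_helper6
import Fermat.Agent.TW.LQAd_helper4

set_option autoImplicit false
set_option linter.unusedSectionVars false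
set_option linter.style.haveILetI false

noncomputable section

namespace Fermat.Agent.TW

open Fermat.Agent.S53 Fermat.Agent.CFT.Sm Fermat.Agent.CFT.Bridge Fermat.Agent.CFT.Arith
  groupCohomology CategoryTheory CategoryTheory.Abelian Matrix ExtCitation IsLocalRing
  GaloisRepAdic

/-- `Ω = AlgebraicClosure ℚ`. -/
local notation "Ω" => AlgebraicClosure ℚ

variable {k : Type} [Field k]

/-- **the family of local conditions of the Taylor–Wiles Selmer group**: a given condition `𝓛p` at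
`p`; the unramified classes at the primes `v ≠ p` where `ρbar` is ramified; no condition at the
primes `v ≠ p` where `ρbar` is unramified (the Taylor–Wiles primes). -/
def twLocCond (p : ℕ) [Fact p.Prime] (ρbar : ResidualGaloisRep k)
    (β : Module.Basis (Fin 2) k ρbar.V)
    (𝓛p : AddSubgroup (H1 (Rep.res (primeLocalToGlobal (pPrime p))
      (adRep (resMatrixOf ρbar β)))))
    (v : Nat.Primes) :
    AddSubgroup (H1 (Rep.res (primeLocalToGlobal v) (adRep (resMatrixOf ρbar β)))) :=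
  open scoped Classical in
  if h : v = pPrime p then h ▸ 𝓛p
  else if ρbar.IsUnramifiedAt (v : ℕ) then ⊤
  else unrCond v (Rep.res (primeLocalToGlobal v) (adRep (resMatrixOf ρbar β)))

theorem twLocCond_pPrime (p : ℕ) [Fact p.Prime] (ρbar : ResidualGaloisRep k)
    (β : Module.Basis (Fin 2) k ρbar.V)
    (𝓛p : AddSubgroup (H1 (Rep.res (primeLocalToGlobal (pPrime p))
      (adRep (resMatrixOf ρbar β))))) :
    twLocCond p ρbar β 𝓛p (pPrime p) = 𝓛p := by
  unfold twLocCond
  rw [dif_pos rfl]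

theorem twLocCond_of_unramified (p : ℕ) [Fact p.Prime] (ρbar : ResidualGaloisRep k)
    (β : Module.Basis (Fin 2) k ρbar.V)
    (𝓛p : AddSubgroup (H1 (Rep.res (primeLocalToGlobal (pPrime p))
      (adRep (resMatrixOf ρbar β)))))
    {v : Nat.Primes} (hv : v ≠ pPrime p) (hur : ρbar.IsUnramifiedAt (v : ℕ)) :
    twLocCond p ρbar β 𝓛p v = ⊤ := by
  unfold twLocCond
  rw [dif_neg hv, if_pos hur]

theorem twLocCond_of_ramified (p : ℕ) [Fact p.Prime] (ρbar : ResidualGaloisRep k)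
    (β : Module.Basis (Fin 2) k ρbar.V)
    (𝓛p : AddSubgroup (H1 (Rep.res (primeLocalToGlobal (pPrime p))
      (adRep (resMatrixOf ρbar β)))))
    {v : Nat.Primes} (hv : v ≠ pPrime p) (hram : ¬ ρbar.IsUnramifiedAt (v : ℕ)) :
    twLocCond p ρbar β 𝓛p v =
      unrCond v (Rep.res (primeLocalToGlobal v) (adRep (resMatrixOf ρbar β))) := by
  unfold twLocCond
  rw [dif_neg hv, if_neg hram]

/-- **the Taylor–Wiles Selmer group** of a Poitou–Tate datum `D` for `(G_ℚ, 𝒰_T)`: the classes in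
`Ext¹(𝟙, ad⁰ ρbar)` whose restrictions lie in the local conditions `twLocCond`. -/
def twSelmer (p : ℕ) [Fact p.Prime] (ρbar : ResidualGaloisRep k)
    (β : Module.Basis (Fin 2) k ρbar.V) (T : Finset Nat.Primes)
    (D : PTDatum (levelBasis T) p (locHom T) (locFine T))
    (hT : IsSmooth (levelBasis T) (adRep (resMatrixOf ρbar β)))
    (𝓛p : AddSubgroup (H1 (Rep.res (primeLocalToGlobal (pPrime p))
      (adRep (resMatrixOf ρbar β))))) :
    AddSubgroup (Ext (smUnit ℤ (levelBasis T)) (adSm T (resMatrixOf ρbar β) hT) 1) :=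
  D.selmer (adSm T (resMatrixOf ρbar β) hT)
    (fun v => locCond ((D.Rv v).obj (adSm T (resMatrixOf ρbar β) hT))
      (twLocCond p ρbar β 𝓛p v.1))

/-- **(I), assembled.** A deformation `rbar + ε b` with cyclotomic determinant, unramified outside
`T`, unipotent on inertia at the primes `v ≠ p` of `T` where `ρbar` is ramified, and whose class at
`p` lies in `𝓛p`, has its `ad⁰`-class in the Selmer group of the local conditions `twLocCond`. -/
theorem exists_clsOfCocycle_mem_selmer {p : ℕ} [hp : Fact p.Prime] (hp2 : p ≠ 2)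
    (hpk : (p : k) = 0) (ρbar : ResidualGaloisRep k) (β : Module.Basis (Fin 2) k ρbar.V)
    (T : Finset Nat.Primes) (D : PTDatum (levelBasis T) p (locHom T) (locFine T))
    (hT : IsSmooth (levelBasis T) (adRep (resMatrixOf ρbar β)))
    (𝓛p : AddSubgroup (H1 (Rep.res (primeLocalToGlobal (pPrime p))
      (adRep (resMatrixOf ρbar β)))))
    {b : Gal → M2 k} (hb : IsTwCocycle (resMatrixOf ρbar β) b) (hsm : IsSmoothFun b)
    (hdet : (ofMatrix (defOfCocycle (resMatrixOf ρbar β) b hb)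
      (matCont_defOfCocycle (resMatrixOf_factors ρbar β) hb hsm)).DetIsCyclotomic p)
    (hur : ∀ v : Nat.Primes, v ∉ T → (ofMatrix (defOfCocycle (resMatrixOf ρbar β) b hb)
      (matCont_defOfCocycle (resMatrixOf_factors ρbar β) hb hsm)).IsUnramifiedAt (v : ℕ))
    (hunip : ∀ v ∈ T, v ≠ pPrime p → ¬ ρbar.IsUnramifiedAt (v : ℕ) →
      (ofMatrix (defOfCocycle (resMatrixOf ρbar β) b hb)
        (matCont_defOfCocycle (resMatrixOf_factors ρbar β) hb hsm)).IsUnipotentOnInertiaAt (v : ℕ))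
    (hloc : ∀ htr : ∀ σ, Matrix.trace (b σ * resMatrixOf ρbar β σ⁻¹) = 0,
      (groupCohomology.map (primeLocalToGlobal (pPrime p))
        (𝟙 (Rep.res (primeLocalToGlobal (pPrime p)) (adRep (resMatrixOf ρbar β)))) 1).hom
      ((H1π (adRep (resMatrixOf ρbar β))).hom (adCocycle hb htr)) ∈ 𝓛p) :
    ∃ (htr : ∀ σ, Matrix.trace (b σ * resMatrixOf ρbar β σ⁻¹) = 0)
      (hlc : IsLC₁ (levelBasis T) (adCocycle hb htr : Gal → (adRep (resMatrixOf ρbar β)).V)),
      clsOfCocycle T hT hb htr hlc ∈ twSelmer p ρbar β T D hT 𝓛p := by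
  haveI : CharP k p := (CharP.charP_iff_prime_eq_zero hp.out).mpr hpk
  have h2 : (2 : k) ≠ 0 := by
    intro h
    have h3 : ((2 : ℕ) : k) = 0 := by exact_mod_cast h
    have h4 := (CharP.cast_eq_zero_iff k p 2).1 h3
    exact hp2 ((Nat.prime_dvd_prime_iff_eq hp.out Nat.prime_two).1 h4)
  have htr : ∀ σ, Matrix.trace (b σ * resMatrixOf ρbar β σ⁻¹) = 0 := by
    intro σ
    rw [map_inv_eq_inv]
    exact trace_mul_inv_eq_zero_of_detIsCyclotomic hb _ hpk hdet σ
  have hlc : IsLC₁ (levelBasis T)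
      (adCocycle hb htr : Gal → (adRep (resMatrixOf ρbar β)).V) :=
    isLC₁_adCocycle T (resMatrixOf_factors ρbar β) hb hsm htr
      (fun q hq => (isUnramifiedAt_defOfCocycle_iff hb _ (q : ℕ)).1 (hur q hq))
  refine ⟨htr, hlc, ?_⟩
  refine clsOfCocycle_mem_selmer T D hT hb htr hlc
    (fun v => twLocCond p ρbar β 𝓛p v.1) ?_
  rintro ⟨v, hvT⟩
  by_cases hv : v = pPrime p
  · subst hv
    show _ ∈ twLocCond p ρbar β 𝓛p (pPrime p)
    rw [twLocCond_pPrime]
    exact hloc htr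
  · show _ ∈ twLocCond p ρbar β 𝓛p v
    by_cases hram : ρbar.IsUnramifiedAt (v : ℕ)
    · rw [twLocCond_of_unramified p ρbar β 𝓛p hv hram]
      exact AddSubgroup.mem_top _
    · rw [twLocCond_of_ramified p ρbar β 𝓛p hv hram]
      have hpq : p.Coprime (v : ℕ) := by
        rw [Nat.coprime_primes hp.out v.2]
        intro h
        exact hv (Subtype.ext h.symm)
      exact res_adCocycle_mem_unrCond hpk h2 ρbar β hb hsm v hpq hram (hunip v hvT hv hram) htr

section Counts

variable [Finite k] (p : ℕ) [hp : Fact p.Prime] (ρbar : ResidualGaloisRep k)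
  (β : Module.Basis (Fin 2) k ρbar.V)
  (𝓛p : AddSubgroup (H1 (Rep.res (primeLocalToGlobal (pPrime p))
    (adRep (resMatrixOf ρbar β)))))

/-- local count at a prime `v ≠ p` where `ρbar` is ramified: (LU) -/
theorem card_locCond_twLocCond_of_ramified {v : Nat.Primes} (hv : v ≠ pPrime p)
    (hram : ¬ ρbar.IsUnramifiedAt (v : ℕ))
    (hsm : IsSmooth (locBasis v) (Rep.res (primeLocalToGlobal v) (adRep (resMatrixOf ρbar β)))) :
    Nat.card (locCond (mkSm (locBasis v)
        (Rep.res (primeLocalToGlobal v) (adRep (resMatrixOf ρbar β))) hsm)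
        (twLocCond p ρbar β 𝓛p v)) ≤
      Nat.card (Ext (smUnit ℤ (locBasis v)) (mkSm (locBasis v)
        (Rep.res (primeLocalToGlobal v) (adRep (resMatrixOf ρbar β))) hsm) 0) := by
  rw [twLocCond_of_ramified p ρbar β 𝓛p hv hram]
  haveI : Finite (mkSm (locBasis v)
      (Rep.res (primeLocalToGlobal v) (adRep (resMatrixOf ρbar β))) hsm).obj.V :=
    inferInstanceAs (Finite (sl2 k))
  exact card_locCond_unrCond_le v (mkSm (locBasis v)
    (Rep.res (primeLocalToGlobal v) (adRep (resMatrixOf ρbar β))) hsm)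

/-- local count at a Taylor–Wiles prime: (LQ) -/
theorem card_locCond_twLocCond_of_unramified [CharP k p] {v : Nat.Primes} (hv : v ≠ pPrime p)
    (hunr : ρbar.IsUnramifiedAt (v : ℕ)) (hpv : p ∣ (v : ℕ) - 1)
    (hfrob : ∀ P : ValuationSubring Ω, P.LiesOverPrime (v : ℕ) → ∀ φ : Gal,
      P.IsFrobeniusAt φ (v : ℕ) → ∃ a b : k, a ≠ b ∧
        LinearMap.charpoly (ρbar.ρ φ) = (Polynomial.X - Polynomial.C a) *
          (Polynomial.X - Polynomial.C b))
    (hsm : IsSmooth (locBasis v) (Rep.res (primeLocalToGlobal v) (adRep (resMatrixOf ρbar β)))) :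
    Nat.card (locCond (mkSm (locBasis v)
        (Rep.res (primeLocalToGlobal v) (adRep (resMatrixOf ρbar β))) hsm)
        (twLocCond p ρbar β 𝓛p v)) ≤
      Nat.card (Ext (smUnit ℤ (locBasis v)) (mkSm (locBasis v)
        (Rep.res (primeLocalToGlobal v) (adRep (resMatrixOf ρbar β))) hsm) 0) * Nat.card k := by
  rw [twLocCond_of_unramified p ρbar β 𝓛p hv hunr]
  have h1 : locCond (mkSm (locBasis v)
      (Rep.res (primeLocalToGlobal v) (adRep (resMatrixOf ρbar β))) hsm) ⊤ = ⊤ := by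
    ext e
    simp [mem_locCond]
  rw [h1, AddSubgroup.card_top]
  exact loc_card_ext_one_le_ad_residual v p hpv ρbar β hunr hfrob hsm

/-- local count at `p`, strictly ordinary condition: (F1) -/
theorem card_locCond_twLocCond_ordCond [CharP k p] (hp2 : p ≠ 2)
    (hsm : IsSmooth (locBasis (pPrime p))
      (Rep.res (primeLocalToGlobal (pPrime p)) (adRep (resMatrixOf ρbar β)))) :
    Nat.card (locCond (mkSm (locBasis (pPrime p))
        (Rep.res (primeLocalToGlobal (pPrime p)) (adRep (resMatrixOf ρbar β))) hsm)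
        (twLocCond p ρbar β (ordCond p (resMatrixOf ρbar β)) (pPrime p))) ≤
      Nat.card (Ext (smUnit ℤ (locBasis (pPrime p))) (mkSm (locBasis (pPrime p))
        (Rep.res (primeLocalToGlobal (pPrime p)) (adRep (resMatrixOf ρbar β))) hsm) 0) *
        Nat.card k := by
  rw [twLocCond_pPrime]
  exact card_locCond_ordCond_le p hp2 (resMatrixOf ρbar β) hsm

end Counts

section Glue

open GaloisRep

attribute [local instance] PS.dualNumberAlgebra

variable {𝒪 : Type} [CommRing 𝒪] [IsDomain 𝒪] [IsDiscreteValuationRing 𝒪]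
  [IsAdicComplete (maximalIdeal 𝒪) 𝒪] [Finite (ResidueField 𝒪)]

theorem three_le_natCard_of_two_ne_zero {K : Type} [Field K] [Finite K] (h2 : (2 : K) ≠ 0) :
    3 ≤ Nat.card K := by
  classical
  haveI := Fintype.ofFinite K
  rw [Nat.card_eq_fintype_card]
  have h1 : (1 : K) ≠ -1 := by
    intro h
    apply h2
    linear_combination h
  have h3 : ({0, 1, -1} : Finset K).card = 3 := by
    rw [Finset.card_insert_of_notMem, Finset.card_insert_of_notMem, Finset.card_singleton]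
    · simpa using h1
    · simp
  calc 3 = ({0, 1, -1} : Finset K).card := h3.symm
    _ ≤ Fintype.card K := Finset.card_le_univ _

/-- **S56, strictly ordinary half, reduced to the Selmer count.** If the Taylor–Wiles Selmer
group (conditions: `ordCond` at `p`, unramified at the ramified primes of `ρbar`, none at the
others) has at most `|k|^r` elements, the universal deformation ring is a quotient of
`𝒪⟦X₁, …, X_r⟧`. -/
theorem exists_surjective_mvPowerSeries_strictOrdinary {p : ℕ} [hp : Fact p.Prime] (hp2 : p ≠ 2)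
    (hp𝒪 : (p : 𝒪) ∈ maximalIdeal 𝒪) {ρbar : ResidualGaloisRep (ResidueField 𝒪)}
    (β : Module.Basis (Fin 2) (ResidueField 𝒪) ρbar.V) (Smin S' : Finset ℕ)
    (T : Finset Nat.Primes) (D : PTDatum (levelBasis T) p (locHom T) (locFine T))
    (hTS' : ∀ v : Nat.Primes, v ∉ T → (v : ℕ) ∉ S')
    (hmin : ∀ q : ℕ, q.Prime → q ≠ p → (q ∈ Smin ↔ ¬ ρbar.IsUnramifiedAt q))
    (DQ : DeformationRingData 𝒪 ρbar (fun _A _ _ _ ρ =>
      strictOrdinaryCondition 𝒪 p S' ρ ∧
        ∀ q ∈ Smin, q.Prime → q ≠ p → ρ.IsUnipotentOnInertiaAt q))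
    (hT : IsSmooth (levelBasis T) (adRep (resMatrixOf ρbar β))) (r : ℕ)
    (Sel : AddSubgroup (Ext (smUnit ℤ (levelBasis T)) (adSm T (resMatrixOf ρbar β) hT) 1))
    (hle : twSelmer p ρbar β T D hT (ordCond p (resMatrixOf ρbar β)) ≤ Sel)
    [Finite Sel] (hSel : Nat.card Sel ≤ Nat.card (ResidueField 𝒪) ^ r) :
    ∃ γ : MvPowerSeries (Fin r) 𝒪 →ₐ[𝒪] DQ.R, Function.Surjective γ := by
  have hpk : ((p : ℕ) : ResidueField 𝒪) = 0 := by
    have h1 : residue 𝒪 (p : 𝒪) = 0 := (residue_eq_zero_iff _).2 hp𝒪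
    rwa [map_natCast] at h1
  haveI : CharP (ResidueField 𝒪) p := (CharP.charP_iff_prime_eq_zero hp.out).mpr hpk
  have h2 : (2 : ResidueField 𝒪) ≠ 0 := by
    intro h
    have h3 : ((2 : ℕ) : ResidueField 𝒪) = 0 := by exact_mod_cast h
    have h4 := (CharP.cast_eq_zero_iff (ResidueField 𝒪) p 2).1 h3
    exact hp2 ((Nat.prime_dvd_prime_iff_eq hp.out Nat.prime_two).1 h4)
  have h0 : strictOrdinaryCondition 𝒪 p S' DQ.ρ ∧
      ∀ q ∈ Smin, q.Prime → q ≠ p → DQ.ρ.IsUnipotentOnInertiaAt q := DQ.isOfType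
  have hE : ∀ ρ ρ' : GaloisRepAdic (DualNumber (ResidueField 𝒪)), ρ.IsEquiv ρ' →
      (strictOrdinaryCondition 𝒪 p S' ρ ∧
        ∀ q ∈ Smin, q.Prime → q ≠ p → ρ.IsUnipotentOnInertiaAt q) →
      (strictOrdinaryCondition 𝒪 p S' ρ' ∧
        ∀ q ∈ Smin, q.Prime → q ≠ p → ρ'.IsUnipotentOnInertiaAt q) :=
    fun ρ ρ' he h => twStrictOrdinary_of_isEquiv he h
  have hB : ∀ (f : DQ.R →ₐ[𝒪] DualNumber (ResidueField 𝒪))
      (hf : IsLocalHom (f : DQ.R →+* DualNumber (ResidueField 𝒪))), Function.Surjective f →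
        (strictOrdinaryCondition 𝒪 p S'
          (DQ.ρ.baseChangeAlong (f : DQ.R →+* DualNumber (ResidueField 𝒪)) hf) ∧
        ∀ q ∈ Smin, q.Prime → q ≠ p →
          (DQ.ρ.baseChangeAlong (f : DQ.R →+* DualNumber (ResidueField 𝒪)) hf).IsUnipotentOnInertiaAt
            q) := by
    intro f hf _
    exact twStrictOrdinary_baseChangeAlong (𝒪 := 𝒪)
      (f : DQ.R →+* DualNumber (ResidueField 𝒪)) hf h0
  refine exists_surjective_mvPowerSeries_of_selmer DQ β r (three_le_natCard_of_two_ne_zero h2)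
    hE hB T hT Sel hSel ?_
  intro b hb hs h𝒟
  obtain ⟨⟨hdet, hord, hur⟩, hunip⟩ := h𝒟
  obtain ⟨htr, hlc, hmem⟩ := exists_clsOfCocycle_mem_selmer hp2 hpk ρbar β T D hT
    (ordCond p (resMatrixOf ρbar β)) hb hs hdet
    (fun v hv => hur (v : ℕ) v.2 (hTS' v hv)) (fun v _ hvp hram => by
      have hvp' : (v : ℕ) ≠ p := fun h => hvp (Subtype.ext h)
      exact hunip (v : ℕ) ((hmin (v : ℕ) v.2 hvp').2 hram) v.2 hvp')
    (fun htr => res_adCocycle_mem_ordCond hp2 hpk ρbar β hb hs hdet hord htr)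
  exact ⟨htr, hlc, hle hmem⟩

/-- **S56, flat half, reduced to the Selmer count**, for any local condition `𝓛p` at `p` containing
the classes of the flat deformations. -/
theorem exists_surjective_mvPowerSeries_flat {p : ℕ} [hp : Fact p.Prime] (hp2 : p ≠ 2)
    (hp𝒪 : (p : 𝒪) ∈ maximalIdeal 𝒪) {ρbar : ResidualGaloisRep (ResidueField 𝒪)}
    (β : Module.Basis (Fin 2) (ResidueField 𝒪) ρbar.V) (Smin S' : Finset ℕ)
    (T : Finset Nat.Primes) (D : PTDatum (levelBasis T) p (locHom T) (locFine T))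
    (hTS' : ∀ v : Nat.Primes, v ∉ T → (v : ℕ) ∉ S')
    (hmin : ∀ q : ℕ, q.Prime → q ≠ p → (q ∈ Smin ↔ ¬ ρbar.IsUnramifiedAt q))
    (DQ : DeformationRingData 𝒪 ρbar (fun _A _ _ _ ρ =>
      flatCondition 𝒪 p S' ρ ∧
        ∀ q ∈ Smin, q.Prime → q ≠ p → ρ.IsUnipotentOnInertiaAt q))
    (hT : IsSmooth (levelBasis T) (adRep (resMatrixOf ρbar β))) (r : ℕ)
    (𝓛p : AddSubgroup (H1 (Rep.res (primeLocalToGlobal (pPrime p))
      (adRep (resMatrixOf ρbar β)))))
    (hloc : ∀ (b : Gal → M2 (ResidueField 𝒪)) (hb : IsTwCocycle (resMatrixOf ρbar β) b)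
      (hs : IsSmoothFun b),
      (ofMatrix (defOfCocycle (resMatrixOf ρbar β) b hb)
        (matCont_defOfCocycle (resMatrixOf_factors ρbar β) hb hs)).DetIsCyclotomic p →
      (ofMatrix (defOfCocycle (resMatrixOf ρbar β) b hb)
        (matCont_defOfCocycle (resMatrixOf_factors ρbar β) hb hs)).IsFlatAt p →
      ∀ htr : ∀ σ, Matrix.trace (b σ * resMatrixOf ρbar β σ⁻¹) = 0,
        (groupCohomology.map (primeLocalToGlobal (pPrime p))
          (𝟙 (Rep.res (primeLocalToGlobal (pPrime p)) (adRep (resMatrixOf ρbar β)))) 1).hom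
        ((H1π (adRep (resMatrixOf ρbar β))).hom (adCocycle hb htr)) ∈ 𝓛p)
    (Sel : AddSubgroup (Ext (smUnit ℤ (levelBasis T)) (adSm T (resMatrixOf ρbar β) hT) 1))
    (hle : twSelmer p ρbar β T D hT 𝓛p ≤ Sel)
    [Finite Sel] (hSel : Nat.card Sel ≤ Nat.card (ResidueField 𝒪) ^ r) :
    ∃ γ : MvPowerSeries (Fin r) 𝒪 →ₐ[𝒪] DQ.R, Function.Surjective γ := by
  have hpk : ((p : ℕ) : ResidueField 𝒪) = 0 := by
    have h1 : residue 𝒪 (p : 𝒪) = 0 := (residue_eq_zero_iff _).2 hp𝒪
    rwa [map_natCast] at h1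
  haveI : CharP (ResidueField 𝒪) p := (CharP.charP_iff_prime_eq_zero hp.out).mpr hpk
  have h2 : (2 : ResidueField 𝒪) ≠ 0 := by
    intro h
    have h3 : ((2 : ℕ) : ResidueField 𝒪) = 0 := by exact_mod_cast h
    have h4 := (CharP.cast_eq_zero_iff (ResidueField 𝒪) p 2).1 h3
    exact hp2 ((Nat.prime_dvd_prime_iff_eq hp.out Nat.prime_two).1 h4)
  have h0 : flatCondition 𝒪 p S' DQ.ρ ∧
      ∀ q ∈ Smin, q.Prime → q ≠ p → DQ.ρ.IsUnipotentOnInertiaAt q := DQ.isOfType
  have hE : ∀ ρ ρ' : GaloisRepAdic (DualNumber (ResidueField 𝒪)), ρ.IsEquiv ρ' →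
      (flatCondition 𝒪 p S' ρ ∧
        ∀ q ∈ Smin, q.Prime → q ≠ p → ρ.IsUnipotentOnInertiaAt q) →
      (flatCondition 𝒪 p S' ρ' ∧
        ∀ q ∈ Smin, q.Prime → q ≠ p → ρ'.IsUnipotentOnInertiaAt q) :=
    fun ρ ρ' he h => twFlat_of_isEquiv he h
  have hB : ∀ (f : DQ.R →ₐ[𝒪] DualNumber (ResidueField 𝒪))
      (hf : IsLocalHom (f : DQ.R →+* DualNumber (ResidueField 𝒪))), Function.Surjective f →
        (flatCondition 𝒪 p S'
          (DQ.ρ.baseChangeAlong (f : DQ.R →+* DualNumber (ResidueField 𝒪)) hf) ∧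
        ∀ q ∈ Smin, q.Prime → q ≠ p →
          (DQ.ρ.baseChangeAlong (f : DQ.R →+* DualNumber (ResidueField 𝒪)) hf).IsUnipotentOnInertiaAt
            q) := by
    intro f hf hsurj
    exact twFlat_baseChangeAlong_of_surjective (𝒪 := 𝒪)
      (f : DQ.R →+* DualNumber (ResidueField 𝒪)) hf hsurj h0
  refine exists_surjective_mvPowerSeries_of_selmer DQ β r (three_le_natCard_of_two_ne_zero h2)
    hE hB T hT Sel hSel ?_
  intro b hb hs h𝒟
  obtain ⟨⟨hdet, hflat, hur⟩, hunip⟩ := h𝒟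
  obtain ⟨htr, hlc, hmem⟩ := exists_clsOfCocycle_mem_selmer hp2 hpk ρbar β T D hT
    𝓛p hb hs hdet
    (fun v hv => hur (v : ℕ) v.2 (hTS' v hv)) (fun v _ hvp hram => by
      have hvp' : (v : ℕ) ≠ p := fun h => hvp (Subtype.ext h)
      exact hunip (v : ℕ) ((hmin (v : ℕ) v.2 hvp').2 hram) v.2 hvp')
    (fun htr => hloc b hb hs hdet hflat htr)
  exact ⟨htr, hlc, hle hmem⟩

end Glue

end Fermat.Agent.TW
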