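import Fermat.Agent.TW.Ind_helper3_Sep

set_option autoImplicit false
set_option linter.style.haveILetI false
set_option linter.unusedSectionVars false

open Polynomial

namespace Fermat.Agent.TW.Ind

variable {k A : Type} [Field k] [Finite k] [Ring A] [Algebra k A]

lemma trace_eq_neg_nextCoeff (a : A) (M : FinMod k A) :
    LinearMap.trace k M (actL a M) = -(cp a M).nextCoeff := by
  classical
  let b := Module.Free.chooseBasis k M
  rw [LinearMap.trace_eq_matrix_trace k b, cp, ← LinearMap.charpoly_toMatrix (actL a M) b,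
    Matrix.trace_eq_neg_charpoly_nextCoeff]

lemma actL_add (a a' : A) (M : FinMod k A) : actL (a + a') M = actL a M + actL a' M := by
  rw [actL, actL, actL, map_add]

lemma actL_smul (c : k) (a : A) (M : FinMod k A) : actL (c • a) M = c • actL a M := by
  rw [actL, actL, map_smul]

lemma actL_zero (M : FinMod k A) : actL (0 : A) M = 0 := by
  rw [actL, map_zero]

/-- the trace identity extracted from a product identity of characteristic polynomials. -/
lemma sum_trace_eq_of_prod_cp_eq (T : Finset (FinMod k A)) (m₁ m₂ : FinMod k A → ℕ) (a : A)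
    (h : ∏ S ∈ T, cp a S ^ m₁ S = ∏ S ∈ T, cp a S ^ m₂ S) :
    ∑ S ∈ T, ((m₁ S : k) - (m₂ S : k)) * LinearMap.trace k S (actL a S) = 0 := by
  have h' := congrArg Polynomial.nextCoeff h
  rw [Polynomial.Monic.nextCoeff_prod _ _ (fun S _ => (cp_monic a S).pow _),
    Polynomial.Monic.nextCoeff_prod _ _ (fun S _ => (cp_monic a S).pow _)] at h'
  simp only [(cp_monic a _).nextCoeff_pow, nsmul_eq_mul] at h'
  simp only [trace_eq_neg_nextCoeff, sub_mul, mul_neg, Finset.sum_sub_distrib,
    Finset.sum_neg_distrib, h', sub_self, neg_zero]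



/-- **Brauer–Nesbitt, core**: multiplicities of pairwise non-isomorphic simple modules are
determined by the characteristic polynomials of a spanning set. -/
theorem bn_core (p : ℕ) [hp : Fact p.Prime] [CharP k p] (B : Set A) (hB : Submodule.span k B = ⊤) (T : Finset (FinMod k A))
    (hsimple : ∀ S ∈ T, IsSimpleModule A S)
    (hne : ∀ S ∈ T, ∀ S' ∈ T, Nonempty (S ≃ₗ[A] S') → S = S')
    (m₁ m₂ : FinMod k A → ℕ)
    (h : ∀ a ∈ B, ∏ S ∈ T, cp a S ^ m₁ S = ∏ S ∈ T, cp a S ^ m₂ S) :
    ∀ S ∈ T, m₁ S = m₂ S := by
  classical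
  obtain ⟨N, hN⟩ : ∃ N, ∑ S ∈ T, (m₁ S + m₂ S) = N := ⟨_, rfl⟩
  induction N using Nat.strong_induction_on generalizing m₁ m₂ with
  | _ N ih =>
    by_cases hA : ∃ S₀ ∈ T, 0 < m₁ S₀ ∧ 0 < m₂ S₀
    · -- cancel one copy of `S₀`
      obtain ⟨S₀, hS₀, h1, h2⟩ := hA
      have hprod : ∀ (f : FinMod k A → k[X]) (m : FinMod k A → ℕ), 0 < m S₀ →
          ∏ S ∈ T, f S ^ m S = f S₀ * ∏ S ∈ T, f S ^ (Function.update m S₀ (m S₀ - 1)) S := by
        intro f m hm
        rw [← Finset.mul_prod_erase T _ hS₀, ← Finset.mul_prod_erase T (fun S => f S ^ _) hS₀,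
          Function.update_self, ← mul_assoc, ← pow_succ', Nat.sub_add_cancel hm]
        congr 1
        refine Finset.prod_congr rfl fun S hS => ?_
        rw [Function.update_of_ne (Finset.ne_of_mem_erase hS)]
      have hsum : ∀ (m : FinMod k A → ℕ), 0 < m S₀ →
          ∑ S ∈ T, m S = 1 + ∑ S ∈ T, (Function.update m S₀ (m S₀ - 1)) S := by
        intro m hm
        rw [← Finset.add_sum_erase T _ hS₀, ← Finset.add_sum_erase T (Function.update m S₀ _) hS₀,
          Function.update_self, ← add_assoc, Nat.add_sub_cancel' hm]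
        congr 1
        refine Finset.sum_congr rfl fun S hS => ?_
        rw [Function.update_of_ne (Finset.ne_of_mem_erase hS)]
      have h' : ∀ a ∈ B, ∏ S ∈ T, cp a S ^ (Function.update m₁ S₀ (m₁ S₀ - 1)) S =
          ∏ S ∈ T, cp a S ^ (Function.update m₂ S₀ (m₂ S₀ - 1)) S := by
        intro a ha
        have := h a ha
        rw [hprod (cp a) m₁ h1, hprod (cp a) m₂ h2] at this
        exact mul_left_cancel₀ (cp_ne_zero a S₀) this
      have hlt : ∑ S ∈ T, ((Function.update m₁ S₀ (m₁ S₀ - 1)) S +
          (Function.update m₂ S₀ (m₂ S₀ - 1)) S) < N := by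
        rw [← hN, Finset.sum_add_distrib, Finset.sum_add_distrib, hsum m₁ h1, hsum m₂ h2]
        omega
      have key := ih _ hlt _ _ h' rfl
      intro S hS
      by_cases hSS : S = S₀
      · subst hSS
        have := key S hS
        rw [Function.update_self, Function.update_self] at this
        omega
      · have := key S hS
        rwa [Function.update_of_ne hSS, Function.update_of_ne hSS] at this
    · -- disjoint supports: all multiplicities are divisible by `p`
      push Not at hA
      have hdvd : ∀ S₁ ∈ T, p ∣ m₁ S₁ ∧ p ∣ m₂ S₁ := by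
        intro S₁ hS₁
        -- the linear functional vanishes on `A`
        have hτ : ∀ a : A,
            ∑ S ∈ T, ((m₁ S : k) - (m₂ S : k)) * LinearMap.trace k S (actL a S) = 0 := by
          intro a
          have ha : a ∈ Submodule.span k B := hB ▸ Submodule.mem_top
          induction ha using Submodule.span_induction with
          | mem a ha => exact sum_trace_eq_of_prod_cp_eq T m₁ m₂ a (h a ha)
          | zero => simp [actL_zero]
          | add a a' _ _ h1 h2 =>
            simp only [actL_add, map_add, mul_add, Finset.sum_add_distrib, h1, h2, add_zero]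
          | smul c a _ h1 =>
            simp only [actL_smul, map_smul, smul_eq_mul]
            rw [← mul_zero c, ← h1, Finset.mul_sum]
            refine Finset.sum_congr rfl fun S _ => ?_
            ring
        -- the separating element
        obtain ⟨a, ha1, ha0⟩ := exists_trace_separating (ι := {S // S ∈ T}) (fun i => i.1)
          (fun i => hsimple i.1 i.2) (fun i j hij => Subtype.ext (hne i.1 i.2 j.1 j.2 hij))
          ⟨S₁, hS₁⟩
        have hτa := hτ a
        rw [Finset.sum_eq_single_of_mem S₁ hS₁] at hτa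
        · rw [ha1, mul_one, sub_eq_zero] at hτa
          rcases Nat.eq_zero_or_pos (m₁ S₁) with h0 | h0
          · rw [h0, Nat.cast_zero, eq_comm, CharP.cast_eq_zero_iff k p] at hτa
            exact ⟨h0 ▸ dvd_zero p, hτa⟩
          · have h0' : m₂ S₁ = 0 := by
              by_contra hne0
              exact absurd (hA S₁ hS₁ h0) (by omega)
            rw [h0', Nat.cast_zero, CharP.cast_eq_zero_iff k p] at hτa
            exact ⟨hτa, h0' ▸ dvd_zero p⟩
        · intro S hS hSne
          have : actL a S = 0 := by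
            apply LinearMap.ext
            intro x
            exact ha0 ⟨S, hS⟩ (fun hh => hSne (congrArg Subtype.val hh)) x
          rw [this, map_zero, mul_zero]
      by_cases hN0 : N = 0
      · intro S hS
        have h0 : m₁ S + m₂ S = 0 := by
          have := Finset.sum_eq_zero_iff.mp (hN.trans hN0) S hS
          exact this
        omega
      · -- divide by `p`
        have h' : ∀ a ∈ B, ∏ S ∈ T, cp a S ^ (m₁ S / p) = ∏ S ∈ T, cp a S ^ (m₂ S / p) := by
          intro a ha
          apply frobenius_inj k[X] p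
          rw [frobenius_def, frobenius_def, ← Finset.prod_pow, ← Finset.prod_pow]
          have := h a ha
          convert this using 2 with S hS S hS
          · rw [← pow_mul, Nat.div_mul_cancel (hdvd S hS).1]
          · rw [← pow_mul, Nat.div_mul_cancel (hdvd S hS).2]
        have hlt : ∑ S ∈ T, (m₁ S / p + m₂ S / p) < N := by
          have h2 : ∑ S ∈ T, (m₁ S + m₂ S) = p * ∑ S ∈ T, (m₁ S / p + m₂ S / p) := by
            rw [Finset.mul_sum]
            refine Finset.sum_congr rfl fun S hS => ?_
            rw [mul_add, Nat.mul_div_cancel' (hdvd S hS).1, Nat.mul_div_cancel' (hdvd S hS).2]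
          rw [hN] at h2
          have hp2 := hp.out.two_le
          have hpos : 0 < ∑ S ∈ T, (m₁ S / p + m₂ S / p) := by
            rcases Nat.eq_zero_or_pos (∑ S ∈ T, (m₁ S / p + m₂ S / p)) with h0 | h0
            · rw [h0, mul_zero] at h2
              exact absurd h2 hN0
            · exact h0
          nlinarith
        have key := ih _ hlt _ _ h' rfl
        intro S hS
        have := key S hS
        rw [← Nat.div_mul_cancel (hdvd S hS).1, ← Nat.div_mul_cancel (hdvd S hS).2, this]


/-! ### Brauer–Nesbitt for lists of modules -/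

/-- isomorphism of finite modules as a setoid. -/
def isoSetoid (k A : Type) [Field k] [Ring A] [Algebra k A] : Setoid (FinMod k A) where
  r M N := Nonempty (M ≃ₗ[A] N)
  iseqv := ⟨fun M => ⟨LinearEquiv.refl A M⟩, fun ⟨e⟩ => ⟨e.symm⟩, fun ⟨e⟩ ⟨f⟩ => ⟨e.trans f⟩⟩

/-- a canonical representative of the isomorphism class. -/
noncomputable def rep (M : FinMod k A) : FinMod k A :=
  (Quotient.mk (isoSetoid k A) M).out

lemma rep_iso (M : FinMod k A) : Nonempty (rep M ≃ₗ[A] M) :=
  Quotient.exact (s := isoSetoid k A) (Quotient.out_eq _)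

lemma rep_eq_of_iso {M N : FinMod k A} (h : Nonempty (M ≃ₗ[A] N)) : rep M = rep N := by
  rw [rep, rep, Quotient.sound (s := isoSetoid k A) h]

lemma rep_rep (M : FinMod k A) : rep (rep M) = rep M := rep_eq_of_iso (rep_iso M)

lemma IsMulInv.rep_eq {Γ : Type} [CommMonoid Γ] {χ : FinMod k A → Γ} (hχ : IsMulInv χ)
    (M : FinMod k A) : χ (rep M) = χ M := hχ.iso _ _ (rep_iso M)

/-- a chosen Jordan–Hölder list of canonical simple modules. -/
noncomputable def jh (M : FinMod k A) : List (FinMod k A) :=
  (Classical.choose (exists_simple_list M)).map rep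

lemma jh_simple (M : FinMod k A) : ∀ S ∈ jh M, IsSimpleModule A S ∧ rep S = S := by
  intro S hS
  rw [jh, List.mem_map] at hS
  obtain ⟨S', hS', rfl⟩ := hS
  refine ⟨?_, rep_rep S'⟩
  haveI := (Classical.choose_spec (exists_simple_list M)).1 S' hS'
  obtain ⟨e⟩ := rep_iso S'
  exact (e.isSimpleModule_iff).mpr inferInstance

lemma jh_prod {Γ : Type} [CommMonoid Γ] {χ : FinMod k A → Γ} (hχ : IsMulInv χ) (M : FinMod k A) :
    χ M = ((jh M).map χ).prod := by
  rw [jh, List.map_map, (Classical.choose_spec (exists_simple_list M)).2 χ hχ]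
  congr 1
  apply List.map_congr_left
  intro S _
  exact (hχ.rep_eq S).symm

/-- **Brauer–Nesbitt** (virtual form): if two lists of finite modules have the same product of
characteristic polynomials for every element of a spanning set, then every multiplicative
invariant takes the same value on them. -/
theorem bn (p : ℕ) [hp : Fact p.Prime] [CharP k p] (B : Set A) (hB : Submodule.span k B = ⊤)
    (L₁ L₂ : List (FinMod k A))
    (h : ∀ a ∈ B, (L₁.map (cp a)).prod = (L₂.map (cp a)).prod)
    {Γ : Type} [CommMonoid Γ] (χ : FinMod k A → Γ) (hχ : IsMulInv χ) :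
    (L₁.map χ).prod = (L₂.map χ).prod := by
  classical
  -- flatten
  have hflat : ∀ {Γ : Type} [CommMonoid Γ] (χ : FinMod k A → Γ), IsMulInv χ →
      ∀ L : List (FinMod k A), (L.map χ).prod = ((L.flatMap jh).map χ).prod := by
    intro Γ _ χ hχ L
    induction L with
    | nil => simp
    | cons M L ih =>
      rw [List.map_cons, List.prod_cons, List.flatMap_cons, List.map_append, List.prod_append, ih,
        jh_prod hχ M]
  have hmem : ∀ L : List (FinMod k A), ∀ S ∈ L.flatMap jh, IsSimpleModule A S ∧ rep S = S := by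
    intro L S hS
    rw [List.mem_flatMap] at hS
    obtain ⟨M, _, hSM⟩ := hS
    exact jh_simple M S hSM
  set Λ₁ := L₁.flatMap jh with hΛ₁
  set Λ₂ := L₂.flatMap jh with hΛ₂
  let T : Finset (FinMod k A) := (Λ₁ ++ Λ₂).toFinset
  have hT : ∀ S ∈ T, IsSimpleModule A S ∧ rep S = S := by
    intro S hS
    rw [List.mem_toFinset, List.mem_append] at hS
    rcases hS with hS | hS
    · exact hmem L₁ S hS
    · exact hmem L₂ S hS
  have hcount : ∀ {Γ : Type} [CommMonoid Γ] (f : FinMod k A → Γ) (Λ : List (FinMod k A)),
      Λ.toFinset ⊆ T → (Λ.map f).prod = ∏ S ∈ T, f S ^ Λ.count S := by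
    intro Γ _ f Λ hsub
    rw [Finset.prod_list_map_count]
    refine Finset.prod_subset hsub fun S _ hS => ?_
    rw [List.count_eq_zero_of_not_mem (fun hh => hS (List.mem_toFinset.mpr hh)), pow_zero]
  have hsub₁ : Λ₁.toFinset ⊆ T := by
    intro S hS
    rw [List.mem_toFinset] at hS ⊢
    exact List.mem_append_left _ hS
  have hsub₂ : Λ₂.toFinset ⊆ T := by
    intro S hS
    rw [List.mem_toFinset] at hS ⊢
    exact List.mem_append_right _ hS
  have hcore := bn_core p B hB T (fun S hS => (hT S hS).1)
    (fun S hS S' hS' hiso => by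
      rw [← (hT S hS).2, ← (hT S' hS').2]
      exact rep_eq_of_iso hiso)
    (fun S => Λ₁.count S) (fun S => Λ₂.count S)
    (fun a ha => by
      rw [← hcount (cp a) Λ₁ hsub₁, ← hcount (cp a) Λ₂ hsub₂, ← hflat (cp a) (isMulInv_cp a) L₁,
        ← hflat (cp a) (isMulInv_cp a) L₂]
      exact h a ha)
  rw [hflat χ hχ L₁, hflat χ hχ L₂, hcount χ Λ₁ hsub₁, hcount χ Λ₂ hsub₂]
  refine Finset.prod_congr rfl fun S hS => ?_
  rw [hcore S hS]

end Fermat.Agent.TW.Ind
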