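import Mathlib

set_option autoImplicit false
set_option linter.style.haveILetI false
set_option linter.unusedSectionVars false

namespace Fermat.Agent.TW.Ind

open Equiv Equiv.Perm

section PermFix

variable {α : Type*} [Fintype α] [DecidableEq α]

/-- the support of `σ ^ j` in terms of the cycle type. -/
theorem card_support_pow_eq (σ : Perm α) (j : ℕ) :
    (σ ^ j).support.card = ((σ.cycleType.filter (fun c => ¬ c ∣ j))).sum := by
  induction σ using Equiv.Perm.cycle_induction_on with
  | base_one => simp
  | base_cycles σ hσ =>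
    rw [hσ.cycleType]
    by_cases h : σ.support.card ∣ j
    · have h1 : σ ^ j = 1 := by
        rw [← hσ.orderOf] at h
        exact orderOf_dvd_iff_pow_eq_one.mp h
      rw [h1, ← Multiset.cons_zero, Multiset.filter_cons_of_neg _ (by simpa using h)]
      simp
    · have h1 : (σ ^ j).support = σ.support := by
        rw [← hσ.orderOf] at h
        exact hσ.support_pow_eq_iff.mpr h
      rw [h1, ← Multiset.cons_zero, Multiset.filter_cons_of_pos _ (by simpa using h)]
      simp
  | induction_disjoint σ τ hd hc ih1 ih2 =>
    rw [hd.commute.mul_pow, (hd.pow_disjoint_pow j j).card_support_mul, hd.cycleType_mul,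
      Multiset.filter_add, Multiset.sum_add, ih1, ih2]

/-- a multiset of naturals `≥ 2` is determined by the sums of its non-divisors. -/
theorem multiset_eq_of_sum_filter_not_dvd_eq (m₁ m₂ : Multiset ℕ) (h₁ : ∀ c ∈ m₁, 2 ≤ c)
    (h₂ : ∀ c ∈ m₂, 2 ≤ c)
    (h : ∀ j : ℕ, (m₁.filter (fun c => ¬ c ∣ j)).sum = (m₂.filter (fun c => ¬ c ∣ j)).sum) :
    m₁ = m₂ := by
  classical
  have htot : m₁.sum = m₂.sum := by
    have := h 1
    rwa [Multiset.filter_eq_self.mpr, Multiset.filter_eq_self.mpr] at this
    · intro c hc
      have := h₂ c hc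
      simp only [Nat.dvd_one]; omega
    · intro c hc
      have := h₁ c hc
      simp only [Nat.dvd_one]; omega
  have hS : ∀ j : ℕ, (m₁.filter (fun c => c ∣ j)).sum = (m₂.filter (fun c => c ∣ j)).sum := by
    intro j
    have e1 := Multiset.sum_filter_add_sum_filter_not (s := m₁) (fun c => c ∣ j)
    have e2 := Multiset.sum_filter_add_sum_filter_not (s := m₂) (fun c => c ∣ j)
    have := h j
    omega
  have hdiv : ∀ (m : Multiset ℕ) (d : ℕ), d ≠ 0 → (m.filter (fun c => c ∣ d)).sum =
      ∑ c ∈ d.divisors, Multiset.count c m • c := by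
    intro m d hd
    rw [Finset.sum_multiset_count_of_subset (m.filter (fun c => c ∣ d)) d.divisors]
    · refine Finset.sum_congr rfl fun c hc => ?_
      rw [Multiset.count_filter_of_pos (p := fun c => c ∣ d) (Nat.dvd_of_mem_divisors hc)]
    · intro c hc
      rw [Multiset.mem_toFinset, Multiset.mem_filter] at hc
      exact Nat.mem_divisors.mpr ⟨hc.2, hd⟩
  ext d
  induction d using Nat.strong_induction_on with
  | _ d ih =>
    rcases Nat.eq_zero_or_pos d with rfl | hd
    · rw [Multiset.count_eq_zero_of_notMem, Multiset.count_eq_zero_of_notMem]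
      · intro h0; have := h₂ 0 h0; omega
      · intro h0; have := h₁ 0 h0; omega
    · have := hS d
      rw [hdiv m₁ d hd.ne', hdiv m₂ d hd.ne', ← Nat.cons_self_properDivisors hd.ne',
        Finset.sum_cons, Finset.sum_cons] at this
      have hprop : ∑ c ∈ d.properDivisors, Multiset.count c m₁ • c =
          ∑ c ∈ d.properDivisors, Multiset.count c m₂ • c := by
        refine Finset.sum_congr rfl fun c hc => ?_
        rw [ih c (Nat.mem_properDivisors.mp hc).2]
      rw [hprop] at this
      have h3 : Multiset.count d m₁ • d = Multiset.count d m₂ • d := by omega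
      simpa [smul_eq_mul, hd.ne'] using h3

/-- the cycle type is determined by the number of fixed points of all powers. -/
theorem cycleType_eq_of_card_support_pow_eq (σ τ : Perm α)
    (h : ∀ j : ℕ, (σ ^ j).support.card = (τ ^ j).support.card) : σ.cycleType = τ.cycleType := by
  apply multiset_eq_of_sum_filter_not_dvd_eq
  · intro c hc; exact two_le_of_mem_cycleType hc
  · intro c hc; exact two_le_of_mem_cycleType hc
  · intro j
    rw [← card_support_pow_eq, ← card_support_pow_eq, h j]

end PermFix

section Conj

/-- two permutations of finite sets with the same numbers of fixed points of all powers are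
conjugate by a bijection. -/
theorem exists_equiv_of_card_fixed_eq {α β : Type*} [Finite α] [Finite β] (σ : Perm α)
    (τ : Perm β)
    (h : ∀ j : ℕ, Nat.card {x // (σ ^ j) x = x} = Nat.card {y // (τ ^ j) y = y}) :
    ∃ e : α ≃ β, ∀ x, e (σ x) = τ (e x) := by
  classical
  haveI := Fintype.ofFinite α
  haveI := Fintype.ofFinite β
  have hcard : Nat.card α = Nat.card β := by
    have := h 0
    simp only [pow_zero, Perm.coe_one, id_eq] at this
    rw [Nat.card_congr (Equiv.subtypeUnivEquiv (fun _ => trivial)),
      Nat.card_congr (Equiv.subtypeUnivEquiv (fun _ => trivial))] at this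
    exact this
  obtain ⟨ε⟩ : Nonempty (α ≃ β) := by
    rw [Nat.card_eq_fintype_card, Nat.card_eq_fintype_card] at hcard
    exact Fintype.card_eq.mp hcard
  set τ' : Perm α := ε.symm.permCongr τ with hτ'
  have hτ'pow : ∀ j : ℕ, ∀ x, (τ' ^ j) x = ε.symm ((τ ^ j) (ε x)) := by
    intro j
    induction j with
    | zero => intro x; simp
    | succ j ih =>
      intro x
      rw [pow_succ, Perm.mul_apply, ih, pow_succ, Perm.mul_apply, hτ']
      simp [Equiv.permCongr_apply]
  have hfix : ∀ (γ : Type _) [Fintype γ] [DecidableEq γ] (ρ : Perm γ),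
      Nat.card {x // ρ x = x} + ρ.support.card = Fintype.card γ := by
    intro γ _ _ ρ
    rw [Nat.card_eq_fintype_card, Fintype.card_subtype, ← Finset.card_compl_add_card ρ.support]
    congr 2
    ext x
    simp
  have hsupp : ∀ j : ℕ, (σ ^ j).support.card = (τ' ^ j).support.card := by
    intro j
    have e1 := hfix α (σ ^ j)
    have e2 := hfix α (τ' ^ j)
    have e3 : Nat.card {x // (τ' ^ j) x = x} = Nat.card {y // (τ ^ j) y = y} := by
      refine Nat.card_congr (ε.subtypeEquiv fun x => ?_)
      rw [hτ'pow j x]
      constructor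
      · intro hx
        have := congrArg ε hx
        simpa using this
      · intro hx
        rw [hx]; simp
    have := h j
    omega
  have hconj : IsConj σ τ' := isConj_iff_cycleType_eq.mpr (cycleType_eq_of_card_support_pow_eq σ τ' hsupp)
  obtain ⟨c, hc⟩ := isConj_iff.mp hconj
  refine ⟨c.trans ε, fun x => ?_⟩
  have h1 : c (σ x) = τ' (c x) := by
    have := congrArg (fun ρ : Perm α => ρ (c x)) hc
    simpa using this
  rw [Equiv.trans_apply, h1, hτ']
  simp [Equiv.permCongr_apply]

end Conj

end Fermat.Agent.TW.Ind
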