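import Fermat.Agent.TW.Ind_helper3_FinMod

set_option autoImplicit false
set_option linter.style.haveILetI false
set_option linter.unusedSectionVars false

open Polynomial

namespace Fermat.Agent.TW.Ind

variable {k A : Type} [Field k] [Finite k] [Ring A] [Algebra k A]

/-- For a simple finite module there is an additive endomorphism commuting with all
`A`-endomorphisms whose `k`-trace is one. -/
theorem exists_endEnd_trace_one (S : FinMod k A) [IsSimpleModule A S] :
    ∃ ψ : Module.End (Module.End A S) S, ∃ ψk : S →ₗ[k] S, (∀ x, ψk x = ψ x) ∧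
      LinearMap.trace k S ψk = 1 := by
  classical
  haveI : Finite (Module.End A S) := Finite.of_injective (fun f : Module.End A S => (f : S → S))
    DFunLike.coe_injective
  letI : Field (Module.End A S) := littleWedderburn (Module.End A S)
  haveI : Nontrivial S := IsSimpleModule.nontrivial A S
  haveI : FiniteDimensional k (Module.End A S) := Module.Finite.of_finite
  haveI : FiniteDimensional (Module.End A S) S := Module.Finite.of_finite
  obtain ⟨f, hf⟩ := exists_linearMap_trace_one (k := k) (D := Module.End A S) (S := S)
  exact ⟨f, f.restrictScalars k, fun x => rfl, hf⟩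

/-- endomorphisms of a finite product of pairwise non-isomorphic simple modules are diagonal. -/
theorem end_pi_apply {ι : Type*} [Fintype ι] [DecidableEq ι] (S : ι → FinMod k A)
    (hS : ∀ i, IsSimpleModule A (S i)) (hne : ∀ i j, Nonempty (S i ≃ₗ[A] S j) → i = j)
    (e : Module.End A (Π i, S i)) (m : Π i, S i) (l : ι) :
    e m l = ((LinearMap.proj l) ∘ₗ e ∘ₗ (LinearMap.single A (fun i => (S i : Type)) l)) (m l) := by
  have hzero : ∀ j, j ≠ l →
      ((LinearMap.proj l) ∘ₗ e ∘ₗ (LinearMap.single A (fun i => (S i : Type)) j)) = 0 := by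
    intro j hj
    haveI := hS j
    haveI := hS l
    rcases LinearMap.bijective_or_eq_zero
      ((LinearMap.proj l) ∘ₗ e ∘ₗ (LinearMap.single A (fun i => (S i : Type)) j)) with h | h
    · exact absurd (hne j l ⟨LinearEquiv.ofBijective _ h⟩) hj
    · exact h
  conv_lhs => rw [← Finset.univ_sum_single m]
  rw [map_sum, Finset.sum_apply, Finset.sum_eq_single l]
  · rfl
  · intro j _ hj
    have := congrArg (fun f => f (m j)) (hzero j hj)
    simpa using this
  · intro h
    exact absurd (Finset.mem_univ l) h


/-- **Trace separation**: for finitely many pairwise non-isomorphic simple modules there is an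
element of `A` acting with trace one on a chosen one and by zero on the others. -/
theorem exists_trace_separating {ι : Type*} [Finite ι] (S : ι → FinMod k A)
    (hS : ∀ i, IsSimpleModule A (S i)) (hne : ∀ i j, Nonempty (S i ≃ₗ[A] S j) → i = j) (i₀ : ι) :
    ∃ a : A, LinearMap.trace k (S i₀) (actL a (S i₀)) = 1 ∧
      ∀ j, j ≠ i₀ → ∀ x : S j, a • x = 0 := by
  classical
  haveI := Fintype.ofFinite ι
  haveI := hS i₀
  obtain ⟨ψ, ψk, hψk, htr⟩ := exists_endEnd_trace_one (S i₀)
  -- the diagonal components of an endomorphism
  let comp : Module.End A (Π i, S i) → ∀ l, (S l →ₗ[A] S l) := fun e l =>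
    (LinearMap.proj l) ∘ₗ e ∘ₗ (LinearMap.single A (fun i => (S i : Type)) l)
  have hdiag : ∀ (e : Module.End A (Π i, S i)) (m : Π i, S i) (l : ι), e m l = comp e l (m l) :=
    fun e m l => end_pi_apply S hS hne e m l
  -- the endomorphism of `M` over `End_A M`
  let F : Module.End (Module.End A (Π i, S i)) (Π i, S i) :=
    { toFun := fun m => Pi.single i₀ (ψ (m i₀))
      map_add' := fun m m' => by
        rw [Pi.add_apply, map_add, Pi.single_add]
      map_smul' := fun e m => by
        funext l
        rw [RingHom.id_apply, Module.End.smul_def, Module.End.smul_def, hdiag e _ l, hdiag e m i₀]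
        by_cases hl : l = i₀
        · subst hl
          rw [Pi.single_eq_same, Pi.single_eq_same]
          exact ψ.map_smul (comp e l) (m l)
        · rw [Pi.single_eq_of_ne hl, Pi.single_eq_of_ne hl, map_zero] }
  haveI : Fintype (Π i, S i) := Fintype.ofFinite _
  obtain ⟨a, ha⟩ := jacobson_density F (Finset.univ : Finset (Π i, S i))
  refine ⟨a, ?_, ?_⟩
  · have : actL a (S i₀) = ψk := by
      apply LinearMap.ext
      intro x
      have h := congrFun (ha (Pi.single i₀ x) (Finset.mem_univ _)) i₀
      rw [actL_apply, hψk]
      simpa [F] using h.symm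
    rw [this, htr]
  · intro j hj x
    have h := congrFun (ha (Pi.single j x) (Finset.mem_univ _)) j
    simpa [F, Pi.single_eq_of_ne hj, Pi.single_eq_of_ne (Ne.symm hj)] using h.symm

end Fermat.Agent.TW.Ind
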