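/-
TW (S56) — helper6: the inertia subgroup `locInertia v` of the local Galois group `G_v`
(pull-back of the inertia subgroup of `padicPlace v`) is the subgroup acting trivially on the
residue field of `PadicAlgCl v`:
`τ ∈ locInertia v ↔ ∀ z, ‖z‖ ≤ 1 → ‖τ z - z‖ < 1`.
-/
import Mathlib
import Fermat.Agent.TW.UnrLocal_helper6

set_option autoImplicit false
set_option linter.unusedSectionVars false
set_option linter.style.haveILetI false

noncomputable section

namespace Fermat.Agent.TW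

open Fermat.Agent.CFT.Arith ExtCitation Polynomial
open scoped Pointwise

/-- `Ω = AlgebraicClosure ℚ`. -/
local notation "Ω" => AlgebraicClosure ℚ

section Generic

variable {q : ℕ} [hq : Fact q.Prime]

/-- an automorphism acting trivially on the residue field of `PadicAlgCl q` maps into the inertia
subgroup of `padicPlace q` -/
theorem localGaloisToGlobal_mem_inertiaSubgroupIn_of_norm
    (g : PadicAlgCl q ≃ₐ[ℚ_[q]] PadicAlgCl q)
    (hg : ∀ z : PadicAlgCl q, ‖z‖ ≤ 1 → ‖g z - z‖ < 1) :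
    localGaloisToGlobal q g ∈ (padicPlace q).inertiaSubgroupIn ℚ := by
  rw [mem_inertiaSubgroupIn_iff]
  refine ⟨?_, fun a ha => ?_⟩
  · have := localGaloisToGlobal_mem_decompositionSubgroup q g
    exact MulAction.mem_stabilizer_iff.1 this
  · rw [mem_nonunits_padicPlace_iff, map_sub, padicEmbedding_localGaloisToGlobal]
    have h1 : ‖padicEmbedding q a‖ ≤ 1 := by
      have := (mem_padicPlace_iff q).1 ha
      exact_mod_cast this
    have h2 := hg (padicEmbedding q a) h1
    exact_mod_cast h2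

/-- every root of unity of `PadicAlgCl q` comes from `ℚ̄` -/
theorem exists_padicEmbedding_eq_of_pow_eq_one {M : ℕ} (hM : 0 < M) {ξ : PadicAlgCl q}
    (hξ : ξ ^ M = 1) : ∃ x : Ω, x ^ M = 1 ∧ padicEmbedding q x = ξ := by
  classical
  haveI : NeZero M := ⟨hM.ne'⟩
  obtain ⟨ω, hω⟩ := HasEnoughRootsOfUnity.exists_primitiveRoot Ω M
  have hω' : IsPrimitiveRoot (padicEmbedding q ω) M :=
    hω.map_of_injective (padicEmbedding q).injective
  obtain ⟨i, -, hi⟩ := hω'.eq_pow_of_pow_eq_one hξ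
  refine ⟨ω ^ i, ?_, ?_⟩
  · rw [← pow_mul, mul_comm, pow_mul, hω.pow_eq_one, one_pow]
  · rw [map_pow, hi]

/-- **The inertia subgroup acts trivially on the residue field.** -/
theorem norm_sub_lt_one_of_mem_inertiaSubgroupIn (g : PadicAlgCl q ≃ₐ[ℚ_[q]] PadicAlgCl q)
    (hg : localGaloisToGlobal q g ∈ (padicPlace q).inertiaSubgroupIn ℚ)
    (z : PadicAlgCl q) (hz : ‖z‖ ≤ 1) : ‖g z - z‖ < 1 := by
  apply norm_sub_lt_one_of_fixes_roots g ?_ z hz
  intro M ξ hM hξ
  apply eq_of_norm_sub_lt_one_of_pow_eq_one hM (by rw [← map_pow, hξ, map_one]) hξ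
  have hM0 : 0 < M := by
    rcases Nat.eq_zero_or_pos M with rfl | h0
    · rw [Nat.coprime_zero_left] at hM
      exact absurd hM hq.out.one_lt.ne'
    · exact h0
  obtain ⟨x, hx, rfl⟩ := exists_padicEmbedding_eq_of_pow_eq_one hM0 hξ
  have hxA : x ∈ padicPlace q := by
    rw [mem_padicPlace_iff]
    have : ‖padicEmbedding q x‖ = 1 :=
      norm_eq_one_of_pow_eq_one hM0 (by rw [← map_pow, hx, map_one])
    have h2 : ‖padicEmbedding q x‖₊ = 1 := by
      apply NNReal.eq
      rw [coe_nnnorm, this, NNReal.coe_one]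
    rw [h2]
  have h1 := (mem_inertiaSubgroupIn_iff.1 hg).2 x hxA
  rw [mem_nonunits_padicPlace_iff, map_sub, padicEmbedding_localGaloisToGlobal] at h1
  exact_mod_cast h1

end Generic

/-- **`τ ∈ locInertia v ↔ τ` acts trivially on the residue field of `PadicAlgCl v`.** -/
theorem mem_locInertia_iff_norm (v : Nat.Primes) (τ : primeLocalGaloisGroup v) :
    τ ∈ locInertia v ↔
      letI : Fact ((v : ℕ)).Prime := ⟨v.2⟩
      ∀ z : PadicAlgCl (v : ℕ), ‖z‖ ≤ 1 →
        ‖(show PadicAlgCl (v : ℕ) ≃ₐ[ℚ_[(v : ℕ)]] PadicAlgCl (v : ℕ) from τ) z - z‖ < 1 := by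
  haveI : Fact ((v : ℕ)).Prime := ⟨v.2⟩
  constructor
  · intro h z hz
    exact norm_sub_lt_one_of_mem_inertiaSubgroupIn (q := (v : ℕ)) τ h z hz
  · intro h
    exact localGaloisToGlobal_mem_inertiaSubgroupIn_of_norm (q := (v : ℕ)) τ h

end Fermat.Agent.TW
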