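/-
S56 (Taylor–Wiles) — helper1, small leaf (ODD), part 2 (Mathlib only): counting homomorphisms
which are anti-equivariant for an involution.

`V` a finite abelian group killed by an odd prime `p` with an involution `s`; `A` an abelian group
whose `p`-torsion has at most `p` elements, with a map `c` acting by `-1` on the `p`-torsion. Then
the homomorphisms `φ : V →+ A` with `φ ∘ s = c ∘ φ` are determined by their restriction to
`V⁻ = {x | s x = -x}`, and there are at most `#V⁻` of them.
-/
import Mathlib

set_option autoImplicit false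
set_option linter.unusedSectionVars false
set_option linter.style.haveILetI false

namespace Fermat.Agent.TW.Odd

section Abstract

variable {V A : Type} [AddCommGroup V] [AddCommGroup A] (p : ℕ) [hp : Fact p.Prime]

/-- the `p`-torsion points, as a type. -/
abbrev TorP (A : Type) [AddCommGroup A] (p : ℕ) : Type := {a : A // p • a = 0}

/-- homomorphisms from a finite `𝔽_p`-vector space to a group with at most `p` points of
`p`-torsion: there are at most `#V` of them. -/
theorem finite_and_card_addMonoidHom_le_of_module [Module (ZMod p) V] [Finite V]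
    [Finite (TorP A p)] (hA : Nat.card (TorP A p) ≤ p) :
    Finite (V →+ A) ∧ Nat.card (V →+ A) ≤ Nat.card V := by
  classical
  have hV : ∀ v : V, p • v = 0 := fun v => by
    rw [← Nat.cast_smul_eq_nsmul (ZMod p), ZMod.natCast_self, zero_smul]
  haveI : Module.Finite (ZMod p) V := Module.Finite.of_finite
  let b : Module.Basis (Fin (Module.finrank (ZMod p) V)) (ZMod p) V := Module.finBasis (ZMod p) V
  let Φ : (V →+ A) → (Fin (Module.finrank (ZMod p) V) → TorP A p) := fun φ i =>
    ⟨φ (b i), by rw [← map_nsmul, hV, map_zero]⟩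
  have hΦ : Function.Injective Φ := by
    intro φ ψ h
    have hb : ∀ i, φ (b i) = ψ (b i) := fun i => congrArg Subtype.val (congrFun h i)
    apply AddMonoidHom.ext
    intro x
    have hx : x ∈ Submodule.span (ZMod p) (Set.range b) := by rw [b.span_eq]; trivial
    induction hx using Submodule.span_induction with
    | mem y hy => obtain ⟨i, rfl⟩ := hy; exact hb i
    | zero => rw [map_zero, map_zero]
    | add y z _ _ hy hz => rw [map_add, map_add, hy, hz]
    | smul a y _ hy =>
      have ha : a • y = a.val • y := by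
        rw [← Nat.cast_smul_eq_nsmul (ZMod p), ZMod.natCast_zmod_val]
      rw [ha, map_nsmul, map_nsmul, hy]
  haveI : Finite (Fin (Module.finrank (ZMod p) V) → TorP A p) := Pi.finite
  refine ⟨Finite.of_injective Φ hΦ, ?_⟩
  refine (Nat.card_le_card_of_injective Φ hΦ).trans ?_
  rw [Nat.card_fun, Module.natCard_eq_pow_finrank (K := ZMod p) (V := V), Nat.card_zmod,
    Nat.card_fin]
  exact Nat.pow_le_pow_left hA _

/-- homomorphisms from a finite `p`-torsion group to a group with at most `p` points of
`p`-torsion: there are at most `#V` of them. -/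
theorem finite_and_card_addMonoidHom_le [Finite V] (hV : ∀ v : V, p • v = 0)
    [Finite (TorP A p)] (hA : Nat.card (TorP A p) ≤ p) :
    Finite (V →+ A) ∧ Nat.card (V →+ A) ≤ Nat.card V := by
  letI : Module (ZMod p) V := AddCommGroup.zmodModule hV
  exact finite_and_card_addMonoidHom_le_of_module p hA

variable (s : V →+ V)

/-- the `-1`-eigenspace of an additive endomorphism. -/
def antiSub : AddSubgroup V where
  carrier := {x | s x = -x}
  zero_mem' := by simp
  add_mem' := fun {a b} ha hb => by
    change s (a + b) = -(a + b)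
    rw [map_add, ha, hb, neg_add]
  neg_mem' := fun {a} ha => by
    change s (-a) = - -a
    rw [map_neg, ha]

theorem mem_antiSub {x : V} : x ∈ antiSub s ↔ s x = -x := Iff.rfl

/-- the anti-equivariant homomorphisms. -/
abbrev AntiHom (c : A → A) : Type := {φ : V →+ A // ∀ x, φ (s x) = c (φ x)}

/-- an anti-equivariant homomorphism vanishing on `V⁻` vanishes. -/
theorem antiHom_restrict_injective (hp2 : p ≠ 2) (hV : ∀ v : V, p • v = 0)
    (hs : ∀ x, s (s x) = x) (c : A → A) (hc : ∀ a : A, p • a = 0 → c a = -a) :
    Function.Injective (fun φ : AntiHom s c => φ.1.comp (antiSub s).subtype) := by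
  have hodd : Nat.Coprime 2 p := by
    rw [Nat.coprime_comm]
    exact (Nat.coprime_primes hp.out Nat.prime_two).mpr hp2
  have key : ∀ φ ψ : AntiHom s c, (∀ w : antiSub s, φ.1 w.1 = ψ.1 w.1) → ∀ x, φ.1 x = ψ.1 x := by
    intro φ ψ h x
    have hφp : ∀ (χ : AntiHom s c) (y : V), p • χ.1 y = 0 := fun χ y => by
      rw [← map_nsmul, hV, map_zero]
    -- the values on `x + s x` vanish
    have hplus : ∀ χ : AntiHom s c, χ.1 (x + s x) = 0 := fun χ => by
      rw [map_add, χ.2 x, hc _ (hφp χ x), add_neg_cancel]
    -- `x - s x` lies in `V⁻`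
    have hminus : x - s x ∈ antiSub s := by
      rw [mem_antiSub, map_sub, hs, neg_sub]
    have h1 : φ.1 (x - s x) = ψ.1 (x - s x) := h ⟨_, hminus⟩
    have h2 : φ.1 (2 • x) = ψ.1 (2 • x) := by
      have : (2 : ℕ) • x = (x + s x) + (x - s x) := by rw [two_nsmul]; abel
      have e : ∀ χ : AntiHom s c, χ.1 (2 • x) = χ.1 (x - s x) := fun χ => by
        rw [this, map_add χ.1 (x + s x) (x - s x), hplus χ, zero_add]
      rw [e φ, e ψ, h1]
    rw [map_nsmul, map_nsmul] at h2
    -- `2` is invertible on the `p`-torsion
    have h3 : (2 : ℕ) • (φ.1 x - ψ.1 x) = 0 := by rw [smul_sub, h2, sub_self]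
    have h4 : p • (φ.1 x - ψ.1 x) = 0 := by rw [smul_sub, hφp φ x, hφp ψ x, sub_self]
    have h5 : (1 : ℕ) • (φ.1 x - ψ.1 x) = 0 := by
      have hg : Nat.gcd 2 p = 1 := hodd
      have hord := (addOrderOf_dvd_iff_nsmul_eq_zero.mpr h3)
      have hord' := (addOrderOf_dvd_iff_nsmul_eq_zero.mpr h4)
      have := Nat.dvd_gcd hord hord'
      rw [hg] at this
      exact addOrderOf_dvd_iff_nsmul_eq_zero.mp this
    rw [one_nsmul] at h5
    exact sub_eq_zero.mp h5
  intro φ ψ h
  apply Subtype.ext
  apply AddMonoidHom.ext
  intro x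
  exact key φ ψ (fun w => DFunLike.congr_fun h w) x

/-- **the count**: there are at most `#V⁻` anti-equivariant homomorphisms. -/
theorem finite_and_card_antiHom_le [Finite V] (hp2 : p ≠ 2) (hV : ∀ v : V, p • v = 0)
    (hs : ∀ x, s (s x) = x) (c : A → A) (hc : ∀ a : A, p • a = 0 → c a = -a)
    [Finite (TorP A p)] (hA : Nat.card (TorP A p) ≤ p) :
    Finite (AntiHom s c) ∧ Nat.card (AntiHom s c) ≤ Nat.card (antiSub s) := by
  have hW : ∀ w : antiSub s, p • w = 0 := fun w => Subtype.ext (hV w.1)
  obtain ⟨hfin, hcard⟩ := finite_and_card_addMonoidHom_le (V := antiSub s) (A := A) p hW hA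
  have hinj := antiHom_restrict_injective p s hp2 hV hs c hc
  exact ⟨Finite.of_injective _ hinj, (Nat.card_le_card_of_injective _ hinj).trans hcard⟩

end Abstract

end Fermat.Agent.TW.Odd
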