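/-
S56 (Taylor–Wiles) — helper1, small leaf (ODD), part 3: the archimedean count.

For a residual representation `ρbar` with cyclotomic determinant in odd characteristic `p`, with
`rbar = resMatrixOf ρbar β` and `c` = complex conjugation: the additive maps
`φ : ad⁰ rbar → Ω^×` with `φ (Ad(rbar c) x) = c • φ x` number at most `|k|²`.
-/
import Fermat.Agent.TW.Odd_helper1
import Fermat.Agent.TW.Odd_helper1_Count

set_option autoImplicit false
set_option linter.unusedSectionVars false
set_option linter.style.haveILetI false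

open Polynomial Matrix

namespace Fermat.Agent.TW.Odd

open Fermat.Agent.S53

/-- `Ω = AlgebraicClosure ℚ`. -/
local notation "Ω" => AlgebraicClosure ℚ
/-- `GQ = Gal(Ω/ℚ)`. -/
local notation "GQ" => (AlgebraicClosure ℚ ≃ₐ[ℚ] AlgebraicClosure ℚ)

section Torsion

variable (p : ℕ) [hp : Fact p.Prime]

/-- the `p`-torsion of `Ω^×` (additively) injects into the `p`-th roots of unity. -/
noncomputable def torToRoots : TorP (Additive Ωˣ) p → rootsOfUnity p Ω := fun a =>
  ⟨Additive.toMul a.1, by
    rw [mem_rootsOfUnity]
    exact congrArg Additive.toMul a.2⟩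

theorem torToRoots_injective : Function.Injective (torToRoots p) := by
  intro a b h
  apply Subtype.ext
  exact congrArg (fun u : rootsOfUnity p Ω => Additive.ofMul (u : Ωˣ)) h

instance finite_torP_units : Finite (TorP (Additive Ωˣ) p) :=
  haveI : NeZero p := ⟨hp.out.ne_zero⟩
  Finite.of_injective _ (torToRoots_injective p)

theorem card_torP_units_le : Nat.card (TorP (Additive Ωˣ) p) ≤ p := by
  haveI : NeZero p := ⟨hp.out.ne_zero⟩
  exact (Nat.card_le_card_of_injective _ (torToRoots_injective p)).trans (card_rootsOfUnity Ω p)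

/-- complex conjugation on `Ω^×`, additively. -/
noncomputable def conjAdd : Additive Ωˣ → Additive Ωˣ := fun a =>
  Additive.ofMul (complexConjugation • Additive.toMul a)

/-- complex conjugation is `-1` on the `p`-torsion of `Ω^×`. -/
theorem conjAdd_of_torsion (a : Additive Ωˣ) (ha : p • a = 0) : conjAdd a = -a := by
  have h1 : (Additive.toMul a) ^ p = 1 := congrArg Additive.toMul ha
  have h2 : ((Additive.toMul a : Ωˣ) : Ω) ^ p = 1 := by
    rw [← Units.val_pow_eq_pow_val, h1, Units.val_one]
  have h3 := complexConjugation_of_pow_eq_one hp.out.ne_zero h2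
  apply congrArg Additive.ofMul
  apply Units.ext
  rw [Units.val_inv_eq_inv_val]
  exact h3

end Torsion

section Anti

variable {k : Type} [Field k]

/-- the `-1`-eigenspace of the conjugation by an involution `M` of trace `0` on the trace-zero
matrices has at most `|k|²` elements. -/
theorem card_anti_le [Finite k] (h2 : (2 : k) ≠ 0) (M : Matrix (Fin 2) (Fin 2) k)
    (hM : M * M = 1) (htr : M.trace = 0) :
    Nat.card {x : sl2 k // M * x.1 * M = -x.1} ≤ Nat.card k ^ 2 := by
  classical
  have hM0 : M ≠ 0 := by
    rintro rfl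
    rw [zero_mul] at hM
    exact zero_ne_one hM
  let F : k × {x : sl2 k // M * x.1 * M = -x.1} → k × k × k := fun ax =>
    ((ax.1 • M + ax.2.1.1) 0 0, (ax.1 • M + ax.2.1.1) 0 1, (ax.1 • M + ax.2.1.1) 1 0)
  have htr' : ∀ ax : k × {x : sl2 k // M * x.1 * M = -x.1},
      (ax.1 • M + ax.2.1.1).trace = 0 := by
    intro ax
    rw [Matrix.trace_add, Matrix.trace_smul, htr, smul_zero, zero_add]
    exact (mem_sl2_iff _).mp ax.2.1.2
  have hF : Function.Injective F := by
    intro ax by' h
    have e00 : (ax.1 • M + ax.2.1.1) 0 0 = (by'.1 • M + by'.2.1.1) 0 0 := congrArg Prod.fst h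
    have e01 : (ax.1 • M + ax.2.1.1) 0 1 = (by'.1 • M + by'.2.1.1) 0 1 :=
      congrArg (fun t : k × k × k => t.2.1) h
    have e10 : (ax.1 • M + ax.2.1.1) 1 0 = (by'.1 • M + by'.2.1.1) 1 0 :=
      congrArg (fun t : k × k × k => t.2.2) h
    have t1 := htr' ax
    have t2 := htr' by'
    rw [Matrix.trace_fin_two] at t1 t2
    have e11 : (ax.1 • M + ax.2.1.1) 1 1 = (by'.1 • M + by'.2.1.1) 1 1 := by
      have a1 : (ax.1 • M + ax.2.1.1) 1 1 = -(ax.1 • M + ax.2.1.1) 0 0 :=
        eq_neg_of_add_eq_zero_right t1
      have a2 : (by'.1 • M + by'.2.1.1) 1 1 = -(by'.1 • M + by'.2.1.1) 0 0 :=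
        eq_neg_of_add_eq_zero_right t2
      rw [a1, a2, e00]
    have heq : ax.1 • M + ax.2.1.1 = by'.1 • M + by'.2.1.1 := by
      ext i j
      fin_cases i <;> fin_cases j
      · exact e00
      · exact e01
      · exact e10
      · exact e11
    -- the difference lies in both eigenspaces
    set z : Matrix (Fin 2) (Fin 2) k := by'.2.1.1 - ax.2.1.1 with hz
    have hz1 : (ax.1 - by'.1) • M = z := by
      rw [hz, sub_smul, sub_eq_sub_iff_add_eq_add, add_comm (by'.2.1.1)]
      exact heq
    have hz2 : M * z * M = z := by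
      rw [← hz1, Matrix.mul_smul, Matrix.smul_mul, hM, one_mul]
    have hz3 : M * z * M = -z := by
      rw [hz, mul_sub, sub_mul, by'.2.2, ax.2.2]
      abel
    have hz0 : z = 0 := by
      have h4 : (2 : k) • z = 0 := by
        rw [two_smul]
        nth_rewrite 1 [← hz2]
        rw [hz3, neg_add_cancel]
      rcases smul_eq_zero.mp h4 with h | h
      · exact absurd h h2
      · exact h
    have hx : ax.2 = by'.2 := by
      apply Subtype.ext
      apply Subtype.ext
      exact (sub_eq_zero.mp hz0).symm
    have ha : ax.1 = by'.1 := by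
      rw [hz0] at hz1
      rcases smul_eq_zero.mp hz1 with h | h
      · exact sub_eq_zero.mp h
      · exact absurd h hM0
    exact Prod.ext ha hx
  haveI : Finite {x : sl2 k // M * x.1 * M = -x.1} := Subtype.finite
  have h3 := Nat.card_le_card_of_injective F hF
  rw [Nat.card_prod, Nat.card_prod, Nat.card_prod] at h3
  have hk : 0 < Nat.card k := Nat.card_pos
  have h4 : Nat.card k * Nat.card {x : sl2 k // M * x.1 * M = -x.1} ≤
      Nat.card k * Nat.card k ^ 2 := by
    rw [sq]; exact h3
  exact Nat.le_of_mul_le_mul_left h4 hk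

end Anti

section Final

variable {k : Type} [Field k] [Finite k] (p : ℕ) [hp : Fact p.Prime] [CharP k p]

/-- **(ODD.2)**: the archimedean count. -/
theorem finite_and_card_conj_equivariant_le (hp2 : p ≠ 2) (ρbar : ResidualGaloisRep k)
    (β : Module.Basis (Fin 2) k ρbar.V)
    (hdet : (GaloisRepAdic.ofResidualGaloisRep ρbar).DetIsCyclotomic p) :
    Finite {φ : (adRep (resMatrixOf ρbar β)).V →+ Additive Ωˣ //
      ∀ x, φ ((adRep (resMatrixOf ρbar β)).ρ complexConjugation x) =
        Additive.ofMul (complexConjugation • Additive.toMul (φ x))} ∧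
    Nat.card {φ : (adRep (resMatrixOf ρbar β)).V →+ Additive Ωˣ //
      ∀ x, φ ((adRep (resMatrixOf ρbar β)).ρ complexConjugation x) =
        Additive.ofMul (complexConjugation • Additive.toMul (φ x))} ≤ Nat.card k ^ 2 := by
  have h2 : (2 : k) ≠ 0 := by
    intro h
    have h' : ((2 : ℕ) : k) = 0 := by exact_mod_cast h
    rw [CharP.cast_eq_zero_iff k p] at h'
    exact hp2 ((Nat.prime_dvd_prime_iff_eq hp.out Nat.prime_two).mp h')
  set rbar := resMatrixOf ρbar β with hrbar
  set M := rbar complexConjugation with hMdef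
  have hM : M * M = 1 := resMatrixOf_complexConjugation_mul_self ρbar β
  have htr : M.trace = 0 := trace_resMatrixOf_complexConjugation ρbar β p hdet
  have hMinv : rbar complexConjugation⁻¹ = M := resMatrixOf_complexConjugation_inv ρbar β
  let s : (adRep rbar).V →+ (adRep rbar).V :=
    ((adRep rbar).ρ complexConjugation).toAddMonoidHom
  have hs : ∀ x, s (s x) = x := by
    intro x
    apply Subtype.ext
    change rbar complexConjugation * (rbar complexConjugation * (show sl2 k from x).1 *
      rbar complexConjugation⁻¹) * rbar complexConjugation⁻¹ = (show sl2 k from x).1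
    rw [hMinv]
    calc M * (M * (show sl2 k from x).1 * M) * M
        = (M * M) * (show sl2 k from x).1 * (M * M) := by simp only [mul_assoc]
      _ = (show sl2 k from x).1 := by rw [hM, one_mul, mul_one]
  have hV : ∀ v : (adRep rbar).V, p • v = 0 := nsmul_adRep p rbar
  obtain ⟨hfin, hcard⟩ := finite_and_card_antiHom_le (V := (adRep rbar).V)
    (A := Additive Ωˣ) p s hp2 hV hs conjAdd (conjAdd_of_torsion p) (card_torP_units_le p)
  refine ⟨hfin, hcard.trans ?_⟩
  -- the anti-invariants
  have h3 : Nat.card (antiSub s) ≤ Nat.card {x : sl2 k // M * x.1 * M = -x.1} := by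
    refine Nat.card_le_card_of_injective
      (fun w : antiSub s => (⟨(show sl2 k from w.1), by
        have h4 : s w.1 = -w.1 := w.2
        have h5 := congrArg (fun t : (adRep rbar).V => (show sl2 k from t).1) h4
        change rbar complexConjugation * (show sl2 k from w.1).1 * rbar complexConjugation⁻¹ =
          -(show sl2 k from w.1).1 at h5
        rw [hMinv] at h5
        exact h5⟩ : {x : sl2 k // M * x.1 * M = -x.1})) ?_
    intro w w' h
    apply Subtype.ext
    exact congrArg (fun t : {x : sl2 k // M * x.1 * M = -x.1} => t.1) h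
  exact h3.trans (card_anti_le h2 M hM htr)

end Final

end Fermat.Agent.TW.Odd
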