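/-
S56 (Taylor–Wiles) — helper9. Leaf (PHI) for helper3's Euler characteristic assembly:
for the Poitou–Tate datum `twDatum hp2 S hpS` and a finite `X` killed by `p`, the duality maps
`phiJ u X : Ext^r(X, J) → (⨁_v H^s(G_v, X))^∨` (`s + r = 2`) are bijective for suitable
local units `u_v` prime to `p` (all hypotheses discharged from `TW/Glue_helper9`).
-/
import Fermat.Agent.TW.Glue_helper9

set_option autoImplicit false
set_option linter.unusedSectionVars false

open CategoryTheory CategoryTheory.Abelian ExtCitation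

namespace Fermat.Agent.TW

open Fermat.Agent.CFT.Sm Fermat.Agent.CFT.Bridge Fermat.Agent.CFT.Arith Fermat.Agent.CFT

section Phi

variable {p : ℕ} [Fact p.Prime] (hp2 : p ≠ 2) (S : Finset Nat.Primes) (hpS : pPrime p ∈ S)
  (X : SmRep ℤ (levelBasis S)) [hfin : Finite X.obj.V] (hX : ∀ x : X.obj.V, p • x = 0)

include hX in
/-- **(PHI)**: there are local units `u_v` prime to `p` such that BOTH `phiJ u X` in bidegrees
`(0, 2)` and `(1, 1)` are bijective, and `u` satisfies the reciprocity relation of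
`PTDatum.exists_units`. -/
theorem twDatum_exists_units_phiJ_bijective :
    ∃ u : ↥S → ℤ, (∀ v, ¬ (p : ℤ) ∣ u v) ∧
      Function.Bijective ((twDatum hp2 S hpS).phiJ u X (show 0 + 2 = 2 from rfl)) ∧
      Function.Bijective ((twDatum hp2 S hpS).phiJ u X (show 1 + 1 = 2 from rfl)) := by
  classical
  obtain ⟨u, hu', -⟩ := (twDatum hp2 S hpS).exists_units
    (fun v => (twDatum hp2 S hpS).tau_two_injective v _)
  have hL1 := fun v => (twDatum_locPairN_bijective hp2 S hpS X hX v).2
  have hL2 := fun v => (twDatum_locPairN_bijective hp2 S hpS X hX v).1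
  have hCF1 := fun v => twDatum_tau_one_bijective hp2 S hpS X hX v
  have hCF2b := fun v => twDatum_tau_two_bijective hp2 S hpS X hX v
  refine ⟨u, hu', ⟨?_, ?_⟩, ⟨?_, ?_⟩⟩
  · exact (twDatum hp2 S hpS).phiJ_injective u hu' X hX _ (fun v => (hL2 v).1)
      (fun v => (hCF2b v).1)
  · exact (twDatum hp2 S hpS).phiJ_surjective u hu' (twDatum_incl_proj hp2 S hpS)
      (twDatum_incl_proj_of_ne hp2 S hpS) X hX _ (fun v => (hL2 v).2) (fun v => (hCF2b v).2)
  · exact (twDatum hp2 S hpS).phiJ_injective u hu' X hX _ (fun v => (hL1 v).1)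
      (fun v => (hCF1 v).1)
  · exact (twDatum hp2 S hpS).phiJ_surjective u hu' (twDatum_incl_proj hp2 S hpS)
      (twDatum_incl_proj_of_ne hp2 S hpS) X hX _ (fun v => (hL1 v).2) (fun v => (hCF1 v).2)

include hX in
/-- **(PHI)**, the literal shape requested by helper3. -/
theorem twDatum_exists_phiJ_two_bijective :
    ∃ u : ↥S → ℤ, (∀ v, ¬ (p : ℤ) ∣ u v) ∧
      Function.Bijective ((twDatum hp2 S hpS).phiJ u X (show 0 + 2 = 2 from rfl)) := by
  obtain ⟨u, hu, h, -⟩ := twDatum_exists_units_phiJ_bijective hp2 S hpS X hX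
  exact ⟨u, hu, h⟩

end Phi

end Fermat.Agent.TW
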